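import Mathlib
import Fermat.Prelude.Def_AlgebraicCurve_BaseChangeGalois
import Fermat.Prelude.Def_ModularCurve_ArithmeticGalois
import Fermat.Agent.S24.FFDeg
import Fermat.Agent.S18.S24Export

/-!
# S37: evaluation at a place and its Galois equivariance

For a place `P` of degree one of a field `F` over `K` the value `f(P) ∈ K` of a function `f`
regular at `P` is the unique constant `c` with `f - c` in the maximal ideal of `O_P`.

* `ev P hP : O_P →+* K` with `ev_algebraMap`, `ker_ev`, `ev_eq_iff`, `ev_eq_iff_ord`;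
* `(E1)` the valuation ring of `g • P` for a semilinear automorphism `g` (`mem_smul_iff`,
  `smul_mem`);
* `(E2)` `ev_smul` : `(g • f)(g • P) = g (f(P))`;
* the special case `F_L = ℚ̄(j(q^d) : d ∣ N)` with the coefficientwise action of `Gal(ℚ̄/ℚ)`:
  `evL`, `evL_galois`, `evL_of_fixed`.
-/

set_option autoImplicit false

open AlgebraicCurve IsLocalRing

namespace Fermat.Agent.S37.EvalGal

section Generic

variable {K F : Type*} [Field K] [Field F] [Algebra K F] (P : Place K F)

/-- the constants are the residue field of a place of degree one. -/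
theorem bijective_algebraMap (hP : P.deg = 1) :
    Function.Bijective (algebraMap K P.ResidueField) := by
  refine ⟨(algebraMap K P.ResidueField).injective, fun r => ?_⟩
  obtain ⟨c, hc⟩ := (finrank_eq_one_iff_of_nonzero' (1 : P.ResidueField) one_ne_zero).mp hP r
  exact ⟨c, by rw [Algebra.algebraMap_eq_smul_one, hc]⟩

/-- the identification of the constants with the residue field. -/
noncomputable def resEquiv (hP : P.deg = 1) : K ≃+* P.ResidueField :=
  RingEquiv.ofBijective (algebraMap K P.ResidueField) (bijective_algebraMap P hP)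

theorem resEquiv_apply (hP : P.deg = 1) (c : K) :
    resEquiv P hP c = algebraMap K P.ResidueField c := rfl

/-- **The value of a function at a place of degree one.** -/
noncomputable def ev (hP : P.deg = 1) : ↥P.toValuationSubring →+* K :=
  ((resEquiv P hP).symm : P.ResidueField →+* K).comp (residue ↥P.toValuationSubring)

theorem ev_apply (hP : P.deg = 1) (x : ↥P.toValuationSubring) :
    ev P hP x = (resEquiv P hP).symm (residue ↥P.toValuationSubring x) := rfl

theorem algebraMap_ev (hP : P.deg = 1) (x : ↥P.toValuationSubring) :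
    algebraMap K P.ResidueField (ev P hP x) = residue ↥P.toValuationSubring x := by
  rw [ev_apply, ← resEquiv_apply P hP, RingEquiv.apply_symm_apply]

@[simp]
theorem ev_algebraMap (hP : P.deg = 1) (c : K) :
    ev P hP (algebraMap K ↥P.toValuationSubring c) = c := by
  rw [ev_apply]
  apply (resEquiv P hP).injective
  rw [RingEquiv.apply_symm_apply, resEquiv_apply]
  rfl

theorem ev_surjective (hP : P.deg = 1) : Function.Surjective (ev P hP) :=
  fun c => ⟨_, ev_algebraMap P hP c⟩

theorem ev_eq_zero_iff (hP : P.deg = 1) (x : ↥P.toValuationSubring) :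
    ev P hP x = 0 ↔ x ∈ maximalIdeal ↥P.toValuationSubring := by
  rw [ev_apply, map_eq_zero_iff _ (resEquiv P hP).symm.injective, residue_eq_zero_iff]

theorem ker_ev (hP : P.deg = 1) :
    RingHom.ker (ev P hP) = maximalIdeal ↥P.toValuationSubring := by
  ext x
  rw [RingHom.mem_ker, ev_eq_zero_iff]

theorem sub_ev_mem (hP : P.deg = 1) (x : ↥P.toValuationSubring) :
    x - algebraMap K ↥P.toValuationSubring (ev P hP x) ∈ maximalIdeal ↥P.toValuationSubring := by
  rw [← ev_eq_zero_iff P hP, map_sub, ev_algebraMap, sub_self]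

theorem ev_eq_iff (hP : P.deg = 1) (x : ↥P.toValuationSubring) (c : K) :
    ev P hP x = c ↔
      x - algebraMap K ↥P.toValuationSubring c ∈ maximalIdeal ↥P.toValuationSubring := by
  rw [← ev_eq_zero_iff P hP, map_sub, ev_algebraMap, sub_eq_zero]

/-- the maximal ideal of a place in terms of `ord`. -/
theorem mem_maximalIdeal_iff (x : ↥P.toValuationSubring) :
    x ∈ maximalIdeal ↥P.toValuationSubring ↔ x = 0 ∨ 0 < P.ord (x : F) := by
  rcases eq_or_ne x 0 with rfl | hx
  · simp
  have hx' : (x : F) ≠ 0 := fun h => hx (Subtype.ext h)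
  rw [mem_maximalIdeal, mem_nonunits_iff, Fermat.Agent.S24.FFDeg.ord_pos_iff P hx']
  constructor
  · intro hu
    refine Or.inr fun hinv => hu ?_
    exact IsUnit.of_mul_eq_one ⟨(x : F)⁻¹, hinv⟩ (Subtype.ext (mul_inv_cancel₀ hx'))
  · rintro (h | h) hu
    · exact hx h
    · obtain ⟨u, rfl⟩ := hu
      apply h
      have : ((u : ↥P.toValuationSubring) : F)⁻¹ = ((u⁻¹ : (↥P.toValuationSubring)ˣ) : F) := by
        apply inv_eq_of_mul_eq_one_right
        have h1 : (u : ↥P.toValuationSubring) * (u⁻¹ : (↥P.toValuationSubring)ˣ) = 1 :=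
          u.mul_inv
        exact_mod_cast congrArg Subtype.val h1
      rw [this]
      exact ((u⁻¹ : (↥P.toValuationSubring)ˣ) : ↥P.toValuationSubring).2

/-- the value at a place in terms of `ord`. -/
theorem ev_eq_iff_ord (hP : P.deg = 1) (x : ↥P.toValuationSubring) (c : K) :
    ev P hP x = c ↔
      (x : F) = algebraMap K F c ∨ 0 < P.ord ((x : F) - algebraMap K F c) := by
  rw [ev_eq_iff, mem_maximalIdeal_iff]
  constructor
  · rintro (h | h)
    · left
      have := congrArg Subtype.val h
      exact sub_eq_zero.mp this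
    · exact Or.inr h
  · rintro (h | h)
    · left
      exact Subtype.ext (sub_eq_zero.mpr h)
    · exact Or.inr h

/-- a function regular at `P` with a prescribed value: existence in terms of `ord`. -/
theorem ev_mk_eq_of_ord_pos (hP : P.deg = 1) (f : F) (c : K)
    (h : 0 < P.ord (f - algebraMap K F c)) (hf : f ∈ P.toValuationSubring) :
    ev P hP ⟨f, hf⟩ = c :=
  (ev_eq_iff_ord P hP ⟨f, hf⟩ c).mpr (Or.inr h)

end Generic

section Semilinear

open scoped Pointwise

variable {K F : Type*} [Field K] [Field F] [Algebra K F] (g : SemilinearAut K F) (P : Place K F)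

/-- **(E1)** `O_{gP} = g(O_P)`. -/
theorem mem_smul_iff (y : F) :
    y ∈ (g • P).toValuationSubring ↔ g⁻¹ • y ∈ P.toValuationSubring := by
  rw [SemilinearAut.smul_toValuationSubring]
  exact ValuationSubring.mem_pointwise_smul_iff_inv_smul_mem

theorem smul_mem {x : F} (hx : x ∈ P.toValuationSubring) :
    g • x ∈ (g • P).toValuationSubring := by
  rw [SemilinearAut.smul_toValuationSubring]
  exact ValuationSubring.smul_mem_pointwise_smul g x _ hx

theorem smul_mem_iff (x : F) :
    g • x ∈ (g • P).toValuationSubring ↔ x ∈ P.toValuationSubring := by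
  rw [mem_smul_iff, inv_smul_smul]

theorem deg_smul_eq_one (hP : P.deg = 1) : (g • P).deg = 1 := by
  rw [SemilinearAut.deg_smul]
  exact hP

/-- the transport `O_P ≃ O_{gP}` maps the maximal ideal into the maximal ideal. -/
theorem smulEquiv_mem_maximalIdeal {x : ↥P.toValuationSubring}
    (hx : x ∈ maximalIdeal ↥P.toValuationSubring) :
    (⟨g • (x : F), smul_mem g P x.2⟩ : ↥(g • P).toValuationSubring) ∈
      maximalIdeal ↥(g • P).toValuationSubring := by
  refine (mem_maximalIdeal _).mpr (mem_nonunits_iff.mpr fun hu => ?_)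
  refine mem_nonunits_iff.mp ((mem_maximalIdeal _).mp hx) ?_
  obtain ⟨y, hy⟩ := hu.exists_right_inv
  have hy' : g • (x : F) * (y : F) = 1 := congrArg Subtype.val hy
  have hmem : g⁻¹ • (y : F) ∈ P.toValuationSubring := (mem_smul_iff g P _).mp y.2
  refine IsUnit.of_mul_eq_one ⟨g⁻¹ • (y : F), hmem⟩ (Subtype.ext ?_)
  have h1 := congrArg (g⁻¹ • ·) hy'
  simpa [smul_mul', inv_smul_smul] using h1

/-- **(E2)** `(g • f)(g • P) = g (f(P))`. -/
theorem ev_smul (hP : P.deg = 1) (x : ↥P.toValuationSubring) :
    ev (g • P) (deg_smul_eq_one g P hP) ⟨g • (x : F), smul_mem g P x.2⟩ =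
      SemilinearAut.baseAut g (ev P hP x) := by
  rw [ev_eq_iff]
  have h1 := smulEquiv_mem_maximalIdeal g P (sub_ev_mem P hP x)
  have h2 : (⟨g • ((x - algebraMap K ↥P.toValuationSubring (ev P hP x) :
        ↥P.toValuationSubring) : F), smul_mem g P (x - algebraMap K _ (ev P hP x)).2⟩ :
        ↥(g • P).toValuationSubring) =
      (⟨g • (x : F), smul_mem g P x.2⟩ : ↥(g • P).toValuationSubring) -
        algebraMap K ↥(g • P).toValuationSubring (SemilinearAut.baseAut g (ev P hP x)) := by
    apply Subtype.ext
    push_cast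
    rw [smul_sub, Place.coe_algebraMap, Place.coe_algebraMap, SemilinearAut.smul_algebraMap]
  rw [h2] at h1
  exact h1

/-- `(E2)` for a function fixed by `g`: `f(g • P) = g (f(P))`. -/
theorem ev_smul_of_fixed (hP : P.deg = 1) (x : ↥P.toValuationSubring) (hx : g • (x : F) = x) :
    ev (g • P) (deg_smul_eq_one g P hP)
        ⟨(x : F), by have := smul_mem g P x.2; rwa [hx] at this⟩ =
      SemilinearAut.baseAut g (ev P hP x) := by
  rw [← ev_smul g P hP x]
  congr 1
  exact Subtype.ext hx.symm

end Semilinear

section ModularCurveBar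

open ModularCurve

local notation "Qb" => AlgebraicClosure ℚ

variable {N : ℕ}

/-- the Galois action on the places of `X₀(N)` over `ℚ̄` (the one underlying the action on
`JZero N`). -/
noncomputable def galSMul (σ : Qb ≃ₐ[ℚ] Qb) (P : Place Qb (modularFunctionFieldBar N)) :
    Place Qb (modularFunctionFieldBar N) :=
  arithmeticGalois (modularFunctionFieldFull N) σ • P

theorem galSMul_def (σ : Qb ≃ₐ[ℚ] Qb) (P : Place Qb (modularFunctionFieldBar N)) :
    galSMul σ P = arithmeticGalois (modularFunctionFieldFull N) σ • P := rfl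

/-- **(E1)** on `F_L`: `x ∈ O_P → σ x ∈ O_{σP}` (`σ x` = coefficientwise `σ`). -/
theorem galois_smul_mem (σ : Qb ≃ₐ[ℚ] Qb) (P : Place Qb (modularFunctionFieldBar N))
    {x : modularFunctionFieldBar N} (hx : x ∈ P.toValuationSubring) :
    arithmeticGalois (modularFunctionFieldFull N) σ • x ∈ (galSMul σ P).toValuationSubring :=
  smul_mem _ P hx

theorem galois_smul_mem_iff (σ : Qb ≃ₐ[ℚ] Qb) (P : Place Qb (modularFunctionFieldBar N))
    (x : modularFunctionFieldBar N) :
    arithmeticGalois (modularFunctionFieldFull N) σ • x ∈ (galSMul σ P).toValuationSubring ↔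
      x ∈ P.toValuationSubring :=
  smul_mem_iff _ P x

/-- the Galois action on divisor classes is induced by the action on places. -/
theorem galois_smul_mk (σ : Qb ≃ₐ[ℚ] Qb)
    (D : Divisor.degZero (K := Qb) (F := modularFunctionFieldBar N)) :
    σ • (Pic0.mk D : JZero N) =
      Pic0.mk (SemilinearAut.degZeroSMulHom (arithmeticGalois (modularFunctionFieldFull N) σ) D) :=
  rfl

theorem galois_smul_single (σ : Qb ≃ₐ[ℚ] Qb) (P : Place Qb (modularFunctionFieldBar N)) (n : ℤ) :
    arithmeticGalois (modularFunctionFieldFull N) σ • (Finsupp.single P n :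
        Divisor Qb (modularFunctionFieldBar N)) = Finsupp.single (galSMul σ P) n :=
  SemilinearAut.smul_single _ P n

variable [NeZero N]

/-- **The value of a function on `X₀(N)` over `ℚ̄` at a place.** -/
noncomputable def evL (P : Place Qb (modularFunctionFieldBar N)) :
    ↥P.toValuationSubring →+* Qb :=
  ev P (Fermat.Agent.S18.S24Export.deg_eq_one N P)

theorem evL_algebraMap (P : Place Qb (modularFunctionFieldBar N)) (c : Qb) :
    evL P (algebraMap Qb ↥P.toValuationSubring c) = c :=
  ev_algebraMap P _ c

theorem evL_eq_iff (P : Place Qb (modularFunctionFieldBar N)) (x : ↥P.toValuationSubring)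
    (c : Qb) :
    evL P x = c ↔
      x - algebraMap Qb ↥P.toValuationSubring c ∈ maximalIdeal ↥P.toValuationSubring :=
  ev_eq_iff P _ x c

theorem evL_eq_iff_ord (P : Place Qb (modularFunctionFieldBar N)) (x : ↥P.toValuationSubring)
    (c : Qb) :
    evL P x = c ↔ (x : modularFunctionFieldBar N) = algebraMap Qb _ c ∨
      0 < P.ord ((x : modularFunctionFieldBar N) - algebraMap Qb _ c) :=
  ev_eq_iff_ord P _ x c

theorem ker_evL (P : Place Qb (modularFunctionFieldBar N)) :
    RingHom.ker (evL P) = maximalIdeal ↥P.toValuationSubring :=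
  ker_ev P _

/-- **(E2)** on `F_L`: `(σ f)(σ P) = σ (f(P))`. -/
theorem evL_galois (σ : Qb ≃ₐ[ℚ] Qb) (P : Place Qb (modularFunctionFieldBar N))
    (x : ↥P.toValuationSubring) :
    evL (galSMul σ P) ⟨arithmeticGalois (modularFunctionFieldFull N) σ •
        (x : modularFunctionFieldBar N), galois_smul_mem σ P x.2⟩ = σ (evL P x) :=
  ev_smul (arithmeticGalois (modularFunctionFieldFull N) σ) P _ x

/-- `(E2)` for a function with `σ`-fixed `q`-expansion: `f(σ P) = σ (f(P))`. -/
theorem evL_of_fixed (σ : Qb ≃ₐ[ℚ] Qb) (P : Place Qb (modularFunctionFieldBar N))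
    (x : ↥P.toValuationSubring)
    (hx : arithmeticGalois (modularFunctionFieldFull N) σ • (x : modularFunctionFieldBar N) = x) :
    evL (galSMul σ P)
        ⟨(x : modularFunctionFieldBar N), by have := galois_smul_mem σ P x.2; rwa [hx] at this⟩ =
      σ (evL P x) :=
  ev_smul_of_fixed (arithmeticGalois (modularFunctionFieldFull N) σ) P _ x hx

end ModularCurveBar

end Fermat.Agent.S37.EvalGal
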