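import Mathlib
import Fermat.Prelude.Def_AlgebraicCurve_DivisorClassGroup
import Fermat.Agent.S37.EvalGal

/-!
# S37: functions integral over a chart `A[t]` are regular with integral values

`K` a field with a valuation subring `A`, `F` a field over `K`, `P` a place of `F / K`,
`t : F` a coordinate. An element `f : F` integral over `A[t]` (the image of
`chartHom A t : A[X] → F`) is regular at every place `P` at which `t` is regular
(`mem_of_isIntegralElem`), and if `P` has degree one and `t(P) ∈ A` then `f(P) ∈ A`
(`ev_mem_of_isIntegralElem`, `exists_sub_mem_nonunits`).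

This gives the reduction character `chi : chartInt A t →+* ResidueField A`,
`f ↦ f(P) mod 𝔪_A`, of the ring `chartInt A t` of all elements integral over `A[t]`.
-/

set_option autoImplicit false

open AlgebraicCurve IsLocalRing Polynomial

namespace Fermat.Agent.S37.EvalInt

open Fermat.Agent.S37.EvalGal

variable {K F : Type*} [Field K] [Field F] [Algebra K F]

/-- The chart `A[X] → F`, `X ↦ t`. -/
noncomputable abbrev chartHom (A : ValuationSubring K) (t : F) : Polynomial ↥A →+* F :=
  Polynomial.eval₂RingHom ((algebraMap K F).comp A.subtype) t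

section Nonunits

variable (P : Place K F)

/-- dictionary: the `nonunits` form of "`f(P) = c`" is the `ev` form. -/
theorem sub_mem_nonunits_iff_ev (hP : P.deg = 1) (f : F) (hf : f ∈ P.toValuationSubring) (c : K) :
    f - algebraMap K F c ∈ P.toValuationSubring.nonunits ↔ ev P hP ⟨f, hf⟩ = c := by
  rw [ev_eq_iff, ← ValuationSubring.coe_mem_nonunits_iff]
  rfl

theorem mem_of_sub_mem_nonunits {f : F} {c : K}
    (h : f - algebraMap K F c ∈ P.toValuationSubring.nonunits) : f ∈ P.toValuationSubring := by
  have h1 : f - algebraMap K F c ∈ P.toValuationSubring := ValuationSubring.nonunits_subset h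
  have h2 := add_mem h1 (P.algebraMap_mem' c)
  rwa [sub_add_cancel] at h2

theorem ev_eq_of_sub_mem_nonunits (hP : P.deg = 1) {f : F} {c : K}
    (h : f - algebraMap K F c ∈ P.toValuationSubring.nonunits) :
    ev P hP ⟨f, mem_of_sub_mem_nonunits P h⟩ = c :=
  (sub_mem_nonunits_iff_ev P hP f _ c).mp h

/-- the value at a place is unique (no degree hypothesis). -/
theorem sub_mem_nonunits_unique {f : F} {a a' : K}
    (h : f - algebraMap K F a ∈ P.toValuationSubring.nonunits)
    (h' : f - algebraMap K F a' ∈ P.toValuationSubring.nonunits) : a = a' := by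
  by_contra hne
  have hd : algebraMap K F (a' - a) ∈ P.toValuationSubring.nonunits := by
    have := sub_mem h h'
    rwa [sub_sub_sub_cancel_left, ← map_sub] at this
  rcases (ValuationSubring.mem_nonunits_iff_or _).mp hd with h0 | h0
  · rw [map_eq_zero, sub_eq_zero] at h0
    exact hne h0.symm
  · apply h0
    rw [← map_inv₀]
    exact P.algebraMap_mem' _

end Nonunits

section Integral

variable (A : ValuationSubring K) (P : Place K F) (t : F)

/-- the chart with values in `O_P`, when `t` is regular at `P`. -/
noncomputable def chartHomVal (ht : t ∈ P.toValuationSubring) :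
    Polynomial ↥A →+* ↥P.toValuationSubring :=
  Polynomial.eval₂RingHom ((algebraMap K ↥P.toValuationSubring).comp A.subtype) ⟨t, ht⟩

theorem subtype_comp_chartHomVal (ht : t ∈ P.toValuationSubring) :
    P.toValuationSubring.subtype.comp (chartHomVal A P t ht) = chartHom A t := by
  apply Polynomial.ringHom_ext
  · intro a
    simp [chartHomVal, chartHom]
  · simp [chartHomVal, chartHom]

/-- **An element integral over `A[t]` is regular at every place where `t` is regular.** -/
theorem mem_of_isIntegralElem (ht : t ∈ P.toValuationSubring) {f : F}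
    (hf : (chartHom A t).IsIntegralElem f) : f ∈ P.toValuationSubring := by
  rw [← subtype_comp_chartHomVal A P t ht] at hf
  have h1 : (P.toValuationSubring.subtype).IsIntegralElem f := RingHom.IsIntegralElem.of_comp hf
  have h2 : IsIntegral ↥P.toValuationSubring f := h1
  obtain ⟨y, hy⟩ := IsIntegrallyClosed.isIntegral_iff.mp h2
  rw [← hy]
  exact y.2

theorem isIntegralElem_chartHomVal (ht : t ∈ P.toValuationSubring) {f : F}
    (hf : (chartHom A t).IsIntegralElem f) :
    (chartHomVal A P t ht).IsIntegralElem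
      (⟨f, mem_of_isIntegralElem A P t ht hf⟩ : ↥P.toValuationSubring) := by
  rw [← subtype_comp_chartHomVal A P t ht] at hf
  exact RingHom.IsIntegralElem.of_map (g := P.toValuationSubring.subtype)
    Subtype.val_injective hf

theorem ev_comp_chartHomVal (hP : P.deg = 1) (ht : t ∈ P.toValuationSubring) (a₀ : ↥A)
    (hta : ev P hP ⟨t, ht⟩ = a₀) :
    (ev P hP).comp (chartHomVal A P t ht) = A.subtype.comp (Polynomial.evalRingHom a₀) := by
  apply Polynomial.ringHom_ext
  · intro a
    simp [chartHomVal]
  · simp [chartHomVal, hta]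

/-- **The value at `P` of an element integral over `A[t]` lies in `A`, if `t(P) ∈ A`.** -/
theorem ev_mem_of_isIntegralElem (hP : P.deg = 1) (ht : t ∈ P.toValuationSubring) (a₀ : ↥A)
    (hta : ev P hP ⟨t, ht⟩ = a₀) {f : F} (hf : (chartHom A t).IsIntegralElem f) :
    ev P hP ⟨f, mem_of_isIntegralElem A P t ht hf⟩ ∈ A := by
  have h1 := (isIntegralElem_chartHomVal A P t ht hf).map (ev P hP)
  rw [ev_comp_chartHomVal A P t hP ht a₀ hta] at h1
  have h2 : (A.subtype).IsIntegralElem (ev P hP ⟨f, mem_of_isIntegralElem A P t ht hf⟩) :=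
    RingHom.IsIntegralElem.of_comp h1
  have h3 : IsIntegral ↥A (ev P hP ⟨f, mem_of_isIntegralElem A P t ht hf⟩) := h2
  obtain ⟨y, hy⟩ := IsIntegrallyClosed.isIntegral_iff.mp h3
  rw [← hy]
  exact y.2

/-- `nonunits` form: if `t(P) = a₀ ∈ A` and `f` is integral over `A[t]`, then `f(P) = a` for
some `a ∈ A`. -/
theorem exists_sub_mem_nonunits (hP : P.deg = 1) (a₀ : ↥A)
    (ht : t - algebraMap K F (a₀ : K) ∈ P.toValuationSubring.nonunits) {f : F}
    (hf : (chartHom A t).IsIntegralElem f) :
    ∃ a : ↥A, f - algebraMap K F (a : K) ∈ P.toValuationSubring.nonunits := by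
  have htm : t ∈ P.toValuationSubring := mem_of_sub_mem_nonunits P ht
  have hta : ev P hP ⟨t, htm⟩ = a₀ := ev_eq_of_sub_mem_nonunits P hP ht
  have hmem := ev_mem_of_isIntegralElem A P t hP htm a₀ hta hf
  exact ⟨⟨_, hmem⟩, (sub_mem_nonunits_iff_ev P hP f (mem_of_isIntegralElem A P t htm hf) _).mpr rfl⟩

end Integral

section Character

variable (A : ValuationSubring K) (t : F)

/-- The ring of all elements of `F` integral over the chart `A[t]`. -/
def chartInt : Subring F where
  carrier := {f | (chartHom A t).IsIntegralElem f}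
  mul_mem' := fun {x y} hx hy =>
    hx.of_mem_closure (chartHom A t) hy
      (Subring.mul_mem _ (Subring.subset_closure (Or.inl rfl)) (Subring.subset_closure (Or.inr rfl)))
  one_mem' := by
    have := (chartHom A t).isIntegralElem_map (x := 1)
    rwa [map_one] at this
  add_mem' := fun {x y} hx hy => hx.add (chartHom A t) hy
  zero_mem' := by
    have := (chartHom A t).isIntegralElem_map (x := 0)
    rwa [map_zero] at this
  neg_mem' := fun {x} hx => hx.neg (chartHom A t)

theorem mem_chartInt {f : F} : f ∈ chartInt A t ↔ (chartHom A t).IsIntegralElem f := Iff.rfl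

theorem chartHom_mem_chartInt (p : Polynomial ↥A) : chartHom A t p ∈ chartInt A t :=
  (chartHom A t).isIntegralElem_map

theorem algebraMap_mem_chartInt (a : ↥A) : algebraMap K F (a : K) ∈ chartInt A t := by
  have := chartHom_mem_chartInt A t (Polynomial.C a)
  simpa [chartHom] using this

theorem self_mem_chartInt : t ∈ chartInt A t := by
  have := chartHom_mem_chartInt A t Polynomial.X
  simpa [chartHom] using this

variable (P : Place K F)

/-- the elements integral over `A[t]`, inside `O_P`. -/
noncomputable def chartIntIncl (ht : t ∈ P.toValuationSubring) :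
    ↥(chartInt A t) →+* ↥P.toValuationSubring :=
  (chartInt A t).subtype.codRestrict P.toValuationSubring
    (fun f => mem_of_isIntegralElem A P t ht f.2)

theorem coe_chartIntIncl (ht : t ∈ P.toValuationSubring) (f : ↥(chartInt A t)) :
    ((chartIntIncl A t P ht f : ↥P.toValuationSubring) : F) = (f : F) := rfl

/-- **Evaluation at `P` on the ring of elements integral over `A[t]`, with values in `A`**
(for a place `P` of degree one with `t(P) = a₀ ∈ A`). -/
noncomputable def evInt (hP : P.deg = 1) (a₀ : ↥A)
    (ht : t - algebraMap K F (a₀ : K) ∈ P.toValuationSubring.nonunits) :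
    ↥(chartInt A t) →+* ↥A :=
  ((ev P hP).comp (chartIntIncl A t P (mem_of_sub_mem_nonunits P ht))).codRestrict A
    (fun f => ev_mem_of_isIntegralElem A P t hP (mem_of_sub_mem_nonunits P ht) a₀
      (ev_eq_of_sub_mem_nonunits P hP ht) f.2)

theorem coe_evInt (hP : P.deg = 1) (a₀ : ↥A)
    (ht : t - algebraMap K F (a₀ : K) ∈ P.toValuationSubring.nonunits) (f : ↥(chartInt A t)) :
    ((evInt A t P hP a₀ ht f : ↥A) : K) =
      ev P hP ⟨(f : F), mem_of_isIntegralElem A P t (mem_of_sub_mem_nonunits P ht) f.2⟩ := rfl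

/-- the defining property of `evInt`: `f - f(P)` vanishes at `P`. -/
theorem sub_evInt_mem_nonunits (hP : P.deg = 1) (a₀ : ↥A)
    (ht : t - algebraMap K F (a₀ : K) ∈ P.toValuationSubring.nonunits) (f : ↥(chartInt A t)) :
    (f : F) - algebraMap K F ((evInt A t P hP a₀ ht f : ↥A) : K) ∈
      P.toValuationSubring.nonunits :=
  (sub_mem_nonunits_iff_ev P hP (f : F)
    (mem_of_isIntegralElem A P t (mem_of_sub_mem_nonunits P ht) f.2) _).mpr (coe_evInt A t P hP a₀ ht f).symm

theorem evInt_eq_iff (hP : P.deg = 1) (a₀ : ↥A)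
    (ht : t - algebraMap K F (a₀ : K) ∈ P.toValuationSubring.nonunits) (f : ↥(chartInt A t))
    (a : ↥A) :
    evInt A t P hP a₀ ht f = a ↔
      (f : F) - algebraMap K F (a : K) ∈ P.toValuationSubring.nonunits := by
  constructor
  · rintro rfl
    exact sub_evInt_mem_nonunits A t P hP a₀ ht f
  · intro h
    exact Subtype.ext (sub_mem_nonunits_unique P (sub_evInt_mem_nonunits A t P hP a₀ ht f) h)

theorem evInt_algebraMap (hP : P.deg = 1) (a₀ : ↥A)
    (ht : t - algebraMap K F (a₀ : K) ∈ P.toValuationSubring.nonunits) (a : ↥A) :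
    evInt A t P hP a₀ ht ⟨algebraMap K F (a : K), algebraMap_mem_chartInt A t a⟩ = a := by
  rw [evInt_eq_iff]
  simp only [sub_self]
  exact zero_mem _

theorem evInt_self (hP : P.deg = 1) (a₀ : ↥A)
    (ht : t - algebraMap K F (a₀ : K) ∈ P.toValuationSubring.nonunits) :
    evInt A t P hP a₀ ht ⟨t, self_mem_chartInt A t⟩ = a₀ := by
  rw [evInt_eq_iff]
  exact ht

/-- **The reduction character** `f ↦ f(P) mod 𝔪_A` of the ring of elements integral over
`A[t]`, at a place `P` of degree one with `t(P) ∈ A`. -/
noncomputable def chi (hP : P.deg = 1) (a₀ : ↥A)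
    (ht : t - algebraMap K F (a₀ : K) ∈ P.toValuationSubring.nonunits) :
    ↥(chartInt A t) →+* ResidueField ↥A :=
  (residue ↥A).comp (evInt A t P hP a₀ ht)

theorem chi_apply (hP : P.deg = 1) (a₀ : ↥A)
    (ht : t - algebraMap K F (a₀ : K) ∈ P.toValuationSubring.nonunits) (f : ↥(chartInt A t)) :
    chi A t P hP a₀ ht f = residue ↥A (evInt A t P hP a₀ ht f) := rfl

theorem chi_eq_of_sub_mem_nonunits (hP : P.deg = 1) (a₀ : ↥A)
    (ht : t - algebraMap K F (a₀ : K) ∈ P.toValuationSubring.nonunits) (f : ↥(chartInt A t))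
    (a : ↥A) (h : (f : F) - algebraMap K F (a : K) ∈ P.toValuationSubring.nonunits) :
    chi A t P hP a₀ ht f = residue ↥A a := by
  rw [chi_apply, (evInt_eq_iff A t P hP a₀ ht f a).mpr h]

theorem chi_algebraMap (hP : P.deg = 1) (a₀ : ↥A)
    (ht : t - algebraMap K F (a₀ : K) ∈ P.toValuationSubring.nonunits) (a : ↥A) :
    chi A t P hP a₀ ht ⟨algebraMap K F (a : K), algebraMap_mem_chartInt A t a⟩ = residue ↥A a := by
  rw [chi_apply, evInt_algebraMap]

theorem chi_self (hP : P.deg = 1) (a₀ : ↥A)
    (ht : t - algebraMap K F (a₀ : K) ∈ P.toValuationSubring.nonunits) :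
    chi A t P hP a₀ ht ⟨t, self_mem_chartInt A t⟩ = residue ↥A a₀ := by
  rw [chi_apply, evInt_self]

/-- the character does not depend on the witnesses. -/
theorem evInt_congr (hP hP' : P.deg = 1) (a₀ a₀' : ↥A)
    (ht : t - algebraMap K F (a₀ : K) ∈ P.toValuationSubring.nonunits)
    (ht' : t - algebraMap K F (a₀' : K) ∈ P.toValuationSubring.nonunits) :
    evInt A t P hP a₀ ht = evInt A t P hP' a₀' ht' := by
  ext f
  exact congrArg Subtype.val
    ((evInt_eq_iff A t P hP a₀ ht f _).mpr (sub_evInt_mem_nonunits A t P hP' a₀' ht' f))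

end Character

end Fermat.Agent.S37.EvalInt
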