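/-
S37, block (W5) = the cover part of (W2): carriers and vocabulary of the cover chain
(DEFINITIONS and unfolding lemmas only).

* Generic "value" vocabulary on a function field `F/K` with a valuation subring `A` of `K`
  (the nonunits form): `InA A P t` ("`t(P) ∈ A`"), `SameChar A t P P'` (the characters of the
  chart ring `EvalInt.chartInt A t` at `P` and `P'` agree), `SameRed A t P P'` (same chart flag
  for the coordinate `t` and same character on the flagged chart `t` resp. `t⁻¹`; for
  `F = FL N`, `t = jL N` this is `RedPlace.r A N P = RedPlace.r A N P'`).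
* The geometric cover `Ω = AdjoinRoot m`, `m` a polynomial over `FL N`, with its two chart
  coordinates `tO N m b` (`root m` for `b = true`, its inverse for `b = false`).
* A level: a field `K` inside `ℚ̄`, `m0` over `FK K N` with `hmap : m0.map (ιL K N) = m`;
  `phi N m0 m hmap : AdjoinRoot m0 →+* AdjoinRoot m` (after `subst hmap` this is
  `CoverField.coverHom (ιL K N) m0`), the chart coordinates `tK N m0 b` of the line
  `Line K (root m0)`, and the chart homomorphism `chartHomO A N m b K : (A ∩ K)[X] →+* Ω`.
-/
import Mathlib
import Fermat.Agent.S18.Setup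
import Fermat.Agent.S18.SetupTower
import Fermat.Agent.S18.S24Export
import Fermat.Agent.S18.A0
import Fermat.Agent.S18.CoreDefs
import Fermat.Agent.S18.CoverField
import Fermat.Agent.S37.EvalInt

set_option autoImplicit false
set_option linter.unusedSectionVars false

noncomputable section

open Polynomial AlgebraicCurve ModularCurve

namespace Fermat.Agent.S37.CoverDefs

open Fermat.Agent.S18 Fermat.Agent.S18.Setup Fermat.Agent.S18.S24Export

local notation "Qb" => AlgebraicClosure ℚ

/-! ### Values of functions at places, nonunits form -/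

section Generic

variable {K F : Type*} [Field K] [Field F] [Algebra K F]

/-- `t(P) ∈ A`: the function `t` is regular at `P` with value in the valuation ring `A`. -/
def InA (A : ValuationSubring K) (P : Place K F) (t : F) : Prop :=
  ∃ a : ↥A, t - algebraMap K F (a : K) ∈ P.toValuationSubring.nonunits

/-- The characters "value at `P` modulo `𝔪_A`" and "value at `P'` modulo `𝔪_A`" of the chart
ring `EvalInt.chartInt A t` (the elements integral over `A[t]`) agree. -/
def SameChar (A : ValuationSubring K) (t : F) (P P' : Place K F) : Prop :=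
  ∀ f : F, (EvalInt.chartHom A t).IsIntegralElem f → ∀ a a' : ↥A,
    f - algebraMap K F (a : K) ∈ P.toValuationSubring.nonunits →
    f - algebraMap K F (a' : K) ∈ P'.toValuationSubring.nonunits →
    IsLocalRing.residue ↥A a = IsLocalRing.residue ↥A a'

/-- `P` and `P'` have the same reduction with respect to the coordinate `t`: both on the chart
of `t` with the same character there, or both off it with the same character on the chart of
`t⁻¹`. -/
def SameRed (A : ValuationSubring K) (t : F) (P P' : Place K F) : Prop :=
  (InA A P t ∧ InA A P' t ∧ SameChar A t P P') ∨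
    (¬ InA A P t ∧ ¬ InA A P' t ∧ SameChar A t⁻¹ P P')

theorem SameChar.symm {A : ValuationSubring K} {t : F} {P P' : Place K F}
    (h : SameChar A t P P') : SameChar A t P' P :=
  fun f hf a a' ha ha' => (h f hf a' a ha' ha).symm

theorem SameChar.refl (A : ValuationSubring K) (t : F) (P : Place K F) : SameChar A t P P := by
  intro f _ a a' ha ha'
  have h := EvalInt.sub_mem_nonunits_unique P ha ha'
  rw [Subtype.ext h]

theorem SameRed.symm {A : ValuationSubring K} {t : F} {P P' : Place K F}
    (h : SameRed A t P P') : SameRed A t P' P := by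
  rcases h with ⟨h1, h2, h3⟩ | ⟨h1, h2, h3⟩
  · exact Or.inl ⟨h2, h1, h3.symm⟩
  · exact Or.inr ⟨h2, h1, h3.symm⟩

theorem SameRed.refl (A : ValuationSubring K) (t : F) (P : Place K F) : SameRed A t P P := by
  by_cases h : InA A P t
  · exact Or.inl ⟨h, h, SameChar.refl A t P⟩
  · exact Or.inr ⟨h, h, SameChar.refl A t⁻¹ P⟩

end Generic

/-! ### The cover -/

section Cover

variable (N : ℕ) [NeZero N] (m : (FL N)[X]) [Fact (Irreducible m)]

/-- The chart coordinate of the cover `Ω = AdjoinRoot m`: the root `h` of `m` for `b = true`,
`h⁻¹` for `b = false`. -/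
def tO (b : Bool) : AdjoinRoot m := if b then AdjoinRoot.root m else (AdjoinRoot.root m)⁻¹

theorem tO_true : tO N m true = AdjoinRoot.root m := rfl

theorem tO_false : tO N m false = (AdjoinRoot.root m)⁻¹ := rfl

variable {K : Type*} [Field K] [Algebra K Qb] (m0 : (FK K N)[X])

/-- The comparison map `F# = F_K[X]/(m0) → Ω = F_L[X]/(m)` of a level `K`. -/
def phi (hmap : m0.map (ιL K N) = m) : AdjoinRoot m0 →+* AdjoinRoot m :=
  AdjoinRoot.map (ιL K N) m0 m (by rw [hmap])

theorem phi_of (hmap : m0.map (ιL K N) = m) (x : FK K N) :
    phi N m m0 hmap (AdjoinRoot.of m0 x) = AdjoinRoot.of m (ιL K N x) :=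
  AdjoinRoot.map_of _ _ _ _ x

theorem phi_root (hmap : m0.map (ιL K N) = m) :
    phi N m m0 hmap (AdjoinRoot.root m0) = AdjoinRoot.root m :=
  AdjoinRoot.map_root _ _ _ _

/-- For `m = m0.map (ιL K N)` the comparison map is `CoverField.coverHom`. -/
theorem phi_rfl [Fact (Irreducible (m0.map (ιL K N)))] :
    phi N (m0.map (ιL K N)) m0 rfl = CoverField.coverHom (ιL K N) m0 := rfl

variable [Fact (Irreducible m0)]

/-- The chart coordinate of the line `K(h)` of the level `K`. -/
def tK (b : Bool) : Line K (AdjoinRoot.root m0) :=
  if b then Line.gen K (AdjoinRoot.root m0) else (Line.gen K (AdjoinRoot.root m0))⁻¹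

theorem tK_true : tK N m0 true = Line.gen K (AdjoinRoot.root m0) := rfl

theorem tK_false : tK N m0 false = (Line.gen K (AdjoinRoot.root m0))⁻¹ := rfl

variable (A : ValuationSubring Qb) (K)

/-- The constants `A ∩ K → Ω`. -/
def constO : ↥(A0.down K A) →+* AdjoinRoot m :=
  (algebraMap Qb (AdjoinRoot m)).comp ((algebraMap K Qb).comp (A0.down K A).subtype)

/-- The chart homomorphism `(A ∩ K)[X] → Ω`, `X ↦ tO b`. -/
def chartHomO (b : Bool) : (↥(A0.down K A))[X] →+* AdjoinRoot m :=
  Polynomial.eval₂RingHom (constO N m K A) (tO N m b)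

end Cover

end Fermat.Agent.S37.CoverDefs
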