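import Mathlib
import Fermat.Agent.S37.EvalGal

/-!
# S37, block (W2): the target `Y` and the place reduction `r` (DEFINITIONS ONLY)

`A` is a valuation subring of `ℚ̄`, `k = A/𝔪` its residue field, `F_L = FL N` the function field
of `X₀(N)` over `ℚ̄` (`= modularFunctionFieldBar N`), `j = jL N`.

* `coord N b` : the chart coordinate, `j` for `b = true` (finite chart), `j⁻¹` for `b = false`.
* `chart A N b : Subring (FL N)` : the chart ring `D_b`, the elements integral over `A[coord]`.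
* `val A N P x : k` : the value of `x` at the place `P` modulo `𝔪` (`0` unless `x` is regular
  at `P` with value in `A`).
* `IsFin A N P` : `j(P) ∈ A`.
* `Y A N := Bool × (FL N → k)` and `r A N P := (flag, x ↦ val P x for x ∈ D_flag, else 0)`,
  `flag = decide (IsFin P)`: the closed point of the special fibre to which `P` reduces, encoded
  as the chart flag and the character `D_flag → k`, extended by zero.
* `Phi A N σ₀ ℓ`, `Psi A N σ₀ ℓ : Y → Y` : `(b, χ) ↦ (b, x ↦ χ(σ₀⁻¹ x) ^ ℓ)` and its inverse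
  (`σ₀` acting coefficientwise); for a Frobenius element `σ₀` this is the Frobenius of the special
  fibre.
-/

set_option autoImplicit false
set_option linter.unusedSectionVars false

noncomputable section

open AlgebraicCurve ModularCurve
open Fermat.Agent.S18.S24Export Fermat.Agent.S37.EvalGal

namespace Fermat.Agent.S37.RedPlace

local notation "Qb" => AlgebraicClosure ℚ

variable (A : ValuationSubring Qb) (N : ℕ) [NeZero N]

/-- The chart coordinate: `j` on the finite chart (`b = true`), `j⁻¹` on the chart at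
infinity (`b = false`). -/
def coord (b : Bool) : FL N := if b then jL N else (jL N)⁻¹

theorem coord_true : coord N true = jL N := rfl

theorem coord_false : coord N false = (jL N)⁻¹ := rfl

/-- The chart ring `D_b`: the elements of `F_L` integral over `A[coord b]`. -/
def chart (b : Bool) : Subring (FL N) :=
  (integralClosure (Algebra.adjoin ↥A ({coord N b} : Set (FL N))) (FL N)).toSubring

theorem mem_chart_iff (b : Bool) (x : FL N) :
    x ∈ chart A N b ↔ IsIntegral (Algebra.adjoin ↥A ({coord N b} : Set (FL N))) x :=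
  Iff.rfl

/-- The value modulo `𝔪_A` of the function `x` at the place `P`; zero unless `x` is regular at
`P` with value in `A`. -/
def val (P : Place Qb (FL N)) (x : FL N) : IsLocalRing.ResidueField A :=
  open Classical in
  if h : ∃ hx : x ∈ P.toValuationSubring, evL P ⟨x, hx⟩ ∈ A then
    IsLocalRing.residue A ⟨evL P ⟨x, h.1⟩, h.2⟩
  else 0

theorem val_of_mem (P : Place Qb (FL N)) (x : FL N) (hx : x ∈ P.toValuationSubring)
    (hA : evL P ⟨x, hx⟩ ∈ A) :
    val A N P x = IsLocalRing.residue A ⟨evL P ⟨x, hx⟩, hA⟩ := by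
  unfold val
  rw [dif_pos ⟨hx, hA⟩]

theorem val_of_not (P : Place Qb (FL N)) (x : FL N)
    (h : ¬ ∃ hx : x ∈ P.toValuationSubring, evL P ⟨x, hx⟩ ∈ A) : val A N P x = 0 := by
  unfold val
  rw [dif_neg h]

/-! ### The ring of functions with integral value at a place -/

/-- The functions regular at `P` whose value at `P` lies in `A` (the composite valuation ring of
`P` and `A`). -/
def Rint (P : Place Qb (FL N)) : Subring (FL N) where
  carrier := {x | ∃ hx : x ∈ P.toValuationSubring, evL P ⟨x, hx⟩ ∈ A}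
  mul_mem' := by
    rintro x y ⟨hx, hxA⟩ ⟨hy, hyA⟩
    refine ⟨P.toValuationSubring.mul_mem _ _ hx hy, ?_⟩
    have h : (⟨x * y, P.toValuationSubring.mul_mem _ _ hx hy⟩ : ↥P.toValuationSubring) =
        ⟨x, hx⟩ * ⟨y, hy⟩ := rfl
    rw [h, map_mul]
    exact A.mul_mem _ _ hxA hyA
  one_mem' := by
    refine ⟨P.toValuationSubring.one_mem, ?_⟩
    have h : (⟨1, P.toValuationSubring.one_mem⟩ : ↥P.toValuationSubring) = 1 := rfl
    rw [h, map_one]
    exact A.one_mem
  add_mem' := by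
    rintro x y ⟨hx, hxA⟩ ⟨hy, hyA⟩
    refine ⟨P.toValuationSubring.add_mem _ _ hx hy, ?_⟩
    have h : (⟨x + y, P.toValuationSubring.add_mem _ _ hx hy⟩ : ↥P.toValuationSubring) =
        ⟨x, hx⟩ + ⟨y, hy⟩ := rfl
    rw [h, map_add]
    exact A.add_mem _ _ hxA hyA
  zero_mem' := by
    refine ⟨P.toValuationSubring.zero_mem, ?_⟩
    have h : (⟨0, P.toValuationSubring.zero_mem⟩ : ↥P.toValuationSubring) = 0 := rfl
    rw [h, map_zero]
    exact A.zero_mem
  neg_mem' := by
    rintro x ⟨hx, hxA⟩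
    refine ⟨P.toValuationSubring.neg_mem _ hx, ?_⟩
    have h : (⟨-x, P.toValuationSubring.neg_mem _ hx⟩ : ↥P.toValuationSubring) = -⟨x, hx⟩ := rfl
    rw [h, map_neg]
    exact A.neg_mem _ hxA

theorem mem_Rint_iff (P : Place Qb (FL N)) (x : FL N) :
    x ∈ Rint A N P ↔ ∃ hx : x ∈ P.toValuationSubring, evL P ⟨x, hx⟩ ∈ A :=
  Iff.rfl

theorem val_of_mem_Rint (P : Place Qb (FL N)) {x : FL N} (hx : x ∈ Rint A N P) :
    val A N P x = IsLocalRing.residue A ⟨evL P ⟨x, hx.1⟩, hx.2⟩ :=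
  val_of_mem A N P x hx.1 hx.2

theorem val_of_not_mem_Rint (P : Place Qb (FL N)) {x : FL N} (hx : x ∉ Rint A N P) :
    val A N P x = 0 :=
  val_of_not A N P x hx

/-- The value at `P` modulo `𝔪_A`, as a ring homomorphism on `Rint`. -/
def valHom (P : Place Qb (FL N)) : ↥(Rint A N P) →+* IsLocalRing.ResidueField A where
  toFun x := IsLocalRing.residue A ⟨evL P ⟨x.1, x.2.1⟩, x.2.2⟩
  map_one' := by
    have h : (⟨evL P ⟨((1 : ↥(Rint A N P)) : FL N), (1 : ↥(Rint A N P)).2.1⟩,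
        (1 : ↥(Rint A N P)).2.2⟩ : ↥A) = 1 := by
      apply Subtype.ext
      show evL P (1 : ↥P.toValuationSubring) = 1
      exact map_one _
    rw [h, map_one]
  map_mul' x y := by
    have h : (⟨evL P ⟨((x * y : ↥(Rint A N P)) : FL N), (x * y).2.1⟩, (x * y).2.2⟩ : ↥A) =
        ⟨evL P ⟨x.1, x.2.1⟩, x.2.2⟩ * ⟨evL P ⟨y.1, y.2.1⟩, y.2.2⟩ := by
      apply Subtype.ext
      show evL P ((⟨x.1, x.2.1⟩ : ↥P.toValuationSubring) * ⟨y.1, y.2.1⟩) = _
      exact map_mul _ _ _
    rw [h, map_mul]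
  map_zero' := by
    have h : (⟨evL P ⟨((0 : ↥(Rint A N P)) : FL N), (0 : ↥(Rint A N P)).2.1⟩,
        (0 : ↥(Rint A N P)).2.2⟩ : ↥A) = 0 := by
      apply Subtype.ext
      show evL P (0 : ↥P.toValuationSubring) = 0
      exact map_zero _
    rw [h, map_zero]
  map_add' x y := by
    have h : (⟨evL P ⟨((x + y : ↥(Rint A N P)) : FL N), (x + y).2.1⟩, (x + y).2.2⟩ : ↥A) =
        ⟨evL P ⟨x.1, x.2.1⟩, x.2.2⟩ + ⟨evL P ⟨y.1, y.2.1⟩, y.2.2⟩ := by
      apply Subtype.ext
      show evL P ((⟨x.1, x.2.1⟩ : ↥P.toValuationSubring) + ⟨y.1, y.2.1⟩) = _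
      exact map_add _ _ _
    rw [h, map_add]

theorem val_eq_valHom (P : Place Qb (FL N)) (x : ↥(Rint A N P)) :
    val A N P (x : FL N) = valHom A N P x :=
  val_of_mem_Rint A N P x.2

theorem val_add (P : Place Qb (FL N)) {x y : FL N} (hx : x ∈ Rint A N P) (hy : y ∈ Rint A N P) :
    val A N P (x + y) = val A N P x + val A N P y := by
  have h := map_add (valHom A N P) ⟨x, hx⟩ ⟨y, hy⟩
  rw [← val_eq_valHom, ← val_eq_valHom, ← val_eq_valHom] at h
  exact h

theorem val_mul (P : Place Qb (FL N)) {x y : FL N} (hx : x ∈ Rint A N P) (hy : y ∈ Rint A N P) :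
    val A N P (x * y) = val A N P x * val A N P y := by
  have h := map_mul (valHom A N P) ⟨x, hx⟩ ⟨y, hy⟩
  rw [← val_eq_valHom, ← val_eq_valHom, ← val_eq_valHom] at h
  exact h

theorem val_sub (P : Place Qb (FL N)) {x y : FL N} (hx : x ∈ Rint A N P) (hy : y ∈ Rint A N P) :
    val A N P (x - y) = val A N P x - val A N P y := by
  have h := map_sub (valHom A N P) ⟨x, hx⟩ ⟨y, hy⟩
  rw [← val_eq_valHom, ← val_eq_valHom, ← val_eq_valHom] at h
  exact h

theorem val_one (P : Place Qb (FL N)) : val A N P 1 = 1 := by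
  have h := map_one (valHom A N P)
  rw [← val_eq_valHom] at h
  exact h

/-- constants of `A` lie in `Rint`. -/
theorem algebraMap_mem_Rint (P : Place Qb (FL N)) (a : ↥A) :
    algebraMap Qb (FL N) (a : Qb) ∈ Rint A N P := by
  refine ⟨P.algebraMap_mem' _, ?_⟩
  have h : evL P ⟨algebraMap Qb (FL N) (a : Qb), P.algebraMap_mem' _⟩ = (a : Qb) :=
    evL_algebraMap P (a : Qb)
  rw [h]
  exact a.2

theorem val_algebraMap (P : Place Qb (FL N)) (a : ↥A) :
    val A N P (algebraMap Qb (FL N) (a : Qb)) = IsLocalRing.residue A a := by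
  rw [val_of_mem_Rint A N P (algebraMap_mem_Rint A N P a)]
  congr 1
  apply Subtype.ext
  exact evL_algebraMap P (a : Qb)

/-- The place `P` lies on the finite chart: `j` is regular at `P` with `j(P) ∈ A`. -/
def IsFin (P : Place Qb (FL N)) : Prop :=
  ∃ hx : jL N ∈ P.toValuationSubring, evL P ⟨jL N, hx⟩ ∈ A

theorem isFin_iff (P : Place Qb (FL N)) : IsFin A N P ↔ jL N ∈ Rint A N P := Iff.rfl

/-- The target of the place reduction: a chart flag and a function `F_L → k`. -/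
abbrev Y : Type := Bool × (FL N → IsLocalRing.ResidueField A)

open Classical in
/-- The chart flag of a place. -/
def flag (P : Place Qb (FL N)) : Bool := decide (IsFin A N P)

theorem flag_eq_true_iff (P : Place Qb (FL N)) : flag A N P = true ↔ IsFin A N P := by
  classical
  unfold flag
  exact decide_eq_true_iff

theorem flag_eq_false_iff (P : Place Qb (FL N)) : flag A N P = false ↔ ¬ IsFin A N P := by
  rw [← flag_eq_true_iff, Bool.not_eq_true]

open Classical in
/-- The character of a place on its chart ring, extended by zero. -/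
def chi (P : Place Qb (FL N)) : FL N → IsLocalRing.ResidueField A :=
  fun x => if x ∈ chart A N (flag A N P) then val A N P x else 0

theorem chi_of_mem (P : Place Qb (FL N)) (x : FL N) (hx : x ∈ chart A N (flag A N P)) :
    chi A N P x = val A N P x := by
  unfold chi
  rw [if_pos hx]

theorem chi_of_not_mem (P : Place Qb (FL N)) (x : FL N) (hx : x ∉ chart A N (flag A N P)) :
    chi A N P x = 0 := by
  unfold chi
  rw [if_neg hx]

/-- **The place reduction.** -/
def r (P : Place Qb (FL N)) : Y A N := (flag A N P, chi A N P)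

theorem r_fst (P : Place Qb (FL N)) : (r A N P).1 = flag A N P := rfl

theorem r_snd (P : Place Qb (FL N)) : (r A N P).2 = chi A N P := rfl

theorem r_eq_iff (P P' : Place Qb (FL N)) :
    r A N P = r A N P' ↔ flag A N P = flag A N P' ∧
      ∀ x ∈ chart A N (flag A N P), val A N P x = val A N P' x := by
  constructor
  · intro h
    have h1 : flag A N P = flag A N P' := congrArg Prod.fst h
    have h2 : chi A N P = chi A N P' := congrArg Prod.snd h
    refine ⟨h1, fun x hx => ?_⟩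
    have h3 := congrFun h2 x
    rwa [chi_of_mem A N P x hx, chi_of_mem A N P' x (h1 ▸ hx)] at h3
  · rintro ⟨h1, h2⟩
    refine Prod.ext h1 (funext fun x => ?_)
    show chi A N P x = chi A N P' x
    by_cases hx : x ∈ chart A N (flag A N P)
    · rw [chi_of_mem A N P x hx, chi_of_mem A N P' x (h1 ▸ hx), h2 x hx]
    · rw [chi_of_not_mem A N P x hx, chi_of_not_mem A N P' x (h1 ▸ hx)]

/-- The coefficientwise action of `σ` on `F_L`. -/
abbrev gal (σ : Qb ≃ₐ[ℚ] Qb) : SemilinearAut Qb (FL N) :=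
  arithmeticGalois (modularFunctionFieldFull N) σ

/-- An `ℓ`-th root in the residue field (`0` if there is none). -/
def root (ℓ : ℕ) (c : IsLocalRing.ResidueField A) : IsLocalRing.ResidueField A :=
  open Classical in if h : ∃ d : IsLocalRing.ResidueField A, d ^ ℓ = c then h.choose else 0

theorem root_pow (ℓ : ℕ) (hinj : Function.Injective fun c : IsLocalRing.ResidueField A => c ^ ℓ)
    (c : IsLocalRing.ResidueField A) : root A ℓ (c ^ ℓ) = c := by
  have h : ∃ d : IsLocalRing.ResidueField A, d ^ ℓ = c ^ ℓ := ⟨c, rfl⟩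
  unfold root
  rw [dif_pos h]
  exact hinj h.choose_spec

/-- **Frobenius on `Y`** (for a Frobenius element `σ₀`): `(b, χ) ↦ (b, x ↦ χ(σ₀⁻¹ x) ^ ℓ)`. -/
def Phi (σ₀ : Qb ≃ₐ[ℚ] Qb) (ℓ : ℕ) (y : Y A N) : Y A N :=
  (y.1, fun x => (y.2 ((gal N σ₀)⁻¹ • x)) ^ ℓ)

/-- The inverse of `Phi`: `(b, χ) ↦ (b, x ↦ (χ(σ₀ x))^(1/ℓ))`. -/
def Psi (σ₀ : Qb ≃ₐ[ℚ] Qb) (ℓ : ℕ) (y : Y A N) : Y A N :=
  (y.1, fun x => root A ℓ (y.2 (gal N σ₀ • x)))

theorem Phi_fst (σ₀ : Qb ≃ₐ[ℚ] Qb) (ℓ : ℕ) (y : Y A N) : (Phi A N σ₀ ℓ y).1 = y.1 := rfl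

theorem Phi_snd (σ₀ : Qb ≃ₐ[ℚ] Qb) (ℓ : ℕ) (y : Y A N) (x : FL N) :
    (Phi A N σ₀ ℓ y).2 x = (y.2 ((gal N σ₀)⁻¹ • x)) ^ ℓ := rfl

theorem Psi_fst (σ₀ : Qb ≃ₐ[ℚ] Qb) (ℓ : ℕ) (y : Y A N) : (Psi A N σ₀ ℓ y).1 = y.1 := rfl

theorem Psi_snd (σ₀ : Qb ≃ₐ[ℚ] Qb) (ℓ : ℕ) (y : Y A N) (x : FL N) :
    (Psi A N σ₀ ℓ y).2 x = root A ℓ (y.2 (gal N σ₀ • x)) := rfl

/-- `Psi ∘ Phi = id` as soon as `c ↦ c ^ ℓ` is injective on the residue field. -/
theorem Psi_Phi (σ₀ : Qb ≃ₐ[ℚ] Qb) (ℓ : ℕ)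
    (hinj : Function.Injective fun c : IsLocalRing.ResidueField A => c ^ ℓ) (y : Y A N) :
    Psi A N σ₀ ℓ (Phi A N σ₀ ℓ y) = y := by
  refine Prod.ext rfl (funext fun x => ?_)
  show root A ℓ ((y.2 ((gal N σ₀)⁻¹ • (gal N σ₀ • x))) ^ ℓ) = y.2 x
  rw [inv_smul_smul, root_pow A ℓ hinj]

/-- Unfolding of `r P' = Phi σ₀ ℓ (r P)`. -/
theorem r_eq_Phi_iff (σ₀ : Qb ≃ₐ[ℚ] Qb) (ℓ : ℕ) (P P' : Place Qb (FL N)) :
    r A N P' = Phi A N σ₀ ℓ (r A N P) ↔ flag A N P' = flag A N P ∧
      ∀ x : FL N, chi A N P' x = (chi A N P ((gal N σ₀)⁻¹ • x)) ^ ℓ := by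
  constructor
  · intro h
    exact ⟨congrArg Prod.fst h, fun x => congrFun (congrArg Prod.snd h) x⟩
  · rintro ⟨h1, h2⟩
    exact Prod.ext h1 (funext h2)

/-- Unfolding of `r P' = Psi σ₀ ℓ (r P)`. -/
theorem r_eq_Psi_iff (σ₀ : Qb ≃ₐ[ℚ] Qb) (ℓ : ℕ) (P P' : Place Qb (FL N)) :
    r A N P' = Psi A N σ₀ ℓ (r A N P) ↔ flag A N P' = flag A N P ∧
      ∀ x : FL N, chi A N P' x = root A ℓ (chi A N P (gal N σ₀ • x)) := by
  constructor
  · intro h
    exact ⟨congrArg Prod.fst h, fun x => congrFun (congrArg Prod.snd h) x⟩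
  · rintro ⟨h1, h2⟩
    exact Prod.ext h1 (funext h2)

end Fermat.Agent.S37.RedPlace
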