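/-
S37, block (W5) = the cover part of (W2): the CONTRACT of the assembly (T).

The leaves of the cover chain, each as a named `Prop`-valued definition on the carriers of
`CoverDefs` (`Ω = AdjoinRoot m` over `FL N`, levels `(K, m0, hmap)`):

* `HDesc`  : the cover descends to every level `K ⊇ Kb` (`CoverBaseS.exists_cover3/2`);
* `HFin`   : a nonzero function on the cover has finitely many zeros and poles;
* `HZero`  : (c1) + (c2), the divisor side: class sums of the orders of a pulled back function;
* `HRep`   : (A), Gauss representation of a function of level `N` on the two charts of the cover;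
* `HRat`   : (R), rationality of finitely many places of the cover at all large levels;
* `HLevInt`, `HLevSig` : (F), level lemmas;
* `HLocal` : (L), the local theorem on the sealed cover;
* `HLast`  : (E), the last mile.

`Good3`, `Good2` are the relations `j h² = (h + 256)³`, `j h = (h + 27)(h + 3)³` of the two
covers at a level.
-/
import Mathlib
import Fermat.Agent.S18.Setup
import Fermat.Agent.S18.SetupTower
import Fermat.Agent.S18.S24Export
import Fermat.Agent.S18.A0
import Fermat.Agent.S18.CoreDefs
import Fermat.Agent.S18.GaussA0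
import Fermat.Agent.S37.CoverDefs
import Fermat.Agent.S37.RedPlace

set_option autoImplicit false
set_option linter.unusedSectionVars false
set_option linter.style.haveILetI false

noncomputable section

open Polynomial AlgebraicCurve ModularCurve

namespace Fermat.Agent.S37.CoverHyps

open Fermat.Agent.S18 Fermat.Agent.S18.Setup Fermat.Agent.S18.S24Export
open Fermat.Agent.S18.CoreDefs Fermat.Agent.S37.CoverDefs

local notation "Qb" => AlgebraicClosure ℚ

section Good

variable (N : ℕ) [NeZero N]

/-- The relation of the `X₀(2)`-cover at a level: `j h² = (h + 256)³`. -/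
def Good3 (K : IntermediateField ℚ Qb) (m0 : (FK K N)[X]) : Prop :=
  algebraMap (FK K N) (AdjoinRoot m0) (jF K N) * AdjoinRoot.root m0 ^ 2 =
    (AdjoinRoot.root m0 + 256) ^ 3

/-- The relation of the `X₀(3)`-cover at a level: `j h = (h + 27)(h + 3)³`. -/
def Good2 (K : IntermediateField ℚ Qb) (m0 : (FK K N)[X]) : Prop :=
  algebraMap (FK K N) (AdjoinRoot m0) (jF K N) * AdjoinRoot.root m0 =
    (AdjoinRoot.root m0 + 27) * (AdjoinRoot.root m0 + 3) ^ 3

end Good

section Hyps

variable (N : ℕ) [NeZero N] (A : ValuationSubring Qb) (m : (FL N)[X]) [Fact (Irreducible m)]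
  (Good : ∀ K : IntermediateField ℚ Qb, (FK K N)[X] → Prop)

/-- **(D)** the cover descends to every level above `Kb`. -/
def HDesc (Kb : IntermediateField ℚ Qb) : Prop :=
  ∀ K : IntermediateField ℚ Qb, FiniteDimensional ℚ K → Kb ≤ K →
    ∃ m0 : (FK K N)[X], m0.Monic ∧ Irreducible m0 ∧ m0.map (ιL K N) = m ∧ Good K m0

/-- **(Ω)** a nonzero function on the cover has finitely many zeros and poles. -/
def HFin : Prop :=
  ∀ g : AdjoinRoot m, g ≠ 0 →
    ∃ S : Finset (Place Qb (AdjoinRoot m)), ∀ v : Place Qb (AdjoinRoot m), v ∉ S → v.ord g = 0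

/-- **(Z) = (c1) + (c2)**, the divisor side: if `div h = q E` with `r_* E = 0`, the orders of
`h`, pulled back to the cover, sum to zero over every chart class of the cover (`T` is any
finite set of places of the class containing all zeros and poles of `h` in the class). -/
def HZero : Prop :=
  ∀ (E : Divisor Qb (FL N)), Finsupp.mapDomain (RedPlace.r A N) E = 0 →
  ∀ (h : FL N) (q : ℤ), (∀ P : Place Qb (FL N), P.ord h = q * E P) →
  ∀ (b : Bool) (w₀ : Place Qb (AdjoinRoot m)), InA A w₀ (tO N m b) →
  ∀ T : Finset (Place Qb (AdjoinRoot m)),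
    (∀ w ∈ T, InA A w (tO N m b) ∧ SameChar A (tO N m b) w w₀) →
    (∀ w : Place Qb (AdjoinRoot m), InA A w (tO N m b) → SameChar A (tO N m b) w w₀ →
      w.ord (algebraMap (FL N) (AdjoinRoot m) h) ≠ 0 → w ∈ T) →
    ∑ w ∈ T, w.ord (algebraMap (FL N) (AdjoinRoot m) h) = 0

/-- **(A)** Gauss representation: a nonzero function `h` of level `N` is, up to a constant `c`,
a unit of the Gauss rings of both charts of the cover, with denominators `p(t)`, `p'(t)` for
polynomials with a unit coefficient over `A ∩ K1`; and `h c` is defined over every level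
above `K1`. -/
def HRep : Prop :=
  ∀ h : FL N, h ≠ 0 → ∃ c : Qb, c ≠ 0 ∧ ∃ K1 : IntermediateField ℚ Qb,
    FiniteDimensional ℚ K1 ∧
    (∀ K : IntermediateField ℚ Qb, FiniteDimensional ℚ K → K1 ≤ K →
      ∃ y : FK K N, ιL K N y = h * algebraMap Qb (FL N) c) ∧
    ∀ b : Bool, ∃ p p' : (↥(A0.down K1 A))[X],
      (∃ i, IsUnit (p.coeff i)) ∧ (∃ i, IsUnit (p'.coeff i)) ∧
      (chartHomO N m K1 A b).IsIntegralElem (chartHomO N m K1 A b p *
        algebraMap (FL N) (AdjoinRoot m) (h * algebraMap Qb (FL N) c)) ∧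
      (chartHomO N m K1 A b).IsIntegralElem (chartHomO N m K1 A b p' *
        (algebraMap (FL N) (AdjoinRoot m) (h * algebraMap Qb (FL N) c))⁻¹)

/-- The place `w` of the cover is rational at the level `(K, m0)`: every function of `F#`
regular at `w` has its value in `K`. -/
def IsRat (K : IntermediateField ℚ Qb) (m0 : (FK K N)[X])
    (hmap : m0.map (ιL K N) = m) (w : Place Qb (AdjoinRoot m)) : Prop :=
  ∀ x : AdjoinRoot m0, phi N m m0 hmap x ∈ w.toValuationSubring →
    ∃ c : K, phi N m m0 hmap x - algebraMap Qb (AdjoinRoot m) (algebraMap K Qb c) ∈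
      w.toValuationSubring.nonunits

/-- **(R)** finitely many places of the cover are rational at all large levels. -/
def HRat : Prop :=
  ∀ Kd : IntermediateField ℚ Qb, FiniteDimensional ℚ Kd →
  ∀ S : Finset (Place Qb (AdjoinRoot m)),
    ∃ K1 : IntermediateField ℚ Qb, FiniteDimensional ℚ K1 ∧ Kd ≤ K1 ∧
      ∀ K : IntermediateField ℚ Qb, FiniteDimensional ℚ K → K1 ≤ K →
        ∀ (m0 : (FK K N)[X]) (hmap : m0.map (ιL K N) = m), ∀ w ∈ S, IsRat N m K m0 hmap w

/-- **(F), integrality**: integrality over the chart of a lower level, read in `Ω`, gives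
integrality over the chart ring of the level. -/
def HLevInt : Prop :=
  ∀ K1 K : IntermediateField ℚ Qb, K1 ≤ K →
    ∀ (m0 : (FK K N)[X]) [Fact (Irreducible m0)] (hmap : m0.map (ιL K N) = m)
      (b : Bool) (x : AdjoinRoot m0),
      (chartHomO N m K1 A b).IsIntegralElem (phi N m m0 hmap x) →
      IsIntegral (chart ↥(A0.down K A) (Line K (AdjoinRoot.root m0)) (tK N m0 b)) x

/-- **(F), denominators**: a polynomial over `A ∩ K1` with a unit coefficient gives an element
of the chart ring of every higher level which is not divisible by `π`, also in the integral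
closure; such elements are stable under products. -/
def HLevSig : Prop :=
  ∀ K1 K : IntermediateField ℚ Qb, FiniteDimensional ℚ K → K1 ≤ K →
    ∀ (m0 : (FK K N)[X]) [Fact (Irreducible m0)] (hmap : m0.map (ιL K N) = m),
    Good K m0 → m0.Monic →
    ∀ π : ↥(A0.down K A), Irreducible π →
      IsLocalRing.maximalIdeal ↥(A0.down K A) = Ideal.span {π} → ∀ b : Bool,
      (∀ p : (↥(A0.down K1 A))[X], (∃ i, IsUnit (p.coeff i)) →
        ∃ σ : chart ↥(A0.down K A) (Line K (AdjoinRoot.root m0)) (tK N m0 b),
          ¬ unif ↥(A0.down K A) (Line K (AdjoinRoot.root m0)) (tK N m0 b) π ∣ σ ∧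
          phi N m m0 hmap (algebraMap (Line K (AdjoinRoot.root m0)) (AdjoinRoot m0)
            (σ : Line K (AdjoinRoot.root m0))) = chartHomO N m K1 A b p) ∧
      (∀ σ σ' : chart ↥(A0.down K A) (Line K (AdjoinRoot.root m0)) (tK N m0 b),
        ¬ unif ↥(A0.down K A) (Line K (AdjoinRoot.root m0)) (tK N m0 b) π ∣ σ →
        ¬ unif ↥(A0.down K A) (Line K (AdjoinRoot.root m0)) (tK N m0 b) π ∣ σ' →
        ¬ unif ↥(A0.down K A) (Line K (AdjoinRoot.root m0)) (tK N m0 b) π ∣ σ * σ') ∧
      (∀ σ : chart ↥(A0.down K A) (Line K (AdjoinRoot.root m0)) (tK N m0 b),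
        ¬ unif ↥(A0.down K A) (Line K (AdjoinRoot.root m0)) (tK N m0 b) π ∣ σ →
        ∀ d : AdjoinRoot m0,
          IsIntegral (chart ↥(A0.down K A) (Line K (AdjoinRoot.root m0)) (tK N m0 b)) d →
          algebraMap (Line K (AdjoinRoot.root m0)) (AdjoinRoot m0)
            (σ : Line K (AdjoinRoot.root m0)) ≠ π • d)

/-- **(L)** the local theorem on the sealed cover: `a ∈ c C + π C` for `a, c ∈ C` (the integral
closure of the chart ring in `F#`) not divisible by `π`, whose zeros are rational, if the orders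
of `a / c` sum to zero over every chart class. -/
def HLocal : Prop :=
  ∀ (K : IntermediateField ℚ Qb), FiniteDimensional ℚ K →
    ∀ (m0 : (FK K N)[X]) [Fact (Irreducible m0)] (hmap : m0.map (ιL K N) = m),
    Good K m0 → m0.Monic →
    ∀ π : ↥(A0.down K A), Irreducible π →
      IsLocalRing.maximalIdeal ↥(A0.down K A) = Ideal.span {π} →
    ∀ (b : Bool) (a c : AdjoinRoot m0),
      IsIntegral (chart ↥(A0.down K A) (Line K (AdjoinRoot.root m0)) (tK N m0 b)) a →
      IsIntegral (chart ↥(A0.down K A) (Line K (AdjoinRoot.root m0)) (tK N m0 b)) c →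
      a ≠ 0 → c ≠ 0 →
      (∀ d : AdjoinRoot m0,
        IsIntegral (chart ↥(A0.down K A) (Line K (AdjoinRoot.root m0)) (tK N m0 b)) d →
        a ≠ π • d) →
      (∀ d : AdjoinRoot m0,
        IsIntegral (chart ↥(A0.down K A) (Line K (AdjoinRoot.root m0)) (tK N m0 b)) d →
        c ≠ π • d) →
      ∀ T : Finset (Place Qb (AdjoinRoot m)),
        (∀ w : Place Qb (AdjoinRoot m),
          (w.ord (phi N m m0 hmap a) ≠ 0 ∨ w.ord (phi N m m0 hmap c) ≠ 0) → w ∈ T) →
        (∀ w ∈ T, IsRat N m K m0 hmap w) →
        (∀ w₀ : Place Qb (AdjoinRoot m), InA A w₀ (tO N m b) →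
          ∀ T' : Finset (Place Qb (AdjoinRoot m)),
            (∀ w, w ∈ T' ↔ w ∈ T ∧ InA A w (tO N m b) ∧ SameChar A (tO N m b) w w₀) →
            ∑ w ∈ T', (w.ord (phi N m m0 hmap a) - w.ord (phi N m m0 hmap c)) = 0) →
        ∃ d e : AdjoinRoot m0,
          IsIntegral (chart ↥(A0.down K A) (Line K (AdjoinRoot.root m0)) (tK N m0 b)) d ∧
          IsIntegral (chart ↥(A0.down K A) (Line K (AdjoinRoot.root m0)) (tK N m0 b)) e ∧
          a - c * d = π • e

/-- **(E)** the last mile: a function `y` of level `N` which, on the cover, is a unit of the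
Gauss rings of both charts and is congruent modulo `π` to elements integral over both chart
rings, is a unit of the Gauss ring of `F_K` with reduction algebraic over the residue field. -/
def HLast : Prop :=
  ∀ (K : IntermediateField ℚ Qb), FiniteDimensional ℚ K →
    ∀ (m0 : (FK K N)[X]) [Fact (Irreducible m0)] (_hmap : m0.map (ιL K N) = m),
    Good K m0 → m0.Monic →
    ∀ π : ↥(A0.down K A), Irreducible π →
      IsLocalRing.maximalIdeal ↥(A0.down K A) = Ideal.span {π} →
    ∀ y : FK K N, y ≠ 0 →
      (∀ b : Bool, InGauss ↥(A0.down K A) (Line K (AdjoinRoot.root m0)) (AdjoinRoot m0)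
        (tK N m0 b) π (AdjoinRoot.of m0 y)) →
      (∀ b : Bool, InGauss ↥(A0.down K A) (Line K (AdjoinRoot.root m0)) (AdjoinRoot m0)
        (tK N m0 b) π (AdjoinRoot.of m0 y)⁻¹) →
      (∀ b : Bool, ∃ d : AdjoinRoot m0,
        IsIntegral (chart ↥(A0.down K A) (Line K (AdjoinRoot.root m0)) (tK N m0 b)) d ∧
        InPiGauss ↥(A0.down K A) (Line K (AdjoinRoot.root m0)) (AdjoinRoot m0)
          (tK N m0 b) π (AdjoinRoot.of m0 y - d)) →
      ∃ hy : y ∈ GaussA0.OvSubring (A0.down K A) (IsLocalRing.residue (A0.down K A)) N,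
        GaussA0.redv (A0.down K A) (IsLocalRing.residue (A0.down K A)) N ⟨y, hy⟩ ≠ 0 ∧
        IsAlgebraic (IsLocalRing.ResidueField (A0.down K A))
          (GaussA0.redv (A0.down K A) (IsLocalRing.residue (A0.down K A)) N ⟨y, hy⟩)

end Hyps

end Fermat.Agent.S37.CoverHyps
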