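/-
S37, block (c): torsion injectivity of the reduction map `red : J₀(N) → J₀(N) / redKer r`.

Let `r : Place → Y` be any map from the places of `X₀(N)` over `ℚ̄` to a set `Y` ("points of the
special fibre").  `redKer r` is the subgroup of `J₀(N)` of the classes of the divisors of degree
`0` killed by `r_*` (sums of `P - P'` with `r P = r P'`); the quotient map
`J₀(N) → J₀(N) / redKer r` is the reduction map of the skeleton.

The only input on `r` is the contract `ZeroSumConst A N r q` (block W2): a function `h` whose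
divisor is `q • E` with `r_* E = 0` is, up to divisor, a quotient of two integral series whose
reductions have the same divisor.  With the Kummer statement on `main`
(`Top23.exists_kummerK0`, `Descent.kummerStrong_of_K0`, `ConstK.hconst`) this gives:

* `kummerWeak`           : `Step1.KummerWeak A N p` for all primes `p ≠ ℓ`, `ℓ ∤ N`;
* `principal_of_prime`   : `q • E` principal and `r_* E = 0` imply `E` principal;
* `eq_zero_of_prime`, `eq_zero_of_mem_redKer` : a point of `redKer r` killed by some `m` prime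
  to `ℓ` is zero;
* `injective_torsion`    : the same for `p`-power torsion, `ℓ ∤ N * p` (the shape of
  `IsSpecialization.injective_torsion`).
-/
import Mathlib
import Fermat.Prelude.Def_ModularCurve_ReductionModL
import Fermat.Agent.S18.Step1
import Fermat.Agent.S18.Descent
import Fermat.Agent.S18.ConstK
import Fermat.Agent.S18.ResField
import Fermat.Agent.S18.Top23

set_option autoImplicit false
set_option synthInstance.maxHeartbeats 400000
set_option linter.style.haveILetI false

noncomputable section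

open HahnSeries AlgebraicCurve ModularCurve

namespace Fermat.Agent.S37.TorsionInj

open Fermat.Agent.S18

local notation "Qb" => AlgebraicClosure ℚ

/-- **The Kummer statement on `main`**, weak form: for `ℓ ∤ N`, a place `A` above `ℓ` and a prime
`p ≠ ℓ`, a quotient of integral series whose reductions have the same divisor and whose divisor
is divisible by `p` is a `p`-th power. -/
theorem kummerWeak (N : ℕ) [NeZero N] {ℓ : ℕ} (hℓ : ℓ.Prime) (hℓN : ¬ ℓ ∣ N)
    (A : ValuationSubring Qb) (hA : A.LiesOverPrime ℓ) {p : ℕ} (hp : p.Prime) (hpℓ : p ≠ ℓ) :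
    Step1.KummerWeak A N p := by
  haveI := ResField.isAlgClosed A
  obtain ⟨K, hK, hKum⟩ := Top23.exists_kummerK0 N hℓ hℓN A hA hp hpℓ
  exact Step1.kummerWeak_of_strong hp (ConstK.hconst N) (Descent.kummerStrong_of_K0 K hKum)

section Contract

variable (A : ValuationSubring Qb) (N : ℕ) {Y : Type*}
  (r : Place Qb (modularFunctionFieldBar N) → Y)

/-- **Contract of block W2** ("zero-sum fibres ⟹ the reduction has no zeros and poles"):
if the divisor of `h` is `q • E` and `r_* E = 0`, then there are integral series `u₁, u₂` with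
nonzero reductions having the same divisor on `X₀(N)` over the residue field, such that
`u₁ / u₂` has the divisor of `h` (e.g. `h = c * u₁ / u₂` with a constant `c`). -/
def ZeroSumConst (q : ℕ) : Prop :=
  ∀ (E : Divisor Qb (modularFunctionFieldBar N)) (h : modularFunctionFieldBar N), h ≠ 0 →
    (∀ P : Place Qb (modularFunctionFieldBar N), P.ord h = q * E P) →
    Finsupp.mapDomain r E = 0 →
    ∃ (u₁ u₂ : LaurentSeries A) (h₁ : Step1.IsInt A N u₁) (h₂ : Step1.IsInt A N u₂),
      h₁.tok ≠ 0 ∧ h₂.tok ≠ 0 ∧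
      (∀ Q : Place (IsLocalRing.ResidueField A)
          (modularFunctionFieldFullC (IsLocalRing.ResidueField A) N),
        Q.ord h₁.tok = Q.ord h₂.tok) ∧
      ∀ P : Place Qb (modularFunctionFieldBar N), P.ord (h₁.toL / h₂.toL) = P.ord h

/-- The kernel of the reduction map: the classes of the divisors of degree `0` killed by
`r_*`. -/
def redKer : AddSubgroup (JZero N) where
  carrier := {x | ∃ E : Divisor.degZero (K := Qb) (F := modularFunctionFieldBar N),
    Finsupp.mapDomain r (E : Divisor Qb (modularFunctionFieldBar N)) = 0 ∧ Pic0.mk E = x}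
  zero_mem' := ⟨0, by simp, rfl⟩
  add_mem' := by
    rintro x y ⟨E, hE, rfl⟩ ⟨E', hE', rfl⟩
    refine ⟨E + E', ?_, rfl⟩
    rw [AddSubgroup.coe_add, Finsupp.mapDomain_add, hE, hE', add_zero]
  neg_mem' := by
    rintro x ⟨E, hE, rfl⟩
    refine ⟨-E, ?_, rfl⟩
    have h1 : Finsupp.mapDomain r (-(E : Divisor Qb (modularFunctionFieldBar N))) =
        -Finsupp.mapDomain r (E : Divisor Qb (modularFunctionFieldBar N)) :=
      map_neg (Finsupp.mapDomain.addMonoidHom r) _
    rw [AddSubgroup.coe_neg, h1, hE, neg_zero]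

variable {A N r}

theorem mem_redKer {x : JZero N} :
    x ∈ redKer N r ↔ ∃ E : Divisor.degZero (K := Qb) (F := modularFunctionFieldBar N),
      Finsupp.mapDomain r (E : Divisor Qb (modularFunctionFieldBar N)) = 0 ∧ Pic0.mk E = x :=
  Iff.rfl

theorem mk_mem_redKer (E : Divisor.degZero (K := Qb) (F := modularFunctionFieldBar N))
    (hE : Finsupp.mapDomain r (E : Divisor Qb (modularFunctionFieldBar N)) = 0) :
    Pic0.mk E ∈ redKer N r :=
  ⟨E, hE, rfl⟩

/-- **(c), divisor form, prime case.** -/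
theorem principal_of_prime {q : ℕ} (hq : q.Prime) (hkum : Step1.KummerWeak A N q)
    (hW : ZeroSumConst A N r q) (E : Divisor Qb (modularFunctionFieldBar N))
    (hqE : q • E ∈ Divisor.principal (K := Qb) (F := modularFunctionFieldBar N))
    (hrE : Finsupp.mapDomain r E = 0) :
    E ∈ Divisor.principal (K := Qb) (F := modularFunctionFieldBar N) := by
  obtain ⟨h, h0, hh⟩ := hqE
  have hh' : ∀ P : Place Qb (modularFunctionFieldBar N), P.ord h = q * E P := by
    intro P
    rw [← hh P, Finsupp.smul_apply, nsmul_eq_mul]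
  obtain ⟨u₁, u₂, h₁, h₂, hk₁, hk₂, hQ, hP⟩ := hW E h h0 hh' hrE
  obtain ⟨t, ht⟩ := hkum u₁ u₂ h₁ h₂ hk₁ hk₂ hQ (fun P => ⟨E P, by rw [hP P, hh' P]⟩)
  have hL₁ : h₁.toL ≠ 0 := h₁.toL_ne_zero hk₁
  have hL₂ : h₂.toL ≠ 0 := h₂.toL_ne_zero hk₂
  have ht0 : t ≠ 0 := by
    intro h0'
    rw [h0', zero_pow hq.ne_zero] at ht
    exact (div_ne_zero hL₁ hL₂) ht.symm
  refine ⟨t, ht0, fun P => ?_⟩
  have h1 : (q : ℤ) * E P = q * P.ord t := by
    rw [← hh' P, ← hP P, ← ht, ← zpow_natCast, P.ord_zpow]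
  exact mul_left_cancel₀ (Nat.cast_ne_zero.mpr hq.ne_zero) h1

/-- **(c), prime case.** -/
theorem eq_zero_of_prime {q : ℕ} (hq : q.Prime) (hkum : Step1.KummerWeak A N q)
    (hW : ZeroSumConst A N r q) (x : JZero N) (hqx : q • x = 0) (hx : x ∈ redKer N r) :
    x = 0 := by
  obtain ⟨E, hrE, rfl⟩ := hx
  have hqE : (q • (E : Divisor Qb (modularFunctionFieldBar N))) ∈
      Divisor.principal (K := Qb) (F := modularFunctionFieldBar N) := by
    have h1 : Pic0.mk (q • E) = 0 := by rw [← hqx]; rfl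
    have h2 := (QuotientAddGroup.eq_zero_iff _).mp h1
    rw [AddSubgroup.mem_addSubgroupOf] at h2
    exact h2
  have hE := principal_of_prime hq hkum hW _ hqE hrE
  refine (QuotientAddGroup.eq_zero_iff _).mpr ?_
  rw [AddSubgroup.mem_addSubgroupOf]
  exact hE

/-- **(c), abstract form**: if the Kummer statement and the W2 contract hold for all primes
`q ≠ ℓ`, a point of `redKer r` killed by some `m` prime to `ℓ` is zero. -/
theorem eq_zero_of_kummer {ℓ : ℕ}
    (hkum : ∀ q : ℕ, q.Prime → q ≠ ℓ → Step1.KummerWeak A N q)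
    (hW : ∀ q : ℕ, q.Prime → q ≠ ℓ → ZeroSumConst A N r q)
    (m : ℕ) (hm : ¬ ℓ ∣ m) (x : JZero N) (hmx : m • x = 0) (hx : x ∈ redKer N r) : x = 0 := by
  induction m using Nat.strong_induction_on generalizing x with
  | _ m ih =>
    rcases Nat.eq_zero_or_pos m with rfl | hpos
    · exact absurd (dvd_zero ℓ) hm
    obtain rfl | h1 : m = 1 ∨ 1 < m := by omega
    · rw [one_smul] at hmx
      exact hmx
    · obtain ⟨q, hq, hqm⟩ := Nat.exists_prime_and_dvd (by omega : m ≠ 1)
      obtain ⟨m', rfl⟩ := hqm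
      have hqℓ : q ≠ ℓ := fun h => hm (h ▸ dvd_mul_right q m')
      have hm' : ¬ ℓ ∣ m' := fun h => hm (dvd_mul_of_dvd_right h q)
      have hx' : m' • x = 0 := by
        apply eq_zero_of_prime hq (hkum q hq hqℓ) (hW q hq hqℓ) (m' • x)
        · rw [← mul_smul]; exact hmx
        · exact (redKer N r).nsmul_mem hx m'
      have hlt : m' < q * m' := by nlinarith [hq.two_le]
      exact ih m' hlt hm' x hx' hx

end Contract

section Main

variable {N : ℕ} [NeZero N] {Y : Type*} {r : Place Qb (modularFunctionFieldBar N) → Y}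

/-- **(c)**: for `ℓ ∤ N` and a place `A` above `ℓ`, under the W2 contract a point of `redKer r`
killed by some `m` prime to `ℓ` is zero. -/
theorem eq_zero_of_mem_redKer {ℓ : ℕ} (hℓ : ℓ.Prime) (hℓN : ¬ ℓ ∣ N)
    (A : ValuationSubring Qb) (hA : A.LiesOverPrime ℓ)
    (hW : ∀ q : ℕ, q.Prime → q ≠ ℓ → ZeroSumConst A N r q)
    (m : ℕ) (hm : ¬ ℓ ∣ m) (x : JZero N) (hmx : m • x = 0) (hx : x ∈ redKer N r) : x = 0 :=
  eq_zero_of_kummer (fun _ hq hqℓ => kummerWeak N hℓ hℓN A hA hq hqℓ) hW m hm x hmx hx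

/-- **(c)**, in the shape of `IsSpecialization.injective_torsion`: `ℓ ∤ N * p`, and `x` is killed
by a power of `p`. -/
theorem injective_torsion {ℓ : ℕ} (hℓ : ℓ.Prime) {p : ℕ} (hℓNp : ¬ ℓ ∣ N * p)
    (A : ValuationSubring Qb) (hA : A.LiesOverPrime ℓ)
    (hW : ∀ q : ℕ, q.Prime → q ≠ ℓ → ZeroSumConst A N r q)
    (x : JZero N) (hpx : ∃ n : ℕ, p ^ n • x = 0) (hx : x ∈ redKer N r) : x = 0 := by
  obtain ⟨n, hn⟩ := hpx
  have hℓN : ¬ ℓ ∣ N := fun h => hℓNp (dvd_mul_of_dvd_left h p)
  have hℓp : ¬ ℓ ∣ p := fun h => hℓNp (dvd_mul_of_dvd_right h N)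
  have hℓpn : ¬ ℓ ∣ p ^ n := fun h => hℓp (hℓ.dvd_of_dvd_pow h)
  exact eq_zero_of_mem_redKer hℓ hℓN A hA hW (p ^ n) hℓpn x hn hx

/-- The quotient form: the reduction map `red := QuotientAddGroup.mk' (redKer N r)` is injective
on `p`-power torsion. -/
theorem mk'_injective_torsion {ℓ : ℕ} (hℓ : ℓ.Prime) {p : ℕ} (hℓNp : ¬ ℓ ∣ N * p)
    (A : ValuationSubring Qb) (hA : A.LiesOverPrime ℓ)
    (hW : ∀ q : ℕ, q.Prime → q ≠ ℓ → ZeroSumConst A N r q)
    (x : JZero N) (hpx : ∃ n : ℕ, p ^ n • x = 0)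
    (hx : QuotientAddGroup.mk' (redKer N r) x = 0) : x = 0 :=
  injective_torsion hℓ hℓNp A hA hW x hpx
    ((QuotientAddGroup.eq_zero_iff x).mp hx)

end Main

end Fermat.Agent.S37.TorsionInj
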