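/-
S37, skeleton (final, `r`-agnostic): the reduction contract `TopFormal.Contract N ℓ A p` from
the block deliverables, for ANY map `r : Place → Y` from the places of `X₀(N)` over `ℚ̄` to a
set `Y` ("points of the special fibre"); `r := RedPlace.r A N` in the last theorem only.

The target of the reduction map is `X := JZero N ⧸ TorsionInj.redKer N r`, the quotient of
`J₀(N)` by the classes of the degree-zero divisors killed by `r_*`.

* (a) inertia invariance: from `r (τ P) = r P` for `τ` in the inertia group  (block W3);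
* (b) the Eichler--Shimura relation: from the congruence
  `r_* (T_ℓ P) = r (σ P) + ℓ r (σ⁻¹ P)` for every Frobenius element `σ` (block W4), applied at
  the place `σ P`; the operator on classes is the correspondence on divisors (block W0);
* (c) injectivity on `p`-power torsion: `TorsionInj.mk'_injective_torsion` (block (c)) from
  the zero-sum contract (block W2).

The block deliverables are hypotheses here; `result_of_package` is the frozen statement S37
modulo them.
-/
import Fermat.Agent.S37.TopFormal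
import Fermat.Agent.S37.TorsionInj
import Fermat.Agent.S37.RedPlace

set_option autoImplicit false
set_option synthInstance.maxHeartbeats 400000
set_option linter.style.haveILetI false

noncomputable section

open AlgebraicCurve ModularCurve
open Fermat.Agent.S18.S24Export

namespace Fermat.Agent.S37.Skeleton2

open Fermat.Agent.S37.RedPlace

local notation "Qb" => AlgebraicClosure ℚ

section Package

variable (N : ℕ) [NeZero N] (ℓ : ℕ) [NeZero ℓ] (A : ValuationSubring Qb) {Y : Type*}
  (r : Place Qb (FL N) → Y)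

/-- Block (W3): the reduction of a place does not change under the inertia group. -/
def PInertia : Prop :=
  ∀ τ ∈ A.inertiaSubgroupIn ℚ, ∀ P : Place Qb (FL N), r (gal N τ • P) = r P

/-- Block (W4), the Eichler--Shimura congruence on points:
`r_* (T_ℓ P) = r (σ P) + ℓ r (σ⁻¹ P)` for every Frobenius element `σ` at `A`. -/
def PHecke : Prop :=
  ∀ σ : Qb ≃ₐ[ℚ] Qb, A.IsFrobeniusAt σ ℓ →
    ∀ (hα : HeckeAlphaBarIntegral Qb N ℓ) (hβ : HeckeBetaBarIntegral Qb N ℓ)
      [HasPrincipalDivisors Qb (FL (N * ℓ))] (P : Place Qb (FL N)),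
      Finsupp.mapDomain r (heckeDivBar hα hβ (Finsupp.single P 1)) =
        Finsupp.single (r (gal N σ • P)) 1 +
          Finsupp.single (r ((gal N σ)⁻¹ • P)) (ℓ : ℤ)

/-- Block (W2): the zero-sum contract at all primes `q ≠ ℓ`. -/
def PZero : Prop :=
  ∀ q : ℕ, q.Prime → q ≠ ℓ → TorsionInj.ZeroSumConst A N r q

end Package

section Divisors

variable {N : ℕ} [NeZero N] {ℓ : ℕ} {A : ValuationSubring Qb} {Y : Type*}
  {r : Place Qb (FL N) → Y}

omit [NeZero N] in
/-- `r_*` of a translate, inertia case. -/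
theorem mapDomain_r_smul_of_inertia (hI : PInertia N A r) {τ : Qb ≃ₐ[ℚ] Qb}
    (hτ : τ ∈ A.inertiaSubgroupIn ℚ) (E : Divisor Qb (FL N)) :
    Finsupp.mapDomain r (gal N τ • E) = Finsupp.mapDomain r E := by
  rw [SemilinearAut.divisor_smul_def, ← Finsupp.mapDomain_comp]
  congr 1
  funext P
  exact hI τ hτ P

/-- The Eichler--Shimura relation on divisors, killed by `r_*`. -/
theorem mapDomain_r_es [NeZero ℓ] (hT : PHecke N ℓ A r) {σ : Qb ≃ₐ[ℚ] Qb}
    (hσ : A.IsFrobeniusAt σ ℓ)
    (hα : HeckeAlphaBarIntegral Qb N ℓ) (hβ : HeckeBetaBarIntegral Qb N ℓ)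
    [HasPrincipalDivisors Qb (FL (N * ℓ))] (E : Divisor Qb (FL N)) :
    Finsupp.mapDomain r
      (gal N σ • gal N σ • E - heckeDivBar hα hβ (gal N σ • E) + ℓ • E) = 0 := by
  -- the additive map `E ↦ r_* (σ σ E - T (σ E) + ℓ E)`
  let g : Divisor Qb (FL N) →+ Divisor Qb (FL N) :=
    DistribSMul.toAddMonoidHom (Divisor Qb (FL N)) (gal N σ)
  let Φ : Divisor Qb (FL N) →+ (Y →₀ ℤ) :=
    (Finsupp.mapDomain.addMonoidHom r).comp
      (g.comp g - (heckeDivBar hα hβ).comp g + ℓ • AddMonoidHom.id _)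
  have hΦ : ∀ E : Divisor Qb (FL N), Φ E =
      Finsupp.mapDomain r
        (gal N σ • gal N σ • E - heckeDivBar hα hβ (gal N σ • E) + ℓ • E) := fun E => rfl
  rw [← hΦ]
  have h1 : ∀ P : Place Qb (FL N), Φ (Finsupp.single P 1) = 0 := by
    intro P
    rw [hΦ, Finsupp.mapDomain_add, Finsupp.mapDomain_sub]
    rw [SemilinearAut.smul_single, SemilinearAut.smul_single, Finsupp.mapDomain_single,
      hT σ hσ hα hβ (gal N σ • P), inv_smul_smul,
      Finsupp.smul_single, Finsupp.mapDomain_single, nsmul_one]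
    abel
  have hz : Φ = 0 := by
    refine Finsupp.addHom_ext fun P n => ?_
    have e : (Finsupp.single P n : Divisor Qb (FL N)) = n • Finsupp.single P 1 := by
      rw [Finsupp.smul_single, smul_eq_mul, mul_one]
    rw [e, map_zsmul, h1, smul_zero, AddMonoidHom.zero_apply]
  rw [hz, AddMonoidHom.zero_apply]

end Divisors

section Contract

variable (N : ℕ) [NeZero N] (ℓ : ℕ) [NeZero ℓ] (A : ValuationSubring Qb) {Y : Type}
  (r : Place Qb (FL N) → Y)

/-- **The reduction contract from the block deliverables**, for any `r`. -/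
theorem contract_of_package (hℓ : ℓ.Prime) (p : ℕ) (hℓNp : ¬ ℓ ∣ N * p)
    (hA : A.LiesOverPrime ℓ)
    (hH : HeckeInputsAlong Qb N ℓ)
    (hI : PInertia N A r) (hT : PHecke N ℓ A r) (hZ : PZero N ℓ A r) :
    TopFormal.Contract N ℓ A p := by
  obtain ⟨hα, hβ, hP, hfin, hFI, hN⟩ := hH
  haveI := hP
  refine ⟨JZero N ⧸ TorsionInj.redKer N r, inferInstance,
    QuotientAddGroup.mk' (TorsionInj.redKer N r), ?_, ?_, ?_⟩
  · -- (a)
    intro τ hτ y
    have h0 : QuotientAddGroup.mk' (TorsionInj.redKer N r) (τ • y - y) = 0 := by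
      refine (QuotientAddGroup.eq_zero_iff _).mpr ?_
      obtain ⟨E, rfl⟩ := Pic0.mk_surjective y
      rw [galois_smul_pic0_def, SemilinearAut.pic0_smul_mk]
      refine ⟨SemilinearAut.degZeroSMulHom (gal N τ) E - E, ?_, rfl⟩
      rw [AddSubgroup.coe_sub, SemilinearAut.coe_degZeroSMulHom, Finsupp.mapDomain_sub,
        mapDomain_r_smul_of_inertia hI hτ, sub_self]
    rw [map_sub, sub_eq_zero] at h0
    exact h0
  · -- (b)
    intro σ hσ y
    refine (QuotientAddGroup.eq_zero_iff _).mpr ?_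
    obtain ⟨E, rfl⟩ := Pic0.mk_surjective y
    rw [heckeOperatorAlong_eq hα hβ hFI hfin hN]
    rw [galois_smul_pic0_def, galois_smul_pic0_def, SemilinearAut.pic0_smul_mk,
      SemilinearAut.pic0_smul_mk]
    refine ⟨SemilinearAut.degZeroSMulHom (gal N σ) (SemilinearAut.degZeroSMulHom (gal N σ) E) -
      Pic0.degZeroCorrespondence (heckeBetaBar Qb N ℓ) (heckeAlphaBar Qb N ℓ) hβ hα hFI
        (SemilinearAut.degZeroSMulHom (gal N σ) E) + ℓ • E, ?_, rfl⟩
    exact mapDomain_r_es hT hσ hα hβ (E : Divisor Qb (FL N))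
  · -- (c)
    intro x hpx hx
    exact TorsionInj.mk'_injective_torsion hℓ hℓNp A hA hZ x hpx hx

end Contract

/-- **S37 from the block deliverables** at every prime `ℓ ∤ N * p` and every place `A` above
`ℓ`, for a family of maps `r ℓ A : Place → Y ℓ A`. -/
theorem result_of_package (N p : ℕ) [NeZero N] (hcomm : HeckeOperatorsCommuteBar N)
    (Y : ℕ → ValuationSubring Qb → Type)
    (r : ∀ (ℓ : ℕ) (A : ValuationSubring Qb), Place Qb (FL N) → Y ℓ A)
    (H : ∀ (ℓ : ℕ) (hℓ : ℓ.Prime), ¬ ℓ ∣ N * p →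
      ∀ A : ValuationSubring Qb, A.LiesOverPrime ℓ →
        haveI : NeZero ℓ := ⟨hℓ.ne_zero⟩
        HeckeInputsAlong Qb N ℓ ∧ PInertia N A (r ℓ A) ∧ PHecke N ℓ A (r ℓ A) ∧
          PZero N ℓ A (r ℓ A)) :
    letI := heckeModuleBar N
    ∀ (_ : SMulCommClass (Qb ≃ₐ[ℚ] Qb) HeckeAlg (JZero N)),
      SpecializationExists (K := ℚ) (L := Qb) N p (JZero N) := by
  refine TopFormal.result_of_contract N p hcomm fun ℓ hℓ hℓNp A hA => ?_
  haveI : NeZero ℓ := ⟨hℓ.ne_zero⟩
  obtain ⟨hH, hI, hT, hZ⟩ := H ℓ hℓ hℓNp A hA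
  exact contract_of_package N ℓ A (r ℓ A) hℓ p hℓNp hA hH hI hT hZ

/-- **S37 from the block deliverables for the place reduction `RedPlace.r A N`.** -/
theorem result_of_redPlace (N p : ℕ) [NeZero N] (hcomm : HeckeOperatorsCommuteBar N)
    (H : ∀ (ℓ : ℕ) (hℓ : ℓ.Prime), ¬ ℓ ∣ N * p →
      ∀ A : ValuationSubring Qb, A.LiesOverPrime ℓ →
        haveI : NeZero ℓ := ⟨hℓ.ne_zero⟩
        HeckeInputsAlong Qb N ℓ ∧ PInertia N A (RedPlace.r A N) ∧
          PHecke N ℓ A (RedPlace.r A N) ∧ PZero N ℓ A (RedPlace.r A N)) :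
    letI := heckeModuleBar N
    ∀ (_ : SMulCommClass (Qb ≃ₐ[ℚ] Qb) HeckeAlg (JZero N)),
      SpecializationExists (K := ℚ) (L := Qb) N p (JZero N) :=
  result_of_package N p hcomm (fun _ A => RedPlace.Y A N) (fun _ A => RedPlace.r A N) H

end Fermat.Agent.S37.Skeleton2
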