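/-
S37, block (c), adapter: elements of the Gauss ring of the modular function field as quotients
of series IN the function field.

`K` a field, `A` a valuation subring of `K`, `φ : A →+* k` with kernel `π A`, `A` discrete
(`hkrull`); `F_K = modularFunctionFieldFullC K N ⊆ K((q))`, `incl : A((q)) → K((q))`,
`rho : A((q)) → k((q))` (notation of `S18.GaussA0`).

* `exists_incl_quot` : every `x ∈ F_K` is `incl a / incl b` with `a, b ∈ A((q))`,
  `incl a, incl b ∈ F_K`, `b ≠ 0`.
* `exists_primitive_quot` : for `x ≠ 0`, moreover `x * π ^ n * incl b = π ^ m * incl a` with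
  `rho a ≠ 0`, `rho b ≠ 0`.
* `exists_series_of_redv_ne_zero` : a unit `y` of the Gauss ring `OvSubring A φ N` is
  `incl a / incl b` with `incl a, incl b ∈ F_K`, `rho a ≠ 0`, `rho b ≠ 0`
  (and then `redv y * rho b = rho a`).
* `exists_series_of_redv_eq_one` : if `redv y = 1`, then `rho a = rho b ≠ 0`
  (the converse of `GaussA0.redv_eq_one_of_mul_eq`).
-/
import Mathlib
import Fermat.Agent.S18.GaussA0

set_option autoImplicit false

noncomputable section

open ModularCurve

namespace Fermat.Agent.S37.GaussQuot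

open Fermat.Agent.S18.GaussA0

variable {K : Type*} [Field K] (A : ValuationSubring K)
variable {k : Type*} [Field k] (φ : ↥A →+* k) (N : ℕ)

theorem incl_C_mem_full (c : ↥A) :
    incl A (HahnSeries.C c) ∈ modularFunctionFieldFullC K N := by
  rw [incl_C, ← algebraMap_eq_C]
  exact (modularFunctionFieldFullC K N).algebraMap_mem _

/-- **Every element of `F_K` is a quotient of two series over `A` lying in `F_K`.** -/
theorem exists_incl_quot {x : LaurentSeries K} (hx : x ∈ modularFunctionFieldFullC K N) :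
    ∃ a b : LaurentSeries ↥A, incl A a ∈ modularFunctionFieldFullC K N ∧
      incl A b ∈ modularFunctionFieldFullC K N ∧ b ≠ 0 ∧ x * incl A b = incl A a := by
  unfold modularFunctionFieldFullC at hx
  induction hx using IntermediateField.adjoin_induction with
  | mem x hx =>
    obtain ⟨d, hd0, hd, rfl⟩ := hx
    have := hd0
    refine ⟨qExpand ↥A d (jqModC ↥A), 1, ?_, ?_, one_ne_zero, ?_⟩
    · rw [incl_qExpand, incl_jqModC]
      exact jqModCd_mem_full K N hd
    · rw [map_one]; exact one_mem _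
    · rw [map_one, mul_one, incl_qExpand, incl_jqModC]
  | algebraMap c =>
    rcases A.mem_or_inv_mem c with hc | hc
    · refine ⟨HahnSeries.C ⟨c, hc⟩, 1, incl_C_mem_full A N _, ?_, one_ne_zero, ?_⟩
      · rw [map_one]; exact one_mem _
      · rw [map_one, mul_one, incl_C, algebraMap_eq_C]
    · by_cases hc0 : c = 0
      · subst hc0
        refine ⟨0, 1, ?_, ?_, one_ne_zero, ?_⟩
        · rw [map_zero]; exact zero_mem _
        · rw [map_one]; exact one_mem _
        · rw [map_zero, map_zero, zero_mul]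
      · refine ⟨1, HahnSeries.C ⟨c⁻¹, hc⟩, ?_, incl_C_mem_full A N _, ?_, ?_⟩
        · rw [map_one]; exact one_mem _
        · intro h0
          have h1 := congrArg (fun z : LaurentSeries ↥A => z.coeff 0) h0
          simp only [HahnSeries.C_apply, HahnSeries.coeff_single_same, HahnSeries.coeff_zero] at h1
          exact inv_ne_zero hc0 (congrArg Subtype.val h1)
        · rw [incl_C, algebraMap_eq_C, map_one, ← map_mul, mul_inv_cancel₀ hc0, map_one]
  | add x y hx hy ihx ihy =>
    obtain ⟨a₁, a₂, ha₁, ha₂, ha0, hxa⟩ := ihx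
    obtain ⟨b₁, b₂, hb₁, hb₂, hb0, hyb⟩ := ihy
    refine ⟨a₁ * b₂ + b₁ * a₂, a₂ * b₂, ?_, ?_, mul_ne_zero ha0 hb0, ?_⟩
    · rw [map_add, map_mul, map_mul]
      exact add_mem (mul_mem ha₁ hb₂) (mul_mem hb₁ ha₂)
    · rw [map_mul]; exact mul_mem ha₂ hb₂
    · rw [map_mul, map_add, map_mul, map_mul, ← hxa, ← hyb]; ring
  | inv x hx ih =>
    obtain ⟨a₁, a₂, ha₁, ha₂, ha0, hxa⟩ := ih
    by_cases hx0 : x = 0
    · subst hx0
      refine ⟨0, 1, ?_, ?_, one_ne_zero, ?_⟩
      · rw [map_zero]; exact zero_mem _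
      · rw [map_one]; exact one_mem _
      · rw [inv_zero, zero_mul, map_zero]
    · have hi2 : incl A a₂ ≠ 0 := incl_ne_zero A ha0
      have hi1 : incl A a₁ ≠ 0 := by rw [← hxa]; exact mul_ne_zero hx0 hi2
      have ha10 : a₁ ≠ 0 := by
        rintro rfl
        exact hi1 (map_zero _)
      refine ⟨a₂, a₁, ha₂, ha₁, ha10, ?_⟩
      rw [← hxa]; field_simp
  | mul x y hx hy ihx ihy =>
    obtain ⟨a₁, a₂, ha₁, ha₂, ha0, hxa⟩ := ihx
    obtain ⟨b₁, b₂, hb₁, hb₂, hb0, hyb⟩ := ihy
    refine ⟨a₁ * b₁, a₂ * b₂, ?_, ?_, mul_ne_zero ha0 hb0, ?_⟩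
    · rw [map_mul]; exact mul_mem ha₁ hb₁
    · rw [map_mul]; exact mul_mem ha₂ hb₂
    · rw [map_mul, map_mul, ← hxa, ← hyb]; ring

variable {A φ N}

theorem incl_piT_pow_mul (π : ↥A) (m : ℕ) (a : LaurentSeries ↥A) :
    incl A (piT π ^ m * a) = HahnSeries.C (π : K) ^ m * incl A a := by
  rw [map_mul, map_pow, incl_piT]

theorem C_pi_ne_zero {π : ↥A} (hπ0 : π ≠ 0) : (HahnSeries.C (π : K) : LaurentSeries K) ≠ 0 := by
  intro h0
  have h1 := congrArg (fun z : LaurentSeries K => z.coeff 0) h0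
  simp only [HahnSeries.C_apply, HahnSeries.coeff_single_same, HahnSeries.coeff_zero] at h1
  exact hπ0 (Subtype.ext h1)

theorem C_pi_mem_full (π : ↥A) :
    (HahnSeries.C (π : K) : LaurentSeries K) ∈ modularFunctionFieldFullC K N := by
  rw [← algebraMap_eq_C]
  exact (modularFunctionFieldFullC K N).algebraMap_mem _

/-- the primitive part of a series of `F_K` lies in `F_K`. -/
theorem incl_mem_of_piT_pow_mul {π : ↥A} (hπ0 : π ≠ 0) {m : ℕ} {a a' : LaurentSeries ↥A}
    (ha : a = piT π ^ m * a') (hmem : incl A a ∈ modularFunctionFieldFullC K N) :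
    incl A a' ∈ modularFunctionFieldFullC K N := by
  have h1 : incl A a' = (HahnSeries.C (π : K) ^ m)⁻¹ * incl A a := by
    rw [ha, incl_piT_pow_mul, ← mul_assoc, inv_mul_cancel₀ (pow_ne_zero _ (C_pi_ne_zero hπ0)),
      one_mul]
  rw [h1]
  exact mul_mem (inv_mem (pow_mem (C_pi_mem_full π) m)) hmem

/-- **Gauss-primitive form**: a nonzero element of `F_K` is, up to powers of `π`, a quotient of
two series over `A` lying in `F_K` with nonzero reductions. -/
theorem exists_primitive_quot {π : ↥A} (hφ : ∀ x, φ x = 0 ↔ π ∣ x) (hπ0 : π ≠ 0)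
    (hkrull : ∀ c : ↥A, c ≠ 0 → ∃ n : ℕ, ¬ π ^ n ∣ c)
    {x : LaurentSeries K} (hx : x ∈ modularFunctionFieldFullC K N) (hx0 : x ≠ 0) :
    ∃ (m n : ℕ) (a b : LaurentSeries ↥A), incl A a ∈ modularFunctionFieldFullC K N ∧
      incl A b ∈ modularFunctionFieldFullC K N ∧ rho φ a ≠ 0 ∧ rho φ b ≠ 0 ∧
      x * (HahnSeries.C (π : K) ^ n * incl A b) = HahnSeries.C (π : K) ^ m * incl A a := by
  obtain ⟨a, b, ha, hb, hb0, hxab⟩ := exists_incl_quot A N hx
  have ha0 : a ≠ 0 := by
    rintro rfl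
    rw [map_zero] at hxab
    exact (mul_ne_zero hx0 (incl_ne_zero A hb0)) hxab
  obtain ⟨m, a', ha', hra'⟩ := exists_pow_mul hφ hkrull a ha0
  obtain ⟨n, b', hb', hrb'⟩ := exists_pow_mul hφ hkrull b hb0
  refine ⟨m, n, a', b', incl_mem_of_piT_pow_mul hπ0 ha' ha, incl_mem_of_piT_pow_mul hπ0 hb' hb,
    hra', hrb', ?_⟩
  rw [← incl_piT_pow_mul, ← incl_piT_pow_mul, ← ha', ← hb', hxab]

/-- **Units of the Gauss ring are quotients of primitive series of `F_K`.** -/
theorem exists_series_of_redv_ne_zero {π : ↥A} (hφ : ∀ x, φ x = 0 ↔ π ∣ x) (hπ0 : π ≠ 0)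
    (hkrull : ∀ c : ↥A, c ≠ 0 → ∃ n : ℕ, ¬ π ^ n ∣ c)
    (y : ↥(OvSubring A φ N)) (hy : redv A φ N y ≠ 0) :
    ∃ a b : LaurentSeries ↥A, incl A a ∈ modularFunctionFieldFullC K N ∧
      incl A b ∈ modularFunctionFieldFullC K N ∧ rho φ a ≠ 0 ∧ rho φ b ≠ 0 ∧
      ((y : ↥(modularFunctionFieldFullC K N)) : LaurentSeries K) * incl A b = incl A a ∧
      redv A φ N y * rho φ b = rho φ a := by
  have hφπ : φ π = 0 := (hφ π).mpr dvd_rfl
  have hy0 : ((y : ↥(modularFunctionFieldFullC K N)) : LaurentSeries K) ≠ 0 := by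
    intro h0
    apply hy
    have h1 : y = 0 := Subtype.ext (Subtype.ext h0)
    rw [h1, map_zero]
  obtain ⟨m, n, a, b, ha, hb, hra, hrb, hxab⟩ :=
    exists_primitive_quot hφ hπ0 hkrull (y : ↥(modularFunctionFieldFullC K N)).2 hy0
  have hC0 : (HahnSeries.C (π : K) : LaurentSeries K) ≠ 0 := C_pi_ne_zero hπ0
  -- the two exponents agree
  have hmn : m = n := by
    rcases Nat.lt_trichotomy m n with hlt | heq | hgt
    · exfalso
      -- `y * incl (π^(n-m) * b) = incl a`, so `redv y * 0 = rho a ≠ 0`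
      obtain ⟨d, rfl⟩ : ∃ d, n = m + (d + 1) := ⟨n - m - 1, by omega⟩
      have h1 : ((y : ↥(modularFunctionFieldFullC K N)) : LaurentSeries K) *
          incl A (piT π ^ (d + 1) * b) = incl A a := by
        rw [incl_piT_pow_mul]
        have h2 : HahnSeries.C (π : K) ^ m *
            (((y : ↥(modularFunctionFieldFullC K N)) : LaurentSeries K) *
              (HahnSeries.C (π : K) ^ (d + 1) * incl A b)) =
            HahnSeries.C (π : K) ^ m * incl A a := by
          rw [← hxab, pow_add]; ring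
        exact mul_left_cancel₀ (pow_ne_zero _ hC0) h2
      have h3 : rho φ (piT π ^ (d + 1) * b) = 0 := by
        rw [map_mul, map_pow, rho_piT φ hφπ, zero_pow (Nat.succ_ne_zero d), zero_mul]
      -- compare in the Gauss ring of all series
      have h4 : incl A a * incl A b =
          incl A (piT π ^ (d + 1) * b) *
            (((y : ↥(modularFunctionFieldFullC K N)) : LaurentSeries K) * incl A b) := by
        rw [← h1]; ring
      obtain ⟨a₀, b₀, hb₀, hyab₀⟩ := (mem_OvSubring_iff' A φ N _).mp y.2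
      have h5 : a * b₀ = piT π ^ (d + 1) * b * a₀ := by
        apply incl_injective A
        rw [map_mul, map_mul, ← hyab₀, ← h1]
        ring
      have h6 := congrArg (rho φ) h5
      rw [map_mul, map_mul, h3, zero_mul] at h6
      exact (mul_ne_zero hra hb₀) h6
    · exact heq
    · exfalso
      -- `y * incl b = incl (π^(m-n) * a)`, so `redv y * rho b = 0`
      obtain ⟨d, rfl⟩ : ∃ d, m = n + (d + 1) := ⟨m - n - 1, by omega⟩
      have h1 : ((y : ↥(modularFunctionFieldFullC K N)) : LaurentSeries K) * incl A b =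
          incl A (piT π ^ (d + 1) * a) := by
        rw [incl_piT_pow_mul]
        have h2 : HahnSeries.C (π : K) ^ n *
            (((y : ↥(modularFunctionFieldFullC K N)) : LaurentSeries K) * incl A b) =
            HahnSeries.C (π : K) ^ n * (HahnSeries.C (π : K) ^ (d + 1) * incl A a) := by
          rw [← mul_assoc (HahnSeries.C (π : K) ^ n) (HahnSeries.C (π : K) ^ (d + 1)),
            ← pow_add, ← hxab]
          ring
        exact mul_left_cancel₀ (pow_ne_zero _ hC0) h2
      have h3 := redv_mul_rho y hrb h1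
      rw [map_mul, map_pow, rho_piT φ hφπ, zero_pow (Nat.succ_ne_zero d), zero_mul] at h3
      exact (mul_ne_zero hy hrb) h3
  subst hmn
  have h1 : ((y : ↥(modularFunctionFieldFullC K N)) : LaurentSeries K) * incl A b = incl A a := by
    have h2 : HahnSeries.C (π : K) ^ m *
        (((y : ↥(modularFunctionFieldFullC K N)) : LaurentSeries K) * incl A b) =
        HahnSeries.C (π : K) ^ m * incl A a := by
      rw [← hxab]; ring
    exact mul_left_cancel₀ (pow_ne_zero _ hC0) h2
  exact ⟨a, b, ha, hb, hra, hrb, h1, redv_mul_rho y hrb h1⟩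

/-- **Elements of the Gauss ring reducing to `1`** are quotients of two series of `F_K` with the
same nonzero reduction. -/
theorem exists_series_of_redv_eq_one {π : ↥A} (hφ : ∀ x, φ x = 0 ↔ π ∣ x) (hπ0 : π ≠ 0)
    (hkrull : ∀ c : ↥A, c ≠ 0 → ∃ n : ℕ, ¬ π ^ n ∣ c)
    (y : ↥(OvSubring A φ N)) (hy : redv A φ N y = 1) :
    ∃ a b : LaurentSeries ↥A, incl A a ∈ modularFunctionFieldFullC K N ∧
      incl A b ∈ modularFunctionFieldFullC K N ∧ rho φ a ≠ 0 ∧ rho φ a = rho φ b ∧
      ((y : ↥(modularFunctionFieldFullC K N)) : LaurentSeries K) * incl A b = incl A a := by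
  obtain ⟨a, b, ha, hb, hra, -, hyab, hred⟩ :=
    exists_series_of_redv_ne_zero hφ hπ0 hkrull y (by rw [hy]; exact one_ne_zero)
  refine ⟨a, b, ha, hb, hra, ?_, hyab⟩
  rw [← hred, hy, one_mul]

end Fermat.Agent.S37.GaussQuot
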