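/-
S37, block (c), number-field forms of the W2 contract.

`TorsionInj.ZeroSumConst A N r q` asks for integral series over the valuation ring `A` of `ℚ̄`.
Block W2 works over number fields `K0 ⊆ ℚ̄` with the discrete valuation ring `A₀ = A ∩ K0` and
the Gauss ring `GaussA0.OvSubring A₀ res N` of `F_K0`.  Two equivalent-in-practice contracts in
that language, each of which implies torsion injectivity directly through
`Descent.KummerK0` (`Top23.exists_kummerK0`, on `main`):

* `SeriesConst A N r q` : for `h` with `div h = q • E`, `r_* E = 0`, and every finite `Kb`, there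
  are a finite `K0 ⊇ Kb` and series `v₁, v₂` over `A₀` in `F_K0` with the same nonzero reduction
  such that `v₁ / v₂` has the divisor of `h` (the input shape of `Descent.KummerK0`).
* `GaussConst A N r q` : the same with an element `y` of the Gauss ring of `F_K0` whose reduction
  is a nonzero constant ("`h̄` is a constant").

* `GaussAlg A N r q` : the weakest form -- a unit `y` of the Gauss ring of `F_K0` (some finite
  `K0`) whose reduction is algebraic over the residue field of `A₀`.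

Adapters to the contract of the skeleton: `zeroSumConst_of_seriesConst`,
`zeroSumConst_of_gaussConst`, `zeroSumConst_of_gaussAlg` (each gives
`TorsionInj.ZeroSumConst A N r q`), through `isInt_lift` (a series over `A₀` in `F_K0` is
`Step1.IsInt` over `A`; `rho_mem_full` = Gauss residue field).

Also: `seriesConst_of_gaussConst`, `principal_of_prime`, `eq_zero_of_mem_redKer`,
`injective_torsion`, `mk'_injective_torsion` (+ the `_of_gaussConst` forms), directly from
`Descent.KummerK0`.
-/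
import Mathlib
import Fermat.Prelude.Def_ModularCurve_ReductionModL
import Fermat.Agent.S18.Descent
import Fermat.Agent.S18.Setup
import Fermat.Agent.S18.H2Top
import Fermat.Agent.S18.Top23
import Fermat.Agent.S18.IntConst
import Fermat.Agent.S18.ResField
import Fermat.Agent.S37.TorsionInj
import Fermat.Agent.S37.GaussQuot

set_option autoImplicit false
set_option synthInstance.maxHeartbeats 400000
set_option linter.style.haveILetI false

noncomputable section

open HahnSeries AlgebraicCurve ModularCurve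

namespace Fermat.Agent.S37.TorsionInjK0

open Fermat.Agent.S18 Fermat.Agent.S37.TorsionInj

local notation "Qb" => AlgebraicClosure ℚ

section Contract

variable (A : ValuationSubring Qb) (N : ℕ) {Y : Type*}
  (r : Place Qb (modularFunctionFieldBar N) → Y)

/-- **W2 contract, series form over number fields** (the input shape of `Descent.KummerK0`). -/
def SeriesConst (q : ℕ) : Prop :=
  ∀ (E : Divisor Qb (modularFunctionFieldBar N)) (h : modularFunctionFieldBar N), h ≠ 0 →
    (∀ P : Place Qb (modularFunctionFieldBar N), P.ord h = q * E P) →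
    Finsupp.mapDomain r E = 0 →
    ∀ (Kb : IntermediateField ℚ Qb) [FiniteDimensional ℚ Kb],
      ∃ (K0 : IntermediateField ℚ Qb) (_ : FiniteDimensional ℚ K0), Kb ≤ K0 ∧
        ∃ v₁ v₂ : LaurentSeries (A0.down K0 A),
          coeffMap (A0.down K0 A).subtype v₁ ∈ modularFunctionFieldFullC K0 N ∧
          coeffMap (A0.down K0 A).subtype v₂ ∈ modularFunctionFieldFullC K0 N ∧
          coeffMap (IsLocalRing.residue (A0.down K0 A)) v₁ ≠ 0 ∧
          coeffMap (IsLocalRing.residue (A0.down K0 A)) v₁ =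
            coeffMap (IsLocalRing.residue (A0.down K0 A)) v₂ ∧
          ∀ x₁ x₂ : modularFunctionFieldBar N,
            (x₁ : LaurentSeries Qb) =
              coeffMap (algebraMap K0 Qb) (coeffMap (A0.down K0 A).subtype v₁) →
            (x₂ : LaurentSeries Qb) =
              coeffMap (algebraMap K0 Qb) (coeffMap (A0.down K0 A).subtype v₂) →
            ∀ P : Place Qb (modularFunctionFieldBar N), P.ord (x₁ / x₂) = P.ord h

/-- **W2 contract, Gauss-ring form over number fields**: `h` has the divisor of an element `y`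
of the Gauss ring of `F_K0` whose reduction is a nonzero constant. -/
def GaussConst (q : ℕ) : Prop :=
  ∀ (E : Divisor Qb (modularFunctionFieldBar N)) (h : modularFunctionFieldBar N), h ≠ 0 →
    (∀ P : Place Qb (modularFunctionFieldBar N), P.ord h = q * E P) →
    Finsupp.mapDomain r E = 0 →
    ∀ (Kb : IntermediateField ℚ Qb) [FiniteDimensional ℚ Kb],
      ∃ (K0 : IntermediateField ℚ Qb) (_ : FiniteDimensional ℚ K0), Kb ≤ K0 ∧
        ∃ (y : ↥(modularFunctionFieldFullC K0 N))
          (hy : y ∈ GaussA0.OvSubring (A0.down K0 A) (IsLocalRing.residue (A0.down K0 A)) N)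
          (c : IsLocalRing.ResidueField (A0.down K0 A)), c ≠ 0 ∧
          GaussA0.redv (A0.down K0 A) (IsLocalRing.residue (A0.down K0 A)) N ⟨y, hy⟩ =
            HahnSeries.C c ∧
          ∀ x : modularFunctionFieldBar N,
            (x : LaurentSeries Qb) = coeffMap (algebraMap K0 Qb) (y : LaurentSeries K0) →
            ∀ P : Place Qb (modularFunctionFieldBar N), P.ord x = P.ord h

/-- **W2 contract, weakest Gauss-ring form**: `h` has the divisor of a unit `y` of the Gauss
ring of `F_K0` whose reduction is ALGEBRAIC over the residue field of `A₀ = A ∩ K0`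
(e.g. integral over `k₀[j̄]` and over `k₀[1/j̄]`). -/
def GaussAlg (q : ℕ) : Prop :=
  ∀ (E : Divisor Qb (modularFunctionFieldBar N)) (h : modularFunctionFieldBar N), h ≠ 0 →
    (∀ P : Place Qb (modularFunctionFieldBar N), P.ord h = q * E P) →
    Finsupp.mapDomain r E = 0 →
    ∃ (K0 : IntermediateField ℚ Qb) (_ : FiniteDimensional ℚ K0)
      (y : ↥(modularFunctionFieldFullC K0 N))
      (hy : y ∈ GaussA0.OvSubring (A0.down K0 A) (IsLocalRing.residue (A0.down K0 A)) N),
      GaussA0.redv (A0.down K0 A) (IsLocalRing.residue (A0.down K0 A)) N ⟨y, hy⟩ ≠ 0 ∧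
      IsAlgebraic (IsLocalRing.ResidueField (A0.down K0 A))
        (GaussA0.redv (A0.down K0 A) (IsLocalRing.residue (A0.down K0 A)) N ⟨y, hy⟩) ∧
      ∀ x : modularFunctionFieldBar N,
        (x : LaurentSeries Qb) = coeffMap (algebraMap K0 Qb) (y : LaurentSeries K0) →
        ∀ P : Place Qb (modularFunctionFieldBar N), P.ord x = P.ord h

end Contract

section Adapter

variable {A : ValuationSubring Qb} {N : ℕ} [NeZero N] {Y : Type*}
  {r : Place Qb (modularFunctionFieldBar N) → Y}

/-- the image in `F_L` of an element of `F_K0`. -/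
theorem exists_bar (K0 : IntermediateField ℚ Qb) {x : LaurentSeries K0}
    (hx : x ∈ modularFunctionFieldFullC K0 N) :
    ∃ z : modularFunctionFieldBar N, (z : LaurentSeries Qb) = coeffMap (algebraMap K0 Qb) x :=
  ⟨Setup.ιL K0 N (Setup.FK.mk x hx), rfl⟩

/-- a series over `A₀` with nonzero reduction has a nonzero image in `F_L`. -/
theorem bar_ne_zero (K0 : IntermediateField ℚ Qb) (v : LaurentSeries (A0.down K0 A))
    (hv : coeffMap (IsLocalRing.residue (A0.down K0 A)) v ≠ 0)
    (x : modularFunctionFieldBar N)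
    (hx : (x : LaurentSeries Qb) =
      coeffMap (algebraMap K0 Qb) (coeffMap (A0.down K0 A).subtype v)) : x ≠ 0 := by
  intro h0
  apply hv
  have h1 : coeffMap (algebraMap K0 Qb) (coeffMap (A0.down K0 A).subtype v) = 0 := by
    rw [← hx, h0]; rfl
  have h2 := (Descent.coeffMap_eq_zero_iff_of_injective _ (algebraMap K0 Qb).injective _).mp h1
  have h3 := (Descent.coeffMap_eq_zero_iff_of_injective _ Subtype.val_injective v).mp h2
  rw [h3, map_zero]

/-- **Gauss-ring form ⟹ series form.** -/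
theorem seriesConst_of_gaussConst {ℓ : ℕ} (hℓ : ℓ.Prime) (hℓN : ¬ ℓ ∣ N)
    (hA : A.LiesOverPrime ℓ) {q : ℕ} (hG : GaussConst A N r q) : SeriesConst A N r q := by
  intro E h h0 hh hrE Kb _
  obtain ⟨K0, hK0, hle, y, hy, c, hc0, hred, hord⟩ := hG E h h0 hh hrE Kb
  haveI := hK0
  refine ⟨K0, hK0, hle, ?_⟩
  obtain ⟨-, π, hπ, -, hmax, -, -, -⟩ := Setup.exists_unif K0 A hℓ hA
  obtain ⟨hφ, hπ0, hkrull, -, -⟩ := H2Top.gauss_hyps K0 N A hℓ hℓN hA π hπ hmax
  -- lift the constant and divide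
  obtain ⟨c₀, rfl⟩ := IsLocalRing.residue_surjective c
  have hc₀u : IsUnit c₀ := by
    by_contra hnu
    exact hc0 ((IsLocalRing.residue_eq_zero_iff c₀).mpr
      ((IsLocalRing.mem_maximalIdeal c₀).mpr hnu))
  obtain ⟨d₀, hd₀⟩ := hc₀u.exists_right_inv
  set yO : ↥(GaussA0.OvSubring (A0.down K0 A) (IsLocalRing.residue ↥(A0.down K0 A)) N) :=
    ⟨y, hy⟩ with hyO
  set y' : ↥(GaussA0.OvSubring (A0.down K0 A) (IsLocalRing.residue ↥(A0.down K0 A)) N) :=
    yO * GaussA0.constO (A0.down K0 A) (IsLocalRing.residue ↥(A0.down K0 A)) N d₀ with hy'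
  have hred' : GaussA0.redv (A0.down K0 A) (IsLocalRing.residue ↥(A0.down K0 A)) N y' = 1 := by
    rw [hy', map_mul, hred, GaussA0.redv_constO, ← map_mul, ← map_mul, hd₀, map_one, map_one]
  obtain ⟨a, b, ha, hb, hra, hrab, hyab⟩ :=
    GaussQuot.exists_series_of_redv_eq_one hφ hπ0 hkrull y' hred'
  refine ⟨a, b, ha, hb, hra, hrab, ?_⟩
  intro x₁ x₂ hx₁ hx₂ P
  -- `x₁ / x₂` is the image of `y` times a nonzero constant
  obtain ⟨z, hz⟩ := exists_bar K0 y.2
  have hx₂0 : x₂ ≠ 0 := bar_ne_zero K0 b (hrab ▸ hra) x₂ hx₂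
  have hd₀K : ((d₀ : ↥(A0.down K0 A)) : K0) ≠ 0 := by
    intro h0'
    have h1 : d₀ = 0 := Subtype.ext h0'
    rw [h1, mul_zero] at hd₀
    exact zero_ne_one hd₀
  have hconst : algebraMap Qb (modularFunctionFieldBar N)
      (algebraMap K0 Qb ((d₀ : ↥(A0.down K0 A)) : K0)) ≠ 0 := by
    simpa using hd₀K
  have hkey : x₁ = z * algebraMap Qb (modularFunctionFieldBar N)
      (algebraMap K0 Qb ((d₀ : ↥(A0.down K0 A)) : K0)) * x₂ := by
    apply Subtype.ext
    have h1 : ((z * algebraMap Qb (modularFunctionFieldBar N)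
        (algebraMap K0 Qb ((d₀ : ↥(A0.down K0 A)) : K0)) * x₂ : modularFunctionFieldBar N) :
        LaurentSeries Qb) =
        (z : LaurentSeries Qb) * algebraMap Qb (LaurentSeries Qb)
          (algebraMap K0 Qb ((d₀ : ↥(A0.down K0 A)) : K0)) * (x₂ : LaurentSeries Qb) := rfl
    rw [h1, hx₁, hx₂, hz, ← FieldDef.coeffMap_algebraMap' (algebraMap K0 Qb), ← map_mul,
      ← map_mul]
    congr 1
    have h2 : GaussA0.incl (A0.down K0 A) a =
        (y : LaurentSeries K0) * algebraMap K0 (LaurentSeries K0) ((d₀ : ↥(A0.down K0 A)) : K0) *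
          GaussA0.incl (A0.down K0 A) b := by
      rw [← hyab]
      rfl
    exact h2
  rw [hkey, mul_div_assoc, div_self hx₂0, mul_one]
  have hz0 : z ≠ 0 := by
    intro h0'
    -- `ord h` is then `0` at all places, but we only need the statement: use `hord` directly
    rw [h0'] at hz
    have h2 : ((0 : modularFunctionFieldBar N) : LaurentSeries Qb) = 0 := rfl
    have h3 : (y : LaurentSeries K0) = 0 :=
      (Descent.coeffMap_eq_zero_iff_of_injective _ (algebraMap K0 Qb).injective _).mp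
        (hz.symm.trans h2)
    have h4 : yO = 0 := Subtype.ext (Subtype.ext h3)
    rw [h4, map_zero] at hred
    have h5 := congrArg (fun s : LaurentSeries (IsLocalRing.ResidueField ↥(A0.down K0 A)) =>
      s.coeff 0) hred
    simp only [HahnSeries.C_apply, HahnSeries.coeff_single_same, HahnSeries.coeff_zero] at h5
    exact hc0 h5.symm
  rw [P.ord_mul hz0 hconst, Fermat.Agent.S24.Place.ord_algebraMap, add_zero]
  exact hord z hz P

/-- **(c), divisor form, prime case**, from the series contract and the Kummer statement over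
number fields. -/
theorem principal_of_prime {q : ℕ} (hq : q.Prime)
    (hkum : ∃ (Kb : IntermediateField ℚ Qb) (_ : FiniteDimensional ℚ Kb),
      Descent.KummerK0 A N q Kb)
    (hW : SeriesConst A N r q) (E : Divisor Qb (modularFunctionFieldBar N))
    (hqE : q • E ∈ Divisor.principal (K := Qb) (F := modularFunctionFieldBar N))
    (hrE : Finsupp.mapDomain r E = 0) :
    E ∈ Divisor.principal (K := Qb) (F := modularFunctionFieldBar N) := by
  obtain ⟨h, h0, hh⟩ := hqE
  have hh' : ∀ P : Place Qb (modularFunctionFieldBar N), P.ord h = q * E P := by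
    intro P
    rw [← hh P, Finsupp.smul_apply, nsmul_eq_mul]
  obtain ⟨Kb, hKb, hK⟩ := hkum
  haveI := hKb
  obtain ⟨K0, hK0, hle, v₁, v₂, h₁, h₂, hne, heq, hord⟩ := hW E h h0 hh' hrE Kb
  haveI := hK0
  obtain ⟨x₁, hx₁⟩ := exists_bar (N := N) K0 h₁
  obtain ⟨x₂, hx₂⟩ := exists_bar (N := N) K0 h₂
  have hP := hord x₁ x₂ hx₁ hx₂
  obtain ⟨t, ht⟩ := hK K0 hle v₁ v₂ h₁ h₂ hne heq x₁ x₂ hx₁ hx₂
    (fun P => ⟨E P, by rw [hP P, hh' P]⟩)
  have hx₁0 : x₁ ≠ 0 := bar_ne_zero K0 v₁ hne x₁ hx₁
  have hx₂0 : x₂ ≠ 0 := bar_ne_zero K0 v₂ (heq ▸ hne) x₂ hx₂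
  have ht0 : t ≠ 0 := by
    intro h0'
    rw [h0', zero_pow hq.ne_zero] at ht
    exact (div_ne_zero hx₁0 hx₂0) ht.symm
  refine ⟨t, ht0, fun P => ?_⟩
  have h1 : (q : ℤ) * E P = q * P.ord t := by
    rw [← hh' P, ← hP P, ← ht, ← zpow_natCast, P.ord_zpow]
  exact mul_left_cancel₀ (Nat.cast_ne_zero.mpr hq.ne_zero) h1

end Adapter

/-! ### From number fields to the valuation ring of `ℚ̄` -/

section ToA

variable {A : ValuationSubring Qb} {N : ℕ} [NeZero N]

/-- **The Gauss residue field**: the reduction of a series over `A₀ = A ∩ K0` lying in `F_K0`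
lies in the function field over the residue field of `A₀` (`GaussDeg.redv_mem_full`). -/
theorem rho_mem_full {ℓ : ℕ} (hℓ : ℓ.Prime) (hℓN : ¬ ℓ ∣ N) (hA : A.LiesOverPrime ℓ)
    (K0 : IntermediateField ℚ Qb) [FiniteDimensional ℚ K0] (v : LaurentSeries (A0.down K0 A))
    (hv : coeffMap (A0.down K0 A).subtype v ∈ modularFunctionFieldFullC K0 N) :
    coeffMap (IsLocalRing.residue (A0.down K0 A)) v ∈
      modularFunctionFieldFullC (IsLocalRing.ResidueField (A0.down K0 A)) N := by
  obtain ⟨-, π, hπ, -, hmax, -, -, -⟩ := Setup.exists_unif K0 A hℓ hA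
  obtain ⟨hφ, hπ0, hkrull, -, hNk⟩ := H2Top.gauss_hyps K0 N A hℓ hℓN hA π hπ hmax
  have hN : 0 < N := Nat.pos_of_ne_zero (NeZero.ne N)
  obtain ⟨m, hm, hmono⟩ :=
    GaussDeg.exists_monomials (IsLocalRing.ResidueField (A0.down K0 A)) N hN hNk
  obtain ⟨hfd, hle⟩ := FieldDefQ.finrank_le_psi K0 N
  haveI := hfd
  set x : ↥(GaussA0.OvSubring (A0.down K0 A) (IsLocalRing.residue ↥(A0.down K0 A)) N) :=
    ⟨⟨coeffMap (A0.down K0 A).subtype v, hv⟩, GaussA0.mem_OvSubring_of_incl v rfl⟩ with hx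
  have h1 : GaussA0.redv (A0.down K0 A) (IsLocalRing.residue ↥(A0.down K0 A)) N x =
      coeffMap (IsLocalRing.residue (A0.down K0 A)) v := GaussA0.redv_of_incl x v rfl
  rw [← h1]
  exact GaussDeg.redv_mem_full hφ hπ0 hkrull hN m hm hmono hle x

theorem subtype_comp_incl (K0 : IntermediateField ℚ Qb) :
    A.subtype.comp (A0.incl K0 A) = (algebraMap K0 Qb).comp (A0.down K0 A).subtype :=
  RingHom.ext fun _ => rfl

theorem residue_comp_incl (K0 : IntermediateField ℚ Qb) :
    (IsLocalRing.residue A).comp (A0.incl K0 A) =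
      (A0.resMap K0 A).comp (IsLocalRing.residue (A0.down K0 A)) :=
  RingHom.ext fun x => (A0.resMap_residue A x).symm

theorem subtype_lift (K0 : IntermediateField ℚ Qb) (v : LaurentSeries (A0.down K0 A)) :
    coeffMap A.subtype (coeffMap (A0.incl K0 A) v) =
      coeffMap (algebraMap K0 Qb) (coeffMap (A0.down K0 A).subtype v) := by
  rw [coeffMap_coeffMap, coeffMap_congr (subtype_comp_incl K0), ← coeffMap_coeffMap]

theorem residue_lift (K0 : IntermediateField ℚ Qb) (v : LaurentSeries (A0.down K0 A)) :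
    coeffMap (IsLocalRing.residue A) (coeffMap (A0.incl K0 A) v) =
      coeffMap (A0.resMap K0 A) (coeffMap (IsLocalRing.residue (A0.down K0 A)) v) := by
  rw [coeffMap_coeffMap, coeffMap_coeffMap, coeffMap_congr (residue_comp_incl K0)]

/-- **A series over `A₀ = A ∩ K0` lying in `F_K0` is integral over `A`** in the sense of
`Step1.IsInt` (after extension of the coefficients). -/
theorem isInt_lift {ℓ : ℕ} (hℓ : ℓ.Prime) (hℓN : ¬ ℓ ∣ N) (hA : A.LiesOverPrime ℓ)
    (K0 : IntermediateField ℚ Qb) [FiniteDimensional ℚ K0] (v : LaurentSeries (A0.down K0 A))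
    (hv : coeffMap (A0.down K0 A).subtype v ∈ modularFunctionFieldFullC K0 N) :
    Step1.IsInt A N (coeffMap (A0.incl K0 A) v) := by
  constructor
  · rw [subtype_lift, FieldDef.bar_eq_fullC]
    exact FieldDef.coeffMap_mem_fullC _ N hv
  · rw [residue_lift]
    exact FieldDef.coeffMap_mem_fullC _ N (rho_mem_full hℓ hℓN hA K0 v hv)

end ToA

section ToZeroSum

variable {A : ValuationSubring Qb} {N : ℕ} [NeZero N] {Y : Type*}
  {r : Place Qb (modularFunctionFieldBar N) → Y}

/-- **Series form ⟹ `TorsionInj.ZeroSumConst`.** -/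
theorem zeroSumConst_of_seriesConst {ℓ : ℕ} (hℓ : ℓ.Prime) (hℓN : ¬ ℓ ∣ N)
    (hA : A.LiesOverPrime ℓ) {q : ℕ} (hS : SeriesConst A N r q) : ZeroSumConst A N r q := by
  intro E h h0 hh hrE
  obtain ⟨K0, hK0, -, v₁, v₂, h₁, h₂, hne, heq, hord⟩ := hS E h h0 hh hrE ⊥
  haveI := hK0
  have hI₁ := isInt_lift hℓ hℓN hA K0 v₁ h₁
  have hI₂ := isInt_lift hℓ hℓN hA K0 v₂ h₂
  have htok : hI₁.tok = hI₂.tok := by
    apply Subtype.ext
    change coeffMap (IsLocalRing.residue A) (coeffMap (A0.incl K0 A) v₁) =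
      coeffMap (IsLocalRing.residue A) (coeffMap (A0.incl K0 A) v₂)
    rw [residue_lift, residue_lift, heq]
  have hk₁ : hI₁.tok ≠ 0 := by
    rw [Step1.IsInt.tok_ne_zero_iff, residue_lift]
    intro h0'
    exact hne ((Descent.coeffMap_eq_zero_iff_of_injective _ (A0.resMap_injective A) _).mp h0')
  refine ⟨_, _, hI₁, hI₂, hk₁, htok ▸ hk₁, fun Q => by rw [htok], fun P => ?_⟩
  exact hord hI₁.toL hI₂.toL (subtype_lift K0 v₁) (subtype_lift K0 v₂) P

/-- **Gauss-ring form ⟹ `TorsionInj.ZeroSumConst`.** -/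
theorem zeroSumConst_of_gaussConst {ℓ : ℕ} (hℓ : ℓ.Prime) (hℓN : ¬ ℓ ∣ N)
    (hA : A.LiesOverPrime ℓ) {q : ℕ} (hG : GaussConst A N r q) : ZeroSumConst A N r q :=
  zeroSumConst_of_seriesConst hℓ hℓN hA (seriesConst_of_gaussConst hℓ hℓN hA hG)

/-- algebraicity is preserved by coefficient extension. -/
theorem isAlgebraic_coeffMap {k k' : Type*} [Field k] [Field k'] (f : k →+* k')
    {z : LaurentSeries k} (hz : IsAlgebraic k z) : IsAlgebraic k' (coeffMap f z) := by
  obtain ⟨p, hp0, hp⟩ := hz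
  refine ⟨p.map f, (Polynomial.map_ne_zero_iff f.injective).mpr hp0, ?_⟩
  have hcomp : (coeffMap f).comp (algebraMap k (LaurentSeries k)) =
      (algebraMap k' (LaurentSeries k')).comp f :=
    RingHom.ext fun c => FieldDef.coeffMap_algebraMap' f c
  have h1 := congrArg (coeffMap f) hp
  rw [map_zero, Polynomial.aeval_def, Polynomial.hom_eval₂, hcomp] at h1
  rw [Polynomial.aeval_def, Polynomial.eval₂_map]
  exact h1

/-- **Weakest Gauss-ring form ⟹ `TorsionInj.ZeroSumConst`**: the reduction, being algebraic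
over the algebraically closed residue field of `A`, is a constant. -/
theorem zeroSumConst_of_gaussAlg {ℓ : ℕ} (hℓ : ℓ.Prime) (hℓN : ¬ ℓ ∣ N)
    (hA : A.LiesOverPrime ℓ) {q : ℕ} (hG : GaussAlg A N r q) : ZeroSumConst A N r q := by
  intro E h h0 hh hrE
  obtain ⟨K0, hK0, y, hy, hne, halg, hord⟩ := hG E h h0 hh hrE
  haveI := hK0
  haveI := ResField.isAlgClosed A
  obtain ⟨-, π, hπ, -, hmax, -, -, -⟩ := Setup.exists_unif K0 A hℓ hA
  obtain ⟨hφ, hπ0, hkrull, -, -⟩ := H2Top.gauss_hyps K0 N A hℓ hℓN hA π hπ hmax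
  obtain ⟨a, b, ha, hb, hra, hrb, hyab, hred⟩ :=
    GaussQuot.exists_series_of_redv_ne_zero hφ hπ0 hkrull ⟨y, hy⟩ hne
  have hI₁ := isInt_lift hℓ hℓN hA K0 a ha
  have hI₂ := isInt_lift hℓ hℓN hA K0 b hb
  have hinj : Function.Injective (coeffMap (A0.resMap K0 A)) :=
    Descent.coeffMap_injective_of_injective _ (A0.resMap_injective A)
  have hk₁ : hI₁.tok ≠ 0 := by
    rw [Step1.IsInt.tok_ne_zero_iff, residue_lift]
    intro h0'
    exact hra ((Descent.coeffMap_eq_zero_iff_of_injective _ (A0.resMap_injective A) _).mp h0')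
  have hk₂ : hI₂.tok ≠ 0 := by
    rw [Step1.IsInt.tok_ne_zero_iff, residue_lift]
    intro h0'
    exact hrb ((Descent.coeffMap_eq_zero_iff_of_injective _ (A0.resMap_injective A) _).mp h0')
  -- the reduction is a constant of the residue field of `A`
  have halg' := isAlgebraic_coeffMap (A0.resMap K0 A) halg
  obtain ⟨c, hc⟩ := IntConst.mem_range_algebraMap_of_isIntegral_self _ halg'.isIntegral
  have hc0 : c ≠ 0 := by
    rintro rfl
    rw [map_zero] at hc
    exact hne ((Descent.coeffMap_eq_zero_iff_of_injective _ (A0.resMap_injective A) _).mp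
      hc.symm)
  have htok : hI₁.tok = algebraMap (IsLocalRing.ResidueField A)
      (modularFunctionFieldFullC (IsLocalRing.ResidueField A) N) c * hI₂.tok := by
    apply Subtype.ext
    change coeffMap (IsLocalRing.residue A) (coeffMap (A0.incl K0 A) a) =
      algebraMap (IsLocalRing.ResidueField A) (LaurentSeries (IsLocalRing.ResidueField A)) c *
        coeffMap (IsLocalRing.residue A) (coeffMap (A0.incl K0 A) b)
    rw [residue_lift, residue_lift, hc, ← map_mul]
    exact congrArg _ hred.symm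
  have hcF : algebraMap (IsLocalRing.ResidueField A)
      (modularFunctionFieldFullC (IsLocalRing.ResidueField A) N) c ≠ 0 := by
    simpa using hc0
  refine ⟨_, _, hI₁, hI₂, hk₁, hk₂, fun Q => ?_, fun P => ?_⟩
  · rw [htok, Q.ord_mul hcF hk₂, Fermat.Agent.S24.Place.ord_algebraMap, zero_add]
  · obtain ⟨z, hz⟩ := exists_bar K0 y.2
    have hL₂ : hI₂.toL ≠ 0 := hI₂.toL_ne_zero hk₂
    have hkey : hI₁.toL = z * hI₂.toL := by
      apply Subtype.ext
      change coeffMap A.subtype (coeffMap (A0.incl K0 A) a) =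
        (z : LaurentSeries Qb) * coeffMap A.subtype (coeffMap (A0.incl K0 A) b)
      rw [subtype_lift, subtype_lift, hz, ← map_mul]
      exact congrArg _ hyab.symm
    rw [hkey, mul_div_assoc, div_self hL₂, mul_one]
    exact hord z hz P

end ToZeroSum

section Main

variable {A : ValuationSubring Qb} {N : ℕ} [NeZero N] {Y : Type*}
  {r : Place Qb (modularFunctionFieldBar N) → Y}

/-- **(c), prime case**, from the series contract. -/
theorem eq_zero_of_prime {q : ℕ} (hq : q.Prime)
    (hkum : ∃ (Kb : IntermediateField ℚ Qb) (_ : FiniteDimensional ℚ Kb),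
      Descent.KummerK0 A N q Kb)
    (hW : SeriesConst A N r q) (x : JZero N) (hqx : q • x = 0) (hx : x ∈ redKer N r) :
    x = 0 := by
  obtain ⟨E, hrE, rfl⟩ := hx
  have hqE : (q • (E : Divisor Qb (modularFunctionFieldBar N))) ∈
      Divisor.principal (K := Qb) (F := modularFunctionFieldBar N) := by
    have h1 : Pic0.mk (q • E) = 0 := by rw [← hqx]; rfl
    have h2 := (QuotientAddGroup.eq_zero_iff _).mp h1
    rw [AddSubgroup.mem_addSubgroupOf] at h2
    exact h2
  have hE := principal_of_prime hq hkum hW _ hqE hrE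
  refine (QuotientAddGroup.eq_zero_iff _).mpr ?_
  rw [AddSubgroup.mem_addSubgroupOf]
  exact hE

/-- **(c)** from the series contract: for `ℓ ∤ N` and a place `A` above `ℓ`, a point of
`redKer r` killed by some `m` prime to `ℓ` is zero. -/
theorem eq_zero_of_mem_redKer {ℓ : ℕ} (hℓ : ℓ.Prime) (hℓN : ¬ ℓ ∣ N)
    (A : ValuationSubring Qb) (hA : A.LiesOverPrime ℓ)
    (hW : ∀ q : ℕ, q.Prime → q ≠ ℓ → SeriesConst A N r q)
    (m : ℕ) (hm : ¬ ℓ ∣ m) (x : JZero N) (hmx : m • x = 0) (hx : x ∈ redKer N r) : x = 0 := by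
  induction m using Nat.strong_induction_on generalizing x with
  | _ m ih =>
    rcases Nat.eq_zero_or_pos m with rfl | hpos
    · exact absurd (dvd_zero ℓ) hm
    obtain rfl | h1 : m = 1 ∨ 1 < m := by omega
    · rw [one_smul] at hmx
      exact hmx
    · obtain ⟨q, hq, hqm⟩ := Nat.exists_prime_and_dvd (by omega : m ≠ 1)
      obtain ⟨m', rfl⟩ := hqm
      have hqℓ : q ≠ ℓ := fun h => hm (h ▸ dvd_mul_right q m')
      have hm' : ¬ ℓ ∣ m' := fun h => hm (dvd_mul_of_dvd_right h q)
      have hx' : m' • x = 0 := by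
        apply eq_zero_of_prime hq (Top23.exists_kummerK0 N hℓ hℓN A hA hq hqℓ) (hW q hq hqℓ)
          (m' • x)
        · rw [← mul_smul]; exact hmx
        · exact (redKer N r).nsmul_mem hx m'
      have hlt : m' < q * m' := by nlinarith [hq.two_le]
      exact ih m' hlt hm' x hx' hx

/-- **(c)** from the series contract, in the shape of `IsSpecialization.injective_torsion`. -/
theorem injective_torsion {ℓ : ℕ} (hℓ : ℓ.Prime) {p : ℕ} (hℓNp : ¬ ℓ ∣ N * p)
    (A : ValuationSubring Qb) (hA : A.LiesOverPrime ℓ)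
    (hW : ∀ q : ℕ, q.Prime → q ≠ ℓ → SeriesConst A N r q)
    (x : JZero N) (hpx : ∃ n : ℕ, p ^ n • x = 0) (hx : x ∈ redKer N r) : x = 0 := by
  obtain ⟨n, hn⟩ := hpx
  have hℓN : ¬ ℓ ∣ N := fun h => hℓNp (dvd_mul_of_dvd_left h p)
  have hℓp : ¬ ℓ ∣ p := fun h => hℓNp (dvd_mul_of_dvd_right h N)
  have hℓpn : ¬ ℓ ∣ p ^ n := fun h => hℓp (hℓ.dvd_of_dvd_pow h)
  exact eq_zero_of_mem_redKer hℓ hℓN A hA hW (p ^ n) hℓpn x hn hx

/-- The quotient form. -/
theorem mk'_injective_torsion {ℓ : ℕ} (hℓ : ℓ.Prime) {p : ℕ} (hℓNp : ¬ ℓ ∣ N * p)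
    (A : ValuationSubring Qb) (hA : A.LiesOverPrime ℓ)
    (hW : ∀ q : ℕ, q.Prime → q ≠ ℓ → SeriesConst A N r q)
    (x : JZero N) (hpx : ∃ n : ℕ, p ^ n • x = 0)
    (hx : QuotientAddGroup.mk' (redKer N r) x = 0) : x = 0 :=
  injective_torsion hℓ hℓNp A hA hW x hpx ((QuotientAddGroup.eq_zero_iff x).mp hx)

/-- **(c)** from the Gauss-ring contract (`h̄` is a nonzero constant). -/
theorem injective_torsion_of_gaussConst {ℓ : ℕ} (hℓ : ℓ.Prime) {p : ℕ} (hℓNp : ¬ ℓ ∣ N * p)
    (A : ValuationSubring Qb) (hA : A.LiesOverPrime ℓ)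
    (hW : ∀ q : ℕ, q.Prime → q ≠ ℓ → GaussConst A N r q)
    (x : JZero N) (hpx : ∃ n : ℕ, p ^ n • x = 0) (hx : x ∈ redKer N r) : x = 0 :=
  injective_torsion hℓ hℓNp A hA
    (fun q hq hqℓ => seriesConst_of_gaussConst hℓ
      (fun h => hℓNp (dvd_mul_of_dvd_left h p)) hA (hW q hq hqℓ)) x hpx hx

/-- The quotient form, from the Gauss-ring contract. -/
theorem mk'_injective_torsion_of_gaussConst {ℓ : ℕ} (hℓ : ℓ.Prime) {p : ℕ}
    (hℓNp : ¬ ℓ ∣ N * p) (A : ValuationSubring Qb) (hA : A.LiesOverPrime ℓ)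
    (hW : ∀ q : ℕ, q.Prime → q ≠ ℓ → GaussConst A N r q)
    (x : JZero N) (hpx : ∃ n : ℕ, p ^ n • x = 0)
    (hx : QuotientAddGroup.mk' (redKer N r) x = 0) : x = 0 :=
  injective_torsion_of_gaussConst hℓ hℓNp A hA hW x hpx ((QuotientAddGroup.eq_zero_iff x).mp hx)

end Main

end Fermat.Agent.S37.TorsionInjK0
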