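/-
S37, block (W5) = the cover part of (W2): ASSEMBLY (T).

`TorsionInjK0.GaussAlg A N (RedPlace.r A N) q` (hence `TorsionInj.ZeroSumConst`) for a cover
`Ω = AdjoinRoot m` of `X₀(N)` over `ℚ̄`, from the leaves of the cover chain, each a named
hypothesis of `CoverHyps`.
-/
import Mathlib
import Fermat.Agent.S18.Setup
import Fermat.Agent.S18.SetupTower
import Fermat.Agent.S18.S24Export
import Fermat.Agent.S18.A0
import Fermat.Agent.S18.CoreDefs
import Fermat.Agent.S18.GaussA0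
import Fermat.Agent.S24.FFDeg
import Fermat.Agent.S37.CoverDefs
import Fermat.Agent.S37.CoverHyps
import Fermat.Agent.S37.RedPlace
import Fermat.Agent.S37.TorsionInjK0
import Fermat.Agent.S18.CoverData
import Fermat.Agent.S18.CoverBaseS
import Fermat.Agent.S37.Skeleton2

set_option autoImplicit false
set_option linter.unusedSectionVars false
set_option linter.style.haveILetI false

noncomputable section

open Polynomial AlgebraicCurve ModularCurve

namespace Fermat.Agent.S37.CoverAsm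

open Fermat.Agent.S18 Fermat.Agent.S18.Setup Fermat.Agent.S18.S24Export
open Fermat.Agent.S18.CoreDefs Fermat.Agent.S37.CoverDefs Fermat.Agent.S37.CoverHyps

local notation "Qb" => AlgebraicClosure ℚ

section Assembly

variable {N : ℕ} [NeZero N] {A : ValuationSubring Qb} {m : (FL N)[X]} [Fact (Irreducible m)]
  {Good : ∀ K : IntermediateField ℚ Qb, (FK K N)[X] → Prop}

/-- the data on one chart of the cover, at a level. -/
theorem chart_step (hZero : HZero N A m) (hLevInt : HLevInt N A m) (hLevSig : HLevSig N A m Good)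
    (hLocal : HLocal N A m Good)
    (E : Divisor Qb (FL N)) (hrE : Finsupp.mapDomain (RedPlace.r A N) E = 0)
    (h' : FL N) (h'0 : h' ≠ 0) (q : ℤ) (hh' : ∀ P : Place Qb (FL N), P.ord h' = q * E P)
    (K1 K : IntermediateField ℚ Qb) (hK : FiniteDimensional ℚ K) (hK1 : K1 ≤ K)
    (m0 : (FK K N)[X]) [Fact (Irreducible m0)] (hmap : m0.map (ιL K N) = m)
    (hgood : Good K m0) (hm0 : m0.Monic)
    (π : ↥(A0.down K A)) (hπ : Irreducible π)
    (hmax : IsLocalRing.maximalIdeal ↥(A0.down K A) = Ideal.span {π})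
    (y : FK K N) (hy : ιL K N y = h') (b : Bool)
    (p p' : (↥(A0.down K1 A))[X]) (hpu : ∃ i, IsUnit (p.coeff i)) (hp'u : ∃ i, IsUnit (p'.coeff i))
    (hpint : (chartHomO N m K1 A b).IsIntegralElem (chartHomO N m K1 A b p *
        algebraMap (FL N) (AdjoinRoot m) h'))
    (hp'int : (chartHomO N m K1 A b).IsIntegralElem (chartHomO N m K1 A b p' *
        (algebraMap (FL N) (AdjoinRoot m) h')⁻¹))
    (T : Finset (Place Qb (AdjoinRoot m)))
    (hT : ∀ w : Place Qb (AdjoinRoot m),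
      (w.ord (chartHomO N m K1 A b p * algebraMap (FL N) (AdjoinRoot m) h') ≠ 0 ∨
        w.ord (chartHomO N m K1 A b p) ≠ 0) → w ∈ T)
    (hrat : ∀ w ∈ T, IsRat N m K m0 hmap w) :
    InGauss ↥(A0.down K A) (Line K (AdjoinRoot.root m0)) (AdjoinRoot m0)
        (tK N m0 b) π (AdjoinRoot.of m0 y) ∧
    InGauss ↥(A0.down K A) (Line K (AdjoinRoot.root m0)) (AdjoinRoot m0)
        (tK N m0 b) π (AdjoinRoot.of m0 y)⁻¹ ∧
    ∃ d : AdjoinRoot m0,
        IsIntegral (chart ↥(A0.down K A) (Line K (AdjoinRoot.root m0)) (tK N m0 b)) d ∧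
        InPiGauss ↥(A0.down K A) (Line K (AdjoinRoot.root m0)) (AdjoinRoot m0)
          (tK N m0 b) π (AdjoinRoot.of m0 y - d) := by
  obtain ⟨hsig, hmul, hnd⟩ := hLevSig K1 K hK hK1 m0 hmap hgood hm0 π hπ hmax b
  obtain ⟨σ, hσ, hσP⟩ := hsig p hpu
  obtain ⟨σ', hσ', hσP'⟩ := hsig p' hp'u
  set g : AdjoinRoot m := algebraMap (FL N) (AdjoinRoot m) h' with hg
  have hg0 : g ≠ 0 := (map_ne_zero (algebraMap (FL N) (AdjoinRoot m))).mpr h'0
  have hy0 : y ≠ 0 := by
    intro h0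
    apply h'0
    rw [← hy, h0, map_zero]
  have hyφ : phi N m m0 hmap (AdjoinRoot.of m0 y) = g := by
    rw [phi_of, hy]
    rfl
  have hof0 : AdjoinRoot.of m0 y ≠ 0 := (map_ne_zero (AdjoinRoot.of m0)).mpr hy0
  -- the elements of `F#`
  have hφa : phi N m m0 hmap (algebraMap (Line K (AdjoinRoot.root m0)) (AdjoinRoot m0)
      (σ : Line K (AdjoinRoot.root m0)) * AdjoinRoot.of m0 y) = chartHomO N m K1 A b p * g := by
    rw [map_mul, hσP, hyφ]
  have hφa' : phi N m m0 hmap (algebraMap (Line K (AdjoinRoot.root m0)) (AdjoinRoot m0)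
      (σ' : Line K (AdjoinRoot.root m0)) * (AdjoinRoot.of m0 y)⁻¹) =
      chartHomO N m K1 A b p' * g⁻¹ := by
    rw [map_mul, map_inv₀, hσP', hyφ]
  have ha := hLevInt K1 K hK1 m0 hmap b _ (hφa ▸ hpint)
  have ha' := hLevInt K1 K hK1 m0 hmap b _ (hφa' ▸ hp'int)
  have hσ0 : σ ≠ 0 := fun h0 => hσ (h0 ▸ dvd_zero _)
  have hs0 : algebraMap (Line K (AdjoinRoot.root m0)) (AdjoinRoot m0)
      (σ : Line K (AdjoinRoot.root m0)) ≠ 0 := by
    intro h0
    apply hσ0
    apply Subtype.ext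
    exact (map_eq_zero (algebraMap (Line K (AdjoinRoot.root m0)) (AdjoinRoot m0))).mp h0
  have hsInt : IsIntegral (chart ↥(A0.down K A) (Line K (AdjoinRoot.root m0)) (tK N m0 b))
      (algebraMap (Line K (AdjoinRoot.root m0)) (AdjoinRoot m0)
        (σ : Line K (AdjoinRoot.root m0))) :=
    isIntegral_algebraMap (R := chart ↥(A0.down K A) (Line K (AdjoinRoot.root m0)) (tK N m0 b))
      (A := AdjoinRoot m0) (x := σ)
  have hprod : (algebraMap (Line K (AdjoinRoot.root m0)) (AdjoinRoot m0)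
      (σ : Line K (AdjoinRoot.root m0)) * AdjoinRoot.of m0 y) *
      (algebraMap (Line K (AdjoinRoot.root m0)) (AdjoinRoot m0)
      (σ' : Line K (AdjoinRoot.root m0)) * (AdjoinRoot.of m0 y)⁻¹) =
      algebraMap (Line K (AdjoinRoot.root m0)) (AdjoinRoot m0)
        ((σ * σ' : chart ↥(A0.down K A) (Line K (AdjoinRoot.root m0)) (tK N m0 b)) :
          Line K (AdjoinRoot.root m0)) := by
    rw [MulMemClass.coe_mul, map_mul]
    field_simp
  have hand : ∀ d : AdjoinRoot m0,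
      IsIntegral (chart ↥(A0.down K A) (Line K (AdjoinRoot.root m0)) (tK N m0 b)) d →
      algebraMap (Line K (AdjoinRoot.root m0)) (AdjoinRoot m0)
        (σ : Line K (AdjoinRoot.root m0)) * AdjoinRoot.of m0 y ≠ π • d := by
    intro d hd hEq
    apply hnd (σ * σ') (hmul σ σ' hσ hσ') (d * _) (hd.mul ha')
    rw [← hprod, hEq, smul_mul_assoc]
  have hPb0 : chartHomO N m K1 A b p ≠ 0 := by
    rw [← hσP]
    exact (map_ne_zero (phi N m m0 hmap)).mpr hs0
  have hzero : ∀ w₀ : Place Qb (AdjoinRoot m), InA A w₀ (tO N m b) →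
      ∀ T' : Finset (Place Qb (AdjoinRoot m)),
        (∀ w, w ∈ T' ↔ w ∈ T ∧ InA A w (tO N m b) ∧ SameChar A (tO N m b) w w₀) →
        ∑ w ∈ T', (w.ord (phi N m m0 hmap (algebraMap (Line K (AdjoinRoot.root m0))
          (AdjoinRoot m0) (σ : Line K (AdjoinRoot.root m0)) * AdjoinRoot.of m0 y)) -
          w.ord (phi N m m0 hmap (algebraMap (Line K (AdjoinRoot.root m0))
          (AdjoinRoot m0) (σ : Line K (AdjoinRoot.root m0))))) = 0 := by
    intro w₀ hw₀ T' hT'
    have hterm : ∀ w : Place Qb (AdjoinRoot m),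
        w.ord (phi N m m0 hmap (algebraMap (Line K (AdjoinRoot.root m0))
          (AdjoinRoot m0) (σ : Line K (AdjoinRoot.root m0)) * AdjoinRoot.of m0 y)) -
          w.ord (phi N m m0 hmap (algebraMap (Line K (AdjoinRoot.root m0))
          (AdjoinRoot m0) (σ : Line K (AdjoinRoot.root m0)))) = w.ord g := by
      intro w
      rw [hφa, hσP, w.ord_mul hPb0 hg0]
      ring
    rw [Finset.sum_congr rfl (fun w _ => hterm w)]
    refine hZero E hrE h' q hh' b w₀ hw₀ T' (fun w hw => ((hT' w).mp hw).2)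
      (fun w hwA hwS hord => (hT' w).mpr ⟨hT w ?_, hwA, hwS⟩)
    by_contra hcon
    rw [not_or, not_not, not_not] at hcon
    apply hord
    have h1 := hterm w
    rw [hφa, hσP, hcon.1, hcon.2, sub_zero] at h1
    exact h1.symm
  obtain ⟨d, e, hd, he, hde⟩ := hLocal K hK m0 hmap hgood hm0 π hπ hmax b _ _ ha hsInt
    (mul_ne_zero hs0 hof0) hs0 hand (hnd σ hσ) T
    (fun w hw => hT w (by rw [hφa, hσP] at hw; exact hw))
    hrat hzero
  refine ⟨⟨σ, hσ, ?_⟩, ⟨σ', hσ', ?_⟩, d, hd, σ, hσ, e, he, ?_⟩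
  · exact ha
  · exact ha'
  · rw [← hde]
    show algebraMap (Line K (AdjoinRoot.root m0)) (AdjoinRoot m0)
        (σ : Line K (AdjoinRoot.root m0)) * (AdjoinRoot.of m0 y - d) = _
    ring

/-- **(T)** the assembly: `GaussAlg` for the reduction map `RedPlace.r`, from the leaves of the
cover chain. -/
theorem gaussAlg_of_cover {ℓ : ℕ} (hℓ : ℓ.Prime) (hA : A.LiesOverPrime ℓ) (q : ℕ)
    {Kb : IntermediateField ℚ Qb} (hKb : FiniteDimensional ℚ Kb)
    (hDesc : HDesc N m Good Kb) (hFin : HFin N m) (hZero : HZero N A m) (hRep : HRep N A m)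
    (hRat : HRat N m) (hLevInt : HLevInt N A m) (hLevSig : HLevSig N A m Good)
    (hLocal : HLocal N A m Good) (hLast : HLast N A m Good) :
    TorsionInjK0.GaussAlg A N (RedPlace.r A N) q := by
  classical
  intro E h h0 hh hrE
  obtain ⟨c, hc0, K1, hK1, hdesc, hrep⟩ := hRep h h0
  choose p p' hpu hp'u hpint hp'int using hrep
  have hc0' : algebraMap Qb (FL N) c ≠ 0 := (map_ne_zero (algebraMap Qb (FL N))).mpr hc0
  have h'0 : h * algebraMap Qb (FL N) c ≠ 0 := mul_ne_zero h0 hc0'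
  have hh' : ∀ P : Place Qb (FL N), P.ord (h * algebraMap Qb (FL N) c) = (q : ℤ) * E P := by
    intro P
    rw [P.ord_mul h0 hc0', Fermat.Agent.S24.FFDeg.ord_algebraMap, add_zero]
    exact hh P
  -- the finite set of zeros and poles
  have hFin' : ∀ x : AdjoinRoot m, ∃ S : Finset (Place Qb (AdjoinRoot m)),
      ∀ v : Place Qb (AdjoinRoot m), v ∉ S → v.ord x = 0 := by
    intro x
    by_cases hx : x = 0
    · exact ⟨∅, fun v _ => by rw [hx]; exact v.ord_zero⟩
    · exact hFin x hx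
  choose Z hZ using hFin'
  set T : Finset (Place Qb (AdjoinRoot m)) :=
    Finset.biUnion (Finset.univ : Finset Bool) (fun b =>
      Z (chartHomO N m K1 A b (p b) *
        algebraMap (FL N) (AdjoinRoot m) (h * algebraMap Qb (FL N) c)) ∪
      Z (chartHomO N m K1 A b (p b))) with hTdef
  -- the level
  haveI := hKb
  haveI := hK1
  obtain ⟨K, hK, hle, hrat⟩ := hRat (Kb ⊔ K1) (IntermediateField.finiteDimensional_sup Kb K1) T
  haveI := hK
  have hKb' : Kb ≤ K := le_sup_left.trans hle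
  have hK1' : K1 ≤ K := le_sup_right.trans hle
  obtain ⟨m0, hm0, hirr0, hmap, hgood⟩ := hDesc K hK hKb'
  haveI : Fact (Irreducible m0) := ⟨hirr0⟩
  obtain ⟨-, π, hπ, -, hmax, -, -, -⟩ := Setup.exists_unif K A hℓ hA
  obtain ⟨y, hy⟩ := hdesc K hK hK1'
  have hy0 : y ≠ 0 := by
    intro hy0
    apply h'0
    rw [← hy, hy0, map_zero]
  have key := fun b : Bool => chart_step hZero hLevInt hLevSig hLocal E hrE
    (h * algebraMap Qb (FL N) c) h'0 (q : ℤ) hh' K1 K hK hK1' m0 hmap hgood hm0 π hπ hmax y hy b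
    (p b) (p' b) (hpu b) (hp'u b) (hpint b) (hp'int b) T
    (fun w hw => by
      by_contra hwT
      rcases hw with hw | hw
      · exact hw (hZ _ w (fun hwZ => hwT (Finset.mem_biUnion.mpr
          ⟨b, Finset.mem_univ b, Finset.mem_union_left _ hwZ⟩)))
      · exact hw (hZ _ w (fun hwZ => hwT (Finset.mem_biUnion.mpr
          ⟨b, Finset.mem_univ b, Finset.mem_union_right _ hwZ⟩))))
    (hrat K hK le_rfl m0 hmap)
  obtain ⟨hyO, hred, halg⟩ := hLast K hK m0 hmap hgood hm0 π hπ hmax y hy0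
    (fun b => (key b).1) (fun b => (key b).2.1) (fun b => (key b).2.2)
  refine ⟨K, hK, y, hyO, hred, halg, ?_⟩
  intro x hx P
  have hxy : x = ιL K N y := Subtype.ext (hx.trans (coe_ιL K N y).symm)
  rw [hxy, hy, P.ord_mul h0 hc0', Fermat.Agent.S24.FFDeg.ord_algebraMap, add_zero]

/-- **(T)**, `ZeroSumConst` form. -/
theorem zeroSumConst_of_cover {ℓ : ℕ} (hℓ : ℓ.Prime) (hℓN : ¬ ℓ ∣ N) (hA : A.LiesOverPrime ℓ)
    (q : ℕ) {Kb : IntermediateField ℚ Qb} (hKb : FiniteDimensional ℚ Kb)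
    (hDesc : HDesc N m Good Kb) (hFin : HFin N m) (hZero : HZero N A m) (hRep : HRep N A m)
    (hRat : HRat N m) (hLevInt : HLevInt N A m) (hLevSig : HLevSig N A m Good)
    (hLocal : HLocal N A m Good) (hLast : HLast N A m Good) :
    TorsionInj.ZeroSumConst A N (RedPlace.r A N) q :=
  TorsionInjK0.zeroSumConst_of_gaussAlg hℓ hℓN hA
    (gaussAlg_of_cover hℓ hA q hKb hDesc hFin hZero hRep hRat hLevInt hLevSig hLocal hLast)

end Assembly

/-! ### The two covers -/

section Covers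

variable (N : ℕ) [NeZero N]

/-- **(D)** for the `X₀(2)`-cover `j h² = (h + 256)³`. -/
theorem exists_cover3_desc :
    ∃ (Kb : IntermediateField ℚ Qb) (_ : FiniteDimensional ℚ Kb) (m : (FL N)[X]),
      m.Monic ∧ Irreducible m ∧ m ∣ CoverData.g3 (jL N) ∧ HDesc N m (Good3 N) Kb := by
  obtain ⟨Kb, hKb, m, hm, hirr, hdvd, -, hlev⟩ :=
    CoverBaseS.exists_cover3 N 2 Nat.prime_two (by norm_num)
  refine ⟨Kb, hKb, m, hm, hirr, hdvd, fun K _ hle => ?_⟩
  obtain ⟨m0, h1, h2, h3, -, -, hroot⟩ := hlev K hle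
  exact ⟨m0, h1, h2, h3, (CoverData.aeval_g3_eq_zero_iff (jF K N) (AdjoinRoot.root m0)).mp hroot⟩

/-- **(D)** for the `X₀(3)`-cover `j h = (h + 27)(h + 3)³`. -/
theorem exists_cover2_desc :
    ∃ (Kb : IntermediateField ℚ Qb) (_ : FiniteDimensional ℚ Kb) (m : (FL N)[X]),
      m.Monic ∧ Irreducible m ∧ m ∣ CoverData.g2 (jL N) ∧ HDesc N m (Good2 N) Kb := by
  obtain ⟨Kb, hKb, m, hm, hirr, hdvd, -, hlev⟩ :=
    CoverBaseS.exists_cover2 N 3 Nat.prime_three (by norm_num)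
  refine ⟨Kb, hKb, m, hm, hirr, hdvd, fun K _ hle => ?_⟩
  obtain ⟨m0, h1, h2, h3, -, -, hroot⟩ := hlev K hle
  exact ⟨m0, h1, h2, h3, (CoverData.aeval_g2_eq_zero_iff (jF K N) (AdjoinRoot.root m0)).mp hroot⟩

/-- The leaves of the cover chain for all monic irreducible factors of the cover polynomial
`G`. -/
def Leaves (A : ValuationSubring Qb)
    (Good : ∀ K : IntermediateField ℚ Qb, (FK K N)[X] → Prop) (G : (FL N)[X]) : Prop :=
  ∀ (m : (FL N)[X]) [Fact (Irreducible m)], m.Monic → m ∣ G →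
    HFin N m ∧ HZero N A m ∧ HRep N A m ∧ HRat N m ∧ HLevInt N A m ∧ HLevSig N A m Good ∧
      HLocal N A m Good ∧ HLast N A m Good

variable {N}

/-- **Block (W2) from the leaves of the two covers**: the `X₀(2)`-cover serves every `ℓ ≠ 2`,
the `X₀(3)`-cover every `ℓ ≠ 3`. -/
theorem pZero_of_leaves {ℓ : ℕ} (hℓ : ℓ.Prime) (hℓN : ¬ ℓ ∣ N) {A : ValuationSubring Qb}
    (hA : A.LiesOverPrime ℓ)
    (h3 : ℓ ≠ 2 → Leaves N A (Good3 N) (CoverData.g3 (jL N)))
    (h2 : ℓ ≠ 3 → Leaves N A (Good2 N) (CoverData.g2 (jL N))) :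
    Skeleton2.PZero N ℓ A (RedPlace.r A N) := by
  intro q _ _
  by_cases hℓ2 : ℓ = 2
  · have hℓ3 : ℓ ≠ 3 := by omega
    obtain ⟨Kb, hKb, m, hm, hirr, hdvd, hDesc⟩ := exists_cover2_desc N
    haveI : Fact (Irreducible m) := ⟨hirr⟩
    obtain ⟨l1, l2, l3, l4, l5, l6, l7, l8⟩ := h2 hℓ3 m hm hdvd
    exact zeroSumConst_of_cover hℓ hℓN hA q hKb hDesc l1 l2 l3 l4 l5 l6 l7 l8
  · obtain ⟨Kb, hKb, m, hm, hirr, hdvd, hDesc⟩ := exists_cover3_desc N
    haveI : Fact (Irreducible m) := ⟨hirr⟩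
    obtain ⟨l1, l2, l3, l4, l5, l6, l7, l8⟩ := h3 hℓ2 m hm hdvd
    exact zeroSumConst_of_cover hℓ hℓN hA q hKb hDesc l1 l2 l3 l4 l5 l6 l7 l8

end Covers

end Fermat.Agent.S37.CoverAsm
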