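import Fermat.Prelude.Def_AlgebraicCurve_Correspondence
import Fermat.Agent.S24.FFPrin
import Fermat.Agent.S18.S24Export

/-!
# S37: the function-field package for a finite extension of a function field

`K` algebraically closed of characteristic zero, `F` a function field over `K` (finite over
`K(x)`), `Ω` a finite extension of `F`.  Then `Ω` is a function field over `K` (finite over
`K(x)`, `x` viewed in `Ω`), so all its places have degree one and its principal divisors have
degree zero: `HasPrincipalDivisors K Ω`.  Sealed form for the covers `Ω = AdjoinRoot m` of the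
function field of `X₀(N)` over `ℚ̄`.
-/

set_option autoImplicit false

open AlgebraicCurve IntermediateField

namespace Fermat.Agent.S37.FFTower

open Fermat.Agent.S24

section Generic

variable {K F Ω : Type*} [Field K] [Field F] [Field Ω] [Algebra K F] [Algebra K Ω]
  [Algebra F Ω] [IsScalarTower K F Ω] [FiniteDimensional F Ω]

/-- `Ω` is finite over `K(x)`, `x` viewed in `Ω`. -/
theorem finiteDimensional_adjoin_algebraMap (x : F) [FiniteDimensional K⟮x⟯ F] :
    FiniteDimensional K⟮algebraMap F Ω x⟯ Ω := by
  -- `Ω` is finite over `K(x)` acting through `F`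
  have hfin : Module.Finite K⟮x⟯ Ω := Module.Finite.trans F Ω
  obtain ⟨s, hs⟩ := hfin.fg_top
  refine ⟨⟨s, ?_⟩⟩
  rw [eq_top_iff]
  rintro y -
  have hy : y ∈ Submodule.span K⟮x⟯ (s : Set Ω) := by
    rw [hs]
    exact Submodule.mem_top
  induction hy using Submodule.span_induction with
  | mem z hz => exact Submodule.subset_span hz
  | zero => exact zero_mem _
  | add a b _ _ ha hb => exact add_mem ha hb
  | smul c z _ hz =>
    have hc : algebraMap F Ω (c : F) ∈ K⟮algebraMap F Ω x⟯ := by
      have h1 : (c : F) ∈ K⟮x⟯ := c.2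
      have h2 : algebraMap F Ω (c : F) ∈ (K⟮x⟯).map (IsScalarTower.toAlgHom K F Ω) :=
        ⟨(c : F), h1, rfl⟩
      rw [IntermediateField.adjoin_map, Set.image_singleton] at h2
      exact h2
    have h1 : c • z = (⟨algebraMap F Ω (c : F), hc⟩ : K⟮algebraMap F Ω x⟯) • z := by
      rw [Algebra.smul_def, IntermediateField.smul_def, smul_eq_mul]
      rfl
    rw [h1]
    exact Submodule.smul_mem _ _ hz

variable [IsAlgClosed K]

/-- every place of `Ω` has degree one. -/
theorem deg_eq_one (x : F) [FiniteDimensional K⟮x⟯ F] (w : Place K Ω) : w.deg = 1 :=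
  haveI := finiteDimensional_adjoin_algebraMap (K := K) (Ω := Ω) x
  FFPrin.hdeg K⟮algebraMap F Ω x⟯ (algebraMap F Ω x) rfl w

variable [CharZero K]

/-- principal divisors of `Ω` have finite support and degree zero. -/
theorem exists_sum_ord_eq_zero (x : F) [FiniteDimensional K⟮x⟯ F] (g : Ω) (hg : g ≠ 0) :
    ∃ S : Finset (Place K Ω), (∀ v, v ∉ S → v.ord g = 0) ∧ ∑ v ∈ S, v.ord g = 0 :=
  haveI := finiteDimensional_adjoin_algebraMap (K := K) (Ω := Ω) x
  FFPrin.sum_ord_eq_zero K⟮algebraMap F Ω x⟯ (algebraMap F Ω x) rfl g hg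

/-- `HasPrincipalDivisors` for a finite extension of a function field. -/
theorem hasPrincipalDivisors (x : F) [FiniteDimensional K⟮x⟯ F] : HasPrincipalDivisors K Ω := by
  classical
  refine ⟨fun f hf => ?_⟩
  obtain ⟨S, hS, hsum⟩ := exists_sum_ord_eq_zero (K := K) (Ω := Ω) x f hf
  set D : Divisor K Ω := Finsupp.onFinset S (fun v => v.ord f) (fun v hv => by
    by_contra hvS
    exact hv (hS v hvS)) with hD
  refine ⟨D, fun v => rfl, ?_⟩
  have hdeg : Divisor.degree D = ∑ v ∈ D.support, D v := by
    rw [Divisor.degree, Finsupp.liftAddHom_apply, Finsupp.sum]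
    refine Finset.sum_congr rfl fun v _ => ?_
    rw [AddMonoidHom.mulRight_apply, deg_eq_one (K := K) (Ω := Ω) x v, Nat.cast_one, mul_one]
  have hsub : ∑ v ∈ D.support, D v = ∑ v ∈ S, D v :=
    Finset.sum_subset Finsupp.support_onFinset_subset (fun v _ hv => by
      rw [Finsupp.mem_support_iff, not_not] at hv
      exact hv)
  rw [hdeg, hsub]
  exact hsum

end Generic

section Cover

open Fermat.Agent.S18.S24Export Polynomial

local notation "Qb" => AlgebraicClosure ℚ

variable (N : ℕ) [NeZero N] (m : (FL N)[X]) [Fact (Irreducible m)]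

omit [NeZero N] in
/-- the cover is finite over the function field of `X₀(N)`. -/
theorem cover_finiteDimensional : FiniteDimensional (FL N) (AdjoinRoot m) :=
  (AdjoinRoot.powerBasis (Fact.out : Irreducible m).ne_zero).finite

/-- every place of the cover has degree one. -/
theorem cover_deg_eq_one (w : Place Qb (AdjoinRoot m)) : w.deg = 1 :=
  haveI := cover_finiteDimensional N m
  deg_eq_one (K := Qb) (F := FL N) (Ω := AdjoinRoot m) (jL N) w

/-- principal divisors of the cover have finite support and degree zero. -/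
theorem cover_exists_sum_ord_eq_zero (g : AdjoinRoot m) (hg : g ≠ 0) :
    ∃ S : Finset (Place Qb (AdjoinRoot m)), (∀ v, v ∉ S → v.ord g = 0) ∧ ∑ v ∈ S, v.ord g = 0 :=
  haveI := cover_finiteDimensional N m
  exists_sum_ord_eq_zero (K := Qb) (F := FL N) (Ω := AdjoinRoot m) (jL N) g hg

/-- `HasPrincipalDivisors` for the cover. -/
theorem cover_hasPrincipalDivisors : HasPrincipalDivisors Qb (AdjoinRoot m) :=
  haveI := cover_finiteDimensional N m
  hasPrincipalDivisors (K := Qb) (F := FL N) (Ω := AdjoinRoot m) (jL N)

end Cover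

end Fermat.Agent.S37.FFTower
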