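/-
S37, cover chain, leaf (Ω): a nonzero function on the cover `Ω = AdjoinRoot m` over `FL N`
has finitely many zeros and poles.  This is `CoverHyps.HFin`, read off `FFTower`.
-/
import Mathlib
import Fermat.Agent.S37.FFTower
import Fermat.Agent.S37.CoverHyps

set_option autoImplicit false

noncomputable section

open Polynomial AlgebraicCurve

namespace Fermat.Agent.S37.CoverFin

open Fermat.Agent.S18.S24Export

local notation "Qb" => AlgebraicClosure ℚ

variable (N : ℕ) [NeZero N] (m : (FL N)[X]) [Fact (Irreducible m)]

/-- **(Ω)** a nonzero function on the cover has finitely many zeros and poles. -/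
theorem hFin : CoverHyps.HFin N m := by
  intro g hg
  obtain ⟨S, hS, -⟩ := FFTower.cover_exists_sum_ord_eq_zero N m g hg
  exact ⟨S, hS⟩

/-- the same with the degree-zero statement: the orders of a nonzero function on the cover
vanish outside a finite set and sum to zero over it. -/
theorem hFin_sum (g : AdjoinRoot m) (hg : g ≠ 0) :
    ∃ S : Finset (Place Qb (AdjoinRoot m)),
      (∀ v : Place Qb (AdjoinRoot m), v ∉ S → v.ord g = 0) ∧ ∑ v ∈ S, v.ord g = 0 :=
  FFTower.cover_exists_sum_ord_eq_zero N m g hg

end Fermat.Agent.S37.CoverFin
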