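import Mathlib
import Fermat.Prelude.Def_AlgebraicCurve_DivisorClassGroup
import Fermat.Agent.S37.EvalGal
import Fermat.Agent.S37.EvalInt

/-!
# S37, block (W2), leaf (c2): chart comparison on the covers

`K` a field with a valuation subring `A` (residue field `k`), `F` a field over `K`, and
`j, h : F` related by the equation of one of the two covers

* cover 3: `j * h ^ 2 = (h + 256) ^ 3`   (with `256` a unit of `A`),
* cover 2: `j * h = (h + 27) * (h + 3) ^ 3`   (with `27` a unit of `A`).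

For a coordinate `t : F` the chart ring is `chartInt A t` (all elements of `F` integral over
`A[t]`, `EvalInt`). A place `P` of degree one lies on the chart of `t` if `t(P) ∈ A`
(`InA A P t`), else on the chart of `t⁻¹`; on its chart it has the reduction character
"value at `P` modulo `𝔪_A`". Two places have the *same reduction with respect to `t`*
(`SameRed A t P₁ P₂`) if they lie on the same chart and have the same character there
(`SameChar`).

**Main results** (`sameRed_cover3`, `sameRed_cover2`): the reduction with respect to `j`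
determines the reduction with respect to `h`. In the shape of `RedPlace.r` (for a generic
coordinate): `rG A j P₁ = rG A j P₂ → rG A h P₁ = rG A h P₂` (`rG_cover3`, `rG_cover2`).

The proof is pure valuation theory: the composite valuation ring `compVal A P hP` of `P` and
`A` (functions regular at `P` with value in `A`), for which "same character" is "same prime
of the chart ring" (`SameKer`, `sameChar_iff_sameKer`); the valuation-ring forms are
`cover3_fin`, `cover3_inf`, `cover2_fin`, `cover2_inf`. On the finite chart `h` is integral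
over `A[j]`; at infinity `v = (h + c)⁻¹` is integral over `A[j⁻¹]`, and `v` resp. `1 - c v`
is a unit of both valuation rings, which moves integrality over `A[h]` resp. `A[h⁻¹]` to
integrality over `A[j⁻¹]` up to a unit power (`exists_pow_mul_mem`, `SameKer.of_scale`).
-/

set_option autoImplicit false

open AlgebraicCurve IsLocalRing Polynomial

namespace Fermat.Agent.S37.ChartCmp

open Fermat.Agent.S37.EvalGal Fermat.Agent.S37.EvalInt

variable {K F : Type*} [Field K] [Field F] [Algebra K F]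

section Integral

/-- A subring of `F` is *integrally closed in `F`* if it contains every element of `F` which is
integral over it. -/
def IntClosedIn (S : Subring F) : Prop :=
  ∀ x : F, (S.subtype).IsIntegralElem x → x ∈ S

/-- A monic polynomial over `F` with coefficients in `S` is a monic polynomial over `S`. -/
theorem isIntegralElem_of_coeff_mem (S : Subring F) (Q : F[X]) (hQ : Q.Monic)
    (hc : ∀ n, Q.coeff n ∈ S) (x : F) (hx : Q.eval x = 0) : (S.subtype).IsIntegralElem x := by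
  have hl : Q ∈ Polynomial.lifts S.subtype := by
    rw [Polynomial.lifts_iff_coeff_lifts]
    intro n
    exact ⟨⟨Q.coeff n, hc n⟩, rfl⟩
  obtain ⟨q, hq, -, hqm⟩ := Polynomial.lifts_and_natDegree_eq_and_monic hl hQ
  refine ⟨q, hqm, ?_⟩
  rw [← Polynomial.eval_map, hq, hx]

theorem IntClosedIn.mem_of_poly {S : Subring F} (hS : IntClosedIn S) (Q : F[X]) (hQ : Q.Monic)
    (hc : ∀ n, Q.coeff n ∈ S) (x : F) (hx : Q.eval x = 0) : x ∈ S :=
  hS x (isIntegralElem_of_coeff_mem S Q hQ hc x hx)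

/-- a root of a monic cubic with coefficients in an integrally closed subring. -/
theorem IntClosedIn.mem_of_cubic {S : Subring F} (hS : IntClosedIn S) {x a b c : F}
    (ha : a ∈ S) (hb : b ∈ S) (hc : c ∈ S) (h : x ^ 3 + a * x ^ 2 + b * x + c = 0) : x ∈ S := by
  refine hS x ⟨X ^ 3 + (C (⟨a, ha⟩ : ↥S) * X ^ 2 + C (⟨b, hb⟩ : ↥S) * X + C (⟨c, hc⟩ : ↥S)), ?_, ?_⟩
  · apply Polynomial.monic_X_pow_add
    refine lt_of_le_of_lt (b := ((2 : ℕ) : WithBot ℕ)) ?_ (by norm_num)
    compute_degree!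
  · simp only [Polynomial.eval₂_add, Polynomial.eval₂_mul, Polynomial.eval₂_pow,
      Polynomial.eval₂_X, Polynomial.eval₂_C, Subring.coe_subtype]
    linear_combination h

/-- a root of a monic quartic with coefficients in an integrally closed subring. -/
theorem IntClosedIn.mem_of_quartic {S : Subring F} (hS : IntClosedIn S) {x a b c d : F}
    (ha : a ∈ S) (hb : b ∈ S) (hc : c ∈ S) (hd : d ∈ S)
    (h : x ^ 4 + a * x ^ 3 + b * x ^ 2 + c * x + d = 0) : x ∈ S := by
  refine hS x ⟨X ^ 4 + (C (⟨a, ha⟩ : ↥S) * X ^ 3 + C (⟨b, hb⟩ : ↥S) * X ^ 2 +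
    C (⟨c, hc⟩ : ↥S) * X + C (⟨d, hd⟩ : ↥S)), ?_, ?_⟩
  · apply Polynomial.monic_X_pow_add
    refine lt_of_le_of_lt (b := ((3 : ℕ) : WithBot ℕ)) ?_ (by norm_num)
    compute_degree!
  · simp only [Polynomial.eval₂_add, Polynomial.eval₂_mul, Polynomial.eval₂_pow,
      Polynomial.eval₂_X, Polynomial.eval₂_C, Subring.coe_subtype]
    linear_combination h

/-- a valuation subring is integrally closed in the field. -/
theorem intClosedIn_valuationSubring (W : ValuationSubring F) : IntClosedIn W.toSubring := by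
  intro x hx
  have h2 : IsIntegral ↥W x := hx
  obtain ⟨y, hy⟩ := IsIntegrallyClosed.isIntegral_iff.mp h2
  rw [← hy]
  exact y.2

variable (A : ValuationSubring K)

/-- the ring of elements integral over the chart `A[t]` is integrally closed in `F`. -/
theorem intClosedIn_chartInt (t : F) : IntClosedIn (chartInt A t) := by
  intro x hx
  let alg : Algebra (Polynomial ↥A) F := (chartHom A t).toAlgebra
  obtain ⟨q, hqm, hq0⟩ := hx
  have hint : IsIntegral ↥(integralClosure (Polynomial ↥A) F) x := by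
    refine ⟨q.map (RingHom.codRestrict (chartInt A t).subtype
      (integralClosure (Polynomial ↥A) F) (fun y => y.2)), hqm.map _, ?_⟩
    rw [Polynomial.eval₂_map]
    exact hq0
  exact isIntegral_trans (R := Polynomial ↥A) (A := ↥(integralClosure (Polynomial ↥A) F)) x hint

/-- the image of the chart lies in every subring containing the constants of `A` and `t`. -/
theorem chartHom_mem_of_subring (t : F) (S : Subring F)
    (hA : ∀ a : ↥A, algebraMap K F (a : K) ∈ S) (ht : t ∈ S) (p : Polynomial ↥A) :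
    chartHom A t p ∈ S := by
  induction p using Polynomial.induction_on' with
  | add p q hp hq => rw [map_add]; exact S.add_mem hp hq
  | monomial n a =>
    have h : chartHom A t (Polynomial.monomial n a) = algebraMap K F (a : K) * t ^ n := by
      simp [chartHom, Polynomial.eval₂_monomial]
    rw [h]
    exact S.mul_mem (hA a) (S.pow_mem ht n)

/-- `F`-polynomial form of membership in `chartInt`. -/
theorem exists_poly_of_mem_chartInt (t : F) {x : F} (hx : x ∈ chartInt A t) :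
    ∃ Q : F[X], Q.Monic ∧ (∀ n, Q.coeff n ∈ Set.range (chartHom A t)) ∧ Q.eval x = 0 := by
  obtain ⟨p, hp, h0⟩ := hx
  refine ⟨p.map (chartHom A t), hp.map _, fun n => ⟨p.coeff n, (Polynomial.coeff_map _ _).symm⟩, ?_⟩
  rw [Polynomial.eval_map]
  exact h0

/-- elements integral over `A[t]` lie in every integrally closed subring containing the
constants of `A` and `t`. -/
theorem chartInt_le_of_intClosedIn (t : F) {S : Subring F} (hS : IntClosedIn S)
    (hA : ∀ a : ↥A, algebraMap K F (a : K) ∈ S) (ht : t ∈ S) : chartInt A t ≤ S := by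
  intro x hx
  obtain ⟨Q, hQ, hc, h0⟩ := exists_poly_of_mem_chartInt A t hx
  refine hS.mem_of_poly Q hQ (fun n => ?_) x h0
  obtain ⟨p, hp⟩ := hc n
  rw [← hp]
  exact chartHom_mem_of_subring A t S hA ht p

/-- transitivity: `s` integral over `A[t]` ⟹ integral over `A[s]` implies integral over `A[t]`. -/
theorem chartInt_le_chartInt {s t : F} (hs : s ∈ chartInt A t) : chartInt A s ≤ chartInt A t :=
  chartInt_le_of_intClosedIn A s (intClosedIn_chartInt A t)
    (fun a => algebraMap_mem_chartInt A t a) hs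

/-- **Scaling.** If `e, e * s ∈ S` (`S` integrally closed, containing the constants of `A`) then
every `x` integral over `A[s]` has `e ^ m * x ∈ S` for some `m`. -/
theorem exists_pow_mul_mem {S : Subring F} (hS : IntClosedIn S)
    (hA : ∀ a : ↥A, algebraMap K F (a : K) ∈ S) (e s : F) (he : e ∈ S) (hes : e * s ∈ S)
    {x : F} (hx : x ∈ chartInt A s) : ∃ m : ℕ, e ^ m * x ∈ S := by
  -- the subring of elements with bounded `e`-denominators
  let T : Subring F :=
    { carrier := {g | ∃ m : ℕ, e ^ m * g ∈ S}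
      mul_mem' := by
        rintro g g' ⟨m, hm⟩ ⟨m', hm'⟩
        refine ⟨m + m', ?_⟩
        have h : e ^ (m + m') * (g * g') = (e ^ m * g) * (e ^ m' * g') := by ring
        rw [h]
        exact S.mul_mem hm hm'
      one_mem' := ⟨0, by simp⟩
      add_mem' := by
        rintro g g' ⟨m, hm⟩ ⟨m', hm'⟩
        refine ⟨m + m', ?_⟩
        have h : e ^ (m + m') * (g + g') = e ^ m' * (e ^ m * g) + e ^ m * (e ^ m' * g') := by ring
        rw [h]
        exact S.add_mem (S.mul_mem (S.pow_mem he _) hm) (S.mul_mem (S.pow_mem he _) hm')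
      zero_mem' := ⟨0, by simp⟩
      neg_mem' := by
        rintro g ⟨m, hm⟩
        refine ⟨m, ?_⟩
        rw [mul_neg]
        exact S.neg_mem hm }
  obtain ⟨Q, hQ, hc, h0⟩ := exists_poly_of_mem_chartInt A s hx
  have hT : ∀ n, ∃ m : ℕ, e ^ m * Q.coeff n ∈ S := by
    intro n
    obtain ⟨p, hp⟩ := hc n
    have h1 : chartHom A s p ∈ T :=
      chartHom_mem_of_subring A s T (fun a => ⟨0, by simpa using hA a⟩)
        ⟨1, by simpa using hes⟩ p
    rw [hp] at h1
    exact h1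
  choose m hm using hT
  -- a uniform exponent
  let d : ℕ := (Finset.range (Q.natDegree + 1)).sup m
  have hd : ∀ n, e ^ d * Q.coeff n ∈ S := by
    intro n
    by_cases hn : n ≤ Q.natDegree
    · have hle : m n ≤ d := Finset.le_sup (f := m) (Finset.mem_range.mpr (Nat.lt_succ_of_le hn))
      have h : e ^ d * Q.coeff n = e ^ (d - m n) * (e ^ (m n) * Q.coeff n) := by
        rw [← mul_assoc, ← pow_add, Nat.sub_add_cancel hle]
      rw [h]
      exact S.mul_mem (S.pow_mem he _) (hm n)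
    · rw [Polynomial.coeff_eq_zero_of_natDegree_lt (not_le.mp hn), mul_zero]
      exact S.zero_mem
  refine ⟨d, hS.mem_of_poly (Polynomial.scaleRoots Q (e ^ d)) ?_ (fun n => ?_) _ ?_⟩
  · exact (Polynomial.monic_scaleRoots_iff _).mpr hQ
  · rw [Polynomial.coeff_scaleRoots]
    rcases lt_trichotomy n Q.natDegree with hn | hn | hn
    · obtain ⟨k, hk⟩ : ∃ k, Q.natDegree - n = k + 1 := ⟨Q.natDegree - n - 1, by omega⟩
      have h : Q.coeff n * (e ^ d) ^ (k + 1) = (e ^ d) ^ k * (e ^ d * Q.coeff n) := by ring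
      rw [hk, h]
      exact S.mul_mem (S.pow_mem (S.pow_mem he _) _) (hd n)
    · subst hn
      rw [Nat.sub_self, pow_zero, mul_one, hQ.coeff_natDegree]
      exact S.one_mem
    · rw [Polynomial.coeff_eq_zero_of_natDegree_lt hn, zero_mul]
      exact S.zero_mem
  · have h := Polynomial.scaleRoots_eval₂_eq_zero (RingHom.id F) (p := Q) (r := x) (s := e ^ d)
      (by simpa [Polynomial.eval₂_id] using h0)
    simpa [Polynomial.eval₂_id] using h

end Integral

section Core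

variable (A : ValuationSubring K)

/-- `W` contains the constants of `A`. -/
def Dom (W : ValuationSubring F) : Prop := ∀ a : ↥A, algebraMap K F (a : K) ∈ W

/-- **Equal classes on the chart of `t`**: the two valuation rings cut out the same prime of
the ring `chartInt A t` of elements integral over `A[t]`. -/
def SameKer (t : F) (W₁ W₂ : ValuationSubring F) : Prop :=
  ∀ f ∈ chartInt A t, (f ∈ W₁.nonunits ↔ f ∈ W₂.nonunits)

variable {A}

theorem Dom.chartInt_le {W : ValuationSubring F} (hW : Dom A W) {t : F} (ht : t ∈ W) :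
    chartInt A t ≤ W.toSubring :=
  chartInt_le_of_intClosedIn A t (intClosedIn_valuationSubring W) hW ht

theorem Dom.mem_of_mem_chartInt {W : ValuationSubring F} (hW : Dom A W) {t : F} (ht : t ∈ W)
    {f : F} (hf : f ∈ chartInt A t) : f ∈ W :=
  hW.chartInt_le ht hf

theorem SameKer.symm {t : F} {W₁ W₂ : ValuationSubring F} (h : SameKer A t W₁ W₂) :
    SameKer A t W₂ W₁ :=
  fun f hf => (h f hf).symm

theorem SameKer.mono {t s : F} {W₁ W₂ : ValuationSubring F} (h : SameKer A t W₁ W₂)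
    (hs : s ∈ chartInt A t) : SameKer A s W₁ W₂ :=
  fun f hf => h f (chartInt_le_chartInt A hs hf)

theorem valuation_eq_one_of_mem {W : ValuationSubring F} {e : F} (he : e ∈ W)
    (hn : e ∉ W.nonunits) : W.valuation e = 1 :=
  le_antisymm ((W.valuation_le_one_iff e).mpr he)
    (not_lt.mp (fun h => hn (W.mem_nonunits_iff.mpr h)))

theorem mul_mem_nonunits {W : ValuationSubring F} {x y : F} (hx : x ∈ W.nonunits)
    (hy : y ∈ W) : x * y ∈ W.nonunits := by
  rw [ValuationSubring.mem_nonunits_iff] at hx ⊢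
  rw [map_mul]
  have hy' := (W.valuation_le_one_iff y).mpr hy
  calc W.valuation x * W.valuation y ≤ W.valuation x * 1 := mul_le_mul' le_rfl hy'
    _ = W.valuation x := mul_one _
    _ < 1 := hx

theorem mem_nonunits_or_of_pow_mul_pow {W : ValuationSubring F} {a b : F} (ha : a ∈ W)
    (hb : b ∈ W) (m n : ℕ) (h : a ^ m * b ^ n ∈ W.nonunits) :
    a ∈ W.nonunits ∨ b ∈ W.nonunits := by
  by_contra hcon
  rw [not_or] at hcon
  have h1 := valuation_eq_one_of_mem ha hcon.1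
  have h2 := valuation_eq_one_of_mem hb hcon.2
  rw [ValuationSubring.mem_nonunits_iff, map_mul, map_pow, map_pow, h1, h2, one_pow, one_pow,
    one_mul] at h
  exact lt_irrefl _ h

/-- **Scaling of classes.** If `e` and `e * s` are integral over `A[w]` and `e` is a unit of
both valuation rings, then equal classes on the chart of `w` give equal classes on the chart
of `s`. -/
theorem SameKer.of_scale {w s e : F} {W₁ W₂ : ValuationSubring F} (h : SameKer A w W₁ W₂)
    (he : e ∈ chartInt A w) (hes : e * s ∈ chartInt A w)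
    (h1 : W₁.valuation e = 1) (h2 : W₂.valuation e = 1) : SameKer A s W₁ W₂ := by
  intro x hx
  obtain ⟨m, hm⟩ := exists_pow_mul_mem A (intClosedIn_chartInt A w)
    (fun a => algebraMap_mem_chartInt A w a) e s he hes hx
  have key := h _ hm
  simp only [ValuationSubring.mem_nonunits_iff, map_mul, map_pow, h1, h2, one_pow,
    one_mul] at key
  simpa only [ValuationSubring.mem_nonunits_iff] using key

/-- **The chart at infinity.** `w` a nonunit of both rings, `v` integral over `A[w]`,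
`z = 1 - c v` (`c ∈ A`), `h v = z`, and at each of the two rings `v` or `z` is a nonunit
(`v`: the cusp `h = ∞`; `z`: the cusp `h = 0`). Then equal classes on the chart of `w`
determine the chart of `h` and give equal classes there. -/
theorem inf_core {W₁ W₂ : ValuationSubring F} (hW₁ : Dom A W₁) (hW₂ : Dom A W₂)
    {w v z h : F} (c : ↥A) (hw₁ : w ∈ W₁.nonunits) (hw₂ : w ∈ W₂.nonunits)
    (hv : v ∈ chartInt A w) (hz : z = 1 - algebraMap K F (c : K) * v) (hhv : h * v = z)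
    (hd₁ : v ∈ W₁.nonunits ∨ z ∈ W₁.nonunits) (hd₂ : v ∈ W₂.nonunits ∨ z ∈ W₂.nonunits)
    (hs : SameKer A w W₁ W₂) :
    (h ∈ W₁ ↔ h ∈ W₂) ∧ (h ∈ W₁ → SameKer A h W₁ W₂) ∧ (h ∉ W₁ → SameKer A h⁻¹ W₁ W₂) := by
  have hzS : z ∈ chartInt A w := by
    rw [hz]
    exact (chartInt A w).sub_mem (chartInt A w).one_mem
      ((chartInt A w).mul_mem (algebraMap_mem_chartInt A w c) hv)
  have unit_z : ∀ W : ValuationSubring F, Dom A W → v ∈ W.nonunits → W.valuation z = 1 := by
    intro W hW hvW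
    rw [hz]
    apply Valuation.map_one_sub_of_lt
    exact W.mem_nonunits_iff.mp (by rw [mul_comm]; exact mul_mem_nonunits hvW (hW c))
  have notin : ∀ W : ValuationSubring F, Dom A W → v ∈ W.nonunits → h ∉ W := by
    intro W hW hvW hh
    have h1 := unit_z W hW hvW
    have h2 : h * v ∈ W.nonunits := by rw [mul_comm]; exact mul_mem_nonunits hvW hh
    rw [hhv, ValuationSubring.mem_nonunits_iff, h1] at h2
    exact lt_irrefl _ h2
  have unit_v : ∀ W : ValuationSubring F, Dom A W → w ∈ W.nonunits → v ∉ W.nonunits →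
      W.valuation v = 1 := by
    intro W hW hwW hvW
    exact valuation_eq_one_of_mem
      (hW.mem_of_mem_chartInt (ValuationSubring.nonunits_subset hwW) hv) hvW
  have inW : ∀ W : ValuationSubring F, Dom A W → w ∈ W.nonunits → v ∉ W.nonunits →
      z ∈ W.nonunits → h ∈ W := by
    intro W hW hwW hvW hzW
    have h1 := unit_v W hW hwW hvW
    have h2 : W.valuation h = W.valuation z := by
      rw [← hhv, map_mul, h1, mul_one]
    rw [← W.valuation_le_one_iff, h2]
    exact le_of_lt (W.mem_nonunits_iff.mp hzW)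
  have hvv := hs v hv
  by_cases hv₁ : v ∈ W₁.nonunits
  · have hv₂ := hvv.mp hv₁
    have n₁ := notin W₁ hW₁ hv₁
    have n₂ := notin W₂ hW₂ hv₂
    refine ⟨⟨fun x => absurd x n₁, fun x => absurd x n₂⟩, fun x => absurd x n₁, fun _ => ?_⟩
    have hz0 : z ≠ 0 := by
      intro h0
      have := unit_z W₁ hW₁ hv₁
      rw [h0, map_zero] at this
      exact zero_ne_one this
    have hh0 : h ≠ 0 := by
      rintro rfl
      rw [zero_mul] at hhv
      exact hz0 hhv.symm
    refine hs.of_scale hzS ?_ (unit_z W₁ hW₁ hv₁) (unit_z W₂ hW₂ hv₂)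
    have : z * h⁻¹ = v := by
      rw [← hhv]
      field_simp
    rw [this]
    exact hv
  · have hv₂ : v ∉ W₂.nonunits := fun x => hv₁ (hvv.mpr x)
    have i₁ := inW W₁ hW₁ hw₁ hv₁ (hd₁.resolve_left hv₁)
    have i₂ := inW W₂ hW₂ hw₂ hv₂ (hd₂.resolve_left hv₂)
    refine ⟨⟨fun _ => i₂, fun _ => i₁⟩, fun _ => ?_, fun x => absurd i₁ x⟩
    refine hs.of_scale hv ?_ (unit_v W₁ hW₁ hw₁ hv₁) (unit_v W₂ hW₂ hw₂ hv₂)
    rw [mul_comm, hhv]
    exact hzS

end Core

section Covers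

variable {A : ValuationSubring K}

/-- the inverse in `A` of a unit numeral, pushed to `F`. -/
theorem exists_const_inv {c : ↥A} (hc : IsUnit c) :
    ∃ u : ↥A, algebraMap K F (u : K) * algebraMap K F (c : K) = 1 := by
  obtain ⟨u, hu⟩ := hc.exists_left_inv
  refine ⟨u, ?_⟩
  rw [← map_mul]
  have h : (u : K) * (c : K) = 1 := by exact_mod_cast congrArg (Subtype.val : ↥A → K) hu
  rw [h, map_one]

theorem algebraMap_256 : algebraMap K F (((256 : ↥A) : ↥A) : K) = 256 := by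
  have h : (((256 : ↥A) : ↥A) : K) = 256 := rfl
  rw [h, map_ofNat]

theorem algebraMap_27 : algebraMap K F (((27 : ↥A) : ↥A) : K) = 27 := by
  have h : (((27 : ↥A) : ↥A) : K) = 27 := rfl
  rw [h, map_ofNat]

/-! ### the cover `j h² = (h + 256)³` -/

/-- `h` is integral over `A[j]`. -/
theorem cover3_mem {j h : F} (hrel : j * h ^ 2 = (h + 256) ^ 3) : h ∈ chartInt A j := by
  have hS := intClosedIn_chartInt A j
  have hj := self_mem_chartInt A j
  have hn : ∀ n : ℕ, (n : F) ∈ chartInt A j := fun n => natCast_mem _ n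
  refine hS.mem_of_cubic (a := ((768 : ℕ) : F) - j) (b := ((196608 : ℕ) : F))
    (c := ((16777216 : ℕ) : F)) ((chartInt A j).sub_mem (hn _) hj) (hn _) (hn _) ?_
  push_cast
  linear_combination (-1 : F) * hrel

/-- `h⁻¹` is integral over `A[j]` (`256` a unit of `A`). -/
theorem cover3_inv_mem {j h : F} (hrel : j * h ^ 2 = (h + 256) ^ 3)
    (h256 : IsUnit (256 : ↥A)) : h⁻¹ ∈ chartInt A j := by
  have hS := intClosedIn_chartInt A j
  have hj := self_mem_chartInt A j
  obtain ⟨u, hu⟩ := exists_const_inv (F := F) h256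
  rw [algebraMap_256] at hu
  have huS : algebraMap K F (u : K) ∈ chartInt A j := algebraMap_mem_chartInt A j u
  set û : F := algebraMap K F (u : K) with hû
  have h256' : (256 : F) ≠ 0 := right_ne_zero_of_mul_eq_one hu
  have hh0 : h ≠ 0 := by
    rintro rfl
    have : (256 : F) ^ 3 = 0 := by simpa using hrel.symm
    exact h256' (pow_eq_zero_iff (by norm_num) |>.mp this)
  have hn : ∀ n : ℕ, (n : F) ∈ chartInt A j := fun n => natCast_mem _ n
  refine hS.mem_of_cubic (a := ((3 : ℕ) : F) * û) (b := ((3 : ℕ) : F) * û ^ 2 - û ^ 3 * j)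
    (c := û ^ 3) ((chartInt A j).mul_mem (hn _) huS)
    ((chartInt A j).sub_mem ((chartInt A j).mul_mem (hn _) ((chartInt A j).pow_mem huS _))
      ((chartInt A j).mul_mem ((chartInt A j).pow_mem huS _) hj))
    ((chartInt A j).pow_mem huS _) ?_
  have hû' : û = 256⁻¹ := eq_inv_of_mul_eq_one_left hu
  rw [hû']
  push_cast
  field_simp
  linear_combination (-1 : F) * hrel

/-- `v = (h + 256)⁻¹` is integral over `A[j⁻¹]` (`256` a unit of `A`, `j ≠ 0`). -/
theorem cover3_v_mem {j h : F} (hrel : j * h ^ 2 = (h + 256) ^ 3)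
    (h256 : IsUnit (256 : ↥A)) (hj0 : j ≠ 0) : (h + 256)⁻¹ ∈ chartInt A j⁻¹ := by
  have hS := intClosedIn_chartInt A j⁻¹
  have hw := self_mem_chartInt A j⁻¹
  obtain ⟨u, hu⟩ := exists_const_inv (F := F) h256
  rw [algebraMap_256] at hu
  have huS : algebraMap K F (u : K) ∈ chartInt A j⁻¹ := algebraMap_mem_chartInt A j⁻¹ u
  set û : F := algebraMap K F (u : K) with hû
  have h256' : (256 : F) ≠ 0 := right_ne_zero_of_mul_eq_one hu
  have hh0 : h + 256 ≠ 0 := by
    intro h0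
    rw [h0] at hrel
    have h1 : h = 0 := by
      have : j * h ^ 2 = 0 := by rw [hrel]; ring
      rcases mul_eq_zero.mp this with h2 | h2
      · exact absurd h2 hj0
      · exact pow_eq_zero_iff (by norm_num) |>.mp h2
    rw [h1, zero_add] at h0
    exact h256' h0
  have hn : ∀ n : ℕ, (n : F) ∈ chartInt A j⁻¹ := fun n => natCast_mem _ n
  refine hS.mem_of_cubic (a := -(((2 : ℕ) : F) * û)) (b := û ^ 2) (c := -(û ^ 2 * j⁻¹))
    ((chartInt A j⁻¹).neg_mem ((chartInt A j⁻¹).mul_mem (hn _) huS))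
    ((chartInt A j⁻¹).pow_mem huS _)
    ((chartInt A j⁻¹).neg_mem ((chartInt A j⁻¹).mul_mem ((chartInt A j⁻¹).pow_mem huS _) hw)) ?_
  have hû' : û = 256⁻¹ := eq_inv_of_mul_eq_one_left hu
  rw [hû']
  push_cast
  field_simp
  linear_combination (1 : F) * hrel

/-- **cover `j h² = (h + 256)³`, finite chart** (valuation-ring form): if `j` lies in both
rings and the classes on the `j`-chart agree, then `h` lies in both rings and the classes on
the `h`-chart agree. -/
theorem cover3_fin {W₁ W₂ : ValuationSubring F} (hW₁ : Dom A W₁) (hW₂ : Dom A W₂) {j h : F}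
    (hrel : j * h ^ 2 = (h + 256) ^ 3) (hj₁ : j ∈ W₁) (hj₂ : j ∈ W₂)
    (hs : SameKer A j W₁ W₂) : h ∈ W₁ ∧ h ∈ W₂ ∧ SameKer A h W₁ W₂ :=
  ⟨hW₁.mem_of_mem_chartInt hj₁ (cover3_mem hrel), hW₂.mem_of_mem_chartInt hj₂ (cover3_mem hrel),
    hs.mono (cover3_mem hrel)⟩

/-- the same for the chart of `h⁻¹` (`256` a unit). -/
theorem cover3_fin_inv {W₁ W₂ : ValuationSubring F} (hW₁ : Dom A W₁) (hW₂ : Dom A W₂) {j h : F}
    (hrel : j * h ^ 2 = (h + 256) ^ 3) (h256 : IsUnit (256 : ↥A)) (hj₁ : j ∈ W₁) (hj₂ : j ∈ W₂)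
    (hs : SameKer A j W₁ W₂) : h⁻¹ ∈ W₁ ∧ h⁻¹ ∈ W₂ ∧ SameKer A h⁻¹ W₁ W₂ :=
  ⟨hW₁.mem_of_mem_chartInt hj₁ (cover3_inv_mem hrel h256),
    hW₂.mem_of_mem_chartInt hj₂ (cover3_inv_mem hrel h256), hs.mono (cover3_inv_mem hrel h256)⟩

/-- **cover `j h² = (h + 256)³`, chart at infinity** (valuation-ring form): if `j` lies in
neither ring and the classes on the `j⁻¹`-chart agree, then `h` lies in both rings or in
neither, and the classes agree on the `h`-chart resp. on the `h⁻¹`-chart. -/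
theorem cover3_inf {W₁ W₂ : ValuationSubring F} (hW₁ : Dom A W₁) (hW₂ : Dom A W₂) {j h : F}
    (hrel : j * h ^ 2 = (h + 256) ^ 3) (h256 : IsUnit (256 : ↥A)) (hj₁ : j ∉ W₁) (hj₂ : j ∉ W₂)
    (hs : SameKer A j⁻¹ W₁ W₂) :
    (h ∈ W₁ ↔ h ∈ W₂) ∧ (h ∈ W₁ → SameKer A h W₁ W₂) ∧ (h ∉ W₁ → SameKer A h⁻¹ W₁ W₂) := by
  have hj0 : j ≠ 0 := fun h0 => hj₁ (h0 ▸ W₁.zero_mem)
  have hw₁ : j⁻¹ ∈ W₁.nonunits := W₁.inv_mem_nonunits_iff.mpr (Or.inr hj₁)
  have hw₂ : j⁻¹ ∈ W₂.nonunits := W₂.inv_mem_nonunits_iff.mpr (Or.inr hj₂)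
  have hv := cover3_v_mem hrel h256 hj0
  have hvne : (h + 256)⁻¹ ≠ 0 := by
    intro h0
    have h1 : h + 256 = 0 := inv_eq_zero.mp h0
    have h2 : h = 0 := by
      have : j * h ^ 2 = 0 := by rw [hrel, h1]; ring
      rcases mul_eq_zero.mp this with h2 | h2
      · exact absurd h2 hj0
      · exact pow_eq_zero_iff (by norm_num) |>.mp h2
    obtain ⟨u, hu⟩ := exists_const_inv (F := F) h256
    rw [algebraMap_256] at hu
    rw [h2, zero_add] at h1
    exact right_ne_zero_of_mul_eq_one hu h1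
  have hh0 : h + 256 ≠ 0 := fun h0 => hvne (by rw [h0, inv_zero])
  have hhv : h * (h + 256)⁻¹ = 1 - algebraMap K F (((256 : ↥A) : ↥A) : K) * (h + 256)⁻¹ := by
    rw [algebraMap_256]
    field_simp
    ring
  have hid : (h + 256)⁻¹ ^ 1 *
      (1 - algebraMap K F (((256 : ↥A) : ↥A) : K) * (h + 256)⁻¹) ^ 2 = j⁻¹ := by
    rw [← hhv]
    field_simp
    linear_combination (1 : F) * hrel
  have hd : ∀ W : ValuationSubring F, Dom A W → j⁻¹ ∈ W.nonunits →
      (h + 256)⁻¹ ∈ W.nonunits ∨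
        1 - algebraMap K F (((256 : ↥A) : ↥A) : K) * (h + 256)⁻¹ ∈ W.nonunits := by
    intro W hW hw
    have hvW : (h + 256)⁻¹ ∈ W := hW.mem_of_mem_chartInt (ValuationSubring.nonunits_subset hw) hv
    refine mem_nonunits_or_of_pow_mul_pow hvW
      (sub_mem W.one_mem (mul_mem (hW _) hvW)) 1 2 ?_
    rw [hid]
    exact hw
  exact inf_core hW₁ hW₂ (256 : ↥A) hw₁ hw₂ hv rfl hhv (hd W₁ hW₁ hw₁) (hd W₂ hW₂ hw₂) hs

/-! ### the cover `j h = (h + 27) (h + 3)³` -/

/-- `h` is integral over `A[j]`. -/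
theorem cover2_mem {j h : F} (hrel : j * h = (h + 27) * (h + 3) ^ 3) : h ∈ chartInt A j := by
  have hS := intClosedIn_chartInt A j
  have hj := self_mem_chartInt A j
  have hn : ∀ n : ℕ, (n : F) ∈ chartInt A j := fun n => natCast_mem _ n
  refine hS.mem_of_quartic (a := ((36 : ℕ) : F)) (b := ((270 : ℕ) : F))
    (c := ((756 : ℕ) : F) - j) (d := ((729 : ℕ) : F)) (hn _) (hn _)
    ((chartInt A j).sub_mem (hn _) hj) (hn _) ?_
  push_cast
  linear_combination (-1 : F) * hrel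

/-- `h⁻¹` is integral over `A[j]` (`27` a unit of `A`). -/
theorem cover2_inv_mem {j h : F} (hrel : j * h = (h + 27) * (h + 3) ^ 3)
    (h27 : IsUnit (27 : ↥A)) : h⁻¹ ∈ chartInt A j := by
  have hS := intClosedIn_chartInt A j
  have hj := self_mem_chartInt A j
  obtain ⟨u, hu⟩ := exists_const_inv (F := F) h27
  rw [algebraMap_27] at hu
  have huS : algebraMap K F (u : K) ∈ chartInt A j := algebraMap_mem_chartInt A j u
  set û : F := algebraMap K F (u : K) with hû
  have h27' : (27 : F) ≠ 0 := right_ne_zero_of_mul_eq_one hu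
  have hh0 : h ≠ 0 := by
    rintro rfl
    have h1 : (27 : F) ^ 2 = 0 := by linear_combination (-1 : F) * hrel
    exact h27' (pow_eq_zero_iff (by norm_num) |>.mp h1)
  have hn : ∀ n : ℕ, (n : F) ∈ chartInt A j := fun n => natCast_mem _ n
  have hu2 : û ^ 2 ∈ chartInt A j := (chartInt A j).pow_mem huS _
  refine hS.mem_of_quartic (a := û ^ 2 * (((756 : ℕ) : F) - j)) (b := ((270 : ℕ) : F) * û ^ 2)
    (c := ((36 : ℕ) : F) * û ^ 2) (d := û ^ 2)
    ((chartInt A j).mul_mem hu2 ((chartInt A j).sub_mem (hn _) hj))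
    ((chartInt A j).mul_mem (hn _) hu2) ((chartInt A j).mul_mem (hn _) hu2) hu2 ?_
  have hû' : û = 27⁻¹ := eq_inv_of_mul_eq_one_left hu
  rw [hû']
  push_cast
  field_simp
  linear_combination (-1 : F) * hrel

/-- `h + 27 ≠ 0` on the cover, away from `j = 0`. -/
theorem cover2_add_ne_zero {j h : F} (hrel : j * h = (h + 27) * (h + 3) ^ 3)
    (h27 : (27 : F) ≠ 0) (hj0 : j ≠ 0) : h + 27 ≠ 0 := by
  intro h0
  have h1 : h = 0 := by
    have : j * h = 0 := by rw [hrel, h0]; ring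
    exact (mul_eq_zero.mp this).resolve_left hj0
  rw [h1, zero_add] at h0
  exact h27 h0

/-- `v = (h + 27)⁻¹` is integral over `A[j⁻¹]` (`27` a unit of `A`, `j ≠ 0`). -/
theorem cover2_v_mem {j h : F} (hrel : j * h = (h + 27) * (h + 3) ^ 3)
    (h27 : IsUnit (27 : ↥A)) (hj0 : j ≠ 0) : (h + 27)⁻¹ ∈ chartInt A j⁻¹ := by
  have hS := intClosedIn_chartInt A j⁻¹
  have hw := self_mem_chartInt A j⁻¹
  obtain ⟨u, hu⟩ := exists_const_inv (F := F) h27
  rw [algebraMap_27] at hu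
  have huS : algebraMap K F (u : K) ∈ chartInt A j⁻¹ := algebraMap_mem_chartInt A j⁻¹ u
  set û : F := algebraMap K F (u : K) with hû
  have h27' : (27 : F) ≠ 0 := right_ne_zero_of_mul_eq_one hu
  have hh0 : h + 27 ≠ 0 := cover2_add_ne_zero hrel h27' hj0
  have hn : ∀ n : ℕ, (n : F) ∈ chartInt A j⁻¹ := fun n => natCast_mem _ n
  have huw : û * j⁻¹ ∈ chartInt A j⁻¹ := (chartInt A j⁻¹).mul_mem huS hw
  refine hS.mem_of_quartic (a := -(û * (1 + ((13824 : ℕ) : F) * j⁻¹)))
    (b := ((1728 : ℕ) : F) * (û * j⁻¹)) (c := -(((72 : ℕ) : F) * (û * j⁻¹))) (d := û * j⁻¹)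
    ((chartInt A j⁻¹).neg_mem ((chartInt A j⁻¹).mul_mem huS
      ((chartInt A j⁻¹).add_mem (chartInt A j⁻¹).one_mem ((chartInt A j⁻¹).mul_mem (hn _) hw))))
    ((chartInt A j⁻¹).mul_mem (hn _) huw)
    ((chartInt A j⁻¹).neg_mem ((chartInt A j⁻¹).mul_mem (hn _) huw)) huw ?_
  have hû' : û = 27⁻¹ := eq_inv_of_mul_eq_one_left hu
  rw [hû']
  push_cast
  field_simp
  linear_combination (-1 : F) * hrel

/-- **cover `j h = (h + 27)(h + 3)³`, finite chart** (valuation-ring form). -/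
theorem cover2_fin {W₁ W₂ : ValuationSubring F} (hW₁ : Dom A W₁) (hW₂ : Dom A W₂) {j h : F}
    (hrel : j * h = (h + 27) * (h + 3) ^ 3) (hj₁ : j ∈ W₁) (hj₂ : j ∈ W₂)
    (hs : SameKer A j W₁ W₂) : h ∈ W₁ ∧ h ∈ W₂ ∧ SameKer A h W₁ W₂ :=
  ⟨hW₁.mem_of_mem_chartInt hj₁ (cover2_mem hrel), hW₂.mem_of_mem_chartInt hj₂ (cover2_mem hrel),
    hs.mono (cover2_mem hrel)⟩

/-- the same for the chart of `h⁻¹` (`27` a unit). -/
theorem cover2_fin_inv {W₁ W₂ : ValuationSubring F} (hW₁ : Dom A W₁) (hW₂ : Dom A W₂) {j h : F}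
    (hrel : j * h = (h + 27) * (h + 3) ^ 3) (h27 : IsUnit (27 : ↥A)) (hj₁ : j ∈ W₁)
    (hj₂ : j ∈ W₂) (hs : SameKer A j W₁ W₂) : h⁻¹ ∈ W₁ ∧ h⁻¹ ∈ W₂ ∧ SameKer A h⁻¹ W₁ W₂ :=
  ⟨hW₁.mem_of_mem_chartInt hj₁ (cover2_inv_mem hrel h27),
    hW₂.mem_of_mem_chartInt hj₂ (cover2_inv_mem hrel h27), hs.mono (cover2_inv_mem hrel h27)⟩

/-- **cover `j h = (h + 27)(h + 3)³`, chart at infinity** (valuation-ring form). -/
theorem cover2_inf {W₁ W₂ : ValuationSubring F} (hW₁ : Dom A W₁) (hW₂ : Dom A W₂) {j h : F}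
    (hrel : j * h = (h + 27) * (h + 3) ^ 3) (h27 : IsUnit (27 : ↥A)) (hj₁ : j ∉ W₁)
    (hj₂ : j ∉ W₂) (hs : SameKer A j⁻¹ W₁ W₂) :
    (h ∈ W₁ ↔ h ∈ W₂) ∧ (h ∈ W₁ → SameKer A h W₁ W₂) ∧ (h ∉ W₁ → SameKer A h⁻¹ W₁ W₂) := by
  have hj0 : j ≠ 0 := fun h0 => hj₁ (h0 ▸ W₁.zero_mem)
  have hw₁ : j⁻¹ ∈ W₁.nonunits := W₁.inv_mem_nonunits_iff.mpr (Or.inr hj₁)
  have hw₂ : j⁻¹ ∈ W₂.nonunits := W₂.inv_mem_nonunits_iff.mpr (Or.inr hj₂)
  have hv := cover2_v_mem hrel h27 hj0
  have h27' : (27 : F) ≠ 0 := by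
    obtain ⟨u, hu⟩ := exists_const_inv (F := F) h27
    rw [algebraMap_27] at hu
    exact right_ne_zero_of_mul_eq_one hu
  have hh0 : h + 27 ≠ 0 := cover2_add_ne_zero hrel h27' hj0
  have hhv : h * (h + 27)⁻¹ = 1 - algebraMap K F (((27 : ↥A) : ↥A) : K) * (h + 27)⁻¹ := by
    rw [algebraMap_27]
    field_simp
    ring
  have hid : (h + 27)⁻¹ ^ 3 *
      (1 - algebraMap K F (((27 : ↥A) : ↥A) : K) * (h + 27)⁻¹) ^ 1 =
        j⁻¹ * (1 - ((24 : ℕ) : F) * (h + 27)⁻¹) ^ 3 := by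
    rw [← hhv]
    push_cast
    field_simp
    linear_combination (1 : F) * hrel
  have hd : ∀ W : ValuationSubring F, Dom A W → j⁻¹ ∈ W.nonunits →
      (h + 27)⁻¹ ∈ W.nonunits ∨
        1 - algebraMap K F (((27 : ↥A) : ↥A) : K) * (h + 27)⁻¹ ∈ W.nonunits := by
    intro W hW hw
    have hvW : (h + 27)⁻¹ ∈ W := hW.mem_of_mem_chartInt (ValuationSubring.nonunits_subset hw) hv
    refine mem_nonunits_or_of_pow_mul_pow hvW
      (sub_mem W.one_mem (mul_mem (hW _) hvW)) 3 1 ?_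
    rw [hid]
    exact mul_mem_nonunits hw
      (pow_mem (sub_mem W.one_mem (mul_mem (natCast_mem W 24) hvW)) 3)
  exact inf_core hW₁ hW₂ (27 : ↥A) hw₁ hw₂ hv rfl hhv (hd W₁ hW₁ hw₁) (hd W₂ hW₂ hw₂) hs

end Covers

/-! ## The place form -/

section Places

variable (A : ValuationSubring K)

/-- `t(P) ∈ A`: the function `t` is regular at the place `P` with value in `A`. -/
def InA (P : Place K F) (t : F) : Prop :=
  ∃ a : ↥A, t - algebraMap K F (a : K) ∈ P.toValuationSubring.nonunits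

/-- **Equal characters on the chart of `t`**: every function integral over `A[t]` has the same
value modulo `𝔪_A` at `P₁` and at `P₂`. -/
def SameChar (t : F) (P₁ P₂ : Place K F) : Prop :=
  ∀ f ∈ chartInt A t, ∀ a₁ a₂ : ↥A,
    f - algebraMap K F (a₁ : K) ∈ P₁.toValuationSubring.nonunits →
    f - algebraMap K F (a₂ : K) ∈ P₂.toValuationSubring.nonunits →
    residue ↥A a₁ = residue ↥A a₂

variable (P : Place K F) (hP : P.deg = 1)

/-- the value of the inverse at a place. -/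
theorem ev_inv {f : F} (hf : f ∈ P.toValuationSubring) (h0 : ev P hP ⟨f, hf⟩ ≠ 0) :
    ∃ hf' : f⁻¹ ∈ P.toValuationSubring, ev P hP ⟨f⁻¹, hf'⟩ = (ev P hP ⟨f, hf⟩)⁻¹ := by
  have hn : f ∉ P.toValuationSubring.nonunits := by
    intro hn
    apply h0
    rw [ev_eq_zero_iff]
    exact (ValuationSubring.coe_mem_nonunits_iff (a := (⟨f, hf⟩ : ↥P.toValuationSubring))).mp hn
  rw [ValuationSubring.mem_nonunits_iff_or, not_or, not_not] at hn
  refine ⟨hn.2, eq_inv_of_mul_eq_one_left ?_⟩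
  rw [← map_mul]
  have h1 : (⟨f⁻¹, hn.2⟩ : ↥P.toValuationSubring) * ⟨f, hf⟩ = 1 :=
    Subtype.ext (inv_mul_cancel₀ hn.1)
  rw [h1, map_one]

/-- the functions regular at `P` with value in `A`, as a subring. -/
noncomputable def compSub : Subring F :=
  (A.toSubring.comap (ev P hP)).map P.toValuationSubring.subtype

theorem mem_compSub_iff {f : F} :
    f ∈ compSub A P hP ↔ ∃ hf : f ∈ P.toValuationSubring, ev P hP ⟨f, hf⟩ ∈ A := by
  constructor
  · rintro ⟨x, hx, rfl⟩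
    exact ⟨x.2, hx⟩
  · rintro ⟨hf, hA⟩
    exact ⟨⟨f, hf⟩, hA, rfl⟩

theorem mem_or_inv_mem_compSub (f : F) : f ∈ compSub A P hP ∨ f⁻¹ ∈ compSub A P hP := by
  have key : ∀ g : F, g ∈ P.toValuationSubring → g ∈ compSub A P hP ∨ g⁻¹ ∈ compSub A P hP := by
    intro g hg
    by_cases hA : ev P hP ⟨g, hg⟩ ∈ A
    · exact Or.inl ((mem_compSub_iff A P hP).mpr ⟨hg, hA⟩)
    · right
      have h0 : ev P hP ⟨g, hg⟩ ≠ 0 := fun h => hA (h ▸ A.zero_mem)
      obtain ⟨hg', he⟩ := ev_inv P hP hg h0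
      refine (mem_compSub_iff A P hP).mpr ⟨hg', ?_⟩
      rw [he]
      exact (A.mem_or_inv_mem _).resolve_left hA
  rcases P.toValuationSubring.mem_or_inv_mem f with hf | hf
  · exact key f hf
  · have h := key f⁻¹ hf
    rw [inv_inv] at h
    exact h.symm

/-- **The composite valuation ring** of a place `P` of degree one and the valuation ring `A`
of the constants: the functions regular at `P` with value in `A`. -/
noncomputable def compVal : ValuationSubring F :=
  { compSub A P hP with mem_or_inv_mem' := mem_or_inv_mem_compSub A P hP }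

theorem mem_compVal_iff {f : F} :
    f ∈ compVal A P hP ↔ ∃ hf : f ∈ P.toValuationSubring, ev P hP ⟨f, hf⟩ ∈ A :=
  mem_compSub_iff A P hP

theorem mem_compVal_iff_inA {f : F} : f ∈ compVal A P hP ↔ InA A P f := by
  rw [mem_compVal_iff]
  constructor
  · rintro ⟨hf, hA⟩
    exact ⟨⟨_, hA⟩, (sub_mem_nonunits_iff_ev P hP f hf _).mpr rfl⟩
  · rintro ⟨a, ha⟩
    refine ⟨mem_of_sub_mem_nonunits P ha, ?_⟩
    rw [ev_eq_of_sub_mem_nonunits P hP ha]
    exact a.2

theorem dom_compVal : Dom A (compVal A P hP) := by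
  intro a
  rw [mem_compVal_iff_inA]
  refine ⟨a, ?_⟩
  rw [sub_self]
  exact zero_mem _

/-- the maximal ideal of the composite valuation ring: value in `𝔪_A`. -/
theorem mem_nonunits_compVal_iff {f : F} {a : ↥A}
    (ha : f - algebraMap K F (a : K) ∈ P.toValuationSubring.nonunits) :
    f ∈ (compVal A P hP).nonunits ↔ residue ↥A a = 0 := by
  have hf : f ∈ P.toValuationSubring := mem_of_sub_mem_nonunits P ha
  have hev : ev P hP ⟨f, hf⟩ = (a : K) := ev_eq_of_sub_mem_nonunits P hP ha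
  rw [residue_eq_zero_iff, ← ValuationSubring.coe_mem_nonunits_iff,
    ValuationSubring.mem_nonunits_iff_or, ValuationSubring.mem_nonunits_iff_or]
  constructor
  · intro h
    by_contra hcon
    rw [not_or, not_not] at hcon
    obtain ⟨ha0, haA⟩ := hcon
    have h0 : ev P hP ⟨f, hf⟩ ≠ 0 := by rw [hev]; exact ha0
    obtain ⟨hf', he⟩ := ev_inv P hP hf h0
    rcases h with h | h
    · apply h0
      have h1 : (⟨f, hf⟩ : ↥P.toValuationSubring) = 0 := Subtype.ext h
      rw [h1, map_zero]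
    · apply h
      rw [mem_compVal_iff]
      refine ⟨hf', ?_⟩
      rw [he, hev]
      exact haA
  · intro h
    by_contra hcon
    rw [not_or, not_not] at hcon
    obtain ⟨hf0, hfW⟩ := hcon
    obtain ⟨hf', hA'⟩ := (mem_compVal_iff A P hP).mp hfW
    have hmul : ev P hP ⟨f, hf⟩ * ev P hP ⟨f⁻¹, hf'⟩ = 1 := by
      rw [← map_mul]
      have h1 : (⟨f, hf⟩ : ↥P.toValuationSubring) * ⟨f⁻¹, hf'⟩ = 1 :=
        Subtype.ext (mul_inv_cancel₀ hf0)
      rw [h1, map_one]
    rw [hev] at hmul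
    rcases h with h | h
    · rw [h, zero_mul] at hmul
      exact zero_ne_one hmul
    · apply h
      rw [inv_eq_of_mul_eq_one_right hmul]
      exact hA'

variable {A} {P}

theorem InA.inv_of_not {t : F} (h : ¬ InA A P t) (hP : P.deg = 1) : InA A P t⁻¹ := by
  rw [← mem_compVal_iff_inA A P hP] at h ⊢
  exact ((compVal A P hP).mem_or_inv_mem t).resolve_left h

/-- equal characters give equal classes. -/
theorem sameKer_of_sameChar {t : F} {P₁ P₂ : Place K F} (hP₁ : P₁.deg = 1) (hP₂ : P₂.deg = 1)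
    (ht₁ : InA A P₁ t) (ht₂ : InA A P₂ t) (h : SameChar A t P₁ P₂) :
    SameKer A t (compVal A P₁ hP₁) (compVal A P₂ hP₂) := by
  intro f hf
  obtain ⟨a₀, h₀⟩ := ht₁
  obtain ⟨b₀, k₀⟩ := ht₂
  obtain ⟨a₁, h₁⟩ := exists_sub_mem_nonunits A P₁ t hP₁ a₀ h₀ hf
  obtain ⟨a₂, h₂⟩ := exists_sub_mem_nonunits A P₂ t hP₂ b₀ k₀ hf
  rw [mem_nonunits_compVal_iff A P₁ hP₁ h₁, mem_nonunits_compVal_iff A P₂ hP₂ h₂,
    h f hf a₁ a₂ h₁ h₂]

/-- equal classes give equal characters. -/
theorem sameChar_of_sameKer {t : F} {P₁ P₂ : Place K F} (hP₁ : P₁.deg = 1) (hP₂ : P₂.deg = 1)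
    (h : SameKer A t (compVal A P₁ hP₁) (compVal A P₂ hP₂)) : SameChar A t P₁ P₂ := by
  intro f hf a₁ a₂ h₁ h₂
  have hg : f - algebraMap K F (a₁ : K) ∈ chartInt A t :=
    (chartInt A t).sub_mem hf (algebraMap_mem_chartInt A t a₁)
  have g₁ : (f - algebraMap K F (a₁ : K)) - algebraMap K F ((0 : ↥A) : K) ∈
      P₁.toValuationSubring.nonunits := by
    have h0 : ((0 : ↥A) : K) = 0 := rfl
    rw [h0, map_zero, sub_zero]
    exact h₁
  have g₂ : (f - algebraMap K F (a₁ : K)) - algebraMap K F ((a₂ - a₁ : ↥A) : K) ∈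
      P₂.toValuationSubring.nonunits := by
    have h0 : ((a₂ - a₁ : ↥A) : K) = (a₂ : K) - (a₁ : K) := rfl
    have h1 : (f - algebraMap K F (a₁ : K)) - algebraMap K F ((a₂ - a₁ : ↥A) : K) =
        f - algebraMap K F (a₂ : K) := by
      rw [h0, map_sub]
      ring
    rw [h1]
    exact h₂
  have e₁ := (mem_nonunits_compVal_iff A P₁ hP₁ g₁).mpr (map_zero _)
  have e₂ := (mem_nonunits_compVal_iff A P₂ hP₂ g₂).mp ((h _ hg).mp e₁)
  rw [map_sub, sub_eq_zero] at e₂
  exact e₂.symm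

theorem sameChar_iff_sameKer {t : F} {P₁ P₂ : Place K F} (hP₁ : P₁.deg = 1) (hP₂ : P₂.deg = 1)
    (ht₁ : InA A P₁ t) (ht₂ : InA A P₂ t) :
    SameChar A t P₁ P₂ ↔ SameKer A t (compVal A P₁ hP₁) (compVal A P₂ hP₂) :=
  ⟨sameKer_of_sameChar hP₁ hP₂ ht₁ ht₂, sameChar_of_sameKer hP₁ hP₂⟩

end Places

/-! ## The chart comparison for places -/

section PlaceThms

variable {A : ValuationSubring K} {j h : F} {P₁ P₂ : Place K F}

/-- **Cover `j h² = (h + 256)³`, finite chart.** If `j(P₁), j(P₂) ∈ A` and the characters of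
the `j`-chart at `P₁`, `P₂` agree, then `h(P₁), h(P₂) ∈ A` and the characters of the `h`-chart
agree. -/
theorem sameChar_fin3 (hrel : j * h ^ 2 = (h + 256) ^ 3) (hP₁ : P₁.deg = 1) (hP₂ : P₂.deg = 1)
    (hj₁ : InA A P₁ j) (hj₂ : InA A P₂ j) (hs : SameChar A j P₁ P₂) :
    InA A P₁ h ∧ InA A P₂ h ∧ SameChar A h P₁ P₂ := by
  obtain ⟨m₁, m₂, hk⟩ := cover3_fin (dom_compVal A P₁ hP₁) (dom_compVal A P₂ hP₂) hrel
    ((mem_compVal_iff_inA A P₁ hP₁).mpr hj₁) ((mem_compVal_iff_inA A P₂ hP₂).mpr hj₂)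
    (sameKer_of_sameChar hP₁ hP₂ hj₁ hj₂ hs)
  exact ⟨(mem_compVal_iff_inA A P₁ hP₁).mp m₁, (mem_compVal_iff_inA A P₂ hP₂).mp m₂,
    sameChar_of_sameKer hP₁ hP₂ hk⟩

/-- the same for the chart of `h⁻¹` (`256` a unit of `A`). -/
theorem sameChar_fin3_inv (hrel : j * h ^ 2 = (h + 256) ^ 3) (h256 : IsUnit (256 : ↥A))
    (hP₁ : P₁.deg = 1) (hP₂ : P₂.deg = 1)
    (hj₁ : InA A P₁ j) (hj₂ : InA A P₂ j) (hs : SameChar A j P₁ P₂) :
    InA A P₁ h⁻¹ ∧ InA A P₂ h⁻¹ ∧ SameChar A h⁻¹ P₁ P₂ := by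
  obtain ⟨m₁, m₂, hk⟩ := cover3_fin_inv (dom_compVal A P₁ hP₁) (dom_compVal A P₂ hP₂) hrel h256
    ((mem_compVal_iff_inA A P₁ hP₁).mpr hj₁) ((mem_compVal_iff_inA A P₂ hP₂).mpr hj₂)
    (sameKer_of_sameChar hP₁ hP₂ hj₁ hj₂ hs)
  exact ⟨(mem_compVal_iff_inA A P₁ hP₁).mp m₁, (mem_compVal_iff_inA A P₂ hP₂).mp m₂,
    sameChar_of_sameKer hP₁ hP₂ hk⟩

/-- **Cover `j h² = (h + 256)³`, chart at infinity.** If `j(P₁), j(P₂) ∉ A` and the characters
of the `j⁻¹`-chart at `P₁`, `P₂` agree, then `P₁`, `P₂` lie on the same `h`-chart and the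
characters of that chart agree. -/
theorem sameChar_inf3 (hrel : j * h ^ 2 = (h + 256) ^ 3) (h256 : IsUnit (256 : ↥A))
    (hP₁ : P₁.deg = 1) (hP₂ : P₂.deg = 1)
    (hj₁ : ¬ InA A P₁ j) (hj₂ : ¬ InA A P₂ j) (hs : SameChar A j⁻¹ P₁ P₂) :
    (InA A P₁ h ↔ InA A P₂ h) ∧ (InA A P₁ h → SameChar A h P₁ P₂) ∧
      (¬ InA A P₁ h → SameChar A h⁻¹ P₁ P₂) := by
  have n₁ : j ∉ compVal A P₁ hP₁ := fun x => hj₁ ((mem_compVal_iff_inA A P₁ hP₁).mp x)
  have n₂ : j ∉ compVal A P₂ hP₂ := fun x => hj₂ ((mem_compVal_iff_inA A P₂ hP₂).mp x)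
  obtain ⟨e, k₁, k₂⟩ := cover3_inf (dom_compVal A P₁ hP₁) (dom_compVal A P₂ hP₂) hrel h256 n₁ n₂
    (sameKer_of_sameChar hP₁ hP₂ (InA.inv_of_not hj₁ hP₁) (InA.inv_of_not hj₂ hP₂) hs)
  rw [mem_compVal_iff_inA, mem_compVal_iff_inA] at e
  exact ⟨e, fun x => sameChar_of_sameKer hP₁ hP₂ (k₁ ((mem_compVal_iff_inA A P₁ hP₁).mpr x)),
    fun x => sameChar_of_sameKer hP₁ hP₂
      (k₂ (fun y => x ((mem_compVal_iff_inA A P₁ hP₁).mp y)))⟩

/-- **Cover `j h = (h + 27)(h + 3)³`, finite chart.** -/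
theorem sameChar_fin2 (hrel : j * h = (h + 27) * (h + 3) ^ 3) (hP₁ : P₁.deg = 1)
    (hP₂ : P₂.deg = 1) (hj₁ : InA A P₁ j) (hj₂ : InA A P₂ j) (hs : SameChar A j P₁ P₂) :
    InA A P₁ h ∧ InA A P₂ h ∧ SameChar A h P₁ P₂ := by
  obtain ⟨m₁, m₂, hk⟩ := cover2_fin (dom_compVal A P₁ hP₁) (dom_compVal A P₂ hP₂) hrel
    ((mem_compVal_iff_inA A P₁ hP₁).mpr hj₁) ((mem_compVal_iff_inA A P₂ hP₂).mpr hj₂)
    (sameKer_of_sameChar hP₁ hP₂ hj₁ hj₂ hs)
  exact ⟨(mem_compVal_iff_inA A P₁ hP₁).mp m₁, (mem_compVal_iff_inA A P₂ hP₂).mp m₂,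
    sameChar_of_sameKer hP₁ hP₂ hk⟩

/-- the same for the chart of `h⁻¹` (`27` a unit of `A`). -/
theorem sameChar_fin2_inv (hrel : j * h = (h + 27) * (h + 3) ^ 3) (h27 : IsUnit (27 : ↥A))
    (hP₁ : P₁.deg = 1) (hP₂ : P₂.deg = 1)
    (hj₁ : InA A P₁ j) (hj₂ : InA A P₂ j) (hs : SameChar A j P₁ P₂) :
    InA A P₁ h⁻¹ ∧ InA A P₂ h⁻¹ ∧ SameChar A h⁻¹ P₁ P₂ := by
  obtain ⟨m₁, m₂, hk⟩ := cover2_fin_inv (dom_compVal A P₁ hP₁) (dom_compVal A P₂ hP₂) hrel h27
    ((mem_compVal_iff_inA A P₁ hP₁).mpr hj₁) ((mem_compVal_iff_inA A P₂ hP₂).mpr hj₂)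
    (sameKer_of_sameChar hP₁ hP₂ hj₁ hj₂ hs)
  exact ⟨(mem_compVal_iff_inA A P₁ hP₁).mp m₁, (mem_compVal_iff_inA A P₂ hP₂).mp m₂,
    sameChar_of_sameKer hP₁ hP₂ hk⟩

/-- **Cover `j h = (h + 27)(h + 3)³`, chart at infinity.** -/
theorem sameChar_inf2 (hrel : j * h = (h + 27) * (h + 3) ^ 3) (h27 : IsUnit (27 : ↥A))
    (hP₁ : P₁.deg = 1) (hP₂ : P₂.deg = 1)
    (hj₁ : ¬ InA A P₁ j) (hj₂ : ¬ InA A P₂ j) (hs : SameChar A j⁻¹ P₁ P₂) :
    (InA A P₁ h ↔ InA A P₂ h) ∧ (InA A P₁ h → SameChar A h P₁ P₂) ∧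
      (¬ InA A P₁ h → SameChar A h⁻¹ P₁ P₂) := by
  have n₁ : j ∉ compVal A P₁ hP₁ := fun x => hj₁ ((mem_compVal_iff_inA A P₁ hP₁).mp x)
  have n₂ : j ∉ compVal A P₂ hP₂ := fun x => hj₂ ((mem_compVal_iff_inA A P₂ hP₂).mp x)
  obtain ⟨e, k₁, k₂⟩ := cover2_inf (dom_compVal A P₁ hP₁) (dom_compVal A P₂ hP₂) hrel h27 n₁ n₂
    (sameKer_of_sameChar hP₁ hP₂ (InA.inv_of_not hj₁ hP₁) (InA.inv_of_not hj₂ hP₂) hs)
  rw [mem_compVal_iff_inA, mem_compVal_iff_inA] at e
  exact ⟨e, fun x => sameChar_of_sameKer hP₁ hP₂ (k₁ ((mem_compVal_iff_inA A P₁ hP₁).mpr x)),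
    fun x => sameChar_of_sameKer hP₁ hP₂
      (k₂ (fun y => x ((mem_compVal_iff_inA A P₁ hP₁).mp y)))⟩

variable (A)

/-- **Same reduction with respect to the coordinate `t`**: the places `P₁`, `P₂` lie on the
same chart (`t(P) ∈ A` for both: the chart of `t`; for neither: the chart of `t⁻¹`) and the
characters of that chart at `P₁` and `P₂` agree. -/
def SameRed (t : F) (P₁ P₂ : Place K F) : Prop :=
  (InA A P₁ t ↔ InA A P₂ t) ∧ (InA A P₁ t → SameChar A t P₁ P₂) ∧
    (¬ InA A P₁ t → SameChar A t⁻¹ P₁ P₂)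

variable {A}

/-- **Chart comparison on the cover `j h² = (h + 256)³`** (`256` a unit of `A`): the reduction
with respect to `j` determines the reduction with respect to `h`. -/
theorem sameRed_cover3 (hrel : j * h ^ 2 = (h + 256) ^ 3) (h256 : IsUnit (256 : ↥A))
    (hP₁ : P₁.deg = 1) (hP₂ : P₂.deg = 1) (hs : SameRed A j P₁ P₂) : SameRed A h P₁ P₂ := by
  obtain ⟨e, k₁, k₂⟩ := hs
  by_cases hj : InA A P₁ j
  · obtain ⟨i₁, i₂, sc⟩ := sameChar_fin3 hrel hP₁ hP₂ hj (e.mp hj) (k₁ hj)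
    exact ⟨⟨fun _ => i₂, fun _ => i₁⟩, fun _ => sc, fun x => absurd i₁ x⟩
  · exact sameChar_inf3 hrel h256 hP₁ hP₂ hj (fun x => hj (e.mpr x)) (k₂ hj)

/-- **Chart comparison on the cover `j h = (h + 27)(h + 3)³`** (`27` a unit of `A`). -/
theorem sameRed_cover2 (hrel : j * h = (h + 27) * (h + 3) ^ 3) (h27 : IsUnit (27 : ↥A))
    (hP₁ : P₁.deg = 1) (hP₂ : P₂.deg = 1) (hs : SameRed A j P₁ P₂) : SameRed A h P₁ P₂ := by
  obtain ⟨e, k₁, k₂⟩ := hs
  by_cases hj : InA A P₁ j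
  · obtain ⟨i₁, i₂, sc⟩ := sameChar_fin2 hrel hP₁ hP₂ hj (e.mp hj) (k₁ hj)
    exact ⟨⟨fun _ => i₂, fun _ => i₁⟩, fun _ => sc, fun x => absurd i₁ x⟩
  · exact sameChar_inf2 hrel h27 hP₁ hP₂ hj (fun x => hj (e.mpr x)) (k₂ hj)

end PlaceThms

/-! ## A generic place reduction `rG` (the shape of `RedPlace.r`, for any coordinate) -/

section Generic

variable (A : ValuationSubring K)

/-- the value of `x` at `P` modulo `𝔪_A`; zero unless `x(P) ∈ A`. -/
noncomputable def valG (P : Place K F) (x : F) : ResidueField ↥A :=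
  open Classical in if h : InA A P x then residue ↥A h.choose else 0

theorem valG_eq (P : Place K F) {x : F} {a : ↥A}
    (h : x - algebraMap K F (a : K) ∈ P.toValuationSubring.nonunits) :
    valG A P x = residue ↥A a := by
  have hx : InA A P x := ⟨a, h⟩
  unfold valG
  rw [dif_pos hx]
  congr 1
  exact Subtype.ext (sub_mem_nonunits_unique P hx.choose_spec h)

theorem valG_of_not (P : Place K F) {x : F} (h : ¬ InA A P x) : valG A P x = 0 := by
  unfold valG
  rw [dif_neg h]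

/-- the chart flag of `P` for the coordinate `t`: `true` iff `t(P) ∈ A`. -/
noncomputable def flagG (t : F) (P : Place K F) : Bool :=
  open Classical in decide (InA A P t)

theorem flagG_eq_true_iff (t : F) (P : Place K F) : flagG A t P = true ↔ InA A P t := by
  unfold flagG
  simp

theorem flagG_eq_false_iff (t : F) (P : Place K F) : flagG A t P = false ↔ ¬ InA A P t := by
  unfold flagG
  simp

/-- the chart coordinate: `t` for `b = true`, `t⁻¹` for `b = false`. -/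
def coordG (t : F) (b : Bool) : F := if b then t else t⁻¹

theorem coordG_true (t : F) : coordG t true = t := rfl

theorem coordG_false (t : F) : coordG t false = t⁻¹ := rfl

/-- the character of the chart of `P`, extended by zero. -/
noncomputable def chiG (t : F) (P : Place K F) : F → ResidueField ↥A := fun x =>
  open Classical in if x ∈ chartInt A (coordG t (flagG A t P)) then valG A P x else 0

/-- **The generic place reduction** for the coordinate `t`: the chart flag and the character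
of that chart (extended by zero). -/
noncomputable def rG (t : F) (P : Place K F) : Bool × (F → ResidueField ↥A) :=
  (flagG A t P, chiG A t P)

variable {A}

theorem inA_coordG {t : F} {P : Place K F} (hP : P.deg = 1) :
    InA A P (coordG t (flagG A t P)) := by
  by_cases ht : InA A P t
  · rw [(flagG_eq_true_iff A t P).mpr ht]
    exact ht
  · rw [(flagG_eq_false_iff A t P).mpr ht]
    exact InA.inv_of_not ht hP

theorem rG_eq_iff {t : F} {P₁ P₂ : Place K F} (hP₁ : P₁.deg = 1) (hP₂ : P₂.deg = 1) :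
    rG A t P₁ = rG A t P₂ ↔ SameRed A t P₁ P₂ := by
  constructor
  · intro h
    have hf : flagG A t P₁ = flagG A t P₂ := congrArg Prod.fst h
    have hc : chiG A t P₁ = chiG A t P₂ := congrArg Prod.snd h
    have e : InA A P₁ t ↔ InA A P₂ t := by
      rw [← flagG_eq_true_iff, ← flagG_eq_true_iff, hf]
    have key : ∀ f ∈ chartInt A (coordG t (flagG A t P₁)), ∀ a₁ a₂ : ↥A,
        f - algebraMap K F (a₁ : K) ∈ P₁.toValuationSubring.nonunits →
        f - algebraMap K F (a₂ : K) ∈ P₂.toValuationSubring.nonunits →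
        residue ↥A a₁ = residue ↥A a₂ := by
      intro f hf₁ a₁ a₂ h₁ h₂
      have hf₂ : f ∈ chartInt A (coordG t (flagG A t P₂)) := hf ▸ hf₁
      have := congrFun hc f
      unfold chiG at this
      rw [if_pos hf₁, if_pos hf₂, valG_eq A P₁ h₁, valG_eq A P₂ h₂] at this
      exact this
    refine ⟨e, fun ht => ?_, fun ht => ?_⟩
    · rw [(flagG_eq_true_iff A t P₁).mpr ht] at key
      exact key
    · rw [(flagG_eq_false_iff A t P₁).mpr ht] at key
      exact key
  · rintro ⟨e, k₁, k₂⟩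
    have hf : flagG A t P₁ = flagG A t P₂ := by
      by_cases ht : InA A P₁ t
      · rw [(flagG_eq_true_iff A t P₁).mpr ht, (flagG_eq_true_iff A t P₂).mpr (e.mp ht)]
      · rw [(flagG_eq_false_iff A t P₁).mpr ht,
          (flagG_eq_false_iff A t P₂).mpr (fun x => ht (e.mpr x))]
    have hsc : SameChar A (coordG t (flagG A t P₁)) P₁ P₂ := by
      by_cases ht : InA A P₁ t
      · rw [(flagG_eq_true_iff A t P₁).mpr ht]
        exact k₁ ht
      · rw [(flagG_eq_false_iff A t P₁).mpr ht]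
        exact k₂ ht
    refine Prod.ext hf (funext fun x => ?_)
    show chiG A t P₁ x = chiG A t P₂ x
    unfold chiG
    by_cases hx : x ∈ chartInt A (coordG t (flagG A t P₁))
    · have hx₂ : x ∈ chartInt A (coordG t (flagG A t P₂)) := hf ▸ hx
      rw [if_pos hx, if_pos hx₂]
      obtain ⟨a₀, h₀⟩ := inA_coordG (A := A) (t := t) hP₁
      obtain ⟨b₀, k₀⟩ := inA_coordG (A := A) (t := t) hP₂
      obtain ⟨a₁, h₁⟩ := exists_sub_mem_nonunits A P₁ _ hP₁ a₀ h₀ hx
      obtain ⟨a₂, h₂⟩ := exists_sub_mem_nonunits A P₂ _ hP₂ b₀ k₀ hx₂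
      rw [valG_eq A P₁ h₁, valG_eq A P₂ h₂]
      exact hsc x hx a₁ a₂ h₁ h₂
    · have hx₂ : x ∉ chartInt A (coordG t (flagG A t P₂)) := hf ▸ hx
      rw [if_neg hx, if_neg hx₂]

/-- **(c2) for the cover `j h² = (h + 256)³`**: the `j`-reduction of a place determines its
`h`-reduction. -/
theorem rG_cover3 {j h : F} (hrel : j * h ^ 2 = (h + 256) ^ 3) (h256 : IsUnit (256 : ↥A))
    {P₁ P₂ : Place K F} (hP₁ : P₁.deg = 1) (hP₂ : P₂.deg = 1)
    (hr : rG A j P₁ = rG A j P₂) : rG A h P₁ = rG A h P₂ :=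
  (rG_eq_iff hP₁ hP₂).mpr (sameRed_cover3 hrel h256 hP₁ hP₂ ((rG_eq_iff hP₁ hP₂).mp hr))

/-- **(c2) for the cover `j h = (h + 27)(h + 3)³`**. -/
theorem rG_cover2 {j h : F} (hrel : j * h = (h + 27) * (h + 3) ^ 3) (h27 : IsUnit (27 : ↥A))
    {P₁ P₂ : Place K F} (hP₁ : P₁.deg = 1) (hP₂ : P₂.deg = 1)
    (hr : rG A j P₁ = rG A j P₂) : rG A h P₁ = rG A h P₂ :=
  (rG_eq_iff hP₁ hP₂).mpr (sameRed_cover2 hrel h27 hP₁ hP₂ ((rG_eq_iff hP₁ hP₂).mp hr))

end Generic

end Fermat.Agent.S37.ChartCmp
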