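import Mathlib

/-!
# S37: separation of characters  (OWNER: helper16)

`A`-algebra characters `χ : R →ₐ[A] k` into a field `k` onto which `A` surjects (for S37:
`A` a valuation ring of `ℚ̄`, `k` its residue field, `R` an integral closure `D`, `D#` or its
reduction).  A finite multiset of such characters is determined by the multisets of values
`{χ f}` for all `f : R` (Chinese remainder theorem on the pairwise distinct kernels).

* `exists_eq_one_eq_zero` : a function that is `1` at one character and `0` at finitely many others;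
* `eq_of_forall_map_eq` : equal value multisets for every `f` ⟹ equal multisets of characters;
* `eq_of_forall_prod_eq` : the same in the shape `∏ (X - C (χ f))` (characteristic polynomials);
* `finsupp_eq_of_forall_prod_eq` : the same with multiplicities `m : (R →ₐ[A] k) →₀ ℕ`.
-/

set_option autoImplicit false

namespace Fermat.Agent.S37.CharSep

open Polynomial

variable {A R k : Type*} [CommRing A] [CommRing R] [Field k] [Algebra A R] [Algebra A k]

/-- `A`-algebra characters are onto when `A → k` is. -/
theorem surjective_char (hA : Function.Surjective (algebraMap A k)) (χ : R →ₐ[A] k) :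
    Function.Surjective χ := fun c => by
  obtain ⟨a, rfl⟩ := hA c
  exact ⟨algebraMap A R a, χ.commutes a⟩

/-- the kernel of an `A`-algebra character is a maximal ideal. -/
theorem ker_isMaximal (hA : Function.Surjective (algebraMap A k)) (χ : R →ₐ[A] k) :
    (RingHom.ker (χ : R →+* k)).IsMaximal :=
  RingHom.ker_isMaximal_of_surjective _ (surjective_char hA χ)

/-- an `A`-algebra character is determined by its kernel. -/
theorem eq_of_ker_le (hA : Function.Surjective (algebraMap A k)) {χ θ : R →ₐ[A] k}
    (h : RingHom.ker (χ : R →+* k) ≤ RingHom.ker (θ : R →+* k)) : χ = θ := by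
  ext x
  obtain ⟨a, ha⟩ := hA (χ x)
  have h1 : x - algebraMap A R a ∈ RingHom.ker (χ : R →+* k) := by
    rw [RingHom.mem_ker]
    show χ (x - algebraMap A R a) = 0
    rw [map_sub, χ.commutes, ha, sub_self]
  have h2 := h h1
  rw [RingHom.mem_ker] at h2
  have h3 : θ (x - algebraMap A R a) = 0 := h2
  rw [map_sub, θ.commutes, sub_eq_zero] at h3
  rw [h3, ha]

theorem ker_injective (hA : Function.Surjective (algebraMap A k)) {χ θ : R →ₐ[A] k}
    (h : RingHom.ker (χ : R →+* k) = RingHom.ker (θ : R →+* k)) : χ = θ :=
  eq_of_ker_le hA h.le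

/-- **CRT**: a function with value `1` at `θ` and `0` at the other characters of a finite set. -/
theorem exists_eq_one_eq_zero (hA : Function.Surjective (algebraMap A k))
    (T : Finset (R →ₐ[A] k)) (θ : R →ₐ[A] k) :
    ∃ f : R, θ f = 1 ∧ ∀ χ ∈ T, χ ≠ θ → χ f = 0 := by
  classical
  set T' : Finset (R →ₐ[A] k) := insert θ T with hT'
  have hcop : Pairwise (Function.onFun IsCoprime
      (fun i : T' => RingHom.ker ((i : R →ₐ[A] k) : R →+* k))) := by
    intro i j hij
    show IsCoprime _ _
    rw [Ideal.isCoprime_iff_sup_eq]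
    refine (ker_isMaximal hA i.1).coprime_of_ne (ker_isMaximal hA j.1) fun hker => hij ?_
    exact Subtype.ext (ker_injective hA hker)
  obtain ⟨f, hf⟩ := Ideal.exists_forall_sub_mem_ideal hcop
    (fun i : T' => if (i : R →ₐ[A] k) = θ then (1 : R) else 0)
  refine ⟨f, ?_, fun χ hχ hne => ?_⟩
  · have h := hf ⟨θ, Finset.mem_insert_self θ T⟩
    rw [RingHom.mem_ker] at h
    have h' : θ (f - 1) = 0 := by simpa using h
    rw [map_sub, map_one, sub_eq_zero] at h'
    exact h'
  · have h := hf ⟨χ, Finset.mem_insert_of_mem hχ⟩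
    rw [RingHom.mem_ker] at h
    have h' : χ (f - 0) = 0 := by simpa [hne] using h
    rwa [sub_zero] at h'

/-- **Separation**: a multiset of characters is determined by its value multisets. -/
theorem eq_of_forall_map_eq (hA : Function.Surjective (algebraMap A k))
    (s t : Multiset (R →ₐ[A] k))
    (h : ∀ f : R, s.map (fun χ => χ f) = t.map (fun χ => χ f)) : s = t := by
  classical
  refine Multiset.ext.mpr fun θ => ?_
  obtain ⟨f, hf1, hf0⟩ := exists_eq_one_eq_zero hA (s + t).toFinset θ
  have key : ∀ u : Multiset (R →ₐ[A] k), u ≤ s + t →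
      Multiset.count θ u = Multiset.count (1 : k) (u.map (fun χ => χ f)) := by
    intro u hu
    rw [Multiset.count_map, Multiset.count_eq_card_filter_eq]
    congr 1
    refine Multiset.filter_congr fun χ hχ => ?_
    constructor
    · intro hθ
      rw [← hθ, hf1]
    · intro h1
      by_contra hne
      have hχT : χ ∈ (s + t).toFinset := Multiset.mem_toFinset.mpr (Multiset.mem_of_le hu hχ)
      have h0 := hf0 χ hχT (fun hh => hne hh.symm)
      rw [h0] at h1
      exact one_ne_zero h1
  rw [key s (Multiset.le_add_right s t), key t (Multiset.le_add_left t s), h f]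

/-- **Separation, characteristic-polynomial shape**. -/
theorem eq_of_forall_prod_eq (hA : Function.Surjective (algebraMap A k))
    (s t : Multiset (R →ₐ[A] k))
    (h : ∀ f : R, (s.map (fun χ => (X - C (χ f) : k[X]))).prod
      = (t.map (fun χ => (X - C (χ f) : k[X]))).prod) : s = t := by
  refine eq_of_forall_map_eq hA s t fun f => ?_
  have h1 := congrArg Polynomial.roots (h f)
  have e : ∀ u : Multiset (R →ₐ[A] k),
      u.map (fun χ => (X - C (χ f) : k[X])) = (u.map (fun χ => χ f)).map (fun a => X - C a) := by
    intro u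
    rw [Multiset.map_map]
    rfl
  rw [e s, e t, roots_multiset_prod_X_sub_C, roots_multiset_prod_X_sub_C] at h1
  exact h1

/-- **Separation with multiplicities**. -/
theorem finsupp_eq_of_forall_prod_eq (hA : Function.Surjective (algebraMap A k))
    (m₁ m₂ : (R →ₐ[A] k) →₀ ℕ)
    (h : ∀ f : R, ∏ χ ∈ m₁.support, (X - C (χ f) : k[X]) ^ m₁ χ
      = ∏ χ ∈ m₂.support, (X - C (χ f) : k[X]) ^ m₂ χ) : m₁ = m₂ := by
  classical
  have e : ∀ (m : (R →ₐ[A] k) →₀ ℕ) (f : R),
      ((Finsupp.toMultiset m).map (fun χ => (X - C (χ f) : k[X]))).prod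
        = ∏ χ ∈ m.support, (X - C (χ f) : k[X]) ^ m χ := by
    intro m f
    rw [Finsupp.toMultiset_map, Finsupp.prod_toMultiset,
      Finsupp.prod_mapDomain_index (fun _ => pow_zero _) (fun _ _ _ => pow_add _ _ _)]
    rfl
  have hms : Finsupp.toMultiset m₁ = Finsupp.toMultiset m₂ :=
    eq_of_forall_prod_eq hA _ _ fun f => by rw [e m₁ f, e m₂ f, h f]
  have h2 := congrArg Multiset.toFinsupp hms
  rwa [Finsupp.toMultiset_toFinsupp, Finsupp.toMultiset_toFinsupp] at h2

end Fermat.Agent.S37.CharSep
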