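import Mathlib
import Fermat.Prelude.Def_AlgebraicCurve_DivisorPushPull
import Fermat.Agent.S37.EvalGal
import Fermat.Agent.S37.EvalInt
import Fermat.Agent.S37.CharSep

/-!
# S37 (c1): fibre constancy  (OWNER: helper16)

`F ⊆ F'` a finite extension of function fields over `K`, `A` a valuation subring of `K` with
infinite residue field `k`, `t : F` a chart coordinate, `D_t` (resp. `D'_t`) the elements of `F`
(resp. `F'`) integral over `A[t]`.  A place `P` of `F` of degree one with `t(P) ∈ A` has the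
character `χ_P : D_t → k`, `f ↦ f(P) mod 𝔪_A`; likewise the places `w` of `F'` above it.

**Fibre constancy** (`sum_ramificationIndex_eq`): the multiset `{χ_w with multiplicity e(w|P)}`
of characters of `D'_t` along the fibre of `P` depends only on `χ_P`.  Proof: for `g ∈ D'_t` and
`c ∈ A` the norm `N(c - g)` lies in `D_t` and its value at `P` is `∏_{w | P} (c - g(w))^e(w|P)`
(hypothesis `hLoc`, = `NormValue.ev_norm`); reducing modulo `𝔪_A` the polynomial
`∏ (X - χ_w(g))^e` is determined by `χ_P`; then `CharSep`.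

`mapDomain_sum_eq_zero` is the formal consequence for divisors: a divisor which is zero-sum for
a reduction map `r` pulls back to a zero-sum divisor for any reduction map `r'` upstairs whose
law along fibres depends only on `r`.
-/

set_option autoImplicit false
set_option linter.style.haveILetI false

open AlgebraicCurve IsLocalRing Polynomial

namespace Fermat.Agent.S37.FibreConst

open Fermat.Agent.S37.EvalGal Fermat.Agent.S37.EvalInt

/-! ### Zero-sum transfer (pure combinatorics) -/

/-- If the law `mapDomain r' (m P)` of the fibre `m P` depends only on `r P`, then a divisor `E`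
with `r_* E = 0` pulls back to `E# = ∑ E(P) • m P` with `r'_* E# = 0`. -/
theorem mapDomain_sum_eq_zero {X X' Y Y' : Type*} (r : X → Y) (r' : X' → Y')
    (m : X → X' →₀ ℤ)
    (hconst : ∀ P₁ P₂, r P₁ = r P₂ →
      Finsupp.mapDomain r' (m P₁) = Finsupp.mapDomain r' (m P₂))
    (E : X →₀ ℤ) (hE : Finsupp.mapDomain r E = 0) :
    Finsupp.mapDomain r' (E.sum fun P n => n • m P) = 0 := by
  classical
  let M : Y → (Y' →₀ ℤ) := fun y =>
    if h : ∃ P, r P = y then Finsupp.mapDomain r' (m h.choose) else 0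
  have hM : ∀ P, M (r P) = Finsupp.mapDomain r' (m P) := by
    intro P
    have h : ∃ P', r P' = r P := ⟨P, rfl⟩
    simp only [M, dif_pos h]
    exact hconst _ _ h.choose_spec
  have h1 : Finsupp.mapDomain r' (E.sum fun P n => n • m P)
      = E.sum fun P n => n • M (r P) := by
    unfold Finsupp.sum
    rw [Finsupp.mapDomain_finsetSum]
    refine Finset.sum_congr rfl fun P _ => ?_
    rw [Finsupp.mapDomain_smul]
    show _ = E P • M (r P)
    rw [hM]
  have h2 : (E.sum fun P n => n • M (r P))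
      = (Finsupp.mapDomain r E).sum fun y n => n • M y :=
    (Finsupp.sum_mapDomain_index (h := fun y (n : ℤ) => n • M y)
      (fun y => zero_smul _ _) (fun y a b => add_smul _ _ _)).symm
  rw [h1, h2, hE, Finsupp.sum_zero_index]

variable {K F F' : Type*} [Field K] [Field F] [Field F'] [Algebra K F] [Algebra K F']
  [Algebra F F'] [IsScalarTower K F F']

/-! ### Characters of the chart ring, relationally -/

/-- The places `P₁`, `P₂` have the same character on the chart ring `D_t`: every `f` integral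
over `A[t]` with values `b₁`, `b₂ ∈ A` at `P₁`, `P₂` has `b₁ ≡ b₂` modulo `𝔪_A`. -/
def SameChar (A : ValuationSubring K) (t : F) (P₁ P₂ : Place K F) : Prop :=
  ∀ f : F, (chartHom A t).IsIntegralElem f → ∀ b₁ b₂ : ↥A,
    f - algebraMap K F (b₁ : K) ∈ P₁.toValuationSubring.nonunits →
    f - algebraMap K F (b₂ : K) ∈ P₂.toValuationSubring.nonunits →
    residue ↥A b₁ = residue ↥A b₂

theorem SameChar.symm {A : ValuationSubring K} {t : F} {P₁ P₂ : Place K F}
    (h : SameChar A t P₁ P₂) : SameChar A t P₂ P₁ :=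
  fun f hf b₁ b₂ h₁ h₂ => (h f hf b₂ b₁ h₂ h₁).symm

/-- `SameChar` is equality of the characters `EvalInt.chi`. -/
theorem sameChar_iff_chi_eq (A : ValuationSubring K) (t : F) (P₁ P₂ : Place K F)
    (hP₁ : P₁.deg = 1) (hP₂ : P₂.deg = 1) (a₁ a₂ : ↥A)
    (ht₁ : t - algebraMap K F (a₁ : K) ∈ P₁.toValuationSubring.nonunits)
    (ht₂ : t - algebraMap K F (a₂ : K) ∈ P₂.toValuationSubring.nonunits) :
    SameChar A t P₁ P₂ ↔ chi A t P₁ hP₁ a₁ ht₁ = chi A t P₂ hP₂ a₂ ht₂ := by
  constructor
  · intro h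
    ext f
    rw [chi_apply, chi_apply]
    exact h (f : F) f.2 _ _ (sub_evInt_mem_nonunits A t P₁ hP₁ a₁ ht₁ f)
      (sub_evInt_mem_nonunits A t P₂ hP₂ a₂ ht₂ f)
  · intro h f hf b₁ b₂ h₁ h₂
    have e₁ := chi_eq_of_sub_mem_nonunits A t P₁ hP₁ a₁ ht₁ ⟨f, hf⟩ b₁ h₁
    have e₂ := chi_eq_of_sub_mem_nonunits A t P₂ hP₂ a₂ ht₂ ⟨f, hf⟩ b₂ h₂
    rw [← e₁, ← e₂, h]

/-! ### The chart upstairs -/

theorem algebraMap_comp_chartHom (A : ValuationSubring K) (t : F) :
    (algebraMap F F').comp (chartHom A t) = chartHom A (algebraMap F F' t) := by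
  apply Polynomial.ringHom_ext
  · intro a
    simp [chartHom, ← IsScalarTower.algebraMap_apply]
  · simp [chartHom]

/-- elements of `D_t` stay integral upstairs. -/
theorem isIntegralElem_algebraMap (A : ValuationSubring K) (t : F) {f : F}
    (hf : (chartHom A t).IsIntegralElem f) :
    (chartHom A (algebraMap F F' t)).IsIntegralElem (algebraMap F F' f) := by
  rw [← algebraMap_comp_chartHom]
  exact hf.map (algebraMap F F')

/-- **The norm of an element integral over `A[t]` is integral over `A[t]`.** -/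
theorem isIntegralElem_norm (A : ValuationSubring K) (t : F) {g : F'}
    (hg : (chartHom A (algebraMap F F' t)).IsIntegralElem g) :
    (chartHom A t).IsIntegralElem (Algebra.norm F g) := by
  letI : Algebra (Polynomial ↥A) F := (chartHom A t).toAlgebra
  letI : Algebra (Polynomial ↥A) F' := (chartHom A (algebraMap F F' t)).toAlgebra
  haveI : IsScalarTower (Polynomial ↥A) F F' := IsScalarTower.of_algebraMap_eq fun p => by
    show chartHom A (algebraMap F F' t) p = algebraMap F F' (chartHom A t p)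
    rw [← algebraMap_comp_chartHom]
    rfl
  have hx : IsIntegral (Polynomial ↥A) g := hg
  exact Algebra.isIntegral_norm F hx

/-- the maximal ideal of the restricted place maps into the maximal ideal. -/
theorem algebraMap_mem_nonunits [Algebra.IsIntegral F F'] (w : Place K F') {x : F}
    (hx : x ∈ (w.restrict F).toValuationSubring.nonunits) :
    algebraMap F F' x ∈ w.toValuationSubring.nonunits := by
  rw [ValuationSubring.mem_nonunits_iff_or] at hx ⊢
  rcases hx with rfl | h
  · left
    simp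
  · right
    intro hmem
    apply h
    rw [Place.restrict_toValuationSubring, ValuationSubring.mem_comap, map_inv₀]
    exact hmem

/-- a value of `t` at the restricted place is a value of `t` upstairs. -/
theorem sub_mem_nonunits_of_restrict [Algebra.IsIntegral F F'] (w : Place K F') {P : Place K F}
    (hw : w.restrict F = P) {f : F} {a : K}
    (h : f - algebraMap K F a ∈ P.toValuationSubring.nonunits) :
    algebraMap F F' f - algebraMap K F' a ∈ w.toValuationSubring.nonunits := by
  subst hw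
  have := algebraMap_mem_nonunits w h
  rwa [map_sub, ← IsScalarTower.algebraMap_apply] at this

/-! ### The chart ring as an `A`-algebra, the character as an algebra homomorphism -/

/-- the `A`-algebra structure of the chart ring (used as a local instance). -/
@[instance_reducible]
noncomputable def chartIntAlgebra (A : ValuationSubring K) (t : F) :
    Algebra ↥A ↥(chartInt A t) :=
  RingHom.toAlgebra
    { toFun := fun a => ⟨algebraMap K F (a : K), algebraMap_mem_chartInt A t a⟩
      map_one' := Subtype.ext (by simp)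
      map_mul' := fun a b => Subtype.ext (by simp)
      map_zero' := Subtype.ext (by simp)
      map_add' := fun a b => Subtype.ext (by simp) }

/-- the character `EvalInt.chi` as an `A`-algebra homomorphism. -/
noncomputable def chiAlg (A : ValuationSubring K) (t : F) (P : Place K F) (hP : P.deg = 1)
    (a₀ : ↥A) (ht : t - algebraMap K F (a₀ : K) ∈ P.toValuationSubring.nonunits) :
    @AlgHom ↥A ↥(chartInt A t) (ResidueField ↥A) _ _ _ (chartIntAlgebra A t) _ :=
  letI := chartIntAlgebra A t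
  { chi A t P hP a₀ ht with
    commutes' := fun a => chi_algebraMap A t P hP a₀ ht a }

theorem chiAlg_apply (A : ValuationSubring K) (t : F) (P : Place K F) (hP : P.deg = 1)
    (a₀ : ↥A) (ht : t - algebraMap K F (a₀ : K) ∈ P.toValuationSubring.nonunits)
    (f : ↥(chartInt A t)) : chiAlg A t P hP a₀ ht f = chi A t P hP a₀ ht f := rfl

section Main

variable [FiniteDimensional F F']

/-- **(Loc)**: the value at `P` of a norm is the product of the values along the fibre `S`,
with the ramification indices as exponents (the conclusion of `NormValue.ev_norm`). -/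
def LocAt (P : Place K F) (hP : P.deg = 1) (S : Finset (Place K F'))
    (hdeg : ∀ w ∈ S, w.deg = 1) : Prop :=
  ∀ (g : F') (hg : ∀ w ∈ S, g ∈ w.toValuationSubring),
    ∃ hN : Algebra.norm F g ∈ P.toValuationSubring,
      ev P hP ⟨Algebra.norm F g, hN⟩ =
        ∏ w ∈ S.attach, ev w.1 (hdeg w.1 w.2) ⟨g, hg w.1 w.2⟩ ^ (w.1.ramificationIndex F)

variable (A : ValuationSubring K) (t : F)

/-- **Reduction of the norm**: for `g ∈ D'_t` and `c ∈ A`, the value `b` of `N(c - g)` at `P`
reduces to `∏_{w | P} (c̄ - χ_w(g))^e(w|P)`. -/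
theorem residue_norm_eq_prod (P : Place K F) (hP : P.deg = 1) (S : Finset (Place K F'))
    (hS : ∀ w : Place K F', w ∈ S → w.restrict F = P) (hdeg : ∀ w ∈ S, w.deg = 1)
    (a : ↥A) (ht : t - algebraMap K F (a : K) ∈ P.toValuationSubring.nonunits)
    (hLoc : LocAt P hP S hdeg)
    (g : ↥(chartInt A (algebraMap F F' t))) (c b : ↥A)
    (hb : Algebra.norm F (algebraMap K F' (c : K) - (g : F')) - algebraMap K F (b : K) ∈
      P.toValuationSubring.nonunits) :
    residue ↥A b = ∏ w ∈ S.attach,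
      (residue ↥A c - chi A (algebraMap F F' t) w.1 (hdeg w.1 w.2) a
        (sub_mem_nonunits_of_restrict w.1 (hS w.1 w.2) ht) g) ^ (w.1.ramificationIndex F) := by
  have hw : ∀ w ∈ S, algebraMap F F' t - algebraMap K F' (a : K) ∈
      w.toValuationSubring.nonunits :=
    fun w hw => sub_mem_nonunits_of_restrict w (hS w hw) ht
  obtain ⟨gc, hgc⟩ : ∃ gc : F', gc = algebraMap K F' (c : K) - (g : F') := ⟨_, rfl⟩
  rw [← hgc] at hb
  have hgc_int : (chartHom A (algebraMap F F' t)).IsIntegralElem gc := by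
    rw [hgc]
    exact (chartInt A (algebraMap F F' t)).sub_mem
      (algebraMap_mem_chartInt A (algebraMap F F' t) c) g.2
  have hreg : ∀ w ∈ S, gc ∈ w.toValuationSubring := fun w hwS =>
    mem_of_isIntegralElem A w (algebraMap F F' t) (mem_of_sub_mem_nonunits w (hw w hwS)) hgc_int
  obtain ⟨hN, hev⟩ := hLoc gc hreg
  have hbv : ev P hP ⟨Algebra.norm F gc, hN⟩ = (b : K) := ev_eq_of_sub_mem_nonunits P hP hb
  have hval : ∀ w : {w // w ∈ S}, ev w.1 (hdeg w.1 w.2) ⟨gc, hreg w.1 w.2⟩ =
      ((c - evInt A (algebraMap F F' t) w.1 (hdeg w.1 w.2) a (hw w.1 w.2) g : ↥A) : K) := by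
    intro w
    have hg_mem : (g : F') ∈ w.1.toValuationSubring :=
      mem_of_isIntegralElem A w.1 (algebraMap F F' t)
        (mem_of_sub_mem_nonunits w.1 (hw w.1 w.2)) g.2
    have e1 : (⟨gc, hreg w.1 w.2⟩ : ↥w.1.toValuationSubring) =
        algebraMap K ↥w.1.toValuationSubring (c : K) - ⟨(g : F'), hg_mem⟩ :=
      Subtype.ext hgc
    rw [e1, map_sub, ev_algebraMap]
    push_cast
    rw [coe_evInt]
  have hb' : b = ∏ w ∈ S.attach,
      (c - evInt A (algebraMap F F' t) w.1 (hdeg w.1 w.2) a (hw w.1 w.2) g) ^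
        (w.1.ramificationIndex F) := by
    apply Subtype.ext
    rw [← hbv, hev]
    push_cast
    exact Finset.prod_congr rfl fun w _ => by rw [hval w]; push_cast; rfl
  rw [hb', map_prod]
  refine Finset.prod_congr rfl fun w _ => ?_
  rw [map_pow, map_sub, chi_apply]

end Main

section Constancy

variable [FiniteDimensional F F'] (A : ValuationSubring K) (t : F)

theorem chiAlg_eq_iff (P P' : Place K F) (hP : P.deg = 1) (hP' : P'.deg = 1) (a a' : ↥A)
    (ht : t - algebraMap K F (a : K) ∈ P.toValuationSubring.nonunits)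
    (ht' : t - algebraMap K F (a' : K) ∈ P'.toValuationSubring.nonunits) :
    chiAlg A t P hP a ht = chiAlg A t P' hP' a' ht' ↔
      chi A t P hP a ht = chi A t P' hP' a' ht' := by
  letI := chartIntAlgebra A t
  constructor
  · intro h
    ext f
    have := DFunLike.congr_fun h f
    exact this
  · intro h
    apply AlgHom.ext
    intro f
    show chi A t P hP a ht f = chi A t P' hP' a' ht' f
    rw [h]

/-- The characters of `D'_t` along the fibre `S` of `P`, with the ramification indices as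
multiplicities. -/
noncomputable def fibreChar (P : Place K F) (S : Finset (Place K F'))
    (hS : ∀ w : Place K F', w ∈ S → w.restrict F = P) (hdeg : ∀ w ∈ S, w.deg = 1)
    (a : ↥A) (ht : t - algebraMap K F (a : K) ∈ P.toValuationSubring.nonunits) :
    letI := chartIntAlgebra A (algebraMap F F' t)
    (↥(chartInt A (algebraMap F F' t)) →ₐ[↥A] ResidueField ↥A) →₀ ℕ :=
  letI := chartIntAlgebra A (algebraMap F F' t)
  ∑ w ∈ S.attach, Finsupp.single (chiAlg A (algebraMap F F' t) w.1 (hdeg w.1 w.2) a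
      (sub_mem_nonunits_of_restrict w.1 (hS w.1 w.2) ht)) (w.1.ramificationIndex F)

/-- **Fibre constancy, character form**: the multiset of characters along the fibre, with
multiplicities `e(w|P)`, depends only on the character of `P`. -/
theorem fibreChar_eq [Infinite (ResidueField ↥A)] (P₁ P₂ : Place K F)
    (hP₁ : P₁.deg = 1) (hP₂ : P₂.deg = 1) (S₁ S₂ : Finset (Place K F'))
    (hS₁ : ∀ w : Place K F', w ∈ S₁ → w.restrict F = P₁)
    (hS₂ : ∀ w : Place K F', w ∈ S₂ → w.restrict F = P₂)
    (hdeg₁ : ∀ w ∈ S₁, w.deg = 1) (hdeg₂ : ∀ w ∈ S₂, w.deg = 1) (a₁ a₂ : ↥A)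
    (ht₁ : t - algebraMap K F (a₁ : K) ∈ P₁.toValuationSubring.nonunits)
    (ht₂ : t - algebraMap K F (a₂ : K) ∈ P₂.toValuationSubring.nonunits)
    (hsame : SameChar A t P₁ P₂)
    (hLoc₁ : LocAt P₁ hP₁ S₁ hdeg₁) (hLoc₂ : LocAt P₂ hP₂ S₂ hdeg₂) :
    fibreChar A t P₁ S₁ hS₁ hdeg₁ a₁ ht₁ = fibreChar A t P₂ S₂ hS₂ hdeg₂ a₂ ht₂ := by
  letI := chartIntAlgebra A (algebraMap F F' t)
  have hA : Function.Surjective (algebraMap ↥A (ResidueField ↥A)) := residue_surjective
  apply CharSep.finsupp_eq_of_forall_prod_eq hA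
  intro g
  have key : ∀ (P : Place K F) (S : Finset (Place K F'))
      (hS : ∀ w : Place K F', w ∈ S → w.restrict F = P) (hdeg : ∀ w ∈ S, w.deg = 1)
      (a : ↥A) (ht : t - algebraMap K F (a : K) ∈ P.toValuationSubring.nonunits),
      ∏ χ ∈ (fibreChar A t P S hS hdeg a ht).support,
          (X - C (χ g) : (ResidueField ↥A)[X]) ^ (fibreChar A t P S hS hdeg a ht) χ
        = ∏ w ∈ S.attach, (X - C (chi A (algebraMap F F' t) w.1 (hdeg w.1 w.2) a
            (sub_mem_nonunits_of_restrict w.1 (hS w.1 w.2) ht) g) : (ResidueField ↥A)[X]) ^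
              (w.1.ramificationIndex F) := by
    intro P S hS hdeg a ht
    show (fibreChar A t P S hS hdeg a ht).prod
      (fun χ n => (X - C (χ g) : (ResidueField ↥A)[X]) ^ n) = _
    unfold fibreChar
    rw [← Finsupp.prod_finsetSum_index (fun χ => pow_zero _) (fun χ a b => pow_add _ _ _)]
    refine Finset.prod_congr rfl fun w _ => ?_
    exact Finsupp.prod_single_index
      (h := fun (χ : ↥(chartInt A (algebraMap F F' t)) →ₐ[↥A] ResidueField ↥A) (n : ℕ) =>
        (X - C (χ g) : (ResidueField ↥A)[X]) ^ n) (pow_zero _)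
  rw [key P₁ S₁ hS₁ hdeg₁ a₁ ht₁, key P₂ S₂ hS₂ hdeg₂ a₂ ht₂]
  apply Polynomial.funext
  intro cbar
  obtain ⟨c, rfl⟩ := residue_surjective cbar
  simp only [eval_prod, eval_pow, eval_sub, eval_X, eval_C]
  have hint : (chartHom A t).IsIntegralElem
      (Algebra.norm F (algebraMap K F' (c : K) - (g : F'))) :=
    isIntegralElem_norm A t ((chartInt A (algebraMap F F' t)).sub_mem
      (algebraMap_mem_chartInt A (algebraMap F F' t) c) g.2)
  obtain ⟨b₁, hb₁⟩ := exists_sub_mem_nonunits A P₁ t hP₁ a₁ ht₁ hint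
  obtain ⟨b₂, hb₂⟩ := exists_sub_mem_nonunits A P₂ t hP₂ a₂ ht₂ hint
  rw [← residue_norm_eq_prod A t P₁ hP₁ S₁ hS₁ hdeg₁ a₁ ht₁ hLoc₁ g c b₁ hb₁,
    ← residue_norm_eq_prod A t P₂ hP₂ S₂ hS₂ hdeg₂ a₂ ht₂ hLoc₂ g c b₂ hb₂]
  exact hsame _ hint b₁ b₂ hb₁ hb₂

/-- **Fibre constancy (c1), class-sum form.**  Let `P₁`, `P₂` be places of `F` on the chart of
`t` with the same character on `D_t`, with fibres `S₁`, `S₂` in `F'`.  For every place `w₀` of
`F'` on the chart, the places of `S₁` and of `S₂` having the same character on `D'_t` as `w₀`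
(the finsets `T₁`, `T₂`) have the same total ramification index. -/
theorem sum_ramificationIndex_eq [Infinite (ResidueField ↥A)] (P₁ P₂ : Place K F)
    (hP₁ : P₁.deg = 1) (hP₂ : P₂.deg = 1) (S₁ S₂ : Finset (Place K F'))
    (hS₁ : ∀ w : Place K F', w ∈ S₁ → w.restrict F = P₁)
    (hS₂ : ∀ w : Place K F', w ∈ S₂ → w.restrict F = P₂)
    (hdeg₁ : ∀ w ∈ S₁, w.deg = 1) (hdeg₂ : ∀ w ∈ S₂, w.deg = 1) (a₁ a₂ : ↥A)
    (ht₁ : t - algebraMap K F (a₁ : K) ∈ P₁.toValuationSubring.nonunits)
    (ht₂ : t - algebraMap K F (a₂ : K) ∈ P₂.toValuationSubring.nonunits)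
    (hsame : SameChar A t P₁ P₂)
    (hLoc₁ : LocAt P₁ hP₁ S₁ hdeg₁) (hLoc₂ : LocAt P₂ hP₂ S₂ hdeg₂)
    (w₀ : Place K F') (hw₀ : w₀.deg = 1) (a₀ : ↥A)
    (hw₀t : algebraMap F F' t - algebraMap K F' (a₀ : K) ∈ w₀.toValuationSubring.nonunits)
    (T₁ T₂ : Finset (Place K F'))
    (hT₁ : ∀ w, w ∈ T₁ ↔ w ∈ S₁ ∧ SameChar A (algebraMap F F' t) w w₀)
    (hT₂ : ∀ w, w ∈ T₂ ↔ w ∈ S₂ ∧ SameChar A (algebraMap F F' t) w w₀) :
    ∑ w ∈ T₁, w.ramificationIndex F = ∑ w ∈ T₂, w.ramificationIndex F := by
  classical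
  letI := chartIntAlgebra A (algebraMap F F' t)
  have key : ∀ (P : Place K F) (S : Finset (Place K F'))
      (hS : ∀ w : Place K F', w ∈ S → w.restrict F = P) (hdeg : ∀ w ∈ S, w.deg = 1)
      (a : ↥A) (ht : t - algebraMap K F (a : K) ∈ P.toValuationSubring.nonunits)
      (T : Finset (Place K F'))
      (_ : ∀ w, w ∈ T ↔ w ∈ S ∧ SameChar A (algebraMap F F' t) w w₀),
      (fibreChar A t P S hS hdeg a ht) (chiAlg A (algebraMap F F' t) w₀ hw₀ a₀ hw₀t)
        = ∑ w ∈ T, w.ramificationIndex F := by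
    intro P S hS hdeg a ht T hT
    have hT' : T = S.filter (fun w => SameChar A (algebraMap F F' t) w w₀) := by
      ext w
      rw [hT, Finset.mem_filter]
    unfold fibreChar
    rw [Finsupp.finsetSum_apply, hT', Finset.sum_filter, ← Finset.sum_attach S]
    refine Finset.sum_congr rfl fun w _ => ?_
    have hiff : chiAlg A (algebraMap F F' t) w.1 (hdeg w.1 w.2) a
          (sub_mem_nonunits_of_restrict w.1 (hS w.1 w.2) ht)
          = chiAlg A (algebraMap F F' t) w₀ hw₀ a₀ hw₀t ↔
        SameChar A (algebraMap F F' t) w.1 w₀ := by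
      rw [chiAlg_eq_iff, ← sameChar_iff_chi_eq]
    rw [Finsupp.single_apply]
    by_cases h : SameChar A (algebraMap F F' t) w.1 w₀
    · rw [if_pos h, if_pos (hiff.mpr h)]
    · rw [if_neg h, if_neg (fun hh => h (hiff.mp hh))]
  rw [← key P₁ S₁ hS₁ hdeg₁ a₁ ht₁ T₁ hT₁, ← key P₂ S₂ hS₂ hdeg₂ a₂ ht₂ T₂ hT₂,
    fibreChar_eq A t P₁ P₂ hP₁ hP₂ S₁ S₂ hS₁ hS₂ hdeg₁ hdeg₂ a₁ a₂ ht₁ ht₂ hsame hLoc₁ hLoc₂]

end Constancy

end Fermat.Agent.S37.FibreConst
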