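import Mathlib

/-
S37 leaf (Loc-1): the residue of a norm over a local Dedekind base.

* `norm_quotient_mk`      : the norm commutes with reduction modulo the maximal ideal;
* `norm_pi_of_isNilpotent`: norm on a finite product of algebras, components scalar + nilpotent;
* `mk_norm_eq_prod`       : residue of `N(g)` = product of the residues of `g` at the primes above,
                            to the powers `e * f`.
Mathlib only.
-/

set_option autoImplicit false
set_option linter.deprecated false

namespace Fermat.Agent.S37.NormRes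

open Module Polynomial

section Field

variable {κ : Type*} [Field κ] {V : Type*} [CommRing V] [Algebra κ V] [Module.Finite κ V]

/-- the norm of `1 + nilpotent` is `1`. -/
theorem norm_one_add_of_isNilpotent {n : V} (hn : IsNilpotent n) :
    Algebra.norm κ (1 + n) = 1 := by
  have h1 : IsNilpotent (Algebra.lmul κ V (-n)) := (hn.neg).map (Algebra.lmul κ V)
  have h2 := LinearMap.eval_charpoly (Algebra.lmul κ V (-n)) (1 : κ)
  rw [IsNilpotent.charpoly_eq_X_pow_finrank h1, eval_pow, eval_X, one_pow] at h2
  rw [Algebra.norm_apply, h2]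
  congr 1
  rw [map_one, map_neg, sub_neg_eq_add, map_add, map_one]

/-- the norm of a non-unit is `0`. -/
theorem norm_eq_zero_of_not_isUnit {x : V} (hx : ¬ IsUnit x) : Algebra.norm κ x = 0 := by
  rw [Algebra.norm_apply]
  by_contra h
  apply hx
  have hu : IsUnit (Algebra.lmul κ V x) :=
    (LinearMap.isUnit_iff_isUnit_det _).mpr (isUnit_iff_ne_zero.mpr h)
  obtain ⟨y, hy⟩ := ((Module.End.isUnit_iff _).mp hu).2 1
  exact IsUnit.of_mul_eq_one y hy

/-- a nilpotent perturbation does not change the norm. -/
theorem norm_add_of_isNilpotent (u : V) {n : V} (hn : IsNilpotent n) :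
    Algebra.norm κ (u + n) = Algebra.norm κ u := by
  by_cases hu : IsUnit u
  · obtain ⟨w, rfl⟩ := hu
    have e : (w : V) + n = w * (1 + (↑w⁻¹ : V) * n) := by
      rw [mul_add, mul_one, ← mul_assoc, Units.mul_inv, one_mul]
    rw [e, map_mul, norm_one_add_of_isNilpotent (Commute.isNilpotent_mul_left (Commute.all _ _) hn),
      mul_one]
  · have hun : ¬ IsUnit (u + n) := by
      intro h
      apply hu
      have : u = (u + n) + (-n) := by ring
      rw [this]
      exact IsNilpotent.isUnit_add_left_of_commute hn.neg h (Commute.all _ _)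
    rw [norm_eq_zero_of_not_isUnit hu, norm_eq_zero_of_not_isUnit hun]

/-- the determinant of `1 + (c - 1) • E` for an idempotent `E`. -/
theorem det_one_add_smul_of_idempotent {M : Type*} [AddCommGroup M] [Module κ M]
    [Module.Finite κ M] (E : Module.End κ M) (hE : IsIdempotentElem E) (c : κ) :
    LinearMap.det (1 + (c - 1) • E) = c ^ finrank κ (LinearMap.range E) := by
  have hc : IsCompl (LinearMap.range E) (LinearMap.ker E) := LinearMap.IsIdempotentElem.isCompl hE
  set e := Submodule.prodEquivOfIsCompl _ _ hc with he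
  have hEr : ∀ y : LinearMap.range E, E (y : M) = y := by
    rintro ⟨y, z, rfl⟩
    show E (E z) = E z
    have := congrArg (fun f : Module.End κ M => f z) hE.eq
    exact this
  have key : (1 + (c - 1) • E) =
      e.toLinearMap ∘ₗ (LinearMap.prodMap (c • LinearMap.id) LinearMap.id) ∘ₗ
        e.symm.toLinearMap := by
    apply LinearMap.ext
    intro v
    obtain ⟨⟨y, x⟩, rfl⟩ := e.surjective v
    have hx : E (x : M) = 0 := x.2
    simp only [LinearMap.add_apply, Module.End.one_apply, LinearMap.smul_apply,
      LinearMap.comp_apply, LinearEquiv.coe_coe, LinearEquiv.symm_apply_apply,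
      LinearMap.prodMap_apply, LinearMap.id_apply]
    rw [he, Submodule.coe_prodEquivOfIsCompl', Submodule.coe_prodEquivOfIsCompl', map_add, hEr y,
      hx]
    simp only [Submodule.coe_smul]
    module
  rw [key, LinearMap.det_conj, LinearMap.det_prodMap, LinearMap.det_smul, LinearMap.det_id,
    LinearMap.det_id, mul_one, mul_one]

end Field

section Pi

variable {κ : Type*} [Field κ] {ι : Type*} [DecidableEq ι]
  (W : ι → Type*) [∀ i, CommRing (W i)] [∀ i, Algebra κ (W i)]

theorem isIdempotentElem_lmul_single (i : ι) :
    IsIdempotentElem (Algebra.lmul κ (∀ i, W i) (Pi.single i 1)) := by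
  show Algebra.lmul κ (∀ i, W i) (Pi.single i 1) * Algebra.lmul κ (∀ i, W i) (Pi.single i 1) = _
  rw [← map_mul, ← Pi.single_mul, mul_one]

theorem finrank_range_lmul_single (i : ι) :
    finrank κ (LinearMap.range (Algebra.lmul κ (∀ i, W i) (Pi.single i 1))) = finrank κ (W i) := by
  have h : LinearMap.range (Algebra.lmul κ (∀ i, W i) (Pi.single i 1)) =
      LinearMap.range (LinearMap.single κ W i) := by
    apply le_antisymm
    · rintro _ ⟨v, rfl⟩
      refine ⟨v i, ?_⟩
      ext j
      by_cases hj : j = i
      · subst hj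
        simp
      · simp [hj]
    · rintro _ ⟨x, rfl⟩
      refine ⟨Pi.single i x, ?_⟩
      ext j
      by_cases hj : j = i
      · subst hj
        simp
      · simp [hj]
  rw [h]
  refine LinearMap.finrank_range_of_inj ?_
  intro x y hxy
  exact Pi.single_injective i hxy

variable [Fintype ι] [∀ i, Module.Finite κ (W i)]

/-- the norm of an element of a finite product of finite-dimensional algebras each of whose
components is a scalar plus a nilpotent. -/
theorem norm_pi_of_isNilpotent (f : ∀ i, W i) (a : ι → κ)
    (h : ∀ i, IsNilpotent (f i - algebraMap κ (W i) (a i))) :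
    Algebra.norm κ f = ∏ i, a i ^ finrank κ (W i) := by
  conv_lhs => rw [← Finset.univ_prod_mulSingle f]
  rw [map_prod]
  refine Finset.prod_congr rfl fun i _ => ?_
  have hnil : IsNilpotent (Pi.single i (f i - algebraMap κ (W i) (a i)) : ∀ i, W i) := by
    obtain ⟨k, hk⟩ := h i
    refine ⟨k + 1, ?_⟩
    ext j
    by_cases hj : j = i
    · subst hj
      simp [pow_succ, hk]
    · simp [hj]
  have hdec : (Pi.mulSingle i (f i) : ∀ i, W i) =
      (1 + (a i - 1) • (Pi.single i 1 : ∀ i, W i)) +
        Pi.single i (f i - algebraMap κ (W i) (a i)) := by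
    ext j
    by_cases hj : j = i
    · subst hj
      simp [Algebra.algebraMap_eq_smul_one, sub_smul]
    · simp [hj]
  rw [hdec, norm_add_of_isNilpotent _ hnil, Algebra.norm_apply]
  have hl : Algebra.lmul κ (∀ i, W i) (1 + (a i - 1) • (Pi.single i 1 : ∀ i, W i)) =
      1 + (a i - 1) • Algebra.lmul κ (∀ i, W i) (Pi.single i 1) := by
    rw [map_add, map_one, map_smul]
  rw [hl, det_one_add_smul_of_idempotent _ (isIdempotentElem_lmul_single W i),
    finrank_range_lmul_single]

end Pi

section Quotient

open IsLocalRing UniqueFactorizationMonoid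

variable {R S : Type*} [CommRing R] [CommRing S] [Algebra R S]

/-- the norm commutes with reduction modulo the maximal ideal of a local base
(norm analogue of Mathlib's `Algebra.trace_quotient_mk`). -/
theorem norm_quotient_mk [IsLocalRing R] [Module.Free R S] [Module.Finite R S] (x : S) :
    Algebra.norm (R ⧸ maximalIdeal R)
        (Ideal.Quotient.mk (Ideal.map (algebraMap R S) (maximalIdeal R)) x) =
      Ideal.Quotient.mk (maximalIdeal R) (Algebra.norm R x) := by
  let _ := Ideal.Quotient.field (maximalIdeal R)
  let ι := Module.Free.ChooseBasisIndex R S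
  let b : Module.Basis ι R S := Module.Free.chooseBasis R S
  rw [Algebra.norm_eq_matrix_det b, Algebra.norm_eq_matrix_det (basisQuotient b),
    RingHom.map_det]
  congr 1
  ext i j
  simp only [Algebra.leftMulMatrix_apply, Algebra.coe_lmul_eq_mul, LinearMap.toMatrix_apply,
    basisQuotient_apply, LinearMap.mul_apply', RingHom.mapMatrix_apply, Matrix.map_apply,
    ← map_mul, basisQuotient_repr]

/-- the residue of the norm of `g` over a discrete valuation ring is the product, over the primes
`Q` above the maximal ideal, of the residues of `g` at `Q` (assumed to be in the base residue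
field), to the power `e(Q) * f(Q)`. -/
theorem mk_norm_eq_prod [IsDomain R] [IsDiscreteValuationRing R] [IsDedekindDomain S]
    [Module.Free R S] [Module.Finite R S]
    (hp : Ideal.map (algebraMap R S) (maximalIdeal R) ≠ ⊥) (g : S) (a : Ideal S → R)
    (ha : ∀ Q ∈ (factors (Ideal.map (algebraMap R S) (maximalIdeal R))).toFinset,
      g - algebraMap R S (a Q) ∈ Q) :
    Ideal.Quotient.mk (maximalIdeal R) (Algebra.norm R g) =
      ∏ Q ∈ (factors (Ideal.map (algebraMap R S) (maximalIdeal R))).toFinset,
        Ideal.Quotient.mk (maximalIdeal R) (a Q) ^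
          (Ideal.ramificationIdx' (maximalIdeal R) Q * Ideal.inertiaDeg' (maximalIdeal R) Q) := by
  classical
  let _ := Ideal.Quotient.field (maximalIdeal R)
  rw [← norm_quotient_mk]
  let e := Ideal.Factors.piQuotientLinearEquiv S (maximalIdeal R) hp
  let E : (S ⧸ Ideal.map (algebraMap R S) (maximalIdeal R)) ≃ₐ[R ⧸ maximalIdeal R]
      (∀ P : (factors (Ideal.map (algebraMap R S) (maximalIdeal R))).toFinset,
        S ⧸ (P : Ideal S) ^ Ideal.ramificationIdx' (maximalIdeal R) P.1) :=
    AlgEquiv.ofLinearEquiv e (map_one (Ideal.Factors.piQuotientEquiv (maximalIdeal R) hp))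
      (fun x y => map_mul (Ideal.Factors.piQuotientEquiv (maximalIdeal R) hp) x y)
  rw [← Algebra.norm_eq_of_algEquiv E]
  have hE : E (Ideal.Quotient.mk _ g) = fun _ => Ideal.Quotient.mk _ g := rfl
  rw [hE, norm_pi_of_isNilpotent
    (fun P : (factors (Ideal.map (algebraMap R S) (maximalIdeal R))).toFinset =>
      S ⧸ (P : Ideal S) ^ Ideal.ramificationIdx' (maximalIdeal R) P.1) _
    (fun P => Ideal.Quotient.mk (maximalIdeal R) (a P.1))]
  · simp only [Ideal.Factors.finrank_pow_ramificationIdx]
    exact Finset.prod_coe_sort _ (fun Q => Ideal.Quotient.mk (maximalIdeal R) (a Q) ^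
      (Ideal.ramificationIdx' (maximalIdeal R) Q * Ideal.inertiaDeg' (maximalIdeal R) Q))
  · intro P
    refine ⟨Ideal.ramificationIdx' (maximalIdeal R) P.1, ?_⟩
    have h1 : (Ideal.Quotient.mk ((P : Ideal S) ^ Ideal.ramificationIdx' (maximalIdeal R) P.1) g -
        algebraMap (R ⧸ maximalIdeal R) _ (Ideal.Quotient.mk (maximalIdeal R) (a P.1))) =
        Ideal.Quotient.mk ((P : Ideal S) ^ Ideal.ramificationIdx' (maximalIdeal R) P.1)
          (g - algebraMap R S (a P.1)) := by
      rw [map_sub]
      rfl
    rw [h1, ← map_pow, Ideal.Quotient.eq_zero_iff_mem]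
    exact Ideal.pow_mem_pow (ha P.1 P.2) _

end Quotient

end Fermat.Agent.S37.NormRes
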