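import Fermat.Prelude.Def_AlgebraicCurve_Correspondence
import Fermat.Agent.S24.FFBasic
import Fermat.Agent.S37.EvalGal
import Fermat.Agent.S37.NormRes

/-!
# S37 (W4, Loc-2): the value of a norm at a place

`K` algebraically closed of characteristic zero, `F'/F` a finite extension of fields over `K`,
`P` a place of `F` of degree one and `g ∈ F'` regular at all places `w` of `F'` over `P`.  Then
`N_{F'/F} g` is regular at `P` and `(N g)(P) = ∏_{w ∣ P} g(w) ^ e(w)`.
-/

set_option autoImplicit false

open AlgebraicCurve IsDedekindDomain WithZero IsLocalRing UniqueFactorizationMonoid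

namespace Fermat.Agent.S37.NormValue

open Fermat.Agent.S24 Fermat.Agent.S37

variable {K F F' : Type*} [Field K] [IsAlgClosed K] [CharZero K] [Field F] [Field F']
  [Algebra K F] [Algebra K F'] [Algebra F F'] [IsScalarTower K F F'] [FiniteDimensional F F']

/-- **the value of a norm at a place**: `(N g)(P) = ∏_{w ∣ P} g(w) ^ e(w)`. -/
theorem ev_norm (P : Place K F) (hP : P.deg = 1) (S : Finset (Place K F'))
    (hS : ∀ w : Place K F', w ∈ S ↔ w.restrict F = P) (hdeg : ∀ w ∈ S, w.deg = 1) (g : F')
    (hg : ∀ w ∈ S, g ∈ w.toValuationSubring) :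
    ∃ hN : Algebra.norm F g ∈ P.toValuationSubring,
      EvalGal.ev P hP ⟨Algebra.norm F g, hN⟩
        = ∏ w ∈ S.attach, EvalGal.ev w.1 (hdeg w.1 w.2) ⟨g, hg w.1 w.2⟩
            ^ (w.1.ramificationIndex F) := by
  classical
  have hcharF : CharZero F := charZero_of_injective_algebraMap (algebraMap K F).injective
  have hsep : Algebra.IsSeparable F F' := inferInstance
  have hST2 : IsScalarTower K P.toValuationSubring F' :=
    IsScalarTower.of_algebraMap_eq fun k => by
      rw [IsScalarTower.algebraMap_apply K F F']
      rfl
  have hDed : IsDedekindDomain (integralClosure P.toValuationSubring F') :=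
    integralClosure.isDedekindDomain P.toValuationSubring F F'
  have hfrac : IsFractionRing (integralClosure P.toValuationSubring F') F' :=
    integralClosure.isFractionRing_of_finite_extension F F'
  have hfin : Module.Finite P.toValuationSubring (integralClosure P.toValuationSubring F') :=
    IsIntegralClosure.finite P.toValuationSubring F F' _
  have hST3 : IsScalarTower K P.toValuationSubring (integralClosure P.toValuationSubring F') :=
    IsScalarTower.of_algebraMap_eq fun k =>
      Subtype.ext (IsScalarTower.algebraMap_apply K P.toValuationSubring F' k)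
  have hinj : Function.Injective (algebraMap P.toValuationSubring
      (integralClosure P.toValuationSubring F')) := by
    intro a b hab
    have h1 := congrArg (algebraMap (integralClosure P.toValuationSubring F') F') hab
    rw [← IsScalarTower.algebraMap_apply, ← IsScalarTower.algebraMap_apply,
      IsScalarTower.algebraMap_apply P.toValuationSubring F F',
      IsScalarTower.algebraMap_apply P.toValuationSubring F F'] at h1
    exact Subtype.ext ((algebraMap F F').injective h1)
  have htf : Module.IsTorsionFree P.toValuationSubring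
      (integralClosure P.toValuationSubring F') := by
    have : FaithfulSMul P.toValuationSubring (integralClosure P.toValuationSubring F') :=
      (faithfulSMul_iff_algebraMap_injective _ _).mpr hinj
    infer_instance
  have hfree : Module.Free P.toValuationSubring (integralClosure P.toValuationSubring F') :=
    inferInstance
  -- the prime of `A = O_P`
  set m : Ideal P.toValuationSubring := maximalIdeal P.toValuationSubring with hm
  have hm0 : m ≠ ⊥ := P.heightOneSpectrum.ne_bot
  have hK : Function.Surjective (algebraMap K (P.toValuationSubring ⧸ m)) := by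
    intro y
    have h1 : Module.finrank K P.ResidueField = 1 := hP
    obtain ⟨c, hc⟩ := (finrank_eq_one_iff_of_nonzero' (1 : P.ResidueField) one_ne_zero).mp h1 y
    refine ⟨c, ?_⟩
    rw [← hc, Algebra.smul_def, mul_one]
    rfl
  have hmap0 : Ideal.map (algebraMap P.toValuationSubring
      (integralClosure P.toValuationSubring F')) m ≠ ⊥ := by
    rw [Ne, Ideal.map_eq_bot_iff_of_injective hinj]
    exact hm0
  have hmaxP : ∀ Q : Ideal (integralClosure P.toValuationSubring F'), Q.IsPrime → Q ≠ ⊥ →
      Q.under P.toValuationSubring = m := by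
    intro Q hQ hQ0
    have : Q.IsMaximal := hQ.isMaximal hQ0
    exact IsLocalRing.eq_maximalIdeal (Ideal.IsMaximal.under P.toValuationSubring Q)
  set T : Finset (Ideal (integralClosure P.toValuationSubring F')) :=
    (factors (Ideal.map (algebraMap P.toValuationSubring
      (integralClosure P.toValuationSubring F')) m)).toFinset with hTdef
  have hTP : T = IsDedekindDomain.primesOverFinset m
      (integralClosure P.toValuationSubring F') := rfl
  have hT : ∀ Q : Ideal (integralClosure P.toValuationSubring F'),
      Q ∈ T ↔ Q.IsPrime ∧ Q ≠ ⊥ := by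
    intro Q
    rw [hTP, IsDedekindDomain.mem_primesOverFinset_iff hm0]
    constructor
    · rintro ⟨h1, h2⟩
      refine ⟨h1, ?_⟩
      rintro rfl
      apply hm0
      rw [h2.over]
      exact Ideal.comap_bot_of_injective _ hinj
    · rintro ⟨h1, h2⟩
      exact ⟨h1, ⟨(hmaxP Q h1 h2).symm⟩⟩
  -- places over `P` and primes of `B`
  have hover : ∀ Q : HeightOneSpectrum (integralClosure P.toValuationSubring F'),
      (Place.ofHeightOneSpectrum (K := K) (F := F') Q).restrict F = P := by
    intro Q
    refine (FFBasic.place_eq_of_le ?_).symm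
    intro x hx
    rw [Place.restrict_toValuationSubring, ValuationSubring.mem_comap,
      Place.ofHeightOneSpectrum_toValuationSubring, Valuation.mem_valuationSubring_iff]
    have hx' : algebraMap F F' x = algebraMap (integralClosure P.toValuationSubring F') F'
        (algebraMap P.toValuationSubring (integralClosure P.toValuationSubring F') ⟨x, hx⟩) := rfl
    rw [hx']
    exact Q.valuation_le_one _
  have hfrom : ∀ w : Place K F', w.restrict F = P →
      ∃ Q : HeightOneSpectrum (integralClosure P.toValuationSubring F'),
        Place.ofHeightOneSpectrum (K := K) (F := F') Q = w := by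
    intro w hw
    refine FFBasic.exists_heightOneSpectrum_eq w fun b => ?_
    refine FFBasic.mem_of_isIntegral w (R := P.toValuationSubring) (fun r => ?_) b.2
    have hr : (r : F) ∈ (w.restrict F).toValuationSubring := hw ▸ r.2
    exact hr
  -- `g` lies in `B`
  obtain ⟨gB, hgB⟩ : ∃ gB : integralClosure P.toValuationSubring F',
      algebraMap (integralClosure P.toValuationSubring F') F' gB = g := by
    have h := HeightOneSpectrum.mem_integers_of_valuation_le_one
      (R := integralClosure P.toValuationSubring F') F' g (fun Q => by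
        have hw : Place.ofHeightOneSpectrum (K := K) (F := F') Q ∈ S := (hS _).mpr (hover Q)
        have h1 := hg _ hw
        rwa [Place.ofHeightOneSpectrum_toValuationSubring,
          Valuation.mem_valuationSubring_iff] at h1)
    exact h
  -- the values
  let c : Place K F' → K := fun w =>
    if h : w ∈ S then EvalGal.ev w (hdeg w h) ⟨g, hg w h⟩ else 0
  let a : Ideal (integralClosure P.toValuationSubring F') → P.toValuationSubring := fun Q =>
    if h : Q.IsPrime ∧ Q ≠ ⊥ then
      algebraMap K P.toValuationSubring
        (c (Place.ofHeightOneSpectrum (K := K) (F := F') ⟨Q, h.1, h.2⟩))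
    else 0
  have haQ : ∀ (Q : Ideal (integralClosure P.toValuationSubring F')) (h : Q.IsPrime ∧ Q ≠ ⊥),
      a Q = algebraMap K P.toValuationSubring
        (c (Place.ofHeightOneSpectrum (K := K) (F := F') ⟨Q, h.1, h.2⟩)) := by
    intro Q h
    simp only [a, dif_pos h]
  have hcw : ∀ (w : Place K F') (h : w ∈ S), c w = EvalGal.ev w (hdeg w h) ⟨g, hg w h⟩ := by
    intro w h
    simp only [c, dif_pos h]
  have ha : ∀ Q ∈ T, gB - algebraMap P.toValuationSubring
      (integralClosure P.toValuationSubring F') (a Q) ∈ Q := by
    intro Q hQ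
    have hQ' := (hT Q).mp hQ
    have hwS : Place.ofHeightOneSpectrum (K := K) (F := F') ⟨Q, hQ'.1, hQ'.2⟩ ∈ S :=
      (hS _).mpr (hover _)
    rw [haQ Q hQ', hcw _ hwS]
    set c0 := EvalGal.ev (Place.ofHeightOneSpectrum (K := K) (F := F') ⟨Q, hQ'.1, hQ'.2⟩)
      (hdeg _ hwS) ⟨g, hg _ hwS⟩ with hc0
    have h2 : algebraMap (integralClosure P.toValuationSubring F') F'
        (gB - algebraMap P.toValuationSubring (integralClosure P.toValuationSubring F')
          (algebraMap K P.toValuationSubring c0)) = g - algebraMap K F' c0 := by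
      rw [map_sub, hgB, ← IsScalarTower.algebraMap_apply K P.toValuationSubring
        (integralClosure P.toValuationSubring F'), ← IsScalarTower.algebraMap_apply K
        (integralClosure P.toValuationSubring F') F']
    by_cases hx0 : gB - algebraMap P.toValuationSubring (integralClosure P.toValuationSubring F')
        (algebraMap K P.toValuationSubring c0) = 0
    · rw [hx0]
      exact zero_mem _
    · have h1 := (EvalGal.ev_eq_iff_ord (Place.ofHeightOneSpectrum (K := K) (F := F')
        ⟨Q, hQ'.1, hQ'.2⟩) (hdeg _ hwS) ⟨g, hg _ hwS⟩ c0).mp rfl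
      rcases h1 with h1 | h1
      · exfalso
        apply hx0
        apply IsFractionRing.injective (integralClosure P.toValuationSubring F') F'
        rw [h2, map_zero]
        exact sub_eq_zero.mpr h1
      · exact (FFBasic.ord_algebraMap_pos_iff (K := K) (F := F')
          (⟨Q, hQ'.1, hQ'.2⟩ : HeightOneSpectrum (integralClosure P.toValuationSubring F'))
          hx0).mp (by rw [h2]; exact h1)
  have hmain := NormRes.mk_norm_eq_prod hmap0 gB a ha
  -- the norm
  have hNeq : algebraMap P.toValuationSubring F (Algebra.norm P.toValuationSubring gB)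
      = Algebra.norm F g := by
    rw [← Algebra.intNorm_eq_norm, Algebra.algebraMap_intNorm (A := P.toValuationSubring)
      (K := F) (L := F') (B := integralClosure P.toValuationSubring F') gB, hgB]
  have hN : Algebra.norm F g ∈ P.toValuationSubring :=
    hNeq ▸ (Algebra.norm P.toValuationSubring gB).2
  refine ⟨hN, ?_⟩
  have hNsub : (⟨Algebra.norm F g, hN⟩ : P.toValuationSubring)
      = Algebra.norm P.toValuationSubring gB := Subtype.ext hNeq.symm
  have hphi : ∏ w ∈ S.attach, EvalGal.ev w.1 (hdeg w.1 w.2) ⟨g, hg w.1 w.2⟩
        ^ (w.1.ramificationIndex F) = ∏ w ∈ S, c w ^ (w.ramificationIndex F) := by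
    rw [← Finset.prod_attach S]
    refine Finset.prod_congr rfl fun w _ => ?_
    rw [hcw w.1 w.2]
  rw [hNsub, hphi, EvalGal.ev_eq_iff, ← hm, ← Ideal.Quotient.eq, hmain, map_prod, map_prod]
  -- a uniformizer of `A`
  obtain ⟨π, hπ⟩ := IsDiscreteValuationRing.exists_irreducible P.toValuationSubring
  have hπ1 : P.ord (π : F) = 1 := P.ord_coe_irreducible hπ
  have hπB0 : algebraMap P.toValuationSubring (integralClosure P.toValuationSubring F') π ≠ 0 := by
    intro h0
    exact hπ.ne_zero (hinj (by rw [h0, map_zero]))
  have hmapπ : Ideal.map (algebraMap P.toValuationSubring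
      (integralClosure P.toValuationSubring F')) m
      = Ideal.span {algebraMap P.toValuationSubring (integralClosure P.toValuationSubring F') π} := by
    rw [hm, hπ.maximalIdeal_eq, Ideal.map_span, Set.image_singleton]
  refine Finset.prod_bij (fun Q hQ => Place.ofHeightOneSpectrum (K := K) (F := F')
    ⟨Q, ((hT Q).mp hQ).1, ((hT Q).mp hQ).2⟩) ?_ ?_ ?_ ?_
  · intro Q hQ
    exact (hS _).mpr (hover _)
  · intro Q₁ h₁ Q₂ h₂ h
    exact congrArg HeightOneSpectrum.asIdeal (FFBasic.ofHeightOneSpectrum_injective h)
  · intro w hw
    obtain ⟨Q, rfl⟩ := hfrom w ((hS w).mp hw)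
    exact ⟨Q.asIdeal, (hT _).mpr ⟨Q.isPrime, Q.ne_bot⟩, rfl⟩
  · intro Q hQ
    have hQ' := (hT Q).mp hQ
    have hlies : Q.LiesOver m := ⟨(hmaxP Q hQ'.1 hQ'.2).symm⟩
    have hQp : Q.IsPrime := hQ'.1
    have hf : Ideal.inertiaDeg' m Q = 1 := by
      rw [Ideal.inertiaDeg'_algebraMap]
      exact FFBasic.finrank_quotient_eq_one m Q hK
    have he : Ideal.ramificationIdx' m Q
        = (Place.ofHeightOneSpectrum (K := K) (F := F')
            (⟨Q, hQ'.1, hQ'.2⟩ : HeightOneSpectrum (integralClosure P.toValuationSubring F'))
            ).ramificationIndex F := by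
      set w := Place.ofHeightOneSpectrum (K := K) (F := F')
        (⟨Q, hQ'.1, hQ'.2⟩ : HeightOneSpectrum (integralClosure P.toValuationSubring F'))
        with hw
      have hord : w.ord (algebraMap (integralClosure P.toValuationSubring F') F'
          (algebraMap P.toValuationSubring (integralClosure P.toValuationSubring F') π))
          = (w.ramificationIndex F : ℤ) := by
        have h3 : algebraMap (integralClosure P.toValuationSubring F') F'
            (algebraMap P.toValuationSubring (integralClosure P.toValuationSubring F') π)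
            = algebraMap F F' (π : F) := rfl
        rw [h3, w.ord_restrict, hover, hπ1, mul_one]
      have hval : (⟨Q, hQ'.1, hQ'.2⟩ : HeightOneSpectrum
          (integralClosure P.toValuationSubring F')).intValuation
          (algebraMap P.toValuationSubring (integralClosure P.toValuationSubring F') π)
          = exp (-(w.ramificationIndex F : ℤ)) := by
        have h4 := FFBasic.ord_algebraMap_eq (K := K) (F := F')
          (⟨Q, hQ'.1, hQ'.2⟩ : HeightOneSpectrum (integralClosure P.toValuationSubring F'))
          (algebraMap P.toValuationSubring (integralClosure P.toValuationSubring F') π)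
        rw [← hw, hord] at h4
        rw [h4, neg_neg, exp_log]
        exact HeightOneSpectrum.intValuation_ne_zero _ _ hπB0
      apply Ideal.ramificationIdx'_spec
      · rw [hmapπ, Ideal.span_singleton_le_iff_mem]
        exact (HeightOneSpectrum.intValuation_le_pow_iff_mem (⟨Q, hQ'.1, hQ'.2⟩ :
          HeightOneSpectrum (integralClosure P.toValuationSubring F')) _ _).mp (by rw [hval])
      · rw [hmapπ, Ideal.span_singleton_le_iff_mem]
        intro hcon
        have h5 := (HeightOneSpectrum.intValuation_le_pow_iff_mem (⟨Q, hQ'.1, hQ'.2⟩ :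
          HeightOneSpectrum (integralClosure P.toValuationSubring F')) _ _).mpr hcon
        rw [hval, exp_le_exp] at h5
        push_cast at h5
        omega
    rw [hf, mul_one, he, haQ Q hQ', map_pow, map_pow]

/-- the evaluated characteristic polynomial: `(N (g - c))(P) = ∏_{w ∣ P} (g(w) - c) ^ e(w)` for
every constant `c`. -/
theorem ev_norm_sub_const (P : Place K F) (hP : P.deg = 1) (S : Finset (Place K F'))
    (hS : ∀ w : Place K F', w ∈ S ↔ w.restrict F = P) (hdeg : ∀ w ∈ S, w.deg = 1) (g : F')
    (hg : ∀ w ∈ S, g ∈ w.toValuationSubring) (c : K) :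
    ∃ hN : Algebra.norm F (g - algebraMap K F' c) ∈ P.toValuationSubring,
      EvalGal.ev P hP ⟨Algebra.norm F (g - algebraMap K F' c), hN⟩
        = ∏ w ∈ S.attach, (EvalGal.ev w.1 (hdeg w.1 w.2) ⟨g, hg w.1 w.2⟩ - c)
            ^ (w.1.ramificationIndex F) := by
  have hg' : ∀ w ∈ S, g - algebraMap K F' c ∈ w.toValuationSubring := fun w hw =>
    sub_mem (hg w hw) (w.algebraMap_mem' c)
  obtain ⟨hN, h⟩ := ev_norm P hP S hS hdeg (g - algebraMap K F' c) hg'
  refine ⟨hN, ?_⟩
  rw [h]
  refine Finset.prod_congr rfl fun w _ => ?_
  have h1 : (⟨g - algebraMap K F' c, hg' w.1 w.2⟩ : w.1.toValuationSubring)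
      = ⟨g, hg w.1 w.2⟩ - algebraMap K w.1.toValuationSubring c := Subtype.ext rfl
  rw [h1, map_sub, EvalGal.ev_algebraMap]

section Along

variable [HasPrincipalDivisors K F'] (φ : F →ₐ[K] F') (hφ : φ.toRingHom.IsIntegral)

omit [Algebra F F'] [IsScalarTower K F F'] [FiniteDimensional F F'] in
/-- the value of a norm at a place, along a `K`-algebra homomorphism. -/
theorem ev_norm_along (hfin : FiniteAlong K φ) (P : Place K F) (hP : P.deg = 1)
    (hdeg : ∀ w ∈ Place.fiberAlong φ hφ P, w.deg = 1) (g : F')
    (hg : ∀ w ∈ Place.fiberAlong φ hφ P, g ∈ w.toValuationSubring) :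
    letI := algebraAlong φ
    ∃ hN : Algebra.norm F g ∈ P.toValuationSubring,
      EvalGal.ev P hP ⟨Algebra.norm F g, hN⟩
        = ∏ w ∈ (Place.fiberAlong φ hφ P).attach,
            EvalGal.ev w.1 (hdeg w.1 w.2) ⟨g, hg w.1 w.2⟩ ^ (w.1.ramificationIndexAlong φ) := by
  letI := algebraAlong φ
  haveI := isScalarTower_along φ
  haveI : Module.Finite F F' := hfin
  exact ev_norm P hP (Place.fiberAlong φ hφ P) (fun w => Place.mem_fiberAlong) hdeg g hg

omit [Algebra F F'] [IsScalarTower K F F'] [FiniteDimensional F F'] in
/-- the evaluated characteristic polynomial, along a `K`-algebra homomorphism. -/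
theorem ev_norm_sub_const_along (hfin : FiniteAlong K φ) (P : Place K F) (hP : P.deg = 1)
    (hdeg : ∀ w ∈ Place.fiberAlong φ hφ P, w.deg = 1) (g : F')
    (hg : ∀ w ∈ Place.fiberAlong φ hφ P, g ∈ w.toValuationSubring) (c : K) :
    letI := algebraAlong φ
    ∃ hN : Algebra.norm F (g - algebraMap K F' c) ∈ P.toValuationSubring,
      EvalGal.ev P hP ⟨Algebra.norm F (g - algebraMap K F' c), hN⟩
        = ∏ w ∈ (Place.fiberAlong φ hφ P).attach,
            (EvalGal.ev w.1 (hdeg w.1 w.2) ⟨g, hg w.1 w.2⟩ - c)
              ^ (w.1.ramificationIndexAlong φ) := by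
  letI := algebraAlong φ
  haveI := isScalarTower_along φ
  haveI : Module.Finite F F' := hfin
  exact ev_norm_sub_const P hP (Place.fiberAlong φ hφ P) (fun w => Place.mem_fiberAlong) hdeg g
    hg c

end Along

end Fermat.Agent.S37.NormValue
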