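import Mathlib
import Fermat.Agent.S37.EvalInt
import Fermat.Agent.S37.RedPlace

/-!
# S37, block (W2): adapter between `RedPlace` and the `EvalInt` vocabulary

* `isIntegral_adjoin_iff` : `f` is integral over `Algebra.adjoin ↥A {t}` iff it is an integral
  element for the chart `EvalInt.chartHom A t : A[X] → F` (generic in `K`, `F`).
* `chart_eq` : `RedPlace.chart A N b = EvalInt.chartInt A (RedPlace.coord N b)`.
* the value `RedPlace.val` in the `nonunits` vocabulary:
  `mem_Rint_iff_exists`, `val_eq_of_sub_mem_nonunits`, `val_eq_iff`, `isFin_iff_exists`,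
  `not_isFin_iff_exists` (the chart at infinity: `j⁻¹(P) ∈ 𝔪_A`), `coord_mem_Rint`,
  `chart_le_Rint`, `val_eq_chi` (on the chart, `RedPlace.val` is `EvalInt.chi`).
-/

set_option autoImplicit false

noncomputable section

open AlgebraicCurve ModularCurve Polynomial
open Fermat.Agent.S18.S24Export Fermat.Agent.S37.EvalGal

namespace Fermat.Agent.S37.ChartAdapt

/-! ### Generic: the two forms of "integral over `A[t]`" -/

section Generic

variable {K F : Type*} [Field K] [Field F] [Algebra K F] (A : ValuationSubring K) (t : F)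

/-- the generator `t` of `A[t]`. -/
def gen : ↥(Algebra.adjoin ↥A ({t} : Set F)) := ⟨t, Algebra.subset_adjoin rfl⟩

/-- `A[X] → A[t]`, `X ↦ t`. -/
def toAdjoin : Polynomial ↥A →+* ↥(Algebra.adjoin ↥A ({t} : Set F)) :=
  (Polynomial.aeval (gen A t)).toRingHom

theorem coe_toAdjoin (p : Polynomial ↥A) :
    ((toAdjoin A t p : ↥(Algebra.adjoin ↥A ({t} : Set F))) : F) = EvalInt.chartHom A t p :=
  (Subalgebra.aeval_coe (Algebra.adjoin ↥A ({t} : Set F)) (gen A t) p).symm

theorem algebraMap_comp_toAdjoin :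
    (algebraMap ↥(Algebra.adjoin ↥A ({t} : Set F)) F).comp (toAdjoin A t) =
      EvalInt.chartHom A t :=
  RingHom.ext fun p => coe_toAdjoin A t p

theorem toAdjoin_surjective : Function.Surjective (toAdjoin A t) := by
  rintro ⟨s, hs⟩
  rw [Algebra.adjoin_singleton_eq_range_aeval] at hs
  obtain ⟨p, hp⟩ := hs
  refine ⟨p, Subtype.ext ?_⟩
  rw [coe_toAdjoin]
  exact hp

/-- **The two forms of "integral over `A[t]`" agree.** -/
theorem isIntegral_adjoin_iff (f : F) :
    IsIntegral (Algebra.adjoin ↥A ({t} : Set F)) f ↔ (EvalInt.chartHom A t).IsIntegralElem f := by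
  constructor
  · rintro ⟨p, hp, hpf⟩
    obtain ⟨q, hq, -, hqm⟩ := Polynomial.lifts_and_degree_eq_and_monic
      ((Polynomial.mem_lifts p).mpr (Polynomial.map_surjective _ (toAdjoin_surjective A t) p)) hp
    refine ⟨q, hqm, ?_⟩
    rw [← algebraMap_comp_toAdjoin, ← Polynomial.eval₂_map, hq]
    exact hpf
  · rintro ⟨q, hq, hqf⟩
    refine ⟨q.map (toAdjoin A t), hq.map _, ?_⟩
    rw [Polynomial.eval₂_map, algebraMap_comp_toAdjoin]
    exact hqf

omit [Field K] [Algebra K F] in
/-- the nonunits of a valuation subring absorb multiplication. -/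
theorem mul_mem_nonunits (V : ValuationSubring F) {x y : F} (hx : x ∈ V.nonunits) (hy : y ∈ V) :
    x * y ∈ V.nonunits := by
  have hx' : x ∈ V := ValuationSubring.nonunits_subset hx
  have h1 : (⟨x, hx'⟩ : ↥V) ∈ IsLocalRing.maximalIdeal ↥V :=
    ValuationSubring.coe_mem_nonunits_iff.mp hx
  have h2 : (⟨x, hx'⟩ : ↥V) * (⟨y, hy⟩ : ↥V) ∈ IsLocalRing.maximalIdeal ↥V :=
    Ideal.mul_mem_right _ _ h1
  exact ValuationSubring.coe_mem_nonunits_iff.mpr h2

theorem integralClosure_adjoin_toSubring :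
    (integralClosure (Algebra.adjoin ↥A ({t} : Set F)) F).toSubring = EvalInt.chartInt A t :=
  Subring.ext fun f => isIntegral_adjoin_iff A t f

end Generic

/-! ### The charts of `RedPlace` -/

local notation "Qb" => AlgebraicClosure ℚ

variable (A : ValuationSubring Qb) (N : ℕ) [NeZero N]

omit [NeZero N] in
/-- **The chart ring of `RedPlace` is the `EvalInt` chart ring.** -/
theorem chart_eq (b : Bool) :
    RedPlace.chart A N b = EvalInt.chartInt A (RedPlace.coord N b) :=
  integralClosure_adjoin_toSubring A (RedPlace.coord N b)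

omit [NeZero N] in
theorem mem_chart_iff_chartInt (b : Bool) (x : FL N) :
    x ∈ RedPlace.chart A N b ↔ x ∈ EvalInt.chartInt A (RedPlace.coord N b) := by
  rw [chart_eq]

omit [NeZero N] in
theorem mem_chart_iff_isIntegralElem (b : Bool) (x : FL N) :
    x ∈ RedPlace.chart A N b ↔ (EvalInt.chartHom A (RedPlace.coord N b)).IsIntegralElem x :=
  mem_chart_iff_chartInt A N b x

omit [NeZero N] in
theorem coord_mem_chart (b : Bool) : RedPlace.coord N b ∈ RedPlace.chart A N b := by
  rw [chart_eq]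
  exact EvalInt.self_mem_chartInt A _

omit [NeZero N] in
theorem algebraMap_mem_chart (b : Bool) (a : ↥A) :
    algebraMap Qb (FL N) (a : Qb) ∈ RedPlace.chart A N b := by
  rw [chart_eq]
  exact EvalInt.algebraMap_mem_chartInt A _ a

/-! ### `Rint` and `val` in the `nonunits` vocabulary -/

variable (P : Place Qb (FL N))

theorem evL_eq_ev (x : ↥P.toValuationSubring) : evL P x = ev P (deg_eq_one N P) x := rfl

/-- `x - a` vanishes at `P` for some `a ∈ A` iff `x` is regular at `P` with value in `A`. -/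
theorem mem_Rint_iff_exists (x : FL N) :
    x ∈ RedPlace.Rint A N P ↔
      ∃ a : ↥A, x - algebraMap Qb (FL N) (a : Qb) ∈ P.toValuationSubring.nonunits := by
  constructor
  · rintro ⟨hx, hA⟩
    exact ⟨⟨_, hA⟩, (EvalInt.sub_mem_nonunits_iff_ev P (deg_eq_one N P) x hx _).mpr rfl⟩
  · rintro ⟨a, ha⟩
    refine ⟨EvalInt.mem_of_sub_mem_nonunits P ha, ?_⟩
    have h := EvalInt.ev_eq_of_sub_mem_nonunits P (deg_eq_one N P) ha
    rw [evL_eq_ev, h]
    exact a.2

theorem mem_Rint_of_sub_mem_nonunits {x : FL N} (a : ↥A)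
    (h : x - algebraMap Qb (FL N) (a : Qb) ∈ P.toValuationSubring.nonunits) :
    x ∈ RedPlace.Rint A N P :=
  (mem_Rint_iff_exists A N P x).mpr ⟨a, h⟩

/-- **`val` from the `nonunits` form of the value.** -/
theorem val_eq_of_sub_mem_nonunits {x : FL N} (a : ↥A)
    (h : x - algebraMap Qb (FL N) (a : Qb) ∈ P.toValuationSubring.nonunits) :
    RedPlace.val A N P x = IsLocalRing.residue ↥A a := by
  rw [RedPlace.val_of_mem_Rint A N P (mem_Rint_of_sub_mem_nonunits A N P a h)]
  congr 1
  apply Subtype.ext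
  exact EvalInt.ev_eq_of_sub_mem_nonunits P (deg_eq_one N P) h

/-- `val` on `Rint`, as an `iff`. -/
theorem val_eq_iff {x : FL N} (hx : x ∈ RedPlace.Rint A N P) (c : IsLocalRing.ResidueField ↥A) :
    RedPlace.val A N P x = c ↔
      ∃ a : ↥A, x - algebraMap Qb (FL N) (a : Qb) ∈ P.toValuationSubring.nonunits ∧
        IsLocalRing.residue ↥A a = c := by
  constructor
  · intro h
    obtain ⟨a, ha⟩ := (mem_Rint_iff_exists A N P x).mp hx
    exact ⟨a, ha, by rw [← val_eq_of_sub_mem_nonunits A N P a ha, h]⟩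
  · rintro ⟨a, ha, rfl⟩
    exact val_eq_of_sub_mem_nonunits A N P a ha

/-- `val x = 0` on `Rint`: the value of `x` at `P` lies in `𝔪_A`. -/
theorem val_eq_zero_iff {x : FL N} (hx : x ∈ RedPlace.Rint A N P) :
    RedPlace.val A N P x = 0 ↔
      ∃ a : ↥A, x - algebraMap Qb (FL N) (a : Qb) ∈ P.toValuationSubring.nonunits ∧
        a ∈ IsLocalRing.maximalIdeal ↥A := by
  rw [val_eq_iff A N P hx]
  constructor
  · rintro ⟨a, ha, h0⟩
    exact ⟨a, ha, (IsLocalRing.residue_eq_zero_iff a).mp h0⟩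
  · rintro ⟨a, ha, h0⟩
    exact ⟨a, ha, (IsLocalRing.residue_eq_zero_iff a).mpr h0⟩

/-- the finite chart: `j(P) ∈ A`. -/
theorem isFin_iff_exists :
    RedPlace.IsFin A N P ↔
      ∃ a₀ : ↥A, jL N - algebraMap Qb (FL N) (a₀ : Qb) ∈ P.toValuationSubring.nonunits :=
  mem_Rint_iff_exists A N P (jL N)

/-- the chart at infinity: `j⁻¹(P) ∈ 𝔪_A`. -/
theorem not_isFin_iff_exists :
    ¬ RedPlace.IsFin A N P ↔
      ∃ a₀ : ↥A, a₀ ∈ IsLocalRing.maximalIdeal ↥A ∧
        (jL N)⁻¹ - algebraMap Qb (FL N) (a₀ : Qb) ∈ P.toValuationSubring.nonunits := by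
  have hj : jL N ≠ 0 := jL_ne_zero N
  constructor
  · intro hfin
    by_cases hjP : jL N ∈ P.toValuationSubring
    · -- `j` regular at `P` with value `c ∉ A`
      set c : Qb := ev P (deg_eq_one N P) ⟨jL N, hjP⟩ with hc
      have hcA : c ∉ A := fun h => hfin ⟨hjP, h⟩
      have hc0 : c ≠ 0 := fun h => hcA (h ▸ A.zero_mem)
      have hcinv : c⁻¹ ∈ A := (A.mem_or_inv_mem c).resolve_left hcA
      have hjc : jL N - algebraMap Qb (FL N) c ∈ P.toValuationSubring.nonunits :=
        (EvalInt.sub_mem_nonunits_iff_ev P (deg_eq_one N P) (jL N) hjP c).mpr rfl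
      have hjunit : (jL N)⁻¹ ∈ P.toValuationSubring := by
        by_contra hni
        have hjn : jL N ∈ P.toValuationSubring.nonunits :=
          (ValuationSubring.mem_nonunits_iff_or _).mpr (Or.inr hni)
        have h1 : algebraMap Qb (FL N) c ∈ P.toValuationSubring.nonunits := by
          have := sub_mem hjn hjc
          rwa [sub_sub_cancel] at this
        rcases (ValuationSubring.mem_nonunits_iff_or _).mp h1 with h0 | h0
        · exact hc0 ((map_eq_zero _).mp h0)
        · apply h0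
          rw [← map_inv₀]
          exact P.algebraMap_mem' _
      refine ⟨⟨c⁻¹, hcinv⟩, ?_, ?_⟩
      · rw [← ValuationSubring.coe_mem_nonunits_iff]
        exact (ValuationSubring.inv_mem_nonunits_iff A).mpr (Or.inr hcA)
      · -- `j⁻¹ - c⁻¹ = (j - c) * (-(j⁻¹ * c⁻¹))`
        have hid : (jL N)⁻¹ - algebraMap Qb (FL N) c⁻¹ =
            (jL N - algebraMap Qb (FL N) c) * (-((jL N)⁻¹ * algebraMap Qb (FL N) c⁻¹)) := by
          have hc' : algebraMap Qb (FL N) c ≠ 0 := (_root_.map_ne_zero _).mpr hc0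
          rw [map_inv₀]
          field_simp
          ring
        show (jL N)⁻¹ - algebraMap Qb (FL N) c⁻¹ ∈ P.toValuationSubring.nonunits
        rw [hid]
        have hmem : -((jL N)⁻¹ * algebraMap Qb (FL N) c⁻¹) ∈ P.toValuationSubring :=
          neg_mem (mul_mem hjunit (P.algebraMap_mem' _))
        exact mul_mem_nonunits _ hjc hmem
    · -- `j` has a pole at `P`: `j⁻¹(P) = 0`
      refine ⟨0, zero_mem _, ?_⟩
      have h0 : ((0 : ↥A) : Qb) = 0 := rfl
      rw [h0, map_zero, sub_zero]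
      refine (ValuationSubring.mem_nonunits_iff_or _).mpr (Or.inr ?_)
      rwa [inv_inv]
  · rintro ⟨a₀, ha₀, h⟩ hfin
    obtain ⟨c, hc⟩ := (isFin_iff_exists A N P).mp hfin
    -- values multiply: `1 = j * j⁻¹` has value `c * a₀`
    have hjP : jL N ∈ P.toValuationSubring := EvalInt.mem_of_sub_mem_nonunits P hc
    have hiP : (jL N)⁻¹ ∈ P.toValuationSubring := EvalInt.mem_of_sub_mem_nonunits P h
    have e1 := EvalInt.ev_eq_of_sub_mem_nonunits P (deg_eq_one N P) hc
    have e2 := EvalInt.ev_eq_of_sub_mem_nonunits P (deg_eq_one N P) h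
    have hmul : (⟨jL N, hjP⟩ : ↥P.toValuationSubring) * ⟨(jL N)⁻¹, hiP⟩ = 1 :=
      Subtype.ext (mul_inv_cancel₀ hj)
    have e3 := congrArg (ev P (deg_eq_one N P)) hmul
    rw [map_mul, map_one, e1, e2] at e3
    have e4 : c * a₀ = 1 := Subtype.ext e3
    rw [IsLocalRing.mem_maximalIdeal, mem_nonunits_iff] at ha₀
    exact ha₀ (IsUnit.of_mul_eq_one c (by rw [mul_comm]; exact e4))

/-- every place lies on its own chart: the chart coordinate has its value in `A`. -/
theorem exists_coord_value :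
    ∃ a₀ : ↥A, RedPlace.coord N (RedPlace.flag A N P) - algebraMap Qb (FL N) (a₀ : Qb) ∈
      P.toValuationSubring.nonunits := by
  by_cases hfin : RedPlace.IsFin A N P
  · rw [(RedPlace.flag_eq_true_iff A N P).mpr hfin]
    exact (isFin_iff_exists A N P).mp hfin
  · rw [(RedPlace.flag_eq_false_iff A N P).mpr hfin]
    obtain ⟨a₀, -, h⟩ := (not_isFin_iff_exists A N P).mp hfin
    exact ⟨a₀, h⟩

theorem coord_mem_Rint : RedPlace.coord N (RedPlace.flag A N P) ∈ RedPlace.Rint A N P :=
  (mem_Rint_iff_exists A N P _).mpr (exists_coord_value A N P)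

/-- **chart elements are regular at every place of the chart, with value in `A`.** -/
theorem mem_Rint_of_mem_chart {b : Bool} (a₀ : ↥A)
    (ht : RedPlace.coord N b - algebraMap Qb (FL N) (a₀ : Qb) ∈ P.toValuationSubring.nonunits)
    {x : FL N} (hx : x ∈ RedPlace.chart A N b) : x ∈ RedPlace.Rint A N P := by
  rw [mem_chart_iff_isIntegralElem] at hx
  exact (mem_Rint_iff_exists A N P x).mpr
    (EvalInt.exists_sub_mem_nonunits A P _ (deg_eq_one N P) a₀ ht hx)

/-- the chart ring of a place's own chart lies in `Rint`. -/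
theorem chart_le_Rint : RedPlace.chart A N (RedPlace.flag A N P) ≤ RedPlace.Rint A N P := by
  obtain ⟨a₀, ht⟩ := exists_coord_value A N P
  exact fun x hx => mem_Rint_of_mem_chart A N P a₀ ht hx

/-- **On the chart, `RedPlace.val` is the `EvalInt` character.** -/
theorem val_eq_chi {b : Bool} (a₀ : ↥A)
    (ht : RedPlace.coord N b - algebraMap Qb (FL N) (a₀ : Qb) ∈ P.toValuationSubring.nonunits)
    (x : ↥(EvalInt.chartInt A (RedPlace.coord N b))) :
    RedPlace.val A N P (x : FL N) =
      EvalInt.chi A (RedPlace.coord N b) P (deg_eq_one N P) a₀ ht x := by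
  rw [EvalInt.chi_apply]
  exact val_eq_of_sub_mem_nonunits A N P _
    (EvalInt.sub_evInt_mem_nonunits A _ P (deg_eq_one N P) a₀ ht x)

/-- `RedPlace.chi` of a place on its own chart, via `EvalInt.chi`. -/
theorem chi_eq_chi (a₀ : ↥A)
    (ht : RedPlace.coord N (RedPlace.flag A N P) - algebraMap Qb (FL N) (a₀ : Qb) ∈
      P.toValuationSubring.nonunits)
    (x : ↥(EvalInt.chartInt A (RedPlace.coord N (RedPlace.flag A N P)))) :
    RedPlace.chi A N P (x : FL N) =
      EvalInt.chi A (RedPlace.coord N (RedPlace.flag A N P)) P (deg_eq_one N P) a₀ ht x := by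
  rw [RedPlace.chi_of_mem A N P _ ((mem_chart_iff_chartInt A N _ _).mpr x.2)]
  exact val_eq_chi A N P a₀ ht x

/-- the value of the chart coordinate at a place on the chart at infinity lies in `𝔪_A`. -/
theorem val_coord_eq_zero_of_not_isFin (hfin : ¬ RedPlace.IsFin A N P) :
    RedPlace.val A N P (jL N)⁻¹ = 0 := by
  obtain ⟨a₀, ha₀, h⟩ := (not_isFin_iff_exists A N P).mp hfin
  rw [val_eq_of_sub_mem_nonunits A N P a₀ h]
  exact (IsLocalRing.residue_eq_zero_iff a₀).mpr ha₀

end Fermat.Agent.S37.ChartAdapt
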