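import Mathlib
import Fermat.Agent.S37.ChartAdapt
import Fermat.Agent.S37.FibreConst

/-!
# S37, block (W2): the bridge between `RedPlace.r` and the relational chart characters

`RedPlace.r A N P = RedPlace.r A N P'` iff `P`, `P'` lie on the same `j`-chart
(`j(P) ∈ A`, resp. not) and have the same character on the chart ring, in the relational
form `FibreConst.SameChar` (values written `f - a ∈ 𝔪_P`).

* `sameChar_iff_val` : on a common chart, `SameChar` is equality of `RedPlace.val` on the chart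
  ring.
* `r_eq_iff` : the bridge (iff form).
* `sameChar_of_r_eq_fin`, `sameChar_of_r_eq_inf`, `inA_iff_of_r_eq` : the consumer forms.
-/

set_option autoImplicit false

noncomputable section

open AlgebraicCurve ModularCurve
open Fermat.Agent.S18.S24Export Fermat.Agent.S37.EvalGal

namespace Fermat.Agent.S37.RedBridge

local notation "Qb" => AlgebraicClosure ℚ

variable (A : ValuationSubring Qb) (N : ℕ) [NeZero N]

/-- On a common chart `b`, `SameChar` on the chart coordinate is equality of `RedPlace.val` on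
the chart ring. -/
theorem sameChar_iff_val (b : Bool) (P P' : Place Qb (FL N))
    (hP : RedPlace.flag A N P = b) (hP' : RedPlace.flag A N P' = b) :
    FibreConst.SameChar A (RedPlace.coord N b) P P' ↔
      ∀ x ∈ RedPlace.chart A N b, RedPlace.val A N P x = RedPlace.val A N P' x := by
  constructor
  · intro h x hx
    have hx1 : x ∈ RedPlace.Rint A N P := ChartAdapt.chart_le_Rint A N P (hP ▸ hx)
    have hx2 : x ∈ RedPlace.Rint A N P' := ChartAdapt.chart_le_Rint A N P' (hP' ▸ hx)
    obtain ⟨a, ha⟩ := (ChartAdapt.mem_Rint_iff_exists A N P x).mp hx1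
    obtain ⟨a', ha'⟩ := (ChartAdapt.mem_Rint_iff_exists A N P' x).mp hx2
    rw [ChartAdapt.val_eq_of_sub_mem_nonunits A N P a ha,
      ChartAdapt.val_eq_of_sub_mem_nonunits A N P' a' ha']
    exact h x ((ChartAdapt.mem_chart_iff_isIntegralElem A N b x).mp hx) a a' ha ha'
  · intro h f hf b₁ b₂ h₁ h₂
    have hx : f ∈ RedPlace.chart A N b := (ChartAdapt.mem_chart_iff_isIntegralElem A N b f).mpr hf
    have e := h f hx
    rwa [ChartAdapt.val_eq_of_sub_mem_nonunits A N P b₁ h₁,
      ChartAdapt.val_eq_of_sub_mem_nonunits A N P' b₂ h₂] at e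

/-- **The bridge**: equality of the coarse reductions in the relational vocabulary. -/
theorem r_eq_iff (P P' : Place Qb (FL N)) :
    RedPlace.r A N P = RedPlace.r A N P' ↔
      ((∃ a : ↥A, jL N - algebraMap Qb (FL N) (a : Qb) ∈ P.toValuationSubring.nonunits) ∧
        (∃ a : ↥A, jL N - algebraMap Qb (FL N) (a : Qb) ∈ P'.toValuationSubring.nonunits) ∧
        FibreConst.SameChar A (jL N) P P') ∨
      ((¬ ∃ a : ↥A, jL N - algebraMap Qb (FL N) (a : Qb) ∈ P.toValuationSubring.nonunits) ∧
        (¬ ∃ a : ↥A, jL N - algebraMap Qb (FL N) (a : Qb) ∈ P'.toValuationSubring.nonunits) ∧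
        FibreConst.SameChar A (jL N)⁻¹ P P') := by
  rw [RedPlace.r_eq_iff, ← ChartAdapt.isFin_iff_exists A N P, ← ChartAdapt.isFin_iff_exists A N P']
  constructor
  · rintro ⟨hflag, hval⟩
    by_cases hfin : RedPlace.IsFin A N P
    · have h1 : RedPlace.flag A N P = true := (RedPlace.flag_eq_true_iff A N P).mpr hfin
      have h2 : RedPlace.flag A N P' = true := hflag ▸ h1
      refine Or.inl ⟨hfin, (RedPlace.flag_eq_true_iff A N P').mp h2, ?_⟩
      have := (sameChar_iff_val A N true P P' h1 h2).mpr (fun x hx => hval x (h1 ▸ hx))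
      exact this
    · have h1 : RedPlace.flag A N P = false := (RedPlace.flag_eq_false_iff A N P).mpr hfin
      have h2 : RedPlace.flag A N P' = false := hflag ▸ h1
      refine Or.inr ⟨hfin, (RedPlace.flag_eq_false_iff A N P').mp h2, ?_⟩
      have := (sameChar_iff_val A N false P P' h1 h2).mpr (fun x hx => hval x (h1 ▸ hx))
      exact this
  · rintro (⟨hfin, hfin', hs⟩ | ⟨hfin, hfin', hs⟩)
    · have h1 : RedPlace.flag A N P = true := (RedPlace.flag_eq_true_iff A N P).mpr hfin
      have h2 : RedPlace.flag A N P' = true := (RedPlace.flag_eq_true_iff A N P').mpr hfin'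
      refine ⟨h1.trans h2.symm, fun x hx => ?_⟩
      exact (sameChar_iff_val A N true P P' h1 h2).mp hs x (h1 ▸ hx)
    · have h1 : RedPlace.flag A N P = false := (RedPlace.flag_eq_false_iff A N P).mpr hfin
      have h2 : RedPlace.flag A N P' = false := (RedPlace.flag_eq_false_iff A N P').mpr hfin'
      refine ⟨h1.trans h2.symm, fun x hx => ?_⟩
      exact (sameChar_iff_val A N false P P' h1 h2).mp hs x (h1 ▸ hx)

/-- Places with the same coarse reduction lie on the same `j`-chart. -/
theorem inA_iff_of_r_eq {P P' : Place Qb (FL N)} (h : RedPlace.r A N P = RedPlace.r A N P') :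
    (∃ a : ↥A, jL N - algebraMap Qb (FL N) (a : Qb) ∈ P.toValuationSubring.nonunits) ↔
      ∃ a : ↥A, jL N - algebraMap Qb (FL N) (a : Qb) ∈ P'.toValuationSubring.nonunits := by
  rcases (r_eq_iff A N P P').mp h with ⟨h1, h2, -⟩ | ⟨h1, h2, -⟩
  · exact ⟨fun _ => h2, fun _ => h1⟩
  · exact ⟨fun h' => absurd h' h1, fun h' => absurd h' h2⟩

/-- Same coarse reduction, on the finite chart: same character on `D_j`. -/
theorem sameChar_of_r_eq_fin {P P' : Place Qb (FL N)}
    (h : RedPlace.r A N P = RedPlace.r A N P')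
    (hP : ∃ a : ↥A, jL N - algebraMap Qb (FL N) (a : Qb) ∈ P.toValuationSubring.nonunits) :
    FibreConst.SameChar A (jL N) P P' := by
  rcases (r_eq_iff A N P P').mp h with ⟨-, -, h3⟩ | ⟨h1, -, -⟩
  · exact h3
  · exact absurd hP h1

/-- Same coarse reduction, on the chart at infinity: same character on `D_{1/j}`, and the value
of `1/j` lies in `𝔪_A` at both places. -/
theorem sameChar_of_r_eq_inf {P P' : Place Qb (FL N)}
    (h : RedPlace.r A N P = RedPlace.r A N P')
    (hP : ¬ ∃ a : ↥A, jL N - algebraMap Qb (FL N) (a : Qb) ∈ P.toValuationSubring.nonunits) :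
    FibreConst.SameChar A (jL N)⁻¹ P P' ∧
      (∃ a₀ : ↥A, a₀ ∈ IsLocalRing.maximalIdeal ↥A ∧
        (jL N)⁻¹ - algebraMap Qb (FL N) (a₀ : Qb) ∈ P.toValuationSubring.nonunits) ∧
      ∃ a₀ : ↥A, a₀ ∈ IsLocalRing.maximalIdeal ↥A ∧
        (jL N)⁻¹ - algebraMap Qb (FL N) (a₀ : Qb) ∈ P'.toValuationSubring.nonunits := by
  rcases (r_eq_iff A N P P').mp h with ⟨h1, -, -⟩ | ⟨h1, h2, h3⟩
  · exact absurd h1 hP
  · refine ⟨h3, ?_, ?_⟩
    · exact (ChartAdapt.not_isFin_iff_exists A N P).mp
        (fun hf => h1 ((ChartAdapt.isFin_iff_exists A N P).mp hf))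
    · exact (ChartAdapt.not_isFin_iff_exists A N P').mp
        (fun hf => h2 ((ChartAdapt.isFin_iff_exists A N P').mp hf))

/-- Every place is on one of the two charts: `j(P) ∈ A` or `j⁻¹(P) ∈ 𝔪_A`. -/
theorem inA_or (P : Place Qb (FL N)) :
    (∃ a : ↥A, jL N - algebraMap Qb (FL N) (a : Qb) ∈ P.toValuationSubring.nonunits) ∨
      ∃ a₀ : ↥A, a₀ ∈ IsLocalRing.maximalIdeal ↥A ∧
        (jL N)⁻¹ - algebraMap Qb (FL N) (a₀ : Qb) ∈ P.toValuationSubring.nonunits := by
  by_cases hfin : RedPlace.IsFin A N P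
  · exact Or.inl ((ChartAdapt.isFin_iff_exists A N P).mp hfin)
  · exact Or.inr ((ChartAdapt.not_isFin_iff_exists A N P).mp hfin)

end Fermat.Agent.S37.RedBridge
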