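import Mathlib
import Fermat.Prelude.Def_AlgebraicCurve_DivisorPushPull
import Fermat.Agent.S37.FibreConst
import Fermat.Agent.S37.NormValue
import Fermat.Agent.S37.RedBridge
import Fermat.Agent.S18.ResField

/-!
# S37, block (W2), cover chain: class sums of the pulled-back divisor

`F ⊆ F'` a finite extension of function fields over an algebraically closed field `K` of
characteristic zero, `A` a valuation subring of `K` with infinite residue field, `j : F`.

A divisor `E` of `F` which is zero-sum for a reduction map `r` whose classes are contained in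
the `j`-chart classes (same chart and same character of the chart ring, `JCls`) pulls back to a
divisor `E#` of `F'` all of whose class sums vanish, for every partition of the places of `F'`
which is coarser than the `j`-chart classes of `F'`:

* `sum_filter_eq_of_classes` : the combinatorial core (sums over unions of classes).
* `fibre_sum_eq` : the total ramification index of the places of a fibre lying in a union of
  classes depends only on the character of the base place (`FibreConst.sum_ramificationIndex_eq`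
  with `NormValue.ev_norm`).
* `pullback_class_sum_eq_zero`, `ord_class_sum_eq_zero` : the class sums of `E#`, resp. of
  the orders of (the image of) a function `h` with `div h = q • E`, vanish.
-/

set_option autoImplicit false

open AlgebraicCurve IsLocalRing

namespace Fermat.Agent.S37.CoverSum

open Fermat.Agent.S37.EvalGal Fermat.Agent.S37.EvalInt Fermat.Agent.S37.FibreConst

/-! ### Sums over unions of classes -/

open Classical in
/-- If two weighted finite sets have the same weight in every class of an equivalence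
relation, they have the same weight in every union of classes. -/
theorem sum_filter_eq_of_classes {X : Type*} (U S₁ S₂ : Finset X) (hS₁ : S₁ ⊆ U)
    (hS₂ : S₂ ⊆ U) (e : X → ℤ) (R : X → X → Prop) (hrefl : ∀ w ∈ U, R w w)
    (hsymm : ∀ w ∈ U, ∀ w' ∈ U, R w w' → R w' w)
    (htrans : ∀ w ∈ U, ∀ w' ∈ U, ∀ w'' ∈ U, R w w' → R w' w'' → R w w'')
    (hcls : ∀ w₁ ∈ U, ∑ w ∈ S₁ with R w w₁, e w = ∑ w ∈ S₂ with R w w₁, e w)
    (p : X → Prop) (hp : ∀ w ∈ U, ∀ w' ∈ U, R w w' → (p w ↔ p w')) :
    ∑ w ∈ S₁ with p w, e w = ∑ w ∈ S₂ with p w, e w := by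
  suffices H : ∀ (n : ℕ) (p : X → Prop), (∀ w ∈ U, ∀ w' ∈ U, R w w' → (p w ↔ p w')) →
      (U.filter p).card = n → ∑ w ∈ S₁ with p w, e w = ∑ w ∈ S₂ with p w, e w from
    H _ p hp rfl
  intro n
  induction n using Nat.strong_induction_on with
  | _ n ih =>
    intro p hp hn
    by_cases hemp : U.filter p = ∅
    · have h1 : S₁.filter p = ∅ := by
        rw [Finset.eq_empty_iff_forall_notMem] at hemp ⊢
        intro w hw
        rw [Finset.mem_filter] at hw
        exact hemp w (Finset.mem_filter.mpr ⟨hS₁ hw.1, hw.2⟩)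
      have h2 : S₂.filter p = ∅ := by
        rw [Finset.eq_empty_iff_forall_notMem] at hemp ⊢
        intro w hw
        rw [Finset.mem_filter] at hw
        exact hemp w (Finset.mem_filter.mpr ⟨hS₂ hw.1, hw.2⟩)
      rw [h1, h2]
    · obtain ⟨w₁, hw₁⟩ := Finset.nonempty_iff_ne_empty.mpr hemp
      rw [Finset.mem_filter] at hw₁
      obtain ⟨hw₁U, hpw₁⟩ := hw₁
      obtain ⟨p', hp'def⟩ : ∃ p' : X → Prop, ∀ w, p' w ↔ (p w ∧ ¬ R w w₁) :=
        ⟨fun w => p w ∧ ¬ R w w₁, fun _ => Iff.rfl⟩
      have hp' : ∀ w ∈ U, ∀ w' ∈ U, R w w' → (p' w ↔ p' w') := by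
        intro w hw w' hw' hR
        have h1 := hp w hw w' hw' hR
        have h2 : R w w₁ ↔ R w' w₁ :=
          ⟨fun h => htrans w' hw' w hw w₁ hw₁U (hsymm w hw w' hw' hR) h,
            fun h => htrans w hw w' hw' w₁ hw₁U hR h⟩
        rw [hp'def, hp'def, h1, h2]
      have hlt : (U.filter p').card < n := by
        rw [← hn]
        apply Finset.card_lt_card
        rw [Finset.ssubset_iff_of_subset]
        · refine ⟨w₁, Finset.mem_filter.mpr ⟨hw₁U, hpw₁⟩, ?_⟩
          rw [Finset.mem_filter]
          rintro ⟨-, h⟩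
          exact ((hp'def w₁).mp h).2 (hrefl w₁ hw₁U)
        · intro w hw
          rw [Finset.mem_filter] at hw ⊢
          exact ⟨hw.1, ((hp'def w).mp hw.2).1⟩
      have hsplit : ∀ S : Finset X, S ⊆ U →
          ∑ w ∈ S with p w, e w = ∑ w ∈ S with p' w, e w + ∑ w ∈ S with R w w₁, e w := by
        intro S hS
        rw [Finset.sum_filter, Finset.sum_filter, Finset.sum_filter, ← Finset.sum_add_distrib]
        refine Finset.sum_congr rfl fun w hw => ?_
        by_cases hR : R w w₁
        · have hpw : p w := (hp w (hS hw) w₁ hw₁U hR).mpr hpw₁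
          have hp'w : ¬ p' w := fun h => ((hp'def w).mp h).2 hR
          rw [if_pos hpw, if_neg hp'w, if_pos hR, zero_add]
        · by_cases hpw : p w
          · have hp'w : p' w := (hp'def w).mpr ⟨hpw, hR⟩
            rw [if_pos hpw, if_pos hp'w, if_neg hR, add_zero]
          · have hp'w : ¬ p' w := fun h => hpw ((hp'def w).mp h).1
            rw [if_neg hpw, if_neg hp'w, if_neg hR, add_zero]
      rw [hsplit S₁ hS₁, hsplit S₂ hS₂, ih _ hlt p' hp' rfl, hcls w₁ hw₁U]

/-! ### The chart vocabulary -/

section Vocab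

variable {K F : Type*} [Field K] [Field F] [Algebra K F]

/-- `t(P) ∈ A`: the function `t` has a value in `A` at `P`. -/
def InA (A : ValuationSubring K) (P : Place K F) (t : F) : Prop :=
  ∃ a : ↥A, t - algebraMap K F (a : K) ∈ P.toValuationSubring.nonunits

/-- `P₁`, `P₂` lie on the same `j`-chart and have the same character on its chart ring. -/
def JCls (A : ValuationSubring K) (j : F) (P₁ P₂ : Place K F) : Prop :=
  (InA A P₁ j ∧ InA A P₂ j ∧ SameChar A j P₁ P₂) ∨
    (¬ InA A P₁ j ∧ ¬ InA A P₂ j ∧ SameChar A j⁻¹ P₁ P₂)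

theorem sameChar_refl (A : ValuationSubring K) (t : F) (P : Place K F) : SameChar A t P P := by
  intro f _ b₁ b₂ h₁ h₂
  have := EvalInt.sub_mem_nonunits_unique P h₁ h₂
  rw [Subtype.ext this]

theorem sameChar_trans (A : ValuationSubring K) (t : F) {P₁ P₂ P₃ : Place K F}
    (hP₂ : P₂.deg = 1) (ht : InA A P₂ t) (h₁₂ : SameChar A t P₁ P₂) (h₂₃ : SameChar A t P₂ P₃) :
    SameChar A t P₁ P₃ := by
  obtain ⟨a, ha⟩ := ht
  intro f hf b₁ b₃ h₁ h₃
  obtain ⟨b₂, hb₂⟩ := EvalInt.exists_sub_mem_nonunits A P₂ t hP₂ a ha hf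
  rw [h₁₂ f hf b₁ b₂ h₁ hb₂, h₂₃ f hf b₂ b₃ hb₂ h₃]

end Vocab

variable {K F F' : Type*} [Field K] [Field F] [Field F']
  [Algebra K F] [Algebra K F'] [Algebra F F'] [IsScalarTower K F F']

section Restrict

variable [Algebra.IsIntegral F F']

/-- the maximal ideal of the restricted place is the preimage of the maximal ideal. -/
theorem mem_nonunits_restrict_iff (w : Place K F') (x : F) :
    x ∈ (w.restrict F).toValuationSubring.nonunits ↔
      algebraMap F F' x ∈ w.toValuationSubring.nonunits := by
  rw [ValuationSubring.mem_nonunits_iff_or, ValuationSubring.mem_nonunits_iff_or,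
    Place.restrict_toValuationSubring, ValuationSubring.mem_comap, map_inv₀,
    map_eq_zero_iff _ (algebraMap F F').injective]

theorem inA_restrict_iff (A : ValuationSubring K) (w : Place K F') (t : F) :
    InA A (w.restrict F) t ↔ InA A w (algebraMap F F' t) := by
  unfold InA
  refine exists_congr fun a => ?_
  rw [mem_nonunits_restrict_iff, map_sub, ← IsScalarTower.algebraMap_apply]

end Restrict

section Fibre

variable [IsAlgClosed K] [CharZero K] [FiniteDimensional F F'] [HasPrincipalDivisors K F']

open Classical in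
/-- **Fibre constancy for unions of classes**: the total ramification index of the places of
the fibre lying in a union `p` of chart classes of `F'` depends only on the character of the
base place. -/
theorem fibre_sum_eq (A : ValuationSubring K) [Infinite (ResidueField ↥A)] (t : F)
    (hdeg' : ∀ w : Place K F', w.deg = 1)
    (P₁ P₂ : Place K F) (hP₁ : P₁.deg = 1) (hP₂ : P₂.deg = 1)
    (ht₁ : InA A P₁ t) (ht₂ : InA A P₂ t) (hsame : SameChar A t P₁ P₂)
    (p : Place K F' → Prop)
    (hp : ∀ w w' : Place K F', (w.restrict F = P₁ ∨ w.restrict F = P₂) →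
      (w'.restrict F = P₁ ∨ w'.restrict F = P₂) → SameChar A (algebraMap F F' t) w w' →
      (p w ↔ p w')) :
    ∑ w ∈ P₁.fiber F' with p w, (w.ramificationIndex F : ℤ) =
      ∑ w ∈ P₂.fiber F' with p w, (w.ramificationIndex F : ℤ) := by
  obtain ⟨a₁, ha₁⟩ := ht₁
  obtain ⟨a₂, ha₂⟩ := ht₂
  set U : Finset (Place K F') := P₁.fiber F' ∪ P₂.fiber F' with hU
  have hUmem : ∀ w ∈ U, w.restrict F = P₁ ∨ w.restrict F = P₂ := by
    intro w hw
    rw [hU, Finset.mem_union, Place.mem_fiber, Place.mem_fiber] at hw
    exact hw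
  have hUchart : ∀ w ∈ U, InA A w (algebraMap F F' t) := by
    intro w hw
    rcases hUmem w hw with h | h
    · exact ⟨a₁, sub_mem_nonunits_of_restrict w h ha₁⟩
    · exact ⟨a₂, sub_mem_nonunits_of_restrict w h ha₂⟩
  have hLoc : ∀ (P : Place K F) (hP : P.deg = 1),
      LocAt P hP (P.fiber F') (fun w _ => hdeg' w) := by
    intro P hP g hg
    exact NormValue.ev_norm P hP (P.fiber F') (fun w => Place.mem_fiber) (fun w _ => hdeg' w) g hg
  refine sum_filter_eq_of_classes U (P₁.fiber F') (P₂.fiber F') Finset.subset_union_left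
    Finset.subset_union_right (fun w => (w.ramificationIndex F : ℤ))
    (SameChar A (algebraMap F F' t)) (fun w _ => sameChar_refl A _ w)
    (fun w _ w' _ h => h.symm)
    (fun w _ w' hw' w'' _ h h' => sameChar_trans A _ (hdeg' w') (hUchart w' hw') h h')
    ?_ p (fun w hw w' hw' h => hp w w' (hUmem w hw) (hUmem w' hw') h)
  intro w₁ hw₁
  obtain ⟨a₀, ha₀⟩ := hUchart w₁ hw₁
  have key := sum_ramificationIndex_eq A t P₁ P₂ hP₁ hP₂ (P₁.fiber F') (P₂.fiber F')
    (fun w hw => Place.mem_fiber.mp hw) (fun w hw => Place.mem_fiber.mp hw)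
    (fun w _ => hdeg' w) (fun w _ => hdeg' w) a₁ a₂ ha₁ ha₂ hsame (hLoc P₁ hP₁) (hLoc P₂ hP₂)
    w₁ (hdeg' w₁) a₀ ha₀
    ((P₁.fiber F').filter (fun w => SameChar A (algebraMap F F' t) w w₁))
    ((P₂.fiber F').filter (fun w => SameChar A (algebraMap F F' t) w w₁))
    (fun w => Finset.mem_filter) (fun w => Finset.mem_filter)
  have key' := congrArg (Nat.cast : ℕ → ℤ) key
  rw [Nat.cast_sum, Nat.cast_sum] at key'
  exact key'

end Fibre

section Main

variable [IsAlgClosed K] [CharZero K] [FiniteDimensional F F'] [HasPrincipalDivisors K F']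

open Classical in
/-- the class functional `D ↦ ∑_{w, p w} D(w)` on divisors of `F'`. -/
noncomputable def classSum (p : Place K F' → Prop) : Divisor K F' →+ ℤ :=
  Finsupp.liftAddHom (fun w => if p w then AddMonoidHom.id ℤ else 0)

open Classical in
theorem classSum_apply (p : Place K F' → Prop) (D : Divisor K F') :
    classSum p D = ∑ w ∈ D.support with p w, D w := by
  unfold classSum
  rw [Finsupp.liftAddHom_apply, Finsupp.sum, Finset.sum_filter]
  refine Finset.sum_congr rfl fun w _ => ?_
  by_cases h : p w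
  · rw [if_pos h, if_pos h]
    rfl
  · rw [if_neg h, if_neg h]
    rfl

open Classical in
theorem classSum_single (p : Place K F' → Prop) (w : Place K F') (n : ℤ) :
    classSum p (Finsupp.single w n) = if p w then n else 0 := by
  unfold classSum
  rw [Finsupp.liftAddHom_apply_single]
  by_cases h : p w
  · rw [if_pos h, if_pos h]
    rfl
  · rw [if_neg h, if_neg h]
    rfl

open Classical in
theorem classSum_pullbackSingle (p : Place K F' → Prop) (P : Place K F) (n : ℤ) :
    classSum p (Divisor.pullbackSingleHom F' P n) =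
      n * ∑ w ∈ P.fiber F' with p w, (w.ramificationIndex F : ℤ) := by
  rw [Divisor.pullbackSingleHom_apply, map_sum, Finset.mul_sum, Finset.sum_filter]
  refine Finset.sum_congr rfl fun w _ => ?_
  rw [classSum_single]

open Classical in
theorem classSum_pullback (p : Place K F' → Prop) (E : Divisor K F) :
    classSum p (Divisor.pullback F' E) =
      E.sum fun P n => n * ∑ w ∈ P.fiber F' with p w, (w.ramificationIndex F : ℤ) := by
  have h1 : Divisor.pullback F' E = E.sum fun P n => Divisor.pullbackSingleHom F' P n := by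
    unfold Divisor.pullback
    rw [Finsupp.liftAddHom_apply]
  rw [h1, map_finsuppSum]
  exact Finset.sum_congr rfl fun P _ => classSum_pullbackSingle p P _

open Classical in
/-- **Class sums of the pulled-back divisor vanish.**  `r` is a reduction map on the places of
`F` whose classes are `j`-chart classes, `p` a union of `j`-chart classes of `F'`, `E` a
zero-sum divisor for `r`. -/
theorem pullback_class_sum_eq_zero {Y : Type*} (A : ValuationSubring K)
    [Infinite (ResidueField ↥A)] (hdeg : ∀ P : Place K F, P.deg = 1)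
    (hdeg' : ∀ w : Place K F', w.deg = 1) (j : F)
    (hchart : ∀ P : Place K F, InA A P j ∨ InA A P j⁻¹)
    (r : Place K F → Y) (hr : ∀ P₁ P₂ : Place K F, r P₁ = r P₂ → JCls A j P₁ P₂)
    (p : Place K F' → Prop)
    (hp : ∀ w w' : Place K F', JCls A (algebraMap F F' j) w w' → (p w ↔ p w'))
    (E : Divisor K F) (hE : Finsupp.mapDomain r E = 0) :
    ∑ w ∈ (Divisor.pullback F' E).support with p w, Divisor.pullback F' E w = 0 := by
  rw [← classSum_apply, classSum_pullback]
  set c : Place K F → ℤ := fun P => ∑ w ∈ P.fiber F' with p w, (w.ramificationIndex F : ℤ)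
    with hc
  -- the fibre sums depend only on `r`
  have hconst : ∀ P₁ P₂ : Place K F, r P₁ = r P₂ → c P₁ = c P₂ := by
    intro P₁ P₂ h
    rcases hr P₁ P₂ h with ⟨h1, h2, h3⟩ | ⟨h1, h2, h3⟩
    · refine fibre_sum_eq A j hdeg' P₁ P₂ (hdeg P₁) (hdeg P₂) h1 h2 h3 p ?_
      intro w w' hw hw' hs
      refine hp w w' (Or.inl ⟨?_, ?_, hs⟩)
      · rw [← inA_restrict_iff]
        rcases hw with hw | hw <;> rw [hw] <;> assumption
      · rw [← inA_restrict_iff]
        rcases hw' with hw' | hw' <;> rw [hw'] <;> assumption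
    · have h1' : InA A P₁ j⁻¹ := (hchart P₁).resolve_left h1
      have h2' : InA A P₂ j⁻¹ := (hchart P₂).resolve_left h2
      refine fibre_sum_eq A j⁻¹ hdeg' P₁ P₂ (hdeg P₁) (hdeg P₂) h1' h2' h3 p ?_
      intro w w' hw hw' hs
      rw [map_inv₀] at hs
      refine hp w w' (Or.inr ⟨?_, ?_, hs⟩)
      · rw [← inA_restrict_iff]
        rcases hw with hw | hw <;> rw [hw] <;> assumption
      · rw [← inA_restrict_iff]
        rcases hw' with hw' | hw' <;> rw [hw'] <;> assumption
  -- factor through `r`
  set c' : Y → ℤ := fun y => if h : ∃ P, r P = y then c h.choose else 0 with hc'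
  have hcc' : ∀ P, c P = c' (r P) := by
    intro P
    have h : ∃ P', r P' = r P := ⟨P, rfl⟩
    simp only [hc', dif_pos h]
    exact (hconst _ _ h.choose_spec).symm
  have h1 : (E.sum fun P n => n * c P) = (Finsupp.mapDomain r E).sum fun y n => n * c' y := by
    rw [Finsupp.sum_mapDomain_index (h := fun y (n : ℤ) => n * c' y)
      (fun y => zero_mul _) (fun y a b => add_mul _ _ _)]
    refine Finset.sum_congr rfl fun P _ => ?_
    show E P * c P = E P * c' (r P)
    rw [hcc' P]
  rw [h1, hE, Finsupp.sum_zero_index]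

open Classical in
/-- **Class sums of the orders vanish**: if `div h = q • E` on `F` and `E` is zero-sum for `r`,
then for every union `p` of `j`-chart classes of `F'` the orders of `h` at the places of `p`
sum to zero (`S` any finite set containing the zeros and poles of `h` in `p`). -/
theorem ord_class_sum_eq_zero {Y : Type*} (A : ValuationSubring K)
    [Infinite (ResidueField ↥A)] (hdeg : ∀ P : Place K F, P.deg = 1)
    (hdeg' : ∀ w : Place K F', w.deg = 1) (j : F)
    (hchart : ∀ P : Place K F, InA A P j ∨ InA A P j⁻¹)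
    (r : Place K F → Y) (hr : ∀ P₁ P₂ : Place K F, r P₁ = r P₂ → JCls A j P₁ P₂)
    (p : Place K F' → Prop)
    (hp : ∀ w w' : Place K F', JCls A (algebraMap F F' j) w w' → (p w ↔ p w'))
    (E : Divisor K F) (hE : Finsupp.mapDomain r E = 0)
    (h : F) (q : ℤ) (hord : ∀ P : Place K F, P.ord h = q * E P)
    (S : Finset (Place K F'))
    (hS : ∀ w : Place K F', p w → w.ord (algebraMap F F' h) ≠ 0 → w ∈ S) :
    ∑ w ∈ S with p w, w.ord (algebraMap F F' h) = 0 := by
  have hordw : ∀ w : Place K F', w.ord (algebraMap F F' h) = q * Divisor.pullback F' E w := by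
    intro w
    rw [Place.ord_restrict, hord, Divisor.pullback_apply]
    ring
  have key := pullback_class_sum_eq_zero A hdeg hdeg' j hchart r hr p hp E hE
  have h1 : ∑ w ∈ S with p w, w.ord (algebraMap F F' h) =
      ∑ w ∈ (Divisor.pullback F' E).support with p w, w.ord (algebraMap F F' h) := by
    rw [← Finset.sum_filter_ne_zero (s := S.filter p),
      ← Finset.sum_filter_ne_zero (s := (Divisor.pullback F' E).support.filter p)]
    refine Finset.sum_congr ?_ fun _ _ => rfl
    ext w
    simp only [Finset.mem_filter, Finsupp.mem_support_iff]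
    constructor
    · rintro ⟨⟨-, hpw⟩, hne⟩
      refine ⟨⟨?_, hpw⟩, hne⟩
      intro h0
      rw [hordw, h0, mul_zero] at hne
      exact hne rfl
    · rintro ⟨⟨-, hpw⟩, hne⟩
      exact ⟨⟨hS w hpw hne, hpw⟩, hne⟩
  rw [h1, Finset.sum_congr rfl fun w _ => hordw w, ← Finset.mul_sum, key, mul_zero]

end Main

/-! ### The instance `F = F_L(N)`, `r = RedPlace.r` -/

section Sealed

open ModularCurve Fermat.Agent.S18.S24Export

local notation "Qb" => AlgebraicClosure ℚ

variable (A : ValuationSubring Qb) (N : ℕ) [NeZero N]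

/-- every place of `F_L(N)` lies on one of the two `j`-charts. -/
theorem inA_or_redPlace (P : Place Qb (FL N)) : InA A P (jL N) ∨ InA A P (jL N)⁻¹ := by
  rcases RedBridge.inA_or A N P with h | ⟨a₀, -, h⟩
  · exact Or.inl h
  · exact Or.inr ⟨a₀, h⟩

/-- the classes of `RedPlace.r` are the `j`-chart classes. -/
theorem jCls_iff_r_eq (P₁ P₂ : Place Qb (FL N)) :
    JCls A (jL N) P₁ P₂ ↔ RedPlace.r A N P₁ = RedPlace.r A N P₂ :=
  (RedBridge.r_eq_iff A N P₁ P₂).symm

variable {F' : Type*} [Field F'] [Algebra Qb F'] [Algebra (FL N) F']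
  [IsScalarTower Qb (FL N) F'] [FiniteDimensional (FL N) F'] [HasPrincipalDivisors Qb F']

open Classical in
/-- **Class sums on a cover of `F_L(N)`**: if `div h = q • E` and `E` is zero-sum for the
coarse reduction `RedPlace.r A N`, then the orders of `h` along any union `p` of `j`-chart
classes of the cover `F'` sum to zero. -/
theorem ord_class_sum_eq_zero_redPlace (hdeg' : ∀ w : Place Qb F', w.deg = 1)
    (p : Place Qb F' → Prop)
    (hp : ∀ w w' : Place Qb F', JCls A (algebraMap (FL N) F' (jL N)) w w' → (p w ↔ p w'))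
    (E : Divisor Qb (FL N)) (hE : Finsupp.mapDomain (RedPlace.r A N) E = 0)
    (h : FL N) (q : ℤ) (hord : ∀ P : Place Qb (FL N), P.ord h = q * E P)
    (S : Finset (Place Qb F'))
    (hS : ∀ w : Place Qb F', p w → w.ord (algebraMap (FL N) F' h) ≠ 0 → w ∈ S) :
    ∑ w ∈ S with p w, w.ord (algebraMap (FL N) F' h) = 0 := by
  haveI : Infinite (ResidueField ↥A) := Fermat.Agent.S18.ResField.infinite_of_isAlgClosed A
  exact ord_class_sum_eq_zero A (fun P => deg_eq_one N P) hdeg' (jL N) (inA_or_redPlace A N)
    (RedPlace.r A N) (fun P₁ P₂ h => (jCls_iff_r_eq A N P₁ P₂).mpr h) p hp E hE h q hord S hS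

end Sealed

end Fermat.Agent.S37.CoverSum
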