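import Mathlib
import Fermat.Agent.S37.CoverHyps
import Fermat.Agent.S37.CoverSum
import Fermat.Agent.S37.ChartCmp
import Fermat.Agent.S37.FFTower

/-!
# S37, cover chain, leaf (Z): the divisor side `CoverHyps.HZero`

If `div h = q • E` on `F_L(N)` and `E` is zero-sum for the coarse reduction `RedPlace.r A N`,
then on the cover `Ω = AdjoinRoot m` the orders of `h` sum to zero over every class of the
`h`-charts (`tO N m b`): `hZero3` (cover `j h² = (h + 256)³`, `ℓ ≠ 2`) and `hZero2`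
(cover `j h = (h + 27)(h + 3)³`, `ℓ ≠ 3`).

Inputs: `CoverSum.ord_class_sum_eq_zero_redPlace` ((c1) + the `r`-bridge), `ChartCmp`
((c2): the `j`-class determines the `h`-class), `FFTower` (the cover is a function field).
-/

set_option autoImplicit false

noncomputable section

open Polynomial AlgebraicCurve ModularCurve IsLocalRing

namespace Fermat.Agent.S37.CoverHZero

open Fermat.Agent.S18 Fermat.Agent.S18.Setup Fermat.Agent.S18.S24Export
open Fermat.Agent.S37.CoverDefs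

local notation "Qb" => AlgebraicClosure ℚ

/-! ### The `j`-class determines the class on both `h`-charts -/

section Generic

variable {K F : Type*} [Field K] [Field F] [Algebra K F] (A : ValuationSubring K)

/-- From the four chart-comparison facts of a cover (finite chart, finite chart for `h⁻¹`,
chart at infinity, and "`h(P) ∈ A^×` forces `j(P) ∈ A`"), a `j`-class of places lies in one
class of each of the two `h`-charts. -/
theorem cls_closed (hdeg : ∀ P : Place K F, P.deg = 1) {j h : F}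
    (hfin : ∀ P₁ P₂ : Place K F, InA A P₁ j → InA A P₂ j → SameChar A j P₁ P₂ →
      InA A P₁ h ∧ InA A P₂ h ∧ SameChar A h P₁ P₂)
    (hfin_inv : ∀ P₁ P₂ : Place K F, InA A P₁ j → InA A P₂ j → SameChar A j P₁ P₂ →
      InA A P₁ h⁻¹ ∧ InA A P₂ h⁻¹ ∧ SameChar A h⁻¹ P₁ P₂)
    (hinf : ∀ P₁ P₂ : Place K F, ¬ InA A P₁ j → ¬ InA A P₂ j → SameChar A j⁻¹ P₁ P₂ →
      (InA A P₁ h ↔ InA A P₂ h) ∧ (InA A P₁ h → SameChar A h P₁ P₂) ∧
        (¬ InA A P₁ h → SameChar A h⁻¹ P₁ P₂))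
    (hunit : ∀ P : Place K F, InA A P h → InA A P h⁻¹ → InA A P j)
    (b : Bool) {w w' : Place K F} (hj : CoverSum.JCls A j w w') :
    (InA A w (if b then h else h⁻¹) ↔ InA A w' (if b then h else h⁻¹)) ∧
      (InA A w (if b then h else h⁻¹) → SameChar A (if b then h else h⁻¹) w w') := by
  rcases hj with ⟨h1, h2, h3⟩ | ⟨h1, h2, h3⟩
  · cases b
    · obtain ⟨i1, i2, s⟩ := hfin_inv w w' h1 h2 h3
      exact ⟨⟨fun _ => i2, fun _ => i1⟩, fun _ => s⟩
    · obtain ⟨i1, i2, s⟩ := hfin w w' h1 h2 h3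
      exact ⟨⟨fun _ => i2, fun _ => i1⟩, fun _ => s⟩
  · obtain ⟨e, k1, k2⟩ := hinf w w' h1 h2 h3
    cases b
    · have n : ∀ P : Place K F, ¬ InA A P j → (InA A P h⁻¹ ↔ ¬ InA A P h) := fun P hP =>
        ⟨fun hi hh => hP (hunit P hh hi), fun hn => ChartCmp.InA.inv_of_not hn (hdeg P)⟩
      refine ⟨?_, fun hi => k2 ((n w h1).mp hi)⟩
      show InA A w h⁻¹ ↔ InA A w' h⁻¹
      rw [n w h1, n w' h2, e]
    · exact ⟨e, k1⟩

variable {A}

/-- cover `j h² = (h + 256)³`: `h(P) ∈ A^×` forces `j(P) ∈ A`. -/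
theorem inA_j_of_unit3 {j h : F} (hrel : j * h ^ 2 = (h + 256) ^ 3) (hh0 : h ≠ 0)
    (P : Place K F) (hP : P.deg = 1) (hh : InA A P h) (hi : InA A P h⁻¹) : InA A P j := by
  have hj : j = (h + 256) ^ 3 * h⁻¹ ^ 2 := by
    field_simp
    exact hrel
  have m1 : h ∈ ChartCmp.compVal A P hP := (ChartCmp.mem_compVal_iff_inA A P hP).mpr hh
  have m2 : h⁻¹ ∈ ChartCmp.compVal A P hP := (ChartCmp.mem_compVal_iff_inA A P hP).mpr hi
  have m3 : (256 : F) ∈ ChartCmp.compVal A P hP := by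
    have := ChartCmp.dom_compVal A P hP (256 : ↥A)
    rwa [ChartCmp.algebraMap_256] at this
  apply (ChartCmp.mem_compVal_iff_inA A P hP).mp
  rw [hj]
  exact mul_mem (pow_mem (add_mem m1 m3) 3) (pow_mem m2 2)

/-- cover `j h = (h + 27)(h + 3)³`: `h(P) ∈ A^×` forces `j(P) ∈ A`. -/
theorem inA_j_of_unit2 {j h : F} (hrel : j * h = (h + 27) * (h + 3) ^ 3) (hh0 : h ≠ 0)
    (P : Place K F) (hP : P.deg = 1) (hh : InA A P h) (hi : InA A P h⁻¹) : InA A P j := by
  have hj : j = (h + 27) * (h + 3) ^ 3 * h⁻¹ := by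
    field_simp
    exact hrel
  have m1 : h ∈ ChartCmp.compVal A P hP := (ChartCmp.mem_compVal_iff_inA A P hP).mpr hh
  have m2 : h⁻¹ ∈ ChartCmp.compVal A P hP := (ChartCmp.mem_compVal_iff_inA A P hP).mpr hi
  have m3 : (27 : F) ∈ ChartCmp.compVal A P hP := by
    have := ChartCmp.dom_compVal A P hP (27 : ↥A)
    rwa [ChartCmp.algebraMap_27] at this
  have m4 : (3 : F) ∈ ChartCmp.compVal A P hP := by
    have := ChartCmp.dom_compVal A P hP (3 : ↥A)
    have e : algebraMap K F (((3 : ↥A) : ↥A) : K) = 3 := by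
      have : (((3 : ↥A) : ↥A) : K) = 3 := rfl
      rw [this, map_ofNat]
    rwa [e] at this
  apply (ChartCmp.mem_compVal_iff_inA A P hP).mp
  rw [hj]
  exact mul_mem (mul_mem (add_mem m1 m3) (pow_mem (add_mem m1 m4) 3)) m2

end Generic

/-! ### The sealed cover -/

section Sealed

variable (N : ℕ) [NeZero N] (A : ValuationSubring Qb) (m : (FL N)[X]) [Fact (Irreducible m)]

/-- **(Z) from the chart comparison**: if every `j`-class of the cover lies in one class of
each `h`-chart, then `CoverHyps.HZero` holds. -/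
theorem hZero_of_cls
    (hcl : ∀ (b : Bool) (w w' : Place Qb (AdjoinRoot m)),
      CoverSum.JCls A (algebraMap (FL N) (AdjoinRoot m) (jL N)) w w' →
      (InA A w (tO N m b) ↔ InA A w' (tO N m b)) ∧
        (InA A w (tO N m b) → SameChar A (tO N m b) w w')) :
    CoverHyps.HZero N A m := by
  classical
  haveI := FFTower.cover_finiteDimensional N m
  haveI := FFTower.cover_hasPrincipalDivisors N m
  have hdeg' : ∀ w : Place Qb (AdjoinRoot m), w.deg = 1 := FFTower.cover_deg_eq_one N m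
  intro E hE h q hord b w₀ _ T hT1 hT2
  have key := CoverSum.ord_class_sum_eq_zero_redPlace A N hdeg'
    (fun w => InA A w (tO N m b) ∧ SameChar A (tO N m b) w w₀) ?_ E hE h q hord T
    (fun w hpw hne => hT2 w hpw.1 hpw.2 hne)
  · rw [Finset.sum_filter] at key
    rw [← key]
    exact Finset.sum_congr rfl (fun w hw => (if_pos (hT1 w hw)).symm)
  · intro w w' hj
    obtain ⟨e, k⟩ := hcl b w w' hj
    constructor
    · rintro ⟨hin, hs⟩
      exact ⟨e.mp hin, CoverSum.sameChar_trans A _ (hdeg' w) hin (k hin).symm hs⟩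
    · rintro ⟨hin', hs'⟩
      exact ⟨e.mpr hin', CoverSum.sameChar_trans A _ (hdeg' w') hin' (k (e.mpr hin')) hs'⟩

/-- the relation of the cover `X₀(2)` in `Ω`, from one level. -/
theorem hrel_of_good3 (K : IntermediateField ℚ Qb) (m0 : (FK K N)[X])
    (hmap : m0.map (ιL K N) = m) (hg : CoverHyps.Good3 N K m0) :
    algebraMap (FL N) (AdjoinRoot m) (jL N) * AdjoinRoot.root m ^ 2 =
      (AdjoinRoot.root m + 256) ^ 3 := by
  have h := congrArg (phi N m m0 hmap) hg
  rw [map_mul, map_pow, map_pow, map_add, AdjoinRoot.algebraMap_eq, phi_of, phi_root, ιL_jF,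
    map_ofNat] at h
  rw [AdjoinRoot.algebraMap_eq]
  exact h

/-- the relation of the cover `X₀(3)` in `Ω`, from one level. -/
theorem hrel_of_good2 (K : IntermediateField ℚ Qb) (m0 : (FK K N)[X])
    (hmap : m0.map (ιL K N) = m) (hg : CoverHyps.Good2 N K m0) :
    algebraMap (FL N) (AdjoinRoot m) (jL N) * AdjoinRoot.root m =
      (AdjoinRoot.root m + 27) * (AdjoinRoot.root m + 3) ^ 3 := by
  have h := congrArg (phi N m m0 hmap) hg
  rw [map_mul, map_mul, map_pow, map_add, map_add, AdjoinRoot.algebraMap_eq, phi_of, phi_root,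
    ιL_jF, map_ofNat, map_ofNat] at h
  rw [AdjoinRoot.algebraMap_eq]
  exact h

/-- **(Z), cover `j h² = (h + 256)³`** (`ℓ ≠ 2`). -/
theorem hZero3 {ℓ : ℕ} (hℓ : ℓ.Prime) (hℓ2 : ℓ ≠ 2) (hA : A.LiesOverPrime ℓ)
    (hrel : algebraMap (FL N) (AdjoinRoot m) (jL N) * AdjoinRoot.root m ^ 2 =
      (AdjoinRoot.root m + 256) ^ 3) :
    CoverHyps.HZero N A m := by
  have hdeg' : ∀ w : Place Qb (AdjoinRoot m), w.deg = 1 := FFTower.cover_deg_eq_one N m
  have h256 : IsUnit (256 : ↥A) := by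
    have hn : ¬ ℓ ∣ 256 := by
      intro hd
      have h2 : ℓ ∣ 2 := hℓ.dvd_of_dvd_pow (n := 8) (by norm_num; exact hd)
      exact hℓ2 ((Nat.prime_dvd_prime_iff_eq hℓ Nat.prime_two).mp h2)
    have := ResField.isUnit_natCast A hℓ hA hn
    simpa using this
  haveI : CharZero (AdjoinRoot m) :=
    charZero_of_injective_algebraMap (algebraMap Qb (AdjoinRoot m)).injective
  have hh0 : AdjoinRoot.root m ≠ 0 := by
    intro h0
    rw [h0] at hrel
    norm_num at hrel
  refine hZero_of_cls N A m fun b w w' hj => ?_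
  exact cls_closed A hdeg'
    (fun P₁ P₂ a1 a2 a3 => ChartCmp.sameChar_fin3 hrel (hdeg' P₁) (hdeg' P₂) a1 a2 a3)
    (fun P₁ P₂ a1 a2 a3 => ChartCmp.sameChar_fin3_inv hrel h256 (hdeg' P₁) (hdeg' P₂) a1 a2 a3)
    (fun P₁ P₂ a1 a2 a3 => ChartCmp.sameChar_inf3 hrel h256 (hdeg' P₁) (hdeg' P₂) a1 a2 a3)
    (fun P a1 a2 => inA_j_of_unit3 hrel hh0 P (hdeg' P) a1 a2) b hj

/-- **(Z), cover `j h = (h + 27)(h + 3)³`** (`ℓ ≠ 3`). -/
theorem hZero2 {ℓ : ℕ} (hℓ : ℓ.Prime) (hℓ3 : ℓ ≠ 3) (hA : A.LiesOverPrime ℓ)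
    (hrel : algebraMap (FL N) (AdjoinRoot m) (jL N) * AdjoinRoot.root m =
      (AdjoinRoot.root m + 27) * (AdjoinRoot.root m + 3) ^ 3) :
    CoverHyps.HZero N A m := by
  have hdeg' : ∀ w : Place Qb (AdjoinRoot m), w.deg = 1 := FFTower.cover_deg_eq_one N m
  have h27 : IsUnit (27 : ↥A) := by
    have hn : ¬ ℓ ∣ 27 := by
      intro hd
      have h3 : ℓ ∣ 3 := hℓ.dvd_of_dvd_pow (n := 3) (by norm_num; exact hd)
      exact hℓ3 ((Nat.prime_dvd_prime_iff_eq hℓ Nat.prime_three).mp h3)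
    have := ResField.isUnit_natCast A hℓ hA hn
    simpa using this
  haveI : CharZero (AdjoinRoot m) :=
    charZero_of_injective_algebraMap (algebraMap Qb (AdjoinRoot m)).injective
  have hh0 : AdjoinRoot.root m ≠ 0 := by
    intro h0
    rw [h0] at hrel
    norm_num at hrel
  refine hZero_of_cls N A m fun b w w' hj => ?_
  exact cls_closed A hdeg'
    (fun P₁ P₂ a1 a2 a3 => ChartCmp.sameChar_fin2 hrel (hdeg' P₁) (hdeg' P₂) a1 a2 a3)
    (fun P₁ P₂ a1 a2 a3 => ChartCmp.sameChar_fin2_inv hrel h27 (hdeg' P₁) (hdeg' P₂) a1 a2 a3)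
    (fun P₁ P₂ a1 a2 a3 => ChartCmp.sameChar_inf2 hrel h27 (hdeg' P₁) (hdeg' P₂) a1 a2 a3)
    (fun P a1 a2 => inA_j_of_unit2 hrel hh0 P (hdeg' P) a1 a2) b hj

end Sealed

end Fermat.Agent.S37.CoverHZero
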