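import Mathlib
import Fermat.Agent.S18.CoreDefs
import Fermat.Agent.S18.KummerLayer
import Fermat.Agent.S18.GaussSwap
import Fermat.Agent.S18.AdjoinChart
import Fermat.Agent.S18.IntConst

/-!
# S37, block (W2), cover chain, leaf (E): the abstract last mile

`A0` a discrete valuation ring with uniformizer `π` and residue map `φ : A0 → k0`, `M` a field
with a coordinate `t` transcendental over `A0` (the line of the chart `A0[t]`), `E` a field
extension of `M` (the function field of a cover).  `gaussB` is the Gauss ring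
`O'' = {x | InGauss x}` of the chart in `E`.

Let `O ⊆ F` be a ring with a "reduction" `red : O → L` (`L` a field over `k0`), constants
`cst : A0 → O`, all of whose elements with nonzero reduction are units, and let `ψ : F → E` be a
ring homomorphism mapping `O` into the Gauss ring `O''`.  If `y ∈ O` is congruent modulo `π O''`
to an element integral over `A0[t]` and to an element integral over `A0[1/t]`, then `red y` is
algebraic over `k0` (`isAlgebraic_red_of_lifts`).

No primality of `π` in the integral closure is needed: the proof reduces modulo an arbitrary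
maximal ideal of `O''` containing `π`.
-/

set_option autoImplicit false
set_option linter.unusedSectionVars false
set_option linter.style.haveILetI false

open Polynomial

namespace Fermat.Agent.S37.CoverEnd

open Fermat.Agent.S18 Fermat.Agent.S18.CoreDefs Fermat.Agent.S18.KummerLayer

section GaussRing

variable {A0 : Type*} [CommRing A0] [IsDomain A0]
  (M : Type*) [Field M] [Algebra A0 M]
  (E : Type*) [Field E] [Algebra M E] [Algebra A0 E] [IsScalarTower A0 M E]
  (t : M) (π : A0) (hprime : Prime (unif A0 M t π))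

/-- The Gauss ring `O''` of the chart `A0[t]` in `E`, as a subring. -/
def gaussB : Subring E where
  carrier := {x | InGauss A0 M E t π x}
  mul_mem' hx hy := inGauss_mul hprime hx hy
  one_mem' := inGauss_one hprime
  add_mem' hx hy := inGauss_add hprime hx hy
  zero_mem' := inGauss_zero hprime
  neg_mem' := by
    rintro x ⟨s, hs, h⟩
    exact ⟨s, hs, by rw [smul_neg]; exact h.neg⟩

theorem mem_gaussB_iff (x : E) : x ∈ gaussB M E t π hprime ↔ InGauss A0 M E t π x := Iff.rfl

/-- The constants `A0 → O''`. -/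
def constB : A0 →+* gaussB M E t π hprime :=
  (algebraMap A0 E).codRestrict (gaussB M E t π hprime) (fun a => inGauss_algebraMap hprime a)

theorem coe_constB (a : A0) : ((constB M E t π hprime a : gaussB M E t π hprime) : E) =
    algebraMap A0 E a := rfl

variable {M E t π}

/-- an element of `π O''` is `π` times an element of `O''`. -/
theorem exists_eq_pi_mul_of_inPiGauss {z : E} (hz : InPiGauss A0 M E t π z) :
    ∃ w : gaussB M E t π hprime, z = algebraMap A0 E π * (w : E) := by
  obtain ⟨s, hs, c, hc, h⟩ := hz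
  have hs0 : (s : M) ≠ 0 := by
    intro h0
    apply hs
    have : s = 0 := Subtype.ext h0
    rw [this]
    exact dvd_zero _
  have hsE : algebraMap M E (s : M) ≠ 0 := by rwa [Ne, map_eq_zero]
  have hsmul : ∀ x : E, s • x = algebraMap M E (s : M) * x := fun x => by
    rw [Algebra.smul_def]
    rfl
  refine ⟨⟨(algebraMap M E (s : M))⁻¹ * c, s, hs, ?_⟩, ?_⟩
  · rw [hsmul, ← mul_assoc, mul_inv_cancel₀ hsE, one_mul]
    exact hc
  · show z = algebraMap A0 E π * ((algebraMap M E (s : M))⁻¹ * c)
    rw [hsmul, Algebra.smul_def] at h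
    rw [mul_left_comm, ← h, ← mul_assoc, inv_mul_cancel₀ hsE, one_mul]

/-- `π` is not a unit of `O''`. -/
theorem pi_mul_ne_one (hic : IsIntegrallyClosed (chart A0 M t))
    (hfr : IsFractionRing (chart A0 M t) M) (w : gaussB M E t π hprime) :
    algebraMap A0 E π * (w : E) ≠ 1 := by
  intro h
  apply not_inPiGauss_one (E := E) hprime hic hfr
  obtain ⟨s, hs, hw⟩ := w.2
  refine ⟨s, hs, s • (w : E), hw, ?_⟩
  rw [smul_comm, Algebra.smul_def π, h]

end GaussRing

section Core

variable {A0 : Type*} [CommRing A0] [IsDomain A0] [IsDiscreteValuationRing A0]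
  (M : Type*) [Field M] [Algebra A0 M]
  (E : Type*) [Field E] [Algebra M E] [Algebra A0 E] [IsScalarTower A0 M E]
  (t : M) (π : A0) (hprime : Prime (unif A0 M t π))

/-- The evaluation `A0[X] → O''`, `X ↦ u`, for `u : M` in the Gauss ring. -/
noncomputable def thetaB (u : M) (huB : InGauss A0 M E t π (algebraMap M E u)) :
    A0[X] →+* gaussB M E t π hprime :=
  eval₂RingHom (constB M E t π hprime) ⟨algebraMap M E u, huB⟩

theorem subtype_comp_thetaB (u : M) (huB : InGauss A0 M E t π (algebraMap M E u))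
    (hu : Transcendental A0 u) :
    (gaussB M E t π hprime).subtype.comp (thetaB M E t π hprime u huB) =
      (algebraMap (chart A0 M u) E).comp
        ((AdjoinChart.chartEquiv M u hu : A0[X] ≃ₐ[A0] chart A0 M u) : A0[X] →+* chart A0 M u) := by
  apply Polynomial.ringHom_ext
  · intro a
    simp only [RingHom.comp_apply, thetaB, coe_eval₂RingHom, eval₂_C, Subring.subtype_apply,
      coe_constB, RingHom.coe_coe, AdjoinChart.chartEquiv_C]
    rw [← IsScalarTower.algebraMap_apply]
  · simp only [RingHom.comp_apply, thetaB, coe_eval₂RingHom, eval₂_X, Subring.subtype_apply,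
      RingHom.coe_coe, AdjoinChart.chartEquiv_X]
    rfl

variable {M E t π}

/-- reduction of an element integral over `A0[u]` is integral over `k0[ρ u]`. -/
theorem isIntegralElem_rho (u : M) (hu : Transcendental A0 u)
    (huB : InGauss A0 M E t π (algebraMap M E u))
    {Ω : Type*} [Field Ω] (ρ : gaussB M E t π hprime →+* Ω)
    {k0 : Type*} [Field k0] (φ : A0 →+* k0) (κ : k0 →+* Ω)
    (hκ : ∀ a, κ (φ a) = ρ (constB M E t π hprime a))
    (c : E) (hc : IsIntegral (chart A0 M u) c) (hcB : InGauss A0 M E t π c) :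
    (eval₂RingHom κ (ρ ⟨algebraMap M E u, huB⟩)).IsIntegralElem (ρ ⟨c, hcB⟩) := by
  obtain ⟨p, hpm, hp⟩ := hc
  set e := AdjoinChart.chartEquiv M u hu with he
  set P : A0[X][X] := p.map ((e.symm : chart A0 M u ≃ₐ[A0] A0[X]) : chart A0 M u →+* A0[X])
    with hP
  have hPm : P.Monic := hpm.map _
  have h1 : eval₂ (thetaB M E t π hprime u huB) ⟨c, hcB⟩ P = 0 := by
    apply Subtype.ext
    show (gaussB M E t π hprime).subtype (eval₂ (thetaB M E t π hprime u huB) ⟨c, hcB⟩ P) = 0
    rw [Polynomial.hom_eval₂, subtype_comp_thetaB M E t π hprime u huB hu, hP, eval₂_map]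
    have h2 : ((algebraMap (chart A0 M u) E).comp
        ((AdjoinChart.chartEquiv M u hu : A0[X] ≃ₐ[A0] chart A0 M u) :
          A0[X] →+* chart A0 M u)).comp
        ((e.symm : chart A0 M u ≃ₐ[A0] A0[X]) : chart A0 M u →+* A0[X]) =
        algebraMap (chart A0 M u) E := by
      ext x
      simp [he]
    rw [h2]
    exact hp
  have h2 := congrArg ρ h1
  rw [map_zero, Polynomial.hom_eval₂] at h2
  have hρθ : ρ.comp (thetaB M E t π hprime u huB) =
      (eval₂RingHom κ (ρ ⟨algebraMap M E u, huB⟩)).comp (mapRingHom φ) := by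
    apply Polynomial.ringHom_ext
    · intro a
      simp [thetaB, hκ]
    · simp [thetaB]
  refine ⟨P.map (mapRingHom φ), hPm.map _, ?_⟩
  rw [eval₂_map, ← hρθ]
  exact h2

/-- a chart element not divisible by `π` is a unit of `O''`, hence is not killed by a ring
homomorphism to a field. -/
theorem rho_thetaB_ne_zero (ht : Transcendental A0 t)
    (htB : InGauss A0 M E t π (algebraMap M E t))
    {Ω : Type*} [Field Ω] (ρ : gaussB M E t π hprime →+* Ω)
    {k0 : Type*} [Field k0] (φ : A0 →+* k0) (hφ : ∀ a, φ a = 0 ↔ π ∣ a)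
    (P : A0[X]) (hP : P.map φ ≠ 0) :
    ρ (thetaB M E t π hprime t htB P) ≠ 0 := by
  set s := AdjoinChart.chartEquiv M t ht P with hs
  have hsdvd : ¬ unif A0 M t π ∣ s := by
    intro hdvd
    rw [← AdjoinChart.chartEquiv_C_unif M t ht π, hs] at hdvd
    have h1 : (C π : A0[X]) ∣ P := by
      obtain ⟨q, hq⟩ := hdvd
      refine ⟨(AdjoinChart.chartEquiv M t ht).symm q, ?_⟩
      apply (AdjoinChart.chartEquiv M t ht).injective
      rw [map_mul, AlgEquiv.apply_symm_apply]
      exact hq
    apply hP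
    ext i
    rw [coeff_map, coeff_zero]
    exact (hφ _).mpr ((C_dvd_iff_dvd_coeff _ _).mp h1 i)
  have hs0 : (s : M) ≠ 0 := by
    intro h0
    apply hsdvd
    have : s = 0 := Subtype.ext h0
    rw [this]
    exact dvd_zero _
  have hsE : algebraMap M E (s : M) ≠ 0 := by rwa [Ne, map_eq_zero]
  have hcoe : ((thetaB M E t π hprime t htB P : gaussB M E t π hprime) : E) =
      algebraMap M E (s : M) := by
    have h1 := congrArg (fun f => f P) (subtype_comp_thetaB M E t π hprime t htB ht)
    exact h1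
  have hwB : InGauss A0 M E t π (algebraMap M E (s : M))⁻¹ := by
    refine ⟨s, hsdvd, ?_⟩
    have h1 : s • (algebraMap M E (s : M))⁻¹ = (1 : E) := by
      rw [Algebra.smul_def]
      exact mul_inv_cancel₀ hsE
    rw [h1]
    exact isIntegral_one
  have hmul : thetaB M E t π hprime t htB P * ⟨(algebraMap M E (s : M))⁻¹, hwB⟩ = 1 := by
    apply Subtype.ext
    show ((thetaB M E t π hprime t htB P : gaussB M E t π hprime) : E) *
      (algebraMap M E (s : M))⁻¹ = 1
    rw [hcoe]
    exact mul_inv_cancel₀ hsE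
  intro h0
  have h1 := congrArg ρ hmul
  rw [map_mul, h0, zero_mul, map_one] at h1
  exact zero_ne_one h1

end Core

section Main

variable {A0 : Type*} [CommRing A0] [IsDomain A0] [IsDiscreteValuationRing A0]
  {M : Type*} [Field M] [Algebra A0 M]
  {E : Type*} [Field E] [Algebra M E] [Algebra A0 E] [IsScalarTower A0 M E]
  {t : M} {π : A0} (hprime : Prime (unif A0 M t π))

/-- **The last mile, with a given reduction `ρ : O'' → Ω` killing `π`.** -/
theorem isAlgebraic_red_of_rho (ht : Transcendental A0 t) (hπ : Irreducible π)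
    {k0 L : Type*} [Field k0] [Field L] [Algebra k0 L] (φ : A0 →+* k0)
    (hφ : ∀ a, φ a = 0 ↔ π ∣ a) (hφs : Function.Surjective φ)
    {Ω : Type*} [Field Ω] (ρ : gaussB M E t π hprime →+* Ω)
    (hρπ : ρ (constB M E t π hprime π) = 0)
    {F : Type*} [Field F] (O : Subring F) (red : ↥O →+* L) (cst : A0 →+* ↥O)
    (hcst : ∀ a, red (cst a) = algebraMap k0 L (φ a))
    (ψ : F →+* E) (hψc : ∀ a, ψ ((cst a : ↥O) : F) = algebraMap A0 E a)
    (hO : ∀ x : ↥O, InGauss A0 M E t π (ψ (x : F)))
    (hunit : ∀ x : ↥O, red x ≠ 0 → ((x : F))⁻¹ ∈ O) (y : ↥O)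
    (c : E) (hc : IsIntegral (chart A0 M t) c) (hcy : InPiGauss A0 M E t π (ψ (y : F) - c))
    (c' : E) (hc' : IsIntegral (chart A0 M t⁻¹) c') (hc'B : InGauss A0 M E t π c')
    (hcy' : InPiGauss A0 M E t π (ψ (y : F) - c')) :
    IsAlgebraic k0 (red y) := by
  classical
  -- the residue field maps to `Ω`
  have hker : RingHom.ker φ ≤ RingHom.ker (ρ.comp (constB M E t π hprime)) := by
    intro a ha
    rw [RingHom.mem_ker] at ha ⊢
    obtain ⟨b, rfl⟩ := (hφ a).mp ha
    rw [RingHom.comp_apply, map_mul, map_mul, hρπ, zero_mul]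
  set κ : k0 →+* Ω := φ.liftOfRightInverse (Function.surjInv hφs)
    (Function.rightInverse_surjInv hφs) ⟨ρ.comp (constB M E t π hprime), hker⟩ with hκdef
  have hκ : ∀ a, κ (φ a) = ρ (constB M E t π hprime a) := fun a =>
    RingHom.liftOfRightInverse_comp_apply _ _ _ ⟨ρ.comp (constB M E t π hprime), hker⟩ a
  -- the coordinate and its inverse in the Gauss ring
  have htB : InGauss A0 M E t π (algebraMap M E t) := inGauss_of_isIntegral hprime (by
    have h1 : algebraMap M E t = algebraMap (chart A0 M t) E (coord A0 M t) := rfl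
    rw [h1]
    exact isIntegral_algebraMap)
  have ht0 : t ≠ 0 := GaussSwap.ne_zero_of_transcendental M ht
  have ht' : Transcendental A0 t⁻¹ := IntConst.transcendental_inv t ht
  have hprime' : Prime (unif A0 M t⁻¹ π) := AdjoinChart.prime_unif M t⁻¹ ht' π hπ
  have htinvB : InGauss A0 M E t π (algebraMap M E t⁻¹) :=
    (GaussSwap.inGauss_inv_iff M t π hπ ht _).mp (inGauss_of_isIntegral hprime' (by
      have h1 : algebraMap M E t⁻¹ = algebraMap (chart A0 M t⁻¹) E (coord A0 M t⁻¹) := rfl
      rw [h1]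
      exact isIntegral_algebraMap))
  have hcB : InGauss A0 M E t π c := inGauss_of_isIntegral hprime hc
  set T : Ω := ρ ⟨algebraMap M E t, htB⟩ with hT
  set T' : Ω := ρ ⟨algebraMap M E t⁻¹, htinvB⟩ with hT'
  have hTT' : T * T' = 1 := by
    rw [hT, hT', ← map_mul]
    have h1 : (⟨algebraMap M E t, htB⟩ : gaussB M E t π hprime) *
        ⟨algebraMap M E t⁻¹, htinvB⟩ = 1 := by
      apply Subtype.ext
      show algebraMap M E t * algebraMap M E t⁻¹ = 1
      rw [← map_mul, mul_inv_cancel₀ ht0, map_one]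
    rw [h1, map_one]
  have hT'eq : T' = T⁻¹ := eq_inv_of_mul_eq_one_right hTT'
  -- equal reductions
  have hyB := hO y
  have hρ_eq : ∀ (d : E) (hdB : InGauss A0 M E t π d), InPiGauss A0 M E t π (ψ (y : F) - d) →
      ρ ⟨ψ (y : F), hyB⟩ = ρ ⟨d, hdB⟩ := by
    intro d hdB hd
    obtain ⟨w, hw⟩ := exists_eq_pi_mul_of_inPiGauss hprime hd
    have h1 : (⟨ψ (y : F), hyB⟩ : gaussB M E t π hprime) - ⟨d, hdB⟩ =
        constB M E t π hprime π * w := Subtype.ext hw
    have h2 := congrArg ρ h1
    rw [map_sub, map_mul, hρπ, zero_mul, sub_eq_zero] at h2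
    exact h2
  -- integrality over `k0[T]` and `k0[1/T]`
  have hi1 := isIntegralElem_rho hprime t ht htB ρ φ κ hκ c hc hcB
  have hi2 := isIntegralElem_rho hprime t⁻¹ ht' htinvB ρ φ κ hκ c' hc' hc'B
  rw [← hρ_eq c hcB hcy] at hi1
  rw [← hρ_eq c' hc'B hcy'] at hi2
  let _ : Algebra k0 Ω := κ.toAlgebra
  have hTtr : Transcendental k0 T := by
    rintro ⟨P, hP0, hP⟩
    obtain ⟨P', rfl⟩ := Polynomial.map_surjective φ hφs P
    apply rho_thetaB_ne_zero hprime ht htB ρ φ hφ P' hP0
    have hρθ : ρ.comp (thetaB M E t π hprime t htB) =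
        (eval₂RingHom κ T).comp (mapRingHom φ) := by
      apply Polynomial.ringHom_ext
      · intro a
        simp [thetaB, hκ]
      · simp [thetaB, hT]
    have h1 := congrArg (fun f => f P') hρθ
    simp only [RingHom.comp_apply, coe_mapRingHom, coe_eval₂RingHom] at h1
    rw [h1]
    exact hP
  have hint : IsIntegral k0 (ρ ⟨ψ (y : F), hyB⟩) :=
    IntConst.isIntegral_of_isIntegralElem (eval₂RingHom κ T) (eval₂RingHom κ T')
      (fun a => by simp; rfl) (fun a => by simp; rfl) (by simpa using hTtr) (by simp [hT'eq])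
      _ hi1 hi2
  obtain ⟨Q, hQm, hQ⟩ := hint
  obtain ⟨Q', hQ'map, -, hQ'm⟩ := Polynomial.lifts_and_degree_eq_and_monic
    ((Polynomial.mem_lifts _).mpr (Polynomial.map_surjective φ hφs Q)) hQm
  set x : ↥O := eval₂ cst y Q' with hx
  have hxB : (⟨ψ (x : F), hO x⟩ : gaussB M E t π hprime) =
      eval₂ (constB M E t π hprime) ⟨ψ (y : F), hyB⟩ Q' := by
    apply Subtype.ext
    show ψ (x : F) = (gaussB M E t π hprime).subtype
      (eval₂ (constB M E t π hprime) ⟨ψ (y : F), hyB⟩ Q')
    rw [Polynomial.hom_eval₂]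
    have h1 : ψ (x : F) = (ψ.comp O.subtype) (eval₂ cst y Q') := rfl
    rw [h1, Polynomial.hom_eval₂]
    congr 1
    ext a
    exact hψc a
  have hρx : ρ ⟨ψ (x : F), hO x⟩ = 0 := by
    rw [hxB, Polynomial.hom_eval₂]
    have h1 : ρ.comp (constB M E t π hprime) = κ.comp φ := RingHom.ext fun a => (hκ a).symm
    rw [h1, ← Polynomial.eval₂_map, hQ'map]
    exact hQ
  have hredx : red x = 0 := by
    by_contra hne
    have hx0 : (x : F) ≠ 0 := by
      intro h0
      apply hne
      have h1 : x = 0 := Subtype.ext h0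
      rw [h1, map_zero]
    have hinv := hunit x hne
    have hmul : (⟨ψ (x : F), hO x⟩ : gaussB M E t π hprime) *
        ⟨ψ ((⟨(x : F)⁻¹, hinv⟩ : ↥O) : F), hO ⟨(x : F)⁻¹, hinv⟩⟩ = 1 := by
      apply Subtype.ext
      show ψ (x : F) * ψ ((x : F)⁻¹) = 1
      rw [← map_mul, mul_inv_cancel₀ hx0, map_one]
    have h1 := congrArg ρ hmul
    rw [map_mul, hρx, zero_mul, map_one] at h1
    exact zero_ne_one h1
  have hfin : Polynomial.eval₂ (algebraMap k0 L) (red y) Q = 0 := by
    rw [← hredx, hx, Polynomial.hom_eval₂, ← hQ'map, Polynomial.eval₂_map]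
    congr 1
    ext a
    exact (hcst a).symm
  exact IsIntegral.isAlgebraic ⟨Q, hQm, hfin⟩

/-- **(E), abstract last mile.**  If `y ∈ O` is congruent modulo `π O''` to an element integral
over `A0[t]` and to an element integral over `A0[1/t]`, then `red y` is algebraic over the
residue field `k0`. -/
theorem isAlgebraic_red_of_lifts (M : Type*) [Field M] [Algebra A0 M]
    (E : Type*) [Field E] [Algebra M E] [Algebra A0 E] [IsScalarTower A0 M E]
    (t : M) (ht : Transcendental A0 t)
    (hgen : ∀ m : M, ∃ a b : chart A0 M t, b ≠ 0 ∧ m * (b : M) = (a : M))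
    (π : A0) (hπ : Irreducible π)
    {k0 L : Type*} [Field k0] [Field L] [Algebra k0 L] (φ : A0 →+* k0)
    (hφ : ∀ a, φ a = 0 ↔ π ∣ a) (hφs : Function.Surjective φ)
    {F : Type*} [Field F] (O : Subring F) (red : ↥O →+* L) (cst : A0 →+* ↥O)
    (hcst : ∀ a, red (cst a) = algebraMap k0 L (φ a))
    (ψ : F →+* E) (hψc : ∀ a, ψ ((cst a : ↥O) : F) = algebraMap A0 E a)
    (hO : ∀ x : ↥O, InGauss A0 M E t π (ψ (x : F)))
    (hunit : ∀ x : ↥O, red x ≠ 0 → ((x : F))⁻¹ ∈ O) (y : ↥O)
    (hfin : ∃ c : E, IsIntegral (chart A0 M t) c ∧ InPiGauss A0 M E t π (ψ (y : F) - c))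
    (hinf : ∃ c : E, IsIntegral (chart A0 M t⁻¹) c ∧ InPiGauss A0 M E t⁻¹ π (ψ (y : F) - c)) :
    IsAlgebraic k0 (red y) := by
  have hprime : Prime (unif A0 M t π) := AdjoinChart.prime_unif M t ht π hπ
  have hic := AdjoinChart.isIntegrallyClosed M t ht
  have hfr := AdjoinChart.isFractionRing M t hgen
  have hne : Ideal.span {constB M E t π hprime π} ≠ ⊤ := by
    intro h
    rw [Ideal.eq_top_iff_one, Ideal.mem_span_singleton'] at h
    obtain ⟨w, hw⟩ := h
    apply pi_mul_ne_one hprime hic hfr w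
    have h1 := congrArg Subtype.val hw
    rw [mul_comm]
    exact h1
  obtain ⟨𝔪, h𝔪, hle⟩ := Ideal.exists_le_maximal _ hne
  letI := Ideal.Quotient.field 𝔪
  obtain ⟨c, hc, hcy⟩ := hfin
  obtain ⟨c', hc', hcy'⟩ := hinf
  have ht' := IntConst.transcendental_inv t ht
  have hprime' : Prime (unif A0 M t⁻¹ π) := AdjoinChart.prime_unif M t⁻¹ ht' π hπ
  exact isAlgebraic_red_of_rho hprime ht hπ φ hφ hφs (Ideal.Quotient.mk 𝔪)
    (Ideal.Quotient.eq_zero_iff_mem.mpr (hle (Ideal.subset_span rfl))) O red cst hcst ψ hψc hO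
    hunit y c hc hcy c' hc'
    ((GaussSwap.inGauss_inv_iff M t π hπ ht _).mp (inGauss_of_isIntegral hprime' hc'))
    ((GaussSwap.inPiGauss_inv_iff M t π hπ ht _).mp hcy')

end Main

end Fermat.Agent.S37.CoverEnd
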