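/-
S37 (W2, last mile, abstract part): constancy of a reduction from its two charts.

`B` is any ring carrying a "reduction" `ρ : B →+* Ω` into a field (the Gauss ring of a function
field over a discrete valuation ring, with `Ω` a field of Laurent series over the residue field).
If `c : B` is integral over `A0[t]`, `c' : B` is integral over `A0[1/t]`, and `ρ c = ρ c'`, then
the common reduction is integral over the residue constants `k0`, provided `ρ t` is transcendental
over `k0`.  This is `IntConst.isIntegral_of_isIntegralElem_aeval` transported along `ρ`.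

* `isIntegralElem_map`            : transport of an integrality relation over `A0[t]` along `ρ`;
* `isIntegral_red_of_two_charts`  : the statement above;
* `isIntegralElem_of_isIntegral_chart` : the bridge from `IsIntegral (Algebra.adjoin A0 {t}) x`
  (chart ring inside an intermediate field `M`, `x` in an `M`-algebra `E`) to the polynomial form.
-/
import Mathlib
import Fermat.Agent.S18.IntConst

set_option autoImplicit false

namespace Fermat.Agent.S37.ChartConst

open Polynomial

/-- Transport of integrality over `A0[t]` (polynomial form) along a ring homomorphism `ρ` which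
is compatible with a homomorphism `φ : A0 →+* k0` on constants. -/
theorem isIntegralElem_map {A0 B Ω k0 : Type*} [CommRing A0] [CommRing B] [Algebra A0 B]
    [CommRing Ω] [CommRing k0] [Algebra k0 Ω] (ρ : B →+* Ω) (φ : A0 →+* k0)
    (hφ : ∀ a, ρ (algebraMap A0 B a) = algebraMap k0 Ω (φ a)) (t c : B)
    (hc : (aeval t : A0[X] →ₐ[A0] B).toRingHom.IsIntegralElem c) :
    (aeval (ρ t) : k0[X] →ₐ[k0] Ω).toRingHom.IsIntegralElem (ρ c) := by
  obtain ⟨q, hqm, hq⟩ := hc
  have hcomp : ((aeval (ρ t) : k0[X] →ₐ[k0] Ω).toRingHom).comp (mapRingHom φ) =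
      ρ.comp (aeval t : A0[X] →ₐ[A0] B).toRingHom := by
    refine Polynomial.ringHom_ext (fun a => ?_) ?_
    · simp [hφ]
    · simp
  refine ⟨q.map (mapRingHom φ), hqm.map _, ?_⟩
  rw [eval₂_map, hcomp, ← hom_eval₂, hq, map_zero]

/-- **Two charts.**  `ρ : B →+* Ω` a reduction into a field, `t * tinv = 1` in `B`, `ρ t`
transcendental over `k0`.  If `c` is integral over `A0[t]`, `c'` is integral over `A0[tinv]` and
`ρ c = ρ c'`, then `ρ c` is integral over `k0`. -/
theorem isIntegral_red_of_two_charts {A0 B Ω k0 : Type*} [CommRing A0] [CommRing B] [Algebra A0 B]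
    [Field Ω] [Field k0] [Algebra k0 Ω] (ρ : B →+* Ω) (φ : A0 →+* k0)
    (hφ : ∀ a, ρ (algebraMap A0 B a) = algebraMap k0 Ω (φ a)) (t tinv : B) (htt : t * tinv = 1)
    (htr : Transcendental k0 (ρ t)) (c c' : B)
    (hc : (aeval t : A0[X] →ₐ[A0] B).toRingHom.IsIntegralElem c)
    (hc' : (aeval tinv : A0[X] →ₐ[A0] B).toRingHom.IsIntegralElem c')
    (hcc : ρ c = ρ c') : IsIntegral k0 (ρ c) := by
  have h1 := isIntegralElem_map ρ φ hφ t c hc
  have h2 := isIntegralElem_map ρ φ hφ tinv c' hc'
  have hinv : ρ tinv = (ρ t)⁻¹ := by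
    have h3 : ρ t * ρ tinv = 1 := by rw [← map_mul, htt, map_one]
    exact eq_inv_of_mul_eq_one_right h3
  rw [hinv, ← hcc] at h2
  exact Fermat.Agent.S18.IntConst.isIntegral_of_isIntegralElem_aeval (ρ t) htr (ρ c) h1 h2

/-- The bridge from the chart ring `Algebra.adjoin A0 {t} ⊆ M` acting on an `M`-algebra `E` to
the polynomial form of integrality. -/
theorem isIntegralElem_of_isIntegral_chart {A0 M E : Type*} [CommRing A0] [CommRing M]
    [Algebra A0 M] [CommRing E] [Algebra M E] [Algebra A0 E] [IsScalarTower A0 M E] (t : M)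
    (x : E) (hx : IsIntegral (Algebra.adjoin A0 {t}) x) :
    (aeval (algebraMap M E t) : A0[X] →ₐ[A0] E).toRingHom.IsIntegralElem x := by
  obtain ⟨p, hpm, hp⟩ := hx
  have hsurj : ∀ r : Algebra.adjoin A0 {t}, ∃ P : A0[X], aeval t P = (r : M) := by
    intro r
    have hr : (r : M) ∈ (aeval t : A0[X] →ₐ[A0] M).range := by
      rw [← Algebra.adjoin_singleton_eq_range_aeval]
      exact r.2
    exact hr
  choose g hg using hsurj
  have hl : p.map (algebraMap (Algebra.adjoin A0 {t}) E) ∈
      lifts (aeval (algebraMap M E t) : A0[X] →ₐ[A0] E).toRingHom := by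
    rw [lifts_iff_coeff_lifts]
    intro i
    rw [coeff_map]
    refine ⟨g (p.coeff i), ?_⟩
    have h1 : algebraMap (Algebra.adjoin A0 {t}) E (p.coeff i) =
        algebraMap M E ((p.coeff i : Algebra.adjoin A0 {t}) : M) := rfl
    rw [h1, ← hg (p.coeff i)]
    exact aeval_algebraMap_apply E t (g (p.coeff i))
  obtain ⟨q, hq, -, hqm⟩ := lifts_and_natDegree_eq_and_monic hl (hpm.map _)
  refine ⟨q, hqm, ?_⟩
  rw [← eval_map, hq, eval_map]
  exact hp

/-- The same inside a subring-valued carrier: if `x` and `t` lie in a subalgebra-like ring `B`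
mapping injectively to `E` by an `A0`-algebra homomorphism, the integrality relation holds in
`B`. -/
theorem isIntegralElem_of_injective {A0 B E : Type*} [CommRing A0] [CommRing B] [Algebra A0 B]
    [CommRing E] [Algebra A0 E] (ι : B →ₐ[A0] E) (hι : Function.Injective ι) (t x : B)
    (hx : (aeval (ι t) : A0[X] →ₐ[A0] E).toRingHom.IsIntegralElem (ι x)) :
    (aeval t : A0[X] →ₐ[A0] B).toRingHom.IsIntegralElem x := by
  obtain ⟨q, hqm, hq⟩ := hx
  refine ⟨q, hqm, hι ?_⟩
  have hcomp : (ι : B →+* E).comp (aeval t : A0[X] →ₐ[A0] B).toRingHom =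
      (aeval (ι t) : A0[X] →ₐ[A0] E).toRingHom := by
    refine Polynomial.ringHom_ext (fun a => ?_) ?_
    · simp
    · simp
  have h1 : ι (eval₂ (aeval t : A0[X] →ₐ[A0] B).toRingHom x q) =
      eval₂ (aeval (ι t) : A0[X] →ₐ[A0] E).toRingHom (ι x) q := by
    rw [← hcomp]
    exact hom_eval₂ q _ (ι : B →+* E) x
  rw [h1, hq, map_zero]

end Fermat.Agent.S37.ChartConst
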