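/-
S37 (W2, last mile): numerator / denominator representation in the Gauss ring of `F_K`.

`K` a field, `A` a valuation subring with reduction `φ : A →+* k` (kernel `π A`, `A` discrete and
archimedean), `F_K = K(j(q^d) : d ∣ N)`.  Every element of `F_K` is `π ^ (-m) * U₁ / U₂` with
`U₁, U₂` series over `A` whose images lie in `F_K` and `rho U₂ ≠ 0`; for an element of the Gauss
ring `OvSubring` one can take `m = 0`:

* `exists_rep`            : the representation of an arbitrary element of `F_K`;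
* `exists_quot_of_mem_Ov` : `x ∈ Ov ⟹ x * incl U₂ = incl U₁`, `incl U_i ∈ F_K`, `rho U₂ ≠ 0`.

(`GaussA0.gaussRing` only gives arbitrary series `a, b` over `A`; here numerator and denominator
are themselves functions.)
-/
import Mathlib
import Fermat.Agent.S18.GaussA0

set_option autoImplicit false

noncomputable section

open ModularCurve

namespace Fermat.Agent.S37.QuotRep

open Fermat.Agent.S18.GaussA0

variable {K : Type*} [Field K] (A : ValuationSubring K) {k : Type*} [Field k] (φ : ↥A →+* k)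
  (N : ℕ) {π : ↥A}

theorem piT_ne_zero (hπ0 : π ≠ 0) : piT π ≠ 0 := by
  intro h
  apply hπ0
  have h1 := congrArg (fun s : LaurentSeries ↥A => s.coeff 0) h
  simpa [piT] using h1

variable {A φ}

/-- If `π ^ m * c = U * b` with `rho b ≠ 0`, then `π ^ m` divides `U`. -/
theorem exists_eq_piT_pow_mul (hφ : ∀ x, φ x = 0 ↔ π ∣ x) (hπ0 : π ≠ 0) :
    ∀ (m : ℕ) (U b c : LaurentSeries ↥A), rho φ b ≠ 0 → piT π ^ m * c = U * b →
      ∃ U' : LaurentSeries ↥A, U = piT π ^ m * U' := by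
  intro m
  induction m with
  | zero => intro U b c _ _; exact ⟨U, by rw [pow_zero, one_mul]⟩
  | succ m ih =>
    intro U b c hb h
    have h1 : rho φ U * rho φ b = 0 := by
      rw [← map_mul, ← h, map_mul, map_pow, rho_piT φ ((hφ π).mpr dvd_rfl), pow_succ, mul_zero,
        zero_mul]
    have h2 : rho φ U = 0 := by
      rcases mul_eq_zero.mp h1 with h2 | h2
      · exact h2
      · exact absurd h2 hb
    have h3 := piT_mul_divPiT hφ U h2
    have h4 : piT π ^ m * c = divPiT π U * b := by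
      apply mul_left_cancel₀ (piT_ne_zero A hπ0)
      rw [← mul_assoc, ← pow_succ', h, ← h3, mul_assoc, h3]
    obtain ⟨U', hU'⟩ := ih (divPiT π U) b c hb h4
    exact ⟨U', by rw [← h3, hU', pow_succ', mul_assoc]⟩

variable (A φ)

/-- Every element of `K` is an element of `A` divided by a power of `π`. -/
theorem exists_mul_pow_mem (harch : ∀ c : ↥A, c ≠ 0 → ∃ n : ℕ, c ∣ π ^ n) (c : K) :
    ∃ (m : ℕ) (a : ↥A), c * (π : K) ^ m = (a : K) := by
  rcases A.mem_or_inv_mem c with hc | hc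
  · exact ⟨0, ⟨c, hc⟩, by rw [pow_zero, mul_one]⟩
  · rcases eq_or_ne c 0 with rfl | hc0
    · exact ⟨0, 0, by simp⟩
    · have hb0 : (⟨c⁻¹, hc⟩ : ↥A) ≠ 0 := by
        intro h
        exact inv_ne_zero hc0 (congrArg Subtype.val h)
      obtain ⟨n, d, hd⟩ := harch _ hb0
      refine ⟨n, d, ?_⟩
      have h1 : ((π : K)) ^ n = c⁻¹ * (d : K) := by
        have := congrArg (Subtype.val : ↥A → K) hd
        simpa using this
      rw [h1, ← mul_assoc, mul_inv_cancel₀ hc0, one_mul]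

/-- **Representation.**  Every element of `F_K` is `π ^ (-m) * U₁ / U₂` with `U₁, U₂` series
over `A` lying in `F_K` and `rho U₂ ≠ 0`. -/
theorem exists_rep (hφ : ∀ x, φ x = 0 ↔ π ∣ x) (hπ0 : π ≠ 0)
    (hkrull : ∀ c : ↥A, c ≠ 0 → ∃ n : ℕ, ¬ π ^ n ∣ c)
    (harch : ∀ c : ↥A, c ≠ 0 → ∃ n : ℕ, c ∣ π ^ n)
    {x : LaurentSeries K} (hx : x ∈ modularFunctionFieldFullC K N) :
    ∃ (U₁ U₂ : LaurentSeries ↥A) (m : ℕ), incl A U₁ ∈ modularFunctionFieldFullC K N ∧
      incl A U₂ ∈ modularFunctionFieldFullC K N ∧ rho φ U₂ ≠ 0 ∧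
      x * incl A U₂ * (HahnSeries.C (π : K)) ^ m = incl A U₁ := by
  have hCπ : (HahnSeries.C (π : K) : LaurentSeries K) ∈ modularFunctionFieldFullC K N := by
    rw [← algebraMap_eq_C]
    exact (modularFunctionFieldFullC K N).algebraMap_mem _
  have hCπ0 : (HahnSeries.C (π : K) : LaurentSeries K) ≠ 0 :=
    HahnSeries.C_ne_zero (fun h => hπ0 (Subtype.ext h))
  have hone : rho φ (1 : LaurentSeries ↥A) ≠ 0 := by rw [map_one]; exact one_ne_zero
  have hone' : incl A (1 : LaurentSeries ↥A) ∈ modularFunctionFieldFullC K N := by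
    rw [map_one]; exact one_mem _
  unfold modularFunctionFieldFullC at hx
  induction hx using IntermediateField.adjoin_induction with
  | mem x hx =>
    obtain ⟨d, hd0, hd, rfl⟩ := hx
    have := hd0
    refine ⟨qExpand ↥A d (jqModC ↥A), 1, 0, ?_, hone', hone, ?_⟩
    · rw [incl_qExpand, incl_jqModC]
      exact jqModCd_mem_full K N hd
    · rw [map_one, mul_one, pow_zero, mul_one, incl_qExpand, incl_jqModC]
  | algebraMap c =>
    obtain ⟨m, a, ha⟩ := exists_mul_pow_mem A harch c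
    refine ⟨HahnSeries.C a, 1, m, ?_, hone', hone, ?_⟩
    · rw [incl_C, ← algebraMap_eq_C]
      exact (modularFunctionFieldFullC K N).algebraMap_mem _
    · rw [map_one, mul_one, incl_C, algebraMap_eq_C, ← map_pow, ← map_mul, ha]
  | add x y _ _ hx hy =>
    obtain ⟨U₁, U₂, m, hU₁, hU₂, hρ, h⟩ := hx
    obtain ⟨V₁, V₂, n, hV₁, hV₂, hρ', h'⟩ := hy
    refine ⟨U₁ * V₂ * piT π ^ n + V₁ * U₂ * piT π ^ m, U₂ * V₂, m + n, ?_, ?_, ?_, ?_⟩
    · rw [map_add, map_mul, map_mul, map_mul, map_mul, map_pow, map_pow, incl_piT]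
      exact add_mem (mul_mem (mul_mem hU₁ hV₂) (pow_mem hCπ n))
        (mul_mem (mul_mem hV₁ hU₂) (pow_mem hCπ m))
    · rw [map_mul]; exact mul_mem hU₂ hV₂
    · rw [map_mul]; exact mul_ne_zero hρ hρ'
    · rw [map_add, map_mul, map_mul, map_mul, map_mul, map_mul, map_pow, map_pow, incl_piT, ← h,
        ← h', pow_add]
      ring
  | inv x _ hx =>
    obtain ⟨U₁, U₂, m, hU₁, hU₂, hρ, h⟩ := hx
    rcases eq_or_ne U₁ 0 with rfl | hU₁0
    · have hx0 : x = 0 := by
        rw [map_zero] at h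
        have h2 : incl A U₂ ≠ 0 := incl_ne_zero A (ne_zero_of_rho_ne_zero hρ)
        rcases mul_eq_zero.mp h with h3 | h3
        · rcases mul_eq_zero.mp h3 with h4 | h4
          · exact h4
          · exact absurd h4 h2
        · exact absurd h3 (pow_ne_zero _ hCπ0)
      refine ⟨0, 1, 0, by rw [map_zero]; exact zero_mem _, hone', hone, ?_⟩
      rw [hx0, inv_zero, zero_mul, zero_mul, map_zero]
    · obtain ⟨e, U₁', hU, hρ'⟩ := exists_pow_mul hφ hkrull U₁ hU₁0
      have hinc : incl A U₁ = (HahnSeries.C (π : K)) ^ e * incl A U₁' := by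
        rw [hU, map_mul, map_pow, incl_piT]
      have hU₁' : incl A U₁' ∈ modularFunctionFieldFullC K N := by
        have h5 : incl A U₁' = ((HahnSeries.C (π : K)) ^ e)⁻¹ * incl A U₁ := by
          rw [hinc, ← mul_assoc, inv_mul_cancel₀ (pow_ne_zero _ hCπ0), one_mul]
        rw [h5]
        exact mul_mem (inv_mem (pow_mem hCπ e)) hU₁
      have hx0 : x ≠ 0 := by
        rintro rfl
        rw [zero_mul, zero_mul] at h
        exact incl_ne_zero A hU₁0 h.symm
      refine ⟨U₂ * piT π ^ m, U₁', e, ?_, hU₁', hρ', ?_⟩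
      · rw [map_mul, map_pow, incl_piT]
        exact mul_mem hU₂ (pow_mem hCπ m)
      · rw [map_mul, map_pow, incl_piT, mul_assoc, mul_comm (incl A U₁'), ← hinc, ← h,
          ← mul_assoc, ← mul_assoc, inv_mul_cancel₀ hx0, one_mul]
  | mul x y _ _ hx hy =>
    obtain ⟨U₁, U₂, m, hU₁, hU₂, hρ, h⟩ := hx
    obtain ⟨V₁, V₂, n, hV₁, hV₂, hρ', h'⟩ := hy
    refine ⟨U₁ * V₁, U₂ * V₂, m + n, ?_, ?_, ?_, ?_⟩
    · rw [map_mul]; exact mul_mem hU₁ hV₁
    · rw [map_mul]; exact mul_mem hU₂ hV₂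
    · rw [map_mul]; exact mul_ne_zero hρ hρ'
    · rw [map_mul, map_mul, ← h, ← h', pow_add]
      ring

/-- **Numerator and denominator in the Gauss ring.**  Every element of the Gauss ring
`OvSubring` of `F_K` is `U₁ / U₂` with `U₁, U₂` series over `A` lying in `F_K`, `rho U₂ ≠ 0`. -/
theorem exists_quot_of_mem_Ov (hφ : ∀ x, φ x = 0 ↔ π ∣ x) (hπ0 : π ≠ 0)
    (hkrull : ∀ c : ↥A, c ≠ 0 → ∃ n : ℕ, ¬ π ^ n ∣ c)
    (harch : ∀ c : ↥A, c ≠ 0 → ∃ n : ℕ, c ∣ π ^ n)
    (x : ↥(modularFunctionFieldFullC K N)) (hx : x ∈ OvSubring A φ N) :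
    ∃ U₁ U₂ : LaurentSeries ↥A, incl A U₁ ∈ modularFunctionFieldFullC K N ∧
      incl A U₂ ∈ modularFunctionFieldFullC K N ∧ rho φ U₂ ≠ 0 ∧
      (x : LaurentSeries K) * incl A U₂ = incl A U₁ := by
  obtain ⟨U₁, U₂, m, hU₁, hU₂, hρ, h⟩ := exists_rep A φ N hφ hπ0 hkrull harch x.2
  obtain ⟨a, b, hb, hab⟩ := (mem_OvSubring_iff' A φ N x).mp hx
  have hCπ0 : (HahnSeries.C (π : K) : LaurentSeries K) ≠ 0 :=
    HahnSeries.C_ne_zero (fun h => hπ0 (Subtype.ext h))
  have h1 : piT π ^ m * (a * U₂) = U₁ * b := by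
    apply incl_injective A
    rw [map_mul, map_mul, map_mul, map_pow, incl_piT, ← hab, ← h]
    ring
  obtain ⟨U', hU'⟩ := exists_eq_piT_pow_mul hφ hπ0 m U₁ b (a * U₂) hb h1
  have h2 : (x : LaurentSeries K) * incl A U₂ = incl A U' := by
    apply mul_right_cancel₀ (pow_ne_zero m hCπ0)
    rw [h, hU', map_mul, map_pow, incl_piT, mul_comm]
  refine ⟨U', U₂, ?_, hU₂, hρ, h2⟩
  rw [← h2]
  exact mul_mem x.2 hU₂

end Fermat.Agent.S37.QuotRep
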