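/-
S37 (W2, last mile, sealed carriers): from "the reduction lifts to both chart rings" to the
conclusion of `TorsionInj.ZeroSumConst`.

Carriers (those of `H2Top` / `NormalJ`): `K` finite over `ℚ` inside `ℚ̄`, `A` a valuation subring
of `ℚ̄` over the prime `ℓ ∤ N`, `A₀ = A ∩ K` with uniformizer `π`, `F = FK K N`,
`M = Line K (jF K N)`, `t = Line.gen K (jF K N)`.

* `OvK`, `redOv`                : the Gauss ring of `F` and its reduction (sealed `GaussA0`);
* `inGauss_iff_mem`, `inPiGauss_iff_redv` : `InGauss` / `InPiGauss` on the `j`-line;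
* `isIntegral_redOv_of_lifts`   : `y ≡ c` (`c` integral over `A₀[j]`) and `y ≡ c'` (`c'` integral
  over `A₀[1/j]`) modulo `π` imply that the reduction of `y` is algebraic over `k₀`;
* `exists_isInt_of_lifts`       : then `y = u₁ / u₂` with `u₁, u₂` integral series over `A`
  (`Step1.IsInt`), nonzero reductions with the same divisor (their quotient is a constant);
* `exists_isInt_of_lifts_zpow`  : the same for `h = ιL y₀`, `y = π ^ n * y₀` Gauss primitive,
  in the `∀ P, P.ord (h₁.toL / h₂.toL) = P.ord h` form of `ZeroSumConst`;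
* `inPiGauss_sub_of_mul_fin/_inf` : adapter from `a ≡ b * c` (`y = a / b`, `b` Gauss primitive)
  to `y ≡ c`;
* `exists_zpow_mul_primitive`   : every nonzero `y` has a Gauss-primitive multiple `π ^ n * y`.
-/
import Mathlib
import Fermat.Agent.S18.H2Top
import Fermat.Agent.S18.GaussSwap
import Fermat.Agent.S18.Step1
import Fermat.Agent.S18.Descent
import Fermat.Agent.S37.ChartConst
import Fermat.Agent.S37.QuotRep

set_option autoImplicit false
set_option linter.unusedSectionVars false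
set_option synthInstance.maxHeartbeats 400000
set_option linter.style.haveILetI false

noncomputable section

open ModularCurve AlgebraicCurve

namespace Fermat.Agent.S37.ConstEnd

open Fermat.Agent.S18.CoreDefs Fermat.Agent.S18.Setup Fermat.Agent.S18

local notation "Qb" => AlgebraicClosure ℚ

variable (K : Type*) [Field K] [Algebra K Qb] [Algebra ℚ K] [FiniteDimensional ℚ K]
  (N : ℕ) [NeZero N] (A : ValuationSubring Qb)

/-- The Gauss ring of the sealed function field `FK K N` over `A₀ = A ∩ K`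
(`= GaussA0.OvSubring`, as a subring of the sealed carrier). -/
def OvK : Subring (FK K N) :=
  GaussA0.OvSubring (A0.down K A) (IsLocalRing.residue ↥(A0.down K A)) N

/-- The reduction of the Gauss ring, with values in `k₀((q))` (`= GaussA0.redv`). -/
def redOv : ↥(OvK K N A) →+* LaurentSeries (IsLocalRing.ResidueField ↥(A0.down K A)) :=
  GaussA0.redv (A0.down K A) (IsLocalRing.residue ↥(A0.down K A)) N

/-- `InGauss` on the sealed `j`-line is membership in the Gauss ring `OvSubring`. -/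
theorem inGauss_iff_mem {ℓ : ℕ} (hℓ : ℓ.Prime) (hℓN : ¬ ℓ ∣ N) (hA : A.LiesOverPrime ℓ)
    (π : ↥(A0.down K A)) (hπ : Irreducible π)
    (hmax : IsLocalRing.maximalIdeal ↥(A0.down K A) = Ideal.span {π})
    (z : FK K N) :
    InGauss ↥(A0.down K A) (Line K (jF K N)) (FK K N) (Line.gen K (jF K N)) π z ↔
      z ∈ OvK K N A := by
  obtain ⟨hφ, hπ0, hkrull, hfin, hNk⟩ := H2Top.gauss_hyps K N A hℓ hℓN hA π hπ hmax
  have hB : (A0.down K A).LiesOverPrime ℓ := (A0.liesOverPrime_down_iff A).mpr hA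
  have hdvr : IsDiscreteValuationRing ↥(A0.down K A) := A0.isDiscreteValuationRing _ hℓ hB
  have ht : Transcendental ↥(A0.down K A) (Line.gen K (jF K N)) :=
    Line.transcendental_gen_val (jF K N) (A0.down K A) (transcendental_jF K N)
  have hπ' := AdjoinChart.prime_unif (Line K (jF K N)) (Line.gen K (jF K N)) ht π hπ
  have hN : 0 < N := Nat.pos_of_ne_zero (NeZero.ne N)
  have hden := @H2InstAux.hden K _ (A0.down K A) _ _ (IsLocalRing.residue ↥(A0.down K A)) N π
    hφ hπ0 hkrull (Line K (jF K N)) (instFieldLine K (jF K N)) (instAlgebraLine K (jF K N))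
    (instAlgebraLineTop K (jF K N)) (instIsScalarTowerLine K (jF K N))
    (inferInstance : Algebra ↥(A0.down K A) (Line K (jF K N)))
    (inferInstance : Algebra ↥(A0.down K A) (FK K N))
    (inferInstance : IsScalarTower ↥(A0.down K A) (Line K (jF K N)) (FK K N))
    (fun _ => rfl) (Line.gen K (jF K N)) rfl ht (algebraMap_line_mem K (jF K N))
  exact @H2Inst.inGauss_iff_mono K _ (A0.down K A) _ _
    (IsLocalRing.residue ↥(A0.down K A)) N π
    hφ hπ0 hkrull IsLocalRing.residue_surjective (Line K (jF K N)) (instFieldLine K (jF K N))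
    (instAlgebraLine K (jF K N)) (instAlgebraLineTop K (jF K N))
    (instIsScalarTowerLine K (jF K N))
    (inferInstance : Algebra ↥(A0.down K A) (Line K (jF K N)))
    (inferInstance : Algebra ↥(A0.down K A) (FK K N))
    (inferInstance : IsScalarTower ↥(A0.down K A) (Line K (jF K N)) (FK K N))
    (fun _ => rfl) (Line.gen K (jF K N)) rfl hπ' hden hN hNk
    (instFiniteDimensionalLineFK K N) (finrank_line_le K N) z

/-- `InPiGauss` on the sealed `j`-line is the kernel of the reduction `redv`. -/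
theorem inPiGauss_iff_redv {ℓ : ℕ} (hℓ : ℓ.Prime) (hℓN : ¬ ℓ ∣ N) (hA : A.LiesOverPrime ℓ)
    (π : ↥(A0.down K A)) (hπ : Irreducible π)
    (hmax : IsLocalRing.maximalIdeal ↥(A0.down K A) = Ideal.span {π})
    (z : FK K N) :
    InPiGauss ↥(A0.down K A) (Line K (jF K N)) (FK K N) (Line.gen K (jF K N)) π z ↔
      ∃ hm : z ∈ OvK K N A, redOv K N A ⟨z, hm⟩ = 0 := by
  obtain ⟨hφ, hπ0, hkrull, hfin, hNk⟩ := H2Top.gauss_hyps K N A hℓ hℓN hA π hπ hmax
  have hB : (A0.down K A).LiesOverPrime ℓ := (A0.liesOverPrime_down_iff A).mpr hA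
  have hdvr : IsDiscreteValuationRing ↥(A0.down K A) := A0.isDiscreteValuationRing _ hℓ hB
  have ht : Transcendental ↥(A0.down K A) (Line.gen K (jF K N)) :=
    Line.transcendental_gen_val (jF K N) (A0.down K A) (transcendental_jF K N)
  have hπ' := AdjoinChart.prime_unif (Line K (jF K N)) (Line.gen K (jF K N)) ht π hπ
  have hN : 0 < N := Nat.pos_of_ne_zero (NeZero.ne N)
  have hden := @H2InstAux.hden K _ (A0.down K A) _ _ (IsLocalRing.residue ↥(A0.down K A)) N π
    hφ hπ0 hkrull (Line K (jF K N)) (instFieldLine K (jF K N)) (instAlgebraLine K (jF K N))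
    (instAlgebraLineTop K (jF K N)) (instIsScalarTowerLine K (jF K N))
    (inferInstance : Algebra ↥(A0.down K A) (Line K (jF K N)))
    (inferInstance : Algebra ↥(A0.down K A) (FK K N))
    (inferInstance : IsScalarTower ↥(A0.down K A) (Line K (jF K N)) (FK K N))
    (fun _ => rfl) (Line.gen K (jF K N)) rfl ht (algebraMap_line_mem K (jF K N))
  exact @H2Inst.inPiGauss_iff_mono K _ (A0.down K A) _ _
    (IsLocalRing.residue ↥(A0.down K A)) N π
    hφ hπ0 hkrull IsLocalRing.residue_surjective (Line K (jF K N)) (instFieldLine K (jF K N))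
    (instAlgebraLine K (jF K N)) (instAlgebraLineTop K (jF K N))
    (instIsScalarTowerLine K (jF K N))
    (inferInstance : Algebra ↥(A0.down K A) (Line K (jF K N)))
    (inferInstance : Algebra ↥(A0.down K A) (FK K N))
    (inferInstance : IsScalarTower ↥(A0.down K A) (Line K (jF K N)) (FK K N))
    (fun _ => rfl) (Line.gen K (jF K N)) rfl hπ' hden hN hNk
    (instFiniteDimensionalLineFK K N) (finrank_line_le K N) z


/-- An element integral over the finite chart `A₀[j]` lies in the Gauss ring. -/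
theorem mem_of_isIntegral_fin {ℓ : ℕ} (hℓ : ℓ.Prime) (hℓN : ¬ ℓ ∣ N) (hA : A.LiesOverPrime ℓ)
    (π : ↥(A0.down K A)) (hπ : Irreducible π)
    (hmax : IsLocalRing.maximalIdeal ↥(A0.down K A) = Ideal.span {π})
    (c : FK K N)
    (hc : IsIntegral ↥(chart ↥(A0.down K A) (Line K (jF K N)) (Line.gen K (jF K N))) c) :
    c ∈ OvK K N A := by
  have hB : (A0.down K A).LiesOverPrime ℓ := (A0.liesOverPrime_down_iff A).mpr hA
  have hdvr : IsDiscreteValuationRing ↥(A0.down K A) := A0.isDiscreteValuationRing _ hℓ hB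
  have ht : Transcendental ↥(A0.down K A) (Line.gen K (jF K N)) :=
    Line.transcendental_gen_val (jF K N) (A0.down K A) (transcendental_jF K N)
  have hπ' := AdjoinChart.prime_unif (Line K (jF K N)) (Line.gen K (jF K N)) ht π hπ
  refine (inGauss_iff_mem K N A hℓ hℓN hA π hπ hmax c).mp ⟨1, hπ'.not_dvd_one, ?_⟩
  rw [one_smul]
  exact hc

/-- An element integral over the chart at infinity `A₀[1/j]` lies in the Gauss ring. -/
theorem mem_of_isIntegral_inf {ℓ : ℕ} (hℓ : ℓ.Prime) (hℓN : ¬ ℓ ∣ N) (hA : A.LiesOverPrime ℓ)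
    (π : ↥(A0.down K A)) (hπ : Irreducible π)
    (hmax : IsLocalRing.maximalIdeal ↥(A0.down K A) = Ideal.span {π})
    (c : FK K N)
    (hc : IsIntegral ↥(chart ↥(A0.down K A) (Line K (jF K N)) (Line.gen K (jF K N))⁻¹) c) :
    c ∈ OvK K N A := by
  have hB : (A0.down K A).LiesOverPrime ℓ := (A0.liesOverPrime_down_iff A).mpr hA
  have hdvr : IsDiscreteValuationRing ↥(A0.down K A) := A0.isDiscreteValuationRing _ hℓ hB
  have ht : Transcendental ↥(A0.down K A) (Line.gen K (jF K N)) :=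
    Line.transcendental_gen_val (jF K N) (A0.down K A) (transcendental_jF K N)
  have ht' := IntConst.transcendental_inv _ ht
  have hπ' := AdjoinChart.prime_unif (Line K (jF K N)) (Line.gen K (jF K N))⁻¹ ht' π hπ
  refine (inGauss_iff_mem K N A hℓ hℓN hA π hπ hmax c).mp
    ((GaussSwap.inGauss_inv_iff (Line K (jF K N)) (Line.gen K (jF K N)) π hπ ht
      c).mp ⟨1, hπ'.not_dvd_one, ?_⟩)
  rw [one_smul]
  exact hc


/-- **Two charts, sealed.**  If the reduction of `y` lifts to the integral closure of the finite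
chart `A₀[j]` and to the integral closure of the chart at infinity `A₀[1/j]`, then `y` lies in
the Gauss ring and its reduction is algebraic over the residue field `k₀`. -/
theorem isIntegral_redOv_of_lifts {ℓ : ℕ} (hℓ : ℓ.Prime) (hℓN : ¬ ℓ ∣ N) (hA : A.LiesOverPrime ℓ)
    (π : ↥(A0.down K A)) (hπ : Irreducible π)
    (hmax : IsLocalRing.maximalIdeal ↥(A0.down K A) = Ideal.span {π})
    (y c c' : FK K N)
    (hc : IsIntegral ↥(chart ↥(A0.down K A) (Line K (jF K N)) (Line.gen K (jF K N))) c)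
    (hyc : InPiGauss ↥(A0.down K A) (Line K (jF K N)) (FK K N) (Line.gen K (jF K N)) π (y - c))
    (hc' : IsIntegral ↥(chart ↥(A0.down K A) (Line K (jF K N)) (Line.gen K (jF K N))⁻¹) c')
    (hyc' : InPiGauss ↥(A0.down K A) (Line K (jF K N)) (FK K N) (Line.gen K (jF K N))⁻¹ π
      (y - c')) :
    ∃ hy : y ∈ OvK K N A,
      IsIntegral (IsLocalRing.ResidueField ↥(A0.down K A)) (redOv K N A ⟨y, hy⟩) := by
  have hB : (A0.down K A).LiesOverPrime ℓ := (A0.liesOverPrime_down_iff A).mpr hA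
  have hdvr : IsDiscreteValuationRing ↥(A0.down K A) := A0.isDiscreteValuationRing _ hℓ hB
  have ht : Transcendental ↥(A0.down K A) (Line.gen K (jF K N)) :=
    Line.transcendental_gen_val (jF K N) (A0.down K A) (transcendental_jF K N)
  -- the two lifts lie in the Gauss ring and have the reduction of `y`
  have hcO := mem_of_isIntegral_fin K N A hℓ hℓN hA π hπ hmax c hc
  have hcO' := mem_of_isIntegral_inf K N A hℓ hℓN hA π hπ hmax c' hc'
  obtain ⟨hm, h0⟩ := (inPiGauss_iff_redv K N A hℓ hℓN hA π hπ hmax (y - c)).mp hyc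
  obtain ⟨hm', h0'⟩ := (inPiGauss_iff_redv K N A hℓ hℓN hA π hπ hmax (y - c')).mp
    ((GaussSwap.inPiGauss_inv_iff (Line K (jF K N)) (Line.gen K (jF K N)) π hπ ht (y - c')).mp
      hyc')
  have hy : y ∈ OvK K N A := by
    have h1 := (OvK K N A).add_mem hm hcO
    rwa [sub_add_cancel] at h1
  have hyc1 : redOv K N A ⟨y, hy⟩ = redOv K N A ⟨c, hcO⟩ := by
    have h1 : (⟨y, hy⟩ : ↥(OvK K N A)) = ⟨y - c, hm⟩ + ⟨c, hcO⟩ :=
      Subtype.ext (sub_add_cancel y c).symm
    rw [h1, map_add, h0, zero_add]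
  have hyc2 : redOv K N A ⟨y, hy⟩ = redOv K N A ⟨c', hcO'⟩ := by
    have h1 : (⟨y, hy⟩ : ↥(OvK K N A)) = ⟨y - c', hm'⟩ + ⟨c', hcO'⟩ :=
      Subtype.ext (sub_add_cancel y c').symm
    rw [h1, map_add, h0', zero_add]
  refine ⟨hy, ?_⟩
  rw [hyc1]
  -- the abstract two-chart statement in `B = OvK`
  let algB : Algebra ↥(A0.down K A) ↥(OvK K N A) :=
    (GaussA0.constO (A0.down K A) (IsLocalRing.residue ↥(A0.down K A)) N).toAlgebra
  let ι : ↥(OvK K N A) →ₐ[↥(A0.down K A)] FK K N :=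
    { (OvK K N A).subtype with commutes' := fun a => rfl }
  have hι : Function.Injective ι := Subtype.val_injective
  let tB : ↥(OvK K N A) :=
    GaussDeg.jO (A0.down K A) (IsLocalRing.residue ↥(A0.down K A)) N
  have htred : redOv K N A tB = jqModC (IsLocalRing.ResidueField ↥(A0.down K A)) :=
    GaussDeg.redv_jO (A0.down K A) (IsLocalRing.residue ↥(A0.down K A)) N
  have htr : Transcendental (IsLocalRing.ResidueField ↥(A0.down K A)) (redOv K N A tB) := by
    rw [htred]
    exact Fermat.Agent.S28.CruxL.transcendental_jqModC _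
  have hu : IsUnit tB := by
    apply GaussA0.isUnit_of_redv_ne_zero
    intro h
    have h' : redOv K N A tB = 0 := h
    exact htr ⟨Polynomial.X, Polynomial.X_ne_zero, by rw [Polynomial.aeval_X]; exact h'⟩
  obtain ⟨tinv, htinv⟩ := hu.exists_right_inv
  have hιt : ι tB = algebraMap (Line K (jF K N)) (FK K N) (Line.gen K (jF K N)) := rfl
  have hιtinv : ι tinv = algebraMap (Line K (jF K N)) (FK K N) (Line.gen K (jF K N))⁻¹ := by
    rw [map_inv₀, ← hιt]
    have h1 : ι tB * ι tinv = 1 := by rw [← map_mul, htinv, map_one]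
    exact eq_inv_of_mul_eq_one_right h1
  have hcB : (Polynomial.aeval tB :
      Polynomial ↥(A0.down K A) →ₐ[↥(A0.down K A)] ↥(OvK K N A)).toRingHom.IsIntegralElem
      ⟨c, hcO⟩ := by
    apply ChartConst.isIntegralElem_of_injective ι hι
    rw [hιt]
    exact ChartConst.isIntegralElem_of_isIntegral_chart (Line.gen K (jF K N)) c hc
  have hcB' : (Polynomial.aeval tinv :
      Polynomial ↥(A0.down K A) →ₐ[↥(A0.down K A)] ↥(OvK K N A)).toRingHom.IsIntegralElem
      ⟨c', hcO'⟩ := by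
    apply ChartConst.isIntegralElem_of_injective ι hι
    rw [hιtinv]
    exact ChartConst.isIntegralElem_of_isIntegral_chart (Line.gen K (jF K N))⁻¹ c' hc'
  refine ChartConst.isIntegral_red_of_two_charts (redOv K N A)
    (IsLocalRing.residue ↥(A0.down K A)) (fun a => ?_) tB tinv htinv htr ⟨c, hcO⟩ ⟨c', hcO'⟩
    hcB hcB' (hyc1.symm.trans hyc2)
  rw [GaussA0.algebraMap_eq_C]
  exact GaussA0.redv_constO (A0.down K A) (IsLocalRing.residue ↥(A0.down K A)) N a


/-- A nonzero constant factor does not change the order at a place. -/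
theorem ord_const_mul {k F : Type*} [Field k] [Field F] [Algebra k F] (Q : Place k F) (c : k)
    (x : F) (hc : algebraMap k F c ≠ 0) (hx : x ≠ 0) :
    Q.ord (algebraMap k F c * x) = Q.ord x := by
  rw [Q.ord_mul hc hx, Fermat.Agent.S24.Place.ord_algebraMap, zero_add]

/-- The coefficient extension of a series over `A₀ = A ∩ K` to `A`, then to `ℚ̄`. -/
theorem coeffMap_subtype_incl (U : LaurentSeries ↥(A0.down K A)) :
    coeffMap A.subtype (coeffMap (A0.incl K A) U) =
      coeffMap (algebraMap K Qb) (GaussA0.incl (A0.down K A) U) := by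
  have hcomp : A.subtype.comp (A0.incl K A) =
      (algebraMap K Qb).comp (A0.down K A).subtype := RingHom.ext fun _ => rfl
  rw [coeffMap_coeffMap, coeffMap_congr hcomp, ← coeffMap_coeffMap]
  rfl

/-- The reduction of the coefficient extension of a series over `A₀ = A ∩ K` to `A`. -/
theorem coeffMap_residue_incl (U : LaurentSeries ↥(A0.down K A)) :
    coeffMap (IsLocalRing.residue A) (coeffMap (A0.incl K A) U) =
      coeffMap (A0.resMap K A) (GaussA0.rho (IsLocalRing.residue ↥(A0.down K A)) U) := by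
  have hres : (IsLocalRing.residue A).comp (A0.incl K A) =
      (A0.resMap K A).comp (IsLocalRing.residue (A0.down K A)) :=
    RingHom.ext fun x => (A0.resMap_residue A x).symm
  rw [GaussA0.rho, coeffMap_coeffMap, coeffMap_coeffMap, coeffMap_congr hres]

/-- The reduction of a series over `A₀` lying in `F_K` lies in `F_{k₀}`. -/
theorem rho_mem_full {ℓ : ℕ} (hℓ : ℓ.Prime) (hℓN : ¬ ℓ ∣ N) (hA : A.LiesOverPrime ℓ)
    (π : ↥(A0.down K A)) (hπ : Irreducible π)
    (hmax : IsLocalRing.maximalIdeal ↥(A0.down K A) = Ideal.span {π})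
    (U : LaurentSeries ↥(A0.down K A))
    (hU : GaussA0.incl (A0.down K A) U ∈ modularFunctionFieldFullC K N) :
    GaussA0.rho (IsLocalRing.residue ↥(A0.down K A)) U ∈
      modularFunctionFieldFullC (IsLocalRing.ResidueField ↥(A0.down K A)) N := by
  obtain ⟨hφ, hπ0, hkrull, hfink, hNk⟩ := H2Top.gauss_hyps K N A hℓ hℓN hA π hπ hmax
  have hN : 0 < N := Nat.pos_of_ne_zero (NeZero.ne N)
  obtain ⟨m, hm, hmono⟩ := GaussDeg.exists_monomials
    (IsLocalRing.ResidueField ↥(A0.down K A)) N hN hNk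
  have hfd := (FieldDefQ.finrank_le_psi K N).1
  have hle := (FieldDefQ.finrank_le_psi K N).2
  have h1 := GaussDeg.redv_mem_full hφ hπ0 hkrull hN m hm hmono hle
    (⟨⟨GaussA0.incl (A0.down K A) U, hU⟩, GaussA0.mem_OvSubring_of_incl U rfl⟩ :
      ↥(GaussA0.OvSubring (A0.down K A) (IsLocalRing.residue ↥(A0.down K A)) N))
  rwa [GaussA0.redv_of_incl _ U rfl] at h1

/-- A series over `A₀ = A ∩ K` lying in `F_K` gives an integral series over `A`. -/
theorem isInt_of_incl_mem {ℓ : ℕ} (hℓ : ℓ.Prime) (hℓN : ¬ ℓ ∣ N) (hA : A.LiesOverPrime ℓ)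
    (π : ↥(A0.down K A)) (hπ : Irreducible π)
    (hmax : IsLocalRing.maximalIdeal ↥(A0.down K A) = Ideal.span {π})
    (U : LaurentSeries ↥(A0.down K A))
    (hU : GaussA0.incl (A0.down K A) U ∈ modularFunctionFieldFullC K N) :
    Step1.IsInt A N (coeffMap (A0.incl K A) U) :=
  ⟨by rw [coeffMap_subtype_incl, FieldDef.bar_eq_fullC]
      exact FieldDef.coeffMap_mem_fullC _ N hU,
    by rw [coeffMap_residue_incl]
       exact FieldDef.coeffMap_mem_fullC _ N (rho_mem_full K N A hℓ hℓN hA π hπ hmax U hU)⟩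

/-- A Laurent series over `k₀` which is algebraic over `k₀` becomes a constant over the
(algebraically closed) residue field of `A`. -/
theorem exists_const_of_isIntegral
    (z : LaurentSeries (IsLocalRing.ResidueField ↥(A0.down K A)))
    (hz : IsIntegral (IsLocalRing.ResidueField ↥(A0.down K A)) z) :
    ∃ c0 : IsLocalRing.ResidueField A,
      algebraMap (IsLocalRing.ResidueField A) (LaurentSeries (IsLocalRing.ResidueField A)) c0 =
        coeffMap (A0.resMap K A) z := by
  haveI : IsAlgClosed (IsLocalRing.ResidueField A) := ResField.isAlgClosed A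
  have hz' : IsIntegral (IsLocalRing.ResidueField A) (coeffMap (A0.resMap K A) z) := by
    obtain ⟨p, hpm, hp⟩ := hz
    refine ⟨p.map (A0.resMap K A), hpm.map _, ?_⟩
    have hcm : (algebraMap (IsLocalRing.ResidueField A)
        (LaurentSeries (IsLocalRing.ResidueField A))).comp (A0.resMap K A) =
        (coeffMap (A0.resMap K A)).comp (algebraMap (IsLocalRing.ResidueField ↥(A0.down K A))
          (LaurentSeries (IsLocalRing.ResidueField ↥(A0.down K A)))) :=
      RingHom.ext fun a => (FieldDef.coeffMap_algebraMap' (A0.resMap K A) a).symm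
    rw [Polynomial.eval₂_map, hcm, ← Polynomial.hom_eval₂, hp, map_zero]
  exact IntConst.mem_range_algebraMap_of_isIntegral_self _ hz'


/-- **The last mile of `ZeroSumConst`.**  Let `y` be a Gauss-primitive element of the function
field over the number field `K` (`y ∉ π O''`) whose reduction lifts to the integral closure of
`A₀[j]` and to the integral closure of `A₀[1/j]` (`ȳ` is regular on the special fibre of both
charts).  Then `y = u₁ / u₂` with `u₁, u₂` integral series over `A` with nonzero reductions, and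
the reduction of `u₁ / u₂` is a nonzero constant; in particular the reductions of `u₁` and `u₂`
have the same divisor. -/
theorem exists_isInt_of_lifts {ℓ : ℕ} (hℓ : ℓ.Prime) (hℓN : ¬ ℓ ∣ N) (hA : A.LiesOverPrime ℓ)
    (π : ↥(A0.down K A)) (hπ : Irreducible π)
    (hmax : IsLocalRing.maximalIdeal ↥(A0.down K A) = Ideal.span {π})
    (y : FK K N)
    (hy0 : ¬ InPiGauss ↥(A0.down K A) (Line K (jF K N)) (FK K N) (Line.gen K (jF K N)) π y)
    (hfin : ∃ c : FK K N,
      IsIntegral ↥(chart ↥(A0.down K A) (Line K (jF K N)) (Line.gen K (jF K N))) c ∧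
      InPiGauss ↥(A0.down K A) (Line K (jF K N)) (FK K N) (Line.gen K (jF K N)) π (y - c))
    (hinf : ∃ c : FK K N,
      IsIntegral ↥(chart ↥(A0.down K A) (Line K (jF K N)) (Line.gen K (jF K N))⁻¹) c ∧
      InPiGauss ↥(A0.down K A) (Line K (jF K N)) (FK K N) (Line.gen K (jF K N))⁻¹ π (y - c)) :
    ∃ (u₁ u₂ : LaurentSeries A) (h₁ : Step1.IsInt A N u₁) (h₂ : Step1.IsInt A N u₂),
      h₁.tok ≠ 0 ∧ h₂.tok ≠ 0 ∧
      (∀ Q : Place (IsLocalRing.ResidueField A)
          (modularFunctionFieldFullC (IsLocalRing.ResidueField A) N),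
        Q.ord h₁.tok = Q.ord h₂.tok) ∧
      h₁.toL / h₂.toL = ιL K N y := by
  obtain ⟨c, hc, hyc⟩ := hfin
  obtain ⟨c', hc', hyc'⟩ := hinf
  obtain ⟨hy, hint⟩ := isIntegral_redOv_of_lifts K N A hℓ hℓN hA π hπ hmax y c c' hc hyc hc' hyc'
  have hne : redOv K N A ⟨y, hy⟩ ≠ 0 := fun h =>
    hy0 ((inPiGauss_iff_redv K N A hℓ hℓN hA π hπ hmax y).mpr ⟨hy, h⟩)
  obtain ⟨hφ, hπ0, hkrull, hfink, hNk⟩ := H2Top.gauss_hyps K N A hℓ hℓN hA π hπ hmax
  have hB : (A0.down K A).LiesOverPrime ℓ := (A0.liesOverPrime_down_iff A).mpr hA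
  have hdvr : IsDiscreteValuationRing ↥(A0.down K A) := A0.isDiscreteValuationRing _ hℓ hB
  have harch : ∀ c : ↥(A0.down K A), c ≠ 0 → ∃ n : ℕ, c ∣ π ^ n := by
    intro c hc
    obtain ⟨n, u, hu⟩ := IsDiscreteValuationRing.eq_unit_mul_pow_irreducible hc hπ
    refine ⟨n, ((u⁻¹ : (↥(A0.down K A))ˣ) : ↥(A0.down K A)), ?_⟩
    rw [hu, mul_comm (u : ↥(A0.down K A)), mul_assoc, Units.mul_inv, mul_one]
  -- numerator and denominator over `A₀`
  obtain ⟨U₁, U₂, hU₁, hU₂, hρ, hq⟩ := QuotRep.exists_quot_of_mem_Ov (A0.down K A)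
    (IsLocalRing.residue ↥(A0.down K A)) N hφ hπ0 hkrull harch y hy
  have hred : redOv K N A ⟨y, hy⟩ * GaussA0.rho (IsLocalRing.residue ↥(A0.down K A)) U₂ =
      GaussA0.rho (IsLocalRing.residue ↥(A0.down K A)) U₁ :=
    GaussA0.redv_mul_rho (⟨y, hy⟩ : ↥(GaussA0.OvSubring (A0.down K A)
      (IsLocalRing.residue ↥(A0.down K A)) N)) hρ hq
  have hρ₁ : GaussA0.rho (IsLocalRing.residue ↥(A0.down K A)) U₁ ≠ 0 := by
    rw [← hred]; exact mul_ne_zero hne hρ
  have hint₁ := isInt_of_incl_mem K N A hℓ hℓN hA π hπ hmax U₁ hU₁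
  have hint₂ := isInt_of_incl_mem K N A hℓ hℓN hA π hπ hmax U₂ hU₂
  have hinj := Descent.coeffMap_injective_of_injective (A0.resMap K A) (A0.resMap_injective A)
  have hk₁ : hint₁.tok ≠ 0 := by
    rw [Step1.IsInt.tok_ne_zero_iff, coeffMap_residue_incl]
    intro h
    exact hρ₁ (hinj (by rw [h, map_zero]))
  have hk₂ : hint₂.tok ≠ 0 := by
    rw [Step1.IsInt.tok_ne_zero_iff, coeffMap_residue_incl]
    intro h
    exact hρ (hinj (by rw [h, map_zero]))
  refine ⟨_, _, hint₁, hint₂, hk₁, hk₂, ?_, ?_⟩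
  · -- the reduction of `y` is a constant of the residue field of `A`
    obtain ⟨c0, hc0⟩ := exists_const_of_isIntegral K A _ hint
    have htok : hint₁.tok = algebraMap (IsLocalRing.ResidueField A)
        (modularFunctionFieldFullC (IsLocalRing.ResidueField A) N) c0 * hint₂.tok := by
      apply Subtype.ext
      show coeffMap (IsLocalRing.residue A) (coeffMap (A0.incl K A) U₁) =
        algebraMap (IsLocalRing.ResidueField A) (LaurentSeries (IsLocalRing.ResidueField A)) c0 *
          coeffMap (IsLocalRing.residue A) (coeffMap (A0.incl K A) U₂)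
      rw [coeffMap_residue_incl, coeffMap_residue_incl, hc0, ← map_mul, hred]
    have hc0' : algebraMap (IsLocalRing.ResidueField A)
        (modularFunctionFieldFullC (IsLocalRing.ResidueField A) N) c0 ≠ 0 := by
      intro h
      rw [h, zero_mul] at htok
      exact hk₁ htok
    intro Q
    exact (congrArg Q.ord htok).trans (ord_const_mul Q c0 _ hc0' hk₂)
  · have hL₂ : hint₂.toL ≠ 0 := hint₂.toL_ne_zero hk₂
    rw [div_eq_iff hL₂]
    apply Subtype.ext
    show coeffMap A.subtype (coeffMap (A0.incl K A) U₁) =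
      coeffMap (algebraMap K Qb) (FK.val K N y) * coeffMap A.subtype (coeffMap (A0.incl K A) U₂)
    rw [coeffMap_subtype_incl, coeffMap_subtype_incl, ← hq, map_mul]
    rfl


/-! ### Adapters -/

/-- **Adapter (finite chart).**  If `y * b = a` with `b` integral over the chart and Gauss
primitive, and `a ≡ b * c` modulo `π`, then `y ≡ c` modulo `π` (`b` is a unit of the Gauss
ring). -/
theorem inPiGauss_sub_of_mul_fin {ℓ : ℕ} (hℓ : ℓ.Prime) (hℓN : ¬ ℓ ∣ N) (hA : A.LiesOverPrime ℓ)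
    (π : ↥(A0.down K A)) (hπ : Irreducible π)
    (hmax : IsLocalRing.maximalIdeal ↥(A0.down K A) = Ideal.span {π})
    (y b c : FK K N)
    (hb : IsIntegral ↥(chart ↥(A0.down K A) (Line K (jF K N)) (Line.gen K (jF K N))) b)
    (hbπ : ¬ InPiGauss ↥(A0.down K A) (Line K (jF K N)) (FK K N) (Line.gen K (jF K N)) π b)
    (h : InPiGauss ↥(A0.down K A) (Line K (jF K N)) (FK K N) (Line.gen K (jF K N)) π
      (y * b - b * c)) :
    InPiGauss ↥(A0.down K A) (Line K (jF K N)) (FK K N) (Line.gen K (jF K N)) π (y - c) := by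
  have hbO := mem_of_isIntegral_fin K N A hℓ hℓN hA π hπ hmax b hb
  have hbred : redOv K N A ⟨b, hbO⟩ ≠ 0 := fun h0 =>
    hbπ ((inPiGauss_iff_redv K N A hℓ hℓN hA π hπ hmax b).mpr ⟨hbO, h0⟩)
  have hu : IsUnit (⟨b, hbO⟩ : ↥(OvK K N A)) := GaussA0.isUnit_of_redv_ne_zero _ hbred
  obtain ⟨binv, hbinv⟩ := hu.exists_right_inv
  obtain ⟨hm, h0⟩ := (inPiGauss_iff_redv K N A hℓ hℓN hA π hπ hmax _).mp h
  have hb1 : b * (binv : FK K N) = 1 := congrArg Subtype.val hbinv
  have heq : y - c = (y * b - b * c) * (binv : FK K N) := by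
    have h1 : (y * b - b * c) * (binv : FK K N) = (y - c) * (b * (binv : FK K N)) := by ring
    rw [h1, hb1, mul_one]
  have hmem : y - c ∈ OvK K N A := by
    rw [heq]
    exact (OvK K N A).mul_mem hm binv.2
  refine (inPiGauss_iff_redv K N A hℓ hℓN hA π hπ hmax _).mpr ⟨hmem, ?_⟩
  have h2 : (⟨y - c, hmem⟩ : ↥(OvK K N A)) = ⟨y * b - b * c, hm⟩ * binv := Subtype.ext heq
  rw [h2, map_mul, h0, zero_mul]

/-- **Adapter (chart at infinity).** -/
theorem inPiGauss_sub_of_mul_inf {ℓ : ℕ} (hℓ : ℓ.Prime) (hℓN : ¬ ℓ ∣ N) (hA : A.LiesOverPrime ℓ)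
    (π : ↥(A0.down K A)) (hπ : Irreducible π)
    (hmax : IsLocalRing.maximalIdeal ↥(A0.down K A) = Ideal.span {π})
    (y b c : FK K N)
    (hb : IsIntegral ↥(chart ↥(A0.down K A) (Line K (jF K N)) (Line.gen K (jF K N))⁻¹) b)
    (hbπ : ¬ InPiGauss ↥(A0.down K A) (Line K (jF K N)) (FK K N) (Line.gen K (jF K N))⁻¹ π b)
    (h : InPiGauss ↥(A0.down K A) (Line K (jF K N)) (FK K N) (Line.gen K (jF K N))⁻¹ π
      (y * b - b * c)) :
    InPiGauss ↥(A0.down K A) (Line K (jF K N)) (FK K N) (Line.gen K (jF K N))⁻¹ π (y - c) := by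
  have hB : (A0.down K A).LiesOverPrime ℓ := (A0.liesOverPrime_down_iff A).mpr hA
  have hdvr : IsDiscreteValuationRing ↥(A0.down K A) := A0.isDiscreteValuationRing _ hℓ hB
  have ht : Transcendental ↥(A0.down K A) (Line.gen K (jF K N)) :=
    Line.transcendental_gen_val (jF K N) (A0.down K A) (transcendental_jF K N)
  have hsw := GaussSwap.inPiGauss_inv_iff (F := FK K N) (Line K (jF K N)) (Line.gen K (jF K N))
    π hπ ht
  have hbO := mem_of_isIntegral_inf K N A hℓ hℓN hA π hπ hmax b hb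
  have hbred : redOv K N A ⟨b, hbO⟩ ≠ 0 := fun h0 =>
    hbπ ((hsw b).mpr ((inPiGauss_iff_redv K N A hℓ hℓN hA π hπ hmax b).mpr ⟨hbO, h0⟩))
  have hu : IsUnit (⟨b, hbO⟩ : ↥(OvK K N A)) := GaussA0.isUnit_of_redv_ne_zero _ hbred
  obtain ⟨binv, hbinv⟩ := hu.exists_right_inv
  obtain ⟨hm, h0⟩ := (inPiGauss_iff_redv K N A hℓ hℓN hA π hπ hmax _).mp ((hsw _).mp h)
  have hb1 : b * (binv : FK K N) = 1 := congrArg Subtype.val hbinv
  have heq : y - c = (y * b - b * c) * (binv : FK K N) := by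
    have h1 : (y * b - b * c) * (binv : FK K N) = (y - c) * (b * (binv : FK K N)) := by ring
    rw [h1, hb1, mul_one]
  have hmem : y - c ∈ OvK K N A := by
    rw [heq]
    exact (OvK K N A).mul_mem hm binv.2
  refine (hsw _).mpr ((inPiGauss_iff_redv K N A hℓ hℓN hA π hπ hmax _).mpr ⟨hmem, ?_⟩)
  have h2 : (⟨y - c, hmem⟩ : ↥(OvK K N A)) = ⟨y * b - b * c, hm⟩ * binv := Subtype.ext heq
  rw [h2, map_mul, h0, zero_mul]

/-- **Gauss-primitive scaling.**  Every nonzero element of `F_K` becomes Gauss primitive after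
multiplication by a power of the uniformizer. -/
theorem exists_zpow_mul_primitive {ℓ : ℕ} (hℓ : ℓ.Prime) (hℓN : ¬ ℓ ∣ N) (hA : A.LiesOverPrime ℓ)
    (π : ↥(A0.down K A)) (hπ : Irreducible π)
    (hmax : IsLocalRing.maximalIdeal ↥(A0.down K A) = Ideal.span {π})
    (y : FK K N) (hy : y ≠ 0) :
    ∃ n : ℤ, ¬ InPiGauss ↥(A0.down K A) (Line K (jF K N)) (FK K N) (Line.gen K (jF K N)) π
      (algebraMap K (FK K N) ((π : K) ^ n) * y) := by
  obtain ⟨hφ, hπ0, hkrull, hfink, hNk⟩ := H2Top.gauss_hyps K N A hℓ hℓN hA π hπ hmax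
  have hG := GaussDeg.isGauss (A0.down K A) (IsLocalRing.residue ↥(A0.down K A)) N hφ hπ0 hkrull
  obtain ⟨n, u, hyu, hu⟩ := hG.exists_zpow (x := (y : ↥(modularFunctionFieldFullC K N))) hy
  have hπK : (π : K) ≠ 0 := fun h => hπ0 (Subtype.ext h)
  have hπF : algebraMap K (FK K N) (π : K) ≠ 0 := by
    rw [Ne, map_eq_zero]; exact hπK
  refine ⟨-n, fun hin => ?_⟩
  let u' : ↥(OvK K N A) := u
  have hyu' : y = (algebraMap K (FK K N) (π : K)) ^ n * (u' : FK K N) := hyu
  have heq : algebraMap K (FK K N) ((π : K) ^ (-n)) * y = (u' : FK K N) := by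
    rw [hyu', map_zpow₀, ← mul_assoc, ← zpow_add₀ hπF, neg_add_cancel, zpow_zero, one_mul]
  rw [heq] at hin
  obtain ⟨hm, h0⟩ := (inPiGauss_iff_redv K N A hℓ hℓN hA π hπ hmax _).mp hin
  exact hu h0

/-- **The last mile, scaled form**: the conclusion of `TorsionInj.ZeroSumConst` for
`h = ιL K N y₀`, where `y = π ^ n * y₀` is Gauss primitive with reduction regular on both
charts. -/
theorem exists_isInt_of_lifts_zpow {ℓ : ℕ} (hℓ : ℓ.Prime) (hℓN : ¬ ℓ ∣ N)
    (hA : A.LiesOverPrime ℓ) (π : ↥(A0.down K A)) (hπ : Irreducible π)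
    (hmax : IsLocalRing.maximalIdeal ↥(A0.down K A) = Ideal.span {π})
    (y₀ : FK K N) (n : ℤ)
    (hy0 : ¬ InPiGauss ↥(A0.down K A) (Line K (jF K N)) (FK K N) (Line.gen K (jF K N)) π
      (algebraMap K (FK K N) ((π : K) ^ n) * y₀))
    (hfin : ∃ c : FK K N,
      IsIntegral ↥(chart ↥(A0.down K A) (Line K (jF K N)) (Line.gen K (jF K N))) c ∧
      InPiGauss ↥(A0.down K A) (Line K (jF K N)) (FK K N) (Line.gen K (jF K N)) π
        (algebraMap K (FK K N) ((π : K) ^ n) * y₀ - c))
    (hinf : ∃ c : FK K N,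
      IsIntegral ↥(chart ↥(A0.down K A) (Line K (jF K N)) (Line.gen K (jF K N))⁻¹) c ∧
      InPiGauss ↥(A0.down K A) (Line K (jF K N)) (FK K N) (Line.gen K (jF K N))⁻¹ π
        (algebraMap K (FK K N) ((π : K) ^ n) * y₀ - c)) :
    ∃ (u₁ u₂ : LaurentSeries A) (h₁ : Step1.IsInt A N u₁) (h₂ : Step1.IsInt A N u₂),
      h₁.tok ≠ 0 ∧ h₂.tok ≠ 0 ∧
      (∀ Q : Place (IsLocalRing.ResidueField A)
          (modularFunctionFieldFullC (IsLocalRing.ResidueField A) N),
        Q.ord h₁.tok = Q.ord h₂.tok) ∧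
      ∀ P : Place Qb (S24Export.FL N), P.ord (h₁.toL / h₂.toL) = P.ord (ιL K N y₀) := by
  obtain ⟨u₁, u₂, h₁, h₂, hk₁, hk₂, hQ, hL⟩ :=
    exists_isInt_of_lifts K N A hℓ hℓN hA π hπ hmax _ hy0 hfin hinf
  refine ⟨u₁, u₂, h₁, h₂, hk₁, hk₂, hQ, fun P => ?_⟩
  have hq0 : h₁.toL / h₂.toL ≠ 0 := div_ne_zero (h₁.toL_ne_zero hk₁) (h₂.toL_ne_zero hk₂)
  rw [hL, map_mul, ιL_algebraMap] at hq0 ⊢
  exact ord_const_mul P _ _ (left_ne_zero_of_mul hq0) (right_ne_zero_of_mul hq0)

end Fermat.Agent.S37.ConstEnd
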