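import Mathlib
import Fermat.Agent.S18.H3HLine
import Fermat.Agent.S18.H3Cover
import Fermat.Agent.S18.H3Setup

/-!
# S37 (reduction map, (H3), `ℓ = 2, 3`): `H3Hyp` for the field itself on the `h`-charts

The `h`-line sibling of `S37.H3Self`.  `Ω` is a finite extension of `F_L = ℚ̄(X₀(N))` generated by
an element `h` with `j h² = (h + 256)³` (the `X₀(2)`-relation, used when `ℓ ≠ 2`) resp.
`j h = (h + 27)(h + 3)³` (the `X₀(3)`-relation, used when `ℓ ≠ 3`); `F0` is a `K0`-form of `Ω`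
(via `ι : F0 →+* Ω`), `M = K0(t)` the base line with `t ↦ h` resp. `t ↦ h⁻¹`.  The hypothesis (H3)
of the machine holds for `E := F0` ITSELF (no Kummer layer) on both charts, with critical values
`{0, -64}`, `{0, -1/64}` resp. `{0, -27}`, `{0, -1/27}`.

* `h3Hyp_X02_self`, `h3Hyp_X02_inv_self`, `h3Hyp_X03_self`, `h3Hyp_X03_inv_self`: general `Ω`;
* `_level`: `Ω = F_L` itself (`h` an element of the function field of the given level);
* `h3f_cover3_self` etc.: the cover carriers `F# = F00[X]/(m0)`, `Ω = F_L[X]/(ι0 m0)`;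
* `h3Hyp_cover3_both`, `h3Hyp_cover2_both`: the sealed cover carriers of `S18.Setup`
  (`A₀ = A ∩ K`, `M = Line K (root m0)`, `E = AdjoinRoot m0`), both charts, existential
  critical sets;
* `h3Hyp_level3_both`, `h3Hyp_level2_both`: the sealed level carriers (`h : FK K N`,
  `M = Line K h`, `E = FK K N`), both charts.
-/

set_option autoImplicit false
set_option linter.unusedSectionVars false

namespace Fermat.Agent.S37.H3SelfH

open Fermat.Agent.S18.CoreDefs AlgebraicCurve Polynomial Fermat.Agent.S18.S24Export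
open Fermat.Agent.S18

local notation "Qb" => AlgebraicClosure ℚ

/-- every place has a uniformizer (written through the identity algebra map). -/
theorem exists_ord_self_eq_one {K F : Type*} [Field K] [Field F] [Algebra K F] (P : Place K F) :
    ∃ ϖ : F, P.ord (algebraMap F F ϖ) = 1 := by
  obtain ⟨ϖ, hϖ⟩ := IsDiscreteValuationRing.exists_irreducible P.toValuationSubring
  exact ⟨ϖ, P.ord_coe_irreducible hϖ⟩

/-- a field is generated over itself by any element. -/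
theorem adjoin_self_eq_top {F : Type*} [Field F] (h : F) :
    IntermediateField.adjoin F {h} = ⊤ :=
  eq_top_iff.mpr fun x _ => (IntermediateField.adjoin F {h}).algebraMap_mem x

/-- `-64 = -(2 ^ 6)` is a unit of a local ring of odd residue characteristic. -/
theorem isUnit_neg_64 {R : Type*} [CommRing R] [IsLocalRing R] (ℓ : ℕ)
    [CharP (IsLocalRing.ResidueField R) ℓ] (hℓ : ℓ.Prime) (h2 : ℓ ≠ 2) : IsUnit (-64 : R) := by
  rw [IsUnit.neg_iff]
  by_contra h
  have hmem : (64 : R) ∈ IsLocalRing.maximalIdeal R := (IsLocalRing.mem_maximalIdeal _).mpr h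
  have h0 : IsLocalRing.residue R ((64 : ℕ) : R) = 0 := by
    rw [← IsLocalRing.residue_eq_zero_iff] at hmem
    rw [← hmem]
    norm_num
  rw [map_natCast] at h0
  have hdvd : ℓ ∣ 64 := (CharP.cast_eq_zero_iff (IsLocalRing.ResidueField R) ℓ 64).mp h0
  have h64 : (64 : ℕ) = 2 ^ 6 := by norm_num
  rw [h64] at hdvd
  exact h2 ((Nat.prime_dvd_prime_iff_eq hℓ Nat.prime_two).mp (hℓ.dvd_of_dvd_pow hdvd))

/-- `-27 = -(3 ^ 3)` is a unit of a local ring of residue characteristic `≠ 3`. -/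
theorem isUnit_neg_27 {R : Type*} [CommRing R] [IsLocalRing R] (ℓ : ℕ)
    [CharP (IsLocalRing.ResidueField R) ℓ] (hℓ : ℓ.Prime) (h3 : ℓ ≠ 3) : IsUnit (-27 : R) := by
  rw [IsUnit.neg_iff]
  by_contra h
  have hmem : (27 : R) ∈ IsLocalRing.maximalIdeal R := (IsLocalRing.mem_maximalIdeal _).mpr h
  have h0 : IsLocalRing.residue R ((27 : ℕ) : R) = 0 := by
    rw [← IsLocalRing.residue_eq_zero_iff] at hmem
    rw [← hmem]
    norm_num
  rw [map_natCast] at h0
  have hdvd : ℓ ∣ 27 := (CharP.cast_eq_zero_iff (IsLocalRing.ResidueField R) ℓ 27).mp h0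
  have h27 : (27 : ℕ) = 3 ^ 3 := by norm_num
  rw [h27] at hdvd
  exact h3 ((Nat.prime_dvd_prime_iff_eq hℓ Nat.prime_three).mp (hℓ.dvd_of_dvd_pow hdvd))

section Generic

variable (N : ℕ) [NeZero N] {Ω : Type*} [Field Ω] [Algebra Qb Ω] [Algebra (FL N) Ω]
  [IsScalarTower Qb (FL N) Ω] [FiniteDimensional (FL N) Ω]
  {A0 : Type*} [CommRing A0] [IsDomain A0] [DecidableEq A0] (K0 : Type*) [Field K0]
  [Algebra A0 K0] [IsFractionRing A0 K0] (M : Type*) [Field M] [Algebra A0 M] [Algebra K0 M]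
  [IsScalarTower A0 K0 M]
  (F0 : Type*) [Field F0] [Algebra M F0] [Algebra A0 F0] [IsScalarTower A0 M F0]
  [Algebra K0 F0] [IsScalarTower K0 M F0]
  [Algebra K0 Qb] [Algebra.IsAlgebraic K0 Qb]

/-- **(H3) for `F0` itself, finite chart of the `X₀(2)`-line** (`ℓ ≠ 2`): `j h² = (h + 256)³`,
`t ↦ h`, critical values `{0, -64}`. -/
theorem h3Hyp_X02_self (ι : F0 →+* Ω)
    (hι : ∀ c : K0, ι (algebraMap K0 F0 c) = algebraMap Qb Ω (algebraMap K0 Qb c))
    (π : A0) (harch : ∀ a : A0, a ≠ 0 → ∃ n : ℕ, a ∣ π ^ n) (t : M)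
    (ht : Transcendental A0 t) (h : Ω) (hth : ι (algebraMap M F0 t) = h)
    (hgen : IntermediateField.adjoin (FL N) {h} = ⊤)
    (hrel : algebraMap (FL N) Ω (jL N) * h ^ 2 = (h + 256) ^ 3)
    (c64 : A0) (h64 : algebraMap A0 K0 c64 = -64) (hu : IsUnit c64) :
    H3Hyp A0 M F0 t π {0, c64} :=
  H3HLine.h3Hyp_X02 N K0 M F0 π harch t ht c64 h64 hu (E' := Ω) ι hι h hgen hrel hth
    (fun P' => exists_ord_self_eq_one P')

/-- **(H3) for `F0` itself, chart at infinity of the `X₀(2)`-line** (`ℓ ≠ 2`): `t ↦ 1/h`,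
critical values `{0, c}` with `c * (-64) = 1`. -/
theorem h3Hyp_X02_inv_self (ι : F0 →+* Ω)
    (hι : ∀ c : K0, ι (algebraMap K0 F0 c) = algebraMap Qb Ω (algebraMap K0 Qb c))
    (π : A0) (harch : ∀ a : A0, a ≠ 0 → ∃ n : ℕ, a ∣ π ^ n) (t : M)
    (ht : Transcendental A0 t) (h : Ω) (hth : ι (algebraMap M F0 t) = h⁻¹)
    (hgen : IntermediateField.adjoin (FL N) {h} = ⊤)
    (hrel : algebraMap (FL N) Ω (jL N) * h ^ 2 = (h + 256) ^ 3)
    (c : A0) (hc : algebraMap A0 K0 c * (-64) = 1) (hu : IsUnit c) :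
    H3Hyp A0 M F0 t π {0, c} :=
  H3HLine.h3Hyp_X02_inv N K0 M F0 π harch t ht c hc hu (E' := Ω) ι hι h hgen hrel hth
    (fun P' => exists_ord_self_eq_one P')

/-- **(H3) for `F0` itself, finite chart of the `X₀(3)`-line** (`ℓ ≠ 3`):
`j h = (h + 27)(h + 3)³`, `t ↦ h`, critical values `{0, -27}`. -/
theorem h3Hyp_X03_self (ι : F0 →+* Ω)
    (hι : ∀ c : K0, ι (algebraMap K0 F0 c) = algebraMap Qb Ω (algebraMap K0 Qb c))
    (π : A0) (harch : ∀ a : A0, a ≠ 0 → ∃ n : ℕ, a ∣ π ^ n) (t : M)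
    (ht : Transcendental A0 t) (h : Ω) (hth : ι (algebraMap M F0 t) = h)
    (hgen : IntermediateField.adjoin (FL N) {h} = ⊤)
    (hrel : algebraMap (FL N) Ω (jL N) * h = (h + 27) * (h + 3) ^ 3)
    (c27 : A0) (h27 : algebraMap A0 K0 c27 = -27) (hu : IsUnit c27) :
    H3Hyp A0 M F0 t π {0, c27} :=
  H3HLine.h3Hyp_X03 N K0 M F0 π harch t ht c27 h27 hu (E' := Ω) ι hι h hgen hrel hth
    (fun P' => exists_ord_self_eq_one P')

/-- **(H3) for `F0` itself, chart at infinity of the `X₀(3)`-line** (`ℓ ≠ 3`): `t ↦ 1/h`,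
critical values `{0, c}` with `c * (-27) = 1`. -/
theorem h3Hyp_X03_inv_self (ι : F0 →+* Ω)
    (hι : ∀ c : K0, ι (algebraMap K0 F0 c) = algebraMap Qb Ω (algebraMap K0 Qb c))
    (π : A0) (harch : ∀ a : A0, a ≠ 0 → ∃ n : ℕ, a ∣ π ^ n) (t : M)
    (ht : Transcendental A0 t) (h : Ω) (hth : ι (algebraMap M F0 t) = h⁻¹)
    (hgen : IntermediateField.adjoin (FL N) {h} = ⊤)
    (hrel : algebraMap (FL N) Ω (jL N) * h = (h + 27) * (h + 3) ^ 3)
    (c : A0) (hc : algebraMap A0 K0 c * (-27) = 1) (hu : IsUnit c) :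
    H3Hyp A0 M F0 t π {0, c} :=
  H3HLine.h3Hyp_X03_inv N K0 M F0 π harch t ht c hc hu (E' := Ω) ι hι h hgen hrel hth
    (fun P' => exists_ord_self_eq_one P')

end Generic

/-! ### The level form: `Ω = F_L` itself, `h` an element of the function field of the level -/

section Level

variable (N : ℕ) [NeZero N]
  {A0 : Type*} [CommRing A0] [IsDomain A0] [DecidableEq A0] (K0 : Type*) [Field K0]
  [Algebra A0 K0] [IsFractionRing A0 K0] (M : Type*) [Field M] [Algebra A0 M] [Algebra K0 M]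
  [IsScalarTower A0 K0 M]
  (F0 : Type*) [Field F0] [Algebra M F0] [Algebra A0 F0] [IsScalarTower A0 M F0]
  [Algebra K0 F0] [IsScalarTower K0 M F0]
  [Algebra K0 Qb] [Algebra.IsAlgebraic K0 Qb]

/-- **(H3) for `F0`, finite `h`-chart, `h ∈ F_L` with `j h² = (h + 256)³`** (`ℓ ≠ 2`). -/
theorem h3Hyp_X02_self_level (ι : F0 →+* FL N)
    (hι : ∀ c : K0, ι (algebraMap K0 F0 c) = algebraMap Qb (FL N) (algebraMap K0 Qb c))
    (π : A0) (harch : ∀ a : A0, a ≠ 0 → ∃ n : ℕ, a ∣ π ^ n) (t : M)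
    (ht : Transcendental A0 t) (h : FL N) (hth : ι (algebraMap M F0 t) = h)
    (hrel : jL N * h ^ 2 = (h + 256) ^ 3)
    (c64 : A0) (h64 : algebraMap A0 K0 c64 = -64) (hu : IsUnit c64) :
    H3Hyp A0 M F0 t π {0, c64} :=
  h3Hyp_X02_self N (Ω := FL N) K0 M F0 ι hι π harch t ht h hth (adjoin_self_eq_top h) hrel
    c64 h64 hu

/-- **(H3) for `F0`, `h`-chart at infinity, `h ∈ F_L` with `j h² = (h + 256)³`** (`ℓ ≠ 2`). -/
theorem h3Hyp_X02_inv_self_level (ι : F0 →+* FL N)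
    (hι : ∀ c : K0, ι (algebraMap K0 F0 c) = algebraMap Qb (FL N) (algebraMap K0 Qb c))
    (π : A0) (harch : ∀ a : A0, a ≠ 0 → ∃ n : ℕ, a ∣ π ^ n) (t : M)
    (ht : Transcendental A0 t) (h : FL N) (hth : ι (algebraMap M F0 t) = h⁻¹)
    (hrel : jL N * h ^ 2 = (h + 256) ^ 3)
    (c : A0) (hc : algebraMap A0 K0 c * (-64) = 1) (hu : IsUnit c) :
    H3Hyp A0 M F0 t π {0, c} :=
  h3Hyp_X02_inv_self N (Ω := FL N) K0 M F0 ι hι π harch t ht h hth (adjoin_self_eq_top h) hrel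
    c hc hu

/-- **(H3) for `F0`, finite `h`-chart, `h ∈ F_L` with `j h = (h + 27)(h + 3)³`** (`ℓ ≠ 3`). -/
theorem h3Hyp_X03_self_level (ι : F0 →+* FL N)
    (hι : ∀ c : K0, ι (algebraMap K0 F0 c) = algebraMap Qb (FL N) (algebraMap K0 Qb c))
    (π : A0) (harch : ∀ a : A0, a ≠ 0 → ∃ n : ℕ, a ∣ π ^ n) (t : M)
    (ht : Transcendental A0 t) (h : FL N) (hth : ι (algebraMap M F0 t) = h)
    (hrel : jL N * h = (h + 27) * (h + 3) ^ 3)
    (c27 : A0) (h27 : algebraMap A0 K0 c27 = -27) (hu : IsUnit c27) :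
    H3Hyp A0 M F0 t π {0, c27} :=
  h3Hyp_X03_self N (Ω := FL N) K0 M F0 ι hι π harch t ht h hth (adjoin_self_eq_top h) hrel
    c27 h27 hu

/-- **(H3) for `F0`, `h`-chart at infinity, `h ∈ F_L` with `j h = (h + 27)(h + 3)³`**
(`ℓ ≠ 3`). -/
theorem h3Hyp_X03_inv_self_level (ι : F0 →+* FL N)
    (hι : ∀ c : K0, ι (algebraMap K0 F0 c) = algebraMap Qb (FL N) (algebraMap K0 Qb c))
    (π : A0) (harch : ∀ a : A0, a ≠ 0 → ∃ n : ℕ, a ∣ π ^ n) (t : M)
    (ht : Transcendental A0 t) (h : FL N) (hth : ι (algebraMap M F0 t) = h⁻¹)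
    (hrel : jL N * h = (h + 27) * (h + 3) ^ 3)
    (c : A0) (hc : algebraMap A0 K0 c * (-27) = 1) (hu : IsUnit c) :
    H3Hyp A0 M F0 t π {0, c} :=
  h3Hyp_X03_inv_self N (Ω := FL N) K0 M F0 ι hι π harch t ht h hth (adjoin_self_eq_top h) hrel
    c hc hu

end Level

/-! ### The relation puts `j` in `K(h)`; `h` is transcendental -/

section Rel

open scoped IntermediateField

variable {K0 F F' : Type*} [Field K0] [Field F] [Field F'] [Algebra K0 F] [Algebra F F']
  [Algebra K0 F'] [IsScalarTower K0 F F'] [CharZero F']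

omit [Algebra K0 F] [IsScalarTower K0 F F'] in
/-- `j ∈ K0(h)` when `j h² = (h + 256)³`. -/
theorem mem_adjoin_of_rel3 (j : F) (h : F')
    (hrel : algebraMap F F' j * h ^ 2 = (h + 256) ^ 3) : algebraMap F F' j ∈ K0⟮h⟯ := by
  have hr0 : h ≠ 0 := by
    intro h0
    rw [h0] at hrel
    norm_num at hrel
  have h1 : algebraMap F F' j = (h + 256) ^ 3 / h ^ 2 := by
    rw [eq_div_iff (pow_ne_zero 2 hr0)]
    exact hrel
  rw [h1]
  have hroot_mem : h ∈ K0⟮h⟯ := IntermediateField.mem_adjoin_simple_self K0 _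
  have h256 : (256 : F') ∈ K0⟮h⟯ := by
    have : (256 : F') = algebraMap K0 F' 256 := by rw [map_ofNat]
    rw [this]
    exact IntermediateField.algebraMap_mem _ _
  exact div_mem (pow_mem (add_mem hroot_mem h256) 3) (pow_mem hroot_mem 2)

omit [Algebra K0 F] [IsScalarTower K0 F F'] in
/-- `j ∈ K0(h)` when `j h = (h + 27)(h + 3)³`. -/
theorem mem_adjoin_of_rel2 (j : F) (h : F')
    (hrel : algebraMap F F' j * h = (h + 27) * (h + 3) ^ 3) : algebraMap F F' j ∈ K0⟮h⟯ := by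
  have hr0 : h ≠ 0 := by
    intro h0
    rw [h0] at hrel
    norm_num at hrel
  have h1 : algebraMap F F' j = (h + 27) * (h + 3) ^ 3 / h := by
    rw [eq_div_iff hr0]
    exact hrel
  rw [h1]
  have hroot_mem : h ∈ K0⟮h⟯ := IntermediateField.mem_adjoin_simple_self K0 _
  have h27 : (27 : F') ∈ K0⟮h⟯ := by
    have : (27 : F') = algebraMap K0 F' 27 := by rw [map_ofNat]
    rw [this]
    exact IntermediateField.algebraMap_mem _ _
  have h3 : (3 : F') ∈ K0⟮h⟯ := by
    have : (3 : F') = algebraMap K0 F' 3 := by rw [map_ofNat]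
    rw [this]
    exact IntermediateField.algebraMap_mem _ _
  exact div_mem (mul_mem (add_mem hroot_mem h27) (pow_mem (add_mem hroot_mem h3) 3)) hroot_mem

/-- `h` is transcendental over `K0` when `j` is and `j h² = (h + 256)³`. -/
theorem transcendental_of_rel3 (j : F) (hj : Transcendental K0 j) (h : F')
    (hrel : algebraMap F F' j * h ^ 2 = (h + 256) ^ 3) : Transcendental K0 h :=
  CoverField.transcendental_of_mem_adjoin_simple j hj h (mem_adjoin_of_rel3 j h hrel)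

/-- `h` is transcendental over `K0` when `j` is and `j h = (h + 27)(h + 3)³`. -/
theorem transcendental_of_rel2 (j : F) (hj : Transcendental K0 j) (h : F')
    (hrel : algebraMap F F' j * h = (h + 27) * (h + 3) ^ 3) : Transcendental K0 h :=
  CoverField.transcendental_of_mem_adjoin_simple j hj h (mem_adjoin_of_rel2 j h hrel)

end Rel

/-! ### The cover carriers `F# = F00[X]/(m0)`, `Ω = F_L[X]/(ι0 m0)` -/

section Cover

open Fermat.Agent.S18.CoverField

variable (N : ℕ) [NeZero N]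
  {A0 : Type*} [CommRing A0] [IsDomain A0] [DecidableEq A0] (K0 : Type*) [Field K0]
  [Algebra A0 K0] [IsFractionRing A0 K0] [Algebra K0 Qb] [Algebra.IsAlgebraic K0 Qb]
  {F00 : Type*} [Field F00] [Algebra K0 F00]
  (ι0 : F00 →+* FL N)
  (m0 : F00[X]) [Fact (Irreducible m0)] [Fact (Irreducible (m0.map ι0))]
  (Mh : Type*) [Field Mh] [Algebra A0 Mh] [Algebra K0 Mh] [IsScalarTower A0 K0 Mh]
  [Algebra Mh (AdjoinRoot m0)] [Algebra A0 (AdjoinRoot m0)] [IsScalarTower A0 Mh (AdjoinRoot m0)]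
  [IsScalarTower K0 Mh (AdjoinRoot m0)]

/-- **(H3) for the `X₀(2)`-cover field itself, finite chart** (`ℓ ≠ 2`), critical values
`{0, -64}`. -/
theorem h3f_cover3_self
    (hι0 : ∀ c : K0, ι0 (algebraMap K0 F00 c) = algebraMap Qb (FL N) (algebraMap K0 Qb c))
    (π : A0) (harch : ∀ a : A0, a ≠ 0 → ∃ n : ℕ, a ∣ π ^ n)
    (h : Mh) (ht : Transcendental A0 h)
    (hh : algebraMap Mh (AdjoinRoot m0) h = AdjoinRoot.root m0)
    (hrel : algebraMap (FL N) (AdjoinRoot (m0.map ι0)) (jL N) * AdjoinRoot.root (m0.map ι0) ^ 2 =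
      (AdjoinRoot.root (m0.map ι0) + 256) ^ 3)
    (c64 : A0) (h64 : algebraMap A0 K0 c64 = -64) (hu : IsUnit c64) :
    H3Hyp A0 Mh (AdjoinRoot m0) h π {0, c64} := by
  have hfd := H3Cover.finiteDimensional_adjoinRoot N (m0.map ι0)
  exact h3Hyp_X02_self N K0 Mh (AdjoinRoot m0) (coverHom ι0 m0)
    (H3Cover.coverHom_algebraMap N K0 ι0 m0 hι0) π harch h ht (AdjoinRoot.root (m0.map ι0))
    (by rw [hh, coverHom_root]) (adjoin_root_eq_top _) hrel c64 h64 hu

/-- **(H3) for the `X₀(2)`-cover field itself, chart at infinity** (`ℓ ≠ 2`), critical values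
`{0, -1/64}`. -/
theorem h3i_cover3_self
    (hι0 : ∀ c : K0, ι0 (algebraMap K0 F00 c) = algebraMap Qb (FL N) (algebraMap K0 Qb c))
    (π : A0) (harch : ∀ a : A0, a ≠ 0 → ∃ n : ℕ, a ∣ π ^ n)
    (h : Mh) (ht : Transcendental A0 h)
    (hh : algebraMap Mh (AdjoinRoot m0) h = AdjoinRoot.root m0)
    (hrel : algebraMap (FL N) (AdjoinRoot (m0.map ι0)) (jL N) * AdjoinRoot.root (m0.map ι0) ^ 2 =
      (AdjoinRoot.root (m0.map ι0) + 256) ^ 3)
    (c : A0) (hc : algebraMap A0 K0 c * (-64) = 1) (hu : IsUnit c) :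
    H3Hyp A0 Mh (AdjoinRoot m0) h⁻¹ π {0, c} := by
  have hfd := H3Cover.finiteDimensional_adjoinRoot N (m0.map ι0)
  exact h3Hyp_X02_inv_self N K0 Mh (AdjoinRoot m0) (coverHom ι0 m0)
    (H3Cover.coverHom_algebraMap N K0 ι0 m0 hι0) π harch h⁻¹ (IntConst.transcendental_inv h ht)
    (AdjoinRoot.root (m0.map ι0))
    (by rw [map_inv₀, hh, map_inv₀, coverHom_root]) (adjoin_root_eq_top _) hrel c hc hu

/-- **(H3) for the `X₀(3)`-cover field itself, finite chart** (`ℓ ≠ 3`), critical values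
`{0, -27}`. -/
theorem h3f_cover2_self
    (hι0 : ∀ c : K0, ι0 (algebraMap K0 F00 c) = algebraMap Qb (FL N) (algebraMap K0 Qb c))
    (π : A0) (harch : ∀ a : A0, a ≠ 0 → ∃ n : ℕ, a ∣ π ^ n)
    (h : Mh) (ht : Transcendental A0 h)
    (hh : algebraMap Mh (AdjoinRoot m0) h = AdjoinRoot.root m0)
    (hrel : algebraMap (FL N) (AdjoinRoot (m0.map ι0)) (jL N) * AdjoinRoot.root (m0.map ι0) =
      (AdjoinRoot.root (m0.map ι0) + 27) * (AdjoinRoot.root (m0.map ι0) + 3) ^ 3)
    (c27 : A0) (h27 : algebraMap A0 K0 c27 = -27) (hu : IsUnit c27) :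
    H3Hyp A0 Mh (AdjoinRoot m0) h π {0, c27} := by
  have hfd := H3Cover.finiteDimensional_adjoinRoot N (m0.map ι0)
  exact h3Hyp_X03_self N K0 Mh (AdjoinRoot m0) (coverHom ι0 m0)
    (H3Cover.coverHom_algebraMap N K0 ι0 m0 hι0) π harch h ht (AdjoinRoot.root (m0.map ι0))
    (by rw [hh, coverHom_root]) (adjoin_root_eq_top _) hrel c27 h27 hu

/-- **(H3) for the `X₀(3)`-cover field itself, chart at infinity** (`ℓ ≠ 3`), critical values
`{0, -1/27}`. -/
theorem h3i_cover2_self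
    (hι0 : ∀ c : K0, ι0 (algebraMap K0 F00 c) = algebraMap Qb (FL N) (algebraMap K0 Qb c))
    (π : A0) (harch : ∀ a : A0, a ≠ 0 → ∃ n : ℕ, a ∣ π ^ n)
    (h : Mh) (ht : Transcendental A0 h)
    (hh : algebraMap Mh (AdjoinRoot m0) h = AdjoinRoot.root m0)
    (hrel : algebraMap (FL N) (AdjoinRoot (m0.map ι0)) (jL N) * AdjoinRoot.root (m0.map ι0) =
      (AdjoinRoot.root (m0.map ι0) + 27) * (AdjoinRoot.root (m0.map ι0) + 3) ^ 3)
    (c : A0) (hc : algebraMap A0 K0 c * (-27) = 1) (hu : IsUnit c) :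
    H3Hyp A0 Mh (AdjoinRoot m0) h⁻¹ π {0, c} := by
  have hfd := H3Cover.finiteDimensional_adjoinRoot N (m0.map ι0)
  exact h3Hyp_X03_inv_self N K0 Mh (AdjoinRoot m0) (coverHom ι0 m0)
    (H3Cover.coverHom_algebraMap N K0 ι0 m0 hι0) π harch h⁻¹ (IntConst.transcendental_inv h ht)
    (AdjoinRoot.root (m0.map ι0))
    (by rw [map_inv₀, hh, map_inv₀, coverHom_root]) (adjoin_root_eq_top _) hrel c hc hu

end Cover

/-! ### The sealed carriers of `S18.Setup` -/

section Sealed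

open Fermat.Agent.S18.Setup Fermat.Agent.S18.CoverField

variable (N : ℕ) [NeZero N] (K : Type*) [Field K] [Algebra K Qb] (A : ValuationSubring Qb)

/-- `2 ^ 6` and the inverse of `-64` in `A ∩ K`: the two critical values of the `X₀(2)`-line. -/
theorem coe_inv_neg_64 (hu : IsUnit (-64 : ↥(A0.down K A))) :
    ((↑hu.unit⁻¹ : ↥(A0.down K A)) : K) * (-64) = 1 := by
  have h := hu.val_inv_mul
  have h' := congrArg (Subtype.val : ↥(A0.down K A) → K) h
  push_cast at h'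
  exact h'

/-- the inverse of `-27` in `A ∩ K`. -/
theorem coe_inv_neg_27 (hu : IsUnit (-27 : ↥(A0.down K A))) :
    ((↑hu.unit⁻¹ : ↥(A0.down K A)) : K) * (-27) = 1 := by
  have h := hu.val_inv_mul
  have h' := congrArg (Subtype.val : ↥(A0.down K A) → K) h
  push_cast at h'
  exact h'

section CoverCarriers

variable (m0 : (FK K N)[X]) [Fact (Irreducible m0)] [Fact (Irreducible (m0.map (ιL K N)))]

/-- **(H3) for `F# = F_K[X]/(m0)` itself on both charts of the `X₀(2)`-line, sealed carriers**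
(`ℓ ≠ 2`): `A₀ = A ∩ K`, `M = K(h)`, `h` the root of `m0`, `j h² = (h + 256)³`. -/
theorem h3Hyp_cover3_both {ℓ : ℕ} (hℓ : ℓ.Prime) (hA : A.LiesOverPrime ℓ) (hℓ2 : ℓ ≠ 2)
    (hrelF : algebraMap (FK K N) (AdjoinRoot m0) (jF K N) * AdjoinRoot.root m0 ^ 2 =
      (AdjoinRoot.root m0 + 256) ^ 3)
    (π : ↥(A0.down K A)) (harch : ∀ a : ↥(A0.down K A), a ≠ 0 → ∃ n : ℕ, a ∣ π ^ n) :
    haveI := H3Cover.isScalarTower_val_line N K (A0.down K A) m0
    ∃ Critf Criti : Finset ↥(A0.down K A),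
      H3Hyp ↥(A0.down K A) (Line K (AdjoinRoot.root m0)) (AdjoinRoot m0)
        (Line.gen K (AdjoinRoot.root m0)) π Critf ∧
      H3Hyp ↥(A0.down K A) (Line K (AdjoinRoot.root m0)) (AdjoinRoot m0)
        (Line.gen K (AdjoinRoot.root m0))⁻¹ π Criti := by
  classical
  have hB : (A0.down K A).LiesOverPrime ℓ := (A0.liesOverPrime_down_iff A).mpr hA
  have hchar : CharP (IsLocalRing.ResidueField ↥(A0.down K A)) ℓ :=
    A0.charP_residueField (A0.down K A) hℓ hB
  have hu : IsUnit (-64 : ↥(A0.down K A)) := isUnit_neg_64 ℓ hℓ hℓ2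
  have halg : Algebra.IsAlgebraic K Qb := H3Setup.isAlgebraic_Qb K
  have hc : CharZero K := (algebraMap K Qb).charZero
  have : CharZero (AdjoinRoot m0) :=
    charZero_of_injective_algebraMap (algebraMap K (AdjoinRoot m0)).injective
  have hhK : Transcendental K (AdjoinRoot.root m0) :=
    transcendental_of_rel3 (jF K N) (transcendental_jF K N) (AdjoinRoot.root m0) hrelF
  have hrelL : algebraMap (FL N) (AdjoinRoot (m0.map (ιL K N))) (jL N) *
      AdjoinRoot.root (m0.map (ιL K N)) ^ 2 = (AdjoinRoot.root (m0.map (ιL K N)) + 256) ^ 3 := by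
    have h := congrArg (coverHom (ιL K N) m0) hrelF
    have hof : coverHom (ιL K N) m0 (algebraMap (FK K N) (AdjoinRoot m0) (jF K N)) =
        algebraMap (FL N) (AdjoinRoot (m0.map (ιL K N))) (ιL K N (jF K N)) :=
      coverHom_of _ _ _
    rw [map_mul, map_pow, map_pow, map_add, map_ofNat, coverHom_root, hof] at h
    rw [← ιL_jF K N]
    exact h
  have := H3Cover.isScalarTower_val_line N K (A0.down K A) m0
  refine ⟨{0, -64}, {0, (↑hu.unit⁻¹ : ↥(A0.down K A))}, ?_, ?_⟩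
  · exact h3f_cover3_self N K (ιL K N) m0 (Line K (AdjoinRoot.root m0)) (ιL_algebraMap K N) π
      harch (Line.gen K (AdjoinRoot.root m0)) (Line.transcendental_gen_val _ (A0.down K A) hhK)
      (algebraMap_gen K _) hrelL (-64) (by push_cast; rfl) hu
  · exact h3i_cover3_self N K (ιL K N) m0 (Line K (AdjoinRoot.root m0)) (ιL_algebraMap K N) π
      harch (Line.gen K (AdjoinRoot.root m0)) (Line.transcendental_gen_val _ (A0.down K A) hhK)
      (algebraMap_gen K _) hrelL _ (coe_inv_neg_64 K A hu) (Units.isUnit _)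

/-- **(H3) for `F# = F_K[X]/(m0)` itself on both charts of the `X₀(3)`-line, sealed carriers**
(`ℓ ≠ 3`): `A₀ = A ∩ K`, `M = K(h)`, `h` the root of `m0`, `j h = (h + 27)(h + 3)³`. -/
theorem h3Hyp_cover2_both {ℓ : ℕ} (hℓ : ℓ.Prime) (hA : A.LiesOverPrime ℓ) (hℓ3 : ℓ ≠ 3)
    (hrelF : algebraMap (FK K N) (AdjoinRoot m0) (jF K N) * AdjoinRoot.root m0 =
      (AdjoinRoot.root m0 + 27) * (AdjoinRoot.root m0 + 3) ^ 3)
    (π : ↥(A0.down K A)) (harch : ∀ a : ↥(A0.down K A), a ≠ 0 → ∃ n : ℕ, a ∣ π ^ n) :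
    haveI := H3Cover.isScalarTower_val_line N K (A0.down K A) m0
    ∃ Critf Criti : Finset ↥(A0.down K A),
      H3Hyp ↥(A0.down K A) (Line K (AdjoinRoot.root m0)) (AdjoinRoot m0)
        (Line.gen K (AdjoinRoot.root m0)) π Critf ∧
      H3Hyp ↥(A0.down K A) (Line K (AdjoinRoot.root m0)) (AdjoinRoot m0)
        (Line.gen K (AdjoinRoot.root m0))⁻¹ π Criti := by
  classical
  have hB : (A0.down K A).LiesOverPrime ℓ := (A0.liesOverPrime_down_iff A).mpr hA
  have hchar : CharP (IsLocalRing.ResidueField ↥(A0.down K A)) ℓ :=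
    A0.charP_residueField (A0.down K A) hℓ hB
  have hu : IsUnit (-27 : ↥(A0.down K A)) := isUnit_neg_27 ℓ hℓ hℓ3
  have halg : Algebra.IsAlgebraic K Qb := H3Setup.isAlgebraic_Qb K
  have hc : CharZero K := (algebraMap K Qb).charZero
  have : CharZero (AdjoinRoot m0) :=
    charZero_of_injective_algebraMap (algebraMap K (AdjoinRoot m0)).injective
  have hhK : Transcendental K (AdjoinRoot.root m0) :=
    transcendental_of_rel2 (jF K N) (transcendental_jF K N) (AdjoinRoot.root m0) hrelF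
  have hrelL : algebraMap (FL N) (AdjoinRoot (m0.map (ιL K N))) (jL N) *
      AdjoinRoot.root (m0.map (ιL K N)) =
      (AdjoinRoot.root (m0.map (ιL K N)) + 27) * (AdjoinRoot.root (m0.map (ιL K N)) + 3) ^ 3 := by
    have h := congrArg (coverHom (ιL K N) m0) hrelF
    have hof : coverHom (ιL K N) m0 (algebraMap (FK K N) (AdjoinRoot m0) (jF K N)) =
        algebraMap (FL N) (AdjoinRoot (m0.map (ιL K N))) (ιL K N (jF K N)) :=
      coverHom_of _ _ _
    rw [map_mul, map_mul, map_pow, map_add, map_add, map_ofNat, map_ofNat, coverHom_root,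
      hof] at h
    rw [← ιL_jF K N]
    exact h
  have := H3Cover.isScalarTower_val_line N K (A0.down K A) m0
  refine ⟨{0, -27}, {0, (↑hu.unit⁻¹ : ↥(A0.down K A))}, ?_, ?_⟩
  · exact h3f_cover2_self N K (ιL K N) m0 (Line K (AdjoinRoot.root m0)) (ιL_algebraMap K N) π
      harch (Line.gen K (AdjoinRoot.root m0)) (Line.transcendental_gen_val _ (A0.down K A) hhK)
      (algebraMap_gen K _) hrelL (-27) (by push_cast; rfl) hu
  · exact h3i_cover2_self N K (ιL K N) m0 (Line K (AdjoinRoot.root m0)) (ιL_algebraMap K N) π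
      harch (Line.gen K (AdjoinRoot.root m0)) (Line.transcendental_gen_val _ (A0.down K A) hhK)
      (algebraMap_gen K _) hrelL _ (coe_inv_neg_27 K A hu) (Units.isUnit _)

end CoverCarriers

section LevelCarriers

/-- **(H3) for `F_K` itself on both charts of the `h`-line, `h ∈ F_K` with `j h² = (h + 256)³`,
sealed carriers** (`ℓ ≠ 2`): `A₀ = A ∩ K`, `M = K(h)`, `E = F_K`. -/
theorem h3Hyp_level3_both {ℓ : ℕ} (hℓ : ℓ.Prime) (hA : A.LiesOverPrime ℓ) (hℓ2 : ℓ ≠ 2)
    (h : FK K N) (hrel : jF K N * h ^ 2 = (h + 256) ^ 3)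
    (π : ↥(A0.down K A)) (harch : ∀ a : ↥(A0.down K A), a ≠ 0 → ∃ n : ℕ, a ∣ π ^ n) :
    ∃ Critf Criti : Finset ↥(A0.down K A),
      H3Hyp ↥(A0.down K A) (Line K h) (FK K N) (Line.gen K h) π Critf ∧
      H3Hyp ↥(A0.down K A) (Line K h) (FK K N) (Line.gen K h)⁻¹ π Criti := by
  classical
  have hB : (A0.down K A).LiesOverPrime ℓ := (A0.liesOverPrime_down_iff A).mpr hA
  have hchar : CharP (IsLocalRing.ResidueField ↥(A0.down K A)) ℓ :=
    A0.charP_residueField (A0.down K A) hℓ hB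
  have hu : IsUnit (-64 : ↥(A0.down K A)) := isUnit_neg_64 ℓ hℓ hℓ2
  have halg : Algebra.IsAlgebraic K Qb := H3Setup.isAlgebraic_Qb K
  have hc : CharZero K := (algebraMap K Qb).charZero
  have hhK : Transcendental K h :=
    transcendental_of_rel3 (F' := FK K N) (jF K N) (transcendental_jF K N) h hrel
  have hrelL : jL N * ιL K N h ^ 2 = (ιL K N h + 256) ^ 3 := by
    have h1 := congrArg (ιL K N) hrel
    rw [map_mul, map_pow, map_pow, map_add, map_ofNat, ιL_jF] at h1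
    exact h1
  have ht : Transcendental ↥(A0.down K A) (Line.gen K h) :=
    Line.transcendental_gen_val h (A0.down K A) hhK
  refine ⟨{0, -64}, {0, (↑hu.unit⁻¹ : ↥(A0.down K A))}, ?_, ?_⟩
  · exact h3Hyp_X02_self_level N K (Line K h) (FK K N) (ιL K N) (ιL_algebraMap K N) π harch
      (Line.gen K h) ht (ιL K N h) (by rw [algebraMap_gen]) hrelL (-64) (by push_cast; rfl) hu
  · exact h3Hyp_X02_inv_self_level N K (Line K h) (FK K N) (ιL K N) (ιL_algebraMap K N) π harch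
      (Line.gen K h)⁻¹ (IntConst.transcendental_inv _ ht) (ιL K N h)
      (by rw [map_inv₀, algebraMap_gen, map_inv₀]) hrelL _ (coe_inv_neg_64 K A hu)
      (Units.isUnit _)

/-- **(H3) for `F_K` itself on both charts of the `h`-line, `h ∈ F_K` with
`j h = (h + 27)(h + 3)³`, sealed carriers** (`ℓ ≠ 3`): `A₀ = A ∩ K`, `M = K(h)`, `E = F_K`. -/
theorem h3Hyp_level2_both {ℓ : ℕ} (hℓ : ℓ.Prime) (hA : A.LiesOverPrime ℓ) (hℓ3 : ℓ ≠ 3)
    (h : FK K N) (hrel : jF K N * h = (h + 27) * (h + 3) ^ 3)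
    (π : ↥(A0.down K A)) (harch : ∀ a : ↥(A0.down K A), a ≠ 0 → ∃ n : ℕ, a ∣ π ^ n) :
    ∃ Critf Criti : Finset ↥(A0.down K A),
      H3Hyp ↥(A0.down K A) (Line K h) (FK K N) (Line.gen K h) π Critf ∧
      H3Hyp ↥(A0.down K A) (Line K h) (FK K N) (Line.gen K h)⁻¹ π Criti := by
  classical
  have hB : (A0.down K A).LiesOverPrime ℓ := (A0.liesOverPrime_down_iff A).mpr hA
  have hchar : CharP (IsLocalRing.ResidueField ↥(A0.down K A)) ℓ :=
    A0.charP_residueField (A0.down K A) hℓ hB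
  have hu : IsUnit (-27 : ↥(A0.down K A)) := isUnit_neg_27 ℓ hℓ hℓ3
  have halg : Algebra.IsAlgebraic K Qb := H3Setup.isAlgebraic_Qb K
  have hc : CharZero K := (algebraMap K Qb).charZero
  have hhK : Transcendental K h :=
    transcendental_of_rel2 (F' := FK K N) (jF K N) (transcendental_jF K N) h hrel
  have hrelL : jL N * ιL K N h = (ιL K N h + 27) * (ιL K N h + 3) ^ 3 := by
    have h1 := congrArg (ιL K N) hrel
    rw [map_mul, map_mul, map_pow, map_add, map_add, map_ofNat, map_ofNat, ιL_jF] at h1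
    exact h1
  have ht : Transcendental ↥(A0.down K A) (Line.gen K h) :=
    Line.transcendental_gen_val h (A0.down K A) hhK
  refine ⟨{0, -27}, {0, (↑hu.unit⁻¹ : ↥(A0.down K A))}, ?_, ?_⟩
  · exact h3Hyp_X03_self_level N K (Line K h) (FK K N) (ιL K N) (ιL_algebraMap K N) π harch
      (Line.gen K h) ht (ιL K N h) (by rw [algebraMap_gen]) hrelL (-27) (by push_cast; rfl) hu
  · exact h3Hyp_X03_inv_self_level N K (Line K h) (FK K N) (ιL K N) (ιL_algebraMap K N) π harch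
      (Line.gen K h)⁻¹ (IntConst.transcendental_inv _ ht) (ιL K N h)
      (by rw [map_inv₀, algebraMap_gen, map_inv₀]) hrelL _ (coe_inv_neg_27 K A hu)
      (Units.isUnit _)

end LevelCarriers

end Sealed

end Fermat.Agent.S37.H3SelfH
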