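import Mathlib
import Fermat.Agent.S18.H3Both
import Fermat.Agent.S18.H3Setup

/-!
# S37 (reduction map, (H3)): `H3Hyp` for the function field itself on the `j`-charts (`ℓ ≥ 5`)

`F0` is a `K0`-form of `F_L = ℚ̄(X₀(N))` (via `ι : F0 →+* F_L`), `M = K0(t)` the base line with
`t ↦ j`.  The hypothesis (H3) of the machine holds for `E := F0` ITSELF (no Kummer layer) on both
charts `A0[t]`, `A0[t⁻¹]`, with critical values `{0, 1728}` resp. `{0, 1728⁻¹}`, as soon as `1728`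
is a unit of `A0` (`H3Both.isUnit_1728`: residue characteristic at least `5`).

`h3Hyp_both` is the instance on the sealed carriers of `S18.Setup`
(`A₀ = A ∩ K`, `M = Line K (jF K N)`, `F = FK K N`, `t = Line.gen K (jF K N)`).
-/

set_option autoImplicit false

namespace Fermat.Agent.S37.H3Self

open Fermat.Agent.S18.CoreDefs AlgebraicCurve Polynomial Fermat.Agent.S18.S24Export
open Fermat.Agent.S18

local notation "Qb" => AlgebraicClosure ℚ

/-- every place has a uniformizer. -/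
theorem exists_ord_eq_one {K F : Type*} [Field K] [Field F] [Algebra K F] (P : Place K F) :
    ∃ ϖ : F, P.ord ϖ = 1 := by
  obtain ⟨ϖ, hϖ⟩ := IsDiscreteValuationRing.exists_irreducible P.toValuationSubring
  exact ⟨ϖ, P.ord_coe_irreducible hϖ⟩

section Generic

variable (N : ℕ) [NeZero N]
  {A0 : Type*} [CommRing A0] [IsDomain A0] (K0 : Type*) [Field K0]
  [Algebra A0 K0] [IsFractionRing A0 K0] (M : Type*) [Field M] [Algebra A0 M] [Algebra K0 M]
  [IsScalarTower A0 K0 M]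
  (F0 : Type*) [Field F0] [Algebra M F0] [Algebra A0 F0] [IsScalarTower A0 M F0]
  [Algebra K0 F0] [IsScalarTower K0 M F0]
  [Algebra K0 Qb] [Algebra.IsAlgebraic K0 Qb]

/-- **(H3) for `F0` itself, finite chart of the `j`-line**: critical values `{0, c1728}`. -/
theorem h3Hyp_jline_self [DecidableEq A0] (ι : F0 →+* FL N)
    (hι : ∀ c : K0, ι (algebraMap K0 F0 c) = algebraMap Qb (FL N) (algebraMap K0 Qb c))
    (π : A0) (harch : ∀ a : A0, a ≠ 0 → ∃ n : ℕ, a ∣ π ^ n) (t : M)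
    (ht : Transcendental A0 t) (htj : ι (algebraMap M F0 t) = jL N)
    (c1728 : A0) (h1728 : algebraMap A0 K0 c1728 = 1728) (hu : IsUnit c1728) :
    H3Hyp A0 M F0 t π {0, c1728} :=
  H3Line.h3Hyp_jline N K0 M F0 π harch t ht c1728 h1728 hu (E' := FL N) ι hι htj
    (fun P' => exists_ord_eq_one P')

/-- **(H3) for `F0` itself, chart at infinity of the `j`-line**: `t ↦ 1/j`, critical values
`{0, c}` with `c * 1728 = 1`. -/
theorem h3Hyp_jline_inv_self [DecidableEq A0] (ι : F0 →+* FL N)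
    (hι : ∀ c : K0, ι (algebraMap K0 F0 c) = algebraMap Qb (FL N) (algebraMap K0 Qb c))
    (π : A0) (harch : ∀ a : A0, a ≠ 0 → ∃ n : ℕ, a ∣ π ^ n) (t : M)
    (ht : Transcendental A0 t) (htj : ι (algebraMap M F0 t) = (jL N)⁻¹)
    (c : A0) (hc : algebraMap A0 K0 c * 1728 = 1) (hu : IsUnit c) :
    H3Hyp A0 M F0 t π {0, c} :=
  H3Line.h3Hyp_jline_inv N K0 M F0 π harch t ht c hc hu (E' := FL N) ι hι htj
    (fun P' => exists_ord_eq_one P')

/-- **(H3) for `F0` itself on both charts of the `j`-line** (`ℓ ≥ 5`), explicit critical sets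
`{0, 1728}` and `{0, 1728⁻¹}`. -/
theorem h3Hyp_jline_self_explicit [DecidableEq A0] (ι : F0 →+* FL N)
    (hι : ∀ c : K0, ι (algebraMap K0 F0 c) = algebraMap Qb (FL N) (algebraMap K0 Qb c))
    (π : A0) (harch : ∀ a : A0, a ≠ 0 → ∃ n : ℕ, a ∣ π ^ n) (t : M)
    (ht : Transcendental A0 t) (htj : ι (algebraMap M F0 t) = jL N)
    (hu : IsUnit (1728 : A0)) :
    H3Hyp A0 M F0 t π {0, 1728} ∧ H3Hyp A0 M F0 t⁻¹ π {0, ((hu.unit⁻¹ : A0ˣ) : A0)} := by
  have hti : Transcendental A0 t⁻¹ := by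
    intro h
    have h1 : IsAlgebraic A0 (t⁻¹)⁻¹ := h.inv
    rw [inv_inv] at h1
    exact ht h1
  refine ⟨h3Hyp_jline_self N K0 M F0 ι hι π harch t ht htj 1728 (map_ofNat _ _) hu,
    h3Hyp_jline_inv_self N K0 M F0 ι hι π harch t⁻¹ hti ?_ _ ?_ (hu.unit⁻¹).isUnit⟩
  · rw [map_inv₀, map_inv₀, htj]
  · have h1 : ((hu.unit⁻¹ : A0ˣ) : A0) * 1728 = 1 := by
      have := Units.inv_mul hu.unit
      rwa [IsUnit.unit_spec] at this
    have h2 := congrArg (algebraMap A0 K0) h1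
    rwa [map_mul, map_one, map_ofNat] at h2

/-- **(H3) for `F0` itself on both charts of the `j`-line** (`ℓ ≥ 5`), existential critical sets
(the shape consumed by the machine). -/
theorem h3Hyp_jline_self_both (ι : F0 →+* FL N)
    (hι : ∀ c : K0, ι (algebraMap K0 F0 c) = algebraMap Qb (FL N) (algebraMap K0 Qb c))
    (π : A0) (harch : ∀ a : A0, a ≠ 0 → ∃ n : ℕ, a ∣ π ^ n) (t : M)
    (ht : Transcendental A0 t) (htj : ι (algebraMap M F0 t) = jL N)
    (hu : IsUnit (1728 : A0)) :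
    ∃ Critf Criti : Finset A0, H3Hyp A0 M F0 t π Critf ∧ H3Hyp A0 M F0 t⁻¹ π Criti := by
  classical
  exact ⟨_, _, h3Hyp_jline_self_explicit N K0 M F0 ι hι π harch t ht htj hu⟩

end Generic

section Sealed

open Fermat.Agent.S18.Setup

variable (K : Type*) [Field K] [Algebra K Qb] (N : ℕ) [NeZero N] (A : ValuationSubring Qb)

/-- **(H3) for `F_K` itself on both charts of the `j`-line, sealed carriers** (`ℓ ≥ 5`):
`A₀ = A ∩ K`, `M = K(j)`, `E = F = F_K`. -/
theorem h3Hyp_both {ℓ : ℕ} (hℓ : ℓ.Prime) (hA : A.LiesOverPrime ℓ) (h5 : 5 ≤ ℓ)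
    (π : ↥(A0.down K A)) (harch : ∀ a : ↥(A0.down K A), a ≠ 0 → ∃ n : ℕ, a ∣ π ^ n) :
    ∃ Critf Criti : Finset ↥(A0.down K A),
      H3Hyp ↥(A0.down K A) (Line K (jF K N)) (FK K N) (Line.gen K (jF K N)) π Critf ∧
      H3Hyp ↥(A0.down K A) (Line K (jF K N)) (FK K N) (Line.gen K (jF K N))⁻¹ π Criti := by
  have hB : (A0.down K A).LiesOverPrime ℓ := (A0.liesOverPrime_down_iff A).mpr hA
  have hchar : CharP (IsLocalRing.ResidueField ↥(A0.down K A)) ℓ :=
    A0.charP_residueField (A0.down K A) hℓ hB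
  have hu : IsUnit (1728 : ↥(A0.down K A)) := H3Both.isUnit_1728 ℓ hℓ h5
  have halg : Algebra.IsAlgebraic K Qb := H3Setup.isAlgebraic_Qb K
  exact h3Hyp_jline_self_both N K (Line K (jF K N)) (FK K N) (ιL K N) (ιL_algebraMap K N) π
    harch (Line.gen K (jF K N)) (H3Setup.transcendental_gen K N A) (H3Setup.ιL_gen K N) hu

end Sealed

end Fermat.Agent.S37.H3Self
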