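import Mathlib
import Fermat.Agent.S18.MachineM

/-!
# S37, machine N: the special fibre of an integral closure is normal (integral form)

The same proof as machine M (`Fermat.Agent.S18.MachineM`), with the idempotent replaced by an
arbitrary element of `(C/πC)[1/s₀]` of the shape `c₀/s₀` which is integral over `R/π`.
-/

set_option autoImplicit false

namespace Fermat.Agent.S37.MachineN

open Module TensorProduct Fermat.Agent.S18 Fermat.Agent.S18.MachineM

section Final

/-- (P5, integral form) the reduction step: from the `τ`-scaled dual elements to the conclusion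
of machine N. -/
theorem exists_of_dual_int {R : Type*} [CommRing R] [IsDomain R] (π τ : R) (hπ : Prime π)
    [IsPrincipalIdealRing (R ⧸ Ideal.span {π})]
    (hτ : Prime (Ideal.Quotient.mk (Ideal.span {π}) τ))
    {C : Type*} [CommRing C] [Algebra R C] {ι : Type*} [Fintype ι] [DecidableEq ι]
    (bC : Basis ι R C) (w : ι → C)
    (htr : ∀ i j, Algebra.trace R C (bC j * w i) = if j = i then τ else 0)
    (hnil : ∀ i, ∃ n : ℕ, ∃ o : C, w i ^ n = τ • o)
    (c₀ : C) (s₀ : R) (hs₀ : ¬ π ∣ s₀)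
    (hint : ∃ p : Polynomial R, p.Monic ∧ ∃ c₁ : C,
      ∑ i ∈ Finset.range (p.natDegree + 1), (p.coeff i * s₀ ^ (p.natDegree - i)) • c₀ ^ i =
        π • c₁) :
    ∃ c c₂ : C, c₀ - s₀ • c = π • c₂ := by
  classical
  have hP : (Ideal.span {π} : Ideal R).IsPrime := (Ideal.span_singleton_prime hπ.ne_zero).mpr hπ
  have : IsDomain (R ⧸ Ideal.span {π}) := Ideal.Quotient.isDomain _
  let D := R ⧸ Ideal.span {π}
  let κ := FractionRing D
  let W := κ ⊗[R] C
  let q : R →+* D := Ideal.Quotient.mk (Ideal.span {π})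
  have hinjD : Function.Injective (algebraMap D κ) := IsFractionRing.injective D κ
  have hRκ : ∀ r : R, algebraMap R κ r = algebraMap D κ (q r) := fun r =>
    IsScalarTower.algebraMap_apply R D κ r
  have hker : ∀ r : R, algebraMap R κ r = 0 ↔ π ∣ r := by
    intro r
    rw [hRκ, map_eq_zero_iff _ hinjD]
    exact Ideal.Quotient.eq_zero_iff_mem.trans Ideal.mem_span_singleton
  let b : Basis ι κ W := Algebra.TensorProduct.basis κ bC
  have hDsmul : ∀ (r : R) (x : W), (q r) • x = algebraMap R κ r • x := by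
    intro r x
    rw [hRκ, algebraMap_smul]
  -- the image of `C` is the `D`-span of the basis
  have hred_mem : ∀ c : C, red R κ c ∈ Submodule.span D (Set.range b) := by
    intro c
    have h1 : red R κ c = ∑ i, (q (bC.repr c i)) • b i := by
      apply b.repr.injective
      ext j
      rw [repr_red, map_sum, Finset.sum_apply']
      simp only [hDsmul, map_smul, Basis.repr_self, Finsupp.smul_apply, Finsupp.single_apply,
        smul_eq_mul, mul_ite, mul_one, mul_zero, Finset.sum_ite_eq', Finset.mem_univ, if_true]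
    rw [h1]
    exact Submodule.sum_mem _ fun i _ => Submodule.smul_mem _ _ (Submodule.subset_span ⟨i, rfl⟩)
  have hmem_red : ∀ y ∈ Submodule.span D (Set.range b), ∃ c : C, red R κ c = y := by
    intro y hy
    induction hy using Submodule.span_induction with
    | mem y hy =>
      obtain ⟨i, rfl⟩ := hy
      exact ⟨bC i, red_basis bC κ i⟩
    | zero => exact ⟨0, map_zero _⟩
    | add y z _ _ hy hz =>
      obtain ⟨c, rfl⟩ := hy
      obtain ⟨c', rfl⟩ := hz
      exact ⟨c + c', map_add _ _ _⟩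
    | smul d y _ hy =>
      obtain ⟨c, rfl⟩ := hy
      obtain ⟨r, rfl⟩ := Ideal.Quotient.mk_surjective d
      refine ⟨r • c, ?_⟩
      rw [map_smul]
      exact (hDsmul r _).symm ▸ (algebraMap_smul κ r (red R κ c)).symm
  -- apply Lemma A
  have hs₀κ : algebraMap R κ s₀ ≠ 0 := fun h => hs₀ ((hker s₀).mp h)
  set y : W := (algebraMap R κ s₀)⁻¹ • red R κ c₀ with hy
  obtain ⟨p, hp, c₁, hc₁⟩ := hint
  have hyint : IsIntegral D y := by
    refine ⟨p.map q, hp.map q, ?_⟩
    have hnat : (p.map q).natDegree = p.natDegree := hp.natDegree_map q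
    -- the value of the polynomial, multiplied by `s₀ ^ n`
    have h2 : red R κ (∑ i ∈ Finset.range (p.natDegree + 1),
        (p.coeff i * s₀ ^ (p.natDegree - i)) • c₀ ^ i) = 0 := by
      rw [hc₁, map_smul, ← algebraMap_smul κ π, (hker π).mpr dvd_rfl, zero_smul]
    have h3 : (algebraMap R κ s₀) ^ p.natDegree •
        Polynomial.eval₂ (algebraMap D W) y (p.map q) = 0 := by
      rw [Polynomial.eval₂_eq_sum_range, hnat, Finset.smul_sum, ← h2, map_sum]
      refine Finset.sum_congr rfl fun i hi => ?_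
      have hi' : i ≤ p.natDegree := Nat.lt_succ_iff.mp (Finset.mem_range.mp hi)
      have hscal : algebraMap R κ s₀ ^ p.natDegree * ((algebraMap R κ s₀)⁻¹) ^ i =
          algebraMap R κ s₀ ^ (p.natDegree - i) := by
        rw [inv_pow, ← div_eq_mul_inv, div_eq_iff (pow_ne_zero _ hs₀κ), ← pow_add,
          Nat.sub_add_cancel hi']
      rw [Polynomial.coeff_map, ← Algebra.smul_def, hDsmul, hy, smul_pow, smul_smul, smul_smul,
        map_smul, map_pow, ← algebraMap_smul κ (p.coeff i * s₀ ^ (p.natDegree - i)), map_mul,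
        map_pow, mul_right_comm, hscal, mul_comm]
    have h4 := congrArg (fun z : W => ((algebraMap R κ s₀) ^ p.natDegree)⁻¹ • z) h3
    simp only [smul_smul, inv_mul_cancel₀ (pow_ne_zero p.natDegree hs₀κ), one_smul,
      smul_zero] at h4
    exact h4
  have hmem := LatticeNormal.mem_span_of_isIntegral (D := D) (κ := κ) (E := W) b (q τ) hτ
    (fun i j => by
      rw [← red_basis, ← red_basis, ← map_mul]
      exact hred_mem _)
    (fun i => red R κ (w i)) (fun i => hred_mem _)
    (fun i j => by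
      rw [← red_basis, ← map_mul, trace_red bC, htr i j]
      split_ifs
      · exact hRκ τ
      · exact map_zero _)
    (fun i => by
      obtain ⟨n, o, ho⟩ := hnil i
      refine ⟨n, red R κ o, hred_mem o, ?_⟩
      rw [← map_pow, ho, map_smul, hDsmul, algebraMap_smul])
    y hyint
  obtain ⟨c, hc⟩ := hmem_red y hmem
  have h0 : red R κ (c₀ - s₀ • c) = 0 := by
    rw [map_sub, map_smul, hc, hy, ← algebraMap_smul κ s₀, smul_smul, mul_inv_cancel₀ hs₀κ,
      one_smul, sub_self]
  have hdiv : ∀ i, π ∣ bC.repr (c₀ - s₀ • c) i := fun i =>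
    (hker _).mp ((red_eq_zero_iff bC κ _).mp h0 i)
  choose qq hqq using hdiv
  refine ⟨c, ∑ i, qq i • bC i, ?_⟩
  rw [Finset.smul_sum]
  conv_lhs => rw [← bC.sum_repr (c₀ - s₀ • c)]
  refine Finset.sum_congr rfl fun i _ => ?_
  rw [hqq i, mul_smul]

end Final

section Assembly

/-- **Machine N.** `R` a two-dimensional normal Noetherian local domain with maximal ideal
`(π, τ)`, `E` a finite separable extension of `Frac R`, `C` the integral closure of `R` in `E`.
Assume the trace form of `C` is nondegenerate modulo `π` (`hH2`), and the fibres of `C` over the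
primes of `R` other than `(π)`, `(τ)` are reduced (`hH3`), the residue characteristic being
a power-divisor of `π` (`hchar`).  Then every element `c₀/s₀` of `(C/πC)[1/s₀]` which is integral
over `R/π` lies in `C/πC`. -/
theorem exists_sub_eq_smul_of_int {R : Type*} [CommRing R] [IsDomain R] [IsNoetherianRing R]
    [IsLocalRing R] [IsIntegrallyClosed R]
    (M : Type*) [Field M] [Algebra R M] [IsFractionRing R M]
    (E : Type*) [Field E] [Algebra M E] [Algebra R E] [IsScalarTower R M E] [FiniteDimensional M E]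
    [Algebra.IsSeparable M E] (π τ : R) (hπ : Prime π) (hτ : Prime τ) (hτπ : ¬ τ ∣ π)
    (hπτ : ¬ π ∣ τ) (hmax : IsLocalRing.maximalIdeal R = Ideal.span {π, τ})
    (hchar : ∀ n : ℕ, n ≠ 0 → ∃ a : ℕ, (n : R) ∣ π ^ a)
    (hH2 : ∀ x : E, IsIntegral R x →
      (∀ o : E, IsIntegral R o → ∃ a : R, Algebra.trace M E (x * o) = algebraMap R M (π * a)) →
      ∃ c : E, IsIntegral R c ∧ x = π • c)
    (hH3 : ∀ 𝔭 : Ideal R, 𝔭.IsPrime → 𝔭 ≠ ⊥ → π ∉ 𝔭 → τ ∉ 𝔭 → ∀ x : E, IsIntegral R x →
      ∀ n : ℕ, x ^ n ∈ 𝔭 • Subalgebra.toSubmodule (integralClosure R E) →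
      ∃ s : R, s ∉ 𝔭 ∧ s • x ∈ 𝔭 • Subalgebra.toSubmodule (integralClosure R E))
    (c₀ : E) (hc₀ : IsIntegral R c₀) (s₀ : R) (hs₀ : ¬ π ∣ s₀)
    (hint : ∃ p : Polynomial R, p.Monic ∧ ∃ c₁ : E, IsIntegral R c₁ ∧
      ∑ i ∈ Finset.range (p.natDegree + 1), (p.coeff i * s₀ ^ (p.natDegree - i)) • c₀ ^ i =
        π • c₁) :
    ∃ c c₂ : E, IsIntegral R c ∧ IsIntegral R c₂ ∧ c₀ - s₀ • c = π • c₂ := by
  classical
  obtain ⟨hpid, hτ'⟩ := pid_quot π τ hπ hπτ hmax
  have hinjM : Function.Injective (algebraMap R M) := IsFractionRing.injective R M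
  have hfree : Module.Free R (integralClosure R E) := free_integralClosure M E π hπ
  have hfin : Module.Finite R (integralClosure R E) := IsIntegralClosure.finite R M E _
  let bC : Basis (Module.Free.ChooseBasisIndex R (integralClosure R E)) R (integralClosure R E) :=
    Module.Free.chooseBasis R _
  have hloc : IsLocalization
      (Algebra.algebraMapSubmonoid (integralClosure R E) (nonZeroDivisors R)) E :=
    IsIntegralClosure.isLocalization R M E _
  have htrace : ∀ c : integralClosure R E,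
      Algebra.trace M E (c : E) = algebraMap R M (Algebra.trace R _ c) :=
    fun c => Algebra.trace_localization R (nonZeroDivisors R) c
  have hdE : Algebra.discr M (bC.localizationLocalization M (nonZeroDivisors R) E) =
      algebraMap R M (Algebra.discr R bC) :=
    Algebra.discr_localizationLocalization R (nonZeroDivisors R) E bC
  have hd0 : Algebra.discr R bC ≠ 0 := by
    intro h
    have := Algebra.discr_not_zero_of_basis M (bC.localizationLocalization M (nonZeroDivisors R) E)
    rw [hdE, h, map_zero] at this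
    exact this rfl
  -- (P1)
  have hP : (Ideal.span {π} : Ideal R).IsPrime := (Ideal.span_singleton_prime hπ.ne_zero).mpr hπ
  have hπd : ¬ π ∣ Algebra.discr R bC := by
    intro hdvd
    obtain ⟨x, hx1, hx2⟩ :=
      exists_of_discr_mem bC (Ideal.span {π}) (Ideal.mem_span_singleton.mpr hdvd)
    apply hx2
    have hx3 : ∀ o : E, IsIntegral R o →
        ∃ a : R, Algebra.trace M E ((x : E) * o) = algebraMap R M (π * a) := by
      intro o ho
      have h1 : Algebra.trace R (integralClosure R E) (x * ⟨o, ho⟩) ∈ Ideal.span {π} := by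
        rw [← bC.sum_repr ⟨o, ho⟩, Finset.mul_sum, map_sum]
        refine Ideal.sum_mem _ fun j _ => ?_
        rw [mul_smul_comm, map_smul, mul_comm, smul_eq_mul]
        exact Ideal.mul_mem_left _ _ (hx1 j)
      obtain ⟨a, ha⟩ := Ideal.mem_span_singleton.mp h1
      exact ⟨a, by rw [← ha, ← htrace]; rfl⟩
    obtain ⟨c, hc, hxc⟩ := hH2 x x.2 hx3
    intro i
    have : x = π • (⟨c, hc⟩ : integralClosure R E) := Subtype.ext hxc
    rw [this, map_smul, Finsupp.smul_apply, smul_eq_mul]
    exact Ideal.mul_mem_right _ _ (Ideal.mem_span_singleton_self π)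
  -- (P2)
  have hP2 : ∀ 𝔭 : Ideal R, 𝔭.IsPrime → 𝔭 ≠ ⊥ → π ∉ 𝔭 → τ ∉ 𝔭 →
      Algebra.discr R bC ∉ 𝔭 := by
    intro 𝔭 h𝔭 hbot hπ𝔭 hτ𝔭
    refine discr_notMem_of_reduced bC 𝔭 ?_ ?_
    · intro n hn hmem
      obtain ⟨a, ha⟩ := hchar n hn
      exact hπ𝔭 (h𝔭.mem_of_pow_mem a (Ideal.mem_of_dvd _ ha hmem))
    · intro x n hxn
      rw [mem_map_iff_mem_smul] at hxn
      obtain ⟨s, hs, hsx⟩ := hH3 𝔭 h𝔭 hbot hπ𝔭 hτ𝔭 x x.2 n hxn
      refine ⟨s, hs, ?_⟩
      rw [mem_map_iff_mem_smul]
      exact hsx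
  obtain ⟨r, u, hu, hdu⟩ := DiscUnit.eq_unit_mul_pow π τ _ hπ hτ hd0 hπd hP2
  have hcharτ : ∀ n : ℕ, n ≠ 0 → ¬ τ ∣ (n : R) := by
    intro n hn hdvd
    obtain ⟨a, ha⟩ := hchar n hn
    exact hτπ (hτ.dvd_of_dvd_pow (hdvd.trans ha))
  obtain ⟨w, hw1, hw2⟩ := exists_dual M E τ hτ hcharτ bC r u hu hdu
  obtain ⟨p, hp, c₁, hc₁, hc₁'⟩ := hint
  obtain ⟨c, c₂, h⟩ := exists_of_dual_int π τ hπ hτ' bC w hw1 hw2
    (⟨c₀, hc₀⟩ : integralClosure R E) s₀ hs₀ ⟨p, hp, ⟨c₁, hc₁⟩, Subtype.ext (by
      simp only [AddSubmonoidClass.coe_finsetSum, SetLike.val_smul, SubmonoidClass.coe_pow]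
      exact hc₁')⟩
  exact ⟨c, c₂, c.2, c₂.2, congrArg Subtype.val h⟩

end Assembly

end Fermat.Agent.S37.MachineN
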