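import Mathlib
import Fermat.Agent.S18.IntTrick
import Fermat.Agent.S18.Globalize
import Fermat.Agent.S37.MachineN

/-!
# S37: globalisation of machine N

`R₀` is a Noetherian integrally closed domain (a chart `A0[t]` of the base line), `π ∈ R₀` a prime
element, `E` a finite separable extension of `M = Frac R₀`.  If at every maximal ideal `𝔫 ∋ π`
the hypotheses of machine N hold for the local ring `R₀_𝔫`, then an element `e` of the integral
closure `O''` of `R₀_(π)` which is integral over `R₀` modulo `π O''` is congruent modulo `π O''`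
to an element integral over `R₀`: the special fibre of the integral closure is normal.
-/

set_option autoImplicit false

open IsLocalRing

namespace Fermat.Agent.S37.GlobalizeN

open Fermat.Agent.S18 Fermat.Agent.S18.Globalize

section LocalStep

variable {R₀ : Type*} [CommRing R₀] [IsDomain R₀] [IsIntegrallyClosed R₀]
  (M : Type*) [Field M] [Algebra R₀ M] [IsFractionRing R₀ M]
  (E : Type*) [Field E] [Algebra M E] [Algebra R₀ E] [IsScalarTower R₀ M E]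
  [FiniteDimensional M E] [Algebra.IsSeparable M E]
  (𝔫 : Ideal R₀) [h𝔫 : 𝔫.IsPrime] [IsNoetherianRing R₀]
  (R : Type*) [CommRing R] [Algebra R₀ R] [hloc : IsLocalization.AtPrime R 𝔫]
  [Algebra R M] [IsScalarTower R₀ R M] [Algebra R E] [IsScalarTower R₀ R E]
  [IsScalarTower R M E]

include h𝔫 hloc

/-- Machine N applied to the localisation `R` of `R₀` at `𝔫 = (π, τ)`: some multiple `u • e`,
`u ∉ 𝔫`, is congruent modulo `π O''` to an element integral over `R₀`. -/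
theorem exists_notMem_of_local_int (π : R₀) (hπ : Prime π)
    (hchar : ∀ n : ℕ, n ≠ 0 → ∃ a : ℕ, (n : R₀) ∣ π ^ a)
    (hH2 : ∀ x : E, IsIntegral R₀ x →
      (∀ o : E, IsIntegral R₀ o →
        ∃ a : R₀, Algebra.trace M E (x * o) = algebraMap R₀ M (π * a)) →
      ∃ c : E, IsIntegral R₀ c ∧ x = π • c)
    (τ : R₀) (h𝔫τ : 𝔫 = Ideal.span {π, τ}) (hτ : Prime τ) (hτπ : ¬ τ ∣ π) (hπτ : ¬ π ∣ τ)
    (hred : ∀ 𝔭 : Ideal R₀, 𝔭.IsPrime → 𝔭 ≠ ⊥ → 𝔭 ≤ 𝔫 → π ∉ 𝔭 → τ ∉ 𝔭 →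
      ∀ x : E, IsIntegral R₀ x → ∀ n : ℕ,
        x ^ n ∈ 𝔭 • Subalgebra.toSubmodule (integralClosure R₀ E) →
        ∃ s : R₀, s ∉ 𝔭 ∧ s • x ∈ 𝔭 • Subalgebra.toSubmodule (integralClosure R₀ E))
    (e : E) (s₀ : R₀) (hs₀ : ¬ π ∣ s₀) (he : IsIntegral R₀ (s₀ • e))
    (hint : ∃ p : Polynomial R₀, p.Monic ∧ ∃ s₁ : R₀, ¬ π ∣ s₁ ∧ ∃ c₁ : E, IsIntegral R₀ c₁ ∧
      s₁ • Polynomial.aeval e p = π • c₁) :
    ∃ u : R₀, u ∉ 𝔫 ∧ ∃ c : E, IsIntegral R₀ c ∧ ∃ c₂ : E, IsIntegral R₀ c₂ ∧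
      s₀ • (u • e - c) = π • c₂ := by
  have hπ𝔫 : π ∈ 𝔫 := h𝔫τ ▸ Ideal.subset_span (Set.mem_insert _ _)
  have hτ𝔫 : τ ∈ 𝔫 := h𝔫τ ▸ Ideal.subset_span (Set.mem_insert_of_mem _ rfl)
  have hdom : IsDomain R := IsLocalization.isDomain_of_atPrime R 𝔫
  have hnoeth : IsNoetherianRing R := IsLocalization.isNoetherianRing 𝔫.primeCompl R inferInstance
  have hlocal : IsLocalRing R := IsLocalization.AtPrime.isLocalRing R 𝔫
  have hic : IsIntegrallyClosed R :=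
    isIntegrallyClosed_of_isLocalization R 𝔫.primeCompl (Ideal.primeCompl_le_nonZeroDivisors 𝔫)
  have hfrac : IsFractionRing R M :=
    IsFractionRing.isFractionRing_of_isDomain_of_isLocalization 𝔫.primeCompl R M
  have hπR : Prime (algebraMap R₀ R π) := prime_algebraMap 𝔫 R hπ hπ𝔫
  have hτR : Prime (algebraMap R₀ R τ) := prime_algebraMap 𝔫 R hτ hτ𝔫
  have hτπR : ¬ algebraMap R₀ R τ ∣ algebraMap R₀ R π := fun h =>
    hτπ (dvd_of_algebraMap_dvd 𝔫 R hτ hτ𝔫 π h)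
  have hπτR : ¬ algebraMap R₀ R π ∣ algebraMap R₀ R τ := fun h =>
    hπτ (dvd_of_algebraMap_dvd 𝔫 R hπ hπ𝔫 τ h)
  have hmax : IsLocalRing.maximalIdeal R =
      Ideal.span {algebraMap R₀ R π, algebraMap R₀ R τ} := by
    rw [← IsLocalization.AtPrime.map_eq_maximalIdeal 𝔫 R, h𝔫τ, Ideal.map_span, Set.image_pair]
  have hcharR : ∀ n : ℕ, n ≠ 0 → ∃ a : ℕ, (n : R) ∣ algebraMap R₀ R π ^ a := by
    intro n hn
    obtain ⟨a, ha⟩ := hchar n hn
    refine ⟨a, ?_⟩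
    have := map_dvd (algebraMap R₀ R) ha
    rwa [map_natCast, map_pow] at this
  have hH2R := hH2_local M E 𝔫 R π hπ hπ𝔫 hH2
  have hH3R := hH3_local E 𝔫 R π τ hred
  -- the integrality datum
  have hπE : algebraMap R₀ E π ≠ 0 := by
    rw [IsScalarTower.algebraMap_apply R₀ M E]
    intro h0
    have h1 := (algebraMap M E).injective (h0.trans (map_zero _).symm)
    exact hπ.ne_zero (IsFractionRing.injective R₀ M (h1.trans (map_zero _).symm))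
  have hc₀ : IsIntegral R (s₀ • e) := IsIntegral.tower_top he
  have hs₀R : ¬ algebraMap R₀ R π ∣ algebraMap R₀ R s₀ := fun h =>
    hs₀ (dvd_of_algebraMap_dvd 𝔫 R hπ hπ𝔫 s₀ h)
  have hintR : ∃ p : Polynomial R, p.Monic ∧ ∃ c₁ : E, IsIntegral R c₁ ∧
      ∑ i ∈ Finset.range (p.natDegree + 1),
        (p.coeff i * algebraMap R₀ R s₀ ^ (p.natDegree - i)) • (s₀ • e) ^ i =
        algebraMap R₀ R π • c₁ := by
    obtain ⟨p, hp, s₁, hs₁, c₁, hc₁, h1⟩ := hint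
    have hnat : (p.map (algebraMap R₀ R)).natDegree = p.natDegree :=
      hp.natDegree_map (algebraMap R₀ R)
    set z : E := ∑ i ∈ Finset.range (p.natDegree + 1),
      (p.coeff i * s₀ ^ (p.natDegree - i)) • (s₀ • e) ^ i with hz
    have hzint : IsIntegral R₀ z :=
      IsIntegral.sum _ fun i _ => (he.pow i).smul _
    have hzval : z = s₀ ^ p.natDegree • Polynomial.aeval e p := by
      rw [hz, Polynomial.aeval_eq_sum_range, Finset.smul_sum]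
      refine Finset.sum_congr rfl fun i hi => ?_
      have hi' : i ≤ p.natDegree := Nat.lt_succ_iff.mp (Finset.mem_range.mp hi)
      rw [smul_pow, smul_smul, smul_smul, mul_assoc, ← pow_add, Nat.sub_add_cancel hi', mul_comm]
    set w : E := (algebraMap R₀ E π)⁻¹ * z with hw
    have hπw : π • w = z := by
      rw [hw, Algebra.smul_def, ← mul_assoc, mul_inv_cancel₀ hπE, one_mul]
    have hs₁w : s₁ • w = (s₀ ^ p.natDegree) • c₁ := by
      have h2 : s₁ • z = π • ((s₀ ^ p.natDegree) • c₁) := by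
        rw [smul_comm π, ← h1, hzval, smul_comm]
      have h3 : π • (s₁ • w) = π • ((s₀ ^ p.natDegree) • c₁) := by
        rw [smul_comm, hπw, h2]
      simp only [Algebra.smul_def] at h3 ⊢
      exact mul_left_cancel₀ hπE h3
    have hwint : IsIntegral R₀ w :=
      IntTrick.isIntegral_of_smul_of_smul (M := M) π s₁ hπ hs₁ w (hπw ▸ hzint)
        (hs₁w ▸ hc₁.smul (s₀ ^ p.natDegree))
    refine ⟨p.map (algebraMap R₀ R), hp.map _, w, IsIntegral.tower_top hwint, ?_⟩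
    rw [hnat, algebraMap_smul, hπw, hz]
    refine Finset.sum_congr rfl fun i _ => ?_
    rw [Polynomial.coeff_map, ← map_pow, ← map_mul, algebraMap_smul]
  obtain ⟨c, c₂, hc, hc₂, hcc⟩ := MachineN.exists_sub_eq_smul_of_int M E
    (algebraMap R₀ R π) (algebraMap R₀ R τ) hπR hτR hτπR hπτR hmax hcharR hH2R hH3R
    (s₀ • e) hc₀ (algebraMap R₀ R s₀) hs₀R hintR
  obtain ⟨u, hu, huc⟩ := exists_smul_isIntegral 𝔫 R E hc
  obtain ⟨v, hv, hvc⟩ := exists_smul_isIntegral 𝔫 R E hc₂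
  refine ⟨u * v, 𝔫.primeCompl.mul_mem hu hv, (u * v) • c, ?_, (u * v) • c₂, ?_, ?_⟩
  · rw [mul_comm, mul_smul]
    exact huc.smul v
  · rw [mul_smul]
    exact hvc.smul u
  · rw [algebraMap_smul, algebraMap_smul] at hcc
    rw [← smul_sub, smul_comm, smul_sub, hcc, smul_comm]

end LocalStep

/-! ### the global statement -/

/-- **Globalisation of machine N**: normality of the special fibre of the integral closure. -/
theorem exists_sub_eq_smul_of_int {R₀ : Type*} [CommRing R₀] [IsDomain R₀]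
    [IsNoetherianRing R₀] [IsIntegrallyClosed R₀] (M : Type*) [Field M] [Algebra R₀ M]
    [IsFractionRing R₀ M] (E : Type*) [Field E] [Algebra M E] [Algebra R₀ E]
    [IsScalarTower R₀ M E] [FiniteDimensional M E] [Algebra.IsSeparable M E] (π : R₀)
    (hπ : Prime π) (hchar : ∀ n : ℕ, n ≠ 0 → ∃ a : ℕ, (n : R₀) ∣ π ^ a)
    (hH2 : ∀ x : E, IsIntegral R₀ x →
      (∀ o : E, IsIntegral R₀ o →
        ∃ a : R₀, Algebra.trace M E (x * o) = algebraMap R₀ M (π * a)) →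
      ∃ c : E, IsIntegral R₀ c ∧ x = π • c)
    (hloc : ∀ 𝔫 : Ideal R₀, 𝔫.IsMaximal → π ∈ 𝔫 → ∃ τ : R₀, 𝔫 = Ideal.span {π, τ} ∧ Prime τ ∧
      ¬ τ ∣ π ∧ ¬ π ∣ τ ∧ ∀ 𝔭 : Ideal R₀, 𝔭.IsPrime → 𝔭 ≠ ⊥ → 𝔭 ≤ 𝔫 → π ∉ 𝔭 → τ ∉ 𝔭 →
        ∀ x : E, IsIntegral R₀ x → ∀ n : ℕ,
          x ^ n ∈ 𝔭 • Subalgebra.toSubmodule (integralClosure R₀ E) →
          ∃ s : R₀, s ∉ 𝔭 ∧ s • x ∈ 𝔭 • Subalgebra.toSubmodule (integralClosure R₀ E))
    (e : E) (s₀ : R₀) (hs₀ : ¬ π ∣ s₀) (he : IsIntegral R₀ (s₀ • e))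
    (hint : ∃ p : Polynomial R₀, p.Monic ∧ ∃ s₁ : R₀, ¬ π ∣ s₁ ∧ ∃ c₁ : E, IsIntegral R₀ c₁ ∧
      s₁ • Polynomial.aeval e p = π • c₁) :
    ∃ c : E, IsIntegral R₀ c ∧ ∃ s₂ : R₀, ¬ π ∣ s₂ ∧ ∃ c₂ : E, IsIntegral R₀ c₂ ∧
      s₂ • (e - c) = π • c₂ := by
  -- the ideal of denominators
  let I : Ideal R₀ :=
    { carrier := {u | ∃ c : E, IsIntegral R₀ c ∧ ∃ c₂ : E, IsIntegral R₀ c₂ ∧
        s₀ • (u • e - c) = π • c₂}
      zero_mem' := ⟨0, isIntegral_zero, 0, isIntegral_zero, by simp⟩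
      add_mem' := by
        rintro u u' ⟨c, hc, c₂, hc₂, h⟩ ⟨c', hc', c₂', hc₂', h'⟩
        refine ⟨c + c', hc.add hc', c₂ + c₂', hc₂.add hc₂', ?_⟩
        rw [add_smul, add_sub_add_comm, smul_add, h, h', smul_add]
      smul_mem' := by
        rintro a u ⟨c, hc, c₂, hc₂, h⟩
        refine ⟨a • c, hc.smul a, a • c₂, hc₂.smul a, ?_⟩
        rw [smul_eq_mul, mul_smul, ← smul_sub, smul_comm, h, smul_comm] }
  have hπI : π ∈ I := by
    refine ⟨0, isIntegral_zero, s₀ • e, he, ?_⟩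
    rw [sub_zero, smul_comm]
  have htop : I = ⊤ := by
    by_contra hne
    obtain ⟨𝔫, h𝔫max, hI𝔫⟩ := Ideal.exists_le_maximal I hne
    have hπ𝔫 : π ∈ 𝔫 := hI𝔫 hπI
    obtain ⟨τ, h𝔫τ, hτ, hτπ, hπτ, hred⟩ := hloc 𝔫 h𝔫max hπ𝔫
    have h𝔫prime : 𝔫.IsPrime := h𝔫max.isPrime
    obtain ⟨u, hu, c, hc, c₂, hc₂, h⟩ := exists_notMem_of_local_int M E 𝔫
      (Localization.subalgebra.ofField M 𝔫.primeCompl (Ideal.primeCompl_le_nonZeroDivisors 𝔫))
      π hπ hchar hH2 τ h𝔫τ hτ hτπ hπτ hred e s₀ hs₀ he hint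
    exact hu (hI𝔫 ⟨c, hc, c₂, hc₂, h⟩)
  have h1 : (1 : R₀) ∈ I := htop ▸ Submodule.mem_top
  obtain ⟨c, hc, c₂, hc₂, h⟩ := h1
  rw [one_smul] at h
  exact ⟨c, hc, s₀, hs₀, c₂, hc₂, h⟩

end Fermat.Agent.S37.GlobalizeN
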