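import Mathlib
import Fermat.Agent.S18.CoreDefs
import Fermat.Agent.S18.AdjoinChart
import Fermat.Agent.S37.GlobalizeN

/-!
# S37: the special fibre of the integral closure of a chart is normal

`A0` a discrete valuation ring with uniformizer `π`, `M` the function field of the base line
with coordinate `t`, `E` a finite separable extension of `M` satisfying (H2) and (H3) on the
chart `A0[t]`.  Every element `x` of the Gauss ring `O''` of `E` which is integral over `A0[t]`
modulo `π O''` is congruent modulo `π O''` to an element integral over `A0[t]`.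

In other words: the image of `C = integralClosure A0[t] E` in `O''/πO''` (the function field of
the special fibre) is integrally closed over `k0[t]`, `k0 = A0/π`.
-/

set_option autoImplicit false

namespace Fermat.Agent.S37.NormalFibre

open Polynomial Fermat.Agent.S18 Fermat.Agent.S18.CoreDefs

/-- **Normality of the special fibre on one chart.** -/
theorem exists_lift_chart_of_isIntegral {A0 : Type*} [CommRing A0] [IsDomain A0]
    [IsDiscreteValuationRing A0]
    (M : Type*) [Field M] [Algebra A0 M] (E : Type*) [Field E] [Algebra M E] [Algebra A0 E]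
    [IsScalarTower A0 M E] [FiniteDimensional M E] [Algebra.IsSeparable M E] (π : A0)
    (hπ : Irreducible π) (hchar : ∀ n : ℕ, n ≠ 0 → ∃ a : ℕ, (n : A0) ∣ π ^ a) (t : M)
    (ht : Transcendental A0 t)
    (hgen : ∀ m : M, ∃ a b : chart A0 M t, b ≠ 0 ∧ m * (b : M) = (a : M)) (Crit : Finset A0)
    (h2 : H2Hyp A0 M E t π) (h3 : H3Hyp A0 M E t π Crit)
    (x : E) (hx : InGauss A0 M E t π x)
    (hint : ∃ p : (chart A0 M t)[X], p.Monic ∧ InPiGauss A0 M E t π (Polynomial.aeval x p)) :
    ∃ c : E, IsIntegral (chart A0 M t) c ∧ InPiGauss A0 M E t π (x - c) := by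
  have := AdjoinChart.isIntegrallyClosed M t ht
  have := AdjoinChart.isNoetherianRing M t ht
  have := AdjoinChart.isFractionRing M t hgen
  have hp := AdjoinChart.prime_unif M t ht π hπ
  have hunif : ∀ y : E, (unif A0 M t π) • y = π • y := fun y => by
    rw [unif, algebraMap_smul]
  obtain ⟨s₀, hs₀, hx'⟩ := hx
  obtain ⟨p, hpm, s₁, hs₁, c₁, hc₁, h1⟩ := hint
  obtain ⟨c, hc, s₂, hs₂, c₂, hc₂, h⟩ := GlobalizeN.exists_sub_eq_smul_of_int
    (R₀ := chart A0 M t) M E (unif A0 M t π) hp (AdjoinChart.hchar_chart M t π hchar)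
    (fun x hx hxo => by
      obtain ⟨c, hc, hxc⟩ := h2 x hx hxo
      exact ⟨c, hc, by rw [hunif]; exact hxc⟩)
    (AdjoinChart.hloc_of_H3 M E t ht π hπ Crit h3) x s₀ hs₀ hx'
    ⟨p, hpm, s₁, hs₁, c₁, hc₁, by rw [hunif]; exact h1⟩
  exact ⟨c, hc, s₂, hs₂, c₂, hc₂, by rw [← hunif]; exact h⟩

end Fermat.Agent.S37.NormalFibre
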