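import Mathlib
import Fermat.Agent.S18.Setup
import Fermat.Agent.S18.GaussSwap
import Fermat.Agent.S18.LineGen
import Fermat.Agent.S18.H2Top
import Fermat.Agent.S37.H3Self
import Fermat.Agent.S37.NormalFibre

/-!
# S37, block (N): normality of the special fibre of `X₀(N)` on the two `j`-charts (`ℓ ≥ 5`)

The instantiation of machine N (`NormalFibre.exists_lift_chart_of_isIntegral`) on the sealed
carriers of `S18.Setup`: for a field `K` finite over `ℚ` inside `ℚ̄`, `A₀ = A ∩ K` with
uniformizer `π`, `M = Setup.Line K (jF K N)` with coordinate `t = Line.gen K (jF K N)` and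
`F = Setup.FK K N`:

an element `x` of the Gauss ring `O''` of `F` which is a root modulo `π O''` of a monic polynomial
over the chart ring `A₀[t]` (resp. `A₀[t⁻¹]`) is congruent modulo `π O''` to an element integral
over `A₀[t]` (resp. `A₀[t⁻¹]`).

* `exists_lift_inv_of_fin` : abstract form of the chart at infinity from (H2) on the finite chart;
* `dvr`, `harch`, `hchar` : the arithmetic of `A₀` for an arbitrary uniformizer;
* `exists_lift_fin`, `exists_lift_inv` : the two charts of the `j`-line (hypothesis (H2) from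
  `H2Top.h2_jline`, (H3) from `H3Self.h3Hyp_both`).
-/

set_option autoImplicit false
set_option linter.unusedSectionVars false

open Polynomial AlgebraicCurve ModularCurve

namespace Fermat.Agent.S37.NormalJ

open Fermat.Agent.S18 Fermat.Agent.S18.CoreDefs Fermat.Agent.S18.S24Export
open Fermat.Agent.S18.Setup

local notation "Qb" => AlgebraicClosure ℚ

section Abstract

variable {A0 : Type*} [CommRing A0] [IsDomain A0] [IsDiscreteValuationRing A0]
  (M : Type*) [Field M] [Algebra A0 M]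
  (E : Type*) [Field E] [Algebra M E] [Algebra A0 E] [IsScalarTower A0 M E]
  [FiniteDimensional M E] [Algebra.IsSeparable M E]

/-- **Machine N on the chart at infinity** `A0[t⁻¹]`, with (H2) given on the finite chart. -/
theorem exists_lift_inv_of_fin (π : A0) (hπ : Irreducible π)
    (hchar : ∀ n : ℕ, n ≠ 0 → ∃ a : ℕ, (n : A0) ∣ π ^ a) (t : M) (ht : Transcendental A0 t)
    (hgen : ∀ m : M, ∃ a b : chart A0 M t, b ≠ 0 ∧ m * (b : M) = (a : M))
    (Criti : Finset A0) (h2f : H2Hyp A0 M E t π) (h3i : H3Hyp A0 M E t⁻¹ π Criti)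
    (x : E) (hx : InGauss A0 M E t⁻¹ π x)
    (hint : ∃ p : (chart A0 M t⁻¹)[X], p.Monic ∧ InPiGauss A0 M E t⁻¹ π (aeval x p)) :
    ∃ c : E, IsIntegral (chart A0 M t⁻¹) c ∧ InPiGauss A0 M E t⁻¹ π (x - c) :=
  NormalFibre.exists_lift_chart_of_isIntegral M E π hπ hchar t⁻¹
    (IntConst.transcendental_inv t ht)
    (ChartGlue.hgen_inv t (GaussSwap.ne_zero_of_transcendental M ht) hgen) Criti
    (GaussSwap.h2Hyp_inv M E t π hπ ht hgen h2f) h3i x hx hint

/-- In a discrete valuation ring every nonzero element divides a power of a uniformizer. -/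
theorem dvd_pow_of_irreducible (π : A0) (hπ : Irreducible π) (a : A0) (ha : a ≠ 0) :
    ∃ n : ℕ, a ∣ π ^ n := by
  obtain ⟨n, hn⟩ := IsDiscreteValuationRing.associated_pow_irreducible ha hπ
  exact ⟨n, hn.dvd⟩

end Abstract

section Sealed

variable (K : Type*) [Field K] [Algebra K Qb] [Algebra ℚ K] [FiniteDimensional ℚ K]
  (N : ℕ) [NeZero N] (A : ValuationSubring Qb)

/-- `A₀ = A ∩ K` is a discrete valuation ring. -/
theorem dvr {ℓ : ℕ} (hℓ : ℓ.Prime) (hA : A.LiesOverPrime ℓ) :
    IsDiscreteValuationRing ↥(A0.down K A) :=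
  (Setup.exists_unif K A hℓ hA).1

/-- every nonzero element of `A₀` divides a power of a given uniformizer. -/
theorem harch {ℓ : ℕ} (hℓ : ℓ.Prime) (hA : A.LiesOverPrime ℓ) (π : ↥(A0.down K A))
    (hπ : Irreducible π) : ∀ a : ↥(A0.down K A), a ≠ 0 → ∃ n : ℕ, a ∣ π ^ n := by
  have hdvr : IsDiscreteValuationRing ↥(A0.down K A) := dvr K A hℓ hA
  exact fun a ha => dvd_pow_of_irreducible π hπ a ha

/-- every nonzero natural number divides a power of a given uniformizer of `A₀`. -/
theorem hchar {ℓ : ℕ} (hℓ : ℓ.Prime) (hA : A.LiesOverPrime ℓ) (π : ↥(A0.down K A))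
    (hπ : Irreducible π) : ∀ n : ℕ, n ≠ 0 → ∃ a : ℕ, ((n : ℕ) : ↥(A0.down K A)) ∣ π ^ a := by
  intro n hn
  refine harch K A hℓ hA π hπ _ ?_
  have hc : CharZero K := charZero_of_injective_algebraMap (algebraMap ℚ K).injective
  intro h0
  have h1 : ((n : ℕ) : K) = 0 := by
    have := congrArg (Subtype.val : ↥(A0.down K A) → K) h0
    simpa using this
  exact hn (by exact_mod_cast h1)

/-- the coordinate of the `j`-line generates `M = K(j)` as a fraction field of the chart. -/
theorem hgen : ∀ m : Line K (jF K N),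
    ∃ a b : chart ↥(A0.down K A) (Line K (jF K N)) (Line.gen K (jF K N)),
      b ≠ 0 ∧ m * (b : Line K (jF K N)) = (a : Line K (jF K N)) :=
  LineGen.hgen_of_adjoin_eq_top (A0 := ↥(A0.down K A)) (K0 := K)
    (Line.gen K (jF K N)) (Line.adjoin_gen K (jF K N))

/-- **Normality of the special fibre, finite chart of the `j`-line** (`ℓ ≥ 5`, `ℓ ∤ N`): an
element of the Gauss ring of `F_K` which is integral over `A₀[j]` modulo `π` is congruent modulo
`π` to an element integral over `A₀[j]`. -/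
theorem exists_lift_fin {ℓ : ℕ} (hℓ : ℓ.Prime) (hℓN : ¬ ℓ ∣ N) (h5 : 5 ≤ ℓ)
    (hA : A.LiesOverPrime ℓ) (π : ↥(A0.down K A)) (hπ : Irreducible π)
    (hmax : IsLocalRing.maximalIdeal ↥(A0.down K A) = Ideal.span {π})
    (x : FK K N)
    (hx : InGauss ↥(A0.down K A) (Line K (jF K N)) (FK K N) (Line.gen K (jF K N)) π x)
    (hint : ∃ p : (chart ↥(A0.down K A) (Line K (jF K N)) (Line.gen K (jF K N)))[X], p.Monic ∧
      InPiGauss ↥(A0.down K A) (Line K (jF K N)) (FK K N) (Line.gen K (jF K N)) π (aeval x p)) :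
    ∃ c : FK K N,
      IsIntegral (chart ↥(A0.down K A) (Line K (jF K N)) (Line.gen K (jF K N))) c ∧
      InPiGauss ↥(A0.down K A) (Line K (jF K N)) (FK K N) (Line.gen K (jF K N)) π (x - c) := by
  have hdvr : IsDiscreteValuationRing ↥(A0.down K A) := dvr K A hℓ hA
  have hc : CharZero K := charZero_of_injective_algebraMap (algebraMap ℚ K).injective
  obtain ⟨Critf, Criti, h3f, -⟩ :=
    H3Self.h3Hyp_both K N A hℓ hA h5 π (harch K A hℓ hA π hπ)
  exact NormalFibre.exists_lift_chart_of_isIntegral (Line K (jF K N)) (FK K N) π hπ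
    (hchar K A hℓ hA π hπ) (Line.gen K (jF K N)) (H3Setup.transcendental_gen K N A)
    (hgen K N A) Critf (H2Top.h2_jline K N A hℓ hℓN hA π hπ hmax) h3f x hx hint

/-- **Normality of the special fibre, chart at infinity of the `j`-line** (`ℓ ≥ 5`, `ℓ ∤ N`):
the same for the chart ring `A₀[1/j]`. -/
theorem exists_lift_inv {ℓ : ℕ} (hℓ : ℓ.Prime) (hℓN : ¬ ℓ ∣ N) (h5 : 5 ≤ ℓ)
    (hA : A.LiesOverPrime ℓ) (π : ↥(A0.down K A)) (hπ : Irreducible π)
    (hmax : IsLocalRing.maximalIdeal ↥(A0.down K A) = Ideal.span {π})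
    (x : FK K N)
    (hx : InGauss ↥(A0.down K A) (Line K (jF K N)) (FK K N) (Line.gen K (jF K N))⁻¹ π x)
    (hint : ∃ p : (chart ↥(A0.down K A) (Line K (jF K N)) (Line.gen K (jF K N))⁻¹)[X], p.Monic ∧
      InPiGauss ↥(A0.down K A) (Line K (jF K N)) (FK K N) (Line.gen K (jF K N))⁻¹ π
        (aeval x p)) :
    ∃ c : FK K N,
      IsIntegral (chart ↥(A0.down K A) (Line K (jF K N)) (Line.gen K (jF K N))⁻¹) c ∧
      InPiGauss ↥(A0.down K A) (Line K (jF K N)) (FK K N) (Line.gen K (jF K N))⁻¹ π (x - c) := by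
  have hdvr : IsDiscreteValuationRing ↥(A0.down K A) := dvr K A hℓ hA
  have hc : CharZero K := charZero_of_injective_algebraMap (algebraMap ℚ K).injective
  obtain ⟨Critf, Criti, -, h3i⟩ :=
    H3Self.h3Hyp_both K N A hℓ hA h5 π (harch K A hℓ hA π hπ)
  exact exists_lift_inv_of_fin (Line K (jF K N)) (FK K N) π hπ
    (hchar K A hℓ hA π hπ) (Line.gen K (jF K N)) (H3Setup.transcendental_gen K N A)
    (hgen K N A) Criti (H2Top.h2_jline K N A hℓ hℓN hA π hπ hmax) h3i x hx hint

end Sealed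

end Fermat.Agent.S37.NormalJ
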