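/-
S37 (W2, cover chain, the transfer (TR)): the Gauss ring of the sealed `j`-line sits inside the
Gauss rings of the cover on both `h`-charts.

* `inGauss_of_rel`, `inGauss_inv_of_rel` : carrier-generic, `InGauss` on the `j`-chart of `F'`
  implies `InGauss` on the chart `A0[h]` resp. `A0[h⁻¹]` of a line `Mh = K0(h)` with
  `j * h ^ a = num(h)`;
* sealed carriers of `NormalH` (`A₀ = A ∩ K`, `F = FK K N`, `F# = AdjoinRoot m0`,
  `Mh = Line K (root m0)`, `th = Line.gen K (root m0)`), for the covers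
  `j h² = (h + 256)³` (`ℓ ≠ 2`) and `j h = (h + 27)(h + 3)³` (`ℓ ≠ 3`):
  `inGauss_of_mem_cover3`, `inGauss_inv_of_mem_cover3`, `inGauss_of_mem_cover2`,
  `inGauss_inv_of_mem_cover2` : `x ∈ OvK` (the Gauss ring `GaussA0.OvSubring` of `FK K N`)
  implies `InGauss` of the image of `x` in `F#` on the chart `A₀[h]` resp. `A₀[1/h]`;
  `transcendental_gen_cover3/2`, `hgen_cover` : the chart hypotheses of the line `K(h)`.
-/
import Mathlib
import Fermat.Agent.S18.Setup
import Fermat.Agent.S18.SetupTower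
import Fermat.Agent.S18.LineMap
import Fermat.Agent.S18.LineGen
import Fermat.Agent.S18.CoverData
import Fermat.Agent.S18.CoverField
import Fermat.Agent.S18.BaseLineRel
import Fermat.Agent.S18.ChartGlue
import Fermat.Agent.S18.IntConst
import Fermat.Agent.S18.H2Top
import Fermat.Agent.S18.KummerLayer
import Fermat.Agent.S37.H3SelfH
import Fermat.Agent.S37.NormalJ
import Fermat.Agent.S37.ConstEnd
import Fermat.Agent.S37.CoverDefs

set_option autoImplicit false
set_option linter.unusedSectionVars false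
set_option linter.style.haveILetI false
set_option synthInstance.maxHeartbeats 400000

open Polynomial AlgebraicCurve ModularCurve

namespace Fermat.Agent.S37.CoverTR

open Fermat.Agent.S18 Fermat.Agent.S18.CoreDefs

local notation "Qb" => AlgebraicClosure ℚ

section Abstract

variable {A0 : Type*} [CommRing A0] [IsDomain A0] [IsDiscreteValuationRing A0]
  (Mj : Type*) [Field Mj] [Algebra A0 Mj]
  (Mh : Type*) [Field Mh] [Algebra A0 Mh] [Algebra Mj Mh] [IsScalarTower A0 Mj Mh]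
  (F' : Type*) [Field F'] [Algebra Mj F'] [Algebra Mh F'] [Algebra A0 F']
  [IsScalarTower A0 Mh F'] [IsScalarTower Mj Mh F']

/-- `InGauss` on the `j`-chart implies `InGauss` on the finite `h`-chart. -/
theorem inGauss_of_rel (π : A0) (hπ : Irreducible π)
    (j : Mj) (hj : Transcendental A0 j)
    (hgenj : ∀ m : Mj, ∃ a b : chart A0 Mj j, b ≠ 0 ∧ m * (b : Mj) = (a : Mj))
    (h : Mh) (num : A0[X]) (hnum : num.Monic) (a : ℕ) (ha0 : 0 < a) (ha : a < num.natDegree)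
    (h0 : IsUnit (num.coeff 0)) (hrel : algebraMap Mj Mh j * h ^ a = aeval h num)
    (x : F') (hx : InGauss A0 Mj F' j π x) : InGauss A0 Mh F' h π x := by
  have hh : Transcendental A0 h :=
    BaseLineRel.transcendental_root Mj Mh j hj h num a ha0 h0 hrel
  exact BaseLineRel.inGauss_chart Mj Mh F' j h π num hnum a ha0 ha h0 hrel
    (AdjoinChart.isIntegrallyClosed Mj j hj) (AdjoinChart.isFractionRing Mj j hgenj)
    (AdjoinChart.prime_unif Mh h hh π hπ)
    (BaseLineRel.not_unif_dvd_coord Mh h hh π hπ.not_isUnit) x hx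

/-- `InGauss` on the `j`-chart implies `InGauss` on the `h`-chart at infinity. -/
theorem inGauss_inv_of_rel (π : A0) (hπ : Irreducible π)
    (j : Mj) (hj : Transcendental A0 j)
    (hgenj : ∀ m : Mj, ∃ a b : chart A0 Mj j, b ≠ 0 ∧ m * (b : Mj) = (a : Mj))
    (h : Mh) (num : A0[X]) (hnum : num.Monic) (a : ℕ) (ha0 : 0 < a) (ha : a < num.natDegree)
    (h0 : IsUnit (num.coeff 0)) (hrel : algebraMap Mj Mh j * h ^ a = aeval h num)
    (x : F') (hx : InGauss A0 Mj F' j π x) : InGauss A0 Mh F' h⁻¹ π x := by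
  have hh : Transcendental A0 h⁻¹ := by
    rw [Transcendental, IsAlgebraic.inv_iff]
    exact BaseLineRel.transcendental_root Mj Mh j hj h num a ha0 h0 hrel
  exact BaseLineRel.inGauss_chart_inv Mj Mh F' j h π num hnum a ha0 ha h0 hrel
    (AdjoinChart.isIntegrallyClosed Mj j hj) (AdjoinChart.isFractionRing Mj j hgenj)
    (AdjoinChart.prime_unif Mh h⁻¹ hh π hπ)
    (BaseLineRel.not_unif_dvd_coord Mh h⁻¹ hh π hπ.not_isUnit) x hx

end Abstract

section Sealed

open Fermat.Agent.S18.Setup Fermat.Agent.S18.S24Export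

open scoped IntermediateField

variable (K : Type*) [Field K] [Algebra K Qb] [Algebra ℚ K] [FiniteDimensional ℚ K]
  (N : ℕ) [NeZero N] (A : ValuationSubring Qb)
  (m0 : (FK K N)[X]) [Fact (Irreducible m0)]

/-- The chart hypothesis `Frac A₀[h] = K(h)` of the line of the cover. -/
theorem hgen_cover :
    ∀ m : Line K (AdjoinRoot.root m0),
      ∃ a b : chart ↥(A0.down K A) (Line K (AdjoinRoot.root m0))
        (Line.gen K (AdjoinRoot.root m0)),
        b ≠ 0 ∧ m * (b : Line K (AdjoinRoot.root m0)) = (a : Line K (AdjoinRoot.root m0)) :=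
  LineGen.hgen_of_adjoin_eq_top (A0 := ↥(A0.down K A)) (K0 := K)
    (Line.gen K (AdjoinRoot.root m0)) (Line.adjoin_gen K (AdjoinRoot.root m0))

/-- **(TR), cover `j h² = (h + 256)³`, both `h`-charts.** -/
theorem inGauss_both_cover3 {ℓ : ℕ} (hℓ : ℓ.Prime) (hℓN : ¬ ℓ ∣ N) (hℓ2 : ℓ ≠ 2)
    (hA : A.LiesOverPrime ℓ)
    (hrelF : algebraMap (FK K N) (AdjoinRoot m0) (jF K N) * AdjoinRoot.root m0 ^ 2 =
      (AdjoinRoot.root m0 + 256) ^ 3)
    (π : ↥(A0.down K A)) (hπ : Irreducible π)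
    (hmax : IsLocalRing.maximalIdeal ↥(A0.down K A) = Ideal.span {π}) :
    Transcendental ↥(A0.down K A) (Line.gen K (AdjoinRoot.root m0)) ∧
    ∀ x : FK K N, x ∈ ConstEnd.OvK K N A →
      InGauss ↥(A0.down K A) (Line K (AdjoinRoot.root m0)) (AdjoinRoot m0)
        (Line.gen K (AdjoinRoot.root m0)) π (algebraMap (FK K N) (AdjoinRoot m0) x) ∧
      InGauss ↥(A0.down K A) (Line K (AdjoinRoot.root m0)) (AdjoinRoot m0)
        (Line.gen K (AdjoinRoot.root m0))⁻¹ π (algebraMap (FK K N) (AdjoinRoot m0) x) := by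
  classical
  have hB : (A0.down K A).LiesOverPrime ℓ := (A0.liesOverPrime_down_iff A).mpr hA
  have hdvr : IsDiscreteValuationRing ↥(A0.down K A) := NormalJ.dvr K A hℓ hA
  have h2u : IsUnit (2 : ↥(A0.down K A)) := by
    have := ResField.isUnit_natCast (A0.down K A) hℓ hB (n := 2)
      (fun h => hℓ2 ((Nat.prime_dvd_prime_iff_eq hℓ Nat.prime_two).mp h))
    simpa using this
  have hc : CharZero K := charZero_of_injective_algebraMap (algebraMap ℚ K).injective
  have : CharZero (AdjoinRoot m0) :=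
    charZero_of_injective_algebraMap (algebraMap K (AdjoinRoot m0)).injective
  have hmem : algebraMap (FK K N) (AdjoinRoot m0) (jF K N) ∈ K⟮AdjoinRoot.root m0⟯ :=
    H3SelfH.mem_adjoin_of_rel3 (K0 := K) (jF K N) (AdjoinRoot.root m0) hrelF
  letI := LineMap.algebraLine K (jF K N) (AdjoinRoot.root m0) hmem
  haveI : IsScalarTower K (Line K (jF K N)) (Line K (AdjoinRoot.root m0)) :=
    LineMap.isScalarTower_base K (jF K N) (AdjoinRoot.root m0) hmem
  haveI : IsScalarTower (Line K (jF K N)) (Line K (AdjoinRoot.root m0)) (AdjoinRoot m0) :=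
    LineMap.isScalarTower_top K (jF K N) (AdjoinRoot.root m0) hmem
  have hj : Transcendental ↥(A0.down K A) (Line.gen K (jF K N)) :=
    Line.transcendental_gen_val (jF K N) (A0.down K A) (transcendental_jF K N)
  have hgenj := LineGen.hgen_of_adjoin_eq_top (A0 := ↥(A0.down K A)) (K0 := K)
    (Line.gen K (jF K N)) (Line.adjoin_gen K (jF K N))
  have hrel : algebraMap (Line K (jF K N)) (Line K (AdjoinRoot.root m0)) (Line.gen K (jF K N)) *
      Line.gen K (AdjoinRoot.root m0) ^ 2 = (Line.gen K (AdjoinRoot.root m0) + 256) ^ 3 := by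
    apply (algebraMap (Line K (AdjoinRoot.root m0)) (AdjoinRoot m0)).injective
    rw [map_mul, map_pow, map_pow, map_add, map_ofNat, algebraMap_gen,
      LineMap.algebraMap_gen_line K (jF K N) (AdjoinRoot.root m0) hmem]
    exact hrelF
  have hrel' : algebraMap (Line K (jF K N)) (Line K (AdjoinRoot.root m0))
      (Line.gen K (jF K N)) * Line.gen K (AdjoinRoot.root m0) ^ 2 =
      aeval (Line.gen K (AdjoinRoot.root m0)) (BaseLineRel.num3 ↥(A0.down K A)) := by
    rw [BaseLineRel.aeval_num3]; exact hrel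
  have hdeg : 2 < (BaseLineRel.num3 ↥(A0.down K A)).natDegree := by
    rw [BaseLineRel.natDegree_num3]; norm_num
  refine ⟨BaseLineRel.transcendental_root (Line K (jF K N)) (Line K (AdjoinRoot.root m0))
    (Line.gen K (jF K N)) hj (Line.gen K (AdjoinRoot.root m0)) (BaseLineRel.num3 ↥(A0.down K A))
    2 (by norm_num) (BaseLineRel.isUnit_coeff_zero_num3 ↥(A0.down K A) h2u) hrel', ?_⟩
  intro x hx
  have h1 : InGauss ↥(A0.down K A) (Line K (jF K N)) (FK K N) (Line.gen K (jF K N)) π x :=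
    (ConstEnd.inGauss_iff_mem K N A hℓ hℓN hA π hπ hmax x).mpr hx
  have h2 : InGauss ↥(A0.down K A) (Line K (jF K N)) (AdjoinRoot m0) (Line.gen K (jF K N)) π
      (algebraMap (FK K N) (AdjoinRoot m0) x) := KummerLayer.inGauss_map h1
  exact ⟨inGauss_of_rel (Line K (jF K N)) (Line K (AdjoinRoot.root m0)) (AdjoinRoot m0) π hπ
      (Line.gen K (jF K N)) hj hgenj (Line.gen K (AdjoinRoot.root m0))
      (BaseLineRel.num3 ↥(A0.down K A)) (BaseLineRel.monic_num3 ↥(A0.down K A)) 2 (by norm_num)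
      hdeg (BaseLineRel.isUnit_coeff_zero_num3 ↥(A0.down K A) h2u) hrel' _ h2,
    inGauss_inv_of_rel (Line K (jF K N)) (Line K (AdjoinRoot.root m0)) (AdjoinRoot m0) π hπ
      (Line.gen K (jF K N)) hj hgenj (Line.gen K (AdjoinRoot.root m0))
      (BaseLineRel.num3 ↥(A0.down K A)) (BaseLineRel.monic_num3 ↥(A0.down K A)) 2 (by norm_num)
      hdeg (BaseLineRel.isUnit_coeff_zero_num3 ↥(A0.down K A) h2u) hrel' _ h2⟩

/-- **(TR), cover `j h = (h + 27)(h + 3)³`, both `h`-charts.** -/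
theorem inGauss_both_cover2 {ℓ : ℕ} (hℓ : ℓ.Prime) (hℓN : ¬ ℓ ∣ N) (hℓ3 : ℓ ≠ 3)
    (hA : A.LiesOverPrime ℓ)
    (hrelF : algebraMap (FK K N) (AdjoinRoot m0) (jF K N) * AdjoinRoot.root m0 =
      (AdjoinRoot.root m0 + 27) * (AdjoinRoot.root m0 + 3) ^ 3)
    (π : ↥(A0.down K A)) (hπ : Irreducible π)
    (hmax : IsLocalRing.maximalIdeal ↥(A0.down K A) = Ideal.span {π}) :
    Transcendental ↥(A0.down K A) (Line.gen K (AdjoinRoot.root m0)) ∧
    ∀ x : FK K N, x ∈ ConstEnd.OvK K N A →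
      InGauss ↥(A0.down K A) (Line K (AdjoinRoot.root m0)) (AdjoinRoot m0)
        (Line.gen K (AdjoinRoot.root m0)) π (algebraMap (FK K N) (AdjoinRoot m0) x) ∧
      InGauss ↥(A0.down K A) (Line K (AdjoinRoot.root m0)) (AdjoinRoot m0)
        (Line.gen K (AdjoinRoot.root m0))⁻¹ π (algebraMap (FK K N) (AdjoinRoot m0) x) := by
  classical
  have hB : (A0.down K A).LiesOverPrime ℓ := (A0.liesOverPrime_down_iff A).mpr hA
  have hdvr : IsDiscreteValuationRing ↥(A0.down K A) := NormalJ.dvr K A hℓ hA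
  have h3u : IsUnit (3 : ↥(A0.down K A)) := by
    have := ResField.isUnit_natCast (A0.down K A) hℓ hB (n := 3)
      (fun h => hℓ3 ((Nat.prime_dvd_prime_iff_eq hℓ Nat.prime_three).mp h))
    simpa using this
  have hc : CharZero K := charZero_of_injective_algebraMap (algebraMap ℚ K).injective
  have : CharZero (AdjoinRoot m0) :=
    charZero_of_injective_algebraMap (algebraMap K (AdjoinRoot m0)).injective
  have hmem : algebraMap (FK K N) (AdjoinRoot m0) (jF K N) ∈ K⟮AdjoinRoot.root m0⟯ :=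
    H3SelfH.mem_adjoin_of_rel2 (K0 := K) (jF K N) (AdjoinRoot.root m0) hrelF
  letI := LineMap.algebraLine K (jF K N) (AdjoinRoot.root m0) hmem
  haveI : IsScalarTower K (Line K (jF K N)) (Line K (AdjoinRoot.root m0)) :=
    LineMap.isScalarTower_base K (jF K N) (AdjoinRoot.root m0) hmem
  haveI : IsScalarTower (Line K (jF K N)) (Line K (AdjoinRoot.root m0)) (AdjoinRoot m0) :=
    LineMap.isScalarTower_top K (jF K N) (AdjoinRoot.root m0) hmem
  have hj : Transcendental ↥(A0.down K A) (Line.gen K (jF K N)) :=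
    Line.transcendental_gen_val (jF K N) (A0.down K A) (transcendental_jF K N)
  have hgenj := LineGen.hgen_of_adjoin_eq_top (A0 := ↥(A0.down K A)) (K0 := K)
    (Line.gen K (jF K N)) (Line.adjoin_gen K (jF K N))
  have hrel : algebraMap (Line K (jF K N)) (Line K (AdjoinRoot.root m0)) (Line.gen K (jF K N)) *
      Line.gen K (AdjoinRoot.root m0) = (Line.gen K (AdjoinRoot.root m0) + 27) *
        (Line.gen K (AdjoinRoot.root m0) + 3) ^ 3 := by
    apply (algebraMap (Line K (AdjoinRoot.root m0)) (AdjoinRoot m0)).injective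
    rw [map_mul, map_mul, map_pow, map_add, map_add, map_ofNat, map_ofNat, algebraMap_gen,
      LineMap.algebraMap_gen_line K (jF K N) (AdjoinRoot.root m0) hmem]
    exact hrelF
  have hrel' : algebraMap (Line K (jF K N)) (Line K (AdjoinRoot.root m0))
      (Line.gen K (jF K N)) * Line.gen K (AdjoinRoot.root m0) ^ 1 =
      aeval (Line.gen K (AdjoinRoot.root m0)) (BaseLineRel.num2 ↥(A0.down K A)) := by
    rw [BaseLineRel.aeval_num2, pow_one]; exact hrel
  have hdeg : 1 < (BaseLineRel.num2 ↥(A0.down K A)).natDegree := by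
    rw [BaseLineRel.natDegree_num2]; norm_num
  refine ⟨BaseLineRel.transcendental_root (Line K (jF K N)) (Line K (AdjoinRoot.root m0))
    (Line.gen K (jF K N)) hj (Line.gen K (AdjoinRoot.root m0)) (BaseLineRel.num2 ↥(A0.down K A))
    1 (by norm_num) (BaseLineRel.isUnit_coeff_zero_num2 ↥(A0.down K A) h3u) hrel', ?_⟩
  intro x hx
  have h1 : InGauss ↥(A0.down K A) (Line K (jF K N)) (FK K N) (Line.gen K (jF K N)) π x :=
    (ConstEnd.inGauss_iff_mem K N A hℓ hℓN hA π hπ hmax x).mpr hx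
  have h2 : InGauss ↥(A0.down K A) (Line K (jF K N)) (AdjoinRoot m0) (Line.gen K (jF K N)) π
      (algebraMap (FK K N) (AdjoinRoot m0) x) := KummerLayer.inGauss_map h1
  exact ⟨inGauss_of_rel (Line K (jF K N)) (Line K (AdjoinRoot.root m0)) (AdjoinRoot m0) π hπ
      (Line.gen K (jF K N)) hj hgenj (Line.gen K (AdjoinRoot.root m0))
      (BaseLineRel.num2 ↥(A0.down K A)) (BaseLineRel.monic_num2 ↥(A0.down K A)) 1 (by norm_num)
      hdeg (BaseLineRel.isUnit_coeff_zero_num2 ↥(A0.down K A) h3u) hrel' _ h2,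
    inGauss_inv_of_rel (Line K (jF K N)) (Line K (AdjoinRoot.root m0)) (AdjoinRoot m0) π hπ
      (Line.gen K (jF K N)) hj hgenj (Line.gen K (AdjoinRoot.root m0))
      (BaseLineRel.num2 ↥(A0.down K A)) (BaseLineRel.monic_num2 ↥(A0.down K A)) 1 (by norm_num)
      hdeg (BaseLineRel.isUnit_coeff_zero_num2 ↥(A0.down K A) h3u) hrel' _ h2⟩

/-! ### Consumer forms -/

/-- `h` is transcendental over `A₀` (cover `j h² = (h + 256)³`). -/
theorem transcendental_gen_cover3 {ℓ : ℕ} (hℓ : ℓ.Prime) (hℓN : ¬ ℓ ∣ N) (hℓ2 : ℓ ≠ 2)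
    (hA : A.LiesOverPrime ℓ)
    (hrelF : algebraMap (FK K N) (AdjoinRoot m0) (jF K N) * AdjoinRoot.root m0 ^ 2 =
      (AdjoinRoot.root m0 + 256) ^ 3)
    (π : ↥(A0.down K A)) (hπ : Irreducible π)
    (hmax : IsLocalRing.maximalIdeal ↥(A0.down K A) = Ideal.span {π}) :
    Transcendental ↥(A0.down K A) (Line.gen K (AdjoinRoot.root m0)) :=
  (inGauss_both_cover3 K N A m0 hℓ hℓN hℓ2 hA hrelF π hπ hmax).1

/-- **(TR), cover `j h² = (h + 256)³`, finite chart `A₀[h]`**: the Gauss ring of `FK K N` maps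
into the Gauss ring of `F#`. -/
theorem inGauss_of_mem_cover3 {ℓ : ℕ} (hℓ : ℓ.Prime) (hℓN : ¬ ℓ ∣ N) (hℓ2 : ℓ ≠ 2)
    (hA : A.LiesOverPrime ℓ)
    (hrelF : algebraMap (FK K N) (AdjoinRoot m0) (jF K N) * AdjoinRoot.root m0 ^ 2 =
      (AdjoinRoot.root m0 + 256) ^ 3)
    (π : ↥(A0.down K A)) (hπ : Irreducible π)
    (hmax : IsLocalRing.maximalIdeal ↥(A0.down K A) = Ideal.span {π})
    {x : FK K N} (hx : x ∈ ConstEnd.OvK K N A) :
    InGauss ↥(A0.down K A) (Line K (AdjoinRoot.root m0)) (AdjoinRoot m0)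
      (Line.gen K (AdjoinRoot.root m0)) π (algebraMap (FK K N) (AdjoinRoot m0) x) :=
  ((inGauss_both_cover3 K N A m0 hℓ hℓN hℓ2 hA hrelF π hπ hmax).2 x hx).1

/-- **(TR), cover `j h² = (h + 256)³`, chart at infinity `A₀[1/h]`.** -/
theorem inGauss_inv_of_mem_cover3 {ℓ : ℕ} (hℓ : ℓ.Prime) (hℓN : ¬ ℓ ∣ N) (hℓ2 : ℓ ≠ 2)
    (hA : A.LiesOverPrime ℓ)
    (hrelF : algebraMap (FK K N) (AdjoinRoot m0) (jF K N) * AdjoinRoot.root m0 ^ 2 =
      (AdjoinRoot.root m0 + 256) ^ 3)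
    (π : ↥(A0.down K A)) (hπ : Irreducible π)
    (hmax : IsLocalRing.maximalIdeal ↥(A0.down K A) = Ideal.span {π})
    {x : FK K N} (hx : x ∈ ConstEnd.OvK K N A) :
    InGauss ↥(A0.down K A) (Line K (AdjoinRoot.root m0)) (AdjoinRoot m0)
      (Line.gen K (AdjoinRoot.root m0))⁻¹ π (algebraMap (FK K N) (AdjoinRoot m0) x) :=
  ((inGauss_both_cover3 K N A m0 hℓ hℓN hℓ2 hA hrelF π hπ hmax).2 x hx).2

/-- `h` is transcendental over `A₀` (cover `j h = (h + 27)(h + 3)³`). -/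
theorem transcendental_gen_cover2 {ℓ : ℕ} (hℓ : ℓ.Prime) (hℓN : ¬ ℓ ∣ N) (hℓ3 : ℓ ≠ 3)
    (hA : A.LiesOverPrime ℓ)
    (hrelF : algebraMap (FK K N) (AdjoinRoot m0) (jF K N) * AdjoinRoot.root m0 =
      (AdjoinRoot.root m0 + 27) * (AdjoinRoot.root m0 + 3) ^ 3)
    (π : ↥(A0.down K A)) (hπ : Irreducible π)
    (hmax : IsLocalRing.maximalIdeal ↥(A0.down K A) = Ideal.span {π}) :
    Transcendental ↥(A0.down K A) (Line.gen K (AdjoinRoot.root m0)) :=
  (inGauss_both_cover2 K N A m0 hℓ hℓN hℓ3 hA hrelF π hπ hmax).1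

/-- **(TR), cover `j h = (h + 27)(h + 3)³`, finite chart `A₀[h]`.** -/
theorem inGauss_of_mem_cover2 {ℓ : ℕ} (hℓ : ℓ.Prime) (hℓN : ¬ ℓ ∣ N) (hℓ3 : ℓ ≠ 3)
    (hA : A.LiesOverPrime ℓ)
    (hrelF : algebraMap (FK K N) (AdjoinRoot m0) (jF K N) * AdjoinRoot.root m0 =
      (AdjoinRoot.root m0 + 27) * (AdjoinRoot.root m0 + 3) ^ 3)
    (π : ↥(A0.down K A)) (hπ : Irreducible π)
    (hmax : IsLocalRing.maximalIdeal ↥(A0.down K A) = Ideal.span {π})
    {x : FK K N} (hx : x ∈ ConstEnd.OvK K N A) :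
    InGauss ↥(A0.down K A) (Line K (AdjoinRoot.root m0)) (AdjoinRoot m0)
      (Line.gen K (AdjoinRoot.root m0)) π (algebraMap (FK K N) (AdjoinRoot m0) x) :=
  ((inGauss_both_cover2 K N A m0 hℓ hℓN hℓ3 hA hrelF π hπ hmax).2 x hx).1

/-- **(TR), cover `j h = (h + 27)(h + 3)³`, chart at infinity `A₀[1/h]`.** -/
theorem inGauss_inv_of_mem_cover2 {ℓ : ℕ} (hℓ : ℓ.Prime) (hℓN : ¬ ℓ ∣ N) (hℓ3 : ℓ ≠ 3)
    (hA : A.LiesOverPrime ℓ)
    (hrelF : algebraMap (FK K N) (AdjoinRoot m0) (jF K N) * AdjoinRoot.root m0 =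
      (AdjoinRoot.root m0 + 27) * (AdjoinRoot.root m0 + 3) ^ 3)
    (π : ↥(A0.down K A)) (hπ : Irreducible π)
    (hmax : IsLocalRing.maximalIdeal ↥(A0.down K A) = Ideal.span {π})
    {x : FK K N} (hx : x ∈ ConstEnd.OvK K N A) :
    InGauss ↥(A0.down K A) (Line K (AdjoinRoot.root m0)) (AdjoinRoot m0)
      (Line.gen K (AdjoinRoot.root m0))⁻¹ π (algebraMap (FK K N) (AdjoinRoot m0) x) :=
  ((inGauss_both_cover2 K N A m0 hℓ hℓN hℓ3 hA hrelF π hπ hmax).2 x hx).2

/-- **(TR), cover `j h² = (h + 256)³`, chart `b`** (`CoverDefs.tK`). -/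
theorem inGauss_tK_cover3 {ℓ : ℕ} (hℓ : ℓ.Prime) (hℓN : ¬ ℓ ∣ N) (hℓ2 : ℓ ≠ 2)
    (hA : A.LiesOverPrime ℓ)
    (hrelF : algebraMap (FK K N) (AdjoinRoot m0) (jF K N) * AdjoinRoot.root m0 ^ 2 =
      (AdjoinRoot.root m0 + 256) ^ 3)
    (π : ↥(A0.down K A)) (hπ : Irreducible π)
    (hmax : IsLocalRing.maximalIdeal ↥(A0.down K A) = Ideal.span {π}) (b : Bool)
    {x : FK K N} (hx : x ∈ ConstEnd.OvK K N A) :
    InGauss ↥(A0.down K A) (Line K (AdjoinRoot.root m0)) (AdjoinRoot m0)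
      (CoverDefs.tK N m0 b) π (algebraMap (FK K N) (AdjoinRoot m0) x) := by
  cases b
  · exact inGauss_inv_of_mem_cover3 K N A m0 hℓ hℓN hℓ2 hA hrelF π hπ hmax hx
  · exact inGauss_of_mem_cover3 K N A m0 hℓ hℓN hℓ2 hA hrelF π hπ hmax hx

/-- **(TR), cover `j h = (h + 27)(h + 3)³`, chart `b`** (`CoverDefs.tK`). -/
theorem inGauss_tK_cover2 {ℓ : ℕ} (hℓ : ℓ.Prime) (hℓN : ¬ ℓ ∣ N) (hℓ3 : ℓ ≠ 3)
    (hA : A.LiesOverPrime ℓ)
    (hrelF : algebraMap (FK K N) (AdjoinRoot m0) (jF K N) * AdjoinRoot.root m0 =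
      (AdjoinRoot.root m0 + 27) * (AdjoinRoot.root m0 + 3) ^ 3)
    (π : ↥(A0.down K A)) (hπ : Irreducible π)
    (hmax : IsLocalRing.maximalIdeal ↥(A0.down K A) = Ideal.span {π}) (b : Bool)
    {x : FK K N} (hx : x ∈ ConstEnd.OvK K N A) :
    InGauss ↥(A0.down K A) (Line K (AdjoinRoot.root m0)) (AdjoinRoot m0)
      (CoverDefs.tK N m0 b) π (algebraMap (FK K N) (AdjoinRoot m0) x) := by
  cases b
  · exact inGauss_inv_of_mem_cover2 K N A m0 hℓ hℓN hℓ3 hA hrelF π hπ hmax hx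
  · exact inGauss_of_mem_cover2 K N A m0 hℓ hℓN hℓ3 hA hrelF π hπ hmax hx

/-- The chart coordinate `tK b` is transcendental over `A₀` (cover `j h² = (h + 256)³`). -/
theorem transcendental_tK_cover3 {ℓ : ℕ} (hℓ : ℓ.Prime) (hℓN : ¬ ℓ ∣ N) (hℓ2 : ℓ ≠ 2)
    (hA : A.LiesOverPrime ℓ)
    (hrelF : algebraMap (FK K N) (AdjoinRoot m0) (jF K N) * AdjoinRoot.root m0 ^ 2 =
      (AdjoinRoot.root m0 + 256) ^ 3)
    (π : ↥(A0.down K A)) (hπ : Irreducible π)
    (hmax : IsLocalRing.maximalIdeal ↥(A0.down K A) = Ideal.span {π}) (b : Bool) :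
    Transcendental ↥(A0.down K A) (CoverDefs.tK N m0 b) := by
  have h := transcendental_gen_cover3 K N A m0 hℓ hℓN hℓ2 hA hrelF π hπ hmax
  cases b
  · exact IntConst.transcendental_inv _ h
  · exact h

/-- The chart coordinate `tK b` is transcendental over `A₀` (cover `j h = (h + 27)(h + 3)³`). -/
theorem transcendental_tK_cover2 {ℓ : ℕ} (hℓ : ℓ.Prime) (hℓN : ¬ ℓ ∣ N) (hℓ3 : ℓ ≠ 3)
    (hA : A.LiesOverPrime ℓ)
    (hrelF : algebraMap (FK K N) (AdjoinRoot m0) (jF K N) * AdjoinRoot.root m0 =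
      (AdjoinRoot.root m0 + 27) * (AdjoinRoot.root m0 + 3) ^ 3)
    (π : ↥(A0.down K A)) (hπ : Irreducible π)
    (hmax : IsLocalRing.maximalIdeal ↥(A0.down K A) = Ideal.span {π}) (b : Bool) :
    Transcendental ↥(A0.down K A) (CoverDefs.tK N m0 b) := by
  have h := transcendental_gen_cover2 K N A m0 hℓ hℓN hℓ3 hA hrelF π hπ hmax
  cases b
  · exact IntConst.transcendental_inv _ h
  · exact h

/-- The chart hypothesis `Frac A₀[tK b] = K(h)` for the chart coordinate `tK b`, given that `h`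
is transcendental over `A₀`. -/
theorem hgen_tK (hh : Transcendental ↥(A0.down K A) (Line.gen K (AdjoinRoot.root m0)))
    (b : Bool) :
    ∀ m : Line K (AdjoinRoot.root m0),
      ∃ a c : chart ↥(A0.down K A) (Line K (AdjoinRoot.root m0)) (CoverDefs.tK N m0 b),
        c ≠ 0 ∧ m * (c : Line K (AdjoinRoot.root m0)) = (a : Line K (AdjoinRoot.root m0)) := by
  have hh0 : Line.gen K (AdjoinRoot.root m0) ≠ 0 := fun h' => hh (h' ▸ isAlgebraic_zero)
  cases b
  · exact ChartGlue.hgen_inv (Line.gen K (AdjoinRoot.root m0)) hh0 (hgen_cover K N A m0)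
  · exact hgen_cover K N A m0

end Sealed

end Fermat.Agent.S37.CoverTR
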