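import Mathlib
import Fermat.Agent.S18.H2Top
import Fermat.Agent.S18.LineGen
import Fermat.Agent.S37.CoverHyps
import Fermat.Agent.S37.CoverEnd
import Fermat.Agent.S37.CoverTR

/-!
# S37, block (W2), cover chain, leaf (E): `HLast` from the transfer (TR)

`CoverHyps.HLast N A m Good` (the last mile of the cover chain, in the frozen shape of the
assembly) follows from

* `hT`  : the coordinate `h = Line.gen K (root m0)` of a good level is transcendental over
  `A₀ = A ∩ K`;
* `hTR` : the transfer of the Gauss ring: the image in the cover `F# = AdjoinRoot m0` of an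
  element of the Gauss ring `GaussA0.OvSubring` of `F_K` lies in the Gauss ring of the chart
  `A₀[h]` of the cover,

by the abstract last mile `CoverEnd.isAlgebraic_red_of_lifts`.
-/

set_option autoImplicit false
set_option linter.unusedSectionVars false
set_option synthInstance.maxHeartbeats 400000

noncomputable section

open Polynomial AlgebraicCurve ModularCurve

namespace Fermat.Agent.S37.CoverLast

open Fermat.Agent.S18 Fermat.Agent.S18.Setup Fermat.Agent.S18.S24Export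
open Fermat.Agent.S18.CoreDefs Fermat.Agent.S37.CoverDefs Fermat.Agent.S37.CoverHyps

local notation "Qb" => AlgebraicClosure ℚ

section Level

variable (K : Type*) [Field K] [Algebra K Qb] [Algebra ℚ K] [FiniteDimensional ℚ K]
  (N : ℕ) [NeZero N] (A : ValuationSubring Qb) (m0 : (FK K N)[X]) [Fact (Irreducible m0)]

/-- The Gauss ring of `F_K`, as a subring of the sealed carrier `FK K N`. -/
def OvF : Subring (FK K N) :=
  GaussA0.OvSubring (A0.down K A) (IsLocalRing.residue ↥(A0.down K A)) N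

/-- its reduction. -/
def redF : ↥(OvF K N A) →+* LaurentSeries (IsLocalRing.ResidueField ↥(A0.down K A)) :=
  GaussA0.redv (A0.down K A) (IsLocalRing.residue ↥(A0.down K A)) N

/-- its constants. -/
def cstF : ↥(A0.down K A) →+* ↥(OvF K N A) :=
  GaussA0.constO (A0.down K A) (IsLocalRing.residue ↥(A0.down K A)) N

theorem of_cstF (a : ↥(A0.down K A)) :
    AdjoinRoot.of m0 ((cstF K N A a : ↥(OvF K N A)) : FK K N) =
      algebraMap ↥(A0.down K A) (AdjoinRoot m0) a := rfl

/-- **The last mile at one level**, from the transfer of the Gauss ring. -/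
theorem last_of_tr {ℓ : ℕ} (hℓ : ℓ.Prime) (hℓN : ¬ ℓ ∣ N) (hA : A.LiesOverPrime ℓ)
    (π : ↥(A0.down K A)) (hπ : Irreducible π)
    (hmax : IsLocalRing.maximalIdeal ↥(A0.down K A) = Ideal.span {π})
    (ht : Transcendental ↥(A0.down K A) (Line.gen K (AdjoinRoot.root m0)))
    (hTR : ∀ x : FK K N,
      x ∈ GaussA0.OvSubring (A0.down K A) (IsLocalRing.residue (A0.down K A)) N →
        InGauss ↥(A0.down K A) (Line K (AdjoinRoot.root m0)) (AdjoinRoot m0)
          (Line.gen K (AdjoinRoot.root m0)) π (AdjoinRoot.of m0 x))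
    (y : FK K N) (hy0 : y ≠ 0)
    (hG : InGauss ↥(A0.down K A) (Line K (AdjoinRoot.root m0)) (AdjoinRoot m0)
      (Line.gen K (AdjoinRoot.root m0)) π (AdjoinRoot.of m0 y))
    (hG' : InGauss ↥(A0.down K A) (Line K (AdjoinRoot.root m0)) (AdjoinRoot m0)
      (Line.gen K (AdjoinRoot.root m0)) π (AdjoinRoot.of m0 y)⁻¹)
    (hfin : ∃ d : AdjoinRoot m0,
      IsIntegral (chart ↥(A0.down K A) (Line K (AdjoinRoot.root m0))
        (Line.gen K (AdjoinRoot.root m0))) d ∧
      InPiGauss ↥(A0.down K A) (Line K (AdjoinRoot.root m0)) (AdjoinRoot m0)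
        (Line.gen K (AdjoinRoot.root m0)) π (AdjoinRoot.of m0 y - d))
    (hinf : ∃ d : AdjoinRoot m0,
      IsIntegral (chart ↥(A0.down K A) (Line K (AdjoinRoot.root m0))
        (Line.gen K (AdjoinRoot.root m0))⁻¹) d ∧
      InPiGauss ↥(A0.down K A) (Line K (AdjoinRoot.root m0)) (AdjoinRoot m0)
        (Line.gen K (AdjoinRoot.root m0))⁻¹ π (AdjoinRoot.of m0 y - d)) :
    ∃ hy : y ∈ GaussA0.OvSubring (A0.down K A) (IsLocalRing.residue (A0.down K A)) N,
      GaussA0.redv (A0.down K A) (IsLocalRing.residue (A0.down K A)) N ⟨y, hy⟩ ≠ 0 ∧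
      IsAlgebraic (IsLocalRing.ResidueField (A0.down K A))
        (GaussA0.redv (A0.down K A) (IsLocalRing.residue (A0.down K A)) N ⟨y, hy⟩) := by
  obtain ⟨hφ, hπ0, hkrull, -, -⟩ := H2Top.gauss_hyps K N A hℓ hℓN hA π hπ hmax
  have hB : (A0.down K A).LiesOverPrime ℓ := (A0.liesOverPrime_down_iff A).mpr hA
  have hdvr : IsDiscreteValuationRing ↥(A0.down K A) := A0.isDiscreteValuationRing _ hℓ hB
  have hgen := LineGen.hgen_of_adjoin_eq_top (A0 := ↥(A0.down K A)) (K0 := K)
    (Line.gen K (AdjoinRoot.root m0)) (Line.adjoin_gen K (AdjoinRoot.root m0))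
  have hprime := AdjoinChart.prime_unif (Line K (AdjoinRoot.root m0))
    (Line.gen K (AdjoinRoot.root m0)) ht π hπ
  have hic := AdjoinChart.isIntegrallyClosed (Line K (AdjoinRoot.root m0))
    (Line.gen K (AdjoinRoot.root m0)) ht
  have hfr := AdjoinChart.isFractionRing (Line K (AdjoinRoot.root m0))
    (Line.gen K (AdjoinRoot.root m0)) hgen
  have hofy0 : AdjoinRoot.of m0 y ≠ 0 := by
    rwa [Ne, map_eq_zero]
  -- an element of `π Ov` maps to `π` times an element of the Gauss ring of the cover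
  have hpi : ∀ x : ↥(OvF K N A), redF K N A x = 0 →
      ∃ w : CoverEnd.gaussB (Line K (AdjoinRoot.root m0)) (AdjoinRoot m0)
        (Line.gen K (AdjoinRoot.root m0)) π hprime,
        AdjoinRoot.of m0 (x : FK K N) =
          algebraMap ↥(A0.down K A) (AdjoinRoot m0) π * (w : AdjoinRoot m0) := by
    intro x hx
    obtain ⟨z, hz⟩ := (GaussA0.redv_eq_zero_iff hφ hπ0 x).mp hx
    set zF : FK K N := z.1 with hzF
    refine ⟨⟨AdjoinRoot.of m0 zF, hTR _ z.2⟩, ?_⟩
    have h1 : (x : FK K N) = ((cstF K N A π : ↥(OvF K N A)) : FK K N) * zF :=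
      congrArg Subtype.val hz
    rw [h1, map_mul, of_cstF]
  -- `y` lies in the Gauss ring
  have hy : y ∈ OvF K N A := by
    rcases GaussA0.mem_or_inv_mem_OvSubring hφ hπ0 hkrull y with h | h
    · exact h
    · by_cases hr : redF K N A ⟨y⁻¹, h⟩ = 0
      · exfalso
        obtain ⟨w, hw⟩ := hpi ⟨y⁻¹, h⟩ hr
        refine CoverEnd.pi_mul_ne_one hprime hic hfr (w * ⟨AdjoinRoot.of m0 y, hG⟩) ?_
        show algebraMap ↥(A0.down K A) (AdjoinRoot m0) π *
          ((w : AdjoinRoot m0) * AdjoinRoot.of m0 y) = 1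
        rw [← mul_assoc, ← hw]
        show AdjoinRoot.of m0 y⁻¹ * AdjoinRoot.of m0 y = 1
        rw [map_inv₀, inv_mul_cancel₀ hofy0]
      · have hinv := GaussA0.inv_mem_gaussRing_of_red_ne_zero
          (GaussA0.toGauss (A0.down K A) (IsLocalRing.residue ↥(A0.down K A)) N ⟨y⁻¹, h⟩) hr
        have h2 : (y⁻¹)⁻¹ ∈ OvF K N A := hinv
        rwa [inv_inv] at h2
  have hred : redF K N A ⟨y, hy⟩ ≠ 0 := by
    intro hr
    obtain ⟨w, hw⟩ := hpi ⟨y, hy⟩ hr
    refine CoverEnd.pi_mul_ne_one hprime hic hfr (w * ⟨(AdjoinRoot.of m0 y)⁻¹, hG'⟩) ?_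
    show algebraMap ↥(A0.down K A) (AdjoinRoot m0) π *
      ((w : AdjoinRoot m0) * (AdjoinRoot.of m0 y)⁻¹) = 1
    rw [← mul_assoc, ← hw]
    exact mul_inv_cancel₀ hofy0
  refine ⟨hy, hred, ?_⟩
  exact CoverEnd.isAlgebraic_red_of_lifts (Line K (AdjoinRoot.root m0)) (AdjoinRoot m0)
    (Line.gen K (AdjoinRoot.root m0)) ht hgen π hπ
    (IsLocalRing.residue ↥(A0.down K A)) hφ IsLocalRing.residue_surjective
    (OvF K N A) (redF K N A) (cstF K N A)
    (fun a => by
      show GaussA0.redv (A0.down K A) (IsLocalRing.residue ↥(A0.down K A)) N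
        (GaussA0.constO (A0.down K A) (IsLocalRing.residue ↥(A0.down K A)) N a) = _
      rw [GaussA0.redv_constO, GaussA0.algebraMap_eq_C])
    (AdjoinRoot.of m0) (of_cstF K N A m0) (fun x => hTR _ x.2)
    (fun x hx => by
      have hinv := GaussA0.inv_mem_gaussRing_of_red_ne_zero
        (GaussA0.toGauss (A0.down K A) (IsLocalRing.residue ↥(A0.down K A)) N x) hx
      exact hinv)
    ⟨y, hy⟩ hfin hinf

end Level

section Contract

variable (N : ℕ) [NeZero N] (A : ValuationSubring Qb) (m : (FL N)[X]) [Fact (Irreducible m)]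
  (Good : ∀ K : IntermediateField ℚ Qb, (FK K N)[X] → Prop)

/-- **`HLast` (leaf (E) of the cover chain) from the transfer of the Gauss ring.** -/
theorem hLast_of_tr {ℓ : ℕ} (hℓ : ℓ.Prime) (hℓN : ¬ ℓ ∣ N) (hA : A.LiesOverPrime ℓ)
    (hT : ∀ (K : IntermediateField ℚ Qb), FiniteDimensional ℚ K →
      ∀ (m0 : (FK K N)[X]) [Fact (Irreducible m0)], Good K m0 →
        Transcendental ↥(A0.down K A) (Line.gen K (AdjoinRoot.root m0)))
    (hTR : ∀ (K : IntermediateField ℚ Qb), FiniteDimensional ℚ K →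
      ∀ (m0 : (FK K N)[X]) [Fact (Irreducible m0)], Good K m0 → m0.Monic →
      ∀ π : ↥(A0.down K A), Irreducible π →
        IsLocalRing.maximalIdeal ↥(A0.down K A) = Ideal.span {π} →
      ∀ x : FK K N,
        x ∈ GaussA0.OvSubring (A0.down K A) (IsLocalRing.residue (A0.down K A)) N →
        InGauss ↥(A0.down K A) (Line K (AdjoinRoot.root m0)) (AdjoinRoot m0)
          (Line.gen K (AdjoinRoot.root m0)) π (AdjoinRoot.of m0 x)) :
    HLast N A m Good := by
  intro K hK m0 _ _hmap hgood hm0 π hπ hmax y hy0 hG hG' hL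
  have := hK
  exact last_of_tr K N A m0 hℓ hℓN hA π hπ hmax (hT K hK m0 hgood)
    (hTR K hK m0 hgood hm0 π hπ hmax) y hy0 (hG true) (hG' true) (hL true) (hL false)

/-- **`HLast` for the cover `j h² = (h + 256)³`** (used for `ℓ ≠ 2`). -/
theorem hLast3 {ℓ : ℕ} (hℓ : ℓ.Prime) (hℓN : ¬ ℓ ∣ N) (hℓ2 : ℓ ≠ 2) (hA : A.LiesOverPrime ℓ) :
    HLast N A m (Good3 N) := by
  intro K hK m0 _ _hmap hgood hm0 π hπ hmax y hy0 hG hG' hL
  have := hK
  exact last_of_tr K N A m0 hℓ hℓN hA π hπ hmax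
    (CoverTR.transcendental_gen_cover3 K N A m0 hℓ hℓN hℓ2 hA hgood π hπ hmax)
    (fun x hx => CoverTR.inGauss_of_mem_cover3 K N A m0 hℓ hℓN hℓ2 hA hgood π hπ hmax hx)
    y hy0 (hG true) (hG' true) (hL true) (hL false)

/-- **`HLast` for the cover `j h = (h + 27)(h + 3)³`** (used for `ℓ ≠ 3`). -/
theorem hLast2 {ℓ : ℕ} (hℓ : ℓ.Prime) (hℓN : ¬ ℓ ∣ N) (hℓ3 : ℓ ≠ 3) (hA : A.LiesOverPrime ℓ) :
    HLast N A m (Good2 N) := by
  intro K hK m0 _ _hmap hgood hm0 π hπ hmax y hy0 hG hG' hL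
  have := hK
  exact last_of_tr K N A m0 hℓ hℓN hA π hπ hmax
    (CoverTR.transcendental_gen_cover2 K N A m0 hℓ hℓN hℓ3 hA hgood π hπ hmax)
    (fun x hx => CoverTR.inGauss_of_mem_cover2 K N A m0 hℓ hℓN hℓ3 hA hgood π hπ hmax hx)
    y hy0 (hG true) (hG' true) (hL true) (hL false)

end Contract

end Fermat.Agent.S37.CoverLast
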