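import Mathlib
import Fermat.Agent.S18.CoreDefs
import Fermat.Agent.S18.AdjoinChart

/-!
# S37 (long shot), block (W2): the maximal ideal at a closed point of the special fibre

If the special fibre `C / π C` of a Noetherian domain `C` is a normal domain of dimension `≤ 1`
(a Dedekind domain), then at every maximal ideal `n ∋ π` the maximal ideal of `C_n` is generated
by `π` and one more element `s` (`exists_local_gen`).

The normality of the special fibre of `C = integralClosure R₀ E` is deduced from the elementwise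
statement produced by machine N (`isIntegrallyClosed_quotient`), and everything is specialised to
the chart ring `R₀ = A0[t]` of `CoreDefs` (`exists_local_gen_chart`).
-/

set_option autoImplicit false
set_option linter.style.haveILetI false

namespace Fermat.Agent.S37.FibreGen

open Polynomial Fermat.Agent.S18 Fermat.Agent.S18.CoreDefs

/-! ### Dedekind special fibre ⟹ two generators -/

section Abstract

variable {C : Type*} [CommRing C] [IsNoetherianRing C]

/-- If `C / ϖ C` is an integrally closed domain of dimension `≤ 1`, then every maximal ideal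
`n ∋ ϖ` of `C` is generated, locally at `n`, by `ϖ` and one more element. -/
theorem exists_local_gen (ϖ : C) (hϖ : Prime ϖ)
    (hnorm : IsIntegrallyClosed (C ⧸ Ideal.span {ϖ}))
    (hdim : ∀ 𝔮 : Ideal C, 𝔮.IsPrime → ϖ ∈ 𝔮 → 𝔮 ≠ Ideal.span {ϖ} → 𝔮.IsMaximal)
    (n : Ideal C) (hn : n.IsMaximal) (hϖn : ϖ ∈ n) :
    ∃ s ∈ n, ∀ x ∈ n, ∃ w, w ∉ n ∧ w * x ∈ Ideal.span {ϖ, s} := by
  classical
  set I : Ideal C := Ideal.span {ϖ} with hI
  have hIp : I.IsPrime := (Ideal.span_singleton_prime hϖ.ne_zero).mpr hϖ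
  have hIn : I ≤ n := (Ideal.span_singleton_le_iff_mem n).mpr hϖn
  have hmk_surj : Function.Surjective (Ideal.Quotient.mk I) := Ideal.Quotient.mk_surjective
  have hker : RingHom.ker (Ideal.Quotient.mk I) = I := Ideal.mk_ker
  haveI : IsDomain (C ⧸ I) := Ideal.Quotient.isDomain I
  haveI : IsIntegrallyClosed (C ⧸ I) := hnorm
  haveI : Ring.DimensionLEOne (C ⧸ I) := by
    refine ⟨fun {𝔮b} h0 hp => ?_⟩
    have hq : (Ideal.comap (Ideal.Quotient.mk I) 𝔮b).IsPrime := Ideal.comap_isPrime _ _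
    have hmap : Ideal.map (Ideal.Quotient.mk I) (Ideal.comap (Ideal.Quotient.mk I) 𝔮b) = 𝔮b :=
      Ideal.map_comap_of_surjective _ hmk_surj _
    have hϖq : ϖ ∈ Ideal.comap (Ideal.Quotient.mk I) 𝔮b := by
      rw [Ideal.mem_comap]
      have : Ideal.Quotient.mk I ϖ = 0 :=
        Ideal.Quotient.eq_zero_iff_mem.mpr (Ideal.mem_span_singleton_self ϖ)
      rw [this]
      exact 𝔮b.zero_mem
    have hne : Ideal.comap (Ideal.Quotient.mk I) 𝔮b ≠ Ideal.span {ϖ} := by
      intro h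
      apply h0
      rw [← hmap, h]
      exact (Ideal.map_eq_bot_iff_le_ker _).mpr (le_of_eq hker.symm)
    have hmax := hdim _ hq hϖq hne
    rw [← hmap]
    haveI := hmax
    refine Ideal.IsMaximal.map_of_surjective_of_ker_le hmk_surj ?_
    rw [hker]
    exact (Ideal.span_singleton_le_iff_mem _).mpr hϖq
  haveI : IsDedekindDomain (C ⧸ I) := {}
  by_cases hnI : n = I
  · refine ⟨ϖ, hϖn, fun x hx => ⟨1, fun h1 => hn.ne_top ((Ideal.eq_top_iff_one n).mpr h1), ?_⟩⟩
    rw [one_mul]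
    rw [hnI, hI] at hx
    exact (Ideal.span_mono (by simp : ({ϖ} : Set C) ⊆ {ϖ, ϖ})) hx
  · set nb : Ideal (C ⧸ I) := Ideal.map (Ideal.Quotient.mk I) n with hnb
    haveI := hn
    have hnb_max : nb.IsMaximal :=
      Ideal.IsMaximal.map_of_surjective_of_ker_le hmk_surj ((le_of_eq hker).trans hIn)
    have hcomap : Ideal.comap (Ideal.Quotient.mk I) nb = n := by
      rw [hnb, Ideal.comap_map_of_surjective _ hmk_surj, sup_eq_left,
        ← RingHom.ker_eq_comap_bot, hker]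
      exact hIn
    have hmem : ∀ z : C, Ideal.Quotient.mk I z ∈ nb ↔ z ∈ n := by
      intro z
      rw [← Ideal.mem_comap, hcomap]
    have hnb0 : nb ≠ ⊥ := by
      intro h
      apply hnI
      apply le_antisymm _ hIn
      intro z hz
      have h1 := (hmem z).mpr hz
      rw [h, Ideal.mem_bot] at h1
      exact Ideal.Quotient.eq_zero_iff_mem.mp h1
    have hnb1 : nb ≠ ⊤ := hnb_max.ne_top
    obtain ⟨sb, hsb1, hsb2⟩ := Ideal.exists_mem_pow_notMem_pow_succ nb hnb0 hnb1 1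
    rw [pow_one] at hsb1
    have hdvd : nb ∣ Ideal.span {sb} :=
      Ideal.dvd_iff_le.mpr ((Ideal.span_singleton_le_iff_mem nb).mpr hsb1)
    obtain ⟨J, hJ⟩ := hdvd
    have hJn : ¬ J ≤ nb := by
      intro hle
      apply hsb2
      have h1 : Ideal.span {sb} ≤ nb ^ (1 + 1) := by
        rw [hJ, pow_succ, pow_one]
        exact Ideal.mul_mono_right hle
      exact h1 (Ideal.mem_span_singleton_self sb)
    obtain ⟨wb, hwbJ, hwbn⟩ := SetLike.not_le_iff_exists.mp hJn
    obtain ⟨s, rfl⟩ := hmk_surj sb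
    obtain ⟨w, rfl⟩ := hmk_surj wb
    refine ⟨s, (hmem s).mp hsb1, fun x hx => ⟨w, fun hw => hwbn ((hmem w).mpr hw), ?_⟩⟩
    have h1 : Ideal.Quotient.mk I w * Ideal.Quotient.mk I x ∈ Ideal.span {Ideal.Quotient.mk I s} := by
      rw [hJ, mul_comm nb J]
      exact Ideal.mul_mem_mul hwbJ ((hmem x).mpr hx)
    rw [Ideal.mem_span_singleton] at h1
    obtain ⟨yb, hyb⟩ := h1
    obtain ⟨y, rfl⟩ := hmk_surj yb
    have h2 : w * x - s * y ∈ I := by
      rw [← Ideal.Quotient.eq, map_mul, map_mul]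
      exact hyb
    rw [hI, Ideal.mem_span_singleton] at h2
    obtain ⟨z, hz⟩ := h2
    rw [Ideal.mem_span_pair]
    exact ⟨z, y, by linear_combination -hz⟩

end Abstract

/-! ### Normality of the special fibre of an integral closure -/

section Closure

/-- An element of the fraction field of `B` which is integral over `B` is integral over `R₀`
when `B` is integral over `R₀` (polynomial form). -/
theorem exists_monic_map_aeval_eq_zero {R₀ B : Type*} [CommRing R₀] [CommRing B] [IsDomain B]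
    [Algebra R₀ B] [Algebra.IsIntegral R₀ B] (x : FractionRing B) (hx : IsIntegral B x) :
    ∃ P : R₀[X], P.Monic ∧ aeval x (P.map (algebraMap R₀ B)) = 0 := by
  obtain ⟨P, hPm, hPx⟩ := isIntegral_trans (R := R₀) x hx
  refine ⟨P, hPm, ?_⟩
  rw [aeval_def, eval₂_map, ← IsScalarTower.algebraMap_eq]
  exact hPx

/-- `π C ∩ R₀ = π R₀` for the integral closure `C` of an integrally closed domain `R₀`. -/
theorem dvd_of_dvd_algebraMap {R₀ : Type*} [CommRing R₀] [IsIntegrallyClosed R₀]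
    (M : Type*) [Field M] [Algebra R₀ M] [IsFractionRing R₀ M]
    (E : Type*) [Field E] [Algebra M E] [Algebra R₀ E] [IsScalarTower R₀ M E]
    (ϖ₀ : R₀) (hϖ₀ : ϖ₀ ≠ 0) (s : R₀)
    (h : algebraMap R₀ (integralClosure R₀ E) ϖ₀ ∣ algebraMap R₀ (integralClosure R₀ E) s) :
    ϖ₀ ∣ s := by
  obtain ⟨c, hc⟩ := h
  have hinjM : Function.Injective (algebraMap R₀ M) := IsFractionRing.injective R₀ M
  have hinjE : Function.Injective (algebraMap M E) := (algebraMap M E).injective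
  have hcE : algebraMap R₀ E s = algebraMap R₀ E ϖ₀ * (c : E) := by
    have := congrArg (fun z : integralClosure R₀ E => (z : E)) hc
    simpa using this
  have hϖM : algebraMap R₀ M ϖ₀ ≠ 0 := (map_ne_zero_iff _ hinjM).mpr hϖ₀
  have hϖE : algebraMap R₀ E ϖ₀ ≠ 0 := by
    rw [IsScalarTower.algebraMap_apply R₀ M E]
    exact (map_ne_zero_iff _ hinjE).mpr hϖM
  have hcm : (c : E) = algebraMap M E (algebraMap R₀ M s / algebraMap R₀ M ϖ₀) := by
    rw [map_div₀, ← IsScalarTower.algebraMap_apply, ← IsScalarTower.algebraMap_apply, hcE,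
      mul_div_cancel_left₀ _ hϖE]
  have hint : IsIntegral R₀ (algebraMap R₀ M s / algebraMap R₀ M ϖ₀) := by
    rw [← isIntegral_algebraMap_iff hinjE, ← hcm]
    exact c.2
  obtain ⟨y, hy⟩ := IsIntegrallyClosed.isIntegral_iff.mp hint
  refine ⟨y, hinjM ?_⟩
  rw [map_mul, hy, mul_div_cancel₀ _ hϖM]

/-- Elements of `C` outside the prime `π C` divide elements of `R₀` outside `π R₀`. -/
theorem exists_mul_eq_algebraMap {R₀ : Type*} [CommRing R₀] [IsDomain R₀] [IsNoetherianRing R₀]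
    (E : Type*) [Field E] [Algebra R₀ E]
    (ϖ₀ : R₀) (hϖ₀ : Prime ϖ₀)
    (hprime : Prime (algebraMap R₀ (integralClosure R₀ E) ϖ₀))
    (b : integralClosure R₀ E) (hb : ¬ algebraMap R₀ (integralClosure R₀ E) ϖ₀ ∣ b) :
    ∃ (s₀ : R₀) (b' : integralClosure R₀ E), ¬ ϖ₀ ∣ s₀ ∧
      b * b' = algebraMap R₀ (integralClosure R₀ E) s₀ := by
  classical
  by_contra hcon
  have hcon' : ∀ (s₀ : R₀) (b' : integralClosure R₀ E),
      b * b' = algebraMap R₀ (integralClosure R₀ E) s₀ → ϖ₀ ∣ s₀ := by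
    intro s₀ b' h
    by_contra hn
    exact hcon ⟨s₀, b', hn, h⟩
  have hP : (Ideal.span {algebraMap R₀ (integralClosure R₀ E) ϖ₀} :
      Ideal (integralClosure R₀ E)).IsPrime :=
    (Ideal.span_singleton_prime hprime.ne_zero).mpr hprime
  have hP₀ : (Ideal.span {ϖ₀} : Ideal R₀).IsPrime :=
    (Ideal.span_singleton_prime hϖ₀.ne_zero).mpr hϖ₀
  let T : Submonoid (integralClosure R₀ E) :=
    Submonoid.map (algebraMap R₀ (integralClosure R₀ E)) (Ideal.span {ϖ₀} : Ideal R₀).primeCompl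
  have hdisj : Disjoint ((Ideal.span {b} : Ideal (integralClosure R₀ E)) :
      Set (integralClosure R₀ E)) (T : Set (integralClosure R₀ E)) := by
    rw [Set.disjoint_left]
    rintro x hx ⟨s₀, hs₀, rfl⟩
    rw [SetLike.mem_coe, Ideal.mem_span_singleton] at hx
    obtain ⟨b', hb'⟩ := hx
    exact hs₀ (Ideal.mem_span_singleton.mpr (hcon' s₀ b' hb'.symm))
  obtain ⟨𝔮, h𝔮, hb𝔮, h𝔮T⟩ := Ideal.exists_le_prime_disjoint _ T hdisj
  have hb𝔮' : b ∈ 𝔮 := hb𝔮 (Ideal.mem_span_singleton_self b)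
  have hcomap : ∀ s : R₀, algebraMap R₀ (integralClosure R₀ E) s ∈ 𝔮 → ϖ₀ ∣ s := by
    intro s hs
    by_contra hns
    exact Set.disjoint_left.mp h𝔮T hs
      ⟨s, fun h => hns (Ideal.mem_span_singleton.mp h), rfl⟩
  have hb0 : b ≠ 0 := by
    intro h0
    exact hb (h0 ▸ dvd_zero _)
  have hne : Ideal.comap (algebraMap R₀ (integralClosure R₀ E)) 𝔮 ≠ ⊥ :=
    Ideal.comap_ne_bot_of_integral_mem hb0 hb𝔮' (Algebra.IsIntegral.isIntegral b)
  obtain ⟨y₀, hy₀, hy₀0⟩ := Submodule.exists_mem_ne_zero_of_ne_bot hne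
  obtain ⟨k, y', hy', hyy'⟩ := WfDvdMonoid.max_power_factor hy₀0 hϖ₀.irreducible
  have hq₀ : (Ideal.comap (algebraMap R₀ (integralClosure R₀ E)) 𝔮).IsPrime :=
    Ideal.comap_isPrime _ _
  have hϖ𝔮 : ϖ₀ ∈ Ideal.comap (algebraMap R₀ (integralClosure R₀ E)) 𝔮 := by
    rw [hyy'] at hy₀
    rcases hq₀.mem_or_mem hy₀ with h | h
    · exact hq₀.mem_of_pow_mem k h
    · exact absurd (hcomap y' h) hy'
  have hle : Ideal.span {algebraMap R₀ (integralClosure R₀ E) ϖ₀} ≤ 𝔮 :=
    (Ideal.span_singleton_le_iff_mem 𝔮).mpr hϖ𝔮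
  by_cases heq : 𝔮 ≤ Ideal.span {algebraMap R₀ (integralClosure R₀ E) ϖ₀}
  · exact hb (Ideal.mem_span_singleton.mp (heq hb𝔮'))
  · obtain ⟨x, hx𝔮, hxP⟩ := SetLike.not_le_iff_exists.mp heq
    have hlt := Ideal.comap_lt_comap_of_integral_mem_sdiff (R := R₀) hle
      (show x ∈ (𝔮 : Set (integralClosure R₀ E)) \
        (Ideal.span {algebraMap R₀ (integralClosure R₀ E) ϖ₀} : Ideal (integralClosure R₀ E))
        from ⟨hx𝔮, hxP⟩)
      (Algebra.IsIntegral.isIntegral x)
    obtain ⟨s, hs𝔮, hsP⟩ := SetLike.exists_of_lt hlt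
    apply hsP
    rw [Ideal.mem_comap, Ideal.mem_span_singleton]
    exact map_dvd (algebraMap R₀ (integralClosure R₀ E)) (hcomap s hs𝔮)

/-- **Normality of the special fibre.**  If `π` stays prime in `C = integralClosure R₀ E` and
machine N holds (every element of the Gauss ring which is integral modulo `π` is congruent to an
element of `C`), then `C / π C` is integrally closed. -/
theorem isIntegrallyClosed_quotient {R₀ : Type*} [CommRing R₀] [IsDomain R₀]
    [IsIntegrallyClosed R₀] [IsNoetherianRing R₀]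
    (M : Type*) [Field M] [Algebra R₀ M] [IsFractionRing R₀ M]
    (E : Type*) [Field E] [Algebra M E] [Algebra R₀ E] [IsScalarTower R₀ M E]
    (ϖ₀ : R₀) (hϖ₀ : Prime ϖ₀)
    (hprime : Prime (algebraMap R₀ (integralClosure R₀ E) ϖ₀))
    (hN : ∀ (e : E) (s₀ : R₀), ¬ ϖ₀ ∣ s₀ → IsIntegral R₀ (s₀ • e) →
      (∃ p : R₀[X], p.Monic ∧ ∃ s₁ : R₀, ¬ ϖ₀ ∣ s₁ ∧ ∃ c₁ : E, IsIntegral R₀ c₁ ∧
        s₁ • Polynomial.aeval e p = ϖ₀ • c₁) →
      ∃ c : E, IsIntegral R₀ c ∧ ∃ s₂ : R₀, ¬ ϖ₀ ∣ s₂ ∧ ∃ c₂ : E, IsIntegral R₀ c₂ ∧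
        s₂ • (e - c) = ϖ₀ • c₂) :
    IsIntegrallyClosed
      (integralClosure R₀ E ⧸ Ideal.span {algebraMap R₀ (integralClosure R₀ E) ϖ₀}) := by
  classical
  let C := integralClosure R₀ E
  let ϖ : C := algebraMap R₀ C ϖ₀
  let I : Ideal C := Ideal.span {ϖ}
  have hIp : I.IsPrime := (Ideal.span_singleton_prime hprime.ne_zero).mpr hprime
  haveI : IsDomain (C ⧸ I) := Ideal.Quotient.isDomain I
  show IsIntegrallyClosed (C ⧸ I)
  rw [isIntegrallyClosed_iff (FractionRing (C ⧸ I))]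
  intro x hx
  obtain ⟨P, hPm, hPx⟩ := exists_monic_map_aeval_eq_zero (R₀ := R₀) x hx
  obtain ⟨ab, bb, hbb, rfl⟩ := IsFractionRing.div_surjective (A := C ⧸ I) x
  obtain ⟨a, rfl⟩ := Ideal.Quotient.mk_surjective ab
  obtain ⟨b, rfl⟩ := Ideal.Quotient.mk_surjective bb
  have hb : ¬ ϖ ∣ b := by
    intro h
    have h0 : Ideal.Quotient.mk I b = 0 :=
      Ideal.Quotient.eq_zero_iff_mem.mpr (Ideal.mem_span_singleton.mpr h)
    exact nonZeroDivisors.ne_zero hbb h0
  obtain ⟨s₀, b', hs₀, hbb'⟩ := exists_mul_eq_algebraMap E ϖ₀ hϖ₀ hprime b hb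
  let PC : C[X] := P.map (algebraMap R₀ C)
  have hPCm : PC.Monic := hPm.map _
  have hinjK : Function.Injective (algebraMap (C ⧸ I) (FractionRing (C ⧸ I))) :=
    IsFractionRing.injective _ _
  have hPCmap : PC.map (Ideal.Quotient.mk I) = P.map (algebraMap R₀ (C ⧸ I)) := by
    rw [Polynomial.map_map]
    rfl
  rw [← hPCmap] at hPx
  have h1 := scaleRoots_aeval_eq_zero_of_aeval_div_eq_zero hinjK hPx hbb
  rw [aeval_algebraMap_apply, map_eq_zero_iff _ hinjK,
    ← map_scaleRoots _ _ _ (by rw [hPCm.leadingCoeff, map_one]; exact one_ne_zero),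
    Polynomial.coe_aeval_eq_eval, Polynomial.eval_map_apply, Ideal.Quotient.eq_zero_iff_mem,
    Ideal.mem_span_singleton] at h1
  obtain ⟨c', hc'⟩ := h1
  -- pass to `E`
  have hbE : (b : E) ≠ 0 := by
    intro h
    apply hb
    have h0 : b = 0 := Subtype.ext h
    rw [h0]
    exact dvd_zero _
  let e : E := (a : E) / (b : E)
  have hbe : (b : E) * e = (a : E) := mul_div_cancel₀ _ hbE
  have hs₀E : algebraMap R₀ E s₀ = (b : E) * (b' : E) := by
    have := congrArg (fun z : C => (z : E)) hbb'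
    simpa using this.symm
  have hϖE : ∀ z : E, ϖ₀ • z = (ϖ : E) * z := by
    intro z
    rw [Algebra.smul_def]
    rfl
  have hevalE : (b : E) ^ P.natDegree * aeval e P = (ϖ : E) * (c' : E) := by
    have h2 := scaleRoots_eval₂_mul (p := PC) (algebraMap C E) e b
    have h3 : eval₂ (algebraMap C E) e PC = aeval e P := by
      rw [eval₂_map, aeval_def, ← IsScalarTower.algebraMap_eq]
    have h4 : PC.natDegree = P.natDegree := hPm.natDegree_map _
    have h5 : eval₂ (algebraMap C E) ((algebraMap C E) b * e) (PC.scaleRoots b) =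
        (algebraMap C E) (eval a (PC.scaleRoots b)) := by
      have h6 : (algebraMap C E) b * e = algebraMap C E a := hbe
      rw [h6, ← Polynomial.eval₂_at_apply]
    rw [h5, h3, h4, hc'] at h2
    exact h2.symm
  have hint0 : IsIntegral R₀ (s₀ • e) := by
    have h0 : s₀ • e = ((b' * a : C) : E) := by
      rw [Algebra.smul_def, hs₀E]
      show (b : E) * (b' : E) * ((a : E) / (b : E)) = (b' : E) * (a : E)
      field_simp
    rw [h0]
    exact (b' * a).2
  have hs₀pow : ¬ ϖ₀ ∣ s₀ ^ P.natDegree := fun h => hs₀ (hϖ₀.dvd_of_dvd_pow h)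
  obtain ⟨c, hc, s₂, hs₂, c₂, hc₂, hcc⟩ := hN e s₀ hs₀ hint0
    ⟨P, hPm, s₀ ^ P.natDegree, hs₀pow, ((b' ^ P.natDegree * c' : C) : E),
      (b' ^ P.natDegree * c').2, by
        rw [Algebra.smul_def, map_pow, hs₀E, hϖE, mul_pow]
        show (b : E) ^ P.natDegree * (b' : E) ^ P.natDegree * aeval e P =
          (ϖ : E) * ((b' : E) ^ P.natDegree * (c' : E))
        linear_combination (b' : E) ^ P.natDegree * hevalE⟩
  -- back to `C`
  have hdvd : ϖ ∣ algebraMap R₀ C s₂ * (a - b * ⟨c, hc⟩) := by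
    refine ⟨⟨c₂, hc₂⟩ * b, Subtype.ext ?_⟩
    have h6 : (algebraMap R₀ E s₂) * ((a : E) - (b : E) * c) = (ϖ : E) * (c₂ * (b : E)) := by
      rw [Algebra.smul_def, hϖE] at hcc
      have h7 : (a : E) - (b : E) * c = (b : E) * (e - c) := by rw [mul_sub, hbe]
      rw [h7]
      linear_combination (b : E) * hcc
    exact h6
  have hs₂ϖ : ¬ ϖ ∣ algebraMap R₀ C s₂ :=
    fun h => hs₂ (dvd_of_dvd_algebraMap M E ϖ₀ hϖ₀.ne_zero s₂ h)
  have hfin : ϖ ∣ a - b * ⟨c, hc⟩ := (hprime.dvd_or_dvd hdvd).resolve_left hs₂ϖ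
  refine ⟨Ideal.Quotient.mk I ⟨c, hc⟩, ?_⟩
  have h7 : Ideal.Quotient.mk I a = Ideal.Quotient.mk I b * Ideal.Quotient.mk I ⟨c, hc⟩ := by
    rw [← map_mul, Ideal.Quotient.eq, Ideal.mem_span_singleton]
    exact hfin
  have hbK : algebraMap (C ⧸ I) (FractionRing (C ⧸ I)) (Ideal.Quotient.mk I b) ≠ 0 :=
    (map_ne_zero_iff _ hinjK).mpr (nonZeroDivisors.ne_zero hbb)
  rw [eq_div_iff hbK, h7, map_mul, mul_comm]

/-- Dimension of the special fibre: a prime of `C` strictly containing `π C` is maximal, if the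
same holds in `R₀`. -/
theorem isMaximal_of_mem {R₀ : Type*} [CommRing R₀]
    (E : Type*) [Field E] [Algebra R₀ E]
    (ϖ₀ : R₀)
    (hprime : Prime (algebraMap R₀ (integralClosure R₀ E) ϖ₀))
    (hdim0 : ∀ 𝔮₀ : Ideal R₀, 𝔮₀.IsPrime → ϖ₀ ∈ 𝔮₀ → 𝔮₀ ≠ Ideal.span {ϖ₀} → 𝔮₀.IsMaximal)
    (𝔮 : Ideal (integralClosure R₀ E)) (h𝔮 : 𝔮.IsPrime)
    (hmem : algebraMap R₀ (integralClosure R₀ E) ϖ₀ ∈ 𝔮)
    (hne : 𝔮 ≠ Ideal.span {algebraMap R₀ (integralClosure R₀ E) ϖ₀}) : 𝔮.IsMaximal := by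
  have hP : (Ideal.span {algebraMap R₀ (integralClosure R₀ E) ϖ₀} :
      Ideal (integralClosure R₀ E)).IsPrime :=
    (Ideal.span_singleton_prime hprime.ne_zero).mpr hprime
  have hle : Ideal.span {algebraMap R₀ (integralClosure R₀ E) ϖ₀} ≤ 𝔮 :=
    (Ideal.span_singleton_le_iff_mem 𝔮).mpr hmem
  have hnle : ¬ 𝔮 ≤ Ideal.span {algebraMap R₀ (integralClosure R₀ E) ϖ₀} :=
    fun h => hne (le_antisymm h hle)
  obtain ⟨x, hx𝔮, hxP⟩ := SetLike.not_le_iff_exists.mp hnle
  have hlt := Ideal.comap_lt_comap_of_integral_mem_sdiff (R := R₀) hle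
    (show x ∈ (𝔮 : Set (integralClosure R₀ E)) \
      (Ideal.span {algebraMap R₀ (integralClosure R₀ E) ϖ₀} : Ideal (integralClosure R₀ E))
      from ⟨hx𝔮, hxP⟩)
    (Algebra.IsIntegral.isIntegral x)
  have hq₀ : (Ideal.comap (algebraMap R₀ (integralClosure R₀ E)) 𝔮).IsPrime :=
    Ideal.comap_isPrime _ _
  have hmax₀ := hdim0 _ hq₀ hmem (fun h => by
    have h1 : Ideal.span {ϖ₀} ≤ Ideal.comap (algebraMap R₀ (integralClosure R₀ E))
        (Ideal.span {algebraMap R₀ (integralClosure R₀ E) ϖ₀}) := by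
      rw [Ideal.span_singleton_le_iff_mem, Ideal.mem_comap]
      exact Ideal.mem_span_singleton_self _
    exact absurd (h ▸ hlt) (not_lt_of_ge h1))
  exact Ideal.isMaximal_of_isIntegral_of_isMaximal_comap 𝔮 hmax₀

end Closure

/-! ### The chart ring -/

section Chart

variable {A0 : Type*} [CommRing A0] [IsDomain A0] [IsDiscreteValuationRing A0]

/-- A prime of `A0[X]` strictly containing `(π)` is maximal. -/
theorem isMaximal_of_C_mem (π : A0) (hπ : Irreducible π) (𝔮 : Ideal A0[X]) (h𝔮 : 𝔮.IsPrime)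
    (hmem : C π ∈ 𝔮) (hne : 𝔮 ≠ Ideal.span {C π}) : 𝔮.IsMaximal := by
  have hImax : (Ideal.span {π} : Ideal A0).IsMaximal :=
    PrincipalIdealRing.isMaximal_of_irreducible hπ
  letI : Field (A0 ⧸ (Ideal.span {π} : Ideal A0)) := Ideal.Quotient.field _
  let φ : A0[X] →+* (A0 ⧸ (Ideal.span {π} : Ideal A0))[X] :=
    mapRingHom (Ideal.Quotient.mk (Ideal.span {π}))
  have hφs : Function.Surjective φ := map_surjective _ Ideal.Quotient.mk_surjective
  have hker : RingHom.ker φ = Ideal.span {C π} := by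
    ext g
    rw [RingHom.mem_ker, Ideal.mem_span_singleton]
    constructor
    · exact AdjoinChart.C_dvd_of_map_eq_zero π g
    · rintro ⟨h, rfl⟩
      show (C π * h).map (Ideal.Quotient.mk (Ideal.span {π})) = 0
      rw [Polynomial.map_mul, Polynomial.map_C,
        Ideal.Quotient.eq_zero_iff_mem.mpr (Ideal.mem_span_singleton_self π), C_0, zero_mul]
  have hle : RingHom.ker φ ≤ 𝔮 := hker ▸ (Ideal.span_singleton_le_iff_mem 𝔮).mpr hmem
  have hprime : (Ideal.map φ 𝔮).IsPrime := Ideal.map_isPrime_of_surjective hφs hle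
  have hne0 : Ideal.map φ 𝔮 ≠ ⊥ := by
    intro h0
    apply hne
    apply le_antisymm
    · rw [← hker]
      intro x hx
      rw [RingHom.mem_ker]
      have h1 := Ideal.mem_map_of_mem φ hx
      rwa [h0, Ideal.mem_bot] at h1
    · exact hker ▸ hle
  have hmax := hprime.isMaximal hne0
  have hcm : Ideal.comap φ (Ideal.map φ 𝔮) = 𝔮 := by
    rw [Ideal.comap_map_of_surjective φ hφs, sup_eq_left, ← RingHom.ker_eq_comap_bot]
    exact hle
  rw [← hcm]
  exact Ideal.comap_isMaximal_of_surjective φ hφs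

/-- A prime of the chart ring strictly containing `(π)` is maximal. -/
theorem isMaximal_of_unif_mem (M : Type*) [Field M] [Algebra A0 M] (t : M)
    (ht : Transcendental A0 t) (π : A0) (hπ : Irreducible π) (𝔮 : Ideal (chart A0 M t))
    (h𝔮 : 𝔮.IsPrime) (hmem : unif A0 M t π ∈ 𝔮) (hne : 𝔮 ≠ Ideal.span {unif A0 M t π}) :
    𝔮.IsMaximal := by
  set e : A0[X] ≃+* chart A0 M t := (AdjoinChart.chartEquiv M t ht).toRingEquiv with he
  have heC : e (C π) = unif A0 M t π := AdjoinChart.chartEquiv_C_unif M t ht π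
  have h1 : (Ideal.comap e 𝔮).IsPrime := Ideal.comap_isPrime e 𝔮
  have h2 : C π ∈ Ideal.comap e 𝔮 := by
    rw [Ideal.mem_comap, heC]
    exact hmem
  have hmc : Ideal.map e (Ideal.comap e 𝔮) = 𝔮 := Ideal.map_comap_of_surjective e e.surjective 𝔮
  have h3 : Ideal.comap e 𝔮 ≠ Ideal.span {C π} := by
    intro h
    apply hne
    rw [← hmc, h, Ideal.map_span, Set.image_singleton, heC]
  haveI hmax := isMaximal_of_C_mem π hπ _ h1 h2 h3
  rw [← hmc]
  refine Ideal.IsMaximal.map_of_surjective_of_ker_le e.surjective ?_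
  rw [(RingHom.injective_iff_ker_eq_bot e).mp e.injective]
  exact bot_le

/-- **The maximal ideal at a closed point of the special fibre of a chart.**  `C` the integral
closure of the chart ring `A0[t]` in `E`; if `π` stays prime in `C` and machine N holds, then
every maximal ideal `n ∋ π` of `C` is generated, locally at `n`, by `π` and one more element. -/
theorem exists_local_gen_chart (M : Type*) [Field M] [Algebra A0 M] (E : Type*) [Field E]
    [Algebra M E] [Algebra A0 E] [IsScalarTower A0 M E] [FiniteDimensional M E]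
    [Algebra.IsSeparable M E] (π : A0) (hπ : Irreducible π) (t : M) (ht : Transcendental A0 t)
    (hgen : ∀ m : M, ∃ a b : chart A0 M t, b ≠ 0 ∧ m * (b : M) = (a : M))
    (ϖ : integralClosure (chart A0 M t) E) (hϖE : (ϖ : E) = algebraMap A0 E π) (hprime : Prime ϖ)
    (hN : ∀ x : E, InGauss A0 M E t π x →
      (∃ p : (chart A0 M t)[X], p.Monic ∧ InPiGauss A0 M E t π (Polynomial.aeval x p)) →
      ∃ c : E, IsIntegral (chart A0 M t) c ∧ InPiGauss A0 M E t π (x - c))
    (n : Ideal (integralClosure (chart A0 M t) E)) (hn : n.IsMaximal) (hϖn : ϖ ∈ n) :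
    ∃ s ∈ n, ∀ x ∈ n, ∃ w, w ∉ n ∧ w * x ∈ Ideal.span {ϖ, s} := by
  have := AdjoinChart.isIntegrallyClosed M t ht
  have := AdjoinChart.isNoetherianRing M t ht
  have := AdjoinChart.isFractionRing M t hgen
  have hp := AdjoinChart.prime_unif M t ht π hπ
  have hunif : ∀ y : E, (unif A0 M t π) • y = π • y := fun y => by
    rw [unif, algebraMap_smul]
  have hϖ : ϖ = algebraMap (chart A0 M t) (integralClosure (chart A0 M t) E) (unif A0 M t π) := by
    apply Subtype.ext
    rw [hϖE]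
    show algebraMap A0 E π = algebraMap (chart A0 M t) E (unif A0 M t π)
    rw [unif, ← IsScalarTower.algebraMap_apply]
  subst hϖ
  haveI : IsNoetherianRing (integralClosure (chart A0 M t) E) :=
    IsIntegralClosure.isNoetherianRing (chart A0 M t) M E _
  have hnorm := isIntegrallyClosed_quotient M E (unif A0 M t π) hp hprime
    (fun e s₀ hs₀ he hint => by
      obtain ⟨p, hpm, s₁, hs₁, c₁, hc₁, h1⟩ := hint
      obtain ⟨c, hc, s₂, hs₂, c₂, hc₂, h⟩ := hN e ⟨s₀, hs₀, he⟩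
        ⟨p, hpm, s₁, hs₁, c₁, hc₁, by rw [← hunif]; exact h1⟩
      exact ⟨c, hc, s₂, hs₂, c₂, hc₂, by rw [hunif]; exact h⟩)
  exact exists_local_gen _ hprime hnorm
    (fun 𝔮 h𝔮 hm hne => isMaximal_of_mem E (unif A0 M t π) hprime
      (isMaximal_of_unif_mem M t ht π hπ) 𝔮 h𝔮 hm hne) n hn hϖn

end Chart

end Fermat.Agent.S37.FibreGen
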