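import Mathlib
import Fermat.Agent.S18.CoreDefs
import Fermat.Agent.S18.AdjoinChart
import Fermat.Agent.S18.LineGen
import Fermat.Agent.S18.ChartGlue
import Fermat.Agent.S18.FieldDef
import Fermat.Agent.S18.FieldDefQ
import Fermat.Agent.S37.FibreGen
import Fermat.Agent.S37.CoverDefs

/-!
# S37, cover chain, leaf (F): level lemmas

## Carrier-generic cores

`A0` the base ring of a finite level, `M` the function field of the line with coordinate `t`,
`E` a finite extension of `M` (the cover at that level), `φ : E →+* Ω` an injective ring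
homomorphism to the top-level function field, `ι0 : A0 →+* Ω` the induced map on constants.

* `isIntegral_chart_iff` : `x : E` is integral over the chart `A0[t]` iff `φ x` is an integral
  element for `A0[X] → Ω`, `X ↦ φ t`.
* `isIntegralElem_of_comp` : integrality over a smaller coefficient ring `A1 → A0` gives
  integrality over `A0`.
* `not_unif_dvd_toChart`, `not_unif_dvd_algebraMap` : a polynomial with a unit coefficient,
  evaluated at `t`, is not divisible by `π` in the chart ring, nor in its integral closure in `E`.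

## Sealed forms on the carriers of `CoverDefs`

* `isIntegral_chart_iff_phi` (F-i), `phi_toChart`, `phi_algebraMap`, `phi_tK`;
* `inclDown`, `chartHomO_map`, `isIntegralElem_chartHomO_of_hom`, `isIntegralElem_chartHomO_of_le`
  (F-ii);
* `transcendental_tK`, `hgen_tK`, `not_unif_dvd_of_isUnit_coeff` (F-iii);
* `adjoin_range_ιL`, `adjoin_range_phi` (F-iv): the top-level fields are generated over `ℚ̄` by
  the image of any level.
-/

set_option autoImplicit false
set_option linter.unusedSectionVars false

noncomputable section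

open Polynomial AlgebraicCurve ModularCurve

namespace Fermat.Agent.S37.CoverLevel

open Fermat.Agent.S18 Fermat.Agent.S18.CoreDefs Fermat.Agent.S18.Setup
  Fermat.Agent.S18.S24Export Fermat.Agent.S37.CoverDefs

local notation "Qb" => AlgebraicClosure ℚ

/-! ## Carrier-generic cores -/

section Integral

variable {A0 M E Ω : Type*} [CommRing A0] [Field M] [Algebra A0 M] [Field E] [Algebra M E]
  [Algebra A0 E] [IsScalarTower A0 M E] [CommRing Ω]

/-- `A0[X] → A0[t]`, `X ↦ t`. -/
def toChart (t : M) : A0[X] →+* chart A0 M t :=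
  (Polynomial.aeval (coord A0 M t)).toRingHom

theorem coe_toChart (t : M) (p : A0[X]) : ((toChart t p : chart A0 M t) : M) = aeval t p :=
  (Subalgebra.aeval_coe (chart A0 M t) (coord A0 M t) p).symm

theorem toChart_surjective (t : M) : Function.Surjective (toChart (A0 := A0) t) := by
  rintro ⟨s, hs⟩
  have hs' : s ∈ (Polynomial.aeval t : A0[X] →ₐ[A0] M).range := by
    rw [← Algebra.adjoin_singleton_eq_range_aeval]
    exact hs
  obtain ⟨p, hp⟩ := hs'
  refine ⟨p, Subtype.ext ?_⟩
  rw [coe_toChart]
  exact hp

theorem toChart_C (t : M) (a : A0) : toChart t (C a) = algebraMap A0 (chart A0 M t) a := by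
  apply Subtype.ext
  rw [coe_toChart, aeval_C]
  rfl

theorem toChart_C_unif (t : M) (π : A0) : toChart t (C π) = unif A0 M t π := toChart_C t π

theorem toChart_X (t : M) : toChart (A0 := A0) t X = coord A0 M t := by
  apply Subtype.ext
  rw [coe_toChart, aeval_X]
  rfl

/-- the image in `E` of a chart element `p(t)`. -/
theorem algebraMap_toChart (t : M) (p : A0[X]) :
    algebraMap (chart A0 M t) E (toChart t p) = aeval (algebraMap M E t) p := by
  have h1 : algebraMap (chart A0 M t) E (toChart t p) =
      algebraMap M E ((toChart t p : chart A0 M t) : M) := rfl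
  rw [h1, coe_toChart, Polynomial.aeval_algebraMap_apply]

theorem algebraMap_comp_toChart (t : M) :
    (algebraMap (chart A0 M t) E).comp (toChart t) =
      ((aeval (algebraMap M E t) : A0[X] →ₐ[A0] E) : A0[X] →+* E) :=
  RingHom.ext fun p => algebraMap_toChart t p

/-- **The two forms of "integral over the chart `A0[t]`"** for elements of an extension `E`
of `M`. -/
theorem isIntegral_chart_iff_aeval (t : M) (x : E) :
    IsIntegral (chart A0 M t) x ↔
      ((aeval (algebraMap M E t) : A0[X] →ₐ[A0] E) : A0[X] →+* E).IsIntegralElem x := by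
  constructor
  · rintro ⟨p, hp, hpx⟩
    obtain ⟨q, hq, -, hqm⟩ := Polynomial.lifts_and_degree_eq_and_monic
      ((Polynomial.mem_lifts p).mpr (Polynomial.map_surjective _ (toChart_surjective t) p)) hp
    refine ⟨q, hqm, ?_⟩
    rw [← algebraMap_comp_toChart, ← Polynomial.eval₂_map, hq]
    exact hpx
  · rintro ⟨q, hq, hqx⟩
    refine ⟨q.map (toChart t), hq.map _, ?_⟩
    rw [Polynomial.eval₂_map, algebraMap_comp_toChart]
    exact hqx

omit [Algebra A0 M] [IsScalarTower A0 M E] in
/-- the chart homomorphism at the top level is the composite of the chart at the finite level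
with `φ`. -/
theorem comp_aeval_eq (φ : E →+* Ω) (ι0 : A0 →+* Ω)
    (hι : ∀ a : A0, φ (algebraMap A0 E a) = ι0 a) (t : M) :
    φ.comp ((aeval (algebraMap M E t) : A0[X] →ₐ[A0] E) : A0[X] →+* E) =
      Polynomial.eval₂RingHom ι0 (φ (algebraMap M E t)) := by
  apply Polynomial.ringHom_ext
  · intro a
    simp [hι]
  · simp

/-- **(F-i)**: `x : E` is integral over the chart `A0[t]` iff `φ x` is an integral element for
the top-level chart `A0[X] → Ω`, `X ↦ φ t`. -/
theorem isIntegral_chart_iff (φ : E →+* Ω) (hφ : Function.Injective φ) (ι0 : A0 →+* Ω)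
    (hι : ∀ a : A0, φ (algebraMap A0 E a) = ι0 a) (t : M) (x : E) :
    IsIntegral (chart A0 M t) x ↔
      (Polynomial.eval₂RingHom ι0 (φ (algebraMap M E t))).IsIntegralElem (φ x) := by
  rw [isIntegral_chart_iff_aeval, ← comp_aeval_eq φ ι0 hι t]
  exact (RingHom.IsIntegralElem.map_iff hφ).symm

/-- the image at the top level of the chart element `p(t)`. -/
theorem map_algebraMap_toChart (φ : E →+* Ω) (ι0 : A0 →+* Ω)
    (hι : ∀ a : A0, φ (algebraMap A0 E a) = ι0 a) (t : M) (p : A0[X]) :
    φ (algebraMap (chart A0 M t) E (toChart t p)) =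
      Polynomial.eval₂RingHom ι0 (φ (algebraMap M E t)) p := by
  rw [algebraMap_toChart, ← comp_aeval_eq φ ι0 hι t]
  rfl

end Integral

section Mono

variable {A1 A0 Ω : Type*} [CommRing A1] [CommRing A0] [CommRing Ω]

theorem eval₂RingHom_comp (incl : A1 →+* A0) (ι0 : A0 →+* Ω) (T : Ω) :
    Polynomial.eval₂RingHom (ι0.comp incl) T =
      (Polynomial.eval₂RingHom ι0 T).comp (Polynomial.mapRingHom incl) := by
  apply Polynomial.ringHom_ext
  · intro a
    simp
  · simp

/-- **(F-ii)**: an integral element for the chart with coefficients in `A1` is integral for the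
chart with coefficients in `A0` (`A1 → A0` any ring homomorphism, e.g. a smaller level). -/
theorem isIntegralElem_of_comp (incl : A1 →+* A0) (ι0 : A0 →+* Ω) (T : Ω) {y : Ω}
    (h : (Polynomial.eval₂RingHom (ι0.comp incl) T).IsIntegralElem y) :
    (Polynomial.eval₂RingHom ι0 T).IsIntegralElem y := by
  rw [eval₂RingHom_comp] at h
  exact RingHom.IsIntegralElem.of_comp h

/-- the value of the top-level chart on a polynomial over `A1`. -/
theorem eval₂RingHom_map (incl : A1 →+* A0) (ι0 : A0 →+* Ω) (T : Ω) (p : A1[X]) :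
    Polynomial.eval₂RingHom ι0 T (p.map incl) = Polynomial.eval₂RingHom (ι0.comp incl) T p := by
  rw [eval₂RingHom_comp]
  rfl

end Mono

section Unit

variable {A0 : Type*} [CommRing A0] (M : Type*) [Field M] [Algebra A0 M]

/-- on a transcendental coordinate, `toChart` is `AdjoinChart.chartEquiv`. -/
theorem toChart_eq_chartEquiv (t : M) (ht : Transcendental A0 t) (p : A0[X]) :
    toChart t p = AdjoinChart.chartEquiv M t ht p :=
  Subtype.ext (by rw [coe_toChart, AdjoinChart.coe_chartEquiv])

/-- **(F-iii), chart form**: a polynomial with a unit coefficient, evaluated at the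
transcendental coordinate `t`, is not divisible by `π` in the chart ring. -/
theorem not_unif_dvd_toChart (t : M) (ht : Transcendental A0 t) (π : A0) (hπ : ¬ IsUnit π)
    (p : A0[X]) (n : ℕ) (hn : IsUnit (p.coeff n)) : ¬ unif A0 M t π ∣ toChart t p := by
  rw [toChart_eq_chartEquiv M t ht, ← AdjoinChart.chartEquiv_C_unif M t ht π]
  intro h
  have h1 : C π ∣ p := (map_dvd_iff (AdjoinChart.chartEquiv M t ht)).mp h
  exact hπ (isUnit_of_dvd_unit ((Polynomial.C_dvd_iff_dvd_coeff π p).mp h1 n) hn)

/-- the same for a polynomial over a smaller coefficient ring. -/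
theorem not_unif_dvd_toChart_map {A1 : Type*} [CommRing A1] (incl : A1 →+* A0) (t : M)
    (ht : Transcendental A0 t) (π : A0) (hπ : ¬ IsUnit π) (p : A1[X]) (n : ℕ)
    (hn : IsUnit (p.coeff n)) : ¬ unif A0 M t π ∣ toChart t (p.map incl) :=
  not_unif_dvd_toChart M t ht π hπ (p.map incl) n (by rw [Polynomial.coeff_map]; exact hn.map incl)

variable [IsDomain A0] [IsDiscreteValuationRing A0]
  (E : Type*) [Field E] [Algebra M E] [Algebra A0 E] [IsScalarTower A0 M E]

omit [Algebra A0 E] [IsScalarTower A0 M E] in
/-- **(F-iii), integral-closure form**: `p(t)` with a unit coefficient is not divisible by `π`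
in the integral closure of the chart ring in `E`. -/
theorem not_unif_dvd_algebraMap (t : M) (ht : Transcendental A0 t)
    (hgen : ∀ m : M, ∃ a b : chart A0 M t, b ≠ 0 ∧ m * (b : M) = (a : M))
    (π : A0) (hπ0 : π ≠ 0) (hπ : ¬ IsUnit π) (p : A0[X]) (n : ℕ) (hn : IsUnit (p.coeff n)) :
    ¬ algebraMap (chart A0 M t) (integralClosure (chart A0 M t) E) (unif A0 M t π) ∣
      algebraMap (chart A0 M t) (integralClosure (chart A0 M t) E) (toChart t p) := by
  have := AdjoinChart.isIntegrallyClosed M t ht
  have := AdjoinChart.isFractionRing M t hgen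
  have hu0 : unif A0 M t π ≠ 0 := by
    rw [← AdjoinChart.chartEquiv_C_unif M t ht π]
    intro h
    rw [map_eq_zero_iff _ (AdjoinChart.chartEquiv M t ht).injective, Polynomial.C_eq_zero] at h
    exact hπ0 h
  intro h
  exact not_unif_dvd_toChart M t ht π hπ p n hn
    (FibreGen.dvd_of_dvd_algebraMap M E (unif A0 M t π) hu0 (toChart t p) h)

omit [Algebra A0 E] [IsScalarTower A0 M E] in
/-- the same for a polynomial over a smaller coefficient ring. -/
theorem not_unif_dvd_algebraMap_map {A1 : Type*} [CommRing A1] (incl : A1 →+* A0) (t : M)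
    (ht : Transcendental A0 t)
    (hgen : ∀ m : M, ∃ a b : chart A0 M t, b ≠ 0 ∧ m * (b : M) = (a : M))
    (π : A0) (hπ0 : π ≠ 0) (hπ : ¬ IsUnit π) (p : A1[X]) (n : ℕ) (hn : IsUnit (p.coeff n)) :
    ¬ algebraMap (chart A0 M t) (integralClosure (chart A0 M t) E) (unif A0 M t π) ∣
      algebraMap (chart A0 M t) (integralClosure (chart A0 M t) E) (toChart t (p.map incl)) :=
  not_unif_dvd_algebraMap M E t ht hgen π hπ0 hπ (p.map incl) n
    (by rw [Polynomial.coeff_map]; exact hn.map incl)

end Unit

/-! ## Sealed forms -/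

section Sealed

variable (N : ℕ) [NeZero N] (m : (FL N)[X]) [Fact (Irreducible m)]
  {K : Type*} [Field K] [Algebra K Qb] (m0 : (FK K N)[X]) [Fact (Irreducible m0)]
  (A : ValuationSubring Qb) (hmap : m0.map (ιL K N) = m)

theorem phi_injective : Function.Injective (phi N m m0 hmap) := (phi N m m0 hmap).injective

omit [Fact (Irreducible m0)] in
/-- `φ` on the constants of the level. -/
theorem phi_algebraMap (c : K) :
    phi N m m0 hmap (algebraMap K (AdjoinRoot m0) c) =
      algebraMap Qb (AdjoinRoot m) (algebraMap K Qb c) := by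
  rw [AdjoinRoot.algebraMap_eq', RingHom.comp_apply, phi_of, ιL_algebraMap,
    AdjoinRoot.algebraMap_eq']
  rfl

omit [Fact (Irreducible m0)] in
theorem phi_algebraMap_down (a : ↥(A0.down K A)) :
    phi N m m0 hmap (algebraMap ↥(A0.down K A) (AdjoinRoot m0) a) = constO N m K A a :=
  phi_algebraMap N m m0 hmap (a : K)

/-- `φ` maps the chart coordinate of the level to the chart coordinate of `Ω`. -/
theorem phi_tK (b : Bool) :
    phi N m m0 hmap (algebraMap (Line K (AdjoinRoot.root m0)) (AdjoinRoot m0) (tK N m0 b)) =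
      tO N m b := by
  cases b
  · rw [tK_false, tO_false, map_inv₀, algebraMap_gen, map_inv₀, phi_root]
  · rw [tK_true, tO_true, algebraMap_gen, phi_root]

/-- **(F-i), sealed**: `x : F# = AdjoinRoot m0` is integral over the chart `(A ∩ K)[tK b]` iff
`φ x` is an integral element of the top-level chart `(A ∩ K)[X] → Ω`, `X ↦ tO b`. -/
theorem isIntegral_chart_iff_phi (b : Bool) (x : AdjoinRoot m0) :
    IsIntegral (chart ↥(A0.down K A) (Line K (AdjoinRoot.root m0)) (tK N m0 b)) x ↔
      (chartHomO N m K A b).IsIntegralElem (phi N m m0 hmap x) := by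
  have h := isIntegral_chart_iff (phi N m m0 hmap) (phi_injective N m m0 hmap) (constO N m K A)
    (phi_algebraMap_down N m m0 A hmap) (tK N m0 b) x
  rw [phi_tK] at h
  exact h

/-- the image in `Ω` of the chart element `p(tK b)`. -/
theorem phi_toChart (b : Bool) (p : (↥(A0.down K A))[X]) :
    phi N m m0 hmap (algebraMap (chart ↥(A0.down K A) (Line K (AdjoinRoot.root m0)) (tK N m0 b))
      (AdjoinRoot m0) (toChart (tK N m0 b) p)) = chartHomO N m K A b p := by
  have h := map_algebraMap_toChart (phi N m m0 hmap) (constO N m K A)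
    (phi_algebraMap_down N m m0 A hmap) (tK N m0 b) p
  rw [phi_tK] at h
  exact h

end Sealed


/-! ### Change of level -/

section Levels

variable (N : ℕ) [NeZero N] (m : (FL N)[X]) [Fact (Irreducible m)]
  {K1 K : Type*} [Field K1] [Algebra K1 Qb] [Field K] [Algebra K Qb]
  (A : ValuationSubring Qb) (f : K1 →+* K)
  (hf : ∀ c : K1, algebraMap K Qb (f c) = algebraMap K1 Qb c)

/-- The inclusion `A ∩ K1 → A ∩ K` of the constants of two levels. -/
def inclDown : ↥(A0.down K1 A) →+* ↥(A0.down K A) :=
  (f.comp (A0.down K1 A).subtype).codRestrict (A0.down K A) (fun a => by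
    show algebraMap K Qb (f (a : K1)) ∈ A
    rw [hf]
    exact a.2)

theorem coe_inclDown (a : ↥(A0.down K1 A)) :
    ((inclDown A f hf a : ↥(A0.down K A)) : K) = f (a : K1) := rfl

omit [NeZero N] in
theorem constO_comp_inclDown :
    (constO N m K A).comp (inclDown A f hf) = constO N m K1 A := by
  ext a
  show algebraMap Qb (AdjoinRoot m) (algebraMap K Qb (f (a : K1))) = _
  rw [hf]
  rfl

/-- the top-level chart of the level `K` on a polynomial coming from the level `K1`. -/
theorem chartHomO_map (b : Bool) (p : (↥(A0.down K1 A))[X]) :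
    chartHomO N m K A b (p.map (inclDown A f hf)) = chartHomO N m K1 A b p := by
  unfold chartHomO
  rw [eval₂RingHom_map, constO_comp_inclDown]

include f hf in
/-- **(F-ii), sealed**: integrality over the chart of a level `K1` gives integrality over the
chart of every level `K` receiving `K1`. -/
theorem isIntegralElem_chartHomO_of_hom (b : Bool) {y : AdjoinRoot m}
    (h : (chartHomO N m K1 A b).IsIntegralElem y) : (chartHomO N m K A b).IsIntegralElem y := by
  unfold chartHomO at h ⊢
  rw [← constO_comp_inclDown N m A f hf] at h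
  exact isIntegralElem_of_comp _ _ _ h

/-- **(F-ii)** for intermediate fields `K1 ≤ K` of `ℚ̄ / ℚ`. -/
theorem isIntegralElem_chartHomO_of_le {K1 K : IntermediateField ℚ Qb} (hle : K1 ≤ K) (b : Bool)
    {y : AdjoinRoot m} (h : (chartHomO N m K1 A b).IsIntegralElem y) :
    (chartHomO N m K A b).IsIntegralElem y :=
  isIntegralElem_chartHomO_of_hom N m A (IntermediateField.inclusion hle).toRingHom
    (fun _ => rfl) b h

end Levels

/-! ### Polynomials with a unit coefficient -/

section UnitCoeff

variable (N : ℕ) [NeZero N]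
  {K1 K : Type*} [Field K1] [Algebra K1 Qb] [Field K] [Algebra K Qb]
  (m0 : (FK K N)[X]) [Fact (Irreducible m0)]
  (A : ValuationSubring Qb) (f : K1 →+* K)
  (hf : ∀ c : K1, algebraMap K Qb (f c) = algebraMap K1 Qb c)

/-- the chart coordinates of the level are transcendental over `A ∩ K`. -/
theorem transcendental_tK (hh : Transcendental K (AdjoinRoot.root m0)) (b : Bool) :
    Transcendental ↥(A0.down K A) (tK N m0 b) := by
  have h1 : Transcendental K (Line.gen K (AdjoinRoot.root m0)) :=
    Line.transcendental_gen K (AdjoinRoot.root m0) hh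
  have hinj : Function.Injective (algebraMap ↥(A0.down K A) K) :=
    FaithfulSMul.algebraMap_injective ↥(A0.down K A) K
  cases b
  · rw [tK_false]
    have h2 : Transcendental K (Line.gen K (AdjoinRoot.root m0))⁻¹ := fun h =>
      h1 (by simpa using h.inv)
    exact h2.restrictScalars hinj
  · rw [tK_true]
    exact h1.restrictScalars hinj

/-- the fraction-field hypothesis `hgen` for both chart coordinates of the level. -/
theorem hgen_tK (hh : Transcendental K (AdjoinRoot.root m0)) (b : Bool) :
    ∀ x : Line K (AdjoinRoot.root m0),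
      ∃ a c : chart ↥(A0.down K A) (Line K (AdjoinRoot.root m0)) (tK N m0 b),
        c ≠ 0 ∧ x * (c : Line K (AdjoinRoot.root m0)) = (a : Line K (AdjoinRoot.root m0)) := by
  have hgen := LineGen.hgen_of_adjoin_eq_top (A0 := ↥(A0.down K A)) (K0 := K)
    (Line.gen K (AdjoinRoot.root m0)) (Line.adjoin_gen K (AdjoinRoot.root m0))
  cases b
  · rw [tK_false]
    have h0 : Line.gen K (AdjoinRoot.root m0) ≠ 0 := fun h =>
      (Line.transcendental_gen K (AdjoinRoot.root m0) hh) (h ▸ isAlgebraic_zero)
    exact ChartGlue.hgen_inv _ h0 hgen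
  · rw [tK_true]
    exact hgen

/-- **(F-iii), sealed**: a polynomial over `A ∩ K1` with a unit coefficient, evaluated at the
chart coordinate of the level `K`, is divisible by `π` neither in the chart ring nor in its
integral closure in `F# = AdjoinRoot m0`. -/
theorem not_unif_dvd_of_isUnit_coeff (hdvr : IsDiscreteValuationRing ↥(A0.down K A))
    (hh : Transcendental K (AdjoinRoot.root m0)) (b : Bool)
    (π : ↥(A0.down K A)) (hπ : Irreducible π)
    (p : (↥(A0.down K1 A))[X]) (n : ℕ) (hn : IsUnit (p.coeff n)) :
    (¬ unif ↥(A0.down K A) (Line K (AdjoinRoot.root m0)) (tK N m0 b) π ∣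
        toChart (tK N m0 b) (p.map (inclDown A f hf))) ∧
      ¬ algebraMap (chart ↥(A0.down K A) (Line K (AdjoinRoot.root m0)) (tK N m0 b))
          (integralClosure (chart ↥(A0.down K A) (Line K (AdjoinRoot.root m0)) (tK N m0 b))
            (AdjoinRoot m0))
          (unif ↥(A0.down K A) (Line K (AdjoinRoot.root m0)) (tK N m0 b) π) ∣
        algebraMap (chart ↥(A0.down K A) (Line K (AdjoinRoot.root m0)) (tK N m0 b))
          (integralClosure (chart ↥(A0.down K A) (Line K (AdjoinRoot.root m0)) (tK N m0 b))
            (AdjoinRoot m0))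
          (toChart (tK N m0 b) (p.map (inclDown A f hf))) :=
  ⟨not_unif_dvd_toChart_map _ (inclDown A f hf) (tK N m0 b) (transcendental_tK N m0 A hh b) π
      hπ.not_isUnit p n hn,
    not_unif_dvd_algebraMap_map _ (AdjoinRoot m0) (inclDown A f hf) (tK N m0 b)
      (transcendental_tK N m0 A hh b) (hgen_tK N m0 A hh b) π hπ.ne_zero hπ.not_isUnit p n hn⟩

end UnitCoeff


/-! ### Generation of the top-level fields by a level -/

section Generation

variable (N : ℕ) [NeZero N] (m : (FL N)[X]) [Fact (Irreducible m)]
  (K : Type*) [Field K] [Algebra K Qb] (m0 : (FK K N)[X]) (hmap : m0.map (ιL K N) = m)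

/-- `F_L` is generated over `ℚ̄` by the image of the function field of any level. -/
theorem adjoin_range_ιL :
    IntermediateField.adjoin Qb (Set.range (ιL K N)) = (⊤ : IntermediateField Qb ↥(FL N)) := by
  rw [eq_top_iff]
  intro x _
  set T := IntermediateField.adjoin Qb (Set.range (ιL K N)) with hT
  have h1 : modularFunctionFieldFullC Qb N ≤ T.map (FL N).val := by
    unfold modularFunctionFieldFullC
    rw [IntermediateField.adjoin_le_iff]
    rintro g ⟨d, hd, hdN, rfl⟩
    refine ⟨ιL K N (FK.mk (qExpand K d (jqModC K)) (jqModCd_mem_full K N hdN)),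
      IntermediateField.subset_adjoin Qb _ ⟨_, rfl⟩, ?_⟩
    show ((ιL K N (FK.mk (qExpand K d (jqModC K)) (jqModCd_mem_full K N hdN)) : ↥(FL N)) :
      LaurentSeries Qb) = _
    rw [coe_ιL, FK.val_mk, FieldDef.coeffMap_gen]
  have h2 : (x : LaurentSeries Qb) ∈ modularFunctionFieldFullC Qb N := by
    rw [← FieldDefQ.FL_eq N]
    exact x.2
  obtain ⟨y, hy, hyx⟩ := h1 h2
  have hxy : y = x := Subtype.ext hyx
  exact hxy ▸ hy

/-- **(F-iv)**: `Ω = AdjoinRoot m` is generated over `ℚ̄` by the image of the cover of any
level. -/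
theorem adjoin_range_phi :
    IntermediateField.adjoin Qb (Set.range (phi N m m0 hmap)) =
      (⊤ : IntermediateField Qb (AdjoinRoot m)) := by
  rw [eq_top_iff]
  intro z hz
  clear hz
  set T := IntermediateField.adjoin Qb (Set.range (phi N m m0 hmap)) with hT
  have h1 : ∀ x : ↥(FL N), AdjoinRoot.of m x ∈ T := by
    have h2 : IntermediateField.adjoin Qb (Set.range (ιL K N)) ≤
        T.comap (IsScalarTower.toAlgHom Qb ↥(FL N) (AdjoinRoot m)) := by
      rw [IntermediateField.adjoin_le_iff]
      rintro _ ⟨y, rfl⟩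
      show AdjoinRoot.of m (ιL K N y) ∈ T
      rw [← phi_of N m m0 hmap y]
      exact IntermediateField.subset_adjoin Qb _ ⟨_, rfl⟩
    intro x
    have h3 : x ∈ IntermediateField.adjoin Qb (Set.range (ιL K N)) := by
      rw [adjoin_range_ιL]
      exact IntermediateField.mem_top
    exact h2 h3
  have h4 : AdjoinRoot.root m ∈ T := by
    rw [← phi_root N m m0 hmap]
    exact IntermediateField.subset_adjoin Qb _ ⟨_, rfl⟩
  have h5 : z ∈ Algebra.adjoin ↥(FL N) ({AdjoinRoot.root m} : Set (AdjoinRoot m)) := by
    rw [AdjoinRoot.adjoinRoot_eq_top]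
    exact Algebra.mem_top
  induction h5 using Algebra.adjoin_induction with
  | mem y hy =>
    rw [Set.mem_singleton_iff] at hy
    rw [hy]
    exact h4
  | algebraMap x => exact h1 x
  | add y y' _ _ hy hy' => exact T.add_mem hy hy'
  | mul y y' _ _ hy hy' => exact T.mul_mem hy hy'

end Generation

end Fermat.Agent.S37.CoverLevel
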