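import Mathlib
import Fermat.Agent.S37.CoverLevel
import Fermat.Agent.S37.CoverHyps
import Fermat.Agent.S37.H3SelfH
import Fermat.Agent.S37.NormalJ

/-!
# S37, cover chain, leaf (F): the two contract props `HLevInt`, `HLevSig` of `CoverHyps`

* `hLevInt : CoverHyps.HLevInt N A m` -- integrality over the chart of a lower level, read in
  `Ω`, gives integrality over the chart ring of the level.
* `hLevSig3 : CoverHyps.HLevSig N A m (CoverHyps.Good3 N)` and
  `hLevSig2 : CoverHyps.HLevSig N A m (CoverHyps.Good2 N)` (for `A` above a prime `ℓ`) --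
  polynomials with a unit coefficient give elements of the chart ring of every higher level
  which are not divisible by `π`, also in the integral closure; such elements are stable under
  products.  `hLevSig_of_transcendental` is the form for an arbitrary relation `Good` forcing the
  root to be transcendental.
-/

set_option autoImplicit false
set_option linter.unusedSectionVars false

noncomputable section

open Polynomial AlgebraicCurve ModularCurve

namespace Fermat.Agent.S37.CoverLevHyp

open Fermat.Agent.S18 Fermat.Agent.S18.CoreDefs Fermat.Agent.S18.Setup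
  Fermat.Agent.S18.S24Export Fermat.Agent.S37.CoverDefs

local notation "Qb" => AlgebraicClosure ℚ

variable (N : ℕ) [NeZero N] (A : ValuationSubring Qb) (m : (FL N)[X]) [Fact (Irreducible m)]

/-- **(F), integrality.** -/
theorem hLevInt : CoverHyps.HLevInt N A m := by
  intro K1 K hle m0 _ hmap b x hx
  exact (CoverLevel.isIntegral_chart_iff_phi N m m0 A hmap b x).mpr
    (CoverLevel.isIntegralElem_chartHomO_of_le N m A hle b hx)

/-- **(F), denominators**, for a relation `Good` which forces the root to be transcendental. -/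
theorem hLevSig_of_transcendental {ℓ : ℕ} (hℓ : ℓ.Prime) (hA : A.LiesOverPrime ℓ)
    (Good : ∀ K : IntermediateField ℚ Qb, (FK K N)[X] → Prop)
    (htr : ∀ (K : IntermediateField ℚ Qb) (m0 : (FK K N)[X]) [Fact (Irreducible m0)],
      Good K m0 → Transcendental K (AdjoinRoot.root m0)) :
    CoverHyps.HLevSig N A m Good := by
  intro K1 K hK hle m0 _ hmap hgood _ π hπ _ b
  have : FiniteDimensional ℚ K := hK
  have hdvr : IsDiscreteValuationRing ↥(A0.down K A) := NormalJ.dvr K A hℓ hA
  have hh : Transcendental K (AdjoinRoot.root m0) := htr K m0 hgood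
  have ht := CoverLevel.transcendental_tK N m0 A hh b
  have hgen := CoverLevel.hgen_tK N m0 A hh b
  have hprime : Prime (unif ↥(A0.down K A) (Line K (AdjoinRoot.root m0)) (tK N m0 b) π) :=
    AdjoinChart.prime_unif _ (tK N m0 b) ht π hπ
  refine ⟨?_, ?_, ?_⟩
  · rintro p ⟨i, hi⟩
    refine ⟨CoverLevel.toChart (tK N m0 b)
      (p.map (CoverLevel.inclDown A (IntermediateField.inclusion hle).toRingHom (fun _ => rfl))),
      ?_, ?_⟩
    · exact (CoverLevel.not_unif_dvd_of_isUnit_coeff N m0 A
        (IntermediateField.inclusion hle).toRingHom (fun _ => rfl) hdvr hh b π hπ p i hi).1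
    · have h1 := CoverLevel.phi_toChart N m m0 A hmap b
        (p.map (CoverLevel.inclDown A (IntermediateField.inclusion hle).toRingHom (fun _ => rfl)))
      rw [CoverLevel.chartHomO_map] at h1
      exact h1
  · intro σ σ' hσ hσ' hdvd
    rcases hprime.dvd_or_dvd hdvd with h | h
    · exact hσ h
    · exact hσ' h
  · intro σ hσ d hd heq
    have := AdjoinChart.isIntegrallyClosed (Line K (AdjoinRoot.root m0)) (tK N m0 b) ht
    have := AdjoinChart.isFractionRing (Line K (AdjoinRoot.root m0)) (tK N m0 b) hgen
    apply hσ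
    refine FibreGen.dvd_of_dvd_algebraMap (Line K (AdjoinRoot.root m0)) (AdjoinRoot m0)
      (unif ↥(A0.down K A) (Line K (AdjoinRoot.root m0)) (tK N m0 b) π) hprime.ne_zero σ
      ⟨⟨d, hd⟩, ?_⟩
    apply Subtype.ext
    show algebraMap (Line K (AdjoinRoot.root m0)) (AdjoinRoot m0)
        (σ : Line K (AdjoinRoot.root m0)) =
      algebraMap (Line K (AdjoinRoot.root m0)) (AdjoinRoot m0)
        ((unif ↥(A0.down K A) (Line K (AdjoinRoot.root m0)) (tK N m0 b) π :
          chart ↥(A0.down K A) (Line K (AdjoinRoot.root m0)) (tK N m0 b)) :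
          Line K (AdjoinRoot.root m0)) * d
    rw [heq, Algebra.smul_def]
    rfl

/-- **(F), denominators**, `X₀(2)`-cover `j h² = (h + 256)³`. -/
theorem hLevSig3 {ℓ : ℕ} (hℓ : ℓ.Prime) (hA : A.LiesOverPrime ℓ) :
    CoverHyps.HLevSig N A m (CoverHyps.Good3 N) :=
  hLevSig_of_transcendental N A m hℓ hA (CoverHyps.Good3 N) (fun K m0 _ hgood => by
    have hc : CharZero K := charZero_of_injective_algebraMap (algebraMap ℚ K).injective
    have : CharZero (AdjoinRoot m0) :=
      charZero_of_injective_algebraMap (algebraMap K (AdjoinRoot m0)).injective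
    exact H3SelfH.transcendental_of_rel3 (jF K N) (transcendental_jF K N) (AdjoinRoot.root m0)
      hgood)

/-- **(F), denominators**, `X₀(3)`-cover `j h = (h + 27)(h + 3)³`. -/
theorem hLevSig2 {ℓ : ℕ} (hℓ : ℓ.Prime) (hA : A.LiesOverPrime ℓ) :
    CoverHyps.HLevSig N A m (CoverHyps.Good2 N) :=
  hLevSig_of_transcendental N A m hℓ hA (CoverHyps.Good2 N) (fun K m0 _ hgood => by
    have hc : CharZero K := charZero_of_injective_algebraMap (algebraMap ℚ K).injective
    have : CharZero (AdjoinRoot m0) :=
      charZero_of_injective_algebraMap (algebraMap K (AdjoinRoot m0)).injective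
    exact H3SelfH.transcendental_of_rel2 (jF K N) (transcendental_jF K N) (AdjoinRoot.root m0)
      hgood)

end Fermat.Agent.S37.CoverLevHyp
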