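import Mathlib
import Fermat.Agent.S18.Setup
import Fermat.Agent.S18.SetupTower
import Fermat.Agent.S18.LineMap
import Fermat.Agent.S18.LineGen
import Fermat.Agent.S18.CoverData
import Fermat.Agent.S18.CoverField
import Fermat.Agent.S18.CoverBezout
import Fermat.Agent.S18.BaseLineRel
import Fermat.Agent.S18.ChartGlue
import Fermat.Agent.S18.IntConst
import Fermat.Agent.S18.H2Top
import Fermat.Agent.S37.H3SelfH
import Fermat.Agent.S37.NormalFibre
import Fermat.Agent.S37.NormalJ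

/-!
# S37, block (N) on the covers: normality of the special fibre on the two `h`-charts (`ℓ = 2, 3`
and every other `ℓ`)

The instantiation of machine N (`NormalFibre.exists_lift_chart_of_isIntegral`) on the base line
`Mh = K0(h)` of a cover `F' = F(h)` of the `j`-line, with all `π`-adic inputs given on the single
chart `A0[j]` of the `j`-line (the situation of `S18.CoverCore`):

an element `x` of the Gauss ring `O''` of `F'` over `A0[h]` (resp. `A0[h⁻¹]`) which is a root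
modulo `π O''` of a monic polynomial over the chart ring is congruent modulo `π O''` to an element
integral over the chart ring.

* `h2Hyp_cover`, `h2Hyp_cover_inv`: (H2) for `F'` on the two `h`-charts from (H2) for `F'` on the
  `j`-chart and the relation `j * h ^ a = num(h)`; `_cover3`, `_cover2`: from (H2) for `F` on the
  `j`-chart, for the two covers `j h² = (h + 256)³` and `j h = (h + 27)(h + 3)³`;
* `exists_lift_cover`, `exists_lift_cover_inv`: machine N on the two `h`-charts, general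
  relation; `exists_lift_cover3(_inv)`, `exists_lift_cover2(_inv)`: the two covers;
* `exists_lift_fin3`, `exists_lift_inv3` (`ℓ ≠ 2`), `exists_lift_fin2`, `exists_lift_inv2`
  (`ℓ ≠ 3`): the sealed carriers of `S18.Top23` (`A₀ = A ∩ K`, `Mh = Line K (root m0)`,
  `F# = AdjoinRoot m0`), with (H2) from `H2Top.h2_jline` and (H3) from `H3SelfH`.
-/

set_option autoImplicit false
set_option linter.unusedSectionVars false
set_option linter.style.haveILetI false

open Polynomial AlgebraicCurve ModularCurve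

namespace Fermat.Agent.S37.NormalH

open Fermat.Agent.S18 Fermat.Agent.S18.CoreDefs

local notation "Qb" => AlgebraicClosure ℚ

section Abstract

variable {A0 : Type*} [CommRing A0] [IsDomain A0] [IsDiscreteValuationRing A0]
  (Mj : Type*) [Field Mj] [Algebra A0 Mj]
  (Mh : Type*) [Field Mh] [Algebra A0 Mh] [Algebra Mj Mh] [IsScalarTower A0 Mj Mh]
  (F' : Type*) [Field F'] [Algebra Mj F'] [Algebra Mh F'] [Algebra A0 F']
  [IsScalarTower A0 Mj F'] [IsScalarTower A0 Mh F'] [IsScalarTower Mj Mh F']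
  [FiniteDimensional Mj F']

/-- characteristic zero of the base line from `hchar`. -/
theorem charZero_line (π : A0) (hπ : Irreducible π)
    (hchar : ∀ n : ℕ, n ≠ 0 → ∃ a : ℕ, (n : A0) ∣ π ^ a)
    (j : Mj) (hj : Transcendental A0 j) : CharZero Mj := by
  have hcz : CharZero A0 := by
    refine charZero_of_inj_zero fun n hn => ?_
    by_contra hn0
    obtain ⟨a', ha'⟩ := hchar n hn0
    rw [hn, zero_dvd_iff] at ha'
    exact pow_ne_zero a' hπ.ne_zero ha'
  have hinjA : Function.Injective (algebraMap A0 Mj) := by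
    have hinj := transcendental_iff_injective.mp hj
    intro x y hxy
    apply Polynomial.C_injective
    apply hinj
    rw [aeval_C, aeval_C, hxy]
  exact charZero_of_injective_algebraMap hinjA

/-- **(H2) for `F'` on the finite `h`-chart**, general relation. -/
theorem h2Hyp_cover (π : A0) (hπ : Irreducible π)
    (j : Mj) (hj : Transcendental A0 j)
    (hgenj : ∀ m : Mj, ∃ a b : chart A0 Mj j, b ≠ 0 ∧ m * (b : Mj) = (a : Mj))
    (h : Mh) (hgenh : ∀ m : Mh, ∃ a b : chart A0 Mh h, b ≠ 0 ∧ m * (b : Mh) = (a : Mh))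
    (num : A0[X]) (hnum : num.Monic) (a : ℕ) (ha0 : 0 < a) (ha : a < num.natDegree)
    (h0 : IsUnit (num.coeff 0)) (hrel : algebraMap Mj Mh j * h ^ a = aeval h num)
    (h2 : H2Hyp A0 Mj F' j π) : H2Hyp A0 Mh F' h π :=
  BaseLineRel.h2Hyp_of_rel Mj Mh F' j hj h π hπ num hnum a ha0 ha h0 hrel hgenj hgenh h2

/-- **(H2) for `F'` on the `h`-chart at infinity**, general relation. -/
theorem h2Hyp_cover_inv (π : A0) (hπ : Irreducible π)
    (j : Mj) (hj : Transcendental A0 j)
    (hgenj : ∀ m : Mj, ∃ a b : chart A0 Mj j, b ≠ 0 ∧ m * (b : Mj) = (a : Mj))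
    (h : Mh) (hgenh : ∀ m : Mh, ∃ a b : chart A0 Mh h, b ≠ 0 ∧ m * (b : Mh) = (a : Mh))
    (num : A0[X]) (hnum : num.Monic) (a : ℕ) (ha0 : 0 < a) (ha : a < num.natDegree)
    (h0 : IsUnit (num.coeff 0)) (hrel : algebraMap Mj Mh j * h ^ a = aeval h num)
    (h2 : H2Hyp A0 Mj F' j π) : H2Hyp A0 Mh F' h⁻¹ π := by
  have hh : Transcendental A0 h :=
    BaseLineRel.transcendental_root Mj Mh j hj h num a ha0 h0 hrel
  have hh0 : h ≠ 0 := fun h' => hh (h' ▸ isAlgebraic_zero)
  exact BaseLineRel.h2Hyp_inv_of_rel Mj Mh F' j hj h π hπ num hnum a ha0 ha h0 hrel hgenj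
    (ChartGlue.hgen_inv h hh0 hgenh) h2

/-- **Machine N on the finite `h`-chart of the cover**, general relation `j * h ^ a = num(h)`,
with (H2) for `F'` on the `j`-chart and (H3) for `F'` on the `h`-chart. -/
theorem exists_lift_cover (π : A0) (hπ : Irreducible π)
    (hchar : ∀ n : ℕ, n ≠ 0 → ∃ a : ℕ, (n : A0) ∣ π ^ a)
    (j : Mj) (hj : Transcendental A0 j)
    (hgenj : ∀ m : Mj, ∃ a b : chart A0 Mj j, b ≠ 0 ∧ m * (b : Mj) = (a : Mj))
    (h : Mh) (hgenh : ∀ m : Mh, ∃ a b : chart A0 Mh h, b ≠ 0 ∧ m * (b : Mh) = (a : Mh))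
    (num : A0[X]) (hnum : num.Monic) (a : ℕ) (ha0 : 0 < a) (ha : a < num.natDegree)
    (h0 : IsUnit (num.coeff 0)) (hrel : algebraMap Mj Mh j * h ^ a = aeval h num)
    (Critf : Finset A0) (h2 : H2Hyp A0 Mj F' j π) (h3f : H3Hyp A0 Mh F' h π Critf)
    (x : F') (hx : InGauss A0 Mh F' h π x)
    (hint : ∃ p : (chart A0 Mh h)[X], p.Monic ∧ InPiGauss A0 Mh F' h π (aeval x p)) :
    ∃ c : F', IsIntegral (chart A0 Mh h) c ∧ InPiGauss A0 Mh F' h π (x - c) := by
  have hczj : CharZero Mj := charZero_line Mj π hπ hchar j hj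
  have hczh : CharZero Mh := charZero_of_injective_algebraMap (algebraMap Mj Mh).injective
  have hh : Transcendental A0 h :=
    BaseLineRel.transcendental_root Mj Mh j hj h num a ha0 h0 hrel
  have hfinMh : FiniteDimensional Mh F' := FiniteDimensional.right Mj Mh F'
  have hsep : Algebra.IsSeparable Mh F' := inferInstance
  exact NormalFibre.exists_lift_chart_of_isIntegral Mh F' π hπ hchar h hh hgenh Critf
    (h2Hyp_cover Mj Mh F' π hπ j hj hgenj h hgenh num hnum a ha0 ha h0 hrel h2) h3f x hx hint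

/-- **Machine N on the `h`-chart at infinity of the cover**, general relation. -/
theorem exists_lift_cover_inv (π : A0) (hπ : Irreducible π)
    (hchar : ∀ n : ℕ, n ≠ 0 → ∃ a : ℕ, (n : A0) ∣ π ^ a)
    (j : Mj) (hj : Transcendental A0 j)
    (hgenj : ∀ m : Mj, ∃ a b : chart A0 Mj j, b ≠ 0 ∧ m * (b : Mj) = (a : Mj))
    (h : Mh) (hgenh : ∀ m : Mh, ∃ a b : chart A0 Mh h, b ≠ 0 ∧ m * (b : Mh) = (a : Mh))
    (num : A0[X]) (hnum : num.Monic) (a : ℕ) (ha0 : 0 < a) (ha : a < num.natDegree)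
    (h0 : IsUnit (num.coeff 0)) (hrel : algebraMap Mj Mh j * h ^ a = aeval h num)
    (Criti : Finset A0) (h2 : H2Hyp A0 Mj F' j π) (h3i : H3Hyp A0 Mh F' h⁻¹ π Criti)
    (x : F') (hx : InGauss A0 Mh F' h⁻¹ π x)
    (hint : ∃ p : (chart A0 Mh h⁻¹)[X], p.Monic ∧ InPiGauss A0 Mh F' h⁻¹ π (aeval x p)) :
    ∃ c : F', IsIntegral (chart A0 Mh h⁻¹) c ∧ InPiGauss A0 Mh F' h⁻¹ π (x - c) := by
  have hczj : CharZero Mj := charZero_line Mj π hπ hchar j hj
  have hczh : CharZero Mh := charZero_of_injective_algebraMap (algebraMap Mj Mh).injective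
  have hh : Transcendental A0 h :=
    BaseLineRel.transcendental_root Mj Mh j hj h num a ha0 h0 hrel
  have hh0 : h ≠ 0 := fun h' => hh (h' ▸ isAlgebraic_zero)
  have hfinMh : FiniteDimensional Mh F' := FiniteDimensional.right Mj Mh F'
  have hsep : Algebra.IsSeparable Mh F' := inferInstance
  exact NormalFibre.exists_lift_chart_of_isIntegral Mh F' π hπ hchar h⁻¹
    (IntConst.transcendental_inv h hh) (ChartGlue.hgen_inv h hh0 hgenh) Criti
    (h2Hyp_cover_inv Mj Mh F' π hπ j hj hgenj h hgenh num hnum a ha0 ha h0 hrel h2) h3i x hx hint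

end Abstract

/-! ### The two covers `j h² = (h + 256)³` and `j h = (h + 27)(h + 3)³` -/

section Covers

variable {A0 : Type*} [CommRing A0] [IsDomain A0] [IsDiscreteValuationRing A0]
  (Mj : Type*) [Field Mj] [Algebra A0 Mj]
  (Mh : Type*) [Field Mh] [Algebra A0 Mh] [Algebra Mj Mh] [IsScalarTower A0 Mj Mh]
  (F' : Type*) [Field F'] [Algebra Mj F'] [Algebra Mh F'] [Algebra A0 F']
  [IsScalarTower A0 Mj F'] [IsScalarTower A0 Mh F'] [IsScalarTower Mj Mh F']
  [FiniteDimensional Mj F']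
  (F : Type*) [Field F] [Algebra Mj F] [Algebra A0 F] [IsScalarTower A0 Mj F]
  [FiniteDimensional Mj F] [Algebra F F'] [IsScalarTower Mj F F'] [IsScalarTower A0 F F']

/-- **(H2) for the `X₀(2)`-cover `F' = F(h)` on the `j`-chart**, from (H2) for `F`. -/
theorem h2Hyp_jchart_cover3 (π : A0) (hπ : Irreducible π)
    (hchar : ∀ n : ℕ, n ≠ 0 → ∃ a : ℕ, (n : A0) ∣ π ^ a) (h2u : IsUnit (2 : A0))
    (j : Mj) (hj : Transcendental A0 j)
    (hgenj : ∀ m : Mj, ∃ a b : chart A0 Mj j, b ≠ 0 ∧ m * (b : Mj) = (a : Mj))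
    (h : Mh) (hrel : algebraMap Mj Mh j * h ^ 2 = (h + 256) ^ 3)
    (hgenF : Algebra.adjoin F {algebraMap Mh F' h} = ⊤)
    (h2 : H2Hyp A0 Mj F j π) : H2Hyp A0 Mj F' j π := by
  have hczj : CharZero Mj := charZero_line Mj π hπ hchar j hj
  have hczF : CharZero F := charZero_of_injective_algebraMap (algebraMap Mj F).injective
  have hfinFF' : FiniteDimensional F F' := FiniteDimensional.right Mj F F'
  have hsep : Algebra.IsSeparable F F' := inferInstance
  have hicj := AdjoinChart.isIntegrallyClosed Mj j hj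
  have hfrj := AdjoinChart.isFractionRing Mj j hgenj
  have hπj := AdjoinChart.prime_unif Mj j hj π hπ
  have h0' : (algebraMap Mh F' h + 256) ^ 3 = algebraMap Mj F' j * algebraMap Mh F' h ^ 2 := by
    have h1 := congrArg (algebraMap Mh F') hrel
    simp only [map_mul, map_pow, map_add, map_ofNat] at h1
    rw [← IsScalarTower.algebraMap_apply Mj Mh F' j] at h1
    exact h1.symm
  exact CoverBezout.h2Hyp_cover3 Mj F F' j hj π hicj hfrj hπj h2u (algebraMap Mh F' h) h0' hgenF h2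

/-- **(H2) for the `X₀(3)`-cover `F' = F(h)` on the `j`-chart**, from (H2) for `F`. -/
theorem h2Hyp_jchart_cover2 (π : A0) (hπ : Irreducible π)
    (hchar : ∀ n : ℕ, n ≠ 0 → ∃ a : ℕ, (n : A0) ∣ π ^ a) (h3u : IsUnit (3 : A0))
    (j : Mj) (hj : Transcendental A0 j)
    (hgenj : ∀ m : Mj, ∃ a b : chart A0 Mj j, b ≠ 0 ∧ m * (b : Mj) = (a : Mj))
    (h : Mh) (hrel : algebraMap Mj Mh j * h = (h + 27) * (h + 3) ^ 3)
    (hgenF : Algebra.adjoin F {algebraMap Mh F' h} = ⊤)
    (h2 : H2Hyp A0 Mj F j π) : H2Hyp A0 Mj F' j π := by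
  have hczj : CharZero Mj := charZero_line Mj π hπ hchar j hj
  have hczF : CharZero F := charZero_of_injective_algebraMap (algebraMap Mj F).injective
  have hfinFF' : FiniteDimensional F F' := FiniteDimensional.right Mj F F'
  have hsep : Algebra.IsSeparable F F' := inferInstance
  have hicj := AdjoinChart.isIntegrallyClosed Mj j hj
  have hfrj := AdjoinChart.isFractionRing Mj j hgenj
  have hπj := AdjoinChart.prime_unif Mj j hj π hπ
  have h0' : (algebraMap Mh F' h + 27) * (algebraMap Mh F' h + 3) ^ 3 =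
      algebraMap Mj F' j * algebraMap Mh F' h := by
    have h1 := congrArg (algebraMap Mh F') hrel
    simp only [map_mul, map_pow, map_add, map_ofNat] at h1
    rw [← IsScalarTower.algebraMap_apply Mj Mh F' j] at h1
    exact h1.symm
  exact CoverBezout.h2Hyp_cover2 Mj F F' j hj π hicj hfrj hπj h3u (algebraMap Mh F' h) h0' hgenF h2

/-- **(H2) for the `X₀(2)`-cover on both `h`-charts**, from (H2) for `F` on the `j`-chart. -/
theorem h2Hyp_hcharts_cover3 (π : A0) (hπ : Irreducible π)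
    (hchar : ∀ n : ℕ, n ≠ 0 → ∃ a : ℕ, (n : A0) ∣ π ^ a) (h2u : IsUnit (2 : A0))
    (j : Mj) (hj : Transcendental A0 j)
    (hgenj : ∀ m : Mj, ∃ a b : chart A0 Mj j, b ≠ 0 ∧ m * (b : Mj) = (a : Mj))
    (h : Mh) (hgenh : ∀ m : Mh, ∃ a b : chart A0 Mh h, b ≠ 0 ∧ m * (b : Mh) = (a : Mh))
    (hrel : algebraMap Mj Mh j * h ^ 2 = (h + 256) ^ 3)
    (hgenF : Algebra.adjoin F {algebraMap Mh F' h} = ⊤)
    (h2 : H2Hyp A0 Mj F j π) : H2Hyp A0 Mh F' h π ∧ H2Hyp A0 Mh F' h⁻¹ π := by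
  have h2F' := h2Hyp_jchart_cover3 Mj Mh F' F π hπ hchar h2u j hj hgenj h hrel hgenF h2
  exact ⟨h2Hyp_cover Mj Mh F' π hπ j hj hgenj h hgenh (BaseLineRel.num3 A0)
      (BaseLineRel.monic_num3 A0) 2 (by norm_num) (by rw [BaseLineRel.natDegree_num3]; norm_num)
      (BaseLineRel.isUnit_coeff_zero_num3 A0 h2u) (by rw [BaseLineRel.aeval_num3]; exact hrel)
      h2F',
    h2Hyp_cover_inv Mj Mh F' π hπ j hj hgenj h hgenh (BaseLineRel.num3 A0)
      (BaseLineRel.monic_num3 A0) 2 (by norm_num) (by rw [BaseLineRel.natDegree_num3]; norm_num)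
      (BaseLineRel.isUnit_coeff_zero_num3 A0 h2u) (by rw [BaseLineRel.aeval_num3]; exact hrel)
      h2F'⟩

/-- **(H2) for the `X₀(3)`-cover on both `h`-charts**, from (H2) for `F` on the `j`-chart. -/
theorem h2Hyp_hcharts_cover2 (π : A0) (hπ : Irreducible π)
    (hchar : ∀ n : ℕ, n ≠ 0 → ∃ a : ℕ, (n : A0) ∣ π ^ a) (h3u : IsUnit (3 : A0))
    (j : Mj) (hj : Transcendental A0 j)
    (hgenj : ∀ m : Mj, ∃ a b : chart A0 Mj j, b ≠ 0 ∧ m * (b : Mj) = (a : Mj))
    (h : Mh) (hgenh : ∀ m : Mh, ∃ a b : chart A0 Mh h, b ≠ 0 ∧ m * (b : Mh) = (a : Mh))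
    (hrel : algebraMap Mj Mh j * h = (h + 27) * (h + 3) ^ 3)
    (hgenF : Algebra.adjoin F {algebraMap Mh F' h} = ⊤)
    (h2 : H2Hyp A0 Mj F j π) : H2Hyp A0 Mh F' h π ∧ H2Hyp A0 Mh F' h⁻¹ π := by
  have h2F' := h2Hyp_jchart_cover2 Mj Mh F' F π hπ hchar h3u j hj hgenj h hrel hgenF h2
  exact ⟨h2Hyp_cover Mj Mh F' π hπ j hj hgenj h hgenh (BaseLineRel.num2 A0)
      (BaseLineRel.monic_num2 A0) 1 (by norm_num) (by rw [BaseLineRel.natDegree_num2]; norm_num)
      (BaseLineRel.isUnit_coeff_zero_num2 A0 h3u)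
      (by rw [BaseLineRel.aeval_num2, pow_one]; exact hrel) h2F',
    h2Hyp_cover_inv Mj Mh F' π hπ j hj hgenj h hgenh (BaseLineRel.num2 A0)
      (BaseLineRel.monic_num2 A0) 1 (by norm_num) (by rw [BaseLineRel.natDegree_num2]; norm_num)
      (BaseLineRel.isUnit_coeff_zero_num2 A0 h3u)
      (by rw [BaseLineRel.aeval_num2, pow_one]; exact hrel) h2F'⟩

/-- **Machine N on the finite `h`-chart of the `X₀(2)`-cover** (`2` a unit of `A0`). -/
theorem exists_lift_cover3 (π : A0) (hπ : Irreducible π)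
    (hchar : ∀ n : ℕ, n ≠ 0 → ∃ a : ℕ, (n : A0) ∣ π ^ a) (h2u : IsUnit (2 : A0))
    (j : Mj) (hj : Transcendental A0 j)
    (hgenj : ∀ m : Mj, ∃ a b : chart A0 Mj j, b ≠ 0 ∧ m * (b : Mj) = (a : Mj))
    (h : Mh) (hgenh : ∀ m : Mh, ∃ a b : chart A0 Mh h, b ≠ 0 ∧ m * (b : Mh) = (a : Mh))
    (hrel : algebraMap Mj Mh j * h ^ 2 = (h + 256) ^ 3)
    (hgenF : Algebra.adjoin F {algebraMap Mh F' h} = ⊤)
    (Critf : Finset A0) (h2 : H2Hyp A0 Mj F j π) (h3f : H3Hyp A0 Mh F' h π Critf)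
    (x : F') (hx : InGauss A0 Mh F' h π x)
    (hint : ∃ p : (chart A0 Mh h)[X], p.Monic ∧ InPiGauss A0 Mh F' h π (aeval x p)) :
    ∃ c : F', IsIntegral (chart A0 Mh h) c ∧ InPiGauss A0 Mh F' h π (x - c) :=
  exists_lift_cover Mj Mh F' π hπ hchar j hj hgenj h hgenh (BaseLineRel.num3 A0)
    (BaseLineRel.monic_num3 A0) 2 (by norm_num) (by rw [BaseLineRel.natDegree_num3]; norm_num)
    (BaseLineRel.isUnit_coeff_zero_num3 A0 h2u) (by rw [BaseLineRel.aeval_num3]; exact hrel)
    Critf (h2Hyp_jchart_cover3 Mj Mh F' F π hπ hchar h2u j hj hgenj h hrel hgenF h2) h3f x hx hint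

/-- **Machine N on the `h`-chart at infinity of the `X₀(2)`-cover** (`2` a unit of `A0`). -/
theorem exists_lift_cover3_inv (π : A0) (hπ : Irreducible π)
    (hchar : ∀ n : ℕ, n ≠ 0 → ∃ a : ℕ, (n : A0) ∣ π ^ a) (h2u : IsUnit (2 : A0))
    (j : Mj) (hj : Transcendental A0 j)
    (hgenj : ∀ m : Mj, ∃ a b : chart A0 Mj j, b ≠ 0 ∧ m * (b : Mj) = (a : Mj))
    (h : Mh) (hgenh : ∀ m : Mh, ∃ a b : chart A0 Mh h, b ≠ 0 ∧ m * (b : Mh) = (a : Mh))
    (hrel : algebraMap Mj Mh j * h ^ 2 = (h + 256) ^ 3)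
    (hgenF : Algebra.adjoin F {algebraMap Mh F' h} = ⊤)
    (Criti : Finset A0) (h2 : H2Hyp A0 Mj F j π) (h3i : H3Hyp A0 Mh F' h⁻¹ π Criti)
    (x : F') (hx : InGauss A0 Mh F' h⁻¹ π x)
    (hint : ∃ p : (chart A0 Mh h⁻¹)[X], p.Monic ∧ InPiGauss A0 Mh F' h⁻¹ π (aeval x p)) :
    ∃ c : F', IsIntegral (chart A0 Mh h⁻¹) c ∧ InPiGauss A0 Mh F' h⁻¹ π (x - c) :=
  exists_lift_cover_inv Mj Mh F' π hπ hchar j hj hgenj h hgenh (BaseLineRel.num3 A0)
    (BaseLineRel.monic_num3 A0) 2 (by norm_num) (by rw [BaseLineRel.natDegree_num3]; norm_num)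
    (BaseLineRel.isUnit_coeff_zero_num3 A0 h2u) (by rw [BaseLineRel.aeval_num3]; exact hrel)
    Criti (h2Hyp_jchart_cover3 Mj Mh F' F π hπ hchar h2u j hj hgenj h hrel hgenF h2) h3i x hx hint

/-- **Machine N on the finite `h`-chart of the `X₀(3)`-cover** (`3` a unit of `A0`). -/
theorem exists_lift_cover2 (π : A0) (hπ : Irreducible π)
    (hchar : ∀ n : ℕ, n ≠ 0 → ∃ a : ℕ, (n : A0) ∣ π ^ a) (h3u : IsUnit (3 : A0))
    (j : Mj) (hj : Transcendental A0 j)
    (hgenj : ∀ m : Mj, ∃ a b : chart A0 Mj j, b ≠ 0 ∧ m * (b : Mj) = (a : Mj))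
    (h : Mh) (hgenh : ∀ m : Mh, ∃ a b : chart A0 Mh h, b ≠ 0 ∧ m * (b : Mh) = (a : Mh))
    (hrel : algebraMap Mj Mh j * h = (h + 27) * (h + 3) ^ 3)
    (hgenF : Algebra.adjoin F {algebraMap Mh F' h} = ⊤)
    (Critf : Finset A0) (h2 : H2Hyp A0 Mj F j π) (h3f : H3Hyp A0 Mh F' h π Critf)
    (x : F') (hx : InGauss A0 Mh F' h π x)
    (hint : ∃ p : (chart A0 Mh h)[X], p.Monic ∧ InPiGauss A0 Mh F' h π (aeval x p)) :
    ∃ c : F', IsIntegral (chart A0 Mh h) c ∧ InPiGauss A0 Mh F' h π (x - c) :=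
  exists_lift_cover Mj Mh F' π hπ hchar j hj hgenj h hgenh (BaseLineRel.num2 A0)
    (BaseLineRel.monic_num2 A0) 1 (by norm_num) (by rw [BaseLineRel.natDegree_num2]; norm_num)
    (BaseLineRel.isUnit_coeff_zero_num2 A0 h3u)
    (by rw [BaseLineRel.aeval_num2, pow_one]; exact hrel)
    Critf (h2Hyp_jchart_cover2 Mj Mh F' F π hπ hchar h3u j hj hgenj h hrel hgenF h2) h3f x hx hint

/-- **Machine N on the `h`-chart at infinity of the `X₀(3)`-cover** (`3` a unit of `A0`). -/
theorem exists_lift_cover2_inv (π : A0) (hπ : Irreducible π)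
    (hchar : ∀ n : ℕ, n ≠ 0 → ∃ a : ℕ, (n : A0) ∣ π ^ a) (h3u : IsUnit (3 : A0))
    (j : Mj) (hj : Transcendental A0 j)
    (hgenj : ∀ m : Mj, ∃ a b : chart A0 Mj j, b ≠ 0 ∧ m * (b : Mj) = (a : Mj))
    (h : Mh) (hgenh : ∀ m : Mh, ∃ a b : chart A0 Mh h, b ≠ 0 ∧ m * (b : Mh) = (a : Mh))
    (hrel : algebraMap Mj Mh j * h = (h + 27) * (h + 3) ^ 3)
    (hgenF : Algebra.adjoin F {algebraMap Mh F' h} = ⊤)
    (Criti : Finset A0) (h2 : H2Hyp A0 Mj F j π) (h3i : H3Hyp A0 Mh F' h⁻¹ π Criti)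
    (x : F') (hx : InGauss A0 Mh F' h⁻¹ π x)
    (hint : ∃ p : (chart A0 Mh h⁻¹)[X], p.Monic ∧ InPiGauss A0 Mh F' h⁻¹ π (aeval x p)) :
    ∃ c : F', IsIntegral (chart A0 Mh h⁻¹) c ∧ InPiGauss A0 Mh F' h⁻¹ π (x - c) :=
  exists_lift_cover_inv Mj Mh F' π hπ hchar j hj hgenj h hgenh (BaseLineRel.num2 A0)
    (BaseLineRel.monic_num2 A0) 1 (by norm_num) (by rw [BaseLineRel.natDegree_num2]; norm_num)
    (BaseLineRel.isUnit_coeff_zero_num2 A0 h3u)
    (by rw [BaseLineRel.aeval_num2, pow_one]; exact hrel)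
    Criti (h2Hyp_jchart_cover2 Mj Mh F' F π hπ hchar h3u j hj hgenj h hrel hgenF h2) h3i x hx hint

end Covers

/-! ### The sealed carriers of `S18.Top23`

`K` a number field inside `ℚ̄`, `A₀ = A ∩ K`, `F = FK K N`, `F# = AdjoinRoot m0` for an irreducible
factor `m0` of the cover polynomial (irreducible over `ℚ̄` as well), `Mh = Line K (root m0)`. -/

section Sealed

open Fermat.Agent.S18.Setup Fermat.Agent.S18.S24Export

open scoped IntermediateField

variable (K : Type*) [Field K] [Algebra K Qb] [Algebra ℚ K] [FiniteDimensional ℚ K]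
  (N : ℕ) [NeZero N] (A : ValuationSubring Qb)
  (m0 : (FK K N)[X]) [Fact (Irreducible m0)] [Fact (Irreducible (m0.map (ιL K N)))]

/-- **Normality of the special fibre of the `X₀(2)`-cover `j h² = (h + 256)³`, finite chart `A₀[h]`**
(`ℓ ≠ 2`, `ℓ ∤ N`), sealed carriers: an element of the Gauss ring of `F# = F_K[X]/(m0)` which is
integral over the chart ring modulo `π` is congruent modulo `π` to an element integral over the
chart ring. -/
theorem exists_lift_fin3 {ℓ : ℕ} (hℓ : ℓ.Prime) (hℓN : ¬ ℓ ∣ N) (hℓ2 : ℓ ≠ 2)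
    (hA : A.LiesOverPrime ℓ) (hm0 : m0.Monic)
    (hrelF : algebraMap (FK K N) (AdjoinRoot m0) (jF K N) * AdjoinRoot.root m0 ^ 2 =
      (AdjoinRoot.root m0 + 256) ^ 3)
    (π : ↥(A0.down K A)) (hπ : Irreducible π)
    (hmax : IsLocalRing.maximalIdeal ↥(A0.down K A) = Ideal.span {π})
    (x : AdjoinRoot m0)
    (hx : InGauss ↥(A0.down K A) (Line K (AdjoinRoot.root m0)) (AdjoinRoot m0)
      (Line.gen K (AdjoinRoot.root m0)) π x)
    (hint : ∃ p : (chart ↥(A0.down K A) (Line K (AdjoinRoot.root m0))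
        (Line.gen K (AdjoinRoot.root m0)))[X], p.Monic ∧
      InPiGauss ↥(A0.down K A) (Line K (AdjoinRoot.root m0)) (AdjoinRoot m0)
        (Line.gen K (AdjoinRoot.root m0)) π (aeval x p)) :
    ∃ c : AdjoinRoot m0,
      IsIntegral (chart ↥(A0.down K A) (Line K (AdjoinRoot.root m0))
        (Line.gen K (AdjoinRoot.root m0))) c ∧
      InPiGauss ↥(A0.down K A) (Line K (AdjoinRoot.root m0)) (AdjoinRoot m0)
        (Line.gen K (AdjoinRoot.root m0)) π (x - c) := by
  classical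
  have hB : (A0.down K A).LiesOverPrime ℓ := (A0.liesOverPrime_down_iff A).mpr hA
  have hdvr : IsDiscreteValuationRing ↥(A0.down K A) := NormalJ.dvr K A hℓ hA
  have h2u : IsUnit (2 : ↥(A0.down K A)) := by
    have := ResField.isUnit_natCast (A0.down K A) hℓ hB (n := 2)
      (fun h => hℓ2 ((Nat.prime_dvd_prime_iff_eq hℓ Nat.prime_two).mp h))
    simpa using this
  have hc : CharZero K := charZero_of_injective_algebraMap (algebraMap ℚ K).injective
  have : CharZero (AdjoinRoot m0) :=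
    charZero_of_injective_algebraMap (algebraMap K (AdjoinRoot m0)).injective
  have hmem : algebraMap (FK K N) (AdjoinRoot m0) (jF K N) ∈ K⟮AdjoinRoot.root m0⟯ :=
    H3SelfH.mem_adjoin_of_rel3 (K0 := K) (jF K N) (AdjoinRoot.root m0) hrelF
  -- the two lines and their inclusion
  letI := LineMap.algebraLine K (jF K N) (AdjoinRoot.root m0) hmem
  haveI : IsScalarTower K (Line K (jF K N)) (Line K (AdjoinRoot.root m0)) :=
    LineMap.isScalarTower_base K (jF K N) (AdjoinRoot.root m0) hmem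
  haveI : IsScalarTower (Line K (jF K N)) (Line K (AdjoinRoot.root m0)) (AdjoinRoot m0) :=
    LineMap.isScalarTower_top K (jF K N) (AdjoinRoot.root m0) hmem
  haveI : Module.Finite (FK K N) (AdjoinRoot m0) := hm0.finite_adjoinRoot
  haveI : FiniteDimensional (Line K (jF K N)) (AdjoinRoot m0) :=
    Module.Finite.trans (FK K N) (AdjoinRoot m0)
  have hj : Transcendental ↥(A0.down K A) (Line.gen K (jF K N)) :=
    Line.transcendental_gen_val (jF K N) (A0.down K A) (transcendental_jF K N)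
  have hgenj := LineGen.hgen_of_adjoin_eq_top (A0 := ↥(A0.down K A)) (K0 := K)
    (Line.gen K (jF K N)) (Line.adjoin_gen K (jF K N))
  have hgenh := LineGen.hgen_of_adjoin_eq_top (A0 := ↥(A0.down K A)) (K0 := K)
    (Line.gen K (AdjoinRoot.root m0)) (Line.adjoin_gen K (AdjoinRoot.root m0))
  have hrel : algebraMap (Line K (jF K N)) (Line K (AdjoinRoot.root m0)) (Line.gen K (jF K N)) *
      Line.gen K (AdjoinRoot.root m0) ^ 2 = (Line.gen K (AdjoinRoot.root m0) + 256) ^ 3 := by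
    apply (algebraMap (Line K (AdjoinRoot.root m0)) (AdjoinRoot m0)).injective
    rw [map_mul, map_pow, map_pow, map_add, map_ofNat, algebraMap_gen,
      LineMap.algebraMap_gen_line K (jF K N) (AdjoinRoot.root m0) hmem]
    exact hrelF
  have hgenF : Algebra.adjoin (FK K N)
      {algebraMap (Line K (AdjoinRoot.root m0)) (AdjoinRoot m0)
        (Line.gen K (AdjoinRoot.root m0))} = ⊤ := by
    rw [algebraMap_gen]
    exact AdjoinRoot.adjoinRoot_eq_top
  have h2 := H2Top.h2_jline K N A hℓ hℓN hA π hπ hmax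
  obtain ⟨Critf, Criti, h3, -⟩ := 
    H3SelfH.h3Hyp_cover3_both N K A m0 hℓ hA hℓ2 hrelF π (NormalJ.harch K A hℓ hA π hπ)
  exact exists_lift_cover3 (Line K (jF K N)) (Line K (AdjoinRoot.root m0)) (AdjoinRoot m0) (FK K N)
    π hπ (NormalJ.hchar K A hℓ hA π hπ) h2u (Line.gen K (jF K N)) hj hgenj
    (Line.gen K (AdjoinRoot.root m0)) hgenh hrel hgenF Critf h2 h3 x hx hint

/-- **Normality of the special fibre of the `X₀(2)`-cover `j h² = (h + 256)³`, chart at infinity `A₀[1/h]`**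
(`ℓ ≠ 2`, `ℓ ∤ N`), sealed carriers: an element of the Gauss ring of `F# = F_K[X]/(m0)` which is
integral over the chart ring modulo `π` is congruent modulo `π` to an element integral over the
chart ring. -/
theorem exists_lift_inv3 {ℓ : ℕ} (hℓ : ℓ.Prime) (hℓN : ¬ ℓ ∣ N) (hℓ2 : ℓ ≠ 2)
    (hA : A.LiesOverPrime ℓ) (hm0 : m0.Monic)
    (hrelF : algebraMap (FK K N) (AdjoinRoot m0) (jF K N) * AdjoinRoot.root m0 ^ 2 =
      (AdjoinRoot.root m0 + 256) ^ 3)
    (π : ↥(A0.down K A)) (hπ : Irreducible π)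
    (hmax : IsLocalRing.maximalIdeal ↥(A0.down K A) = Ideal.span {π})
    (x : AdjoinRoot m0)
    (hx : InGauss ↥(A0.down K A) (Line K (AdjoinRoot.root m0)) (AdjoinRoot m0)
      (Line.gen K (AdjoinRoot.root m0))⁻¹ π x)
    (hint : ∃ p : (chart ↥(A0.down K A) (Line K (AdjoinRoot.root m0))
        (Line.gen K (AdjoinRoot.root m0))⁻¹)[X], p.Monic ∧
      InPiGauss ↥(A0.down K A) (Line K (AdjoinRoot.root m0)) (AdjoinRoot m0)
        (Line.gen K (AdjoinRoot.root m0))⁻¹ π (aeval x p)) :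
    ∃ c : AdjoinRoot m0,
      IsIntegral (chart ↥(A0.down K A) (Line K (AdjoinRoot.root m0))
        (Line.gen K (AdjoinRoot.root m0))⁻¹) c ∧
      InPiGauss ↥(A0.down K A) (Line K (AdjoinRoot.root m0)) (AdjoinRoot m0)
        (Line.gen K (AdjoinRoot.root m0))⁻¹ π (x - c) := by
  classical
  have hB : (A0.down K A).LiesOverPrime ℓ := (A0.liesOverPrime_down_iff A).mpr hA
  have hdvr : IsDiscreteValuationRing ↥(A0.down K A) := NormalJ.dvr K A hℓ hA
  have h2u : IsUnit (2 : ↥(A0.down K A)) := by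
    have := ResField.isUnit_natCast (A0.down K A) hℓ hB (n := 2)
      (fun h => hℓ2 ((Nat.prime_dvd_prime_iff_eq hℓ Nat.prime_two).mp h))
    simpa using this
  have hc : CharZero K := charZero_of_injective_algebraMap (algebraMap ℚ K).injective
  have : CharZero (AdjoinRoot m0) :=
    charZero_of_injective_algebraMap (algebraMap K (AdjoinRoot m0)).injective
  have hmem : algebraMap (FK K N) (AdjoinRoot m0) (jF K N) ∈ K⟮AdjoinRoot.root m0⟯ :=
    H3SelfH.mem_adjoin_of_rel3 (K0 := K) (jF K N) (AdjoinRoot.root m0) hrelF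
  -- the two lines and their inclusion
  letI := LineMap.algebraLine K (jF K N) (AdjoinRoot.root m0) hmem
  haveI : IsScalarTower K (Line K (jF K N)) (Line K (AdjoinRoot.root m0)) :=
    LineMap.isScalarTower_base K (jF K N) (AdjoinRoot.root m0) hmem
  haveI : IsScalarTower (Line K (jF K N)) (Line K (AdjoinRoot.root m0)) (AdjoinRoot m0) :=
    LineMap.isScalarTower_top K (jF K N) (AdjoinRoot.root m0) hmem
  haveI : Module.Finite (FK K N) (AdjoinRoot m0) := hm0.finite_adjoinRoot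
  haveI : FiniteDimensional (Line K (jF K N)) (AdjoinRoot m0) :=
    Module.Finite.trans (FK K N) (AdjoinRoot m0)
  have hj : Transcendental ↥(A0.down K A) (Line.gen K (jF K N)) :=
    Line.transcendental_gen_val (jF K N) (A0.down K A) (transcendental_jF K N)
  have hgenj := LineGen.hgen_of_adjoin_eq_top (A0 := ↥(A0.down K A)) (K0 := K)
    (Line.gen K (jF K N)) (Line.adjoin_gen K (jF K N))
  have hgenh := LineGen.hgen_of_adjoin_eq_top (A0 := ↥(A0.down K A)) (K0 := K)
    (Line.gen K (AdjoinRoot.root m0)) (Line.adjoin_gen K (AdjoinRoot.root m0))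
  have hrel : algebraMap (Line K (jF K N)) (Line K (AdjoinRoot.root m0)) (Line.gen K (jF K N)) *
      Line.gen K (AdjoinRoot.root m0) ^ 2 = (Line.gen K (AdjoinRoot.root m0) + 256) ^ 3 := by
    apply (algebraMap (Line K (AdjoinRoot.root m0)) (AdjoinRoot m0)).injective
    rw [map_mul, map_pow, map_pow, map_add, map_ofNat, algebraMap_gen,
      LineMap.algebraMap_gen_line K (jF K N) (AdjoinRoot.root m0) hmem]
    exact hrelF
  have hgenF : Algebra.adjoin (FK K N)
      {algebraMap (Line K (AdjoinRoot.root m0)) (AdjoinRoot m0)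
        (Line.gen K (AdjoinRoot.root m0))} = ⊤ := by
    rw [algebraMap_gen]
    exact AdjoinRoot.adjoinRoot_eq_top
  have h2 := H2Top.h2_jline K N A hℓ hℓN hA π hπ hmax
  obtain ⟨Critf, Criti, -, h3⟩ := 
    H3SelfH.h3Hyp_cover3_both N K A m0 hℓ hA hℓ2 hrelF π (NormalJ.harch K A hℓ hA π hπ)
  exact exists_lift_cover3_inv (Line K (jF K N)) (Line K (AdjoinRoot.root m0)) (AdjoinRoot m0) (FK K N)
    π hπ (NormalJ.hchar K A hℓ hA π hπ) h2u (Line.gen K (jF K N)) hj hgenj
    (Line.gen K (AdjoinRoot.root m0)) hgenh hrel hgenF Criti h2 h3 x hx hint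

/-- **Normality of the special fibre of the `X₀(3)`-cover `j h = (h + 27)(h + 3)³`, finite chart `A₀[h]`**
(`ℓ ≠ 3`, `ℓ ∤ N`), sealed carriers: an element of the Gauss ring of `F# = F_K[X]/(m0)` which is
integral over the chart ring modulo `π` is congruent modulo `π` to an element integral over the
chart ring. -/
theorem exists_lift_fin2 {ℓ : ℕ} (hℓ : ℓ.Prime) (hℓN : ¬ ℓ ∣ N) (hℓ3 : ℓ ≠ 3)
    (hA : A.LiesOverPrime ℓ) (hm0 : m0.Monic)
    (hrelF : algebraMap (FK K N) (AdjoinRoot m0) (jF K N) * AdjoinRoot.root m0 =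
      (AdjoinRoot.root m0 + 27) * (AdjoinRoot.root m0 + 3) ^ 3)
    (π : ↥(A0.down K A)) (hπ : Irreducible π)
    (hmax : IsLocalRing.maximalIdeal ↥(A0.down K A) = Ideal.span {π})
    (x : AdjoinRoot m0)
    (hx : InGauss ↥(A0.down K A) (Line K (AdjoinRoot.root m0)) (AdjoinRoot m0)
      (Line.gen K (AdjoinRoot.root m0)) π x)
    (hint : ∃ p : (chart ↥(A0.down K A) (Line K (AdjoinRoot.root m0))
        (Line.gen K (AdjoinRoot.root m0)))[X], p.Monic ∧
      InPiGauss ↥(A0.down K A) (Line K (AdjoinRoot.root m0)) (AdjoinRoot m0)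
        (Line.gen K (AdjoinRoot.root m0)) π (aeval x p)) :
    ∃ c : AdjoinRoot m0,
      IsIntegral (chart ↥(A0.down K A) (Line K (AdjoinRoot.root m0))
        (Line.gen K (AdjoinRoot.root m0))) c ∧
      InPiGauss ↥(A0.down K A) (Line K (AdjoinRoot.root m0)) (AdjoinRoot m0)
        (Line.gen K (AdjoinRoot.root m0)) π (x - c) := by
  classical
  have hB : (A0.down K A).LiesOverPrime ℓ := (A0.liesOverPrime_down_iff A).mpr hA
  have hdvr : IsDiscreteValuationRing ↥(A0.down K A) := NormalJ.dvr K A hℓ hA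
  have h3u : IsUnit (3 : ↥(A0.down K A)) := by
    have := ResField.isUnit_natCast (A0.down K A) hℓ hB (n := 3)
      (fun h => hℓ3 ((Nat.prime_dvd_prime_iff_eq hℓ Nat.prime_three).mp h))
    simpa using this
  have hc : CharZero K := charZero_of_injective_algebraMap (algebraMap ℚ K).injective
  have : CharZero (AdjoinRoot m0) :=
    charZero_of_injective_algebraMap (algebraMap K (AdjoinRoot m0)).injective
  have hmem : algebraMap (FK K N) (AdjoinRoot m0) (jF K N) ∈ K⟮AdjoinRoot.root m0⟯ :=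
    H3SelfH.mem_adjoin_of_rel2 (K0 := K) (jF K N) (AdjoinRoot.root m0) hrelF
  -- the two lines and their inclusion
  letI := LineMap.algebraLine K (jF K N) (AdjoinRoot.root m0) hmem
  haveI : IsScalarTower K (Line K (jF K N)) (Line K (AdjoinRoot.root m0)) :=
    LineMap.isScalarTower_base K (jF K N) (AdjoinRoot.root m0) hmem
  haveI : IsScalarTower (Line K (jF K N)) (Line K (AdjoinRoot.root m0)) (AdjoinRoot m0) :=
    LineMap.isScalarTower_top K (jF K N) (AdjoinRoot.root m0) hmem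
  haveI : Module.Finite (FK K N) (AdjoinRoot m0) := hm0.finite_adjoinRoot
  haveI : FiniteDimensional (Line K (jF K N)) (AdjoinRoot m0) :=
    Module.Finite.trans (FK K N) (AdjoinRoot m0)
  have hj : Transcendental ↥(A0.down K A) (Line.gen K (jF K N)) :=
    Line.transcendental_gen_val (jF K N) (A0.down K A) (transcendental_jF K N)
  have hgenj := LineGen.hgen_of_adjoin_eq_top (A0 := ↥(A0.down K A)) (K0 := K)
    (Line.gen K (jF K N)) (Line.adjoin_gen K (jF K N))
  have hgenh := LineGen.hgen_of_adjoin_eq_top (A0 := ↥(A0.down K A)) (K0 := K)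
    (Line.gen K (AdjoinRoot.root m0)) (Line.adjoin_gen K (AdjoinRoot.root m0))
  have hrel : algebraMap (Line K (jF K N)) (Line K (AdjoinRoot.root m0)) (Line.gen K (jF K N)) *
      Line.gen K (AdjoinRoot.root m0) = (Line.gen K (AdjoinRoot.root m0) + 27) *
        (Line.gen K (AdjoinRoot.root m0) + 3) ^ 3 := by
    apply (algebraMap (Line K (AdjoinRoot.root m0)) (AdjoinRoot m0)).injective
    rw [map_mul, map_mul, map_pow, map_add, map_add, map_ofNat, map_ofNat, algebraMap_gen,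
      LineMap.algebraMap_gen_line K (jF K N) (AdjoinRoot.root m0) hmem]
    exact hrelF
  have hgenF : Algebra.adjoin (FK K N)
      {algebraMap (Line K (AdjoinRoot.root m0)) (AdjoinRoot m0)
        (Line.gen K (AdjoinRoot.root m0))} = ⊤ := by
    rw [algebraMap_gen]
    exact AdjoinRoot.adjoinRoot_eq_top
  have h2 := H2Top.h2_jline K N A hℓ hℓN hA π hπ hmax
  obtain ⟨Critf, Criti, h3, -⟩ := 
    H3SelfH.h3Hyp_cover2_both N K A m0 hℓ hA hℓ3 hrelF π (NormalJ.harch K A hℓ hA π hπ)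
  exact exists_lift_cover2 (Line K (jF K N)) (Line K (AdjoinRoot.root m0)) (AdjoinRoot m0) (FK K N)
    π hπ (NormalJ.hchar K A hℓ hA π hπ) h3u (Line.gen K (jF K N)) hj hgenj
    (Line.gen K (AdjoinRoot.root m0)) hgenh hrel hgenF Critf h2 h3 x hx hint

/-- **Normality of the special fibre of the `X₀(3)`-cover `j h = (h + 27)(h + 3)³`, chart at infinity `A₀[1/h]`**
(`ℓ ≠ 3`, `ℓ ∤ N`), sealed carriers: an element of the Gauss ring of `F# = F_K[X]/(m0)` which is
integral over the chart ring modulo `π` is congruent modulo `π` to an element integral over the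
chart ring. -/
theorem exists_lift_inv2 {ℓ : ℕ} (hℓ : ℓ.Prime) (hℓN : ¬ ℓ ∣ N) (hℓ3 : ℓ ≠ 3)
    (hA : A.LiesOverPrime ℓ) (hm0 : m0.Monic)
    (hrelF : algebraMap (FK K N) (AdjoinRoot m0) (jF K N) * AdjoinRoot.root m0 =
      (AdjoinRoot.root m0 + 27) * (AdjoinRoot.root m0 + 3) ^ 3)
    (π : ↥(A0.down K A)) (hπ : Irreducible π)
    (hmax : IsLocalRing.maximalIdeal ↥(A0.down K A) = Ideal.span {π})
    (x : AdjoinRoot m0)
    (hx : InGauss ↥(A0.down K A) (Line K (AdjoinRoot.root m0)) (AdjoinRoot m0)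
      (Line.gen K (AdjoinRoot.root m0))⁻¹ π x)
    (hint : ∃ p : (chart ↥(A0.down K A) (Line K (AdjoinRoot.root m0))
        (Line.gen K (AdjoinRoot.root m0))⁻¹)[X], p.Monic ∧
      InPiGauss ↥(A0.down K A) (Line K (AdjoinRoot.root m0)) (AdjoinRoot m0)
        (Line.gen K (AdjoinRoot.root m0))⁻¹ π (aeval x p)) :
    ∃ c : AdjoinRoot m0,
      IsIntegral (chart ↥(A0.down K A) (Line K (AdjoinRoot.root m0))
        (Line.gen K (AdjoinRoot.root m0))⁻¹) c ∧
      InPiGauss ↥(A0.down K A) (Line K (AdjoinRoot.root m0)) (AdjoinRoot m0)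
        (Line.gen K (AdjoinRoot.root m0))⁻¹ π (x - c) := by
  classical
  have hB : (A0.down K A).LiesOverPrime ℓ := (A0.liesOverPrime_down_iff A).mpr hA
  have hdvr : IsDiscreteValuationRing ↥(A0.down K A) := NormalJ.dvr K A hℓ hA
  have h3u : IsUnit (3 : ↥(A0.down K A)) := by
    have := ResField.isUnit_natCast (A0.down K A) hℓ hB (n := 3)
      (fun h => hℓ3 ((Nat.prime_dvd_prime_iff_eq hℓ Nat.prime_three).mp h))
    simpa using this
  have hc : CharZero K := charZero_of_injective_algebraMap (algebraMap ℚ K).injective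
  have : CharZero (AdjoinRoot m0) :=
    charZero_of_injective_algebraMap (algebraMap K (AdjoinRoot m0)).injective
  have hmem : algebraMap (FK K N) (AdjoinRoot m0) (jF K N) ∈ K⟮AdjoinRoot.root m0⟯ :=
    H3SelfH.mem_adjoin_of_rel2 (K0 := K) (jF K N) (AdjoinRoot.root m0) hrelF
  -- the two lines and their inclusion
  letI := LineMap.algebraLine K (jF K N) (AdjoinRoot.root m0) hmem
  haveI : IsScalarTower K (Line K (jF K N)) (Line K (AdjoinRoot.root m0)) :=
    LineMap.isScalarTower_base K (jF K N) (AdjoinRoot.root m0) hmem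
  haveI : IsScalarTower (Line K (jF K N)) (Line K (AdjoinRoot.root m0)) (AdjoinRoot m0) :=
    LineMap.isScalarTower_top K (jF K N) (AdjoinRoot.root m0) hmem
  haveI : Module.Finite (FK K N) (AdjoinRoot m0) := hm0.finite_adjoinRoot
  haveI : FiniteDimensional (Line K (jF K N)) (AdjoinRoot m0) :=
    Module.Finite.trans (FK K N) (AdjoinRoot m0)
  have hj : Transcendental ↥(A0.down K A) (Line.gen K (jF K N)) :=
    Line.transcendental_gen_val (jF K N) (A0.down K A) (transcendental_jF K N)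
  have hgenj := LineGen.hgen_of_adjoin_eq_top (A0 := ↥(A0.down K A)) (K0 := K)
    (Line.gen K (jF K N)) (Line.adjoin_gen K (jF K N))
  have hgenh := LineGen.hgen_of_adjoin_eq_top (A0 := ↥(A0.down K A)) (K0 := K)
    (Line.gen K (AdjoinRoot.root m0)) (Line.adjoin_gen K (AdjoinRoot.root m0))
  have hrel : algebraMap (Line K (jF K N)) (Line K (AdjoinRoot.root m0)) (Line.gen K (jF K N)) *
      Line.gen K (AdjoinRoot.root m0) = (Line.gen K (AdjoinRoot.root m0) + 27) *
        (Line.gen K (AdjoinRoot.root m0) + 3) ^ 3 := by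
    apply (algebraMap (Line K (AdjoinRoot.root m0)) (AdjoinRoot m0)).injective
    rw [map_mul, map_mul, map_pow, map_add, map_add, map_ofNat, map_ofNat, algebraMap_gen,
      LineMap.algebraMap_gen_line K (jF K N) (AdjoinRoot.root m0) hmem]
    exact hrelF
  have hgenF : Algebra.adjoin (FK K N)
      {algebraMap (Line K (AdjoinRoot.root m0)) (AdjoinRoot m0)
        (Line.gen K (AdjoinRoot.root m0))} = ⊤ := by
    rw [algebraMap_gen]
    exact AdjoinRoot.adjoinRoot_eq_top
  have h2 := H2Top.h2_jline K N A hℓ hℓN hA π hπ hmax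
  obtain ⟨Critf, Criti, -, h3⟩ := 
    H3SelfH.h3Hyp_cover2_both N K A m0 hℓ hA hℓ3 hrelF π (NormalJ.harch K A hℓ hA π hπ)
  exact exists_lift_cover2_inv (Line K (jF K N)) (Line K (AdjoinRoot.root m0)) (AdjoinRoot m0) (FK K N)
    π hπ (NormalJ.hchar K A hℓ hA π hπ) h3u (Line.gen K (jF K N)) hj hgenj
    (Line.gen K (AdjoinRoot.root m0)) hgenh hrel hgenF Criti h2 h3 x hx hint

end Sealed

end Fermat.Agent.S37.NormalH
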