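import Mathlib
import Fermat.Agent.S37.NormalH
import Fermat.Agent.S37.FibreGen

/-!
# S37, cover chain (H): the fibre generator on the `h`-charts of the covers

`C := integralClosure (chart A0 Mh t) F'` for a cover `F' = F(h)` of the `j`-line and `t = h` or
`t = h⁻¹`.  `C` is Noetherian, and if `π` stays prime in `C` then every maximal ideal `n ∋ π` of
`C` is generated, locally at `n`, by `π` and one more element: the hypothesis `hmax` of
`ZeroSum.exists_sub_mul_mem`.  (`FibreGen.exists_local_gen_chart` fed with machine N on the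
`h`-charts, `NormalH`.)

* `isNoetherianRing_chart`: generic chart;
* `hmax_cover`, `hmax_cover_inv`: general relation `j * h ^ a = num(h)`;
  `hmax_cover3(_inv)`, `hmax_cover2(_inv)`: the two covers;
* sealed carriers of `S18.Top23` (`A₀ = A ∩ K`, `Mh = Line K (root m0)`, `F# = AdjoinRoot m0`):
  `finiteDimensional_line3/2`, `transcendental_gen3/2`, `isNoetherianRing_fin3/inv3/fin2/inv2`,
  `hmax_fin3/inv3/fin2/inv2` (element form `ϖ`) and `hmax_fin3'/…` (form `algebraMap A₀ C π`).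
-/

set_option autoImplicit false
set_option linter.unusedSectionVars false
set_option linter.style.haveILetI false

open Polynomial AlgebraicCurve ModularCurve

namespace Fermat.Agent.S37.FibreH

open Fermat.Agent.S18 Fermat.Agent.S18.CoreDefs

local notation "Qb" => AlgebraicClosure ℚ

section Generic

variable {A0 : Type*} [CommRing A0] [IsDomain A0] [IsDiscreteValuationRing A0]
  (M : Type*) [Field M] [Algebra A0 M]
  (E : Type*) [Field E] [Algebra M E] [Algebra A0 E] [IsScalarTower A0 M E]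
  [FiniteDimensional M E] [Algebra.IsSeparable M E]

/-- the integral closure of a chart ring in a finite separable extension is Noetherian. -/
theorem isNoetherianRing_chart (t : M) (ht : Transcendental A0 t)
    (hgen : ∀ m : M, ∃ a b : chart A0 M t, b ≠ 0 ∧ m * (b : M) = (a : M)) :
    IsNoetherianRing ↥(integralClosure (chart A0 M t) E) := by
  have := AdjoinChart.isIntegrallyClosed M t ht
  have := AdjoinChart.isNoetherianRing M t ht
  have := AdjoinChart.isFractionRing M t hgen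
  exact IsIntegralClosure.isNoetherianRing (chart A0 M t) M E _

end Generic

section Abstract

variable {A0 : Type*} [CommRing A0] [IsDomain A0] [IsDiscreteValuationRing A0]
  (Mj : Type*) [Field Mj] [Algebra A0 Mj]
  (Mh : Type*) [Field Mh] [Algebra A0 Mh] [Algebra Mj Mh] [IsScalarTower A0 Mj Mh]
  (F' : Type*) [Field F'] [Algebra Mj F'] [Algebra Mh F'] [Algebra A0 F']
  [IsScalarTower A0 Mj F'] [IsScalarTower A0 Mh F'] [IsScalarTower Mj Mh F']
  [FiniteDimensional Mj F']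

/-- **Fibre generator on the finite `h`-chart of a cover**, general relation. -/
theorem hmax_cover (π : A0) (hπ : Irreducible π)
    (hchar : ∀ n : ℕ, n ≠ 0 → ∃ a : ℕ, (n : A0) ∣ π ^ a)
    (j : Mj) (hj : Transcendental A0 j)
    (hgenj : ∀ m : Mj, ∃ a b : chart A0 Mj j, b ≠ 0 ∧ m * (b : Mj) = (a : Mj))
    (h : Mh) (hgenh : ∀ m : Mh, ∃ a b : chart A0 Mh h, b ≠ 0 ∧ m * (b : Mh) = (a : Mh))
    (num : A0[X]) (hnum : num.Monic) (a : ℕ) (ha0 : 0 < a) (ha : a < num.natDegree)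
    (h0 : IsUnit (num.coeff 0)) (hrel : algebraMap Mj Mh j * h ^ a = aeval h num)
    (Critf : Finset A0) (h2 : H2Hyp A0 Mj F' j π) (h3f : H3Hyp A0 Mh F' h π Critf)
    (ϖ : integralClosure (chart A0 Mh h) F') (hϖE : (ϖ : F') = algebraMap A0 F' π)
    (hprime : Prime ϖ)
    (n : Ideal (integralClosure (chart A0 Mh h) F')) (hn : n.IsMaximal) (hϖn : ϖ ∈ n) :
    ∃ s ∈ n, ∀ x ∈ n, ∃ w, w ∉ n ∧ w * x ∈ Ideal.span {ϖ, s} := by
  have hczj : CharZero Mj := NormalH.charZero_line Mj π hπ hchar j hj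
  have hczh : CharZero Mh := charZero_of_injective_algebraMap (algebraMap Mj Mh).injective
  have hh : Transcendental A0 h :=
    BaseLineRel.transcendental_root Mj Mh j hj h num a ha0 h0 hrel
  have hfinMh : FiniteDimensional Mh F' := FiniteDimensional.right Mj Mh F'
  have hsep : Algebra.IsSeparable Mh F' := inferInstance
  exact FibreGen.exists_local_gen_chart Mh F' π hπ h hh hgenh ϖ hϖE hprime
    (fun x hx hint => NormalH.exists_lift_cover Mj Mh F' π hπ hchar j hj hgenj h hgenh num hnum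
      a ha0 ha h0 hrel Critf h2 h3f x hx hint) n hn hϖn

/-- **Fibre generator on the `h`-chart at infinity of a cover**, general relation. -/
theorem hmax_cover_inv (π : A0) (hπ : Irreducible π)
    (hchar : ∀ n : ℕ, n ≠ 0 → ∃ a : ℕ, (n : A0) ∣ π ^ a)
    (j : Mj) (hj : Transcendental A0 j)
    (hgenj : ∀ m : Mj, ∃ a b : chart A0 Mj j, b ≠ 0 ∧ m * (b : Mj) = (a : Mj))
    (h : Mh) (hgenh : ∀ m : Mh, ∃ a b : chart A0 Mh h, b ≠ 0 ∧ m * (b : Mh) = (a : Mh))
    (num : A0[X]) (hnum : num.Monic) (a : ℕ) (ha0 : 0 < a) (ha : a < num.natDegree)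
    (h0 : IsUnit (num.coeff 0)) (hrel : algebraMap Mj Mh j * h ^ a = aeval h num)
    (Criti : Finset A0) (h2 : H2Hyp A0 Mj F' j π) (h3i : H3Hyp A0 Mh F' h⁻¹ π Criti)
    (ϖ : integralClosure (chart A0 Mh h⁻¹) F') (hϖE : (ϖ : F') = algebraMap A0 F' π)
    (hprime : Prime ϖ)
    (n : Ideal (integralClosure (chart A0 Mh h⁻¹) F')) (hn : n.IsMaximal) (hϖn : ϖ ∈ n) :
    ∃ s ∈ n, ∀ x ∈ n, ∃ w, w ∉ n ∧ w * x ∈ Ideal.span {ϖ, s} := by
  have hczj : CharZero Mj := NormalH.charZero_line Mj π hπ hchar j hj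
  have hczh : CharZero Mh := charZero_of_injective_algebraMap (algebraMap Mj Mh).injective
  have hh : Transcendental A0 h :=
    BaseLineRel.transcendental_root Mj Mh j hj h num a ha0 h0 hrel
  have hh0 : h ≠ 0 := fun h' => hh (h' ▸ isAlgebraic_zero)
  have hfinMh : FiniteDimensional Mh F' := FiniteDimensional.right Mj Mh F'
  have hsep : Algebra.IsSeparable Mh F' := inferInstance
  exact FibreGen.exists_local_gen_chart Mh F' π hπ h⁻¹ (IntConst.transcendental_inv h hh)
    (ChartGlue.hgen_inv h hh0 hgenh) ϖ hϖE hprime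
    (fun x hx hint => NormalH.exists_lift_cover_inv Mj Mh F' π hπ hchar j hj hgenj h hgenh num
      hnum a ha0 ha h0 hrel Criti h2 h3i x hx hint) n hn hϖn

end Abstract

/-! ### The sealed carriers of `S18.Top23` -/

section Sealed

open Fermat.Agent.S18.Setup Fermat.Agent.S18.S24Export

open scoped IntermediateField

variable (K : Type*) [Field K] [Algebra K Qb] [Algebra ℚ K] [FiniteDimensional ℚ K]
  (N : ℕ) [NeZero N] (A : ValuationSubring Qb)
  (m0 : (FK K N)[X]) [Fact (Irreducible m0)] [Fact (Irreducible (m0.map (ιL K N)))]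

/-- the cover field is finite over the `h`-line, `X₀(2)`-cover (`j h² = (h + 256)³`). -/
theorem finiteDimensional_line3 (hm0 : m0.Monic)
    (hrelF : algebraMap (FK K N) (AdjoinRoot m0) (jF K N) * AdjoinRoot.root m0 ^ 2 =
      (AdjoinRoot.root m0 + 256) ^ 3) :
    FiniteDimensional (Line K (AdjoinRoot.root m0)) (AdjoinRoot m0) := by
  have hc : CharZero K := charZero_of_injective_algebraMap (algebraMap ℚ K).injective
  have : CharZero (AdjoinRoot m0) :=
    charZero_of_injective_algebraMap (algebraMap K (AdjoinRoot m0)).injective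
  have hmem : algebraMap (FK K N) (AdjoinRoot m0) (jF K N) ∈ K⟮AdjoinRoot.root m0⟯ :=
    H3SelfH.mem_adjoin_of_rel3 (K0 := K) (jF K N) (AdjoinRoot.root m0) hrelF
  letI := LineMap.algebraLine K (jF K N) (AdjoinRoot.root m0) hmem
  haveI : IsScalarTower K (Line K (jF K N)) (Line K (AdjoinRoot.root m0)) :=
    LineMap.isScalarTower_base K (jF K N) (AdjoinRoot.root m0) hmem
  haveI : IsScalarTower (Line K (jF K N)) (Line K (AdjoinRoot.root m0)) (AdjoinRoot m0) :=
    LineMap.isScalarTower_top K (jF K N) (AdjoinRoot.root m0) hmem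
  haveI : Module.Finite (FK K N) (AdjoinRoot m0) := hm0.finite_adjoinRoot
  haveI : FiniteDimensional (Line K (jF K N)) (AdjoinRoot m0) :=
    Module.Finite.trans (FK K N) (AdjoinRoot m0)
  exact FiniteDimensional.right (Line K (jF K N)) (Line K (AdjoinRoot.root m0)) (AdjoinRoot m0)

/-- the coordinate of the `h`-line is transcendental over `A₀`, `X₀(2)`-cover (`j h² = (h + 256)³`). -/
theorem transcendental_gen3
    (hrelF : algebraMap (FK K N) (AdjoinRoot m0) (jF K N) * AdjoinRoot.root m0 ^ 2 =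
      (AdjoinRoot.root m0 + 256) ^ 3) :
    Transcendental ↥(A0.down K A) (Line.gen K (AdjoinRoot.root m0)) := by
  have hc : CharZero K := charZero_of_injective_algebraMap (algebraMap ℚ K).injective
  have : CharZero (AdjoinRoot m0) :=
    charZero_of_injective_algebraMap (algebraMap K (AdjoinRoot m0)).injective
  exact Line.transcendental_gen_val _ (A0.down K A)
    (H3SelfH.transcendental_of_rel3 (jF K N) (transcendental_jF K N) (AdjoinRoot.root m0) hrelF)

/-- `C = integralClosure A₀[h^{±1}] F#` is Noetherian: `X₀(2)`-cover (`j h² = (h + 256)³`), finite chart `A₀[h]`. -/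
theorem isNoetherianRing_fin3 {ℓ : ℕ} (hℓ : ℓ.Prime) (hA : A.LiesOverPrime ℓ)
    (hm0 : m0.Monic)
    (hrelF : algebraMap (FK K N) (AdjoinRoot m0) (jF K N) * AdjoinRoot.root m0 ^ 2 =
      (AdjoinRoot.root m0 + 256) ^ 3) :
    IsNoetherianRing ↥(integralClosure (chart ↥(A0.down K A) (Line K (AdjoinRoot.root m0))
      (Line.gen K (AdjoinRoot.root m0))) (AdjoinRoot m0)) := by
  have hdvr : IsDiscreteValuationRing ↥(A0.down K A) := NormalJ.dvr K A hℓ hA
  have hc : CharZero K := charZero_of_injective_algebraMap (algebraMap ℚ K).injective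
  have hfd := finiteDimensional_line3 K N m0 hm0 hrelF
  have hgenh := LineGen.hgen_of_adjoin_eq_top (A0 := ↥(A0.down K A)) (K0 := K)
    (Line.gen K (AdjoinRoot.root m0)) (Line.adjoin_gen K (AdjoinRoot.root m0))
  have hsep : Algebra.IsSeparable (Line K (AdjoinRoot.root m0)) (AdjoinRoot m0) := inferInstance
  exact isNoetherianRing_chart (Line K (AdjoinRoot.root m0)) (AdjoinRoot m0)
    (Line.gen K (AdjoinRoot.root m0)) (transcendental_gen3 K N A m0 hrelF)
    hgenh

/-- **Fibre generator, `X₀(2)`-cover (`j h² = (h + 256)³`), finite chart `A₀[h]`**, sealed carriers: if `π` is prime in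
`C = integralClosure A₀[h^{±1}] F#`, every maximal ideal `n ∋ π` of `C` is generated, locally at
`n`, by `π` and one more element. -/
theorem hmax_fin3 {ℓ : ℕ} (hℓ : ℓ.Prime) (hℓN : ¬ ℓ ∣ N) (hℓ2 : ℓ ≠ 2)
    (hA : A.LiesOverPrime ℓ) (hm0 : m0.Monic)
    (hrelF : algebraMap (FK K N) (AdjoinRoot m0) (jF K N) * AdjoinRoot.root m0 ^ 2 =
      (AdjoinRoot.root m0 + 256) ^ 3)
    (π : ↥(A0.down K A)) (hπ : Irreducible π)
    (hmax : IsLocalRing.maximalIdeal ↥(A0.down K A) = Ideal.span {π})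
    (ϖ : integralClosure (chart ↥(A0.down K A) (Line K (AdjoinRoot.root m0))
      (Line.gen K (AdjoinRoot.root m0))) (AdjoinRoot m0))
    (hϖE : (ϖ : AdjoinRoot m0) = algebraMap ↥(A0.down K A) (AdjoinRoot m0) π)
    (hprime : Prime ϖ)
    (n : Ideal (integralClosure (chart ↥(A0.down K A) (Line K (AdjoinRoot.root m0))
      (Line.gen K (AdjoinRoot.root m0))) (AdjoinRoot m0)))
    (hn : n.IsMaximal) (hϖn : ϖ ∈ n) :
    ∃ s ∈ n, ∀ x ∈ n, ∃ w, w ∉ n ∧ w * x ∈ Ideal.span {ϖ, s} := by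
  have hdvr : IsDiscreteValuationRing ↥(A0.down K A) := NormalJ.dvr K A hℓ hA
  have hc : CharZero K := charZero_of_injective_algebraMap (algebraMap ℚ K).injective
  have hfd := finiteDimensional_line3 K N m0 hm0 hrelF
  have hgenh := LineGen.hgen_of_adjoin_eq_top (A0 := ↥(A0.down K A)) (K0 := K)
    (Line.gen K (AdjoinRoot.root m0)) (Line.adjoin_gen K (AdjoinRoot.root m0))
  have hsep : Algebra.IsSeparable (Line K (AdjoinRoot.root m0)) (AdjoinRoot m0) := inferInstance
  exact FibreGen.exists_local_gen_chart (Line K (AdjoinRoot.root m0)) (AdjoinRoot m0) π hπ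
    (Line.gen K (AdjoinRoot.root m0)) (transcendental_gen3 K N A m0 hrelF)
    hgenh ϖ hϖE hprime
    (fun x hx hint => NormalH.exists_lift_fin3 K N A m0 hℓ hℓN hℓ2 hA hm0 hrelF π hπ hmax x hx hint)
    n hn hϖn

/-- `C = integralClosure A₀[h^{±1}] F#` is Noetherian: `X₀(2)`-cover (`j h² = (h + 256)³`), chart at infinity `A₀[1/h]`. -/
theorem isNoetherianRing_inv3 {ℓ : ℕ} (hℓ : ℓ.Prime) (hA : A.LiesOverPrime ℓ)
    (hm0 : m0.Monic)
    (hrelF : algebraMap (FK K N) (AdjoinRoot m0) (jF K N) * AdjoinRoot.root m0 ^ 2 =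
      (AdjoinRoot.root m0 + 256) ^ 3) :
    IsNoetherianRing ↥(integralClosure (chart ↥(A0.down K A) (Line K (AdjoinRoot.root m0))
      (Line.gen K (AdjoinRoot.root m0))⁻¹) (AdjoinRoot m0)) := by
  have hdvr : IsDiscreteValuationRing ↥(A0.down K A) := NormalJ.dvr K A hℓ hA
  have hc : CharZero K := charZero_of_injective_algebraMap (algebraMap ℚ K).injective
  have hfd := finiteDimensional_line3 K N m0 hm0 hrelF
  have hgenh := LineGen.hgen_of_adjoin_eq_top (A0 := ↥(A0.down K A)) (K0 := K)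
    (Line.gen K (AdjoinRoot.root m0)) (Line.adjoin_gen K (AdjoinRoot.root m0))
  have hsep : Algebra.IsSeparable (Line K (AdjoinRoot.root m0)) (AdjoinRoot m0) := inferInstance
  exact isNoetherianRing_chart (Line K (AdjoinRoot.root m0)) (AdjoinRoot m0)
    (Line.gen K (AdjoinRoot.root m0))⁻¹ (IntConst.transcendental_inv _ (transcendental_gen3 K N A m0 hrelF))
    (ChartGlue.hgen_inv _ (fun h0 => transcendental_gen3 K N A m0 hrelF
      (h0 ▸ isAlgebraic_zero)) hgenh)

/-- **Fibre generator, `X₀(2)`-cover (`j h² = (h + 256)³`), chart at infinity `A₀[1/h]`**, sealed carriers: if `π` is prime in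
`C = integralClosure A₀[h^{±1}] F#`, every maximal ideal `n ∋ π` of `C` is generated, locally at
`n`, by `π` and one more element. -/
theorem hmax_inv3 {ℓ : ℕ} (hℓ : ℓ.Prime) (hℓN : ¬ ℓ ∣ N) (hℓ2 : ℓ ≠ 2)
    (hA : A.LiesOverPrime ℓ) (hm0 : m0.Monic)
    (hrelF : algebraMap (FK K N) (AdjoinRoot m0) (jF K N) * AdjoinRoot.root m0 ^ 2 =
      (AdjoinRoot.root m0 + 256) ^ 3)
    (π : ↥(A0.down K A)) (hπ : Irreducible π)
    (hmax : IsLocalRing.maximalIdeal ↥(A0.down K A) = Ideal.span {π})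
    (ϖ : integralClosure (chart ↥(A0.down K A) (Line K (AdjoinRoot.root m0))
      (Line.gen K (AdjoinRoot.root m0))⁻¹) (AdjoinRoot m0))
    (hϖE : (ϖ : AdjoinRoot m0) = algebraMap ↥(A0.down K A) (AdjoinRoot m0) π)
    (hprime : Prime ϖ)
    (n : Ideal (integralClosure (chart ↥(A0.down K A) (Line K (AdjoinRoot.root m0))
      (Line.gen K (AdjoinRoot.root m0))⁻¹) (AdjoinRoot m0)))
    (hn : n.IsMaximal) (hϖn : ϖ ∈ n) :
    ∃ s ∈ n, ∀ x ∈ n, ∃ w, w ∉ n ∧ w * x ∈ Ideal.span {ϖ, s} := by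
  have hdvr : IsDiscreteValuationRing ↥(A0.down K A) := NormalJ.dvr K A hℓ hA
  have hc : CharZero K := charZero_of_injective_algebraMap (algebraMap ℚ K).injective
  have hfd := finiteDimensional_line3 K N m0 hm0 hrelF
  have hgenh := LineGen.hgen_of_adjoin_eq_top (A0 := ↥(A0.down K A)) (K0 := K)
    (Line.gen K (AdjoinRoot.root m0)) (Line.adjoin_gen K (AdjoinRoot.root m0))
  have hsep : Algebra.IsSeparable (Line K (AdjoinRoot.root m0)) (AdjoinRoot m0) := inferInstance
  exact FibreGen.exists_local_gen_chart (Line K (AdjoinRoot.root m0)) (AdjoinRoot m0) π hπ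
    (Line.gen K (AdjoinRoot.root m0))⁻¹ (IntConst.transcendental_inv _ (transcendental_gen3 K N A m0 hrelF))
    (ChartGlue.hgen_inv _ (fun h0 => transcendental_gen3 K N A m0 hrelF
      (h0 ▸ isAlgebraic_zero)) hgenh) ϖ hϖE hprime
    (fun x hx hint => NormalH.exists_lift_inv3 K N A m0 hℓ hℓN hℓ2 hA hm0 hrelF π hπ hmax x hx hint)
    n hn hϖn

/-- the cover field is finite over the `h`-line, `X₀(3)`-cover (`j h = (h + 27)(h + 3)³`). -/
theorem finiteDimensional_line2 (hm0 : m0.Monic)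
    (hrelF : algebraMap (FK K N) (AdjoinRoot m0) (jF K N) * AdjoinRoot.root m0 =
      (AdjoinRoot.root m0 + 27) * (AdjoinRoot.root m0 + 3) ^ 3) :
    FiniteDimensional (Line K (AdjoinRoot.root m0)) (AdjoinRoot m0) := by
  have hc : CharZero K := charZero_of_injective_algebraMap (algebraMap ℚ K).injective
  have : CharZero (AdjoinRoot m0) :=
    charZero_of_injective_algebraMap (algebraMap K (AdjoinRoot m0)).injective
  have hmem : algebraMap (FK K N) (AdjoinRoot m0) (jF K N) ∈ K⟮AdjoinRoot.root m0⟯ :=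
    H3SelfH.mem_adjoin_of_rel2 (K0 := K) (jF K N) (AdjoinRoot.root m0) hrelF
  letI := LineMap.algebraLine K (jF K N) (AdjoinRoot.root m0) hmem
  haveI : IsScalarTower K (Line K (jF K N)) (Line K (AdjoinRoot.root m0)) :=
    LineMap.isScalarTower_base K (jF K N) (AdjoinRoot.root m0) hmem
  haveI : IsScalarTower (Line K (jF K N)) (Line K (AdjoinRoot.root m0)) (AdjoinRoot m0) :=
    LineMap.isScalarTower_top K (jF K N) (AdjoinRoot.root m0) hmem
  haveI : Module.Finite (FK K N) (AdjoinRoot m0) := hm0.finite_adjoinRoot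
  haveI : FiniteDimensional (Line K (jF K N)) (AdjoinRoot m0) :=
    Module.Finite.trans (FK K N) (AdjoinRoot m0)
  exact FiniteDimensional.right (Line K (jF K N)) (Line K (AdjoinRoot.root m0)) (AdjoinRoot m0)

/-- the coordinate of the `h`-line is transcendental over `A₀`, `X₀(3)`-cover (`j h = (h + 27)(h + 3)³`). -/
theorem transcendental_gen2
    (hrelF : algebraMap (FK K N) (AdjoinRoot m0) (jF K N) * AdjoinRoot.root m0 =
      (AdjoinRoot.root m0 + 27) * (AdjoinRoot.root m0 + 3) ^ 3) :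
    Transcendental ↥(A0.down K A) (Line.gen K (AdjoinRoot.root m0)) := by
  have hc : CharZero K := charZero_of_injective_algebraMap (algebraMap ℚ K).injective
  have : CharZero (AdjoinRoot m0) :=
    charZero_of_injective_algebraMap (algebraMap K (AdjoinRoot m0)).injective
  exact Line.transcendental_gen_val _ (A0.down K A)
    (H3SelfH.transcendental_of_rel2 (jF K N) (transcendental_jF K N) (AdjoinRoot.root m0) hrelF)

/-- `C = integralClosure A₀[h^{±1}] F#` is Noetherian: `X₀(3)`-cover (`j h = (h + 27)(h + 3)³`), finite chart `A₀[h]`. -/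
theorem isNoetherianRing_fin2 {ℓ : ℕ} (hℓ : ℓ.Prime) (hA : A.LiesOverPrime ℓ)
    (hm0 : m0.Monic)
    (hrelF : algebraMap (FK K N) (AdjoinRoot m0) (jF K N) * AdjoinRoot.root m0 =
      (AdjoinRoot.root m0 + 27) * (AdjoinRoot.root m0 + 3) ^ 3) :
    IsNoetherianRing ↥(integralClosure (chart ↥(A0.down K A) (Line K (AdjoinRoot.root m0))
      (Line.gen K (AdjoinRoot.root m0))) (AdjoinRoot m0)) := by
  have hdvr : IsDiscreteValuationRing ↥(A0.down K A) := NormalJ.dvr K A hℓ hA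
  have hc : CharZero K := charZero_of_injective_algebraMap (algebraMap ℚ K).injective
  have hfd := finiteDimensional_line2 K N m0 hm0 hrelF
  have hgenh := LineGen.hgen_of_adjoin_eq_top (A0 := ↥(A0.down K A)) (K0 := K)
    (Line.gen K (AdjoinRoot.root m0)) (Line.adjoin_gen K (AdjoinRoot.root m0))
  have hsep : Algebra.IsSeparable (Line K (AdjoinRoot.root m0)) (AdjoinRoot m0) := inferInstance
  exact isNoetherianRing_chart (Line K (AdjoinRoot.root m0)) (AdjoinRoot m0)
    (Line.gen K (AdjoinRoot.root m0)) (transcendental_gen2 K N A m0 hrelF)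
    hgenh

/-- **Fibre generator, `X₀(3)`-cover (`j h = (h + 27)(h + 3)³`), finite chart `A₀[h]`**, sealed carriers: if `π` is prime in
`C = integralClosure A₀[h^{±1}] F#`, every maximal ideal `n ∋ π` of `C` is generated, locally at
`n`, by `π` and one more element. -/
theorem hmax_fin2 {ℓ : ℕ} (hℓ : ℓ.Prime) (hℓN : ¬ ℓ ∣ N) (hℓ3 : ℓ ≠ 3)
    (hA : A.LiesOverPrime ℓ) (hm0 : m0.Monic)
    (hrelF : algebraMap (FK K N) (AdjoinRoot m0) (jF K N) * AdjoinRoot.root m0 =
      (AdjoinRoot.root m0 + 27) * (AdjoinRoot.root m0 + 3) ^ 3)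
    (π : ↥(A0.down K A)) (hπ : Irreducible π)
    (hmax : IsLocalRing.maximalIdeal ↥(A0.down K A) = Ideal.span {π})
    (ϖ : integralClosure (chart ↥(A0.down K A) (Line K (AdjoinRoot.root m0))
      (Line.gen K (AdjoinRoot.root m0))) (AdjoinRoot m0))
    (hϖE : (ϖ : AdjoinRoot m0) = algebraMap ↥(A0.down K A) (AdjoinRoot m0) π)
    (hprime : Prime ϖ)
    (n : Ideal (integralClosure (chart ↥(A0.down K A) (Line K (AdjoinRoot.root m0))
      (Line.gen K (AdjoinRoot.root m0))) (AdjoinRoot m0)))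
    (hn : n.IsMaximal) (hϖn : ϖ ∈ n) :
    ∃ s ∈ n, ∀ x ∈ n, ∃ w, w ∉ n ∧ w * x ∈ Ideal.span {ϖ, s} := by
  have hdvr : IsDiscreteValuationRing ↥(A0.down K A) := NormalJ.dvr K A hℓ hA
  have hc : CharZero K := charZero_of_injective_algebraMap (algebraMap ℚ K).injective
  have hfd := finiteDimensional_line2 K N m0 hm0 hrelF
  have hgenh := LineGen.hgen_of_adjoin_eq_top (A0 := ↥(A0.down K A)) (K0 := K)
    (Line.gen K (AdjoinRoot.root m0)) (Line.adjoin_gen K (AdjoinRoot.root m0))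
  have hsep : Algebra.IsSeparable (Line K (AdjoinRoot.root m0)) (AdjoinRoot m0) := inferInstance
  exact FibreGen.exists_local_gen_chart (Line K (AdjoinRoot.root m0)) (AdjoinRoot m0) π hπ
    (Line.gen K (AdjoinRoot.root m0)) (transcendental_gen2 K N A m0 hrelF)
    hgenh ϖ hϖE hprime
    (fun x hx hint => NormalH.exists_lift_fin2 K N A m0 hℓ hℓN hℓ3 hA hm0 hrelF π hπ hmax x hx hint)
    n hn hϖn

/-- `C = integralClosure A₀[h^{±1}] F#` is Noetherian: `X₀(3)`-cover (`j h = (h + 27)(h + 3)³`), chart at infinity `A₀[1/h]`. -/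
theorem isNoetherianRing_inv2 {ℓ : ℕ} (hℓ : ℓ.Prime) (hA : A.LiesOverPrime ℓ)
    (hm0 : m0.Monic)
    (hrelF : algebraMap (FK K N) (AdjoinRoot m0) (jF K N) * AdjoinRoot.root m0 =
      (AdjoinRoot.root m0 + 27) * (AdjoinRoot.root m0 + 3) ^ 3) :
    IsNoetherianRing ↥(integralClosure (chart ↥(A0.down K A) (Line K (AdjoinRoot.root m0))
      (Line.gen K (AdjoinRoot.root m0))⁻¹) (AdjoinRoot m0)) := by
  have hdvr : IsDiscreteValuationRing ↥(A0.down K A) := NormalJ.dvr K A hℓ hA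
  have hc : CharZero K := charZero_of_injective_algebraMap (algebraMap ℚ K).injective
  have hfd := finiteDimensional_line2 K N m0 hm0 hrelF
  have hgenh := LineGen.hgen_of_adjoin_eq_top (A0 := ↥(A0.down K A)) (K0 := K)
    (Line.gen K (AdjoinRoot.root m0)) (Line.adjoin_gen K (AdjoinRoot.root m0))
  have hsep : Algebra.IsSeparable (Line K (AdjoinRoot.root m0)) (AdjoinRoot m0) := inferInstance
  exact isNoetherianRing_chart (Line K (AdjoinRoot.root m0)) (AdjoinRoot m0)
    (Line.gen K (AdjoinRoot.root m0))⁻¹ (IntConst.transcendental_inv _ (transcendental_gen2 K N A m0 hrelF))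
    (ChartGlue.hgen_inv _ (fun h0 => transcendental_gen2 K N A m0 hrelF
      (h0 ▸ isAlgebraic_zero)) hgenh)

/-- **Fibre generator, `X₀(3)`-cover (`j h = (h + 27)(h + 3)³`), chart at infinity `A₀[1/h]`**, sealed carriers: if `π` is prime in
`C = integralClosure A₀[h^{±1}] F#`, every maximal ideal `n ∋ π` of `C` is generated, locally at
`n`, by `π` and one more element. -/
theorem hmax_inv2 {ℓ : ℕ} (hℓ : ℓ.Prime) (hℓN : ¬ ℓ ∣ N) (hℓ3 : ℓ ≠ 3)
    (hA : A.LiesOverPrime ℓ) (hm0 : m0.Monic)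
    (hrelF : algebraMap (FK K N) (AdjoinRoot m0) (jF K N) * AdjoinRoot.root m0 =
      (AdjoinRoot.root m0 + 27) * (AdjoinRoot.root m0 + 3) ^ 3)
    (π : ↥(A0.down K A)) (hπ : Irreducible π)
    (hmax : IsLocalRing.maximalIdeal ↥(A0.down K A) = Ideal.span {π})
    (ϖ : integralClosure (chart ↥(A0.down K A) (Line K (AdjoinRoot.root m0))
      (Line.gen K (AdjoinRoot.root m0))⁻¹) (AdjoinRoot m0))
    (hϖE : (ϖ : AdjoinRoot m0) = algebraMap ↥(A0.down K A) (AdjoinRoot m0) π)
    (hprime : Prime ϖ)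
    (n : Ideal (integralClosure (chart ↥(A0.down K A) (Line K (AdjoinRoot.root m0))
      (Line.gen K (AdjoinRoot.root m0))⁻¹) (AdjoinRoot m0)))
    (hn : n.IsMaximal) (hϖn : ϖ ∈ n) :
    ∃ s ∈ n, ∀ x ∈ n, ∃ w, w ∉ n ∧ w * x ∈ Ideal.span {ϖ, s} := by
  have hdvr : IsDiscreteValuationRing ↥(A0.down K A) := NormalJ.dvr K A hℓ hA
  have hc : CharZero K := charZero_of_injective_algebraMap (algebraMap ℚ K).injective
  have hfd := finiteDimensional_line2 K N m0 hm0 hrelF
  have hgenh := LineGen.hgen_of_adjoin_eq_top (A0 := ↥(A0.down K A)) (K0 := K)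
    (Line.gen K (AdjoinRoot.root m0)) (Line.adjoin_gen K (AdjoinRoot.root m0))
  have hsep : Algebra.IsSeparable (Line K (AdjoinRoot.root m0)) (AdjoinRoot m0) := inferInstance
  exact FibreGen.exists_local_gen_chart (Line K (AdjoinRoot.root m0)) (AdjoinRoot m0) π hπ
    (Line.gen K (AdjoinRoot.root m0))⁻¹ (IntConst.transcendental_inv _ (transcendental_gen2 K N A m0 hrelF))
    (ChartGlue.hgen_inv _ (fun h0 => transcendental_gen2 K N A m0 hrelF
      (h0 ▸ isAlgebraic_zero)) hgenh) ϖ hϖE hprime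
    (fun x hx hint => NormalH.exists_lift_inv2 K N A m0 hℓ hℓN hℓ3 hA hm0 hrelF π hπ hmax x hx hint)
    n hn hϖn

/-! ### The form consumed by `ZeroSum.exists_sub_mul_mem` (`ϖ = algebraMap A₀ C π`) -/

/-- `hmax_fin3` with `ϖ = algebraMap A₀ C π`. -/
theorem hmax_fin3' {ℓ : ℕ} (hℓ : ℓ.Prime) (hℓN : ¬ ℓ ∣ N) (hℓ2 : ℓ ≠ 2)
    (hA : A.LiesOverPrime ℓ) (hm0 : m0.Monic)
    (hrelF : algebraMap (FK K N) (AdjoinRoot m0) (jF K N) * AdjoinRoot.root m0 ^ 2 =
      (AdjoinRoot.root m0 + 256) ^ 3)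
    (π : ↥(A0.down K A)) (hπ : Irreducible π)
    (hmax : IsLocalRing.maximalIdeal ↥(A0.down K A) = Ideal.span {π})
    (hprime : Prime (algebraMap ↥(A0.down K A)
      ↥(integralClosure (chart ↥(A0.down K A) (Line K (AdjoinRoot.root m0))
      (Line.gen K (AdjoinRoot.root m0))) (AdjoinRoot m0)) π)) :
    ∀ n : Ideal ↥(integralClosure (chart ↥(A0.down K A) (Line K (AdjoinRoot.root m0))
      (Line.gen K (AdjoinRoot.root m0))) (AdjoinRoot m0)),
      n.IsMaximal → algebraMap ↥(A0.down K A)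
      ↥(integralClosure (chart ↥(A0.down K A) (Line K (AdjoinRoot.root m0))
      (Line.gen K (AdjoinRoot.root m0))) (AdjoinRoot m0)) π ∈ n →
      ∃ s ∈ n, ∀ x ∈ n, ∃ w, w ∉ n ∧ w * x ∈ Ideal.span {algebraMap ↥(A0.down K A)
      ↥(integralClosure (chart ↥(A0.down K A) (Line K (AdjoinRoot.root m0))
      (Line.gen K (AdjoinRoot.root m0))) (AdjoinRoot m0)) π, s} :=
  fun n hn hπn => hmax_fin3 K N A m0 hℓ hℓN hℓ2 hA hm0 hrelF π hπ hmax _ rfl hprime n hn hπn

/-- `hmax_inv3` with `ϖ = algebraMap A₀ C π`. -/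
theorem hmax_inv3' {ℓ : ℕ} (hℓ : ℓ.Prime) (hℓN : ¬ ℓ ∣ N) (hℓ2 : ℓ ≠ 2)
    (hA : A.LiesOverPrime ℓ) (hm0 : m0.Monic)
    (hrelF : algebraMap (FK K N) (AdjoinRoot m0) (jF K N) * AdjoinRoot.root m0 ^ 2 =
      (AdjoinRoot.root m0 + 256) ^ 3)
    (π : ↥(A0.down K A)) (hπ : Irreducible π)
    (hmax : IsLocalRing.maximalIdeal ↥(A0.down K A) = Ideal.span {π})
    (hprime : Prime (algebraMap ↥(A0.down K A)
      ↥(integralClosure (chart ↥(A0.down K A) (Line K (AdjoinRoot.root m0))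
      (Line.gen K (AdjoinRoot.root m0))⁻¹) (AdjoinRoot m0)) π)) :
    ∀ n : Ideal ↥(integralClosure (chart ↥(A0.down K A) (Line K (AdjoinRoot.root m0))
      (Line.gen K (AdjoinRoot.root m0))⁻¹) (AdjoinRoot m0)),
      n.IsMaximal → algebraMap ↥(A0.down K A)
      ↥(integralClosure (chart ↥(A0.down K A) (Line K (AdjoinRoot.root m0))
      (Line.gen K (AdjoinRoot.root m0))⁻¹) (AdjoinRoot m0)) π ∈ n →
      ∃ s ∈ n, ∀ x ∈ n, ∃ w, w ∉ n ∧ w * x ∈ Ideal.span {algebraMap ↥(A0.down K A)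
      ↥(integralClosure (chart ↥(A0.down K A) (Line K (AdjoinRoot.root m0))
      (Line.gen K (AdjoinRoot.root m0))⁻¹) (AdjoinRoot m0)) π, s} :=
  fun n hn hπn => hmax_inv3 K N A m0 hℓ hℓN hℓ2 hA hm0 hrelF π hπ hmax _ rfl hprime n hn hπn

/-- `hmax_fin2` with `ϖ = algebraMap A₀ C π`. -/
theorem hmax_fin2' {ℓ : ℕ} (hℓ : ℓ.Prime) (hℓN : ¬ ℓ ∣ N) (hℓ3 : ℓ ≠ 3)
    (hA : A.LiesOverPrime ℓ) (hm0 : m0.Monic)
    (hrelF : algebraMap (FK K N) (AdjoinRoot m0) (jF K N) * AdjoinRoot.root m0 =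
      (AdjoinRoot.root m0 + 27) * (AdjoinRoot.root m0 + 3) ^ 3)
    (π : ↥(A0.down K A)) (hπ : Irreducible π)
    (hmax : IsLocalRing.maximalIdeal ↥(A0.down K A) = Ideal.span {π})
    (hprime : Prime (algebraMap ↥(A0.down K A)
      ↥(integralClosure (chart ↥(A0.down K A) (Line K (AdjoinRoot.root m0))
      (Line.gen K (AdjoinRoot.root m0))) (AdjoinRoot m0)) π)) :
    ∀ n : Ideal ↥(integralClosure (chart ↥(A0.down K A) (Line K (AdjoinRoot.root m0))
      (Line.gen K (AdjoinRoot.root m0))) (AdjoinRoot m0)),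
      n.IsMaximal → algebraMap ↥(A0.down K A)
      ↥(integralClosure (chart ↥(A0.down K A) (Line K (AdjoinRoot.root m0))
      (Line.gen K (AdjoinRoot.root m0))) (AdjoinRoot m0)) π ∈ n →
      ∃ s ∈ n, ∀ x ∈ n, ∃ w, w ∉ n ∧ w * x ∈ Ideal.span {algebraMap ↥(A0.down K A)
      ↥(integralClosure (chart ↥(A0.down K A) (Line K (AdjoinRoot.root m0))
      (Line.gen K (AdjoinRoot.root m0))) (AdjoinRoot m0)) π, s} :=
  fun n hn hπn => hmax_fin2 K N A m0 hℓ hℓN hℓ3 hA hm0 hrelF π hπ hmax _ rfl hprime n hn hπn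

/-- `hmax_inv2` with `ϖ = algebraMap A₀ C π`. -/
theorem hmax_inv2' {ℓ : ℕ} (hℓ : ℓ.Prime) (hℓN : ¬ ℓ ∣ N) (hℓ3 : ℓ ≠ 3)
    (hA : A.LiesOverPrime ℓ) (hm0 : m0.Monic)
    (hrelF : algebraMap (FK K N) (AdjoinRoot m0) (jF K N) * AdjoinRoot.root m0 =
      (AdjoinRoot.root m0 + 27) * (AdjoinRoot.root m0 + 3) ^ 3)
    (π : ↥(A0.down K A)) (hπ : Irreducible π)
    (hmax : IsLocalRing.maximalIdeal ↥(A0.down K A) = Ideal.span {π})
    (hprime : Prime (algebraMap ↥(A0.down K A)
      ↥(integralClosure (chart ↥(A0.down K A) (Line K (AdjoinRoot.root m0))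
      (Line.gen K (AdjoinRoot.root m0))⁻¹) (AdjoinRoot m0)) π)) :
    ∀ n : Ideal ↥(integralClosure (chart ↥(A0.down K A) (Line K (AdjoinRoot.root m0))
      (Line.gen K (AdjoinRoot.root m0))⁻¹) (AdjoinRoot m0)),
      n.IsMaximal → algebraMap ↥(A0.down K A)
      ↥(integralClosure (chart ↥(A0.down K A) (Line K (AdjoinRoot.root m0))
      (Line.gen K (AdjoinRoot.root m0))⁻¹) (AdjoinRoot m0)) π ∈ n →
      ∃ s ∈ n, ∀ x ∈ n, ∃ w, w ∉ n ∧ w * x ∈ Ideal.span {algebraMap ↥(A0.down K A)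
      ↥(integralClosure (chart ↥(A0.down K A) (Line K (AdjoinRoot.root m0))
      (Line.gen K (AdjoinRoot.root m0))⁻¹) (AdjoinRoot m0)) π, s} :=
  fun n hn hπn => hmax_inv2 K N A m0 hℓ hℓN hℓ3 hA hm0 hrelF π hπ hmax _ rfl hprime n hn hπn

end Sealed

end Fermat.Agent.S37.FibreH
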