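import Mathlib
import Fermat.Prelude.Def_AlgebraicCurve_DivisorPushPull
import Fermat.Agent.S37.FibreConst
import Fermat.Agent.S37.NormValue
import Fermat.Agent.S37.CoverDefs
import Fermat.Agent.S37.RedBridge
import Fermat.Agent.S18.ResField

/-!
# S37 (c1), divisor form: the pull-back of a zero-sum divisor is zero-sum  (OWNER: helper16)

`K` algebraically closed of characteristic zero, `F ⊆ F'` a finite extension of function fields
over `K` all of whose places have degree one, `A` a valuation subring of `K` with infinite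
residue field, `t : F` a coordinate, `t' := algebraMap F F' t`.  In the vocabulary of
`CoverDefs` (`InA`, `SameChar`, `SameRed`):

* `SameRed.trans` : `SameRed A t` is an equivalence relation (`sameRedSetoid`);
* `sameRed_fibre_sum` : if `SameRed A t P₁ P₂` then for every place `w₀` of `F'` the places of
  the fibres of `P₁` and of `P₂` in the `SameRed A t'`-class of `w₀` have the same total
  ramification index (both charts; from `FibreConst.sum_ramificationIndex_eq` and
  `NormValue.ev_norm`);
* `sum_pullback_eq_zero` : if `E` is a divisor of `F` with `r_* E = 0` for a map `r` on places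
  finer than `SameRed A t`, then the pull-back `E# = Divisor.pullback F' E` has total mass zero
  on every set of places of `F'` which is a union of `SameRed A t'`-classes;
* `mapDomain_pullback_eq_zero` : the same as `r'_* E# = 0` for every `r'` coarser than
  `SameRed A t'`.
-/

set_option autoImplicit false

open AlgebraicCurve IsLocalRing

namespace Fermat.Agent.S37.FibreZero

open Fermat.Agent.S37.EvalGal Fermat.Agent.S37.EvalInt Fermat.Agent.S37.CoverDefs

/-! ### Pure combinatorics -/

/-- A finitely supported function with `r_* D = 0` has total mass zero on every union of fibres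
of `r`. -/
theorem sum_filter_eq_zero_of_mapDomain {X Y : Type*} (r : X → Y) (D : X →₀ ℤ)
    (hD : Finsupp.mapDomain r D = 0) (C : X → Prop) [DecidablePred C]
    (hC : ∀ x x', r x = r x' → (C x ↔ C x')) (S : Finset X) (hS : D.support ⊆ S) :
    ∑ x ∈ S.filter C, D x = 0 := by
  classical
  let c : Y → ℤ := fun y => if ∃ x, r x = y ∧ C x then 1 else 0
  have hc : ∀ x, c (r x) = if C x then 1 else 0 := by
    intro x
    by_cases h : C x
    · simp only [c, if_pos h]
      rw [if_pos ⟨x, rfl, h⟩]
    · simp only [c, if_neg h]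
      rw [if_neg]
      rintro ⟨x', hx', hC'⟩
      exact h ((hC x' x hx').mp hC')
  have h1 : ∑ x ∈ S.filter C, D x = ∑ x ∈ S, D x * c (r x) := by
    rw [Finset.sum_filter]
    refine Finset.sum_congr rfl fun x _ => ?_
    rw [hc]
    split_ifs <;> simp
  have h2 : ∑ x ∈ S, D x * c (r x) = ∑ x ∈ D.support, D x * c (r x) := by
    symm
    refine Finset.sum_subset hS fun x _ hx => ?_
    rw [Finsupp.notMem_support_iff.mp hx, zero_mul]
  have h3 : ∑ x ∈ D.support, D x * c (r x) = (Finsupp.mapDomain r D).sum fun y n => n * c y := by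
    rw [Finsupp.sum_mapDomain_index (h := fun y (n : ℤ) => n * c y)
      (fun y => zero_mul _) (fun y a b => add_mul _ _ _)]
    rfl
  rw [h1, h2, h3, hD, Finsupp.sum_zero_index]

section OneField

variable {K F : Type*} [Field K] [Field F] [Algebra K F]

/-- A place of degree one which is not on the chart of `t` is on the chart of `t⁻¹`. -/
theorem inA_inv_of_not_inA (A : ValuationSubring K) (P : Place K F) (hP : P.deg = 1) (t : F)
    (h : ¬ InA A P t) : InA A P t⁻¹ := by
  by_cases ht : t ∈ P.toValuationSubring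
  · have hval : t - algebraMap K F (ev P hP ⟨t, ht⟩) ∈ P.toValuationSubring.nonunits :=
      (sub_mem_nonunits_iff_ev P hP t ht _).mpr rfl
    have hcA : ev P hP ⟨t, ht⟩ ∉ A := fun hc => h ⟨⟨_, hc⟩, hval⟩
    have hc0 : ev P hP ⟨t, ht⟩ ≠ 0 := fun h0 => hcA (h0 ▸ A.zero_mem)
    have hcinv : (ev P hP ⟨t, ht⟩)⁻¹ ∈ A := (A.mem_or_inv_mem _).resolve_left hcA
    have hunit : IsUnit (⟨t, ht⟩ : ↥P.toValuationSubring) := by
      apply IsLocalRing.notMem_maximalIdeal.mp
      rw [← ker_ev P hP, RingHom.mem_ker]
      exact hc0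
    obtain ⟨y, hy⟩ := isUnit_iff_exists_inv.mp hunit
    have hy' : t * (y : F) = 1 := congrArg Subtype.val hy
    have hyt : (y : F) = t⁻¹ := eq_inv_of_mul_eq_one_right hy'
    have hevy : ev P hP y = (ev P hP ⟨t, ht⟩)⁻¹ := by
      apply eq_inv_of_mul_eq_one_right
      rw [← map_mul, hy, map_one]
    refine ⟨⟨_, hcinv⟩, ?_⟩
    have hmem : t⁻¹ ∈ P.toValuationSubring := hyt ▸ y.2
    refine (sub_mem_nonunits_iff_ev P hP t⁻¹ hmem _).mpr ?_
    have : (⟨t⁻¹, hmem⟩ : ↥P.toValuationSubring) = y := Subtype.ext hyt.symm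
    rw [this, hevy]
  · refine ⟨0, ?_⟩
    rw [ZeroMemClass.coe_zero, map_zero, sub_zero]
    refine (ValuationSubring.mem_nonunits_iff_or _).mpr (Or.inr ?_)
    rwa [inv_inv]

/-- transitivity of `SameChar` through a place of degree one on the chart. -/
theorem sameChar_trans {A : ValuationSubring K} {t : F} {P P' P'' : Place K F}
    (hP' : P'.deg = 1) (hin : InA A P' t) (h : SameChar A t P P') (h' : SameChar A t P' P'') :
    SameChar A t P P'' := by
  intro f hf a a'' ha ha''
  obtain ⟨a₀, ht⟩ := hin
  obtain ⟨a', ha'⟩ := exists_sub_mem_nonunits A P' t hP' a₀ ht hf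
  exact (h f hf a a' ha ha').trans (h' f hf a' a'' ha' ha'')

/-- transitivity of `SameRed` through a place of degree one. -/
theorem sameRed_trans {A : ValuationSubring K} {t : F} {P P' P'' : Place K F}
    (hP' : P'.deg = 1) (h : SameRed A t P P') (h' : SameRed A t P' P'') :
    SameRed A t P P'' := by
  rcases h with ⟨h1, h2, h3⟩ | ⟨h1, h2, h3⟩
  · rcases h' with ⟨_, k2, k3⟩ | ⟨k1, _, _⟩
    · exact Or.inl ⟨h1, k2, sameChar_trans hP' h2 h3 k3⟩
    · exact absurd h2 k1
  · rcases h' with ⟨k1, _, _⟩ | ⟨_, k2, k3⟩
    · exact absurd k1 h2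
    · exact Or.inr ⟨h1, k2, sameChar_trans hP' (inA_inv_of_not_inA A P' hP' t h2) h3 k3⟩

/-- `SameRed A t` as a setoid, when all places have degree one. -/
def sameRedSetoid (A : ValuationSubring K) (t : F) (hdeg : ∀ P : Place K F, P.deg = 1) :
    Setoid (Place K F) where
  r := SameRed A t
  iseqv := ⟨SameRed.refl A t, SameRed.symm, fun {_ P' _} h h' => sameRed_trans (hdeg P') h h'⟩

theorem sameRedSetoid_r (A : ValuationSubring K) (t : F) (hdeg : ∀ P : Place K F, P.deg = 1)
    (P P' : Place K F) : (sameRedSetoid A t hdeg).r P P' ↔ SameRed A t P P' := Iff.rfl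

end OneField

section Tower

variable {K F F' : Type*} [Field K] [Field F] [Field F'] [Algebra K F] [Algebra K F']
  [Algebra F F'] [IsScalarTower K F F']

theorem mem_nonunits_restrict_iff [Algebra.IsIntegral F F'] (w : Place K F') (x : F) :
    x ∈ (w.restrict F).toValuationSubring.nonunits ↔
      algebraMap F F' x ∈ w.toValuationSubring.nonunits := by
  rw [ValuationSubring.mem_nonunits_iff_or, ValuationSubring.mem_nonunits_iff_or,
    Place.restrict_toValuationSubring, ValuationSubring.mem_comap, map_inv₀, map_eq_zero]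

/-- `t` has a value in `A` at `w` iff it has one at the restriction of `w`. -/
theorem inA_algebraMap_iff [Algebra.IsIntegral F F'] (A : ValuationSubring K) (w : Place K F')
    (t : F) : InA A w (algebraMap F F' t) ↔ InA A (w.restrict F) t := by
  constructor
  · rintro ⟨a, ha⟩
    refine ⟨a, (mem_nonunits_restrict_iff w _).mpr ?_⟩
    rwa [map_sub, ← IsScalarTower.algebraMap_apply]
  · rintro ⟨a, ha⟩
    refine ⟨a, ?_⟩
    have := (mem_nonunits_restrict_iff w _).mp ha
    rwa [map_sub, ← IsScalarTower.algebraMap_apply] at this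

variable [IsAlgClosed K] [CharZero K] [FiniteDimensional F F'] [HasPrincipalDivisors K F']

/-- Fibre constancy on one chart (coordinate `s`), over the full fibres. -/
theorem chart_fibre_sum (A : ValuationSubring K) [Infinite (ResidueField ↥A)] (s : F)
    (hdeg : ∀ P : Place K F, P.deg = 1) (hdeg' : ∀ w : Place K F', w.deg = 1)
    (P₁ P₂ : Place K F) (h₁ : InA A P₁ s) (h₂ : InA A P₂ s) (h : SameChar A s P₁ P₂)
    (w₀ : Place K F') (hw₀ : InA A w₀ (algebraMap F F' s))
    [DecidablePred fun w : Place K F' => SameChar A (algebraMap F F' s) w w₀] :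
    ∑ w ∈ (P₁.fiber F').filter (fun w => SameChar A (algebraMap F F' s) w w₀),
        w.ramificationIndex F
      = ∑ w ∈ (P₂.fiber F').filter (fun w => SameChar A (algebraMap F F' s) w w₀),
        w.ramificationIndex F := by
  obtain ⟨a₁, ht₁⟩ := h₁
  obtain ⟨a₂, ht₂⟩ := h₂
  obtain ⟨a₀, hw₀t⟩ := hw₀
  exact FibreConst.sum_ramificationIndex_eq A s P₁ P₂ (hdeg P₁) (hdeg P₂) (P₁.fiber F')
    (P₂.fiber F') (fun w hw => Place.mem_fiber.mp hw) (fun w hw => Place.mem_fiber.mp hw)
    (fun w _ => hdeg' w) (fun w _ => hdeg' w) a₁ a₂ ht₁ ht₂ h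
    (fun g hg => NormValue.ev_norm P₁ (hdeg P₁) (P₁.fiber F') (fun w => Place.mem_fiber)
      (fun w _ => hdeg' w) g hg)
    (fun g hg => NormValue.ev_norm P₂ (hdeg P₂) (P₂.fiber F') (fun w => Place.mem_fiber)
      (fun w _ => hdeg' w) g hg)
    w₀ (hdeg' w₀) a₀ hw₀t _ _ (fun w => Finset.mem_filter) (fun w => Finset.mem_filter)

/-- **Fibre constancy for `SameRed` (both charts).**  If `P₁`, `P₂` have the same reduction for
the coordinate `t`, then for every place `w₀` of `F'` the places over `P₁` and over `P₂` having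
the same reduction as `w₀` for the coordinate `algebraMap F F' t` have the same total
ramification index. -/
theorem sameRed_fibre_sum (A : ValuationSubring K) [Infinite (ResidueField ↥A)] (t : F)
    (hdeg : ∀ P : Place K F, P.deg = 1) (hdeg' : ∀ w : Place K F', w.deg = 1)
    (P₁ P₂ : Place K F) (h : SameRed A t P₁ P₂) (w₀ : Place K F')
    [DecidablePred fun w : Place K F' => SameRed A (algebraMap F F' t) w w₀] :
    ∑ w ∈ (P₁.fiber F').filter (fun w => SameRed A (algebraMap F F' t) w w₀),
        w.ramificationIndex F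
      = ∑ w ∈ (P₂.fiber F').filter (fun w => SameRed A (algebraMap F F' t) w w₀),
        w.ramificationIndex F := by
  classical
  have hfib : ∀ (P : Place K F) (w : Place K F'), w ∈ P.fiber F' →
      (InA A w (algebraMap F F' t) ↔ InA A P t) := by
    intro P w hw
    rw [inA_algebraMap_iff, Place.mem_fiber.mp hw]
  rcases h with ⟨h1, h2, h3⟩ | ⟨h1, h2, h3⟩
  · -- the chart of `t`
    by_cases hw₀ : InA A w₀ (algebraMap F F' t)
    · have key : ∀ (P : Place K F), InA A P t →
          (P.fiber F').filter (fun w => SameRed A (algebraMap F F' t) w w₀)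
            = (P.fiber F').filter (fun w => SameChar A (algebraMap F F' t) w w₀) := by
        intro P hP
        refine Finset.filter_congr fun w hw => ?_
        have hwin : InA A w (algebraMap F F' t) := (hfib P w hw).mpr hP
        constructor
        · rintro (⟨_, _, k⟩ | ⟨k, _, _⟩)
          · exact k
          · exact absurd hwin k
        · intro k
          exact Or.inl ⟨hwin, hw₀, k⟩
      rw [key P₁ h1, key P₂ h2]
      exact chart_fibre_sum A t hdeg hdeg' P₁ P₂ h1 h2 h3 w₀ hw₀
    · have key : ∀ (P : Place K F), InA A P t →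
          ∑ w ∈ (P.fiber F').filter (fun w => SameRed A (algebraMap F F' t) w w₀),
            w.ramificationIndex F = 0 := by
        intro P hP
        refine Finset.sum_eq_zero fun w hw => ?_
        rw [Finset.mem_filter] at hw
        rcases hw.2 with ⟨_, k, _⟩ | ⟨k, _, _⟩
        · exact absurd k hw₀
        · exact absurd ((hfib P w hw.1).mpr hP) k
      rw [key P₁ h1, key P₂ h2]
  · -- the chart of `t⁻¹`
    have hinv : algebraMap F F' t⁻¹ = (algebraMap F F' t)⁻¹ := map_inv₀ _ _
    by_cases hw₀ : InA A w₀ (algebraMap F F' t)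
    · have key : ∀ (P : Place K F), ¬ InA A P t →
          ∑ w ∈ (P.fiber F').filter (fun w => SameRed A (algebraMap F F' t) w w₀),
            w.ramificationIndex F = 0 := by
        intro P hP
        refine Finset.sum_eq_zero fun w hw => ?_
        rw [Finset.mem_filter] at hw
        rcases hw.2 with ⟨k, _, _⟩ | ⟨_, k, _⟩
        · exact absurd ((hfib P w hw.1).mp k) hP
        · exact absurd hw₀ k
      rw [key P₁ h1, key P₂ h2]
    · have key : ∀ (P : Place K F), ¬ InA A P t →
          (P.fiber F').filter (fun w => SameRed A (algebraMap F F' t) w w₀)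
            = (P.fiber F').filter (fun w => SameChar A (algebraMap F F' t⁻¹) w w₀) := by
        intro P hP
        refine Finset.filter_congr fun w hw => ?_
        have hwin : ¬ InA A w (algebraMap F F' t) := fun k => hP ((hfib P w hw).mp k)
        rw [hinv]
        constructor
        · rintro (⟨k, _, _⟩ | ⟨_, _, k⟩)
          · exact absurd k hwin
          · exact k
        · intro k
          exact Or.inr ⟨hwin, hw₀, k⟩
      rw [key P₁ h1, key P₂ h2]
      refine chart_fibre_sum A t⁻¹ hdeg hdeg' P₁ P₂
        (inA_inv_of_not_inA A P₁ (hdeg P₁) t h1) (inA_inv_of_not_inA A P₂ (hdeg P₂) t h2) h3 w₀ ?_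
      rw [hinv]
      exact inA_inv_of_not_inA A w₀ (hdeg' w₀) _ hw₀

/-- **(c1), quotient form**: the pull-back of a divisor which is zero-sum for `r` (finer than
`SameRed A t`) is zero-sum for the quotient map of `SameRed A t'`. -/
theorem mapDomain_mk_pullback_eq_zero (A : ValuationSubring K) [Infinite (ResidueField ↥A)]
    (t : F) (hdeg : ∀ P : Place K F, P.deg = 1) (hdeg' : ∀ w : Place K F', w.deg = 1)
    {Y : Type*} (r : Place K F → Y) (hr : ∀ P P', r P = r P' → SameRed A t P P')
    (E : Divisor K F) (hE : Finsupp.mapDomain r E = 0) :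
    Finsupp.mapDomain (Quotient.mk (sameRedSetoid A (algebraMap F F' t) hdeg'))
      (Divisor.pullback F' E) = 0 := by
  classical
  let m : Place K F → Divisor K F' := fun P =>
    ∑ w ∈ P.fiber F', Finsupp.single w (w.ramificationIndex F : ℤ)
  have hpb : Divisor.pullback F' E = E.sum fun P n => n • m P := by
    rw [Divisor.pullback, Finsupp.liftAddHom_apply]
    refine Finsupp.sum_congr fun P _ => ?_
    rw [Divisor.pullbackSingleHom_apply, Finset.smul_sum]
    refine Finset.sum_congr rfl fun w _ => ?_
    rw [Finsupp.smul_single, smul_eq_mul]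
  rw [hpb]
  refine FibreConst.mapDomain_sum_eq_zero r _ m ?_ E hE
  intro P₁ P₂ h12
  have hval : ∀ (P : Place K F) (w₀ : Place K F'),
      (Finsupp.mapDomain (Quotient.mk (sameRedSetoid A (algebraMap F F' t) hdeg')) (m P))
          (Quotient.mk (sameRedSetoid A (algebraMap F F' t) hdeg') w₀)
        = ((∑ w ∈ (P.fiber F').filter (fun w => SameRed A (algebraMap F F' t) w w₀),
            w.ramificationIndex F : ℕ) : ℤ) := by
    intro P w₀
    rw [Finsupp.mapDomain_finsetSum, Finsupp.finsetSum_apply, Nat.cast_sum, Finset.sum_filter]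
    refine Finset.sum_congr rfl fun w _ => ?_
    rw [Finsupp.mapDomain_single, Finsupp.single_apply]
    have hiff : (Quotient.mk (sameRedSetoid A (algebraMap F F' t) hdeg') w
          = Quotient.mk (sameRedSetoid A (algebraMap F F' t) hdeg') w₀) ↔
        SameRed A (algebraMap F F' t) w w₀ := Quotient.eq (r := sameRedSetoid _ _ hdeg')
    by_cases hw : SameRed A (algebraMap F F' t) w w₀
    · rw [if_pos (hiff.mpr hw), if_pos hw]
    · rw [if_neg (fun k => hw (hiff.mp k)), if_neg hw]
  ext y
  induction y using Quotient.ind with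
  | _ w₀ =>
    rw [hval P₁ w₀, hval P₂ w₀, sameRed_fibre_sum A t hdeg hdeg' P₁ P₂ (hr P₁ P₂ h12) w₀]

/-- **(c1), map form**: `r'_* E# = 0` for every `r'` coarser than `SameRed A t'`. -/
theorem mapDomain_pullback_eq_zero (A : ValuationSubring K) [Infinite (ResidueField ↥A)]
    (t : F) (hdeg : ∀ P : Place K F, P.deg = 1) (hdeg' : ∀ w : Place K F', w.deg = 1)
    {Y Y' : Type*} (r : Place K F → Y) (hr : ∀ P P', r P = r P' → SameRed A t P P')
    (r' : Place K F' → Y')
    (hr' : ∀ w w', SameRed A (algebraMap F F' t) w w' → r' w = r' w')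
    (E : Divisor K F) (hE : Finsupp.mapDomain r E = 0) :
    Finsupp.mapDomain r' (Divisor.pullback F' E) = 0 := by
  have h := mapDomain_mk_pullback_eq_zero (F' := F') A t hdeg hdeg' r hr E hE
  have hcomp : r' = (Quotient.lift r' (fun w w' (k : (sameRedSetoid A (algebraMap F F' t)
      hdeg').r w w') => hr' w w' k)) ∘ Quotient.mk (sameRedSetoid A (algebraMap F F' t) hdeg') :=
    rfl
  rw [hcomp, Finsupp.mapDomain_comp, h, Finsupp.mapDomain_zero]

/-- **(c1), sum form**: the pull-back `E#` of a divisor `E` which is zero-sum for `r` (finer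
than `SameRed A t`) has total mass zero on every set `C` of places of `F'` which is a union of
`SameRed A t'`-classes.  (`S` is any finite set of places containing the support of `E#`.) -/
theorem sum_pullback_eq_zero (A : ValuationSubring K) [Infinite (ResidueField ↥A)]
    (t : F) (hdeg : ∀ P : Place K F, P.deg = 1) (hdeg' : ∀ w : Place K F', w.deg = 1)
    {Y : Type*} (r : Place K F → Y) (hr : ∀ P P', r P = r P' → SameRed A t P P')
    (E : Divisor K F) (hE : Finsupp.mapDomain r E = 0)
    (C : Place K F' → Prop) [DecidablePred C]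
    (hC : ∀ w w', SameRed A (algebraMap F F' t) w w' → (C w ↔ C w'))
    (S : Finset (Place K F')) (hS : (Divisor.pullback F' E).support ⊆ S) :
    ∑ w ∈ S.filter C, Divisor.pullback F' E w = 0 :=
  sum_filter_eq_zero_of_mapDomain _ _
    (mapDomain_mk_pullback_eq_zero (F' := F') A t hdeg hdeg' r hr E hE) C
    (fun w w' k => hC w w' (Quotient.eq (r := sameRedSetoid _ _ hdeg') |>.mp k)) S hS

/-- **(c1), order form**: if `div f = q • E` with `r_* E = 0` (`r` finer than `SameRed A t`),
then the orders of `f` upstairs add up to zero over every union `C` of `SameRed A t'`-classes.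
(`S` is any finite set of places containing the zeros and poles of `f` in `C`.) -/
theorem sum_ord_eq_zero (A : ValuationSubring K) [Infinite (ResidueField ↥A)]
    (t : F) (hdeg : ∀ P : Place K F, P.deg = 1) (hdeg' : ∀ w : Place K F', w.deg = 1)
    {Y : Type*} (r : Place K F → Y) (hr : ∀ P P', r P = r P' → SameRed A t P P')
    (E : Divisor K F) (hE : Finsupp.mapDomain r E = 0)
    (f : F) (q : ℤ) (hord : ∀ P : Place K F, P.ord f = q * E P)
    (C : Place K F' → Prop) [DecidablePred C]
    (hC : ∀ w w', SameRed A (algebraMap F F' t) w w' → (C w ↔ C w'))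
    (S : Finset (Place K F')) (hS : ∀ w, C w → w.ord (algebraMap F F' f) ≠ 0 → w ∈ S) :
    ∑ w ∈ S.filter C, w.ord (algebraMap F F' f) = 0 := by
  classical
  have hw : ∀ w : Place K F', w.ord (algebraMap F F' f) = q * Divisor.pullback F' E w := by
    intro w
    rw [Place.ord_restrict, hord, Divisor.pullback_apply]
    ring
  have h0 := sum_pullback_eq_zero (F' := F') A t hdeg hdeg' r hr E hE C hC
    (S ∪ (Divisor.pullback F' E).support) Finset.subset_union_right
  have h1 : ∑ w ∈ S.filter C, w.ord (algebraMap F F' f)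
      = ∑ w ∈ (S ∪ (Divisor.pullback F' E).support).filter C, w.ord (algebraMap F F' f) := by
    refine Finset.sum_subset (Finset.filter_subset_filter _ Finset.subset_union_left) ?_
    intro w hw1 hw2
    by_contra hne
    rw [Finset.mem_filter] at hw1 hw2
    exact hw2 ⟨hS w hw1.2 hne, hw1.2⟩
  rw [h1, Finset.sum_congr rfl fun w _ => hw w, ← Finset.mul_sum, h0, mul_zero]

end Tower

/-! ### The `j`-line: `F = F_L(N)`, `r = RedPlace.r` -/

section JLine

open Fermat.Agent.S18.S24Export

local notation "Qb" => AlgebraicClosure ℚ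

variable (A : ValuationSubring Qb) (N : ℕ) [NeZero N]

/-- The fibres of the coarse reduction `RedPlace.r A N` are the `SameRed`-classes for the
coordinate `j`. -/
theorem r_eq_iff_sameRed (P P' : Place Qb (FL N)) :
    RedPlace.r A N P = RedPlace.r A N P' ↔ SameRed A (jL N) P P' :=
  RedBridge.r_eq_iff A N P P'

variable {F' : Type*} [Field F'] [Algebra Qb F'] [Algebra (FL N) F']
  [IsScalarTower Qb (FL N) F'] [FiniteDimensional (FL N) F'] [HasPrincipalDivisors Qb F']

/-- **(c1) on a cover of `X₀(N)`, divisor form.** -/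
theorem sum_pullback_eq_zero_of_r (hdeg' : ∀ w : Place Qb F', w.deg = 1)
    (E : Divisor Qb (FL N)) (hE : Finsupp.mapDomain (RedPlace.r A N) E = 0)
    (C : Place Qb F' → Prop) [DecidablePred C]
    (hC : ∀ w w', SameRed A (algebraMap (FL N) F' (jL N)) w w' → (C w ↔ C w'))
    (S : Finset (Place Qb F')) (hS : (Divisor.pullback F' E).support ⊆ S) :
    ∑ w ∈ S.filter C, Divisor.pullback F' E w = 0 :=
  haveI := Fermat.Agent.S18.ResField.infinite_of_isAlgClosed A
  sum_pullback_eq_zero A (jL N) (deg_eq_one N) hdeg' (RedPlace.r A N)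
    (fun P P' h => (r_eq_iff_sameRed A N P P').mp h) E hE C hC S hS

/-- **(c1) on a cover of `X₀(N)`, order form**: if `div f = q • E` and `r_* E = 0`, then the
orders of `f` on the cover add up to zero over every union `C` of `SameRed`-classes for the
coordinate `j`. -/
theorem sum_ord_eq_zero_of_r (hdeg' : ∀ w : Place Qb F', w.deg = 1)
    (E : Divisor Qb (FL N)) (hE : Finsupp.mapDomain (RedPlace.r A N) E = 0)
    (f : FL N) (q : ℤ) (hord : ∀ P : Place Qb (FL N), P.ord f = q * E P)
    (C : Place Qb F' → Prop) [DecidablePred C]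
    (hC : ∀ w w', SameRed A (algebraMap (FL N) F' (jL N)) w w' → (C w ↔ C w'))
    (S : Finset (Place Qb F')) (hS : ∀ w, C w → w.ord (algebraMap (FL N) F' f) ≠ 0 → w ∈ S) :
    ∑ w ∈ S.filter C, w.ord (algebraMap (FL N) F' f) = 0 :=
  haveI := Fermat.Agent.S18.ResField.infinite_of_isAlgClosed A
  sum_ord_eq_zero A (jL N) (deg_eq_one N) hdeg' (RedPlace.r A N)
    (fun P P' h => (r_eq_iff_sameRed A N P P').mp h) E hE f q hord C hC S hS

end JLine

end Fermat.Agent.S37.FibreZero
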