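import Mathlib
import Fermat.Prelude.Def_AlgebraicCurve_DivisorClassGroup
import Fermat.Agent.S24.FFDeg

/-!
# S37 (long shot), block (W2), leaf I5: the order function `ν = ord_Q ∘ red`

Carrier-generic, valid in every characteristic (the function field of the special fibre has
characteristic `ℓ`; neither separability nor finiteness of an integral closure is used).

* `exists_unit_of_relation`     : the "largest unit coefficient" trick of valuation theory;
* `exists_isIntegral_mul_of_pid`: a valuation ring `W` of `F` over a principal ideal domain `R₀`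
  is a localisation of the integral closure of `R₀` in `F`;
* `exists_isIntegral_mul`, `exists_isIntegral_ord_eq_one` : for a place `Q` of `F / k` at which
  `t` is regular, `O_Q` is a localisation of the integral closure of `k[t]`, and there is a
  uniformizer at `Q` integral over `k[t]`;
* `M`, `nu` and `nu_mul`, `mem_M_iff`, `nu_add_mul`, `map_mem_M`, `isMaximal_M`,
  `exists_nu_eq_one` : the closed point `M = {x | (ρ x)(Q) = 0}` of a ring `D` with a reduction
  map `ρ : D → F`, and the order function `ν x = ord_Q (ρ x)`, in the shape consumed by the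
  abstract local factorisation.
-/

set_option autoImplicit false

open AlgebraicCurve Polynomial

namespace Fermat.Agent.S37.NuOrd

section Core

variable {F : Type*} [Field F]

/-- **The largest unit coefficient trick.** If `∑_{i ≤ n} b i * x ^ i = 0` with `x` and all
`b i` in a valuation ring `W`, and some `b i` is a unit of `W`, then there is a unit `y` of `W`
such that `y` and `x * y` lie in every valuation ring containing all the `b i`. -/
theorem exists_unit_of_relation (W : ValuationSubring F) (x : F) (hx : x ∈ W) (n : ℕ)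
    (b : ℕ → F) (hb : ∀ i, b i ∈ W)
    (hrel : ∑ i ∈ Finset.range (n + 1), b i * x ^ i = 0)
    (hunit : ∃ i, i ≤ n ∧ b i ∉ W.nonunits) :
    ∃ y : F, y ∈ W ∧ y ∉ W.nonunits ∧
      ∀ W' : ValuationSubring F, (∀ i, b i ∈ W') → y ∈ W' ∧ x * y ∈ W' := by
  classical
  obtain ⟨i₀, hi₀, hi₀u⟩ := hunit
  set r := Nat.findGreatest (fun i => b i ∉ W.nonunits) n with hr
  have hrn : r ≤ n := Nat.findGreatest_le n
  have hru : b r ∉ W.nonunits := Nat.findGreatest_spec (P := fun i => b i ∉ W.nonunits) hi₀ hi₀u
  have hgt : ∀ i, r < i → i ≤ n → b i ∈ W.nonunits := by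
    intro i hri hin
    by_contra h
    exact Nat.findGreatest_is_greatest (P := fun i => b i ∉ W.nonunits) hri hin h
  set y : F := ∑ i ∈ Finset.range (n + 1 - r), b (r + i) * x ^ i with hy
  -- the relation, split at `r`
  have hsplit : ∑ j ∈ Finset.range r, b j * x ^ j + x ^ r * y = 0 := by
    have h1 : n + 1 = r + (n + 1 - r) := by omega
    rw [h1, Finset.sum_range_add] at hrel
    rw [hy, Finset.mul_sum]
    rw [← hrel]
    congr 1
    refine Finset.sum_congr rfl fun i _ => ?_
    rw [pow_add]; ring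
  have hyW : y ∈ W := by
    rw [hy]
    exact sum_mem fun i _ => mul_mem (hb _) (pow_mem hx _)
  refine ⟨y, hyW, ?_, ?_⟩
  · -- `y ≡ b r` modulo the maximal ideal
    intro hyn
    apply hru
    have h2 : n + 1 - r = (n - r) + 1 := by omega
    have h3 : y = (∑ i ∈ Finset.range (n - r), b (r + (i + 1)) * x ^ (i + 1)) + b r := by
      rw [hy, h2, Finset.sum_range_succ']
      simp
    have h4 : ∑ i ∈ Finset.range (n - r), b (r + (i + 1)) * x ^ (i + 1) ∈ W.nonunits := by
      rw [ValuationSubring.mem_nonunits_iff]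
      apply Valuation.map_sum_lt _ one_ne_zero
      intro i hi
      rw [Finset.mem_range] at hi
      have h5 : b (r + (i + 1)) ∈ W.nonunits := hgt _ (by omega) (by omega)
      rw [ValuationSubring.mem_nonunits_iff] at h5
      have h6 : W.valuation (x ^ (i + 1)) ≤ 1 :=
        (ValuationSubring.valuation_le_one_iff W _).mpr (pow_mem hx _)
      rw [map_mul]
      calc W.valuation (b (r + (i + 1))) * W.valuation (x ^ (i + 1))
          ≤ W.valuation (b (r + (i + 1))) * 1 := by gcongr
        _ < 1 := by rw [mul_one]; exact h5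
    have h7 : b r = y - ∑ i ∈ Finset.range (n - r), b (r + (i + 1)) * x ^ (i + 1) := by
      rw [h3]; ring
    rw [h7, ValuationSubring.mem_nonunits_iff]
    rw [ValuationSubring.mem_nonunits_iff] at hyn h4
    exact lt_of_le_of_lt (Valuation.map_sub _ _ _) (max_lt hyn h4)
  · intro W' hbW'
    by_cases hxW' : x ∈ W'
    · have hyW' : y ∈ W' := by
        rw [hy]
        exact sum_mem fun i _ => mul_mem (hbW' _) (pow_mem hxW' _)
      exact ⟨hyW', mul_mem hxW' hyW'⟩
    · have hx0 : x ≠ 0 := fun h => hxW' (h ▸ zero_mem _)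
      have hxi : x⁻¹ ∈ W' := (W'.mem_or_inv_mem x).resolve_left hxW'
      have hy' : y = -∑ j ∈ Finset.range r, b j * x⁻¹ ^ (r - j) := by
        have hsum : x ^ r * ∑ j ∈ Finset.range r, b j * x⁻¹ ^ (r - j) =
            ∑ j ∈ Finset.range r, b j * x ^ j := by
          rw [Finset.mul_sum]
          refine Finset.sum_congr rfl fun j hj => ?_
          rw [Finset.mem_range] at hj
          have h3 : x ^ r = x ^ j * x ^ (r - j) := by rw [← pow_add]; congr 1; omega
          rw [h3, inv_pow]
          field_simp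
        have h1 : x ^ r * y = x ^ r * (-∑ j ∈ Finset.range r, b j * x⁻¹ ^ (r - j)) := by
          rw [mul_neg, hsum]
          linear_combination hsplit
        exact mul_left_cancel₀ (pow_ne_zero r hx0) h1
      refine ⟨?_, ?_⟩
      · rw [hy']
        exact neg_mem (sum_mem fun j _ => mul_mem (hbW' _) (pow_mem hxi _))
      · have h4 : x * y = -∑ j ∈ Finset.range r, b j * x⁻¹ ^ (r - j - 1) := by
          rw [hy', mul_neg, Finset.mul_sum]
          congr 1
          refine Finset.sum_congr rfl fun j hj => ?_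
          rw [Finset.mem_range] at hj
          have h5 : r - j = (r - j - 1) + 1 := by omega
          conv_lhs => rw [h5, pow_succ]
          field_simp
        rw [h4]
        exact neg_mem (sum_mem fun j _ => mul_mem (hbW' _) (pow_mem hxi _))

end Core

section Integral

variable {F : Type*} [Field F] {R₀ : Type*} [CommRing R₀] [IsDomain R₀] [IsPrincipalIdealRing R₀]
  [Algebra R₀ F]

/-- **A valuation ring of `F` over a principal ideal domain `R₀` (with `F` algebraic over `R₀`)
is a localisation of the integral closure of `R₀`**: every `x ∈ W` is `(x * y) / y` with `y` and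
`x * y` integral over `R₀` and `y` a unit of `W`. No finiteness of the integral closure and no
separability is used. -/
theorem exists_isIntegral_mul_of_pid (hinj : Function.Injective (algebraMap R₀ F))
    (W : ValuationSubring F) (hW : ∀ r : R₀, algebraMap R₀ F r ∈ W)
    (x : F) (hx : x ∈ W) (hxalg : IsAlgebraic R₀ x) :
    ∃ y : F, IsIntegral R₀ y ∧ IsIntegral R₀ (x * y) ∧ y ∈ W ∧ y ∉ W.nonunits := by
  classical
  obtain ⟨p, hp0, hpx⟩ := hxalg
  -- the content of `p`
  obtain ⟨g, hg⟩ : ∃ g, Ideal.span (Set.range p.coeff) = Ideal.span {g} :=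
    ⟨_, (Submodule.IsPrincipal.span_singleton_generator
      (Ideal.span (Set.range p.coeff))).symm⟩
  have hcoeff : ∀ i, ∃ c, c * g = p.coeff i := fun i => by
    have h1 : p.coeff i ∈ Ideal.span (Set.range p.coeff) := Ideal.subset_span ⟨i, rfl⟩
    rw [hg] at h1
    exact Ideal.mem_span_singleton'.mp h1
  choose c hc using hcoeff
  have hg0 : g ≠ 0 := by
    rintro rfl
    apply hp0
    ext i
    rw [← hc i]
    simp
  have hgF : algebraMap R₀ F g ≠ 0 := fun h => hg0 (hinj (by rw [h, map_zero]))
  -- not all `c i` are non-units of `W`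
  have hex : ∃ i, algebraMap R₀ F (c i) ∉ W.nonunits := by
    by_contra hall
    push Not at hall
    let f : R₀ →+* ↥W := (algebraMap R₀ F).codRestrict W.toSubring hW
    let J : Ideal R₀ := Ideal.comap f (IsLocalRing.maximalIdeal ↥W)
    have hJ : ∀ r : R₀, r ∈ J ↔ algebraMap R₀ F r ∈ W.nonunits := by
      intro r
      rw [show algebraMap R₀ F r = ((f r : ↥W) : F) from rfl,
        ValuationSubring.coe_mem_nonunits_iff]
      exact Ideal.mem_comap
    have h1 : Ideal.span (Set.range p.coeff) ≤ Ideal.span {g} * Ideal.span (Set.range c) := by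
      rw [Ideal.span_le]
      rintro _ ⟨i, rfl⟩
      rw [← hc i, mul_comm (c i) g]
      exact Ideal.mul_mem_mul (Ideal.mem_span_singleton_self g) (Ideal.subset_span ⟨i, rfl⟩)
    have h2 : g ∈ Ideal.span (Set.range p.coeff) := by
      rw [hg]; exact Ideal.mem_span_singleton_self g
    obtain ⟨z, hz, hgz⟩ := Ideal.mem_span_singleton_mul.mp (h1 h2)
    have hz1 : z = 1 := by
      have h3 : g * z = g * 1 := by rw [hgz, mul_one]
      exact mul_left_cancel₀ hg0 h3
    have h3 : Ideal.span (Set.range c) ≤ J := by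
      rw [Ideal.span_le]
      rintro _ ⟨i, rfl⟩
      exact (hJ _).mpr (hall i)
    have h4 : (1 : R₀) ∈ J := hz1 ▸ h3 hz
    have h5 := (hJ 1).mp h4
    rw [map_one, ValuationSubring.mem_nonunits_iff, map_one] at h5
    exact lt_irrefl _ h5
  obtain ⟨i₀, hi₀⟩ := hex
  have hi₀n : i₀ ≤ p.natDegree := by
    by_contra hlt
    push Not at hlt
    have h1 : c i₀ * g = 0 := by rw [hc i₀]; exact Polynomial.coeff_eq_zero_of_natDegree_lt hlt
    have h2 : c i₀ = 0 := (mul_eq_zero.mp h1).resolve_right hg0
    apply hi₀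
    rw [h2, map_zero]
    exact zero_mem _
  -- the primitive relation
  have hrel : ∑ i ∈ Finset.range (p.natDegree + 1), algebraMap R₀ F (c i) * x ^ i = 0 := by
    have h1 : algebraMap R₀ F g *
        ∑ i ∈ Finset.range (p.natDegree + 1), algebraMap R₀ F (c i) * x ^ i = 0 := by
      rw [Finset.mul_sum, ← hpx, Polynomial.aeval_eq_sum_range]
      refine Finset.sum_congr rfl fun i _ => ?_
      rw [← hc i, Algebra.smul_def, map_mul]
      ring
    exact (mul_eq_zero.mp h1).resolve_left hgF
  obtain ⟨y, hyW, hyu, hall⟩ := exists_unit_of_relation W x hx p.natDegree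
    (fun i => algebraMap R₀ F (c i)) (fun i => hW _) hrel ⟨i₀, hi₀n, hi₀⟩
  have key : ∀ z : F, (∀ W' : ValuationSubring F, (∀ i, algebraMap R₀ F (c i) ∈ W') → z ∈ W') →
      IsIntegral R₀ z := by
    intro z hz
    by_contra hzi
    have hzi' : z ∉ (integralClosure R₀ F).toSubring := hzi
    obtain ⟨V, hV, hzV⟩ := Subring.exists_le_valuationSubring_of_isIntegrallyClosedIn hzi'
    exact hzV (hz V fun i => hV ((integralClosure R₀ F).algebraMap_mem _))
  exact ⟨y, key y fun W' h => (hall W' h).1, key (x * y) fun W' h => (hall W' h).2, hyW, hyu⟩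

end Integral

section Place

variable {k F : Type*} [Field k] [Field F] [Algebra k F]

theorem isPrincipalIdealRing_adjoin (t : F) :
    IsPrincipalIdealRing ↥(Algebra.adjoin k ({t} : Set F)) := by
  rw [Algebra.adjoin_singleton_eq_range_aeval]
  exact IsPrincipalIdealRing.of_surjective
    ((Polynomial.aeval t : Polynomial k →ₐ[k] F).rangeRestrict : Polynomial k →+* _)
    (Polynomial.aeval t : Polynomial k →ₐ[k] F).rangeRestrict_surjective

theorem algebraMap_adjoin_mem (W : ValuationSubring F) (hk : ∀ a : k, algebraMap k F a ∈ W)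
    (t : F) (ht : t ∈ W) (r : ↥(Algebra.adjoin k ({t} : Set F))) : (r : F) ∈ W := by
  have h1 : Algebra.adjoin k ({t} : Set F) ≤
      { W.toSubring with algebraMap_mem' := hk } := by
    apply Algebra.adjoin_le
    rintro _ rfl
    exact ht
  exact h1 r.2

/-- **The valuation ring of a place at which `t` is regular is a localisation of the integral
closure of `k[t]`** (any characteristic; `F` algebraic over `k[t]`). -/
theorem exists_isIntegral_mul (Q : Place k F) (t : F) (ht : t ∈ Q.toValuationSubring)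
    (x : F) (hx : x ∈ Q.toValuationSubring)
    (hxalg : IsAlgebraic ↥(Algebra.adjoin k ({t} : Set F)) x) :
    ∃ y : F, IsIntegral ↥(Algebra.adjoin k ({t} : Set F)) y ∧
      IsIntegral ↥(Algebra.adjoin k ({t} : Set F)) (x * y) ∧
      y ∈ Q.toValuationSubring ∧ y ∉ Q.toValuationSubring.nonunits := by
  have _ := isPrincipalIdealRing_adjoin (k := k) t
  exact exists_isIntegral_mul_of_pid Subtype.val_injective Q.toValuationSubring
    (fun r => algebraMap_adjoin_mem Q.toValuationSubring Q.algebraMap_mem' t ht r) x hx hxalg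

/-- **An integral uniformizer**: at a place `Q` at which `t` is regular there is an element
integral over `k[t]` of order one. -/
theorem exists_isIntegral_ord_eq_one (Q : Place k F) (t : F) (ht : t ∈ Q.toValuationSubring)
    (halg : ∀ x : F, IsAlgebraic ↥(Algebra.adjoin k ({t} : Set F)) x) :
    ∃ z : F, IsIntegral ↥(Algebra.adjoin k ({t} : Set F)) z ∧ Q.ord z = 1 := by
  obtain ⟨π, hπ⟩ := IsDiscreteValuationRing.exists_irreducible Q.toValuationSubring
  have hπ1 : Q.ord (π : F) = 1 := Q.ord_coe_irreducible hπ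
  obtain ⟨y, -, hxy, hyQ, hyu⟩ := exists_isIntegral_mul Q t ht (π : F) π.2 (halg _)
  refine ⟨(π : F) * y, hxy, ?_⟩
  have hπ0 : (π : F) ≠ 0 := fun h => hπ.ne_zero (Subtype.ext h)
  have hy0 : y ≠ 0 := fun h => hyu (h ▸ zero_mem _)
  have hyunit : IsUnit (⟨y, hyQ⟩ : ↥Q.toValuationSubring) := by
    by_contra hnu
    apply hyu
    have h1 : (⟨y, hyQ⟩ : ↥Q.toValuationSubring) ∈
        IsLocalRing.maximalIdeal ↥Q.toValuationSubring :=
      (IsLocalRing.mem_maximalIdeal _).mpr hnu
    exact (ValuationSubring.coe_mem_nonunits_iff (a := ⟨y, hyQ⟩)).mpr h1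
  have hy1 : Q.ord y = 0 := Q.ord_coe_unit hyunit.unit
  rw [Q.ord_mul hπ0 hy0, hπ1, hy1, add_zero]

/-- algebraicity over the field `k(t)` gives algebraicity over the ring `k[t]`. -/
theorem isAlgebraic_adjoin_of_field (t : F) {x : F} (hx : IsAlgebraic ↥(IntermediateField.adjoin k ({t} : Set F)) x) :
    IsAlgebraic ↥(Algebra.adjoin k ({t} : Set F)) x := by
  open scoped IntermediateField.algebraAdjoinAdjoin in
  exact (IsFractionRing.isAlgebraic_iff ↥(Algebra.adjoin k ({t} : Set F))
    ↥(IntermediateField.adjoin k ({t} : Set F)) F).mpr hx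

end Place

section Nu

variable {k F : Type*} [Field k] [Field F] [Algebra k F] (Q : Place k F)

/-- an element integral over `k[t]` is regular at every place at which `t` is regular. -/
theorem mem_of_isIntegral_adjoin (t : F) (ht : t ∈ Q.toValuationSubring) {z : F}
    (hz : IsIntegral ↥(Algebra.adjoin k ({t} : Set F)) z) : z ∈ Q.toValuationSubring := by
  let g : ↥(Algebra.adjoin k ({t} : Set F)) →+* ↥Q.toValuationSubring :=
    (algebraMap ↥(Algebra.adjoin k ({t} : Set F)) F).codRestrict Q.toValuationSubring.toSubring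
      (fun r => algebraMap_adjoin_mem Q.toValuationSubring Q.algebraMap_mem' t ht r)
  have h1 : ((Q.toValuationSubring.subtype).comp g).IsIntegralElem z := hz
  have h2 : (Q.toValuationSubring.subtype).IsIntegralElem z := RingHom.IsIntegralElem.of_comp h1
  have h3 : IsIntegral ↥Q.toValuationSubring z := h2
  obtain ⟨y, hy⟩ := IsIntegrallyClosed.isIntegral_iff.mp h3
  rw [← hy]
  exact y.2

theorem mem_nonunits_iff_ord_pos {f : F} (hf0 : f ≠ 0) :
    f ∈ Q.toValuationSubring.nonunits ↔ 0 < Q.ord f := by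
  rw [Fermat.Agent.S24.FFDeg.ord_pos_iff Q hf0]
  constructor
  · intro h hinv
    have h1 := (ValuationSubring.mem_nonunits_iff (A := Q.toValuationSubring)).mp h
    have h2 := (ValuationSubring.valuation_le_one_iff Q.toValuationSubring f⁻¹).mpr hinv
    rw [map_inv₀] at h2
    have h3 : Q.toValuationSubring.valuation f ≠ 0 := (Valuation.ne_zero_iff _).mpr hf0
    have h4 : (1 : _) ≤ Q.toValuationSubring.valuation f := by
      rwa [inv_le_one₀ (zero_lt_iff.mpr h3)] at h2
    exact absurd h1 (not_lt.mpr h4)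
  · intro hinv
    rw [ValuationSubring.mem_nonunits_iff]
    by_contra hlt
    push Not at hlt
    apply hinv
    rw [← ValuationSubring.valuation_le_one_iff, map_inv₀]
    exact inv_le_one_of_one_le₀ hlt

variable {A D : Type*} [CommRing A] [IsLocalRing A] [CommRing D]
  (ι : A →+* D) (ρ : D →+* F) (res : A →+* k)

/-- The closed point `Q` of the special fibre, as an ideal of `D`: the elements whose reduction
vanishes at `Q`. -/
def M (hQ : ∀ x, ρ x ∈ Q.toValuationSubring) : Ideal D :=
  Ideal.comap (ρ.codRestrict Q.toValuationSubring.toSubring hQ)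
    (IsLocalRing.maximalIdeal ↥Q.toValuationSubring)

theorem mem_M_iff_nonunits (hQ : ∀ x, ρ x ∈ Q.toValuationSubring) (x : D) :
    x ∈ M Q ρ hQ ↔ ρ x ∈ Q.toValuationSubring.nonunits := by
  rw [M, Ideal.mem_comap, ← ValuationSubring.coe_mem_nonunits_iff]
  rfl

/-- The order at `Q` of the reduction. -/
noncomputable def nu (x : D) : ℕ := (Q.ord (ρ x)).toNat

theorem ord_nonneg (hQ : ∀ x, ρ x ∈ Q.toValuationSubring) {x : D} (hx : ρ x ≠ 0) :
    0 ≤ Q.ord (ρ x) :=
  (Fermat.Agent.S24.FFDeg.ord_nonneg_iff Q hx).mpr (hQ x)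

theorem nu_mul (hQ : ∀ x, ρ x ∈ Q.toValuationSubring) {x y : D} (hx : ρ x ≠ 0) (hy : ρ y ≠ 0) :
    nu Q ρ (x * y) = nu Q ρ x + nu Q ρ y := by
  unfold nu
  rw [map_mul, Q.ord_mul hx hy, Int.toNat_add (ord_nonneg Q ρ hQ hx) (ord_nonneg Q ρ hQ hy)]

theorem mem_M_iff (hQ : ∀ x, ρ x ∈ Q.toValuationSubring) {y : D} (hy : ρ y ≠ 0) :
    y ∈ M Q ρ hQ ↔ 0 < nu Q ρ y := by
  rw [mem_M_iff_nonunits, mem_nonunits_iff_ord_pos Q hy]
  unfold nu
  omega

theorem nu_add_mul (hρι : ∀ c, ρ (ι c) = algebraMap k F (res c))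
    (hres : ∀ c ∈ IsLocalRing.maximalIdeal A, res c = 0) (x z : D) {c : A}
    (hc : c ∈ IsLocalRing.maximalIdeal A) : nu Q ρ (x + ι c * z) = nu Q ρ x := by
  unfold nu
  rw [map_add, map_mul, hρι, hres c hc, map_zero, zero_mul, add_zero]

theorem map_mem_M (hQ : ∀ x, ρ x ∈ Q.toValuationSubring)
    (hρι : ∀ c, ρ (ι c) = algebraMap k F (res c))
    (hres : ∀ c ∈ IsLocalRing.maximalIdeal A, res c = 0) {c : A}
    (hc : c ∈ IsLocalRing.maximalIdeal A) : ι c ∈ M Q ρ hQ := by
  rw [mem_M_iff_nonunits, hρι, hres c hc, map_zero]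
  exact zero_mem _

omit [IsLocalRing A] in
/-- `M` is a maximal ideal, if `Q` is a rational point (every regular function has a value in
`k`) and `res : A → k` is surjective. -/
theorem isMaximal_M (hQ : ∀ x, ρ x ∈ Q.toValuationSubring)
    (hρι : ∀ c, ρ (ι c) = algebraMap k F (res c)) (hsurj : Function.Surjective res)
    (hdeg : ∀ f ∈ Q.toValuationSubring, ∃ a : k,
      f - algebraMap k F a ∈ Q.toValuationSubring.nonunits) : (M Q ρ hQ).IsMaximal := by
  rw [Ideal.isMaximal_iff]
  refine ⟨?_, ?_⟩
  · rw [mem_M_iff_nonunits, map_one, ValuationSubring.mem_nonunits_iff, map_one]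
    exact lt_irrefl _
  · intro J x hMJ hxM hxJ
    obtain ⟨a, ha⟩ := hdeg (ρ x) (hQ x)
    have ha0 : a ≠ 0 := by
      rintro rfl
      apply hxM
      rw [mem_M_iff_nonunits]
      simpa using ha
    obtain ⟨c', hc'⟩ := hsurj a⁻¹
    have h1 : x * ι c' - 1 ∈ M Q ρ hQ := by
      rw [mem_M_iff_nonunits, map_sub, map_mul, map_one, hρι, hc']
      have h2 : ρ x * algebraMap k F a⁻¹ - 1 =
          algebraMap k F a⁻¹ * (ρ x - algebraMap k F a) := by
        have : algebraMap k F a⁻¹ * algebraMap k F a = 1 := by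
          rw [← map_mul, inv_mul_cancel₀ ha0, map_one]
        linear_combination this
      rw [h2]
      rw [ValuationSubring.mem_nonunits_iff] at ha ⊢
      rw [map_mul]
      have h3 : Q.toValuationSubring.valuation (algebraMap k F a⁻¹) ≤ 1 :=
        (ValuationSubring.valuation_le_one_iff _ _).mpr (Q.algebraMap_mem' _)
      calc Q.toValuationSubring.valuation (algebraMap k F a⁻¹) *
            Q.toValuationSubring.valuation (ρ x - algebraMap k F a)
          ≤ 1 * Q.toValuationSubring.valuation (ρ x - algebraMap k F a) := by gcongr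
        _ < 1 := by rw [one_mul]; exact ha
    have h4 : x * ι c' - (x * ι c' - 1) ∈ J := J.sub_mem (J.mul_mem_right _ hxJ) (hMJ h1)
    rwa [sub_sub_cancel] at h4

/-- **Existence of `s` with `ν s = 1`**, if the reduction `ρ` is onto the integral closure of
`k[t]` (normality of the special fibre) and `t` is regular at `Q`. -/
theorem exists_nu_eq_one (hQ : ∀ x, ρ x ∈ Q.toValuationSubring) (t : F)
    (ht : t ∈ Q.toValuationSubring)
    (halg : ∀ x : F, IsAlgebraic ↥(Algebra.adjoin k ({t} : Set F)) x)
    (hsurj : ∀ z : F, IsIntegral ↥(Algebra.adjoin k ({t} : Set F)) z → ∃ x : D, ρ x = z) :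
    ∃ s : D, Q.ord (ρ s) = 1 ∧ nu Q ρ s = 1 ∧ s ∈ M Q ρ hQ ∧ ρ s ≠ 0 := by
  obtain ⟨z, hz, hz1⟩ := exists_isIntegral_ord_eq_one Q t ht halg
  obtain ⟨s, rfl⟩ := hsurj z hz
  have hs0 : ρ s ≠ 0 := by
    intro h
    rw [h, Q.ord_zero] at hz1
    exact zero_ne_one hz1
  have hnu : nu Q ρ s = 1 := by
    unfold nu
    rw [hz1]
    rfl
  exact ⟨s, hz1, hnu, (mem_M_iff Q ρ hQ hs0).mpr (by rw [hnu]; exact one_pos), hs0⟩

end Nu

end Fermat.Agent.S37.NuOrd
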