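import Mathlib
import Fermat.Prelude.Def_AlgebraicCurve_DivisorClassGroup
import Fermat.Agent.S24.FFDeg
import Fermat.Agent.S37.NuOrd

/-!
# S37 (long shot), cover chain, leaf (U): rational places are unramified and unique

`K0 ⊆ L` fields, `F0 / K0` and `Ω / L` fields, `φ : F0 → Ω` compatible with the constants
(`F0` is the function field at a finite level `K0`, `Ω` the function field over `L = ℚ̄`).
A place `P` of `Ω / L` is *`K0`-rational along `φ`* if every `φ f` regular at `P` has a value in
`K0`; more generally `SameTrace φ P P'` says that `P` and `P'` induce the same valuation ring on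
`φ(F0)` with the same `K0`-valued evaluation.

* `ord_span_eq`       : an `L`-linear combination of `φ`-values has, at `P` and at `P'`, the order
                         of ONE `φ`-value (induction on the number of terms; no linear
                         independence is needed);
* `exists_ord_eq_one` : (U1) if `Ω` is generated over `L` by `φ(F0)`, a `K0`-rational place has
                         a uniformizer in `φ(F0)`;
* `eq_of_sameTrace`   : (U2) two places with the same trace on `φ(F0)` are equal.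
-/

set_option autoImplicit false

open AlgebraicCurve

namespace Fermat.Agent.S37.RatUnram

open Fermat.Agent.S37.NuOrd

section Nonunits

variable {Ω : Type*} [Field Ω]

theorem sum_mem_nonunits (W : ValuationSubring Ω) {ι : Type*} (s : Finset ι) (f : ι → Ω)
    (h : ∀ j ∈ s, f j ∈ W.nonunits) : ∑ j ∈ s, f j ∈ W.nonunits := by
  rw [ValuationSubring.mem_nonunits_iff]
  exact Valuation.map_sum_lt _ one_ne_zero fun j hj =>
    (ValuationSubring.mem_nonunits_iff (A := W)).mp (h j hj)

theorem mul_mem_nonunits (W : ValuationSubring Ω) {a b : Ω} (ha : a ∈ W) (hb : b ∈ W.nonunits) :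
    a * b ∈ W.nonunits := by
  rw [ValuationSubring.mem_nonunits_iff] at hb ⊢
  rw [map_mul]
  have h1 : W.valuation a ≤ 1 := (ValuationSubring.valuation_le_one_iff W a).mpr ha
  calc W.valuation a * W.valuation b ≤ 1 * W.valuation b := by gcongr
    _ < 1 := by rw [one_mul]; exact hb

theorem sub_mem_nonunits (W : ValuationSubring Ω) {a b : Ω} (ha : a ∈ W.nonunits)
    (hb : b ∈ W.nonunits) : a - b ∈ W.nonunits := by
  rw [ValuationSubring.mem_nonunits_iff] at ha hb ⊢
  exact lt_of_le_of_lt (Valuation.map_sub _ _ _) (max_lt ha hb)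

end Nonunits

variable {K0 L F0 Ω : Type*} [Field K0] [Field L] [Algebra K0 L] [Field F0] [Algebra K0 F0]
  [Field Ω] [Algebra L Ω]

/-- a function congruent to a nonzero constant modulo the maximal ideal has order zero. -/
theorem ord_eq_zero_of_sub_mem (P : Place L Ω) {u : Ω} {w : L} (hw : w ≠ 0)
    (h : u - algebraMap L Ω w ∈ P.toValuationSubring.nonunits) : P.ord u = 0 := by
  have hw0 : algebraMap L Ω w ≠ 0 := (map_ne_zero _).mpr hw
  have hwn : algebraMap L Ω w ∉ P.toValuationSubring.nonunits := by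
    rw [mem_nonunits_iff_ord_pos P hw0, Fermat.Agent.S24.FFDeg.ord_algebraMap]
    exact lt_irrefl _
  have hun : u ∉ P.toValuationSubring.nonunits := by
    intro hu
    apply hwn
    have := sub_mem_nonunits _ hu h
    rwa [sub_sub_cancel] at this
  have hu0 : u ≠ 0 := fun h0 => hun (h0 ▸ zero_mem _)
  have huW : u ∈ P.toValuationSubring := by
    have h1 := add_mem (ValuationSubring.nonunits_subset h) (P.algebraMap_mem' w)
    rwa [sub_add_cancel] at h1
  have h1 : 0 ≤ P.ord u := (Fermat.Agent.S24.FFDeg.ord_nonneg_iff P hu0).mpr huW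
  have h2 : ¬ 0 < P.ord u := fun hpos => hun ((mem_nonunits_iff_ord_pos P hu0).mpr hpos)
  omega

variable (φ : F0 →+* Ω)

/-- `P` and `P'` induce the same valuation ring on `φ(F0)`, and every `φ f` regular at `P` has
one value in `K0` at both places. `SameTrace φ P P` says that `P` is `K0`-rational along `φ`. -/
def SameTrace (P P' : Place L Ω) : Prop :=
  (∀ f : F0, φ f ∈ P.toValuationSubring ↔ φ f ∈ P'.toValuationSubring) ∧
  ∀ f : F0, φ f ∈ P.toValuationSubring → ∃ a : K0,
    φ f - algebraMap L Ω (algebraMap K0 L a) ∈ P.toValuationSubring.nonunits ∧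
    φ f - algebraMap L Ω (algebraMap K0 L a) ∈ P'.toValuationSubring.nonunits

variable {φ}

/-- **Key lemma**: a nonzero `L`-linear combination of `φ`-values has the order of a single
`φ`-value, at both places. -/
theorem ord_sum_eq (hφ : ∀ c : K0, φ (algebraMap K0 F0 c) = algebraMap L Ω (algebraMap K0 L c))
    {P P' : Place L Ω} (h : SameTrace (K0 := K0) φ P P') {ι : Type*} :
    ∀ (n : ℕ) (s : Finset ι) (c : ι → L) (x : ι → F0), s.card ≤ n →
      ∑ j ∈ s, algebraMap L Ω (c j) * φ (x j) ≠ 0 →
      ∃ x₀ : F0, x₀ ≠ 0 ∧ P.ord (∑ j ∈ s, algebraMap L Ω (c j) * φ (x j)) = P.ord (φ x₀) ∧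
        P'.ord (∑ j ∈ s, algebraMap L Ω (c j) * φ (x j)) = P'.ord (φ x₀) := by
  classical
  intro n
  induction n with
  | zero =>
    intro s c x hs hz
    exfalso
    apply hz
    rw [Finset.card_eq_zero.mp (Nat.le_zero.mp hs), Finset.sum_empty]
  | succ n ih =>
    intro s c x hs hz
    by_cases hx0 : ∃ j ∈ s, x j = 0
    · -- drop a vanishing term
      obtain ⟨j, hj, hxj⟩ := hx0
      have h1 : ∑ i ∈ s, algebraMap L Ω (c i) * φ (x i) =
          ∑ i ∈ s.erase j, algebraMap L Ω (c i) * φ (x i) := by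
        rw [← Finset.add_sum_erase s _ hj, hxj, map_zero, mul_zero, zero_add]
      rw [h1] at hz ⊢
      exact ih (s.erase j) c x (by rw [Finset.card_erase_of_mem hj]; omega) hz
    · push Not at hx0
      have hne : s.Nonempty := by
        rw [Finset.nonempty_iff_ne_empty]
        rintro rfl
        exact hz Finset.sum_empty
      obtain ⟨j0, hj0, hmin⟩ := Finset.exists_min_image s (fun j => P.ord (φ (x j))) hne
      have hxj0 : φ (x j0) ≠ 0 := (map_ne_zero φ).mpr (hx0 j0 hj0)
      -- the quotients are regular at `P`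
      have hreg : ∀ j ∈ s, φ (x j / x j0) ∈ P.toValuationSubring := by
        intro j hj
        have hxj : φ (x j) ≠ 0 := (map_ne_zero φ).mpr (hx0 j hj)
        have hq : φ (x j / x j0) ≠ 0 := (map_ne_zero φ).mpr (div_ne_zero (hx0 j hj) (hx0 j0 hj0))
        rw [← Fermat.Agent.S24.FFDeg.ord_nonneg_iff P hq, map_div₀, div_eq_mul_inv,
          P.ord_mul hxj (inv_ne_zero hxj0), P.ord_inv]
        have := hmin j hj
        omega
      have hval : ∀ j, ∃ a : K0, j ∈ s →
          (φ (x j / x j0) - algebraMap L Ω (algebraMap K0 L a) ∈ P.toValuationSubring.nonunits ∧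
          φ (x j / x j0) - algebraMap L Ω (algebraMap K0 L a) ∈
            P'.toValuationSubring.nonunits) := by
        intro j
        by_cases hj : j ∈ s
        · obtain ⟨a, ha⟩ := h.2 _ (hreg j hj)
          exact ⟨a, fun _ => ha⟩
        · exact ⟨0, fun hj' => absurd hj' hj⟩
      choose a' ha' using hval
      set a : ι → K0 := Function.update a' j0 1 with ha_def
      have ha : ∀ j ∈ s,
          (φ (x j / x j0) - algebraMap L Ω (algebraMap K0 L (a j)) ∈
            P.toValuationSubring.nonunits ∧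
          φ (x j / x j0) - algebraMap L Ω (algebraMap K0 L (a j)) ∈
            P'.toValuationSubring.nonunits) := by
        intro j hj
        by_cases hjj : j = j0
        · subst hjj
          have h1 : φ (x j / x j) - algebraMap L Ω (algebraMap K0 L (a j)) = 0 := by
            rw [ha_def, Function.update_self, div_self (hx0 j hj), map_one, map_one, map_one,
              sub_self]
          rw [h1]
          exact ⟨zero_mem _, zero_mem _⟩
        · rw [ha_def, Function.update_of_ne hjj]
          exact ha' j hj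
      set z : Ω := ∑ j ∈ s, algebraMap L Ω (c j) * φ (x j) with hz_def
      set w : L := ∑ j ∈ s, c j * algebraMap K0 L (a j) with hw_def
      -- `z / φ (x j0) ≡ w` modulo the maximal ideals
      have hcong : ∀ Q : Place L Ω, (∀ j ∈ s,
          φ (x j / x j0) - algebraMap L Ω (algebraMap K0 L (a j)) ∈
            Q.toValuationSubring.nonunits) →
          z * (φ (x j0))⁻¹ - algebraMap L Ω w ∈ Q.toValuationSubring.nonunits := by
        intro Q hQ
        have h1 : z * (φ (x j0))⁻¹ - algebraMap L Ω w =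
            ∑ j ∈ s, algebraMap L Ω (c j) *
              (φ (x j / x j0) - algebraMap L Ω (algebraMap K0 L (a j))) := by
          rw [hz_def, hw_def, map_sum, Finset.sum_mul, ← Finset.sum_sub_distrib]
          refine Finset.sum_congr rfl fun j _ => ?_
          rw [map_div₀, map_mul]
          ring
        rw [h1]
        exact sum_mem_nonunits _ _ _ fun j hj =>
          mul_mem_nonunits _ (Q.algebraMap_mem' _) (hQ j hj)
      by_cases hw : w = 0
      · -- rewrite `z` with one term less
        set x' : ι → F0 := fun j => x j - algebraMap K0 F0 (a j) * x j0 with hx'_def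
        have h1 : z = ∑ j ∈ s.erase j0, algebraMap L Ω (c j) * φ (x' j) := by
          have h2 : z = ∑ j ∈ s, algebraMap L Ω (c j) * φ (x' j) := by
            have h3 : ∑ j ∈ s, algebraMap L Ω (c j) * φ (x' j) =
                z - algebraMap L Ω w * φ (x j0) := by
              rw [hz_def, hw_def, map_sum, Finset.sum_mul, ← Finset.sum_sub_distrib]
              refine Finset.sum_congr rfl fun j _ => ?_
              rw [hx'_def]
              simp only [map_sub, map_mul, hφ]
              ring
            rw [h3, hw, map_zero, zero_mul, sub_zero]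
          rw [h2, ← Finset.add_sum_erase s _ hj0]
          have h4 : x' j0 = 0 := by
            rw [hx'_def]
            simp only [ha_def, Function.update_self, map_one, one_mul, sub_self]
          rw [h4, map_zero, mul_zero, zero_add]
        rw [h1] at hz ⊢
        exact ih (s.erase j0) c x' (by rw [Finset.card_erase_of_mem hj0]; omega) hz
      · refine ⟨x j0, hx0 j0 hj0, ?_, ?_⟩
        · have h1 := ord_eq_zero_of_sub_mem P hw (hcong P fun j hj => (ha j hj).1)
          rw [P.ord_mul hz (inv_ne_zero hxj0), P.ord_inv] at h1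
          omega
        · have h1 := ord_eq_zero_of_sub_mem P' hw (hcong P' fun j hj => (ha j hj).2)
          rw [P'.ord_mul hz (inv_ne_zero hxj0), P'.ord_inv] at h1
          omega

/-- the key lemma for elements of the `L`-span of `φ(F0)`. -/
theorem ord_span_eq (hφ : ∀ c : K0, φ (algebraMap K0 F0 c) = algebraMap L Ω (algebraMap K0 L c))
    {P P' : Place L Ω} (h : SameTrace (K0 := K0) φ P P') {z : Ω}
    (hz : z ∈ Submodule.span L (Set.range φ)) (hz0 : z ≠ 0) :
    ∃ x₀ : F0, x₀ ≠ 0 ∧ P.ord z = P.ord (φ x₀) ∧ P'.ord z = P'.ord (φ x₀) := by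
  obtain ⟨c, rfl⟩ := (Finsupp.mem_span_range_iff_exists_finsupp).mp hz
  have h1 : (c.sum fun i a => a • φ i) = ∑ j ∈ c.support, algebraMap L Ω (c j) * φ (id j) := by
    rw [Finsupp.sum]
    refine Finset.sum_congr rfl fun j _ => ?_
    rw [Algebra.smul_def]
    rfl
  rw [h1] at hz0 ⊢
  exact ord_sum_eq hφ h c.support.card c.support c id le_rfl hz0

/-- `Ω` is generated over `L` by `φ(F0)`: every element is a quotient of two `L`-linear
combinations of `φ`-values. -/
def Gen (L : Type*) {F0 Ω : Type*} [Field L] [Field F0] [Field Ω] [Algebra L Ω] (φ : F0 →+* Ω) :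
    Prop :=
  ∀ ω : Ω, ∃ n d : Ω, n ∈ Submodule.span L (Set.range φ) ∧ d ∈ Submodule.span L (Set.range φ) ∧
    d ≠ 0 ∧ ω * d = n

/-- the order at `P`, `P'` of any nonzero element is the order of a `φ`-value. -/
theorem ord_eq_of_gen (hφ : ∀ c : K0, φ (algebraMap K0 F0 c) = algebraMap L Ω (algebraMap K0 L c))
    {P P' : Place L Ω} (h : SameTrace (K0 := K0) φ P P') (hgen : Gen L φ) {ω : Ω} (hω : ω ≠ 0) :
    ∃ u : F0, u ≠ 0 ∧ P.ord ω = P.ord (φ u) ∧ P'.ord ω = P'.ord (φ u) := by
  obtain ⟨n, d, hn, hd, hd0, hωd⟩ := hgen ω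
  have hn0 : n ≠ 0 := by rw [← hωd]; exact mul_ne_zero hω hd0
  obtain ⟨x₁, hx₁, h1, h1'⟩ := ord_span_eq hφ h hn hn0
  obtain ⟨x₂, hx₂, h2, h2'⟩ := ord_span_eq hφ h hd hd0
  have hφ₁ : φ x₁ ≠ 0 := (map_ne_zero φ).mpr hx₁
  have hφ₂ : φ x₂ ≠ 0 := (map_ne_zero φ).mpr hx₂
  refine ⟨x₁ / x₂, div_ne_zero hx₁ hx₂, ?_, ?_⟩
  · have h3 : P.ord n = P.ord ω + P.ord d := by rw [← hωd, P.ord_mul hω hd0]
    rw [map_div₀, div_eq_mul_inv, P.ord_mul hφ₁ (inv_ne_zero hφ₂), P.ord_inv, ← h1, ← h2]
    omega
  · have h3 : P'.ord n = P'.ord ω + P'.ord d := by rw [← hωd, P'.ord_mul hω hd0]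
    rw [map_div₀, div_eq_mul_inv, P'.ord_mul hφ₁ (inv_ne_zero hφ₂), P'.ord_inv, ← h1', ← h2']
    omega

/-- **(U1): a `K0`-rational place is unramified over the finite level**: it has a uniformizer
in `φ(F0)`. -/
theorem exists_ord_eq_one
    (hφ : ∀ c : K0, φ (algebraMap K0 F0 c) = algebraMap L Ω (algebraMap K0 L c))
    {P : Place L Ω} (hrat : SameTrace (K0 := K0) φ P P) (hgen : Gen L φ) :
    ∃ u : F0, P.ord (φ u) = 1 := by
  obtain ⟨π, hπ⟩ := IsDiscreteValuationRing.exists_irreducible P.toValuationSubring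
  have hπ1 : P.ord (π : Ω) = 1 := P.ord_coe_irreducible hπ
  have hπ0 : (π : Ω) ≠ 0 := fun h => hπ.ne_zero (Subtype.ext h)
  obtain ⟨u, -, hu, -⟩ := ord_eq_of_gen hφ hrat hgen hπ0
  exact ⟨u, by rw [← hu, hπ1]⟩

/-- **(U2): a place is determined by its trace on `φ(F0)`**. -/
theorem eq_of_sameTrace
    (hφ : ∀ c : K0, φ (algebraMap K0 F0 c) = algebraMap L Ω (algebraMap K0 L c))
    {P P' : Place L Ω} (h : SameTrace (K0 := K0) φ P P') (hgen : Gen L φ) : P = P' := by
  apply Place.toValuationSubring_injective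
  ext ω
  by_cases hω : ω = 0
  · subst hω
    exact ⟨fun _ => zero_mem _, fun _ => zero_mem _⟩
  obtain ⟨u, hu0, hu, hu'⟩ := ord_eq_of_gen hφ h hgen hω
  have hφu : φ u ≠ 0 := (map_ne_zero φ).mpr hu0
  rw [← Fermat.Agent.S24.FFDeg.ord_nonneg_iff P hω, ← Fermat.Agent.S24.FFDeg.ord_nonneg_iff P' hω,
    hu, hu', Fermat.Agent.S24.FFDeg.ord_nonneg_iff P hφu,
    Fermat.Agent.S24.FFDeg.ord_nonneg_iff P' hφu]
  exact h.1 u

/-- `Gen` from: `Ω` is generated as a field over `L` by `φ(F0)`. -/
theorem gen_of_adjoin_eq_top (h : IntermediateField.adjoin L (Set.range φ) = ⊤) : Gen L φ := by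
  have hspan : ((Algebra.adjoin L (Set.range φ) : Subalgebra L Ω) : Set Ω) =
      (Submodule.span L (Set.range φ) : Set Ω) := by
    have h1 : (Algebra.adjoin L (Set.range φ)).toSubmodule =
        Submodule.span L (Submonoid.closure (Set.range φ) : Set Ω) := Algebra.adjoin_eq_span L _
    have h2 : (Submonoid.closure (Set.range φ) : Set Ω) = Set.range φ := by
      have : Set.range φ = ((MonoidHom.mrange (φ : F0 →* Ω) : Submonoid Ω) : Set Ω) := rfl
      rw [this, Submonoid.closure_eq]
    rw [h2] at h1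
    rw [← h1]
    rfl
  have hmem : ∀ y : Ω, y ∈ Algebra.adjoin L (Set.range φ) ↔
      y ∈ Submodule.span L (Set.range φ) := fun y => by
    rw [← SetLike.mem_coe, hspan, SetLike.mem_coe]
  intro ω
  have hω : ω ∈ IntermediateField.adjoin L (Set.range φ) := by rw [h]; trivial
  obtain ⟨r, hr, s, hs, rfl⟩ := IntermediateField.mem_adjoin_iff_div.mp hω
  by_cases hs0 : s = 0
  · refine ⟨0, 1, zero_mem _, (hmem 1).mp (one_mem _), one_ne_zero, ?_⟩
    rw [hs0, div_zero, zero_mul]
  · exact ⟨r, s, (hmem r).mp hr, (hmem s).mp hs, hs0, div_mul_cancel₀ r hs0⟩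

end Fermat.Agent.S37.RatUnram
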