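import Mathlib
import Fermat.Agent.S37.CoverDefs
import Fermat.Agent.S37.RatUnram

/-!
# S37 (long shot), cover chain: the sealed generation inputs of leaf (U)

`RatUnram.exists_ord_eq_one` / `RatUnram.eq_of_sameTrace` need `RatUnram.Gen L φ`, which follows
from `IntermediateField.adjoin L (Set.range φ) = ⊤`.  This file proves that hypothesis for

* the `j`-charts: `φ = ιL K N : F_K → F_L` (`adjoin_range_ιL`, `gen_ιL`);
* both covers: `φ = CoverDefs.phi N m m0 hmap : F_K[X]/(m0) → Ω = F_L[X]/(m)`
  (`adjoin_range_phi`, `gen_phi`), for every level `K` and every `m0` with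
  `m0.map (ιL K N) = m`.
-/

set_option autoImplicit false

noncomputable section

open Polynomial AlgebraicCurve ModularCurve

namespace Fermat.Agent.S37.GenCover

open Fermat.Agent.S18 Fermat.Agent.S18.Setup Fermat.Agent.S18.S24Export Fermat.Agent.S37.CoverDefs

local notation "Qb" => AlgebraicClosure ℚ

section JLine

variable (K : Type*) [Field K] [Algebra K Qb] (N : ℕ) [NeZero N]

/-- `F_L` is generated as a field over `ℚ̄` by the image of `F_K`. -/
theorem adjoin_range_ιL :
    IntermediateField.adjoin Qb (Set.range (ιL K N)) = ⊤ := by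
  rw [eq_top_iff]
  intro x _
  set T : IntermediateField Qb ↥(FL N) := IntermediateField.adjoin Qb (Set.range (ιL K N)) with hT
  have hFL : (FL N : IntermediateField Qb (LaurentSeries Qb)) =
      IntermediateField.adjoin Qb (divisorExpansionsC Qb N) := FieldDefQ.FL_eq N
  have hle : (FL N : IntermediateField Qb (LaurentSeries Qb)) ≤ IntermediateField.lift T := by
    refine le_of_eq_of_le hFL ?_
    rw [IntermediateField.adjoin_le_iff]
    rintro y ⟨d, hd, hdN, rfl⟩
    have hmem : qExpand K d (jqModC K) ∈ modularFunctionFieldFullC K N :=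
      jqModCd_mem_full K N hdN
    have h1 : ιL K N (FK.mk _ hmem) ∈ T :=
      IntermediateField.subset_adjoin Qb _ ⟨_, rfl⟩
    have h2 : ((ιL K N (FK.mk _ hmem) : ↥(FL N)) : LaurentSeries Qb) =
        qExpand Qb d (jqModC Qb) := by
      rw [coe_ιL, FK.val_mk, FieldDef.coeffMap_gen]
    rw [SetLike.mem_coe, ← h2]
    exact (IntermediateField.mem_lift _).mpr h1
  exact (IntermediateField.mem_lift x).mp (hle x.2)

/-- The `Gen` hypothesis of `RatUnram` for the `j`-charts. -/
theorem gen_ιL : RatUnram.Gen Qb (ιL K N) :=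
  RatUnram.gen_of_adjoin_eq_top (adjoin_range_ιL K N)

end JLine

section Cover

variable (N : ℕ) [NeZero N] (m : (FL N)[X]) [Fact (Irreducible m)]
  {K : Type*} [Field K] [Algebra K Qb] (m0 : (FK K N)[X])

/-- `Ω = F_L[X]/(m)` is generated as a field over `ℚ̄` by the image of `F_K[X]/(m0)`. -/
theorem adjoin_range_phi (hmap : m0.map (ιL K N) = m) :
    IntermediateField.adjoin Qb (Set.range (phi N m m0 hmap)) = ⊤ := by
  rw [eq_top_iff]
  intro z _
  set T : IntermediateField Qb (AdjoinRoot m) :=
    IntermediateField.adjoin Qb (Set.range (phi N m m0 hmap)) with hT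
  -- the elements of `F_L` lie in `T`
  have hof : ∀ y : ↥(FL N), AdjoinRoot.of m y ∈ T := by
    intro y
    let S : IntermediateField Qb ↥(FL N) :=
      T.comap (IsScalarTower.toAlgHom Qb ↥(FL N) (AdjoinRoot m))
    have hS : IntermediateField.adjoin Qb (Set.range (ιL K N)) ≤ S := by
      rw [IntermediateField.adjoin_le_iff]
      rintro _ ⟨x, rfl⟩
      show (IsScalarTower.toAlgHom Qb ↥(FL N) (AdjoinRoot m)) (ιL K N x) ∈ T
      have h1 : (IsScalarTower.toAlgHom Qb ↥(FL N) (AdjoinRoot m)) (ιL K N x) =
          phi N m m0 hmap (AdjoinRoot.of m0 x) := by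
        rw [phi_of]
        rfl
      rw [h1]
      exact IntermediateField.subset_adjoin Qb _ ⟨_, rfl⟩
    rw [adjoin_range_ιL K N] at hS
    have hy : y ∈ S := hS (IntermediateField.mem_top)
    exact hy
  have hroot : AdjoinRoot.root m ∈ T := by
    have h1 : AdjoinRoot.root m = phi N m m0 hmap (AdjoinRoot.root m0) := (phi_root N m m0 hmap).symm
    rw [h1]
    exact IntermediateField.subset_adjoin Qb _ ⟨_, rfl⟩
  induction z using AdjoinRoot.induction_on with
  | ih p =>
    rw [← AdjoinRoot.aeval_eq, Polynomial.aeval_eq_sum_range]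
    refine T.sum_mem fun i _ => ?_
    rw [Algebra.smul_def]
    exact T.mul_mem (hof _) (pow_mem hroot i)

/-- The `Gen` hypothesis of `RatUnram` for the covers. -/
theorem gen_phi [Fact (Irreducible m0)] (hmap : m0.map (ιL K N) = m) :
    RatUnram.Gen Qb (phi N m m0 hmap) :=
  RatUnram.gen_of_adjoin_eq_top (adjoin_range_phi N m m0 hmap)

end Cover

end Fermat.Agent.S37.GenCover
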