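import Mathlib
import Fermat.Agent.S18.ValExt

/-!
# S37, block (W2): from a horizontal prime to a place

Let `F0` be a field over `K0`, `φ : F0 → Ω` a homomorphism into a function field in one variable
over `L` (characteristic zero, `L` algebraic over `K0`), and `C` a subring of `F0`.  A nonzero
prime `𝔭` of `C` whose localisation contains the constants `K0` ("horizontal") is the centre of
a place `P` of `Ω / L`: `φ(C) ⊆ O_P` and `𝔭 = {c ∈ C | φ c ∈ m_P}`.

* `exists_valuationSubring_of_prime`: a valuation subring of the ambient field with centre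
  exactly a given prime of a subring (domination of the localisation; Mathlib).
* `exists_place_of_prime`: the place.
* `exists_place_of_prime_ord`: the same, with the order function: `0 < ord_P (φ c)` on `𝔭 \ {0}`,
  `ord_P (φ c) = 0` on `C \ 𝔭`.
* `exists_place_of_prime_of_base`: the horizontality hypothesis in the form `𝔭 ∩ A0 = 0` for a
  base ring `A0` with fraction field `K0`.
-/

set_option autoImplicit false

namespace Fermat.Agent.S37.PrimePlace

open AlgebraicCurve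
open scoped IntermediateField

section Val

variable {F0 : Type*} [Field F0]

/-- membership in the nonunits of a valuation subring, without valuations. -/
theorem mem_nonunits_iff_inv_notMem (W : ValuationSubring F0) (y : F0) :
    y ∈ W.nonunits ↔ y = 0 ∨ y⁻¹ ∉ W := by
  rw [ValuationSubring.mem_nonunits_iff]
  rcases eq_or_ne y 0 with rfl | hy
  · simp
  · simp only [hy, false_or]
    rw [← ValuationSubring.valuation_le_one_iff, map_inv₀, not_le]
    have h0 : W.valuation y ≠ 0 := (Valuation.ne_zero_iff _).mpr hy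
    rw [one_lt_inv₀ (zero_lt_iff.mpr h0)]

/-- an element of a valuation subring which is not a nonunit has its inverse in it. -/
theorem inv_mem_of_notMem_nonunits (W : ValuationSubring F0) {y : F0}
    (hy : y ∉ W.nonunits) : y⁻¹ ∈ W := by
  by_contra h
  exact hy ((mem_nonunits_iff_inv_notMem W y).mpr (Or.inr h))

/-- the nonunits of a comap. -/
theorem mem_nonunits_comap_iff {Ω : Type*} [Field Ω] (φ : F0 →+* Ω) (W' : ValuationSubring Ω)
    (y : F0) : y ∈ (W'.comap φ).nonunits ↔ φ y ∈ W'.nonunits := by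
  rw [mem_nonunits_iff_inv_notMem, mem_nonunits_iff_inv_notMem, ValuationSubring.mem_comap,
    map_inv₀, map_eq_zero]

/-- **A valuation subring with a prescribed centre.**  For a prime `𝔭` of a subring `C` of a
field there is a valuation subring `W ⊇ C` of the field with `𝔭 = C ∩ m_W`. -/
theorem exists_valuationSubring_of_prime (C : Subring F0) (𝔭 : Ideal C) [𝔭.IsPrime] :
    ∃ W : ValuationSubring F0, (∀ c : C, (c : F0) ∈ W) ∧
      ∀ c : C, (c ∈ 𝔭 ↔ (c : F0) ∈ W.nonunits) := by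
  obtain ⟨W, hle, hloc⟩ := (LocalSubring.ofPrime C 𝔭).exists_le_valuationSubring
  have hCW : ∀ c : C, (c : F0) ∈ W := fun c => hle (LocalSubring.le_ofPrime C 𝔭 c.2)
  refine ⟨W, hCW, fun c => ⟨fun hc => ?_, fun hc => ?_⟩⟩
  · -- `c ∈ 𝔭` is a nonunit of the localisation, hence of `W`
    have h1 : algebraMap C (LocalSubring.ofPrime C 𝔭).toSubring c ∈
        IsLocalRing.maximalIdeal (LocalSubring.ofPrime C 𝔭).toSubring :=
      (IsLocalization.AtPrime.to_map_mem_maximal_iff _ 𝔭 c).mpr hc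
    have h2 : ¬ IsUnit (Subring.inclusion hle
        (algebraMap C (LocalSubring.ofPrime C 𝔭).toSubring c)) := fun hu =>
      h1 (hloc.map_nonunit _ hu)
    rw [ValuationSubring.mem_nonunits_iff_exists_mem_maximalIdeal]
    exact ⟨hCW c, h2⟩
  · by_contra hcn
    have h1 : IsUnit (algebraMap C (LocalSubring.ofPrime C 𝔭).toSubring c) :=
      IsLocalization.map_units (M := 𝔭.primeCompl) _ ⟨c, hcn⟩
    have h2 : IsUnit (Subring.inclusion hle
        (algebraMap C (LocalSubring.ofPrime C 𝔭).toSubring c)) := h1.map _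
    obtain ⟨hm, hmax⟩ := (ValuationSubring.mem_nonunits_iff_exists_mem_maximalIdeal).mp hc
    exact hmax h2

end Val

section Place

variable {K0 L F0 Ω : Type*} [Field K0] [Field L] [CharZero L] [Algebra K0 L]
  [Algebra.IsAlgebraic K0 L] [Field F0] [Algebra K0 F0] [Field Ω] [Algebra L Ω]

/-- **From a horizontal prime to a place.**  `φ(C) ⊆ O_P` and `𝔭 = {c | φ c ∈ m_P}`. -/
theorem exists_place_of_prime (φ : F0 →+* Ω)
    (hφ : ∀ c : K0, φ (algebraMap K0 F0 c) = algebraMap L Ω (algebraMap K0 L c))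
    (x : Ω) (hx : Transcendental L x) [FiniteDimensional L⟮x⟯ Ω]
    (C : Subring F0) (𝔭 : Ideal C) [𝔭.IsPrime] (h𝔭 : 𝔭 ≠ ⊥)
    (hK : ∀ c : K0, ∃ s d : C, s ∉ 𝔭 ∧ algebraMap K0 F0 c * (s : F0) = (d : F0)) :
    ∃ P : Place L Ω, (∀ c : C, φ c ∈ P.toValuationSubring) ∧
      ∀ c : C, (c ∈ 𝔭 ↔ φ c ∈ P.toValuationSubring.nonunits) := by
  obtain ⟨W, hCW, hW𝔭⟩ := exists_valuationSubring_of_prime C 𝔭
  -- the constants lie in `W`
  have hK0 : ∀ c : K0, algebraMap K0 F0 c ∈ W := by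
    intro c
    obtain ⟨s, d, hs, hcs⟩ := hK c
    have hs0 : (s : F0) ≠ 0 := by
      intro h0
      apply hs
      have : s = 0 := Subtype.ext h0
      rw [this]
      exact 𝔭.zero_mem
    have hsinv : (s : F0)⁻¹ ∈ W :=
      inv_mem_of_notMem_nonunits W (fun h => hs ((hW𝔭 s).mpr h))
    have : algebraMap K0 F0 c = (d : F0) * (s : F0)⁻¹ := by
      rw [← hcs, mul_assoc, mul_inv_cancel₀ hs0, mul_one]
    rw [this]
    exact W.mul_mem _ _ (hCW d) hsinv
  -- `W` is not the whole field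
  have hW : W ≠ ⊤ := by
    intro htop
    obtain ⟨a, ha, ha0⟩ := Submodule.exists_mem_ne_zero_of_ne_bot h𝔭
    have h1 := (hW𝔭 a).mp ha
    rw [mem_nonunits_iff_inv_notMem] at h1
    rcases h1 with h1 | h1
    · exact ha0 (Subtype.ext h1)
    · exact h1 (by rw [htop]; exact ValuationSubring.mem_top _)
  -- extend to `Ω`
  obtain ⟨W', hW'⟩ := Fermat.Agent.S18.ValExt.exists_comap_eq φ W
  have hLW' : ∀ c : L, algebraMap L Ω c ∈ W' := by
    intro c
    have hc : IsIntegral K0 c := Algebra.IsIntegral.isIntegral c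
    obtain ⟨p, hp, hpc⟩ := hc
    refine Fermat.Agent.S18.ValExt.mem_of_isIntegralElem W'
      ((algebraMap L Ω).comp (algebraMap K0 L)) (fun r => ?_) ⟨p, hp, ?_⟩
    · rw [RingHom.comp_apply, ← hφ r]
      have hr : algebraMap K0 F0 r ∈ W'.comap φ := by rw [hW']; exact hK0 r
      exact hr
    · rw [← Polynomial.hom_eval₂, hpc, map_zero]
  have hW'top : W' ≠ ⊤ := by
    intro htop
    apply hW
    rw [← hW', htop]
    rfl
  obtain ⟨P, hP⟩ := Fermat.Agent.S18.ValExt.exists_place_eq (K := L) x hx W' hLW' hW'top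
  refine ⟨P, fun c => ?_, fun c => ?_⟩
  · rw [hP]
    have hc : (c : F0) ∈ W'.comap φ := by rw [hW']; exact hCW c
    exact hc
  · rw [hP, hW𝔭 c, ← hW', mem_nonunits_comap_iff]

/-- The same with the order function. -/
theorem exists_place_of_prime_ord (φ : F0 →+* Ω)
    (hφ : ∀ c : K0, φ (algebraMap K0 F0 c) = algebraMap L Ω (algebraMap K0 L c))
    (x : Ω) (hx : Transcendental L x) [FiniteDimensional L⟮x⟯ Ω]
    (C : Subring F0) (𝔭 : Ideal C) [𝔭.IsPrime] (h𝔭 : 𝔭 ≠ ⊥)
    (hK : ∀ c : K0, ∃ s d : C, s ∉ 𝔭 ∧ algebraMap K0 F0 c * (s : F0) = (d : F0)) :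
    ∃ P : Place L Ω, (∀ c : C, φ c ∈ P.toValuationSubring) ∧
      (∀ c : C, (c ∈ 𝔭 ↔ φ c ∈ P.toValuationSubring.nonunits)) ∧
      (∀ c : C, c ∈ 𝔭 → c ≠ 0 → 0 < P.ord (φ c)) ∧
      ∀ c : C, c ∉ 𝔭 → P.ord (φ c) = 0 := by
  obtain ⟨P, hP1, hP2⟩ := exists_place_of_prime φ hφ x hx C 𝔭 h𝔭 hK
  refine ⟨P, hP1, hP2, fun c hc hc0 => ?_, fun c hc => ?_⟩
  · have h1 := (hP2 c).mp hc
    rw [mem_nonunits_iff_inv_notMem] at h1
    have hφc : φ c ≠ 0 := by
      rw [Ne, map_eq_zero]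
      exact fun h => hc0 (Subtype.ext h)
    exact Fermat.Agent.S18.ValExt.ord_pos_of_mem P (hP1 c) (h1.resolve_left hφc)
  · have hφc : φ c ≠ 0 := by
      rw [Ne, map_eq_zero]
      intro h
      apply hc
      have : c = 0 := Subtype.ext h
      rw [this]
      exact 𝔭.zero_mem
    have h1 : φ c ∉ P.toValuationSubring.nonunits := fun h => hc ((hP2 c).mpr h)
    have hinv : (φ c)⁻¹ ∈ P.toValuationSubring := inv_mem_of_notMem_nonunits _ h1
    have h2 : 0 ≤ P.ord (φ c) :=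
      (Fermat.Agent.S24.Place.ord_nonneg_iff_mem P hφc).mpr (hP1 c)
    have h3 : 0 ≤ P.ord (φ c)⁻¹ :=
      (Fermat.Agent.S24.Place.ord_nonneg_iff_mem P (inv_ne_zero hφc)).mpr hinv
    rw [P.ord_inv] at h3
    omega

/-- **Horizontality over a base ring.**  If `C` contains the image of a ring `A0` with fraction
field `K0` and `𝔭 ∩ A0 = 0`, then `𝔭` is the centre of a place. -/
theorem exists_place_of_prime_of_base {A0 : Type*} [CommRing A0] [IsDomain A0] [Algebra A0 K0]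
    [IsFractionRing A0 K0] (φ : F0 →+* Ω)
    (hφ : ∀ c : K0, φ (algebraMap K0 F0 c) = algebraMap L Ω (algebraMap K0 L c))
    (x : Ω) (hx : Transcendental L x) [FiniteDimensional L⟮x⟯ Ω]
    (C : Subring F0) (hA0 : ∀ b : A0, algebraMap K0 F0 (algebraMap A0 K0 b) ∈ C)
    (𝔭 : Ideal C) [𝔭.IsPrime] (h𝔭 : 𝔭 ≠ ⊥)
    (h𝔭A : ∀ b : A0, b ≠ 0 → (⟨algebraMap K0 F0 (algebraMap A0 K0 b), hA0 b⟩ : C) ∉ 𝔭) :
    ∃ P : Place L Ω, (∀ c : C, φ c ∈ P.toValuationSubring) ∧
      (∀ c : C, (c ∈ 𝔭 ↔ φ c ∈ P.toValuationSubring.nonunits)) ∧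
      (∀ c : C, c ∈ 𝔭 → c ≠ 0 → 0 < P.ord (φ c)) ∧
      ∀ c : C, c ∉ 𝔭 → P.ord (φ c) = 0 := by
  refine exists_place_of_prime_ord φ hφ x hx C 𝔭 h𝔭 (fun c => ?_)
  obtain ⟨a, b, hb, rfl⟩ := IsFractionRing.div_surjective (A := A0) c
  have hb0 : b ≠ 0 := nonZeroDivisors.ne_zero hb
  refine ⟨⟨_, hA0 b⟩, ⟨_, hA0 a⟩, h𝔭A b hb0, ?_⟩
  have hbK : algebraMap A0 K0 b ≠ 0 := by
    rw [Ne, map_eq_zero_iff _ (IsFractionRing.injective A0 K0)]
    exact hb0
  show algebraMap K0 F0 (algebraMap A0 K0 a / algebraMap A0 K0 b) *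
    algebraMap K0 F0 (algebraMap A0 K0 b) = algebraMap K0 F0 (algebraMap A0 K0 a)
  rw [← map_mul, div_mul_cancel₀ _ hbK]

end Place

end Fermat.Agent.S37.PrimePlace
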