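import Mathlib

/-!
# S37 (long shot), block (W2): the two-dimensional local step, abstractly

Commutative algebra of a Noetherian local domain `R` (the local ring of the arithmetic surface at
a closed point `Q` of the special fibre), Mathlib only.

* `exists_minimalPrime_notMem` / `isUnit_of_forall_minimalPrimes` (unit criterion): for a prime
  element `π` and `a` not divisible by `π`, if `a` is not a unit then some minimal prime of `(a)`
  does not contain `π` (a "horizontal zero" of `a`).  This is Krull's Hauptidealsatz.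
* `ker_eq_span`: if the maximal ideal is `(π, s)` and `ev : R → A` is a ring homomorphism to a
  domain with `ev s = 0`, `ev π ≠ 0`, then `ker ev = (s)` (Krull's intersection theorem).
* `exists_eq_unit_mul_prod`: if the horizontal zeros of `a` are among finitely many principal
  primes `(s i)`, then `a = u * ∏ (s i) ^ (n i)` with `u` a unit.
-/

set_option autoImplicit false
set_option linter.style.haveILetI false

namespace Fermat.Agent.S37.LocalStep

section Unit

variable {R : Type*} [CommRing R] [IsDomain R] [IsNoetherianRing R]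

/-- **Unit criterion (horizontal zero).**  In a Noetherian domain, if `π` is prime, `π ∤ a` and
`a` is not a unit, then some minimal prime of `(a)` does not contain `π`. -/
theorem exists_minimalPrime_notMem {π a : R} (hπ : Prime π) (ha : ¬ π ∣ a) (hu : ¬ IsUnit a) :
    ∃ 𝔭 ∈ (Ideal.span {a}).minimalPrimes, π ∉ 𝔭 := by
  have hne : Ideal.span {a} ≠ ⊤ := by rwa [Ne, Ideal.span_singleton_eq_top]
  obtain ⟨M, hM, haM⟩ := Ideal.exists_le_maximal _ hne
  haveI := hM.isPrime
  obtain ⟨𝔭, h𝔭, -⟩ := Ideal.exists_minimalPrimes_le haM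
  refine ⟨𝔭, h𝔭, fun hπ𝔭 => ha ?_⟩
  haveI : 𝔭.IsPrime := h𝔭.1.1
  have hht : 𝔭.height ≤ 1 := Ideal.height_le_one_of_isPrincipal_of_mem_minimalPrimes _ 𝔭 h𝔭
  have ha0 : a ≠ 0 := fun h => ha (h ▸ dvd_zero π)
  have ha𝔭 : a ∈ 𝔭 := h𝔭.1.2 (Ideal.mem_span_singleton_self a)
  have h𝔭0 : 𝔭 ≠ ⊥ := by
    intro h
    rw [h] at ha𝔭
    exact ha0 ha𝔭
  have h1 : 𝔭.height = 1 := by
    refine le_antisymm hht ?_
    rw [Order.one_le_iff_pos, pos_iff_ne_zero, Ne, Ideal.height_eq_zero_iff_eq_bot]
    exact h𝔭0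
  rw [Ideal.eq_span_singleton_of_height_eq_one h1 hπ𝔭 hπ, Ideal.mem_span_singleton] at ha𝔭
  exact ha𝔭

/-- **Unit criterion.**  If every minimal prime of `(a)` contains the prime element `π` and
`π ∤ a`, then `a` is a unit. -/
theorem isUnit_of_forall_minimalPrimes {π a : R} (hπ : Prime π) (ha : ¬ π ∣ a)
    (h : ∀ 𝔭 ∈ (Ideal.span {a}).minimalPrimes, π ∈ 𝔭) : IsUnit a := by
  by_contra hu
  obtain ⟨𝔭, h𝔭, hn⟩ := exists_minimalPrime_notMem hπ ha hu
  exact hn (h 𝔭 h𝔭)

/-- A minimal prime of `(u)` is a minimal prime of `(a)` when `u ∣ a ≠ 0`. -/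
theorem mem_minimalPrimes_of_dvd {u a : R} (ha0 : a ≠ 0) (hua : u ∣ a) {𝔭 : Ideal R}
    (h𝔭 : 𝔭 ∈ (Ideal.span {u}).minimalPrimes) : 𝔭 ∈ (Ideal.span {a}).minimalPrimes := by
  haveI : 𝔭.IsPrime := h𝔭.1.1
  have hht : 𝔭.height ≤ 1 := Ideal.height_le_one_of_isPrincipal_of_mem_minimalPrimes _ 𝔭 h𝔭
  have hu𝔭 : u ∈ 𝔭 := h𝔭.1.2 (Ideal.mem_span_singleton_self u)
  have ha𝔭 : a ∈ 𝔭 := by
    obtain ⟨c, rfl⟩ := hua
    exact Ideal.mul_mem_right _ _ hu𝔭
  have hle : Ideal.span {a} ≤ 𝔭 := by
    rw [Ideal.span_le, Set.singleton_subset_iff]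
    exact ha𝔭
  refine Ideal.mem_minimalPrimes_of_height_le hle (hht.trans ?_)
  exact Ideal.one_le_height_span_singleton_of_mem_nonZeroDivisors
    (mem_nonZeroDivisors_of_ne_zero ha0)

/-- Stripping finitely many prime factors. -/
theorem exists_eq_mul_prod_of_primes {ι : Type*} (S : Finset ι) (s : ι → R)
    (hs : ∀ i ∈ S, Prime (s i)) (a : R) (ha0 : a ≠ 0) :
    ∃ (n : ι → ℕ) (u : R), a = u * ∏ i ∈ S, s i ^ n i ∧ ∀ i ∈ S, ¬ s i ∣ u := by
  classical
  induction S using Finset.induction_on with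
  | empty => exact ⟨fun _ => 0, a, by simp, by simp⟩
  | insert j S hj ih =>
    obtain ⟨n, u, hau, hu⟩ := ih (fun i hi => hs i (Finset.mem_insert_of_mem hi))
    have hu0 : u ≠ 0 := by
      rintro rfl
      exact ha0 (by rw [hau, zero_mul])
    obtain ⟨m, u', hu', huu'⟩ :=
      WfDvdMonoid.max_power_factor hu0 (hs j (Finset.mem_insert_self j S)).irreducible
    refine ⟨Function.update n j m, u', ?_, ?_⟩
    · rw [Finset.prod_insert hj, Function.update_self, hau, huu']
      have : ∏ i ∈ S, s i ^ Function.update n j m i = ∏ i ∈ S, s i ^ n i := by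
        refine Finset.prod_congr rfl (fun i hi => ?_)
        have hij : i ≠ j := fun h => hj (h ▸ hi)
        rw [Function.update_of_ne hij]
      rw [this]
      ring
    · intro i hi
      rcases Finset.mem_insert.mp hi with rfl | hi
      · exact hu'
      · intro h
        exact hu i hi (huu' ▸ Dvd.dvd.mul_left h _)

/-- **Factorisation at a point of the special fibre.**  `π` a prime element of a Noetherian
domain `R`, `a ≠ 0` not divisible by `π`.  If every minimal prime of `(a)` not containing `π` is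
one of the principal primes `(s i)`, `i ∈ S`, then `a = u * ∏ (s i) ^ (n i)` with `u` a unit. -/
theorem exists_eq_unit_mul_prod {π : R} (hπ : Prime π) {ι : Type*} (S : Finset ι) (s : ι → R)
    (hs : ∀ i ∈ S, Prime (s i)) (a : R) (ha0 : a ≠ 0) (ha : ¬ π ∣ a)
    (hhor : ∀ 𝔭 ∈ (Ideal.span {a}).minimalPrimes, π ∉ 𝔭 → ∃ i ∈ S, 𝔭 = Ideal.span {s i}) :
    ∃ (n : ι → ℕ) (u : R), IsUnit u ∧ a = u * ∏ i ∈ S, s i ^ n i := by
  obtain ⟨n, u, hau, hu⟩ := exists_eq_mul_prod_of_primes S s hs a ha0
  refine ⟨n, u, ?_, hau⟩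
  have hua : u ∣ a := ⟨_, hau⟩
  refine isUnit_of_forall_minimalPrimes hπ (fun h => ha (h.trans hua)) (fun 𝔭 h𝔭 => ?_)
  by_contra hπ𝔭
  obtain ⟨i, hi, rfl⟩ := hhor 𝔭 (mem_minimalPrimes_of_dvd ha0 hua h𝔭) hπ𝔭
  have : u ∈ Ideal.span {s i} := h𝔭.1.2 (Ideal.mem_span_singleton_self u)
  exact hu i hi (Ideal.mem_span_singleton.mp this)

end Unit

section Kernel

variable {R : Type*} [CommRing R] [IsNoetherianRing R] [IsLocalRing R]
  {A : Type*} [CommRing A] [IsDomain A]

/-- **The kernel of the evaluation at a horizontal point.**  If the maximal ideal of the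
Noetherian local ring `R` is `(π, s)` and `ev : R → A` is a ring homomorphism to a domain with
`ev s = 0` and `ev π ≠ 0`, then `ker ev = (s)`. -/
theorem ker_eq_span (ev : R →+* A) (π s : R)
    (hmax : IsLocalRing.maximalIdeal R = Ideal.span {π, s}) (hs : ev s = 0) (hπ : ev π ≠ 0) :
    RingHom.ker ev = Ideal.span {s} := by
  apply le_antisymm
  · have key : ∀ n : ℕ, ∀ x ∈ RingHom.ker ev,
        ∃ y ∈ RingHom.ker ev, x - π ^ n * y ∈ Ideal.span {s} := by
      intro n
      induction n with
      | zero => exact fun x hx => ⟨x, hx, by simp⟩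
      | succ n ih =>
        intro x hx
        obtain ⟨y, hy, hxy⟩ := ih x hx
        have hy' : y ∈ IsLocalRing.maximalIdeal R := by
          rw [IsLocalRing.mem_maximalIdeal, mem_nonunits_iff]
          intro hu
          have h1 := hu.map ev
          rw [RingHom.mem_ker.mp hy] at h1
          exact not_isUnit_zero h1
        rw [hmax, Ideal.mem_span_pair] at hy'
        obtain ⟨c, d, hcd⟩ := hy'
        have hc : c ∈ RingHom.ker ev := by
          rw [RingHom.mem_ker]
          have h0 : ev y = 0 := hy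
          rw [← hcd, map_add, map_mul, map_mul, hs, mul_zero, add_zero] at h0
          exact (mul_eq_zero.mp h0).resolve_right hπ
        refine ⟨c, hc, ?_⟩
        have e : x - π ^ (n + 1) * c = (x - π ^ n * y) + π ^ n * d * s := by
          rw [← hcd]
          ring
        rw [e]
        exact Ideal.add_mem _ hxy (Ideal.mul_mem_left _ _ (Ideal.mem_span_singleton_self s))
    intro x hx
    have hI : IsLocalRing.maximalIdeal R ≠ ⊤ := Ideal.IsPrime.ne_top'
    have hK := Ideal.iInf_pow_smul_eq_bot_of_isLocalRing (R := R)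
      (M := R ⧸ Ideal.span {s}) (IsLocalRing.maximalIdeal R) hI
    have hx0 : (Ideal.Quotient.mk (Ideal.span {s}) x : R ⧸ Ideal.span {s}) ∈
        (⨅ i : ℕ, (IsLocalRing.maximalIdeal R) ^ i • ⊤ : Submodule R (R ⧸ Ideal.span {s})) := by
      rw [Submodule.mem_iInf]
      intro n
      obtain ⟨y, hy, hxy⟩ := key n x hx
      have e : (Ideal.Quotient.mk (Ideal.span {s}) x : R ⧸ Ideal.span {s}) =
          (π ^ n) • (Ideal.Quotient.mk (Ideal.span {s}) y : R ⧸ Ideal.span {s}) := by
        rw [Algebra.smul_def, Ideal.Quotient.algebraMap_eq, ← map_mul]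
        exact Ideal.Quotient.eq.mpr hxy
      rw [e]
      refine Submodule.smul_mem_smul (Ideal.pow_mem_pow ?_ n) Submodule.mem_top
      rw [hmax]
      exact Ideal.subset_span (by simp)
    rw [hK, Submodule.mem_bot, Ideal.Quotient.eq_zero_iff_mem] at hx0
    exact hx0
  · rw [Ideal.span_le, Set.singleton_subset_iff]
    exact hs

/-- In the situation of `ker_eq_span`, `(s)` is a prime ideal. -/
theorem isPrime_span (ev : R →+* A) (π s : R)
    (hmax : IsLocalRing.maximalIdeal R = Ideal.span {π, s}) (hs : ev s = 0) (hπ : ev π ≠ 0) :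
    (Ideal.span {s}).IsPrime := by
  rw [← ker_eq_span ev π s hmax hs hπ]
  exact RingHom.ker_isPrime ev

/-- In the situation of `ker_eq_span`, `s` is a prime element (if nonzero). -/
theorem prime_of_ker (ev : R →+* A) (π s : R)
    (hmax : IsLocalRing.maximalIdeal R = Ideal.span {π, s}) (hs : ev s = 0) (hπ : ev π ≠ 0)
    (hs0 : s ≠ 0) : Prime s :=
  (Ideal.span_singleton_prime hs0).mp (isPrime_span ev π s hmax hs hπ)

end Kernel

end Fermat.Agent.S37.LocalStep
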