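import Mathlib
import Fermat.Agent.S37.LocalStep

/-!
# S37 (W2 / cover chain, leaf (L)): the kernel of a section is locally principal

`A0` a local domain with maximal ideal `(π)`, `C` a Noetherian domain over `A0`,
`ev : C →ₐ[A0] A0` a section through a closed point `n` of the special fibre at which the
maximal ideal of `C_n` is `(π, s)`.

* `exists_local_gen_of_section` : the kernel of `ev` is generated by `σ := s - ev s` locally at
  the section: every `x` with `ev x = 0` satisfies `w * x = σ * y` with `ev w ≠ 0`.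
* `exists_mul_eq_pow_mul` : every nonzero `c` is `σ ^ m` times a unit at the section
  (Krull's intersection theorem).
* `nu_eq_of_section` : two order functions attached to the same section agree.
-/

set_option autoImplicit false

namespace Fermat.Agent.S37.SectionGen

section Gen

variable {A0 C : Type*} [CommRing A0] [IsDomain A0] [IsLocalRing A0] [CommRing C] [IsDomain C]
  [IsNoetherianRing C] [Algebra A0 C]

/-- **The kernel of a section is generated by `s - ev s` locally at the section.** -/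
theorem exists_local_gen_of_section (π : A0)
    (hπA : IsLocalRing.maximalIdeal A0 = Ideal.span {π})
    (hπ : Prime (algebraMap A0 C π)) (ev : C →ₐ[A0] A0) (n : Ideal C) (hn : n.IsMaximal)
    (hπn : algebraMap A0 C π ∈ n) (hkn : RingHom.ker ev ≤ n) (s : C) (hs : s ∈ n)
    (hmax : ∀ x ∈ n, ∃ w, w ∉ n ∧ w * x ∈ Ideal.span {algebraMap A0 C π, s}) :
    ∀ x : C, ev x = 0 → ∃ w y : C, ev w ≠ 0 ∧ w * x = (s - algebraMap A0 C (ev s)) * y := by
  classical
  set ϖ : C := algebraMap A0 C π with hϖ
  have hnp : n.IsPrime := hn.isPrime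
  let R := Localization.AtPrime n
  let φ : C →+* R := algebraMap C R
  have hφ : Function.Injective φ :=
    IsLocalization.injective R (Ideal.primeCompl_le_nonZeroDivisors n)
  have hRdom : IsDomain R :=
    IsLocalization.isDomain_localization (Ideal.primeCompl_le_nonZeroDivisors n)
  have hRnoeth : IsNoetherianRing R :=
    IsLocalization.isNoetherianRing n.primeCompl R inferInstance
  have hπ0 : π ≠ 0 := by
    rintro rfl
    exact hπ.ne_zero (map_zero _)
  -- the maximal ideal of the local ring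
  have hmaxR : IsLocalRing.maximalIdeal R = Ideal.span {φ ϖ, φ s} := by
    rw [← Localization.AtPrime.map_eq_maximalIdeal]
    apply le_antisymm
    · rw [Ideal.map_le_iff_le_comap]
      intro x hx
      obtain ⟨w, hw, hwx⟩ := hmax x hx
      rw [Ideal.mem_comap]
      have hu : IsUnit (φ w) := (IsLocalization.AtPrime.isUnit_to_map_iff R n w).mpr hw
      have h3 : φ w * φ x ∈ Ideal.span {φ ϖ, φ s} := by
        rw [← map_mul]
        have h4 := Ideal.mem_map_of_mem φ hwx
        rwa [Ideal.map_span, Set.image_pair] at h4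
      exact (Ideal.unit_mul_mem_iff_mem _ hu).mp h3
    · rw [Ideal.span_le]
      rintro _ (rfl | rfl)
      · exact Ideal.mem_map_of_mem _ hπn
      · exact Ideal.mem_map_of_mem _ hs
  have hunit : ∀ w : C, w ∉ n → IsUnit (ev w) := by
    intro w hw
    by_contra hu
    have h1 : ev w ∈ IsLocalRing.maximalIdeal A0 := hu
    rw [hπA, Ideal.mem_span_singleton] at h1
    obtain ⟨c, hc⟩ := h1
    have h0 : w - ϖ * algebraMap A0 C c ∈ RingHom.ker ev := by
      rw [RingHom.mem_ker, map_sub, map_mul, AlgHom.commutes, AlgHom.commutes, hc]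
      simp
    have h2 := n.add_mem (hkn h0) (n.mul_mem_right (algebraMap A0 C c) hπn)
    rw [sub_add_cancel] at h2
    exact hw h2
  have hmem : ∀ x ∈ n, π ∣ ev x := by
    intro x hx
    by_contra hnd
    have hu : IsUnit (ev x) := by
      by_contra hu
      have h1 : ev x ∈ IsLocalRing.maximalIdeal A0 := hu
      rw [hπA, Ideal.mem_span_singleton] at h1
      exact hnd h1
    obtain ⟨u, hu⟩ := hu
    have h0 : x * algebraMap A0 C ((u⁻¹ : A0ˣ) : A0) - 1 ∈ RingHom.ker ev := by
      rw [RingHom.mem_ker, map_sub, map_mul, AlgHom.commutes, map_one, ← hu]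
      simp
    have h2 := n.sub_mem (n.mul_mem_right (algebraMap A0 C ((u⁻¹ : A0ˣ) : A0)) hx) (hkn h0)
    rw [sub_sub_cancel] at h2
    exact hn.ne_top ((Ideal.eq_top_iff_one _).mpr h2)
  obtain ⟨e, he⟩ : ∃ e : R →+* A0, ∀ z : C, e (φ z) = ev z :=
    ⟨IsLocalization.lift (M := n.primeCompl) (g := (ev : C →+* A0)) (fun y => hunit y y.2),
      fun z => IsLocalization.lift_eq _ z⟩
  set σ : C := s - algebraMap A0 C (ev s) with hσ
  have hσev : ev σ = 0 := by
    simp [hσ]
  obtain ⟨c, hc⟩ : ∃ c : C, σ = s - ϖ * c := by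
    obtain ⟨c, hc⟩ := hmem s hs
    exact ⟨algebraMap A0 C c, by simp [hσ, hc, map_mul, hϖ]⟩
  have hkerR : RingHom.ker e = Ideal.span {φ σ} := by
    refine LocalStep.ker_eq_span e (φ ϖ) (φ σ) ?_ (by rw [he, hσev]) ?_
    · rw [hmaxR]
      apply le_antisymm
      · rw [Ideal.span_le]
        rintro _ (rfl | rfl)
        · exact Ideal.subset_span (by simp)
        · rw [SetLike.mem_coe, Ideal.mem_span_pair]
          refine ⟨φ c, 1, ?_⟩
          rw [hc, map_sub, map_mul]
          ring
      · rw [Ideal.span_le]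
        rintro _ (rfl | rfl)
        · exact Ideal.subset_span (by simp)
        · rw [SetLike.mem_coe, Ideal.mem_span_pair]
          refine ⟨-φ c, 1, ?_⟩
          rw [hc, map_sub, map_mul]
          ring
    · rw [he, hϖ, AlgHom.commutes]
      simpa using hπ0
  intro x hx
  have h1 : φ x ∈ RingHom.ker e := by rw [RingHom.mem_ker, he, hx]
  rw [hkerR, Ideal.mem_span_singleton] at h1
  obtain ⟨r, hr⟩ := h1
  obtain ⟨⟨y, w⟩, hyw⟩ := IsLocalization.surj n.primeCompl r
  refine ⟨w, y, (hunit w w.2).ne_zero, hφ ?_⟩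
  have hyw' : r * φ w = φ y := hyw
  rw [map_mul, map_mul, hr, ← hyw']
  ring

end Gen

section Pow

variable {C A0 : Type*} [CommRing C] [IsDomain C] [IsNoetherianRing C] [CommRing A0] [IsDomain A0]

/-- **Every nonzero element is a power of the local generator times a unit at the section.** -/
theorem exists_mul_eq_pow_mul (ev : C →+* A0) (σ : C) (hσ : ev σ = 0)
    (hgen : ∀ x : C, ev x = 0 → ∃ w y : C, ev w ≠ 0 ∧ w * x = σ * y) (c : C) (hc : c ≠ 0) :
    ∃ (m : ℕ) (w y : C), ev w ≠ 0 ∧ ev y ≠ 0 ∧ w * c = σ ^ m * y := by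
  classical
  by_contra hcon
  -- then `c` is divisible by all powers of `σ`, up to units at the section
  have hall : ∀ m : ℕ, ∃ w y : C, ev w ≠ 0 ∧ w * c = σ ^ m * y := by
    intro m
    induction m with
    | zero => exact ⟨1, c, by rw [map_one]; exact one_ne_zero, by ring⟩
    | succ m ih =>
      obtain ⟨w, y, hw, hwy⟩ := ih
      by_cases hy : ev y = 0
      · obtain ⟨w', y', hw', hwy'⟩ := hgen y hy
        refine ⟨w' * w, y', ?_, ?_⟩
        · rw [map_mul]
          exact mul_ne_zero hw' hw
        · rw [mul_assoc, hwy, mul_left_comm, hwy', pow_succ]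
          ring
      · exact absurd ⟨m, w, y, hw, hy, hwy⟩ hcon
  -- Krull's intersection theorem in the localisation at the kernel
  have h𝔭 : (RingHom.ker ev).IsPrime := RingHom.ker_isPrime ev
  let R := Localization.AtPrime (RingHom.ker ev)
  let φ : C →+* R := algebraMap C R
  have hφ : Function.Injective φ :=
    IsLocalization.injective R (Ideal.primeCompl_le_nonZeroDivisors (RingHom.ker ev))
  have hRdom : IsDomain R :=
    IsLocalization.isDomain_localization (Ideal.primeCompl_le_nonZeroDivisors (RingHom.ker ev))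
  have hRnoeth : IsNoetherianRing R :=
    IsLocalization.isNoetherianRing (RingHom.ker ev).primeCompl R inferInstance
  have hne : (Ideal.span {φ σ} : Ideal R) ≠ ⊤ := by
    rw [Ne, Ideal.span_singleton_eq_top]
    intro hu
    have := (IsLocalization.AtPrime.isUnit_to_map_iff R (RingHom.ker ev) σ).mp hu
    exact this ((RingHom.mem_ker).mpr hσ)
  have hmem : φ c ∈ ⨅ i : ℕ, (Ideal.span {φ σ} : Ideal R) ^ i := by
    rw [Ideal.mem_iInf]
    intro m
    obtain ⟨w, y, hw, hwy⟩ := hall m
    have hu : IsUnit (φ w) :=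
      (IsLocalization.AtPrime.isUnit_to_map_iff R (RingHom.ker ev) w).mpr
        (fun h => hw ((RingHom.mem_ker).mp h))
    rw [Ideal.span_singleton_pow]
    have h1 : φ w * φ c ∈ Ideal.span {φ σ ^ m} := by
      rw [← map_mul, hwy, map_mul, map_pow]
      exact Ideal.mul_mem_right _ _ (Ideal.subset_span rfl)
    exact (Ideal.unit_mul_mem_iff_mem _ hu).mp h1
  rw [Ideal.iInf_pow_eq_bot_of_isDomain _ hne, Ideal.mem_bot] at hmem
  exact hc (hφ (by rw [hmem, map_zero]))

/-- **Two order functions attached to the same section agree.** -/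
theorem nu_eq_of_section (ev : C →+* A0) (σ : C) (hσ : ev σ = 0)
    (hgen : ∀ x : C, ev x = 0 → ∃ w y : C, ev w ≠ 0 ∧ w * x = σ * y)
    (ν ν' : C → ℤ)
    (hmul : ∀ x y : C, x ≠ 0 → y ≠ 0 → ν (x * y) = ν x + ν y)
    (hmul' : ∀ x y : C, x ≠ 0 → y ≠ 0 → ν' (x * y) = ν' x + ν' y)
    (hunit : ∀ x : C, ev x ≠ 0 → ν x = 0) (hunit' : ∀ x : C, ev x ≠ 0 → ν' x = 0)
    (h1 : ν σ = ν' σ) (c : C) (hc : c ≠ 0) : ν c = ν' c := by
  obtain ⟨m, w, y, hw, hy, hwy⟩ := exists_mul_eq_pow_mul ev σ hσ hgen c hc
  have hw0 : w ≠ 0 := by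
    rintro rfl
    exact hw (map_zero ev)
  have hy0 : y ≠ 0 := by
    rintro rfl
    exact hy (map_zero ev)
  have hσ0 : σ ^ m ≠ 0 := by
    intro h0
    rw [h0, zero_mul] at hwy
    exact mul_ne_zero hw0 hc hwy
  have hσ1 : σ ≠ 0 ∨ m = 0 := by
    by_cases hm : m = 0
    · exact Or.inr hm
    · left
      rintro rfl
      exact hσ0 (zero_pow hm)
  have hpow : ∀ (μ : C → ℤ), (∀ x y : C, x ≠ 0 → y ≠ 0 → μ (x * y) = μ x + μ y) →
      (∀ x : C, ev x ≠ 0 → μ x = 0) → μ (σ ^ m) = m * μ σ := by
    intro μ hμ hμu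
    rcases hσ1 with hσne | rfl
    · clear hwy hσ0
      induction m with
      | zero =>
        rw [pow_zero, Nat.cast_zero, zero_mul]
        exact hμu 1 (by rw [map_one]; exact one_ne_zero)
      | succ k ih =>
        rw [pow_succ, hμ _ _ (pow_ne_zero k hσne) hσne, ih]
        push_cast
        ring
    · rw [pow_zero, Nat.cast_zero, zero_mul]
      exact hμu 1 (by rw [map_one]; exact one_ne_zero)
  have e1 := hmul w c hw0 hc
  have e2 := hmul' w c hw0 hc
  rw [hwy] at e1 e2
  rw [hmul _ _ hσ0 hy0, hpow ν hmul hunit, hunit w hw, hunit y hy] at e1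
  rw [hmul' _ _ hσ0 hy0, hpow ν' hmul' hunit', hunit' w hw, hunit' y hy] at e2
  rw [h1] at e1
  omega

end Pow

end Fermat.Agent.S37.SectionGen
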