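import Mathlib

/-!
# S37 (W2 / cover chain, leaf (L)): abstract adapters for `ZeroSum.exists_sub_mul_mem`

Pure algebra (Mathlib only).  The three lemmas turn "place data" into hypotheses of the abstract
zero-sum theorem:

* `exists_section` : `A0` a discrete valuation ring with fraction field `K0`, `C` an `A0`-algebra,
  `e : C → K0` a ring homomorphism over `A0` (the value at a `K0`-rational place) whose kernel lies
  in a proper ideal containing the uniformizer (the place passes through the special fibre).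
  Then `e` has values in `A0`: it is an `A0`-section `C →ₐ[A0] A0`.  (A discrete valuation ring is
  a maximal subring of its fraction field.)
* `nu_eq_one` : a generator of the kernel of a section has order one, as soon as some quotient
  `x / y` has order one.
* `sum_filter_eq_zero_of_classes` : a sum over a union of classes of an equivalence relation
  vanishes if the sum over each class does.
-/

set_option autoImplicit false

namespace Fermat.Agent.S37.SectionTools

section Section

variable {A0 K0 C : Type*} [CommRing A0] [IsDomain A0] [IsDiscreteValuationRing A0]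
  [Field K0] [Algebra A0 K0] [IsFractionRing A0 K0] [CommRing C] [Algebra A0 C]

/-- The values of `e` lie in `A0`. -/
theorem exists_algebraMap_eq (π : A0) (hπ : Irreducible π) (e : C →+* K0)
    (he : ∀ a : A0, e (algebraMap A0 C a) = algebraMap A0 K0 a)
    (n : Ideal C) (hn : n ≠ ⊤) (hker : RingHom.ker e ≤ n) (hπn : algebraMap A0 C π ∈ n) (x : C) :
    ∃ a : A0, algebraMap A0 K0 a = e x := by
  have hinj : Function.Injective (algebraMap A0 K0) := IsFractionRing.injective A0 K0
  rcases ValuationRing.isInteger_or_isInteger A0 (e x) with ⟨a, ha⟩ | ⟨b, hb⟩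
  · exact ⟨a, ha⟩
  · by_cases hex : e x = 0
    · exact ⟨0, by rw [map_zero, hex]⟩
    · by_cases hbu : IsUnit b
      · obtain ⟨u, rfl⟩ := hbu
        refine ⟨((u⁻¹ : A0ˣ) : A0), ?_⟩
        have h1 : algebraMap A0 K0 ((u⁻¹ : A0ˣ) : A0) * algebraMap A0 K0 (u : A0) = 1 := by
          rw [← map_mul, Units.inv_mul, map_one]
        rw [hb] at h1
        have h2 : (e x)⁻¹ ≠ 0 := inv_ne_zero hex
        field_simp at h1
        exact h1
      · exfalso
        have hbm : b ∈ IsLocalRing.maximalIdeal A0 := hbu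
        rw [hπ.maximalIdeal_eq, Ideal.mem_span_singleton] at hbm
        obtain ⟨c, rfl⟩ := hbm
        have h1 : e (x * algebraMap A0 C π * algebraMap A0 C c - 1) = 0 := by
          rw [map_sub, map_mul, map_mul, he, he, map_one, mul_assoc, ← map_mul, hb,
            mul_inv_cancel₀ hex, sub_self]
        have h2 : x * algebraMap A0 C π * algebraMap A0 C c - 1 ∈ n := hker h1
        have h3 : x * algebraMap A0 C π * algebraMap A0 C c ∈ n :=
          n.mul_mem_right _ (n.mul_mem_left _ hπn)
        have h4 : (1 : C) ∈ n := by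
          have := n.sub_mem h3 h2
          rwa [sub_sub_cancel] at this
        exact hn ((Ideal.eq_top_iff_one n).mpr h4)

/-- **The `A0`-section of a rational point through the special fibre.** -/
theorem exists_section (π : A0) (hπ : Irreducible π) (e : C →+* K0)
    (he : ∀ a : A0, e (algebraMap A0 C a) = algebraMap A0 K0 a)
    (n : Ideal C) (hn : n ≠ ⊤) (hker : RingHom.ker e ≤ n) (hπn : algebraMap A0 C π ∈ n) :
    ∃ ev : C →ₐ[A0] A0, ∀ x, algebraMap A0 K0 (ev x) = e x := by
  have hinj : Function.Injective (algebraMap A0 K0) := IsFractionRing.injective A0 K0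
  choose a ha using exists_algebraMap_eq π hπ e he n hn hker hπn
  refine ⟨{ toFun := a
            map_one' := hinj (by rw [ha, map_one, map_one])
            map_mul' := fun x y => hinj (by rw [ha, map_mul, map_mul, ha, ha])
            map_zero' := hinj (by rw [ha, map_zero, map_zero])
            map_add' := fun x y => hinj (by rw [ha, map_add, map_add, ha, ha])
            commutes' := fun r => hinj (by rw [ha, he]; rfl) }, fun x => ha x⟩

omit [IsDomain A0] [IsDiscreteValuationRing A0] in
/-- the kernel of the section is the kernel of `e`. -/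
theorem ker_eq_of_section (e : C →+* K0) (ev : C →ₐ[A0] A0)
    (h : ∀ x, algebraMap A0 K0 (ev x) = e x) :
    RingHom.ker (ev : C →+* A0) = RingHom.ker e := by
  have hinj : Function.Injective (algebraMap A0 K0) := IsFractionRing.injective A0 K0
  ext x
  rw [RingHom.mem_ker, RingHom.mem_ker, ← h x]
  constructor
  · intro hx
    have hx' : ev x = 0 := hx
    rw [hx', map_zero]
  · intro hx
    exact hinj (hx.trans (map_zero _).symm)

end Section

section Unif

variable {C A0 : Type*} [CommRing C] [IsDomain C] [CommRing A0]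

/-- **A local generator of the kernel of a section has order one**, as soon as some quotient
`x / y` of elements of `C` has order one. -/
theorem nu_eq_one (ev : C →+* A0) (ν : C → ℤ)
    (hmul : ∀ x y : C, x ≠ 0 → y ≠ 0 → ν (x * y) = ν x + ν y)
    (hnn : ∀ x : C, 0 ≤ ν x)
    (hpos : ∀ x : C, x ≠ 0 → (0 < ν x ↔ ev x = 0))
    (hu : ∃ x y : C, x ≠ 0 ∧ y ≠ 0 ∧ ν x = ν y + 1)
    (σ : C) (hσ0 : σ ≠ 0) (hσ : ev σ = 0)
    (hgen : ∀ x : C, ev x = 0 → ∃ w y : C, ev w ≠ 0 ∧ w * x = σ * y) : ν σ = 1 := by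
  have hσpos : 0 < ν σ := (hpos σ hσ0).mpr hσ
  have hunit : ∀ w : C, ev w ≠ 0 → w ≠ 0 ∧ ν w = 0 := by
    intro w hw
    have hw0 : w ≠ 0 := by
      rintro rfl
      exact hw (map_zero ev)
    refine ⟨hw0, ?_⟩
    have h1 : ¬ 0 < ν w := fun h => hw ((hpos w hw0).mp h)
    have h2 := hnn w
    omega
  -- dividing by `σ`
  have hdiv : ∀ x : C, x ≠ 0 → ev x = 0 → ∃ x₁ : C, x₁ ≠ 0 ∧ ν x = ν σ + ν x₁ := by
    intro x hx0 hx
    obtain ⟨w, x₁, hw, hwx⟩ := hgen x hx
    obtain ⟨hw0, hνw⟩ := hunit w hw
    have hx₁ : x₁ ≠ 0 := by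
      rintro rfl
      rw [mul_zero] at hwx
      exact mul_ne_zero hw0 hx0 hwx
    refine ⟨x₁, hx₁, ?_⟩
    have h1 := hmul w x hw0 hx0
    have h2 := hmul σ x₁ hσ0 hx₁
    rw [hwx] at h1
    omega
  have key : ∀ k : ℕ, ∀ x y : C, x ≠ 0 → y ≠ 0 → ν x = ν y + 1 → ν y ≤ k → ν σ = 1 := by
    intro k
    induction k with
    | zero =>
      intro x y hx hy hxy hk
      have hy0 := hnn y
      have hxpos : 0 < ν x := by omega
      obtain ⟨x₁, -, h1⟩ := hdiv x hx ((hpos x hx).mp hxpos)
      have h2 := hnn x₁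
      omega
    | succ k ih =>
      intro x y hx hy hxy hk
      by_cases hey : ev y = 0
      · have hxpos : 0 < ν x := by
          have := hnn y
          omega
        obtain ⟨x₁, hx₁, h1⟩ := hdiv x hx ((hpos x hx).mp hxpos)
        obtain ⟨y₁, hy₁, h2⟩ := hdiv y hy hey
        exact ih x₁ y₁ hx₁ hy₁ (by omega) (by omega)
      · have hy0 : ν y = 0 := (hunit y hey).2
        have hxpos : 0 < ν x := by omega
        obtain ⟨x₁, -, h1⟩ := hdiv x hx ((hpos x hx).mp hxpos)
        have h2 := hnn x₁
        omega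
  obtain ⟨x, y, hx, hy, hxy⟩ := hu
  exact key (ν y).toNat x y hx hy hxy (Int.self_le_toNat _)

end Unif

section Classes

variable {ι : Type*} [DecidableEq ι]

/-- a sum over a saturated subset vanishes if the sums over the classes do. -/
theorem sum_eq_zero_of_saturated (S : Finset ι) (f : ι → ℤ) (R : ι → ι → Prop) [DecidableRel R]
    (hrefl : ∀ i ∈ S, R i i) (hsymm : ∀ i ∈ S, ∀ j ∈ S, R i j → R j i)
    (htrans : ∀ i ∈ S, ∀ j ∈ S, ∀ k ∈ S, R i j → R j k → R i k)
    (hcls : ∀ i₀ ∈ S, ∑ i ∈ S.filter (fun i => R i i₀), f i = 0) :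
    ∀ T : Finset ι, T ⊆ S → (∀ i ∈ T, ∀ j ∈ S, R i j → j ∈ T) → ∑ i ∈ T, f i = 0 := by
  intro T
  induction T using Finset.strongInduction with
  | H T ih =>
    intro hTS hsat
    rcases T.eq_empty_or_nonempty with rfl | ⟨i₀, hi₀⟩
    · simp
    have hi₀S : i₀ ∈ S := hTS hi₀
    set c := S.filter (fun i => R i i₀) with hc
    have hcT : c ⊆ T := by
      intro j hj
      rw [hc, Finset.mem_filter] at hj
      exact hsat i₀ hi₀ j hj.1 (hsymm j hj.1 i₀ hi₀S hj.2)
    have hi₀c : i₀ ∈ c := by
      rw [hc, Finset.mem_filter]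
      exact ⟨hi₀S, hrefl i₀ hi₀S⟩
    have hss : T \ c ⊂ T := by
      refine Finset.ssubset_iff_subset_ne.mpr ⟨Finset.sdiff_subset, fun h => ?_⟩
      have h2 : i₀ ∈ T \ c := by
        rw [h]
        exact hi₀
      exact (Finset.mem_sdiff.mp h2).2 hi₀c
    have h1 := ih (T \ c) hss (fun i hi => hTS (Finset.mem_sdiff.mp hi).1) (by
      intro i hi j hj hij
      rw [Finset.mem_sdiff] at hi ⊢
      refine ⟨hsat i hi.1 j hj hij, fun hjc => hi.2 ?_⟩
      rw [hc, Finset.mem_filter] at hjc ⊢
      exact ⟨hTS hi.1, htrans i (hTS hi.1) j hj i₀ hi₀S hij hjc.2⟩)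
    rw [← Finset.sum_sdiff hcT, h1, hcls i₀ hi₀S, add_zero]

/-- **Regrouping by classes**: if `p` is a union of classes of the equivalence relation `R` on
`S` and `f` sums to zero over every class, then `f` sums to zero over `p`. -/
theorem sum_filter_eq_zero_of_classes (S : Finset ι) (f : ι → ℤ) (R : ι → ι → Prop)
    [DecidableRel R] (hrefl : ∀ i ∈ S, R i i) (hsymm : ∀ i ∈ S, ∀ j ∈ S, R i j → R j i)
    (htrans : ∀ i ∈ S, ∀ j ∈ S, ∀ k ∈ S, R i j → R j k → R i k)
    (p : ι → Prop) [DecidablePred p] (hp : ∀ i ∈ S, ∀ j ∈ S, R i j → p i → p j)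
    (hcls : ∀ i₀ ∈ S, ∑ i ∈ S.filter (fun i => R i i₀), f i = 0) :
    ∑ i ∈ S.filter p, f i = 0 := by
  refine sum_eq_zero_of_saturated S f R hrefl hsymm htrans hcls (S.filter p)
    (Finset.filter_subset _ _) (fun i hi j hj hij => ?_)
  rw [Finset.mem_filter] at hi ⊢
  exact ⟨hj, hp i hi.1 j hj hij hi.2⟩

end Classes

end Fermat.Agent.S37.SectionTools
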