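import Mathlib
import Fermat.Agent.S37.LocalStep

/-!
# S37 (long shot), block (W2): zero-sum fibres, abstractly

Pure commutative algebra (Mathlib + `LocalStep`).  `A0` is a local domain with maximal ideal `(π)`
(the base discrete valuation ring), `C` a Noetherian domain over `A0` in which `π` stays prime
(the integral closure of a chart `A0[t]` in the function field), and at every closed point `n` of
the special fibre the maximal ideal of `C_n` is `(π, s)`.

The horizontal rational points are given as finitely many `A0`-sections `ev i : C → A0`, together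
with their order functions `ν i : C → ℤ`.  If the horizontal zeros of `a` and `b` through the
special fibre are among these sections and the orders of `a / b` sum to zero over each closed
point of the special fibre, then `a ∈ b C + π C`: the reduction of `a / b` is regular on the
special fibre of the chart.
-/

set_option autoImplicit false

namespace Fermat.Agent.S37.ZeroSum

variable {A0 C : Type*} [CommRing A0] [IsDomain A0] [IsLocalRing A0] [CommRing C] [IsDomain C]
  [IsNoetherianRing C] [Algebra A0 C]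

open Classical in
/-- **Local factorisation at a closed point of the special fibre.**  If the maximal ideal of
`C_n` is `(π, s)`, then every `a` not divisible by `π` whose horizontal zeros through `n` are
among the sections `ev i` satisfies `w a ≡ x s ^ d` modulo `π`, with `w, x ∉ n` and `d` the sum
of the orders of `a` along the sections through `n`. -/
theorem exists_mul_sub_mul_pow_mem (π : A0) (hπA : IsLocalRing.maximalIdeal A0 = Ideal.span {π})
    (hπ : Prime (algebraMap A0 C π))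
    {ι : Type*} (S : Finset ι) (ev : ι → C →ₐ[A0] A0) (hinj : Set.InjOn ev S)
    (hker : ∀ i ∈ S, ∃ x : C, x ≠ 0 ∧ ev i x = 0)
    (ν : ι → C → ℤ)
    (hν_mul : ∀ i ∈ S, ∀ x y : C, x ≠ 0 → y ≠ 0 → ν i (x * y) = ν i x + ν i y)
    (hν_unit : ∀ i ∈ S, ∀ x : C, ev i x ≠ 0 → ν i x = 0)
    (hν_unif : ∀ i ∈ S, ∀ σ : C, ev i σ = 0 →
      (∀ x : C, ev i x = 0 → ∃ w y : C, ev i w ≠ 0 ∧ w * x = σ * y) → ν i σ = 1)
    (n : Ideal C) (hn : n.IsMaximal) (hπn : algebraMap A0 C π ∈ n)
    (s : C) (hs : s ∈ n)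
    (hmax : ∀ x ∈ n, ∃ w, w ∉ n ∧ w * x ∈ Ideal.span {algebraMap A0 C π, s})
    (a : C) (ha : ¬ algebraMap A0 C π ∣ a)
    (hhor : ∀ 𝔭 ∈ (Ideal.span {a}).minimalPrimes, algebraMap A0 C π ∉ 𝔭 → 𝔭 ≤ n →
      ∃ i ∈ S, 𝔭 = RingHom.ker (ev i)) :
    ∃ (d : ℕ) (w x : C), w ∉ n ∧ x ∉ n ∧
      (d : ℤ) = ∑ i ∈ S.filter (fun i => RingHom.ker (ev i) ≤ n), ν i a ∧
      w * a - x * s ^ d ∈ Ideal.span {algebraMap A0 C π} := by
  classical
  set ϖ : C := algebraMap A0 C π with hϖ
  have hnp : n.IsPrime := hn.isPrime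
  let R := Localization.AtPrime n
  let φ : C →+* R := algebraMap C R
  have hφ : Function.Injective φ :=
    IsLocalization.injective R (Ideal.primeCompl_le_nonZeroDivisors n)
  have hRdom : IsDomain R :=
    IsLocalization.isDomain_localization (Ideal.primeCompl_le_nonZeroDivisors n)
  have hRnoeth : IsNoetherianRing R :=
    IsLocalization.isNoetherianRing n.primeCompl R inferInstance
  have hπ0 : π ≠ 0 := by
    rintro rfl
    exact hπ.ne_zero (map_zero _)
  have hspan_prime : (Ideal.span {ϖ} : Ideal C).IsPrime :=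
    (Ideal.span_singleton_prime hπ.ne_zero).mpr hπ
  have hdisj : Disjoint (n.primeCompl : Set C) ((Ideal.span {ϖ} : Ideal C) : Set C) := by
    rw [Set.disjoint_left]
    intro x hx hx'
    exact hx ((Ideal.span_le.mpr (Set.singleton_subset_iff.mpr hπn)) hx')
  -- `π` stays prime in the local ring
  have hϖR : Prime (φ ϖ) := by
    have h2 := IsLocalization.isPrime_of_isPrime_disjoint n.primeCompl R _ hspan_prime hdisj
    rw [Ideal.map_span, Set.image_singleton] at h2
    exact (Ideal.span_singleton_prime ((map_ne_zero_iff φ hφ).mpr hπ.ne_zero)).mp h2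
  have hcomapϖ : ∀ z : C, φ ϖ ∣ φ z → ϖ ∣ z := by
    intro z hz
    have h1 := IsLocalization.under_map_of_isPrime_disjoint n.primeCompl R hspan_prime hdisj
    have hz' : z ∈ (Ideal.map (algebraMap C R) (Ideal.span {ϖ})).under C := by
      rw [Ideal.under, Ideal.mem_comap, Ideal.map_span, Set.image_singleton,
        Ideal.mem_span_singleton]
      exact hz
    rw [h1, Ideal.mem_span_singleton] at hz'
    exact hz'
  -- the maximal ideal of the local ring
  have hmaxR : IsLocalRing.maximalIdeal R = Ideal.span {φ ϖ, φ s} := by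
    rw [← Localization.AtPrime.map_eq_maximalIdeal]
    apply le_antisymm
    · rw [Ideal.map_le_iff_le_comap]
      intro x hx
      obtain ⟨w, hw, hwx⟩ := hmax x hx
      rw [Ideal.mem_comap]
      have hu : IsUnit (φ w) := (IsLocalization.AtPrime.isUnit_to_map_iff R n w).mpr hw
      have h3 : φ w * φ x ∈ Ideal.span {φ ϖ, φ s} := by
        rw [← map_mul]
        have h4 := Ideal.mem_map_of_mem φ hwx
        rwa [Ideal.map_span, Set.image_pair] at h4
      exact (Ideal.unit_mul_mem_iff_mem _ hu).mp h3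
    · rw [Ideal.span_le]
      rintro _ (rfl | rfl)
      · exact Ideal.mem_map_of_mem _ hπn
      · exact Ideal.mem_map_of_mem _ hs
  -- sections through `n`
  have hunit : ∀ i, RingHom.ker (ev i) ≤ n → ∀ w : C, w ∉ n → IsUnit (ev i w) := by
    intro i hi w hw
    by_contra hu
    have h1 : ev i w ∈ IsLocalRing.maximalIdeal A0 := hu
    rw [hπA, Ideal.mem_span_singleton] at h1
    obtain ⟨c, hc⟩ := h1
    have h0 : w - ϖ * algebraMap A0 C c ∈ RingHom.ker (ev i) := by
      rw [RingHom.mem_ker, map_sub, map_mul, AlgHom.commutes, AlgHom.commutes, hc]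
      simp
    have h2 := n.add_mem (hi h0) (n.mul_mem_right (algebraMap A0 C c) hπn)
    rw [sub_add_cancel] at h2
    exact hw h2
  have hmem : ∀ i, RingHom.ker (ev i) ≤ n → ∀ x ∈ n, π ∣ ev i x := by
    intro i hi x hx
    by_contra hnd
    have hu : IsUnit (ev i x) := by
      by_contra hu
      have h1 : ev i x ∈ IsLocalRing.maximalIdeal A0 := hu
      rw [hπA, Ideal.mem_span_singleton] at h1
      exact hnd h1
    obtain ⟨u, hu⟩ := hu
    have h0 : x * algebraMap A0 C ((u⁻¹ : A0ˣ) : A0) - 1 ∈ RingHom.ker (ev i) := by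
      rw [RingHom.mem_ker, map_sub, map_mul, AlgHom.commutes, map_one, ← hu]
      simp
    have h2 := n.sub_mem (n.mul_mem_right (algebraMap A0 C ((u⁻¹ : A0ˣ) : A0)) hx) (hi h0)
    rw [sub_sub_cancel] at h2
    exact hn.ne_top ((Ideal.eq_top_iff_one _).mpr h2)
  have hlift : ∀ i, RingHom.ker (ev i) ≤ n → ∃ e : R →+* A0, ∀ z : C, e (φ z) = ev i z := by
    intro i hi
    refine ⟨IsLocalization.lift (M := n.primeCompl) (g := (ev i : C →+* A0))
      (fun y => hunit i hi y y.2), fun z => ?_⟩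
    exact IsLocalization.lift_eq _ z
  set σ : ι → C := fun i => s - algebraMap A0 C (ev i s) with hσ
  have hσev : ∀ i, ev i (σ i) = 0 := by
    intro i
    simp [hσ]
  have hσmod : ∀ i, RingHom.ker (ev i) ≤ n → ∃ c : C, σ i = s - ϖ * c := by
    intro i hi
    obtain ⟨c, hc⟩ := hmem i hi s hs
    exact ⟨algebraMap A0 C c, by simp [hσ, hc, map_mul, hϖ]⟩
  have hkerR : ∀ i, RingHom.ker (ev i) ≤ n → ∀ e : R →+* A0, (∀ z, e (φ z) = ev i z) →
      RingHom.ker e = Ideal.span {φ (σ i)} := by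
    intro i hi e he
    obtain ⟨c, hc⟩ := hσmod i hi
    refine LocalStep.ker_eq_span e (φ ϖ) (φ (σ i)) ?_ (by rw [he, hσev]) ?_
    · rw [hmaxR]
      apply le_antisymm
      · rw [Ideal.span_le]
        rintro _ (rfl | rfl)
        · exact Ideal.subset_span (by simp)
        · rw [SetLike.mem_coe, Ideal.mem_span_pair]
          refine ⟨φ c, 1, ?_⟩
          rw [hc, map_sub, map_mul]
          ring
      · rw [Ideal.span_le]
        rintro _ (rfl | rfl)
        · exact Ideal.subset_span (by simp)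
        · rw [SetLike.mem_coe, Ideal.mem_span_pair]
          refine ⟨-φ c, 1, ?_⟩
          rw [hc, map_sub, map_mul]
          ring
    · rw [he, hϖ, AlgHom.commutes]
      simpa using hπ0
  set Sn := S.filter (fun i => RingHom.ker (ev i) ≤ n) with hSn
  have hSn_mem : ∀ i ∈ Sn, i ∈ S ∧ RingHom.ker (ev i) ≤ n := fun i hi => Finset.mem_filter.mp hi
  have hσprime : ∀ i ∈ Sn, Prime (φ (σ i)) := by
    intro i hi
    obtain ⟨hiS, hin⟩ := hSn_mem i hi
    obtain ⟨e, he⟩ := hlift i hin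
    have hk := hkerR i hin e he
    obtain ⟨x, hx0, hx⟩ := hker i hiS
    have hne : φ (σ i) ≠ 0 := by
      intro h0
      have h1 : φ x ∈ RingHom.ker e := by rw [RingHom.mem_ker, he, hx]
      rw [hk, h0, Ideal.mem_span_singleton, zero_dvd_iff] at h1
      exact hx0 (hφ (by rw [h1, map_zero]))
    have hp : (Ideal.span {φ (σ i)}).IsPrime := hk ▸ RingHom.ker_isPrime e
    exact (Ideal.span_singleton_prime hne).mp hp
  have hσ0 : ∀ i ∈ Sn, σ i ≠ 0 := by
    intro i hi h0
    exact (hσprime i hi).ne_zero (by rw [h0, map_zero])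
  have ha0 : a ≠ 0 := by
    rintro rfl
    exact ha (dvd_zero _)
  -- the horizontal primes of `a` in the local ring
  have hhorR : ∀ 𝔓 ∈ (Ideal.span {φ a}).minimalPrimes, φ ϖ ∉ 𝔓 →
      ∃ i ∈ Sn, 𝔓 = Ideal.span {φ (σ i)} := by
    intro 𝔓 h𝔓 hϖ𝔓
    have h𝔓p : 𝔓.IsPrime := h𝔓.1.1
    have h1 : 𝔓 ∈ ((Ideal.span {a}).map (algebraMap C R)).minimalPrimes := by
      rwa [Ideal.map_span, Set.image_singleton]
    rw [IsLocalization.minimalPrimes_map n.primeCompl R] at h1
    have h2 : 𝔓.under C ∈ (Ideal.span {a}).minimalPrimes := h1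
    have hle : 𝔓.under C ≤ n := by
      have h3 : 𝔓 ≤ IsLocalRing.maximalIdeal R := IsLocalRing.le_maximalIdeal h𝔓p.ne_top
      have h4 : 𝔓.under C ≤ (IsLocalRing.maximalIdeal R).under C :=
        Ideal.comap_mono (f := algebraMap C R) h3
      have h5 : (IsLocalRing.maximalIdeal R).under C = n :=
        Localization.AtPrime.under_maximalIdeal
      rwa [h5] at h4
    obtain ⟨i, hiS, hi⟩ := hhor _ h2 (fun h => hϖ𝔓 h) hle
    have hin : RingHom.ker (ev i) ≤ n := hi ▸ hle
    refine ⟨i, Finset.mem_filter.mpr ⟨hiS, hin⟩, ?_⟩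
    obtain ⟨e, he⟩ := hlift i hin
    rw [← hkerR i hin e he]
    have hcomap : (RingHom.ker e).under C = RingHom.ker (ev i) := by
      ext z
      rw [Ideal.under, Ideal.mem_comap, RingHom.mem_ker, RingHom.mem_ker]
      exact iff_of_eq (congrArg (· = 0) (he z))
    rw [← IsLocalization.map_under n.primeCompl R 𝔓,
      ← IsLocalization.map_under n.primeCompl R (RingHom.ker e), hcomap, hi]
  have haR : ¬ φ ϖ ∣ φ a := fun h => ha (hcomapϖ a h)
  obtain ⟨m, u, hu, hau⟩ := LocalStep.exists_eq_unit_mul_prod hϖR Sn (fun i => φ (σ i)) hσprime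
    (φ a) ((map_ne_zero_iff φ hφ).mpr ha0) haR hhorR
  obtain ⟨⟨x, w⟩, hxw⟩ := IsLocalization.surj n.primeCompl u
  have hxw' : u * φ (w : C) = φ x := hxw
  have hxn : x ∉ n := by
    have h1 : IsUnit (φ x) := by
      rw [← hxw']
      exact hu.mul ((IsLocalization.AtPrime.isUnit_to_map_iff R n (w : C)).mpr w.2)
    exact (IsLocalization.AtPrime.isUnit_to_map_iff R n x).mp h1
  have hC : (w : C) * a = x * ∏ i ∈ Sn, σ i ^ m i := by
    apply hφ
    rw [map_mul, map_mul, map_prod, hau, ← hxw']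
    simp only [map_pow]
    ring
  -- order computations
  have hν_one : ∀ j ∈ S, ν j 1 = 0 := fun j hj => hν_unit j hj 1 (by simp)
  have hν_pow : ∀ j ∈ S, ∀ z : C, z ≠ 0 → ∀ k : ℕ, ν j (z ^ k) = k * ν j z := by
    intro j hj z hz k
    induction k with
    | zero => simp [hν_one j hj]
    | succ k ih =>
      rw [pow_succ, hν_mul j hj _ _ (pow_ne_zero _ hz) hz, ih]
      push_cast
      ring
  have hν_prod : ∀ j ∈ S, ∀ (T : Finset ι) (f : ι → C), (∀ i ∈ T, f i ≠ 0) →
      ν j (∏ i ∈ T, f i) = ∑ i ∈ T, ν j (f i) := by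
    intro j hj T f hf
    induction T using Finset.induction_on with
    | empty => simp [hν_one j hj]
    | insert i T hi ih =>
      rw [Finset.prod_insert hi, Finset.sum_insert hi,
        hν_mul j hj _ _ (hf i (Finset.mem_insert_self _ _))
          (Finset.prod_ne_zero_iff.mpr fun k hk => hf k (Finset.mem_insert_of_mem hk)),
        ih fun k hk => hf k (Finset.mem_insert_of_mem hk)]
  have hνσ_self : ∀ j ∈ Sn, ν j (σ j) = 1 := by
    intro j hj
    obtain ⟨hjS, hjn⟩ := hSn_mem j hj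
    obtain ⟨e, he⟩ := hlift j hjn
    have hk := hkerR j hjn e he
    refine hν_unif j hjS (σ j) (hσev j) (fun z hz => ?_)
    have h1 : φ z ∈ RingHom.ker e := by rw [RingHom.mem_ker, he, hz]
    rw [hk, Ideal.mem_span_singleton] at h1
    obtain ⟨r, hr⟩ := h1
    obtain ⟨⟨y, w'⟩, hyw⟩ := IsLocalization.surj n.primeCompl r
    have hyw' : r * φ (w' : C) = φ y := hyw
    refine ⟨(w' : C), y, (hunit j hjn _ w'.2).ne_zero, ?_⟩
    apply hφ
    rw [map_mul, map_mul, hr, ← hyw']
    ring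
  have hνσ_ne : ∀ j ∈ Sn, ∀ i ∈ Sn, i ≠ j → ν j (σ i) = 0 := by
    intro j hj i hi hij
    obtain ⟨hjS, hjn⟩ := hSn_mem j hj
    obtain ⟨hiS, hin⟩ := hSn_mem i hi
    refine hν_unit j hjS _ (fun h0 => hij ?_)
    have h1 : ev j s = ev i s := by
      have h2 : ev j (σ i) = ev j s - ev i s := by simp [hσ]
      rw [h2, sub_eq_zero] at h0
      exact h0
    have h3 : σ i = σ j := by simp [hσ, h1]
    obtain ⟨e, he⟩ := hlift i hin
    obtain ⟨e', he'⟩ := hlift j hjn
    have hk := hkerR i hin e he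
    have hk' := hkerR j hjn e' he'
    have hkk : RingHom.ker e = RingHom.ker e' := by rw [hk, hk', h3]
    have hiff : ∀ z : C, ev i z = 0 → ev j z = 0 := by
      intro z hz
      have h4 : φ z ∈ RingHom.ker e := by rw [RingHom.mem_ker, he, hz]
      rw [hkk, RingHom.mem_ker, he'] at h4
      exact h4
    refine hinj hiS hjS (AlgHom.ext fun z => ?_)
    have h5 : ev i (z - algebraMap A0 C (ev i z)) = 0 := by simp
    have h6 := hiff _ h5
    rw [map_sub, AlgHom.commutes, sub_eq_zero] at h6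
    simpa using h6.symm
  have hνa : ∀ j ∈ Sn, ν j a = m j := by
    intro j hj
    obtain ⟨hjS, hjn⟩ := hSn_mem j hj
    have hw0 : (w : C) ≠ 0 := fun h => w.2 (h ▸ n.zero_mem)
    have hx0 : x ≠ 0 := fun h => hxn (h ▸ n.zero_mem)
    have hprod0 : ∏ i ∈ Sn, σ i ^ m i ≠ 0 :=
      Finset.prod_ne_zero_iff.mpr fun i hi => pow_ne_zero _ (hσ0 i hi)
    have h1 : ν j ((w : C) * a) = ν j a := by
      rw [hν_mul j hjS _ _ hw0 ha0, hν_unit j hjS _ (hunit j hjn _ w.2).ne_zero, zero_add]
    have h2 : ν j (x * ∏ i ∈ Sn, σ i ^ m i) = m j := by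
      rw [hν_mul j hjS _ _ hx0 hprod0, hν_unit j hjS _ (hunit j hjn _ hxn).ne_zero, zero_add,
        hν_prod j hjS Sn _ (fun i hi => pow_ne_zero _ (hσ0 i hi))]
      rw [Finset.sum_eq_single j]
      · rw [hν_pow j hjS _ (hσ0 j hj), hνσ_self j hj, mul_one]
      · intro i hi hij
        rw [hν_pow j hjS _ (hσ0 i hi), hνσ_ne j hj i hi hij, mul_zero]
      · intro h
        exact absurd hj h
    rw [← h1, hC, h2]
  refine ⟨∑ i ∈ Sn, m i, (w : C), x, w.2, hxn, ?_, ?_⟩
  · rw [Nat.cast_sum]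
    exact Finset.sum_congr rfl fun i hi => (hνa i hi).symm
  · have hq : Ideal.Quotient.mk (Ideal.span {ϖ}) (∏ i ∈ Sn, σ i ^ m i) =
        Ideal.Quotient.mk (Ideal.span {ϖ}) (s ^ ∑ i ∈ Sn, m i) := by
      rw [map_prod, map_pow, ← Finset.prod_pow_eq_pow_sum]
      refine Finset.prod_congr rfl fun i hi => ?_
      obtain ⟨c, hc⟩ := hσmod i (hSn_mem i hi).2
      rw [map_pow]
      congr 1
      rw [Ideal.Quotient.eq, hc]
      have : s - ϖ * c - s = ϖ * (-c) := by ring
      rw [this]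
      exact Ideal.mul_mem_right _ _ (Ideal.mem_span_singleton_self ϖ)
    rw [hC, ← mul_sub]
    exact Ideal.mul_mem_left _ _ (Ideal.Quotient.eq.mp hq)

open Classical in
/-- **Zero-sum fibres.**  `a`, `b` not divisible by `π`; the horizontal zeros of `a` and `b`
through the special fibre are among the rational sections `ev i`, `i ∈ S`, and at every closed
point `n` of the special fibre the orders of `a / b` along the sections through `n` sum to zero.
Then `a ∈ b C + π C`. -/
theorem exists_sub_mul_mem (π : A0) (hπA : IsLocalRing.maximalIdeal A0 = Ideal.span {π})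
    (hπ : Prime (algebraMap A0 C π))
    (hmax : ∀ n : Ideal C, n.IsMaximal → algebraMap A0 C π ∈ n →
      ∃ s ∈ n, ∀ x ∈ n, ∃ w, w ∉ n ∧ w * x ∈ Ideal.span {algebraMap A0 C π, s})
    {ι : Type*} (S : Finset ι) (ev : ι → C →ₐ[A0] A0) (hinj : Set.InjOn ev S)
    (hker : ∀ i ∈ S, ∃ x : C, x ≠ 0 ∧ ev i x = 0)
    (ν : ι → C → ℤ)
    (hν_mul : ∀ i ∈ S, ∀ x y : C, x ≠ 0 → y ≠ 0 → ν i (x * y) = ν i x + ν i y)
    (hν_unit : ∀ i ∈ S, ∀ x : C, ev i x ≠ 0 → ν i x = 0)
    (hν_unif : ∀ i ∈ S, ∀ σ : C, ev i σ = 0 →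
      (∀ x : C, ev i x = 0 → ∃ w y : C, ev i w ≠ 0 ∧ w * x = σ * y) → ν i σ = 1)
    (a b : C) (ha : ¬ algebraMap A0 C π ∣ a) (hb : ¬ algebraMap A0 C π ∣ b)
    (hhor : ∀ 𝔭 : Ideal C,
      (𝔭 ∈ (Ideal.span {a}).minimalPrimes ∨ 𝔭 ∈ (Ideal.span {b}).minimalPrimes) →
      algebraMap A0 C π ∉ 𝔭 → ∀ n : Ideal C, n.IsMaximal → algebraMap A0 C π ∈ n → 𝔭 ≤ n →
      ∃ i ∈ S, 𝔭 = RingHom.ker (ev i))
    (hzero : ∀ n : Ideal C, n.IsMaximal → algebraMap A0 C π ∈ n →
      ∑ i ∈ S.filter (fun i => RingHom.ker (ev i) ≤ n), (ν i a - ν i b) = 0) :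
    ∃ c : C, a - b * c ∈ Ideal.span {algebraMap A0 C π} := by
  classical
  set ϖ : C := algebraMap A0 C π with hϖ
  let J : Ideal C := Ideal.span {ϖ, b}
  let I : Ideal C := Submodule.comap (LinearMap.mulRight C a) J
  have hI_mem : ∀ z : C, z ∈ I ↔ z * a ∈ J := fun z => Iff.rfl
  have hItop : I = ⊤ := by
    by_contra hI
    obtain ⟨n, hn, hIn⟩ := Ideal.exists_le_maximal I hI
    have hnp : n.IsPrime := hn.isPrime
    have hϖI : ϖ ∈ I := by
      rw [hI_mem]
      exact Ideal.mul_mem_right _ _ (Ideal.subset_span (by simp))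
    have hϖn : ϖ ∈ n := hIn hϖI
    obtain ⟨s, hs, hm⟩ := hmax n hn hϖn
    obtain ⟨d, w, x, hw, hx, hd, hwx⟩ := exists_mul_sub_mul_pow_mem π hπA hπ S ev hinj hker ν
      hν_mul hν_unit hν_unif n hn hϖn s hs hm a ha
      (fun 𝔭 h𝔭 hπ𝔭 hle => hhor 𝔭 (Or.inl h𝔭) hπ𝔭 n hn hϖn hle)
    obtain ⟨d', w', x', hw', hx', hd', hwx'⟩ := exists_mul_sub_mul_pow_mem π hπA hπ S ev hinj hker ν
      hν_mul hν_unit hν_unif n hn hϖn s hs hm b hb
      (fun 𝔭 h𝔭 hπ𝔭 hle => hhor 𝔭 (Or.inr h𝔭) hπ𝔭 n hn hϖn hle)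
    have hdd : d = d' := by
      have h1 := hzero n hn hϖn
      rw [Finset.sum_sub_distrib, ← hd, ← hd', sub_eq_zero] at h1
      exact_mod_cast h1
    subst hdd
    have hmem : (x' * w) * a ∈ J := by
      have h1 : (x' * w) * a = x' * (w * a - x * s ^ d) - x * (w' * b - x' * s ^ d) + (x * w') * b := by
        ring
      rw [h1]
      refine J.add_mem (J.sub_mem ?_ ?_) ?_
      · exact Ideal.mul_mem_left _ _
          ((Ideal.span_mono (by simp : ({ϖ} : Set C) ⊆ {ϖ, b})) hwx)
      · exact Ideal.mul_mem_left _ _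
          ((Ideal.span_mono (by simp : ({ϖ} : Set C) ⊆ {ϖ, b})) hwx')
      · exact Ideal.mul_mem_left _ _ (Ideal.subset_span (by simp))
    have h2 : x' * w ∈ n := hIn ((hI_mem _).mpr hmem)
    rcases (Ideal.IsPrime.mem_or_mem hnp h2) with h | h
    · exact hx' h
    · exact hw h
  have h1 : (1 : C) ∈ I := hItop ▸ Submodule.mem_top
  rw [hI_mem, one_mul, Ideal.mem_span_pair] at h1
  obtain ⟨p, c, hpc⟩ := h1
  refine ⟨c, ?_⟩
  have h2 : a - b * c = p * ϖ := by
    rw [← hpc]
    ring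
  rw [h2]
  exact Ideal.mul_mem_left _ _ (Ideal.mem_span_singleton_self ϖ)

end Fermat.Agent.S37.ZeroSum
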