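import Mathlib
import Fermat.Prelude.Def_AlgebraicCurve_DivisorClassGroup
import Fermat.Agent.S24.FFDeg
import Fermat.Agent.S37.NuOrd
import Fermat.Agent.S37.RatUnram
import Fermat.Agent.S37.PrimePlace
import Fermat.Agent.S37.ZeroSum
import Fermat.Agent.S37.SectionTools
import Fermat.Agent.S37.SectionGen

/-!
# S37 (long shot), cover chain, leaf (L): the local theorem with places

Carrier-generic.  `A0` a discrete valuation ring with fraction field `K0`, `C` a Noetherian
domain over `A0` (the integral closure of a chart `A0[t]` in the function field `F0` at a finite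
level), `γ : C → F0` with `Frac C = F0`, `φ : F0 → Ω` the map to the function field `Ω` over
`L = ℚ̄`.

* `IsPt`, `Pt`, `evPt` : the `A0`-points of `C` (places of `Ω` at which every element of `C` has
  a value in `A0`) and their evaluation sections `C →ₐ[A0] A0`;
* `RedTo`              : an `A0`-point reduces to a closed point `n` of the special fibre;
* `exists_local_gen_pt`, `ord_eq_one_of_local_gen`, `pt_ext`, `exists_place_of_horizontal`,
  `isPt_of_rational`, `ker_le_iff_redTo` : the hypotheses of `ZeroSum.exists_sub_mul_mem`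
  (`hν_unif`, `hinj`, `hhor`, `hzero`) for the family of `A0`-points, from `RatUnram` (U),
  `PrimePlace`, `SectionTools` and `SectionGen`;
* `exists_sub_mul_mem_of_places` : **(L)** -- if the zeros on `C` of `a` and `b` are
  `K0`-rational and the orders of `a / b` sum to zero over the `A0`-points reducing to each closed
  point of the special fibre, then `a ∈ b C + π C`.
-/

set_option autoImplicit false
set_option linter.unusedSectionVars false

open AlgebraicCurve IntermediateField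

namespace Fermat.Agent.S37.LocalCover

open Fermat.Agent.S37.NuOrd Fermat.Agent.S37.RatUnram

section Values

variable {L Ω : Type*} [Field L] [Field Ω] [Algebra L Ω] (P : Place L Ω)

theorem neg_mem_nonunits {a : Ω} (ha : a ∈ P.toValuationSubring.nonunits) :
    -a ∈ P.toValuationSubring.nonunits := by
  rw [ValuationSubring.mem_nonunits_iff] at ha ⊢
  rwa [Valuation.map_neg]

theorem add_mem_nonunits {a b : Ω} (ha : a ∈ P.toValuationSubring.nonunits)
    (hb : b ∈ P.toValuationSubring.nonunits) : a + b ∈ P.toValuationSubring.nonunits := by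
  have := sub_mem_nonunits P.toValuationSubring ha (neg_mem_nonunits P hb)
  rwa [sub_neg_eq_add] at this

theorem const_notMem_nonunits {w : L} (hw : w ≠ 0) :
    algebraMap L Ω w ∉ P.toValuationSubring.nonunits := by
  rw [mem_nonunits_iff_ord_pos P ((map_ne_zero _).mpr hw),
    Fermat.Agent.S24.FFDeg.ord_algebraMap]
  exact lt_irrefl _

theorem mem_of_sub_mem_nonunits {f : Ω} {w : L}
    (h : f - algebraMap L Ω w ∈ P.toValuationSubring.nonunits) : f ∈ P.toValuationSubring := by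
  have h1 := add_mem (ValuationSubring.nonunits_subset h) (P.algebraMap_mem' w)
  rwa [sub_add_cancel] at h1

theorem value_unique {f : Ω} {w w' : L}
    (h : f - algebraMap L Ω w ∈ P.toValuationSubring.nonunits)
    (h' : f - algebraMap L Ω w' ∈ P.toValuationSubring.nonunits) : w = w' := by
  by_contra hne
  have h1 := sub_mem_nonunits _ h h'
  rw [sub_sub_sub_cancel_left, ← map_sub] at h1
  exact const_notMem_nonunits P (sub_ne_zero.mpr (Ne.symm hne)) h1

theorem value_mul {f g : Ω} {w v : L}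
    (hf : f - algebraMap L Ω w ∈ P.toValuationSubring.nonunits)
    (hg : g - algebraMap L Ω v ∈ P.toValuationSubring.nonunits) :
    f * g - algebraMap L Ω (w * v) ∈ P.toValuationSubring.nonunits := by
  have h1 : f * g - algebraMap L Ω (w * v) =
      g * (f - algebraMap L Ω w) + algebraMap L Ω w * (g - algebraMap L Ω v) := by
    rw [map_mul]; ring
  rw [h1]
  exact add_mem_nonunits P (mul_mem_nonunits _ (mem_of_sub_mem_nonunits P hg) hf)
    (mul_mem_nonunits _ (P.algebraMap_mem' w) hg)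

theorem value_add {f g : Ω} {w v : L}
    (hf : f - algebraMap L Ω w ∈ P.toValuationSubring.nonunits)
    (hg : g - algebraMap L Ω v ∈ P.toValuationSubring.nonunits) :
    f + g - algebraMap L Ω (w + v) ∈ P.toValuationSubring.nonunits := by
  have h1 : f + g - algebraMap L Ω (w + v) =
      (f - algebraMap L Ω w) + (g - algebraMap L Ω v) := by
    rw [map_add]; ring
  rw [h1]
  exact add_mem_nonunits P hf hg

/-- value of a quotient. -/
theorem value_div {X f g : Ω} {w v : L} (hv : v ≠ 0) (hX : X * g = f)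
    (hf : f - algebraMap L Ω w ∈ P.toValuationSubring.nonunits)
    (hg : g - algebraMap L Ω v ∈ P.toValuationSubring.nonunits) :
    X - algebraMap L Ω (w / v) ∈ P.toValuationSubring.nonunits := by
  have hg0 : P.ord g = 0 := ord_eq_zero_of_sub_mem P hv hg
  have hgne : g ≠ 0 := by
    rintro rfl
    rw [zero_sub] at hg
    have := neg_mem_nonunits P hg
    rw [neg_neg] at this
    exact const_notMem_nonunits P hv this
  have hginv : g⁻¹ ∈ P.toValuationSubring := by
    rw [← Fermat.Agent.S24.FFDeg.ord_nonneg_iff P (inv_ne_zero hgne), P.ord_inv, hg0]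
    simp
  have hv' : algebraMap L Ω v ≠ 0 := (map_ne_zero _).mpr hv
  have h1 : X - algebraMap L Ω (w / v) =
      (g⁻¹ * algebraMap L Ω v⁻¹) * (algebraMap L Ω v * (f - algebraMap L Ω w) -
        algebraMap L Ω w * (g - algebraMap L Ω v)) := by
    rw [← hX, map_div₀, map_inv₀]
    field_simp
    ring
  rw [h1]
  exact mul_mem_nonunits _ (mul_mem hginv (P.algebraMap_mem' _))
    (sub_mem_nonunits _ (mul_mem_nonunits _ (P.algebraMap_mem' _) hf)
      (mul_mem_nonunits _ (P.algebraMap_mem' _) hg))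

variable {C B : Type*} [CommRing C] [CommRing B] (ψ : C →+* Ω) (j : B →+* L)

/-- **The value homomorphism**: if every `ψ c` has a value in `B ⊆ L` at `P`, the values form a
ring homomorphism `C → B`. -/
theorem exists_valueHom (hj : Function.Injective j)
    (h : ∀ c : C, ∃ b : B, ψ c - algebraMap L Ω (j b) ∈ P.toValuationSubring.nonunits) :
    ∃ ev : C →+* B, ∀ c, ψ c - algebraMap L Ω (j (ev c)) ∈ P.toValuationSubring.nonunits := by
  choose f hf using h
  have huniq : ∀ (c : C) (b : B), ψ c - algebraMap L Ω (j b) ∈ P.toValuationSubring.nonunits →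
      f c = b := fun c b hb => hj (value_unique P (hf c) hb)
  refine ⟨{ toFun := f, map_one' := ?_, map_mul' := ?_, map_zero' := ?_, map_add' := ?_ }, hf⟩
  · apply huniq
    rw [map_one, map_one, map_one, sub_self]
    exact zero_mem _
  · intro c d
    apply huniq
    rw [map_mul, map_mul]
    exact value_mul P (hf c) (hf d)
  · apply huniq
    rw [map_zero, map_zero, map_zero, sub_self]
    exact zero_mem _
  · intro c d
    apply huniq
    rw [map_add, map_add]
    exact value_add P (hf c) (hf d)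

end Values

section Main

open Fermat.Agent.S37.SectionTools Fermat.Agent.S37.SectionGen

variable (A0 K0 : Type*) {L F0 Ω C : Type*}
  [CommRing A0] [IsDomain A0] [IsDiscreteValuationRing A0]
  [Field K0] [Algebra A0 K0] [IsFractionRing A0 K0]
  [Field L] [Algebra K0 L]
  [Field F0] [Algebra K0 F0] [Field Ω] [Algebra L Ω]
  [CommRing C] [Algebra A0 C]

/-- the constants of `A0`, in `L`. -/
def jA (L : Type*) [Field L] [Algebra K0 L] : A0 →+* L :=
  (algebraMap K0 L).comp (algebraMap A0 K0)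

omit [IsDomain A0] [IsDiscreteValuationRing A0] in
theorem jA_injective : Function.Injective (jA A0 K0 L) :=
  (algebraMap K0 L).injective.comp (IsFractionRing.injective A0 K0)

variable (φ : F0 →+* Ω) (γ : C →+* F0)

/-- `P` is an `A0`-point of `C`: every element of `C` has a value in `A0` at `P`. -/
def IsPt (P : Place L Ω) : Prop :=
  ∀ c : C, ∃ a : A0, φ (γ c) - algebraMap L Ω (jA A0 K0 L a) ∈ P.toValuationSubring.nonunits

/-- `P` is an `A0`-point of `C` reducing to the closed point `n` of the special fibre. -/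
def RedTo (π : A0) (P : Place L Ω) (n : Ideal C) : Prop :=
  IsPt A0 K0 φ γ P ∧ ∀ c ∈ n, ∀ a : A0,
    φ (γ c) - algebraMap L Ω (jA A0 K0 L a) ∈ P.toValuationSubring.nonunits → π ∣ a

variable {A0 K0 φ γ}

theorem exists_evPt
    (hφ : ∀ c : K0, φ (algebraMap K0 F0 c) = algebraMap L Ω (algebraMap K0 L c))
    (hγA : ∀ a : A0, γ (algebraMap A0 C a) = algebraMap K0 F0 (algebraMap A0 K0 a))
    {P : Place L Ω} (hP : IsPt A0 K0 φ γ P) :
    ∃ ev : C →ₐ[A0] A0, ∀ c,
      φ (γ c) - algebraMap L Ω (jA A0 K0 L (ev c)) ∈ P.toValuationSubring.nonunits := by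
  obtain ⟨ev, hev⟩ := exists_valueHom P (φ.comp γ) (jA A0 K0 L) (jA_injective A0 K0) hP
  refine ⟨{ ev with commutes' := fun a => ?_ }, hev⟩
  apply jA_injective A0 K0 (L := L)
  refine value_unique P (hev (algebraMap A0 C a)) ?_
  have h1 : (φ.comp γ) (algebraMap A0 C a) = algebraMap L Ω (jA A0 K0 L a) := by
    rw [RingHom.comp_apply, hγA, hφ]
    rfl
  have h2 : (algebraMap A0 A0) a = a := rfl
  rw [h1, h2, sub_self]
  exact zero_mem _

/-- the `A0`-points of `C`. -/
abbrev Pt (A0 K0 L : Type*) {F0 Ω C : Type*} [CommRing A0] [Field K0] [Algebra A0 K0] [Field L]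
    [Algebra K0 L] [Field F0] [Field Ω] [Algebra L Ω] [CommRing C] (φ : F0 →+* Ω)
    (γ : C →+* F0) : Type _ :=
  {P : Place L Ω // IsPt A0 K0 φ γ P}

/-- **The evaluation section at an `A0`-point.** -/
noncomputable def evPt
    (hφ : ∀ c : K0, φ (algebraMap K0 F0 c) = algebraMap L Ω (algebraMap K0 L c))
    (hγA : ∀ a : A0, γ (algebraMap A0 C a) = algebraMap K0 F0 (algebraMap A0 K0 a))
    (i : Pt A0 K0 L φ γ) : C →ₐ[A0] A0 :=
  Classical.choose (exists_evPt hφ hγA i.2)

section Pt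

variable (hφ : ∀ c : K0, φ (algebraMap K0 F0 c) = algebraMap L Ω (algebraMap K0 L c))
  (hγA : ∀ a : A0, γ (algebraMap A0 C a) = algebraMap K0 F0 (algebraMap A0 K0 a))
  (i : Pt A0 K0 L φ γ)

theorem evPt_spec (c : C) :
    φ (γ c) - algebraMap L Ω (jA A0 K0 L (evPt hφ hγA i c)) ∈
      i.1.toValuationSubring.nonunits :=
  Classical.choose_spec (exists_evPt hφ hγA i.2) c

theorem evPt_eq_iff (c : C) (a : A0) :
    evPt hφ hγA i c = a ↔
      φ (γ c) - algebraMap L Ω (jA A0 K0 L a) ∈ i.1.toValuationSubring.nonunits := by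
  constructor
  · rintro rfl
    exact evPt_spec hφ hγA i c
  · intro h
    exact jA_injective A0 K0 (value_unique i.1 (evPt_spec hφ hγA i c) h)

theorem evPt_eq_zero_iff (c : C) :
    evPt hφ hγA i c = 0 ↔ φ (γ c) ∈ i.1.toValuationSubring.nonunits := by
  rw [evPt_eq_iff, map_zero, map_zero, sub_zero]

include hφ hγA in
theorem mem_valuationSubring (c : C) : φ (γ c) ∈ i.1.toValuationSubring :=
  mem_of_sub_mem_nonunits i.1 (evPt_spec hφ hγA i c)

theorem ord_eq_zero_of_evPt_ne_zero {c : C} (hc : evPt hφ hγA i c ≠ 0) :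
    i.1.ord (φ (γ c)) = 0 :=
  ord_eq_zero_of_sub_mem i.1
    (fun h => hc (jA_injective A0 K0 (by rw [h, map_zero]))) (evPt_spec hφ hγA i c)

theorem ord_pos_iff_evPt (hγ : Function.Injective γ) {c : C} (hc : c ≠ 0) :
    0 < i.1.ord (φ (γ c)) ↔ evPt hφ hγA i c = 0 := by
  have h0 : φ (γ c) ≠ 0 := (map_ne_zero φ).mpr (fun h => hc (hγ (by rw [h, map_zero])))
  rw [evPt_eq_zero_iff, mem_nonunits_iff_ord_pos i.1 h0]

include hφ hγA in
theorem ord_nonneg_pt (c : C) : 0 ≤ i.1.ord (φ (γ c)) := by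
  by_cases h0 : φ (γ c) = 0
  · rw [h0, Place.ord_zero]
  · exact (Fermat.Agent.S24.FFDeg.ord_nonneg_iff i.1 h0).mpr (mem_valuationSubring hφ hγA i c)

end Pt

end Main

section Assembly

open Fermat.Agent.S37.SectionTools Fermat.Agent.S37.SectionGen

variable {A0 K0 L F0 Ω C : Type*}
  [CommRing A0] [IsDomain A0] [IsDiscreteValuationRing A0]
  [Field K0] [Algebra A0 K0] [IsFractionRing A0 K0]
  [Field L] [Algebra K0 L]
  [Field F0] [Algebra K0 F0] [Field Ω] [Algebra L Ω]
  [CommRing C] [IsDomain C] [IsNoetherianRing C] [Algebra A0 C]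
  {φ : F0 →+* Ω} {γ : C →+* F0}
  (hφ : ∀ c : K0, φ (algebraMap K0 F0 c) = algebraMap L Ω (algebraMap K0 L c))
  (hγ : Function.Injective γ)
  (hγA : ∀ a : A0, γ (algebraMap A0 C a) = algebraMap K0 F0 (algebraMap A0 K0 a))
  (hfrac : ∀ f : F0, ∃ c d : C, d ≠ 0 ∧ f * γ d = γ c)
  (π : A0) (hπ : Irreducible π)
  (hπC : Prime (algebraMap A0 C π))
  (hmax : ∀ n : Ideal C, n.IsMaximal → algebraMap A0 C π ∈ n →
      ∃ s ∈ n, ∀ x ∈ n, ∃ w, w ∉ n ∧ w * x ∈ Ideal.span {algebraMap A0 C π, s})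

theorem phiGamma_ne_zero {c : C} (hc : c ≠ 0) (hγ : Function.Injective γ) : φ (γ c) ≠ 0 :=
  (map_ne_zero φ).mpr (fun h => hc (hγ (by rw [h, map_zero])))

include hπ hπC hmax in
/-- **Lemma A**: the kernel of the section at an `A0`-point is locally principal. -/
theorem exists_local_gen_pt (i : Pt A0 K0 L φ γ) :
    ∃ σ : C, evPt hφ hγA i σ = 0 ∧ ∀ x, evPt hφ hγA i x = 0 →
      ∃ w y, evPt hφ hγA i w ≠ 0 ∧ w * x = σ * y := by
  set ev := evPt hφ hγA i with hev
  have hsurj : Function.Surjective (ev : C →+* A0) := fun a => ⟨algebraMap A0 C a, ev.commutes a⟩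
  let n : Ideal C := Ideal.comap (ev : C →+* A0) (IsLocalRing.maximalIdeal A0)
  have hn : n.IsMaximal := Ideal.comap_isMaximal_of_surjective (ev : C →+* A0) hsurj
  have hπn : algebraMap A0 C π ∈ n := by
    rw [Ideal.mem_comap]
    show ev (algebraMap A0 C π) ∈ _
    rw [ev.commutes]
    exact hπ.not_isUnit
  have hkn : RingHom.ker ev ≤ n := by
    intro x hx
    rw [Ideal.mem_comap]
    show ev x ∈ _
    rw [RingHom.mem_ker.mp hx]
    exact zero_mem _
  obtain ⟨s, hs, hm⟩ := hmax n hn hπn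
  exact ⟨s - algebraMap A0 C (ev s), by simp,
    exists_local_gen_of_section π hπ.maximalIdeal_eq hπC ev n hn hπn hkn s hs hm⟩

include hφ hγ hfrac in
/-- **Lemma C**: a rational `A0`-point has a uniformizer which is a quotient of elements of
`C`. -/
theorem exists_ord_succ_pt (hgen : Gen L φ) (i : Pt A0 K0 L φ γ)
    (hrat : SameTrace (K0 := K0) φ i.1 i.1) :
    ∃ x y : C, x ≠ 0 ∧ y ≠ 0 ∧ i.1.ord (φ (γ x)) = i.1.ord (φ (γ y)) + 1 := by
  obtain ⟨u, hu⟩ := exists_ord_eq_one hφ hrat hgen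
  have hu0 : u ≠ 0 := by
    rintro rfl
    rw [map_zero, Place.ord_zero] at hu
    exact zero_ne_one hu
  obtain ⟨c, d, hd, hud⟩ := hfrac u
  have hγd : γ d ≠ 0 := fun h => hd (hγ (by rw [h, map_zero]))
  have hc : c ≠ 0 := by
    rintro rfl
    rw [map_zero] at hud
    exact mul_ne_zero hu0 hγd hud
  refine ⟨c, d, hc, hd, ?_⟩
  rw [← hud, map_mul, i.1.ord_mul ((map_ne_zero φ).mpr hu0) ((map_ne_zero φ).mpr hγd), hu]
  ring

include hγ hfrac in
theorem exists_ker_pt (hgen : Gen L φ) (i : Pt A0 K0 L φ γ)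
    (hrat : SameTrace (K0 := K0) φ i.1 i.1) : ∃ x : C, x ≠ 0 ∧ evPt hφ hγA i x = 0 := by
  obtain ⟨c, d, hc, hd, h⟩ := exists_ord_succ_pt hφ hγ hfrac hgen i hrat
  refine ⟨c, hc, (ord_pos_iff_evPt hφ hγA i hγ hc).mp ?_⟩
  have := ord_nonneg_pt hφ hγA i d
  omega

include hγ hfrac in
/-- **Lemma B** (`hν_unif`): a local generator of the kernel of the section at a rational
`A0`-point has order one. -/
theorem ord_eq_one_of_local_gen (hgen : Gen L φ) (i : Pt A0 K0 L φ γ)
    (hrat : SameTrace (K0 := K0) φ i.1 i.1) (σ : C) (hσ : evPt hφ hγA i σ = 0)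
    (hσgen : ∀ x, evPt hφ hγA i x = 0 → ∃ w y, evPt hφ hγA i w ≠ 0 ∧ w * x = σ * y) :
    i.1.ord (φ (γ σ)) = 1 := by
  have hσ0 : σ ≠ 0 := by
    rintro rfl
    obtain ⟨x, hx0, hx⟩ := exists_ker_pt hφ hγ hγA hfrac hgen i hrat
    obtain ⟨w, y, hw, hwx⟩ := hσgen x hx
    rw [zero_mul] at hwx
    rcases mul_eq_zero.mp hwx with h | h
    · exact hw (by rw [h, map_zero])
    · exact hx0 h
  exact nu_eq_one (evPt hφ hγA i : C →+* A0) (fun c => i.1.ord (φ (γ c)))
    (fun x y hx hy => by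
      show i.1.ord (φ (γ (x * y))) = _
      rw [map_mul, map_mul, i.1.ord_mul (phiGamma_ne_zero hx hγ) (phiGamma_ne_zero hy hγ)])
    (fun x => ord_nonneg_pt hφ hγA i x)
    (fun x hx => ord_pos_iff_evPt hφ hγA i hγ hx)
    (exists_ord_succ_pt hφ hγ hfrac hgen i hrat) σ hσ0 hσ hσgen

include hγ in
/-- **Lemma D1**: order and value at an `A0`-point of a fraction, in terms of a local
generator `σ`. -/
theorem ord_and_value_of_decomp (i : Pt A0 K0 L φ γ) (σ : C) (hσ0 : σ ≠ 0)
    {f : F0} (hf : f ≠ 0) {c d w y w' y' : C} {m m' : ℕ} (hd : d ≠ 0) (hfd : f * γ d = γ c)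
    (hw : evPt hφ hγA i w ≠ 0) (hy : evPt hφ hγA i y ≠ 0) (hwc : w * c = σ ^ m * y)
    (hw' : evPt hφ hγA i w' ≠ 0) (hy' : evPt hφ hγA i y' ≠ 0) (hwd : w' * d = σ ^ m' * y') :
    i.1.ord (φ f) = ((m : ℤ) - m') * i.1.ord (φ (γ σ)) ∧
    (m = m' → φ f - algebraMap L Ω (algebraMap K0 L
      (algebraMap A0 K0 (evPt hφ hγA i y * evPt hφ hγA i w') /
        algebraMap A0 K0 (evPt hφ hγA i y' * evPt hφ hγA i w))) ∈
      i.1.toValuationSubring.nonunits) := by
  have hne : ∀ {z : C}, evPt hφ hγA i z ≠ 0 → z ≠ 0 := fun hz h0 => hz (by rw [h0, map_zero])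
  have hγd : γ d ≠ 0 := fun h => hd (hγ (by rw [h, map_zero]))
  have hc : c ≠ 0 := by
    rintro rfl
    rw [map_zero] at hfd
    exact mul_ne_zero hf hγd hfd
  have hθ : φ (γ σ) ≠ 0 := phiGamma_ne_zero hσ0 hγ
  have hφf : φ f ≠ 0 := (map_ne_zero φ).mpr hf
  -- the three relations in `Ω`
  have e1 : φ f * φ (γ d) = φ (γ c) := by rw [← map_mul, hfd]
  have e2 : φ (γ w) * φ (γ c) = φ (γ σ) ^ m * φ (γ y) := by
    rw [← map_mul, ← map_mul, hwc, map_mul, map_mul, map_pow, map_pow]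
  have e3 : φ (γ w') * φ (γ d) = φ (γ σ) ^ m' * φ (γ y') := by
    rw [← map_mul, ← map_mul, hwd, map_mul, map_mul, map_pow, map_pow]
  constructor
  · have o1 := congrArg i.1.ord e1
    have o2 := congrArg i.1.ord e2
    have o3 := congrArg i.1.ord e3
    rw [i.1.ord_mul hφf (phiGamma_ne_zero hd hγ)] at o1
    rw [i.1.ord_mul (phiGamma_ne_zero (hne hw) hγ) (phiGamma_ne_zero hc hγ),
      i.1.ord_mul (pow_ne_zero _ hθ) (phiGamma_ne_zero (hne hy) hγ),
      ord_eq_zero_of_evPt_ne_zero hφ hγA i hw, ord_eq_zero_of_evPt_ne_zero hφ hγA i hy,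
      ← zpow_natCast, i.1.ord_zpow] at o2
    rw [i.1.ord_mul (phiGamma_ne_zero (hne hw') hγ) (phiGamma_ne_zero hd hγ),
      i.1.ord_mul (pow_ne_zero _ hθ) (phiGamma_ne_zero (hne hy') hγ),
      ord_eq_zero_of_evPt_ne_zero hφ hγA i hw', ord_eq_zero_of_evPt_ne_zero hφ hγA i hy',
      ← zpow_natCast, i.1.ord_zpow] at o3
    linear_combination o1 + o2 - o3
  · intro hmm
    subst hmm
    have hX : φ f * (φ (γ y') * φ (γ w)) = φ (γ y) * φ (γ w') := by
      have h1 : φ (γ σ) ^ m * (φ f * (φ (γ y') * φ (γ w))) =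
          φ (γ σ) ^ m * (φ (γ y) * φ (γ w')) := by
        linear_combination (φ f * φ (γ w)) * (-e3) + φ (γ w') * e2 + (φ (γ w') * φ (γ w)) * e1
      exact mul_left_cancel₀ (pow_ne_zero _ hθ) h1
    have hv : jA A0 K0 L (evPt hφ hγA i y') * jA A0 K0 L (evPt hφ hγA i w) ≠ 0 :=
      mul_ne_zero (fun h => hy' (jA_injective A0 K0 (by rw [h, map_zero])))
        (fun h => hw (jA_injective A0 K0 (by rw [h, map_zero])))
    have h2 := value_div i.1 hv hX
      (value_mul i.1 (evPt_spec hφ hγA i y) (evPt_spec hφ hγA i w'))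
      (value_mul i.1 (evPt_spec hφ hγA i y') (evPt_spec hφ hγA i w))
    have h3 : jA A0 K0 L (evPt hφ hγA i y) * jA A0 K0 L (evPt hφ hγA i w') /
        (jA A0 K0 L (evPt hφ hγA i y') * jA A0 K0 L (evPt hφ hγA i w)) =
        algebraMap K0 L (algebraMap A0 K0 (evPt hφ hγA i y * evPt hφ hγA i w') /
          algebraMap A0 K0 (evPt hφ hγA i y' * evPt hφ hγA i w)) := by
      simp only [jA, RingHom.comp_apply, map_mul, map_div₀]
    rwa [h3] at h2

include hγ hfrac hπ hπC hmax in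
/-- **Lemma D** (`hinj`): a rational `A0`-point is determined by its evaluation section. -/
theorem pt_ext (hgen : Gen L φ) (i i' : Pt A0 K0 L φ γ)
    (hrat : SameTrace (K0 := K0) φ i.1 i.1)
    (h : evPt hφ hγA i = evPt hφ hγA i') : i = i' := by
  obtain ⟨σ, hσ, hσgen⟩ := exists_local_gen_pt hφ hγA π hπ hπC hmax i
  have hσ0 : σ ≠ 0 := by
    rintro rfl
    obtain ⟨x, hx0, hx⟩ := exists_ker_pt hφ hγ hγA hfrac hgen i hrat
    obtain ⟨w, y, hw, hwx⟩ := hσgen x hx
    rw [zero_mul] at hwx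
    rcases mul_eq_zero.mp hwx with h | h
    · exact hw (by rw [h, map_zero])
    · exact hx0 h
  have hpos : 0 < i.1.ord (φ (γ σ)) := (ord_pos_iff_evPt hφ hγA i hγ hσ0).mpr hσ
  have hpos' : 0 < i'.1.ord (φ (γ σ)) :=
    (ord_pos_iff_evPt hφ hγA i' hγ hσ0).mpr (by rw [← h]; exact hσ)
  -- decomposition of a fraction
  have key : ∀ f : F0, f ≠ 0 → ∃ (m m' : ℕ) (a : K0),
      i.1.ord (φ f) = ((m : ℤ) - m') * i.1.ord (φ (γ σ)) ∧
      i'.1.ord (φ f) = ((m : ℤ) - m') * i'.1.ord (φ (γ σ)) ∧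
      (m = m' → φ f - algebraMap L Ω (algebraMap K0 L a) ∈ i.1.toValuationSubring.nonunits ∧
        φ f - algebraMap L Ω (algebraMap K0 L a) ∈ i'.1.toValuationSubring.nonunits) := by
    intro f hf
    obtain ⟨c, d, hd, hfd⟩ := hfrac f
    have hγd : γ d ≠ 0 := fun h => hd (hγ (by rw [h, map_zero]))
    have hc : c ≠ 0 := by
      rintro rfl
      rw [map_zero] at hfd
      exact mul_ne_zero hf hγd hfd
    obtain ⟨m, w, y, hw, hy, hwc⟩ :=
      exists_mul_eq_pow_mul (evPt hφ hγA i : C →+* A0) σ hσ hσgen c hc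
    obtain ⟨m', w', y', hw', hy', hwd⟩ :=
      exists_mul_eq_pow_mul (evPt hφ hγA i : C →+* A0) σ hσ hσgen d hd
    have r1 := ord_and_value_of_decomp hφ hγ hγA i σ hσ0 hf hd hfd hw hy hwc hw' hy' hwd
    have r2 := ord_and_value_of_decomp hφ hγ hγA i' σ hσ0 hf hd hfd
      (by rw [← h]; exact hw) (by rw [← h]; exact hy) hwc
      (by rw [← h]; exact hw') (by rw [← h]; exact hy') hwd
    refine ⟨m, m', _, r1.1, r2.1, fun hmm => ⟨r1.2 hmm, ?_⟩⟩
    have := r2.2 hmm
    rw [← h] at this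
    exact this
  have hiff : ∀ (j : Pt A0 K0 L φ γ), 0 < j.1.ord (φ (γ σ)) → ∀ (f : F0) (m m' : ℕ), f ≠ 0 →
      j.1.ord (φ f) = ((m : ℤ) - m') * j.1.ord (φ (γ σ)) →
      (φ f ∈ j.1.toValuationSubring ↔ m' ≤ m) := by
    intro j hj f m m' hf hord
    rw [← Fermat.Agent.S24.FFDeg.ord_nonneg_iff j.1 ((map_ne_zero φ).mpr hf), hord]
    constructor
    · intro h0
      by_contra hlt
      push Not at hlt
      have h1 : ((m : ℤ) - m') < 0 := by omega
      have := mul_neg_of_neg_of_pos h1 hj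
      omega
    · intro hle
      have h1 : (0 : ℤ) ≤ (m : ℤ) - m' := by omega
      exact mul_nonneg h1 hj.le
  apply Subtype.ext
  refine eq_of_sameTrace hφ ⟨fun f => ?_, fun f hfP => ?_⟩ hgen
  · by_cases hf : f = 0
    · subst hf
      rw [map_zero]
      exact ⟨fun _ => zero_mem _, fun _ => zero_mem _⟩
    obtain ⟨m, m', a, h1, h2, -⟩ := key f hf
    rw [hiff i hpos f m m' hf h1, hiff i' hpos' f m m' hf h2]
  · by_cases hf : f = 0
    · subst hf
      refine ⟨0, ?_, ?_⟩ <;>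
      · rw [map_zero, map_zero, map_zero, sub_zero]
        exact zero_mem _
    obtain ⟨m, m', a, h1, h2, h3⟩ := key f hf
    have hle : m' ≤ m := (hiff i hpos f m m' hf h1).mp hfP
    rcases Nat.lt_or_ge m' m with hlt | hge
    · have hφf : φ f ≠ 0 := (map_ne_zero φ).mpr hf
      have hd : (0 : ℤ) < (m : ℤ) - m' := by omega
      refine ⟨0, ?_, ?_⟩
      · rw [map_zero, map_zero, sub_zero, mem_nonunits_iff_ord_pos i.1 hφf, h1]
        exact mul_pos hd hpos
      · rw [map_zero, map_zero, sub_zero, mem_nonunits_iff_ord_pos i'.1 hφf, h2]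
        exact mul_pos hd hpos'
    · exact ⟨a, h3 (le_antisymm hge hle)⟩

include hφ hγ hγA hπ in
/-- **Lemma E1**: a horizontal prime of `C` is the centre of a place of `Ω`. -/
theorem exists_place_of_horizontal [CharZero L] [Algebra.IsAlgebraic K0 L]
    (x : Ω) (hx : Transcendental L x) [FiniteDimensional L⟮x⟯ Ω]
    (𝔭 : Ideal C) [𝔭.IsPrime] (h𝔭0 : 𝔭 ≠ ⊥) (hπ𝔭 : algebraMap A0 C π ∉ 𝔭) :
    ∃ P : Place L Ω, (∀ c : C, φ (γ c) ∈ P.toValuationSubring) ∧
      ∀ c : C, (c ∈ 𝔭 ↔ φ (γ c) ∈ P.toValuationSubring.nonunits) := by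
  let C' : Subring F0 := γ.range
  let e : C ≃+* C' := RingEquiv.ofBijective γ.rangeRestrict
    ⟨fun a b hab => hγ (congrArg Subtype.val hab), γ.rangeRestrict_surjective⟩
  have he : ∀ c : C, ((e c : C') : F0) = γ c := fun c => rfl
  let 𝔭' : Ideal C' := Ideal.comap (e.symm : C' →+* C) 𝔭
  have hmem : ∀ c : C, e c ∈ 𝔭' ↔ c ∈ 𝔭 := by
    intro c
    show e.symm (e c) ∈ 𝔭 ↔ c ∈ 𝔭
    rw [e.symm_apply_apply]
  have hprime : 𝔭'.IsPrime := Ideal.comap_isPrime _ _
  have hA0 : ∀ b : A0, algebraMap K0 F0 (algebraMap A0 K0 b) ∈ C' :=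
    fun b => ⟨algebraMap A0 C b, hγA b⟩
  have h𝔭' : 𝔭' ≠ ⊥ := by
    obtain ⟨c, hc, hc0⟩ := Submodule.exists_mem_ne_zero_of_ne_bot h𝔭0
    intro hbot
    have h1 : e c ∈ 𝔭' := (hmem c).mpr hc
    rw [hbot, Ideal.mem_bot] at h1
    exact hc0 (e.injective (by rw [h1, map_zero]))
  have h𝔭A : ∀ b : A0, b ≠ 0 →
      (⟨algebraMap K0 F0 (algebraMap A0 K0 b), hA0 b⟩ : C') ∉ 𝔭' := by
    intro b hb hmemb
    have h1 : (⟨algebraMap K0 F0 (algebraMap A0 K0 b), hA0 b⟩ : C') = e (algebraMap A0 C b) :=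
      Subtype.ext (hγA b).symm
    rw [h1, hmem] at hmemb
    obtain ⟨k, u, rfl⟩ := IsDiscreteValuationRing.eq_unit_mul_pow_irreducible hb hπ
    rw [map_mul, map_pow] at hmemb
    rcases Ideal.IsPrime.mem_or_mem inferInstance hmemb with h2 | h2
    · have hu : IsUnit (algebraMap A0 C (u : A0)) := u.isUnit.map _
      exact (Ideal.IsPrime.ne_top inferInstance) (Ideal.eq_top_of_isUnit_mem 𝔭 h2 hu)
    · exact hπ𝔭 (Ideal.IsPrime.mem_of_pow_mem inferInstance k h2)
  obtain ⟨P, h1, h2, -, -⟩ :=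
    Fermat.Agent.S37.PrimePlace.exists_place_of_prime_of_base φ hφ x hx C' hA0 𝔭' h𝔭' h𝔭A
  refine ⟨P, fun c => h1 (e c), fun c => ?_⟩
  rw [← hmem c]
  exact h2 (e c)

include hφ hγA hπ in
/-- **Lemma E2**: a `K0`-rational place through a closed point of the special fibre is an
`A0`-point. -/
theorem isPt_of_rational {P : Place L Ω} (hreg : ∀ c : C, φ (γ c) ∈ P.toValuationSubring)
    (hrat : SameTrace (K0 := K0) φ P P) (n : Ideal C) (hn : n ≠ ⊤)
    (hπn : algebraMap A0 C π ∈ n)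
    (hPn : ∀ c : C, φ (γ c) ∈ P.toValuationSubring.nonunits → c ∈ n) :
    IsPt A0 K0 φ γ P := by
  have h1 : ∀ c : C, ∃ a : K0, (φ.comp γ) c - algebraMap L Ω (algebraMap K0 L a) ∈
      P.toValuationSubring.nonunits := fun c => by
    obtain ⟨a, ha, -⟩ := hrat.2 (γ c) (hreg c)
    exact ⟨a, ha⟩
  obtain ⟨e, he⟩ := exists_valueHom P (φ.comp γ) (algebraMap K0 L) (algebraMap K0 L).injective h1
  have heA : ∀ a : A0, e (algebraMap A0 C a) = algebraMap A0 K0 a := by
    intro a
    apply (algebraMap K0 L).injective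
    refine value_unique P (he (algebraMap A0 C a)) ?_
    rw [RingHom.comp_apply, hγA, hφ, sub_self]
    exact zero_mem _
  have hker : RingHom.ker e ≤ n := by
    intro c hc
    apply hPn
    have h2 := he c
    rwa [RingHom.mem_ker.mp hc, map_zero, map_zero, sub_zero] at h2
  obtain ⟨ev, hev⟩ := exists_section π hπ e heA n hn hker hπn
  intro c
  refine ⟨ev c, ?_⟩
  have h2 := he c
  rw [← hev c] at h2
  exact h2

end Assembly


section MainTheorem

variable {A0 K0 L F0 Ω C : Type*}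
  [CommRing A0] [IsDomain A0] [IsDiscreteValuationRing A0]
  [Field K0] [Algebra A0 K0] [IsFractionRing A0 K0]
  [Field L] [CharZero L] [Algebra K0 L] [Algebra.IsAlgebraic K0 L]
  [Field F0] [Algebra K0 F0] [Field Ω] [Algebra L Ω]
  [CommRing C] [IsDomain C] [IsNoetherianRing C] [Algebra A0 C]

/-- the closed point through which an `A0`-point passes: `ker ev ≤ n` iff `P` reduces to `n`. -/
theorem ker_le_iff_redTo {φ : F0 →+* Ω} {γ : C →+* F0}
    (hφ : ∀ c : K0, φ (algebraMap K0 F0 c) = algebraMap L Ω (algebraMap K0 L c))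
    (hγA : ∀ a : A0, γ (algebraMap A0 C a) = algebraMap K0 F0 (algebraMap A0 K0 a))
    (π : A0) (hπ : Irreducible π) (i : Pt A0 K0 L φ γ) (n : Ideal C) (hn : n.IsMaximal) :
    RingHom.ker (evPt hφ hγA i) ≤ n ↔ RedTo A0 K0 φ γ π i.1 n := by
  have hπA : IsLocalRing.maximalIdeal A0 = Ideal.span {π} := hπ.maximalIdeal_eq
  constructor
  · intro hk
    refine ⟨i.2, fun c hc a' hval => ?_⟩
    have hca : evPt hφ hγA i c = a' := (evPt_eq_iff hφ hγA i c a').mpr hval
    subst hca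
    by_contra hnd
    have hu : IsUnit (evPt hφ hγA i c) := by
      rw [← IsLocalRing.notMem_maximalIdeal, hπA, Ideal.mem_span_singleton]
      exact hnd
    obtain ⟨u, hu⟩ := hu
    have h0 : c * algebraMap A0 C ((u⁻¹ : A0ˣ) : A0) - 1 ∈ RingHom.ker (evPt hφ hγA i) := by
      rw [RingHom.mem_ker, map_sub, map_mul, AlgHom.commutes, map_one, ← hu]
      simp
    have h2 := n.sub_mem (n.mul_mem_right (algebraMap A0 C ((u⁻¹ : A0ˣ) : A0)) hc) (hk h0)
    rw [sub_sub_cancel] at h2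
    exact hn.ne_top ((Ideal.eq_top_iff_one _).mpr h2)
  · rintro ⟨-, hred⟩ x hx
    by_contra hxn
    obtain ⟨y, z, hz, hyz⟩ := hn.exists_inv hxn
    have h1 := congrArg (evPt hφ hγA i) hyz
    rw [map_add, map_mul, RingHom.mem_ker.mp hx, mul_zero, zero_add, map_one] at h1
    have h2 : π ∣ evPt hφ hγA i z := hred z hz _ (evPt_spec hφ hγA i z)
    rw [h1] at h2
    exact hπ.not_isUnit (isUnit_of_dvd_one h2)

open Classical in
/-- **(L): the local theorem with places.**  `C` a Noetherian domain over the discrete valuation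
ring `A0` in which `π` stays prime and whose closed points of the special fibre are of the form
`(π, s)` locally; `γ : C → F0` with `Frac C = F0`, `φ : F0 → Ω`.  If all zeros on `C` of `a` and
`b` (inside a finite set `S₀` of places of `Ω`) are `K0`-rational and the orders of `a / b` sum
to zero over the `A0`-points reducing to each closed point of the special fibre, then
`a ∈ b C + π C`. -/
theorem exists_sub_mul_mem_of_places
    (φ : F0 →+* Ω) (γ : C →+* F0)
    (hφ : ∀ c : K0, φ (algebraMap K0 F0 c) = algebraMap L Ω (algebraMap K0 L c))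
    (hγ : Function.Injective γ)
    (hγA : ∀ a : A0, γ (algebraMap A0 C a) = algebraMap K0 F0 (algebraMap A0 K0 a))
    (hfrac : ∀ f : F0, ∃ c d : C, d ≠ 0 ∧ f * γ d = γ c)
    (x : Ω) (hx : Transcendental L x) [FiniteDimensional L⟮x⟯ Ω]
    (hgen : Gen L φ)
    (π : A0) (hπ : Irreducible π)
    (hπC : Prime (algebraMap A0 C π))
    (hmax : ∀ n : Ideal C, n.IsMaximal → algebraMap A0 C π ∈ n →
      ∃ s ∈ n, ∀ x ∈ n, ∃ w, w ∉ n ∧ w * x ∈ Ideal.span {algebraMap A0 C π, s})
    (a b : C) (ha : ¬ algebraMap A0 C π ∣ a) (hb : ¬ algebraMap A0 C π ∣ b)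
    (S₀ : Finset (Place L Ω))
    (hS₀ : ∀ P : Place L Ω, (∀ c : C, φ (γ c) ∈ P.toValuationSubring) →
      (φ (γ a) ∈ P.toValuationSubring.nonunits ∨ φ (γ b) ∈ P.toValuationSubring.nonunits) →
      P ∈ S₀)
    (hrat : ∀ P ∈ S₀, SameTrace (K0 := K0) φ P P)
    (hzero : ∀ n : Ideal C, n.IsMaximal → algebraMap A0 C π ∈ n →
      ∑ P ∈ S₀.filter (fun P => RedTo A0 K0 φ γ π P n),
        (P.ord (φ (γ a)) - P.ord (φ (γ b))) = 0) :
    ∃ c : C, a - b * c ∈ Ideal.span {algebraMap A0 C π} := by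
  have hπA : IsLocalRing.maximalIdeal A0 = Ideal.span {π} := hπ.maximalIdeal_eq
  let S : Finset (Pt A0 K0 L φ γ) := S₀.subtype (IsPt A0 K0 φ γ)
  have hSmem : ∀ i : Pt A0 K0 L φ γ, i ∈ S ↔ i.1 ∈ S₀ := fun i => Finset.mem_subtype
  refine ZeroSum.exists_sub_mul_mem π hπA hπC hmax S (evPt hφ hγA) ?hinj ?hker
    (fun i c => i.1.ord (φ (γ c))) ?hmul ?hunit ?hunif a b ha hb ?hhor ?hzero
  case hinj =>
    intro i hi i' hi' h
    exact pt_ext hφ hγ hγA hfrac π hπ hπC hmax hgen i i' (hrat _ ((hSmem i).mp hi)) h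
  case hker =>
    intro i hi
    exact exists_ker_pt hφ hγ hγA hfrac hgen i (hrat _ ((hSmem i).mp hi))
  case hmul =>
    intro i hi x y hx hy
    show i.1.ord (φ (γ (x * y))) = _
    rw [map_mul, map_mul, i.1.ord_mul (phiGamma_ne_zero hx hγ) (phiGamma_ne_zero hy hγ)]
  case hunit =>
    intro i hi x hx
    exact ord_eq_zero_of_evPt_ne_zero hφ hγA i hx
  case hunif =>
    intro i hi σ hσ hσgen
    exact ord_eq_one_of_local_gen hφ hγ hγA hfrac hgen i (hrat _ ((hSmem i).mp hi)) σ hσ hσgen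
  case hhor =>
    intro 𝔭 h𝔭 hπ𝔭 n hn hπn h𝔭n
    have hprime : 𝔭.IsPrime := by rcases h𝔭 with h | h <;> exact h.1.1
    have ha0 : a ≠ 0 := fun h => ha (h ▸ dvd_zero _)
    have hb0 : b ≠ 0 := fun h => hb (h ▸ dvd_zero _)
    have hab : a ∈ 𝔭 ∨ b ∈ 𝔭 := by
      rcases h𝔭 with h | h
      · exact Or.inl (h.1.2 (Ideal.mem_span_singleton_self a))
      · exact Or.inr (h.1.2 (Ideal.mem_span_singleton_self b))
    have h𝔭0 : 𝔭 ≠ ⊥ := by
      rintro rfl
      rcases hab with h | h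
      · exact ha0 ((Ideal.mem_bot).mp h)
      · exact hb0 ((Ideal.mem_bot).mp h)
    obtain ⟨P, hreg, hP𝔭⟩ := exists_place_of_horizontal hφ hγ hγA π hπ x hx 𝔭 h𝔭0 hπ𝔭
    have hPS : P ∈ S₀ := hS₀ P hreg (by
      rcases hab with h | h
      · exact Or.inl ((hP𝔭 a).mp h)
      · exact Or.inr ((hP𝔭 b).mp h))
    have hPt : IsPt A0 K0 φ γ P :=
      isPt_of_rational hφ hγA π hπ hreg (hrat P hPS) n hn.ne_top hπn
        (fun c hc => h𝔭n ((hP𝔭 c).mpr hc))
    refine ⟨⟨P, hPt⟩, (hSmem _).mpr hPS, ?_⟩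
    ext c
    rw [RingHom.mem_ker, hP𝔭 c]
    exact (evPt_eq_zero_iff hφ hγA ⟨P, hPt⟩ c).symm
  case hzero =>
    intro n hn hπn
    rw [← hzero n hn hπn]
    refine Finset.sum_bij (fun i _ => i.1) ?_ ?_ ?_ ?_
    · intro i hi
      rw [Finset.mem_filter] at hi ⊢
      exact ⟨(hSmem i).mp hi.1, (ker_le_iff_redTo hφ hγA π hπ i n hn).mp hi.2⟩
    · intro i _ i' _ h
      exact Subtype.ext h
    · intro P hP
      rw [Finset.mem_filter] at hP
      refine ⟨⟨P, hP.2.1⟩, ?_, rfl⟩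
      rw [Finset.mem_filter]
      exact ⟨(hSmem _).mpr hP.1, (ker_le_iff_redTo hφ hγA π hπ ⟨P, hP.2.1⟩ n hn).mpr hP.2⟩
    · intro i _
      rfl

end MainTheorem

end Fermat.Agent.S37.LocalCover
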