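import Mathlib
import Fermat.Agent.S37.LocalCover

/-!
# S37 (long shot), cover chain, leaf (L): the local theorem with places, class form

The same statement as `LocalCover.exists_sub_mul_mem_of_places`, with the zero-sum hypothesis
stated over the classes of an equivalence relation `Rel` on the places of a chart (`In`), as the
sealed contract `CoverHyps.HLocal` has it (`In w := InA A w t`, `Rel := SameChar A t`).
-/

set_option autoImplicit false

open AlgebraicCurve IntermediateField

namespace Fermat.Agent.S37.LocalCoverCls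

open Fermat.Agent.S37.NuOrd Fermat.Agent.S37.RatUnram Fermat.Agent.S37.LocalCover

variable {A0 K0 L F0 Ω C : Type*}
  [CommRing A0] [IsDomain A0] [IsDiscreteValuationRing A0]
  [Field K0] [Algebra A0 K0] [IsFractionRing A0 K0]
  [Field L] [CharZero L] [Algebra K0 L] [Algebra.IsAlgebraic K0 L]
  [Field F0] [Algebra K0 F0] [Field Ω] [Algebra L Ω]
  [CommRing C] [IsDomain C] [IsNoetherianRing C] [Algebra A0 C]

open Classical in
/-- **(L), class form.**  `In w` : the place `w` lies on the chart; `Rel` : an equivalence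
relation on the places of the chart refining "same closed point of the special fibre" (`hRel`).
If the zeros of `a` and `b` lie in the finite set `T` of `K0`-rational places and the orders of
`a / b` sum to zero over every `Rel`-class of `T`, then `a ∈ b C + π C`. -/
theorem exists_sub_mul_mem_of_classes
    (φ : F0 →+* Ω)
    (hφ : ∀ c : K0, φ (algebraMap K0 F0 c) = algebraMap L Ω (algebraMap K0 L c))
    (x : Ω) (hx : Transcendental L x) [FiniteDimensional L⟮x⟯ Ω] (hgen : Gen L φ)
    (γ : C →+* F0) (hγ : Function.Injective γ)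
    (hγA : ∀ a : A0, γ (algebraMap A0 C a) = algebraMap K0 F0 (algebraMap A0 K0 a))
    (hfrac : ∀ f : F0, ∃ x y : C, y ≠ 0 ∧ f * γ y = γ x)
    (π : A0) (hπi : Irreducible π) (hπ : Prime (algebraMap A0 C π))
    (hmax : ∀ n : Ideal C, n.IsMaximal → algebraMap A0 C π ∈ n →
      ∃ s ∈ n, ∀ x ∈ n, ∃ w, w ∉ n ∧ w * x ∈ Ideal.span {algebraMap A0 C π, s})
    (In : Place L Ω → Prop) (Rel : Place L Ω → Place L Ω → Prop)
    (hreg : ∀ w, In w → ∀ c : C, φ (γ c) ∈ w.toValuationSubring)
    (hInt : ∀ w, In w → ∀ (c : C) (a : K0),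
      φ (γ c) - algebraMap L Ω (algebraMap K0 L a) ∈ w.toValuationSubring.nonunits →
      ∃ a0 : A0, algebraMap A0 K0 a0 = a)
    (hIn : ∀ w : Place L Ω, (∀ c : C, ∃ a0 : A0,
      φ (γ c) - algebraMap L Ω (algebraMap K0 L (algebraMap A0 K0 a0)) ∈
        w.toValuationSubring.nonunits) → In w)
    (hrefl : ∀ w, In w → Rel w w)
    (hsymm : ∀ w w', In w → In w' → Rel w w' → Rel w' w)
    (htrans : ∀ w w' w'', In w → In w' → In w'' → Rel w w' → Rel w' w'' → Rel w w'')
    (hRel : ∀ w w', In w → In w' → Rel w w' → ∀ (c : C) (a0 a0' : A0),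
      φ (γ c) - algebraMap L Ω (algebraMap K0 L (algebraMap A0 K0 a0)) ∈
        w.toValuationSubring.nonunits →
      φ (γ c) - algebraMap L Ω (algebraMap K0 L (algebraMap A0 K0 a0')) ∈
        w'.toValuationSubring.nonunits → π ∣ a0 → π ∣ a0')
    (a b : C) (ha : ¬ algebraMap A0 C π ∣ a) (hb : ¬ algebraMap A0 C π ∣ b)
    (T : Finset (Place L Ω))
    (hT : ∀ w : Place L Ω, 0 < w.ord (φ (γ a)) ∨ 0 < w.ord (φ (γ b)) → w ∈ T)
    (hrat : ∀ w ∈ T, SameTrace (K0 := K0) φ w w)
    (hzero : ∀ w₀ ∈ T, In w₀ →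
      ∑ w ∈ T.filter (fun w => In w ∧ Rel w w₀), (w.ord (φ (γ a)) - w.ord (φ (γ b))) = 0) :
    ∃ c : C, a - b * c ∈ Ideal.span {algebraMap A0 C π} := by
  have ha0 : a ≠ 0 := fun h => ha (h ▸ dvd_zero _)
  have hb0 : b ≠ 0 := fun h => hb (h ▸ dvd_zero _)
  refine exists_sub_mul_mem_of_places φ γ hφ hγ hγA hfrac x hx hgen π hπi hπ hmax a b ha hb T
    ?_ hrat ?_
  · intro P _ h
    apply hT
    rcases h with h | h
    · exact Or.inl ((mem_nonunits_iff_ord_pos P (phiGamma_ne_zero ha0 hγ)).mp h)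
    · exact Or.inr ((mem_nonunits_iff_ord_pos P (phiGamma_ne_zero hb0 hγ)).mp h)
  · intro n hn hπn
    have hIsPt : ∀ w ∈ T, In w → IsPt A0 K0 φ γ w := by
      intro w hw hIn' c
      obtain ⟨a', ha', -⟩ := (hrat w hw).2 (γ c) (hreg w hIn' c)
      obtain ⟨a0, rfl⟩ := hInt w hIn' c a' ha'
      exact ⟨a0, ha'⟩
    have hfilt : T.filter (fun P => RedTo A0 K0 φ γ π P n) =
        (T.filter In).filter (fun P => RedTo A0 K0 φ γ π P n) := by
      ext P
      simp only [Finset.mem_filter]
      constructor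
      · rintro ⟨hP, hred⟩
        exact ⟨⟨hP, hIn P hred.1⟩, hred⟩
      · rintro ⟨⟨hP, -⟩, hred⟩
        exact ⟨hP, hred⟩
    rw [hfilt]
    refine Fermat.Agent.S37.SectionTools.sum_filter_eq_zero_of_classes (T.filter In)
      (fun w => w.ord (φ (γ a)) - w.ord (φ (γ b))) Rel ?_ ?_ ?_
      (fun P => RedTo A0 K0 φ γ π P n) ?_ ?_
    · intro i hi
      exact hrefl i (Finset.mem_filter.mp hi).2
    · intro i hi j hj hij
      exact hsymm i j (Finset.mem_filter.mp hi).2 (Finset.mem_filter.mp hj).2 hij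
    · intro i hi j hj k hk hij hjk
      exact htrans i j k (Finset.mem_filter.mp hi).2 (Finset.mem_filter.mp hj).2
        (Finset.mem_filter.mp hk).2 hij hjk
    · rintro i hi j hj hij ⟨hPti, hredi⟩
      have hi' := Finset.mem_filter.mp hi
      have hj' := Finset.mem_filter.mp hj
      refine ⟨hIsPt j hj'.1 hj'.2, fun c hc a0' hval => ?_⟩
      obtain ⟨a0, ha0'⟩ := hPti c
      exact hRel i j hi'.2 hj'.2 hij c a0 a0' ha0' hval (hredi c hc a0 ha0')
    · intro i₀ hi₀
      have hi' := Finset.mem_filter.mp hi₀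
      rw [Finset.filter_filter]
      exact hzero i₀ hi'.1 hi'.2

end Fermat.Agent.S37.LocalCoverCls
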