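import Mathlib
import Fermat.Agent.S18.Setup
import Fermat.Agent.S18.SetupTower
import Fermat.Agent.S18.LineMap
import Fermat.Agent.S18.LineGen
import Fermat.Agent.S18.CoverField
import Fermat.Agent.S18.ConstCover
import Fermat.Agent.S18.ConstInst
import Fermat.Agent.S18.IntConst
import Fermat.Agent.S18.GaussSwap
import Fermat.Agent.S18.Core
import Fermat.Agent.S18.H2Top
import Fermat.Agent.S37.H3SelfH
import Fermat.Agent.S37.NormalJ
import Fermat.Agent.S37.NormalH
import Fermat.Agent.S37.FibreH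

/-!
# S37, cover chain: the sealed inputs of `Core.exists_const_of_idem` on the two covers

Sealed carriers of `S18.Top23`: `K` a number field inside `ℚ̄`, `A₀ = A ∩ K`, `F = FK K N`,
`F# = AdjoinRoot m0` for an irreducible factor `m0` of the cover polynomial (irreducible over `ℚ̄`
as well), `Mh = Line K (root m0)`, `t = Line.gen K (root m0)`.

* `hgen_line`: `Mh` is the fraction field of the chart ring `A₀[t]`;
* `hconst_cover_self`: the elements of `F#` integral over `A₀` are the constants of `A₀`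
  (`F# ∩ ℚ̄ = K` and `A₀` integrally closed);
* `h2Hyp_sealed3`, `h2Hyp_sealed2`: (H2) for `F#` on both `h`-charts;
* `core_inputs3`, `core_inputs2`: (H2) and (H3) for `F#` on both `h`-charts, in one statement;
* `exists_const_of_idem3`, `exists_const_of_idem2` (and `_inv3`, `_inv2` on the chart at
  infinity): an element of the Gauss ring of `F#` which is idempotent modulo `π` is congruent
  modulo `π` to a constant of `A₀` (connectedness of the special fibre).
-/

set_option autoImplicit false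
set_option linter.unusedSectionVars false
set_option linter.style.haveILetI false

open Polynomial AlgebraicCurve ModularCurve

namespace Fermat.Agent.S37.CoverIdem

open Fermat.Agent.S18 Fermat.Agent.S18.CoreDefs

open Fermat.Agent.S18.Setup Fermat.Agent.S18.S24Export

open scoped IntermediateField

local notation "Qb" => AlgebraicClosure ℚ

variable (K : Type*) [Field K] [Algebra K Qb] [Algebra ℚ K] [FiniteDimensional ℚ K]
  (N : ℕ) [NeZero N] (A : ValuationSubring Qb)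
  (m0 : (FK K N)[X]) [Fact (Irreducible m0)] [Fact (Irreducible (m0.map (ιL K N)))]

/-- `Mh = K(h)` is the fraction field of the chart ring `A₀[h]`. -/
theorem hgen_line : ∀ m : Line K (AdjoinRoot.root m0),
    ∃ a b : chart ↥(A0.down K A) (Line K (AdjoinRoot.root m0)) (Line.gen K (AdjoinRoot.root m0)),
      b ≠ 0 ∧ m * (b : Line K (AdjoinRoot.root m0)) = (a : Line K (AdjoinRoot.root m0)) :=
  LineGen.hgen_of_adjoin_eq_top (A0 := ↥(A0.down K A)) (K0 := K)
    (Line.gen K (AdjoinRoot.root m0)) (Line.adjoin_gen K (AdjoinRoot.root m0))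

/-- **The constants of the cover**: an element of `F# = F_K[X]/(m0)` integral over `A₀ = A ∩ K`
is a constant of `A₀`. -/
theorem hconst_cover_self (hm0 : m0.Monic) :
    ∀ x : AdjoinRoot m0, IsIntegral ↥(A0.down K A) x →
      ∃ c : ↥(A0.down K A), x = algebraMap ↥(A0.down K A) (AdjoinRoot m0) c := by
  intro x hx
  have hirr : Irreducible m0 := Fact.out
  have hpos : 0 < m0.natDegree := Irreducible.natDegree_pos hirr
  have hxK : IsIntegral K x := hx.tower_top
  have hcomp : (algebraMap Qb (AdjoinRoot (m0.map (ιL K N)))).comp (algebraMap K Qb) =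
      (CoverField.coverHom (ιL K N) m0).comp (algebraMap K (AdjoinRoot m0)) := by
    ext c
    simp only [RingHom.comp_apply]
    exact (ConstCover.coverHom_algebraMap (K0 := K) (L := Qb) (ιL K N) (ιL_algebraMap K N)
      m0 c).symm
  have hxL : IsIntegral Qb (CoverField.coverHom (ιL K N) m0 x) :=
    IsIntegral.map_of_comp_eq (algebraMap K Qb) (CoverField.coverHom (ιL K N) m0) hcomp hxK
  obtain ⟨c, hc⟩ := IntConst.mem_range_algebraMap_of_isIntegral_self _ hxL
  obtain ⟨a, rfl⟩ := ConstCover.hFL_cover (K0 := K) (L := Qb) (ιL K N) (ConstInst.hFL_ιL K N)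
    m0 hm0 hpos x ⟨c, hc.symm⟩
  have haK : IsIntegral ↥(A0.down K A) a :=
    (isIntegral_algebraMap_iff (algebraMap K (AdjoinRoot m0)).injective).mp hx
  obtain ⟨b, rfl⟩ := IsIntegrallyClosed.isIntegral_iff.mp haK
  exact ⟨b, (IsScalarTower.algebraMap_apply ↥(A0.down K A) K (AdjoinRoot m0) b).symm⟩

/-! ### The `X₀(2)`-cover `j h² = (h + 256)³` (`ℓ ≠ 2`, `ℓ ∤ N`) -/

/-- **(H2) for `F#` on both `h`-charts**, sealed carriers: `X₀(2)`-cover `j h² = (h + 256)³` (`ℓ ≠ 2`, `ℓ ∤ N`). -/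
theorem h2Hyp_sealed3 {ℓ : ℕ} (hℓ : ℓ.Prime) (hℓN : ¬ ℓ ∣ N) (hℓ2 : ℓ ≠ 2)
    (hA : A.LiesOverPrime ℓ) (hm0 : m0.Monic)
    (hrelF : algebraMap (FK K N) (AdjoinRoot m0) (jF K N) * AdjoinRoot.root m0 ^ 2 =
      (AdjoinRoot.root m0 + 256) ^ 3)
    (π : ↥(A0.down K A)) (hπ : Irreducible π)
    (hmax : IsLocalRing.maximalIdeal ↥(A0.down K A) = Ideal.span {π}) :
    H2Hyp ↥(A0.down K A) (Line K (AdjoinRoot.root m0)) (AdjoinRoot m0)
        (Line.gen K (AdjoinRoot.root m0)) π ∧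
      H2Hyp ↥(A0.down K A) (Line K (AdjoinRoot.root m0)) (AdjoinRoot m0)
        (Line.gen K (AdjoinRoot.root m0))⁻¹ π := by
  classical
  have hB : (A0.down K A).LiesOverPrime ℓ := (A0.liesOverPrime_down_iff A).mpr hA
  have hdvr : IsDiscreteValuationRing ↥(A0.down K A) := NormalJ.dvr K A hℓ hA
  have h2u : IsUnit (2 : ↥(A0.down K A)) := by
    have := ResField.isUnit_natCast (A0.down K A) hℓ hB (n := 2)
      (fun h => hℓ2 ((Nat.prime_dvd_prime_iff_eq hℓ Nat.prime_two).mp h))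
    simpa using this
  have hc : CharZero K := charZero_of_injective_algebraMap (algebraMap ℚ K).injective
  have : CharZero (AdjoinRoot m0) :=
    charZero_of_injective_algebraMap (algebraMap K (AdjoinRoot m0)).injective
  have hmem : algebraMap (FK K N) (AdjoinRoot m0) (jF K N) ∈ K⟮AdjoinRoot.root m0⟯ :=
    H3SelfH.mem_adjoin_of_rel3 (K0 := K) (jF K N) (AdjoinRoot.root m0) hrelF
  letI := LineMap.algebraLine K (jF K N) (AdjoinRoot.root m0) hmem
  haveI : IsScalarTower K (Line K (jF K N)) (Line K (AdjoinRoot.root m0)) :=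
    LineMap.isScalarTower_base K (jF K N) (AdjoinRoot.root m0) hmem
  haveI : IsScalarTower (Line K (jF K N)) (Line K (AdjoinRoot.root m0)) (AdjoinRoot m0) :=
    LineMap.isScalarTower_top K (jF K N) (AdjoinRoot.root m0) hmem
  haveI : Module.Finite (FK K N) (AdjoinRoot m0) := hm0.finite_adjoinRoot
  haveI : FiniteDimensional (Line K (jF K N)) (AdjoinRoot m0) :=
    Module.Finite.trans (FK K N) (AdjoinRoot m0)
  have hj : Transcendental ↥(A0.down K A) (Line.gen K (jF K N)) :=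
    Line.transcendental_gen_val (jF K N) (A0.down K A) (transcendental_jF K N)
  have hgenj := LineGen.hgen_of_adjoin_eq_top (A0 := ↥(A0.down K A)) (K0 := K)
    (Line.gen K (jF K N)) (Line.adjoin_gen K (jF K N))
  have hgenh := hgen_line K N A m0
  have hrel : algebraMap (Line K (jF K N)) (Line K (AdjoinRoot.root m0)) (Line.gen K (jF K N)) *
      Line.gen K (AdjoinRoot.root m0) ^ 2 = (Line.gen K (AdjoinRoot.root m0) + 256) ^ 3 := by
    apply (algebraMap (Line K (AdjoinRoot.root m0)) (AdjoinRoot m0)).injective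
    rw [map_mul, map_pow, map_pow, map_add, map_ofNat, algebraMap_gen,
      LineMap.algebraMap_gen_line K (jF K N) (AdjoinRoot.root m0) hmem]
    exact hrelF
  have hgenF : Algebra.adjoin (FK K N)
      {algebraMap (Line K (AdjoinRoot.root m0)) (AdjoinRoot m0)
        (Line.gen K (AdjoinRoot.root m0))} = ⊤ := by
    rw [algebraMap_gen]
    exact AdjoinRoot.adjoinRoot_eq_top
  have h2 := H2Top.h2_jline K N A hℓ hℓN hA π hπ hmax
  exact NormalH.h2Hyp_hcharts_cover3 (Line K (jF K N)) (Line K (AdjoinRoot.root m0))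
    (AdjoinRoot m0) (FK K N) π hπ (NormalJ.hchar K A hℓ hA π hπ) h2u (Line.gen K (jF K N)) hj hgenj
    (Line.gen K (AdjoinRoot.root m0)) hgenh hrel hgenF h2

/-- **(H2) and (H3) for `F#` on both `h`-charts**, sealed carriers: the chart hypotheses of
`Core.exists_const_of_idem` and of the machines on the `X₀(2)`-cover `j h² = (h + 256)³` (`ℓ ≠ 2`, `ℓ ∤ N`). -/
theorem core_inputs3 {ℓ : ℕ} (hℓ : ℓ.Prime) (hℓN : ¬ ℓ ∣ N) (hℓ2 : ℓ ≠ 2)
    (hA : A.LiesOverPrime ℓ) (hm0 : m0.Monic)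
    (hrelF : algebraMap (FK K N) (AdjoinRoot m0) (jF K N) * AdjoinRoot.root m0 ^ 2 =
      (AdjoinRoot.root m0 + 256) ^ 3)
    (π : ↥(A0.down K A)) (hπ : Irreducible π)
    (hmax : IsLocalRing.maximalIdeal ↥(A0.down K A) = Ideal.span {π}) :
    ∃ Critf Criti : Finset ↥(A0.down K A),
      H2Hyp ↥(A0.down K A) (Line K (AdjoinRoot.root m0)) (AdjoinRoot m0)
        (Line.gen K (AdjoinRoot.root m0)) π ∧
      H2Hyp ↥(A0.down K A) (Line K (AdjoinRoot.root m0)) (AdjoinRoot m0)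
        (Line.gen K (AdjoinRoot.root m0))⁻¹ π ∧
      H3Hyp ↥(A0.down K A) (Line K (AdjoinRoot.root m0)) (AdjoinRoot m0)
        (Line.gen K (AdjoinRoot.root m0)) π Critf ∧
      H3Hyp ↥(A0.down K A) (Line K (AdjoinRoot.root m0)) (AdjoinRoot m0)
        (Line.gen K (AdjoinRoot.root m0))⁻¹ π Criti := by
  obtain ⟨h2f, h2i⟩ := h2Hyp_sealed3 K N A m0 hℓ hℓN hℓ2 hA hm0 hrelF π hπ hmax
  obtain ⟨Critf, Criti, h3f, h3i⟩ :=
    H3SelfH.h3Hyp_cover3_both N K A m0 hℓ hA hℓ2 hrelF π (NormalJ.harch K A hℓ hA π hπ)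
  exact ⟨Critf, Criti, h2f, h2i, h3f, h3i⟩

/-- **Connectedness of the special fibre, finite chart `A₀[h]`**, sealed carriers: an element of
the Gauss ring of `F#` which is idempotent modulo `π` is congruent modulo `π` to a constant of
`A₀`; `X₀(2)`-cover `j h² = (h + 256)³` (`ℓ ≠ 2`, `ℓ ∤ N`). -/
theorem exists_const_of_idem3 {ℓ : ℕ} (hℓ : ℓ.Prime) (hℓN : ¬ ℓ ∣ N) (hℓ2 : ℓ ≠ 2)
    (hA : A.LiesOverPrime ℓ) (hm0 : m0.Monic)
    (hrelF : algebraMap (FK K N) (AdjoinRoot m0) (jF K N) * AdjoinRoot.root m0 ^ 2 =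
      (AdjoinRoot.root m0 + 256) ^ 3)
    (π : ↥(A0.down K A)) (hπ : Irreducible π)
    (hmax : IsLocalRing.maximalIdeal ↥(A0.down K A) = Ideal.span {π})
    (e : AdjoinRoot m0)
    (he : InGauss ↥(A0.down K A) (Line K (AdjoinRoot.root m0)) (AdjoinRoot m0)
      (Line.gen K (AdjoinRoot.root m0)) π e)
    (hid : InPiGauss ↥(A0.down K A) (Line K (AdjoinRoot.root m0)) (AdjoinRoot m0)
      (Line.gen K (AdjoinRoot.root m0)) π (e * e - e)) :
    ∃ a : ↥(A0.down K A),
      InPiGauss ↥(A0.down K A) (Line K (AdjoinRoot.root m0)) (AdjoinRoot m0)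
        (Line.gen K (AdjoinRoot.root m0)) π (e - algebraMap ↥(A0.down K A) (AdjoinRoot m0) a) := by
  classical
  have hdvr : IsDiscreteValuationRing ↥(A0.down K A) := NormalJ.dvr K A hℓ hA
  have hc : CharZero K := charZero_of_injective_algebraMap (algebraMap ℚ K).injective
  have : CharZero (AdjoinRoot m0) :=
    charZero_of_injective_algebraMap (algebraMap K (AdjoinRoot m0)).injective
  haveI : FiniteDimensional (Line K (AdjoinRoot.root m0)) (AdjoinRoot m0) :=
    FibreH.finiteDimensional_line3 K N m0 hm0 hrelF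
  haveI : CharZero (Line K (AdjoinRoot.root m0)) :=
    charZero_of_injective_algebraMap (algebraMap K (Line K (AdjoinRoot.root m0))).injective
  have ht : Transcendental ↥(A0.down K A) (Line.gen K (AdjoinRoot.root m0)) :=
    FibreH.transcendental_gen3 K N A m0 hrelF
  obtain ⟨Critf, Criti, h2f, h2i, h3f, h3i⟩ :=
    core_inputs3 K N A m0 hℓ hℓN hℓ2 hA hm0 hrelF π hπ hmax
  exact Core.exists_const_of_idem (Line K (AdjoinRoot.root m0)) (AdjoinRoot m0) π hπ
    (NormalJ.hchar K A hℓ hA π hπ) (Line.gen K (AdjoinRoot.root m0)) ht (hgen_line K N A m0)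
    Critf Criti h2f h2i h3f h3i (hconst_cover_self K N A m0 hm0) e he
    (GaussSwap.inGauss_inv _ _ π hπ ht e he) hid (GaussSwap.inPiGauss_inv _ _ π hπ ht _ hid)

/-- **Connectedness of the special fibre, chart at infinity `A₀[1/h]`**, sealed carriers;
`X₀(2)`-cover `j h² = (h + 256)³` (`ℓ ≠ 2`, `ℓ ∤ N`). -/
theorem exists_const_of_idem_inv3 {ℓ : ℕ} (hℓ : ℓ.Prime) (hℓN : ¬ ℓ ∣ N) (hℓ2 : ℓ ≠ 2)
    (hA : A.LiesOverPrime ℓ) (hm0 : m0.Monic)
    (hrelF : algebraMap (FK K N) (AdjoinRoot m0) (jF K N) * AdjoinRoot.root m0 ^ 2 =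
      (AdjoinRoot.root m0 + 256) ^ 3)
    (π : ↥(A0.down K A)) (hπ : Irreducible π)
    (hmax : IsLocalRing.maximalIdeal ↥(A0.down K A) = Ideal.span {π})
    (e : AdjoinRoot m0)
    (he : InGauss ↥(A0.down K A) (Line K (AdjoinRoot.root m0)) (AdjoinRoot m0)
      (Line.gen K (AdjoinRoot.root m0))⁻¹ π e)
    (hid : InPiGauss ↥(A0.down K A) (Line K (AdjoinRoot.root m0)) (AdjoinRoot m0)
      (Line.gen K (AdjoinRoot.root m0))⁻¹ π (e * e - e)) :
    ∃ a : ↥(A0.down K A),
      InPiGauss ↥(A0.down K A) (Line K (AdjoinRoot.root m0)) (AdjoinRoot m0)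
        (Line.gen K (AdjoinRoot.root m0))⁻¹ π (e - algebraMap ↥(A0.down K A) (AdjoinRoot m0) a) := by
  classical
  have hdvr : IsDiscreteValuationRing ↥(A0.down K A) := NormalJ.dvr K A hℓ hA
  have ht : Transcendental ↥(A0.down K A) (Line.gen K (AdjoinRoot.root m0)) :=
    FibreH.transcendental_gen3 K N A m0 hrelF
  obtain ⟨a, ha⟩ := exists_const_of_idem3 K N A m0 hℓ hℓN hℓ2 hA hm0 hrelF π hπ hmax e
    ((GaussSwap.inGauss_inv_iff _ _ π hπ ht e).mp he)
    ((GaussSwap.inPiGauss_inv_iff _ _ π hπ ht _).mp hid)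
  exact ⟨a, GaussSwap.inPiGauss_inv _ _ π hπ ht _ ha⟩

/-! ### The `X₀(3)`-cover `j h = (h + 27)(h + 3)³` (`ℓ ≠ 3`, `ℓ ∤ N`) -/

/-- **(H2) for `F#` on both `h`-charts**, sealed carriers: `X₀(3)`-cover `j h = (h + 27)(h + 3)³` (`ℓ ≠ 3`, `ℓ ∤ N`). -/
theorem h2Hyp_sealed2 {ℓ : ℕ} (hℓ : ℓ.Prime) (hℓN : ¬ ℓ ∣ N) (hℓ3 : ℓ ≠ 3)
    (hA : A.LiesOverPrime ℓ) (hm0 : m0.Monic)
    (hrelF : algebraMap (FK K N) (AdjoinRoot m0) (jF K N) * AdjoinRoot.root m0 =
      (AdjoinRoot.root m0 + 27) * (AdjoinRoot.root m0 + 3) ^ 3)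
    (π : ↥(A0.down K A)) (hπ : Irreducible π)
    (hmax : IsLocalRing.maximalIdeal ↥(A0.down K A) = Ideal.span {π}) :
    H2Hyp ↥(A0.down K A) (Line K (AdjoinRoot.root m0)) (AdjoinRoot m0)
        (Line.gen K (AdjoinRoot.root m0)) π ∧
      H2Hyp ↥(A0.down K A) (Line K (AdjoinRoot.root m0)) (AdjoinRoot m0)
        (Line.gen K (AdjoinRoot.root m0))⁻¹ π := by
  classical
  have hB : (A0.down K A).LiesOverPrime ℓ := (A0.liesOverPrime_down_iff A).mpr hA
  have hdvr : IsDiscreteValuationRing ↥(A0.down K A) := NormalJ.dvr K A hℓ hA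
  have h3u : IsUnit (3 : ↥(A0.down K A)) := by
    have := ResField.isUnit_natCast (A0.down K A) hℓ hB (n := 3)
      (fun h => hℓ3 ((Nat.prime_dvd_prime_iff_eq hℓ Nat.prime_three).mp h))
    simpa using this
  have hc : CharZero K := charZero_of_injective_algebraMap (algebraMap ℚ K).injective
  have : CharZero (AdjoinRoot m0) :=
    charZero_of_injective_algebraMap (algebraMap K (AdjoinRoot m0)).injective
  have hmem : algebraMap (FK K N) (AdjoinRoot m0) (jF K N) ∈ K⟮AdjoinRoot.root m0⟯ :=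
    H3SelfH.mem_adjoin_of_rel2 (K0 := K) (jF K N) (AdjoinRoot.root m0) hrelF
  letI := LineMap.algebraLine K (jF K N) (AdjoinRoot.root m0) hmem
  haveI : IsScalarTower K (Line K (jF K N)) (Line K (AdjoinRoot.root m0)) :=
    LineMap.isScalarTower_base K (jF K N) (AdjoinRoot.root m0) hmem
  haveI : IsScalarTower (Line K (jF K N)) (Line K (AdjoinRoot.root m0)) (AdjoinRoot m0) :=
    LineMap.isScalarTower_top K (jF K N) (AdjoinRoot.root m0) hmem
  haveI : Module.Finite (FK K N) (AdjoinRoot m0) := hm0.finite_adjoinRoot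
  haveI : FiniteDimensional (Line K (jF K N)) (AdjoinRoot m0) :=
    Module.Finite.trans (FK K N) (AdjoinRoot m0)
  have hj : Transcendental ↥(A0.down K A) (Line.gen K (jF K N)) :=
    Line.transcendental_gen_val (jF K N) (A0.down K A) (transcendental_jF K N)
  have hgenj := LineGen.hgen_of_adjoin_eq_top (A0 := ↥(A0.down K A)) (K0 := K)
    (Line.gen K (jF K N)) (Line.adjoin_gen K (jF K N))
  have hgenh := hgen_line K N A m0
  have hrel : algebraMap (Line K (jF K N)) (Line K (AdjoinRoot.root m0)) (Line.gen K (jF K N)) *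
      Line.gen K (AdjoinRoot.root m0) =
      (Line.gen K (AdjoinRoot.root m0) + 27) * (Line.gen K (AdjoinRoot.root m0) + 3) ^ 3 := by
    apply (algebraMap (Line K (AdjoinRoot.root m0)) (AdjoinRoot m0)).injective
    rw [map_mul, map_mul, map_pow, map_add, map_add, map_ofNat, map_ofNat, algebraMap_gen,
      LineMap.algebraMap_gen_line K (jF K N) (AdjoinRoot.root m0) hmem]
    exact hrelF
  have hgenF : Algebra.adjoin (FK K N)
      {algebraMap (Line K (AdjoinRoot.root m0)) (AdjoinRoot m0)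
        (Line.gen K (AdjoinRoot.root m0))} = ⊤ := by
    rw [algebraMap_gen]
    exact AdjoinRoot.adjoinRoot_eq_top
  have h2 := H2Top.h2_jline K N A hℓ hℓN hA π hπ hmax
  exact NormalH.h2Hyp_hcharts_cover2 (Line K (jF K N)) (Line K (AdjoinRoot.root m0))
    (AdjoinRoot m0) (FK K N) π hπ (NormalJ.hchar K A hℓ hA π hπ) h3u (Line.gen K (jF K N)) hj hgenj
    (Line.gen K (AdjoinRoot.root m0)) hgenh hrel hgenF h2

/-- **(H2) and (H3) for `F#` on both `h`-charts**, sealed carriers: the chart hypotheses of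
`Core.exists_const_of_idem` and of the machines on the `X₀(3)`-cover `j h = (h + 27)(h + 3)³` (`ℓ ≠ 3`, `ℓ ∤ N`). -/
theorem core_inputs2 {ℓ : ℕ} (hℓ : ℓ.Prime) (hℓN : ¬ ℓ ∣ N) (hℓ3 : ℓ ≠ 3)
    (hA : A.LiesOverPrime ℓ) (hm0 : m0.Monic)
    (hrelF : algebraMap (FK K N) (AdjoinRoot m0) (jF K N) * AdjoinRoot.root m0 =
      (AdjoinRoot.root m0 + 27) * (AdjoinRoot.root m0 + 3) ^ 3)
    (π : ↥(A0.down K A)) (hπ : Irreducible π)
    (hmax : IsLocalRing.maximalIdeal ↥(A0.down K A) = Ideal.span {π}) :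
    ∃ Critf Criti : Finset ↥(A0.down K A),
      H2Hyp ↥(A0.down K A) (Line K (AdjoinRoot.root m0)) (AdjoinRoot m0)
        (Line.gen K (AdjoinRoot.root m0)) π ∧
      H2Hyp ↥(A0.down K A) (Line K (AdjoinRoot.root m0)) (AdjoinRoot m0)
        (Line.gen K (AdjoinRoot.root m0))⁻¹ π ∧
      H3Hyp ↥(A0.down K A) (Line K (AdjoinRoot.root m0)) (AdjoinRoot m0)
        (Line.gen K (AdjoinRoot.root m0)) π Critf ∧
      H3Hyp ↥(A0.down K A) (Line K (AdjoinRoot.root m0)) (AdjoinRoot m0)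
        (Line.gen K (AdjoinRoot.root m0))⁻¹ π Criti := by
  obtain ⟨h2f, h2i⟩ := h2Hyp_sealed2 K N A m0 hℓ hℓN hℓ3 hA hm0 hrelF π hπ hmax
  obtain ⟨Critf, Criti, h3f, h3i⟩ :=
    H3SelfH.h3Hyp_cover2_both N K A m0 hℓ hA hℓ3 hrelF π (NormalJ.harch K A hℓ hA π hπ)
  exact ⟨Critf, Criti, h2f, h2i, h3f, h3i⟩

/-- **Connectedness of the special fibre, finite chart `A₀[h]`**, sealed carriers: an element of
the Gauss ring of `F#` which is idempotent modulo `π` is congruent modulo `π` to a constant of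
`A₀`; `X₀(3)`-cover `j h = (h + 27)(h + 3)³` (`ℓ ≠ 3`, `ℓ ∤ N`). -/
theorem exists_const_of_idem2 {ℓ : ℕ} (hℓ : ℓ.Prime) (hℓN : ¬ ℓ ∣ N) (hℓ3 : ℓ ≠ 3)
    (hA : A.LiesOverPrime ℓ) (hm0 : m0.Monic)
    (hrelF : algebraMap (FK K N) (AdjoinRoot m0) (jF K N) * AdjoinRoot.root m0 =
      (AdjoinRoot.root m0 + 27) * (AdjoinRoot.root m0 + 3) ^ 3)
    (π : ↥(A0.down K A)) (hπ : Irreducible π)
    (hmax : IsLocalRing.maximalIdeal ↥(A0.down K A) = Ideal.span {π})
    (e : AdjoinRoot m0)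
    (he : InGauss ↥(A0.down K A) (Line K (AdjoinRoot.root m0)) (AdjoinRoot m0)
      (Line.gen K (AdjoinRoot.root m0)) π e)
    (hid : InPiGauss ↥(A0.down K A) (Line K (AdjoinRoot.root m0)) (AdjoinRoot m0)
      (Line.gen K (AdjoinRoot.root m0)) π (e * e - e)) :
    ∃ a : ↥(A0.down K A),
      InPiGauss ↥(A0.down K A) (Line K (AdjoinRoot.root m0)) (AdjoinRoot m0)
        (Line.gen K (AdjoinRoot.root m0)) π (e - algebraMap ↥(A0.down K A) (AdjoinRoot m0) a) := by
  classical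
  have hdvr : IsDiscreteValuationRing ↥(A0.down K A) := NormalJ.dvr K A hℓ hA
  have hc : CharZero K := charZero_of_injective_algebraMap (algebraMap ℚ K).injective
  have : CharZero (AdjoinRoot m0) :=
    charZero_of_injective_algebraMap (algebraMap K (AdjoinRoot m0)).injective
  haveI : FiniteDimensional (Line K (AdjoinRoot.root m0)) (AdjoinRoot m0) :=
    FibreH.finiteDimensional_line2 K N m0 hm0 hrelF
  haveI : CharZero (Line K (AdjoinRoot.root m0)) :=
    charZero_of_injective_algebraMap (algebraMap K (Line K (AdjoinRoot.root m0))).injective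
  have ht : Transcendental ↥(A0.down K A) (Line.gen K (AdjoinRoot.root m0)) :=
    FibreH.transcendental_gen2 K N A m0 hrelF
  obtain ⟨Critf, Criti, h2f, h2i, h3f, h3i⟩ :=
    core_inputs2 K N A m0 hℓ hℓN hℓ3 hA hm0 hrelF π hπ hmax
  exact Core.exists_const_of_idem (Line K (AdjoinRoot.root m0)) (AdjoinRoot m0) π hπ
    (NormalJ.hchar K A hℓ hA π hπ) (Line.gen K (AdjoinRoot.root m0)) ht (hgen_line K N A m0)
    Critf Criti h2f h2i h3f h3i (hconst_cover_self K N A m0 hm0) e he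
    (GaussSwap.inGauss_inv _ _ π hπ ht e he) hid (GaussSwap.inPiGauss_inv _ _ π hπ ht _ hid)

/-- **Connectedness of the special fibre, chart at infinity `A₀[1/h]`**, sealed carriers;
`X₀(3)`-cover `j h = (h + 27)(h + 3)³` (`ℓ ≠ 3`, `ℓ ∤ N`). -/
theorem exists_const_of_idem_inv2 {ℓ : ℕ} (hℓ : ℓ.Prime) (hℓN : ¬ ℓ ∣ N) (hℓ3 : ℓ ≠ 3)
    (hA : A.LiesOverPrime ℓ) (hm0 : m0.Monic)
    (hrelF : algebraMap (FK K N) (AdjoinRoot m0) (jF K N) * AdjoinRoot.root m0 =
      (AdjoinRoot.root m0 + 27) * (AdjoinRoot.root m0 + 3) ^ 3)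
    (π : ↥(A0.down K A)) (hπ : Irreducible π)
    (hmax : IsLocalRing.maximalIdeal ↥(A0.down K A) = Ideal.span {π})
    (e : AdjoinRoot m0)
    (he : InGauss ↥(A0.down K A) (Line K (AdjoinRoot.root m0)) (AdjoinRoot m0)
      (Line.gen K (AdjoinRoot.root m0))⁻¹ π e)
    (hid : InPiGauss ↥(A0.down K A) (Line K (AdjoinRoot.root m0)) (AdjoinRoot m0)
      (Line.gen K (AdjoinRoot.root m0))⁻¹ π (e * e - e)) :
    ∃ a : ↥(A0.down K A),
      InPiGauss ↥(A0.down K A) (Line K (AdjoinRoot.root m0)) (AdjoinRoot m0)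
        (Line.gen K (AdjoinRoot.root m0))⁻¹ π (e - algebraMap ↥(A0.down K A) (AdjoinRoot m0) a) := by
  classical
  have hdvr : IsDiscreteValuationRing ↥(A0.down K A) := NormalJ.dvr K A hℓ hA
  have ht : Transcendental ↥(A0.down K A) (Line.gen K (AdjoinRoot.root m0)) :=
    FibreH.transcendental_gen2 K N A m0 hrelF
  obtain ⟨a, ha⟩ := exists_const_of_idem2 K N A m0 hℓ hℓN hℓ3 hA hm0 hrelF π hπ hmax e
    ((GaussSwap.inGauss_inv_iff _ _ π hπ ht e).mp he)
    ((GaussSwap.inPiGauss_inv_iff _ _ π hπ ht _).mp hid)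
  exact ⟨a, GaussSwap.inPiGauss_inv _ _ π hπ ht _ ha⟩

end Fermat.Agent.S37.CoverIdem
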