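/-
S37 (long shot), block (W2), leaf (G) core: the trace of an element nilpotent modulo a prime.

`R` an integrally closed domain with fraction field `M`, `E / M` a finite field extension, `π` a
prime element of `R`.  If `w` and `c` are integral over `R` and `w ^ m = π • c`, then `π` divides
the trace of `w`.  (Consequently, if the trace form of the integral closure is nondegenerate
modulo `π`, the integral closure is reduced modulo `π`.)
-/
import Mathlib

set_option autoImplicit false

open Polynomial IntermediateField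

namespace Fermat.Agent.S37.NilTrace

section Poly

variable {R : Type*} [CommRing R]

/-- The polynomial `G(X) = ∑ i, π ^ (e - i) * ν_i * X ^ (m * i)` (`e = deg ν`), i.e.
`π ^ e * ν (X ^ m / π)`. -/
noncomputable def twistPoly (π : R) (m : ℕ) (ν : R[X]) : R[X] :=
  ∑ i ∈ Finset.range (ν.natDegree + 1),
    C (π ^ (ν.natDegree - i) * ν.coeff i) * X ^ (m * i)

theorem aeval_twistPoly {E : Type*} [CommRing E] [Algebra R E] (π : R) (m : ℕ) (ν : R[X])
    (w c : E) (hm : w ^ m = π • c) :
    aeval w (twistPoly π m ν) = π ^ ν.natDegree • aeval c ν := by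
  unfold twistPoly
  rw [map_sum, aeval_eq_sum_range, Finset.smul_sum]
  refine Finset.sum_congr rfl fun i hi => ?_
  have hi' : i ≤ ν.natDegree := Nat.lt_succ_iff.mp (Finset.mem_range.mp hi)
  have h1 : π ^ ν.natDegree = π ^ (ν.natDegree - i) * π ^ i := by
    rw [← pow_add, Nat.sub_add_cancel hi']
  rw [map_mul, aeval_C, map_pow, aeval_X, pow_mul, hm, _root_.smul_pow, h1]
  simp only [Algebra.smul_def, map_mul, map_pow]
  ring

theorem map_twistPoly {S : Type*} [CommRing S] (f : R →+* S) (π : R) (hπ : f π = 0) (m : ℕ)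
    (ν : R[X]) (hν : ν.Monic) :
    (twistPoly π m ν).map f = X ^ (m * ν.natDegree) := by
  unfold twistPoly
  rw [Polynomial.map_sum, Finset.sum_range_succ]
  have h0 : ∑ i ∈ Finset.range ν.natDegree,
      (C (π ^ (ν.natDegree - i) * ν.coeff i) * X ^ (m * i)).map f = 0 := by
    refine Finset.sum_eq_zero fun i hi => ?_
    have hi' : i < ν.natDegree := Finset.mem_range.mp hi
    have h1 : f (π ^ (ν.natDegree - i) * ν.coeff i) = 0 := by
      rw [map_mul, map_pow, hπ, zero_pow (Nat.sub_ne_zero_of_lt hi'), zero_mul]
    rw [Polynomial.map_mul, Polynomial.map_C, h1, map_zero, zero_mul]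
  rw [h0, zero_add, Polynomial.map_mul, Polynomial.map_C, Nat.sub_self, pow_zero, one_mul,
    coeff_natDegree, hν.leadingCoeff, map_one, map_one, one_mul, Polynomial.map_pow, map_X]

/-- A monic divisor of a power of `X` over a domain is a power of `X`. -/
theorem eq_X_pow_of_monic_of_dvd {S : Type*} [CommRing S] [IsDomain S] {p : S[X]} (hp : p.Monic)
    {n : ℕ} (h : p ∣ X ^ n) : p = X ^ p.natDegree := by
  obtain ⟨k, -, hk⟩ := (dvd_prime_pow (prime_X (R := S)) n).mp h
  obtain ⟨u, hu⟩ := hk.symm
  obtain ⟨c, hc, hcu⟩ := Polynomial.isUnit_iff.mp u.isUnit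
  have h1 : p = C c * X ^ k := by
    rw [← hu, ← hcu]
    ring
  have h2 : p.leadingCoeff = c := by
    rw [h1, leadingCoeff_mul, leadingCoeff_C, leadingCoeff_X_pow, mul_one]
  have h3 : c = 1 := by rw [← h2]; exact hp
  rw [h3, map_one, one_mul] at h1
  rw [h1, natDegree_X_pow]

end Poly

variable {R E : Type*} [CommRing R] [IsDomain R] [IsIntegrallyClosed R] [Field E] [Algebra R E]

/-- If `w`, `c` are integral over `R` and `w ^ m = π • c` with `π` prime, then `π` divides the
second coefficient of the minimal polynomial of `w` over `R`. -/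
theorem dvd_nextCoeff_minpoly (M : Type*) [Field M] [Algebra R M] [IsFractionRing R M]
    [Algebra M E] [IsScalarTower R M E] (π : R) (hπ : Prime π) (w c : E) (hw : IsIntegral R w)
    (hc : IsIntegral R c) (m : ℕ) (hm : w ^ m = π • c) : π ∣ (minpoly R w).nextCoeff := by
  have hinj : Function.Injective (algebraMap R E) := by
    rw [IsScalarTower.algebraMap_eq R M E]
    exact (algebraMap M E).injective.comp (IsFractionRing.injective R M)
  have hfaith : FaithfulSMul R E := (faithfulSMul_iff_algebraMap_injective R E).mpr hinj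
  have htf : Module.IsTorsionFree R E := Module.isTorsionFree_iff_faithfulSMul.mpr hfaith
  set ν := minpoly R c with hν
  have hνm : ν.Monic := minpoly.monic hc
  have hG : aeval w (twistPoly π m ν) = 0 := by
    rw [aeval_twistPoly π m ν w c hm, hν, minpoly.aeval, smul_zero]
  have hdvd : minpoly R w ∣ twistPoly π m ν := minpoly.isIntegrallyClosed_dvd hw hG
  have hprime : (Ideal.span {π} : Ideal R).IsPrime :=
    (Ideal.span_singleton_prime hπ.ne_zero).mpr hπ
  let f : R →+* R ⧸ (Ideal.span {π} : Ideal R) := Ideal.Quotient.mk _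
  have hfπ : f π = 0 := Ideal.Quotient.eq_zero_iff_mem.mpr (Ideal.mem_span_singleton_self π)
  have hμm : (minpoly R w).Monic := minpoly.monic hw
  have hdvd' : (minpoly R w).map f ∣ X ^ (m * ν.natDegree) := by
    rw [← map_twistPoly f π hfπ m ν hνm]
    exact Polynomial.map_dvd f hdvd
  have hmap : (minpoly R w).map f = X ^ ((minpoly R w).map f).natDegree :=
    eq_X_pow_of_monic_of_dvd (hμm.map f) hdvd'
  have hdeg : ((minpoly R w).map f).natDegree = (minpoly R w).natDegree := hμm.natDegree_map f
  rw [hdeg] at hmap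
  -- the next coefficient
  have hnc : f (minpoly R w).nextCoeff = 0 := by
    by_cases h0 : (minpoly R w).natDegree = 0
    · rw [nextCoeff, if_pos h0, map_zero]
    · rw [nextCoeff, if_neg h0, ← coeff_map, hmap, coeff_X_pow, if_neg]
      omega
  exact Ideal.mem_span_singleton.mp (Ideal.Quotient.eq_zero_iff_mem.mp hnc)

/-- **The trace of an element nilpotent modulo `π`** is divisible by `π`. -/
theorem dvd_trace_of_pow_eq_smul {M : Type*} [Field M] [Algebra R M] [IsFractionRing R M]
    [Algebra M E] [IsScalarTower R M E] [FiniteDimensional M E] (π : R) (hπ : Prime π) (w c : E)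
    (hw : IsIntegral R w) (hc : IsIntegral R c) (m : ℕ) (hm : w ^ m = π • c) :
    ∃ a : R, Algebra.trace M E w = algebraMap R M (π * a) := by
  obtain ⟨b, hb⟩ := dvd_nextCoeff_minpoly M π hπ w c hw hc m hm
  have h1 : minpoly M w = (minpoly R w).map (algebraMap R M) :=
    minpoly.isIntegrallyClosed_eq_field_fractions' M hw
  have h2 : (minpoly M w).nextCoeff = algebraMap R M (minpoly R w).nextCoeff := by
    rw [h1]
    exact nextCoeff_map (IsFractionRing.injective R M) _
  refine ⟨-((Module.finrank M⟮w⟯ E : ℕ) : R) * b, ?_⟩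
  rw [trace_eq_finrank_mul_minpoly_nextCoeff M w, h2, hb]
  simp only [map_mul, map_neg, map_natCast]
  ring

end Fermat.Agent.S37.NilTrace
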