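import Mathlib
import Fermat.Agent.S18.CoreDefs
import Fermat.Agent.S18.AdjoinChart
import Fermat.Agent.S18.IntTrick
import Fermat.Agent.S18.GaussSwap
import Fermat.Agent.S18.Core
import Fermat.Agent.S18.ChartGlue
import Fermat.Agent.S18.IntConst
import Fermat.Agent.S37.NilTrace

/-!
# S37 (cover chain, leaf (G)): `π` is prime in the integral closure of the chart ring

`A0` a discrete valuation ring with uniformizer `π`, `M` the function field of the base line with
coordinate `t`, `R = A0[t]` the chart ring, `E / M` a finite extension and `C` the integral closure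
of `R` in `E`.  If the trace form of `C` is nondegenerate modulo `π` (`H2Hyp`) and every element
of the Gauss ring which is idempotent modulo `π` is congruent to a constant of `A0`
(the conclusion of `S18.Core.exists_const_of_idem`), then `π` is a prime element of `C`:
the special fibre of `C` is irreducible (and reduced).

* `exists_eq_smul_of_pow_eq_smul` : reducedness of `C / π C` from `H2Hyp`;
* `prime_of_idem` : primality of `π` in `C` from `H2Hyp` and the idempotent property;
* `prime_pi`, `prime_pi_inv` : the same under the hypotheses of `Core.exists_const_of_idem`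
  (both charts `A0[t]`, `A0[t⁻¹]`);
* `prime_unif_of_idem`, `prime_unif`, `prime_unif_inv` : the forms with the uniformizer of the
  chart ring.
-/

set_option autoImplicit false

open Polynomial

namespace Fermat.Agent.S37.PrimePi

open Fermat.Agent.S18 Fermat.Agent.S18.CoreDefs

section Poly

/-- Splitting a polynomial at the first coefficient not divisible by `ϖ`. -/
theorem exists_aeval_eq (R : Type*) [CommRing R] (S : Type*) [CommRing S] [Algebra R S] (ϖ : R)
    (x : S) : ∀ (m : ℕ) (p : R[X]), (∀ i < m, ϖ ∣ p.coeff i) →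
      ∃ v c : S, aeval x p =
        x ^ m * (algebraMap R S (p.coeff m) + x * v) + algebraMap R S ϖ * c := by
  intro m
  induction m with
  | zero =>
    intro p _
    refine ⟨aeval x p.divX, 0, ?_⟩
    conv_lhs => rw [← Polynomial.divX_mul_X_add p]
    rw [map_add, map_mul, aeval_X, aeval_C]
    ring
  | succ m ih =>
    intro p hp
    obtain ⟨v, c, hvc⟩ := ih p.divX (fun i hi => by
      rw [Polynomial.coeff_divX]
      exact hp (i + 1) (Nat.succ_lt_succ hi))
    obtain ⟨b, hb⟩ := hp 0 (Nat.succ_pos m)
    refine ⟨v, c * x + algebraMap R S b, ?_⟩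
    conv_lhs => rw [← Polynomial.divX_mul_X_add p]
    rw [map_add, map_mul, aeval_X, aeval_C, hvc, Polynomial.coeff_divX, hb, map_mul]
    ring

end Poly

section Abstract

variable {A0 : Type*} [CommRing A0] [IsDomain A0] [IsDiscreteValuationRing A0]
  (M : Type*) [Field M] [Algebra A0 M] (E : Type*) [Field E]
  [Algebra M E] [Algebra A0 E] [IsScalarTower A0 M E]

omit [IsDomain A0] [IsDiscreteValuationRing A0] in
/-- the uniformizer of the chart ring acts on `E` as `π`. -/
theorem unif_smul (t : M) (π : A0) (x : E) : unif A0 M t π • x = π • x := by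
  rw [unif, algebraMap_smul]

/-- **Reducedness of the special fibre from (H2)**: an element of the integral closure of the
chart ring, a power of which is divisible by `π`, is divisible by `π`. -/
theorem exists_eq_smul_of_pow_eq_smul [FiniteDimensional M E] (π : A0) (hπ : Irreducible π)
    (t : M) (ht : Transcendental A0 t)
    (hgen : ∀ m : M, ∃ a b : chart A0 M t, b ≠ 0 ∧ m * (b : M) = (a : M))
    (h2 : H2Hyp A0 M E t π) (z c : E) (hz : IsIntegral (chart A0 M t) z)
    (hc : IsIntegral (chart A0 M t) c) (m : ℕ) (hm : z ^ m = π • c) :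
    ∃ c' : E, IsIntegral (chart A0 M t) c' ∧ z = π • c' := by
  have := AdjoinChart.isIntegrallyClosed M t ht
  have := AdjoinChart.isFractionRing M t hgen
  have hϖ := AdjoinChart.prime_unif M t ht π hπ
  refine h2 z hz fun o ho => ?_
  refine NilTrace.dvd_trace_of_pow_eq_smul (unif A0 M t π) hϖ (z * o) (c * o ^ m) (hz.mul ho)
    (hc.mul (ho.pow m)) m ?_
  rw [mul_pow, hm, unif_smul, smul_mul_assoc]

/-- **`π` is prime in the integral closure of the chart ring**, from (H2) and the property
"idempotent modulo `π` ⟹ congruent to a constant" of the Gauss ring. -/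
theorem prime_of_idem [FiniteDimensional M E] (π : A0) (hπ : Irreducible π) (t : M)
    (ht : Transcendental A0 t)
    (hgen : ∀ m : M, ∃ a b : chart A0 M t, b ≠ 0 ∧ m * (b : M) = (a : M))
    (h2 : H2Hyp A0 M E t π)
    (hidem : ∀ e : E, InGauss A0 M E t π e → InPiGauss A0 M E t π (e * e - e) →
      ∃ a : A0, InPiGauss A0 M E t π (e - algebraMap A0 E a)) :
    Prime (algebraMap A0 (integralClosure (chart A0 M t) E) π) := by
  classical
  have hIC := AdjoinChart.isIntegrallyClosed M t ht
  have hFR := AdjoinChart.isFractionRing M t hgen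
  have hϖ := AdjoinChart.prime_unif M t ht π hπ
  have hinjME : Function.Injective (algebraMap M E) := (algebraMap M E).injective
  have hinjRE : Function.Injective (algebraMap (chart A0 M t) E) := by
    rw [IsScalarTower.algebraMap_eq (chart A0 M t) M E]
    exact hinjME.comp Subtype.val_injective
  -- the uniformizer in `C`
  have hϖC : algebraMap (chart A0 M t) (integralClosure (chart A0 M t) E) (unif A0 M t π) =
      algebraMap A0 (integralClosure (chart A0 M t) E) π := by
    rw [unif, ← IsScalarTower.algebraMap_apply]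
  have hcoeϖ : ((algebraMap A0 (integralClosure (chart A0 M t) E) π :
      integralClosure (chart A0 M t) E) : E) = algebraMap A0 E π := rfl
  -- divisibility by `π` in `C`, elementwise in `E`
  have hdvd_iff : ∀ z : integralClosure (chart A0 M t) E,
      algebraMap A0 (integralClosure (chart A0 M t) E) π ∣ z ↔
        ∃ c : E, IsIntegral (chart A0 M t) c ∧ (z : E) = π • c := by
    intro z
    constructor
    · rintro ⟨c, rfl⟩
      refine ⟨(c : E), c.2, ?_⟩
      rw [Subalgebra.coe_mul, hcoeϖ, Algebra.smul_def]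
    · rintro ⟨c, hc, hzc⟩
      refine ⟨⟨c, hc⟩, Subtype.ext ?_⟩
      rw [Subalgebra.coe_mul, hcoeϖ, hzc, Algebra.smul_def]
  -- (Red)
  have hred : ∀ (z : integralClosure (chart A0 M t) E) (m : ℕ),
      algebraMap A0 (integralClosure (chart A0 M t) E) π ∣ z ^ m →
        algebraMap A0 (integralClosure (chart A0 M t) E) π ∣ z := by
    intro z m hzm
    obtain ⟨c, hc, hzc⟩ := (hdvd_iff _).mp hzm
    rw [Subalgebra.coe_pow] at hzc
    exact (hdvd_iff z).mpr
      (exists_eq_smul_of_pow_eq_smul M E π hπ t ht hgen h2 (z : E) c z.2 hc m hzc)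
  -- (Tors)
  have htors : ∀ (r : chart A0 M t) (z : integralClosure (chart A0 M t) E),
      ¬ unif A0 M t π ∣ r →
      algebraMap A0 (integralClosure (chart A0 M t) E) π ∣
        algebraMap (chart A0 M t) (integralClosure (chart A0 M t) E) r * z →
      algebraMap A0 (integralClosure (chart A0 M t) E) π ∣ z := by
    intro r z hr hrz
    obtain ⟨c, hc, hzc⟩ := (hdvd_iff _).mp hrz
    have h : r • (z : E) = unif A0 M t π • c := by
      rw [unif_smul, ← hzc, Subalgebra.coe_mul, Algebra.smul_def]
      rfl
    obtain ⟨y, hy, hzy⟩ := IntTrick.exists_eq_smul_of_smul_eq_smul (M := M) (unif A0 M t π) r hϖ hr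
      (z : E) c z.2 hc h
    exact (hdvd_iff z).mpr ⟨y, hy, by rw [hzy, unif_smul]⟩
  -- (Idem)
  have hid : ∀ (r : chart A0 M t) (u : integralClosure (chart A0 M t) E),
      ¬ unif A0 M t π ∣ r →
      algebraMap A0 (integralClosure (chart A0 M t) E) π ∣
        u * (u + algebraMap (chart A0 M t) (integralClosure (chart A0 M t) E) r) →
      ∃ a : A0, algebraMap A0 (integralClosure (chart A0 M t) E) π ∣
        u + algebraMap A0 (integralClosure (chart A0 M t) E) a *
          algebraMap (chart A0 M t) (integralClosure (chart A0 M t) E) r := by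
    intro r u hr hu
    obtain ⟨d, hd, hud⟩ := (hdvd_iff _).mp hu
    have hr0 : r ≠ 0 := fun h => hr (h ▸ dvd_zero _)
    have hrE : algebraMap (chart A0 M t) E r ≠ 0 := fun h =>
      hr0 (hinjRE (by rw [h, map_zero]))
    have hcoer : ((algebraMap (chart A0 M t) (integralClosure (chart A0 M t) E) r :
        integralClosure (chart A0 M t) E) : E) = algebraMap (chart A0 M t) E r := rfl
    rw [Subalgebra.coe_mul, Subalgebra.coe_add, hcoer] at hud
    set rE : E := algebraMap (chart A0 M t) E r with hrEdef
    set e : E := -(u : E) / rE with he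
    have hG : InGauss A0 M E t π e := by
      refine ⟨r, hr, ?_⟩
      have : r • e = -(u : E) := by
        rw [Algebra.smul_def, he, ← hrEdef]
        field_simp
      rw [this]
      exact u.2.neg
    have hPG : InPiGauss A0 M E t π (e * e - e) := by
      refine ⟨r ^ 2, fun h => hr (hϖ.dvd_of_dvd_pow h), d, hd, ?_⟩
      rw [← hud, Algebra.smul_def, map_pow, he, ← hrEdef]
      field_simp
      ring
    obtain ⟨a, s, hs, c, hc, hsc⟩ := hidem e hG hPG
    refine ⟨a, (hdvd_iff _).mpr ?_⟩
    have hcoea : ((algebraMap A0 (integralClosure (chart A0 M t) E) a :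
        integralClosure (chart A0 M t) E) : E) = algebraMap A0 E a := rfl
    rw [Subalgebra.coe_add, Subalgebra.coe_mul, hcoer, hcoea]
    have hx : IsIntegral (chart A0 M t) ((u : E) + algebraMap A0 E a * rE) := by
      refine u.2.add (IsIntegral.mul ?_ isIntegral_algebraMap)
      rw [IsScalarTower.algebraMap_apply A0 (chart A0 M t) E]
      exact isIntegral_algebraMap
    have hc' : IsIntegral (chart A0 M t) (-(r • c)) := (hc.smul r).neg
    have h : s • ((u : E) + algebraMap A0 E a * rE) = unif A0 M t π • (-(r • c)) := by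
      rw [unif_smul, smul_neg, smul_comm π r c, ← hsc, Algebra.smul_def, Algebra.smul_def,
        Algebra.smul_def, he, ← hrEdef]
      field_simp
      ring
    obtain ⟨y, hy, hxy⟩ := IntTrick.exists_eq_smul_of_smul_eq_smul (M := M) (unif A0 M t π) s hϖ hs
      _ _ hx hc' h
    exact ⟨y, hy, by rw [hxy, unif_smul]⟩
  refine ⟨?_, ?_, ?_⟩
  · -- nonzero
    intro h0
    have h1 : algebraMap A0 E π = 0 := by rw [← hcoeϖ, h0]; rfl
    have h2' : algebraMap (chart A0 M t) E (unif A0 M t π) = 0 := by
      rw [unif, ← IsScalarTower.algebraMap_apply, h1]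
    exact hϖ.ne_zero (hinjRE (by rw [h2', map_zero]))
  · -- not a unit
    intro hu
    obtain ⟨c, hc, h1c⟩ := (hdvd_iff 1).mp hu.dvd
    rw [Subalgebra.coe_one, ← unif_smul M E t π c, Algebra.smul_def] at h1c
    -- `c` is the inverse of `π` in `M`
    have hπM : algebraMap (chart A0 M t) M (unif A0 M t π) ≠ 0 := fun h =>
      hϖ.ne_zero (IsFractionRing.injective (chart A0 M t) M (by rw [h, map_zero]))
    have hcM : c = algebraMap M E (algebraMap (chart A0 M t) M (unif A0 M t π))⁻¹ := by
      rw [IsScalarTower.algebraMap_apply (chart A0 M t) M E] at h1c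
      have hne : algebraMap M E (algebraMap (chart A0 M t) M (unif A0 M t π)) ≠ 0 := by
        rwa [Ne, map_eq_zero]
      rw [map_inv₀]
      exact eq_inv_of_mul_eq_one_right h1c.symm
    rw [hcM] at hc
    have hc2 : IsIntegral (chart A0 M t) (algebraMap (chart A0 M t) M (unif A0 M t π))⁻¹ :=
      (isIntegral_algebraMap_iff hinjME).mp hc
    obtain ⟨y, hy⟩ := IsIntegrallyClosed.isIntegral_iff.mp hc2
    have : unif A0 M t π * y = 1 := by
      apply IsFractionRing.injective (chart A0 M t) M
      rw [map_mul, hy, map_one, mul_inv_cancel₀ hπM]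
    exact hϖ.not_isUnit (IsUnit.of_mul_eq_one _ this)
  · -- the product rule
    intro x y hxy
    obtain ⟨p, hpm, hpx⟩ := integralClosure.isIntegral x
    have hex : ∃ i, ¬ unif A0 M t π ∣ p.coeff i :=
      ⟨p.natDegree, by rw [hpm.coeff_natDegree]; exact hϖ.not_dvd_one⟩
    set m := Nat.find hex with hmdef
    have hm : ¬ unif A0 M t π ∣ p.coeff m := Nat.find_spec hex
    have hlt : ∀ i < m, unif A0 M t π ∣ p.coeff i := fun i hi => by
      by_contra hcon
      exact Nat.find_min hex hi hcon
    obtain ⟨v, c, hvc⟩ := exists_aeval_eq (chart A0 M t) (integralClosure (chart A0 M t) E)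
      (unif A0 M t π) x m p hlt
    rw [aeval_def, hpx, hϖC] at hvc
    set ϖ := algebraMap A0 (integralClosure (chart A0 M t) E) π with hϖdef
    set am := algebraMap (chart A0 M t) (integralClosure (chart A0 M t) E) (p.coeff m) with hamdef
    have h1 : ϖ ∣ x ^ m * (am + x * v) :=
      ⟨-c, by linear_combination -hvc⟩
    have h3 : ϖ ∣ x * (am + x * v) := by
      refine hred _ (m + 1) ?_
      have : (x * (am + x * v)) ^ (m + 1) = x ^ m * (am + x * v) * (x * (am + x * v) ^ m) := by
        generalize am + x * v = w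
        ring
      rw [this]
      exact h1.mul_right _
    have h4 : ϖ ∣ x * v * (x * v + am) := by
      have : x * v * (x * v + am) = x * (am + x * v) * v := by ring
      rw [this]
      exact h3.mul_right _
    obtain ⟨a, ha⟩ := hid (p.coeff m) (x * v) hm h4
    set aC := algebraMap A0 (integralClosure (chart A0 M t) E) a with haCdef
    have hx1 : ϖ ∣ am * ((1 - aC) * x) := by
      have : am * ((1 - aC) * x) = x * (am + x * v) - (x * v + aC * am) * x := by ring
      rw [this]
      exact dvd_sub h3 (ha.mul_right _)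
    have hx2 : ϖ ∣ (1 - aC) * x := htors _ _ hm hx1
    have hy1 : ϖ ∣ am * (aC * y) := by
      have : am * (aC * y) = (x * v + aC * am) * y - x * y * v := by ring
      rw [this]
      exact dvd_sub (ha.mul_right _) (hxy.mul_right _)
    have hy2 : ϖ ∣ aC * y := htors _ _ hm hy1
    rcases IsLocalRing.isUnit_or_isUnit_one_sub_self a with hau | hau
    · right
      exact ((hau.map (algebraMap A0 (integralClosure (chart A0 M t) E))).dvd_mul_left).mp hy2
    · left
      have hu' : IsUnit (1 - aC) := by
        have := hau.map (algebraMap A0 (integralClosure (chart A0 M t) E))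
        rwa [map_sub, map_one] at this
      exact (hu'.dvd_mul_left).mp hx2

omit [IsDomain A0] [IsDiscreteValuationRing A0] in
/-- the two forms of the uniformizer in the integral closure of the chart ring agree. -/
theorem algebraMap_unif (t : M) (π : A0) :
    algebraMap (chart A0 M t) (integralClosure (chart A0 M t) E) (unif A0 M t π) =
      algebraMap A0 (integralClosure (chart A0 M t) E) π := by
  rw [unif, ← IsScalarTower.algebraMap_apply]

/-- `prime_of_idem`, with the uniformizer of the chart ring. -/
theorem prime_unif_of_idem [FiniteDimensional M E] (π : A0) (hπ : Irreducible π) (t : M)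
    (ht : Transcendental A0 t)
    (hgen : ∀ m : M, ∃ a b : chart A0 M t, b ≠ 0 ∧ m * (b : M) = (a : M))
    (h2 : H2Hyp A0 M E t π)
    (hidem : ∀ e : E, InGauss A0 M E t π e → InPiGauss A0 M E t π (e * e - e) →
      ∃ a : A0, InPiGauss A0 M E t π (e - algebraMap A0 E a)) :
    Prime (algebraMap (chart A0 M t) (integralClosure (chart A0 M t) E) (unif A0 M t π)) := by
  rw [algebraMap_unif]
  exact prime_of_idem M E π hπ t ht hgen h2 hidem

/-- **`π` is prime in the integral closure of the chart ring `A0[t]`** under the hypotheses of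
`S18.Core.exists_const_of_idem` ((H2) on the chart `t`, (H3) on both charts, constants). -/
theorem prime_pi [FiniteDimensional M E] [Algebra.IsSeparable M E] (π : A0) (hπ : Irreducible π)
    (hchar : ∀ n : ℕ, n ≠ 0 → ∃ a : ℕ, (n : A0) ∣ π ^ a) (t : M) (ht : Transcendental A0 t)
    (hgen : ∀ m : M, ∃ a b : chart A0 M t, b ≠ 0 ∧ m * (b : M) = (a : M))
    (Critf Criti : Finset A0)
    (h2f : H2Hyp A0 M E t π) (h3f : H3Hyp A0 M E t π Critf) (h3i : H3Hyp A0 M E t⁻¹ π Criti)
    (hconst : ∀ h : E, IsIntegral A0 h → ∃ a : A0, h = algebraMap A0 E a) :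
    Prime (algebraMap A0 (integralClosure (chart A0 M t) E) π) := by
  have h2i : H2Hyp A0 M E t⁻¹ π := GaussSwap.h2Hyp_inv M E t π hπ ht hgen h2f
  refine prime_of_idem M E π hπ t ht hgen h2f fun e hef hidf => ?_
  exact Core.exists_const_of_idem M E π hπ hchar t ht hgen Critf Criti h2f h2i h3f h3i hconst e
    hef (GaussSwap.inGauss_inv M t π hπ ht e hef) hidf
    (GaussSwap.inPiGauss_inv M t π hπ ht _ hidf)

/-- **`π` is prime in the integral closure of the chart ring at infinity `A0[t⁻¹]`** under the
hypotheses of `S18.Core.exists_const_of_idem`. -/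
theorem prime_pi_inv [FiniteDimensional M E] [Algebra.IsSeparable M E] (π : A0)
    (hπ : Irreducible π)
    (hchar : ∀ n : ℕ, n ≠ 0 → ∃ a : ℕ, (n : A0) ∣ π ^ a) (t : M) (ht : Transcendental A0 t)
    (hgen : ∀ m : M, ∃ a b : chart A0 M t, b ≠ 0 ∧ m * (b : M) = (a : M))
    (Critf Criti : Finset A0)
    (h2f : H2Hyp A0 M E t π) (h3f : H3Hyp A0 M E t π Critf) (h3i : H3Hyp A0 M E t⁻¹ π Criti)
    (hconst : ∀ h : E, IsIntegral A0 h → ∃ a : A0, h = algebraMap A0 E a) :
    Prime (algebraMap A0 (integralClosure (chart A0 M t⁻¹) E) π) := by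
  have ht0 : t ≠ 0 := GaussSwap.ne_zero_of_transcendental M ht
  have ht' : Transcendental A0 t⁻¹ := IntConst.transcendental_inv t ht
  have hgen' := ChartGlue.hgen_inv t ht0 hgen
  have h2i : H2Hyp A0 M E t⁻¹ π := GaussSwap.h2Hyp_inv M E t π hπ ht hgen h2f
  refine prime_of_idem M E π hπ t⁻¹ ht' hgen' h2i fun e hei hidi => ?_
  have hef : InGauss A0 M E t π e := (GaussSwap.inGauss_inv_iff M t π hπ ht e).mp hei
  have hidf : InPiGauss A0 M E t π (e * e - e) :=
    (GaussSwap.inPiGauss_inv_iff M t π hπ ht _).mp hidi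
  obtain ⟨a, ha⟩ := Core.exists_const_of_idem M E π hπ hchar t ht hgen Critf Criti h2f h2i h3f
    h3i hconst e hef hei hidf hidi
  exact ⟨a, GaussSwap.inPiGauss_inv M t π hπ ht _ ha⟩

/-- `prime_pi`, with the uniformizer of the chart ring. -/
theorem prime_unif [FiniteDimensional M E] [Algebra.IsSeparable M E] (π : A0)
    (hπ : Irreducible π)
    (hchar : ∀ n : ℕ, n ≠ 0 → ∃ a : ℕ, (n : A0) ∣ π ^ a) (t : M) (ht : Transcendental A0 t)
    (hgen : ∀ m : M, ∃ a b : chart A0 M t, b ≠ 0 ∧ m * (b : M) = (a : M))
    (Critf Criti : Finset A0)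
    (h2f : H2Hyp A0 M E t π) (h3f : H3Hyp A0 M E t π Critf) (h3i : H3Hyp A0 M E t⁻¹ π Criti)
    (hconst : ∀ h : E, IsIntegral A0 h → ∃ a : A0, h = algebraMap A0 E a) :
    Prime (algebraMap (chart A0 M t) (integralClosure (chart A0 M t) E) (unif A0 M t π)) := by
  rw [algebraMap_unif]
  exact prime_pi M E π hπ hchar t ht hgen Critf Criti h2f h3f h3i hconst

/-- `prime_pi_inv`, with the uniformizer of the chart ring. -/
theorem prime_unif_inv [FiniteDimensional M E] [Algebra.IsSeparable M E] (π : A0)
    (hπ : Irreducible π)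
    (hchar : ∀ n : ℕ, n ≠ 0 → ∃ a : ℕ, (n : A0) ∣ π ^ a) (t : M) (ht : Transcendental A0 t)
    (hgen : ∀ m : M, ∃ a b : chart A0 M t, b ≠ 0 ∧ m * (b : M) = (a : M))
    (Critf Criti : Finset A0)
    (h2f : H2Hyp A0 M E t π) (h3f : H3Hyp A0 M E t π Critf) (h3i : H3Hyp A0 M E t⁻¹ π Criti)
    (hconst : ∀ h : E, IsIntegral A0 h → ∃ a : A0, h = algebraMap A0 E a) :
    Prime (algebraMap (chart A0 M t⁻¹) (integralClosure (chart A0 M t⁻¹) E)
      (unif A0 M t⁻¹ π)) := by
  rw [algebraMap_unif]
  exact prime_pi_inv M E π hπ hchar t ht hgen Critf Criti h2f h3f h3i hconst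

end Abstract

end Fermat.Agent.S37.PrimePi
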