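import Mathlib
import Fermat.Agent.S37.PrimePi
import Fermat.Agent.S37.CoverIdem

/-!
# S37 (cover chain, leaf (G), sealed): `π` is prime on both `h`-charts of both covers

Sealed carriers of `S18.Top23`: `K` a number field inside `ℚ̄`, `A₀ = A ∩ K`, `F = FK K N`,
`F# = AdjoinRoot m0` for an irreducible factor `m0` of the cover polynomial (irreducible over `ℚ̄`
as well), `Mh = Line K (root m0)`, `t = Line.gen K (root m0)`.  The uniformizer `π` of `A₀` is a
prime element of the integral closure `C` of the chart ring `A₀[t]` (resp. `A₀[t⁻¹]`) in `F#`: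
the special fibre of the cover is irreducible.

* `prime_fin3`, `prime_inv3` : the `X₀(2)`-cover `j h² = (h + 256)³` (`ℓ ≠ 2`, `ℓ ∤ N`);
* `prime_fin2`, `prime_inv2` : the `X₀(3)`-cover `j h = (h + 27)(h + 3)³` (`ℓ ≠ 3`, `ℓ ∤ N`).

These are `PrimePi.prime_of_idem` fed with `CoverIdem` ((H2) and connectedness of the special
fibre on the sealed carriers); the statements are the hypothesis `hprime` of `FibreH.hmax_fin3'`
(etc.) and the hypothesis `hπ` of `ZeroSum.exists_sub_mul_mem`.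
-/

set_option autoImplicit false
set_option linter.unusedSectionVars false
set_option linter.style.haveILetI false

open Polynomial AlgebraicCurve ModularCurve

namespace Fermat.Agent.S37.PrimePiCover

open Fermat.Agent.S18 Fermat.Agent.S18.CoreDefs

open Fermat.Agent.S18.Setup Fermat.Agent.S18.S24Export

open scoped IntermediateField

local notation "Qb" => AlgebraicClosure ℚ

variable (K : Type*) [Field K] [Algebra K Qb] [Algebra ℚ K] [FiniteDimensional ℚ K]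
  (N : ℕ) [NeZero N] (A : ValuationSubring Qb)
  (m0 : (FK K N)[X]) [Fact (Irreducible m0)] [Fact (Irreducible (m0.map (ιL K N)))]

/-! ### The `X₀(2)`-cover `j h² = (h + 256)³` (`ℓ ≠ 2`, `ℓ ∤ N`) -/

/-- **`π` is prime in `C = integralClosure A₀[h] F#`**, sealed carriers: `X₀(2)`-cover `j h² = (h + 256)³` (`ℓ ≠ 2`, `ℓ ∤ N`), finite
chart. -/
theorem prime_fin3 {ℓ : ℕ} (hℓ : ℓ.Prime) (hℓN : ¬ ℓ ∣ N) (hℓ2 : ℓ ≠ 2)
    (hA : A.LiesOverPrime ℓ) (hm0 : m0.Monic)
    (hrelF : algebraMap (FK K N) (AdjoinRoot m0) (jF K N) * AdjoinRoot.root m0 ^ 2 =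
      (AdjoinRoot.root m0 + 256) ^ 3)
    (π : ↥(A0.down K A)) (hπ : Irreducible π)
    (hmax : IsLocalRing.maximalIdeal ↥(A0.down K A) = Ideal.span {π}) :
    Prime (algebraMap ↥(A0.down K A)
      ↥(integralClosure (chart ↥(A0.down K A) (Line K (AdjoinRoot.root m0))
      (Line.gen K (AdjoinRoot.root m0))) (AdjoinRoot m0)) π) := by
  classical
  have hdvr : IsDiscreteValuationRing ↥(A0.down K A) := NormalJ.dvr K A hℓ hA
  haveI : FiniteDimensional (Line K (AdjoinRoot.root m0)) (AdjoinRoot m0) :=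
    FibreH.finiteDimensional_line3 K N m0 hm0 hrelF
  have ht : Transcendental ↥(A0.down K A) (Line.gen K (AdjoinRoot.root m0)) :=
    FibreH.transcendental_gen3 K N A m0 hrelF
  obtain ⟨h2f, -⟩ := CoverIdem.h2Hyp_sealed3 K N A m0 hℓ hℓN hℓ2 hA hm0 hrelF π hπ hmax
  exact PrimePi.prime_of_idem (Line K (AdjoinRoot.root m0)) (AdjoinRoot m0) π hπ
    (Line.gen K (AdjoinRoot.root m0)) ht (CoverIdem.hgen_line K N A m0) h2f
    (fun e he hid =>
      CoverIdem.exists_const_of_idem3 K N A m0 hℓ hℓN hℓ2 hA hm0 hrelF π hπ hmax e he hid)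

/-- **`π` is prime in `C = integralClosure A₀[1/h] F#`**, sealed carriers: `X₀(2)`-cover `j h² = (h + 256)³` (`ℓ ≠ 2`, `ℓ ∤ N`), chart at
infinity. -/
theorem prime_inv3 {ℓ : ℕ} (hℓ : ℓ.Prime) (hℓN : ¬ ℓ ∣ N) (hℓ2 : ℓ ≠ 2)
    (hA : A.LiesOverPrime ℓ) (hm0 : m0.Monic)
    (hrelF : algebraMap (FK K N) (AdjoinRoot m0) (jF K N) * AdjoinRoot.root m0 ^ 2 =
      (AdjoinRoot.root m0 + 256) ^ 3)
    (π : ↥(A0.down K A)) (hπ : Irreducible π)
    (hmax : IsLocalRing.maximalIdeal ↥(A0.down K A) = Ideal.span {π}) :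
    Prime (algebraMap ↥(A0.down K A)
      ↥(integralClosure (chart ↥(A0.down K A) (Line K (AdjoinRoot.root m0))
      (Line.gen K (AdjoinRoot.root m0))⁻¹) (AdjoinRoot m0)) π) := by
  classical
  have hdvr : IsDiscreteValuationRing ↥(A0.down K A) := NormalJ.dvr K A hℓ hA
  haveI : FiniteDimensional (Line K (AdjoinRoot.root m0)) (AdjoinRoot m0) :=
    FibreH.finiteDimensional_line3 K N m0 hm0 hrelF
  have ht : Transcendental ↥(A0.down K A) (Line.gen K (AdjoinRoot.root m0)) :=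
    FibreH.transcendental_gen3 K N A m0 hrelF
  have ht0 : Line.gen K (AdjoinRoot.root m0) ≠ 0 := fun h0 => ht (h0 ▸ isAlgebraic_zero)
  obtain ⟨-, h2i⟩ := CoverIdem.h2Hyp_sealed3 K N A m0 hℓ hℓN hℓ2 hA hm0 hrelF π hπ hmax
  exact PrimePi.prime_of_idem (Line K (AdjoinRoot.root m0)) (AdjoinRoot m0) π hπ
    (Line.gen K (AdjoinRoot.root m0))⁻¹ (IntConst.transcendental_inv _ ht)
    (ChartGlue.hgen_inv _ ht0 (CoverIdem.hgen_line K N A m0)) h2i
    (fun e he hid =>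
      CoverIdem.exists_const_of_idem_inv3 K N A m0 hℓ hℓN hℓ2 hA hm0 hrelF π hπ hmax e he
        hid)

/-! ### The `X₀(3)`-cover `j h = (h + 27)(h + 3)³` (`ℓ ≠ 3`, `ℓ ∤ N`) -/

/-- **`π` is prime in `C = integralClosure A₀[h] F#`**, sealed carriers: `X₀(3)`-cover `j h = (h + 27)(h + 3)³` (`ℓ ≠ 3`, `ℓ ∤ N`), finite
chart. -/
theorem prime_fin2 {ℓ : ℕ} (hℓ : ℓ.Prime) (hℓN : ¬ ℓ ∣ N) (hℓ3 : ℓ ≠ 3)
    (hA : A.LiesOverPrime ℓ) (hm0 : m0.Monic)
    (hrelF : algebraMap (FK K N) (AdjoinRoot m0) (jF K N) * AdjoinRoot.root m0 =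
      (AdjoinRoot.root m0 + 27) * (AdjoinRoot.root m0 + 3) ^ 3)
    (π : ↥(A0.down K A)) (hπ : Irreducible π)
    (hmax : IsLocalRing.maximalIdeal ↥(A0.down K A) = Ideal.span {π}) :
    Prime (algebraMap ↥(A0.down K A)
      ↥(integralClosure (chart ↥(A0.down K A) (Line K (AdjoinRoot.root m0))
      (Line.gen K (AdjoinRoot.root m0))) (AdjoinRoot m0)) π) := by
  classical
  have hdvr : IsDiscreteValuationRing ↥(A0.down K A) := NormalJ.dvr K A hℓ hA
  haveI : FiniteDimensional (Line K (AdjoinRoot.root m0)) (AdjoinRoot m0) :=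
    FibreH.finiteDimensional_line2 K N m0 hm0 hrelF
  have ht : Transcendental ↥(A0.down K A) (Line.gen K (AdjoinRoot.root m0)) :=
    FibreH.transcendental_gen2 K N A m0 hrelF
  obtain ⟨h2f, -⟩ := CoverIdem.h2Hyp_sealed2 K N A m0 hℓ hℓN hℓ3 hA hm0 hrelF π hπ hmax
  exact PrimePi.prime_of_idem (Line K (AdjoinRoot.root m0)) (AdjoinRoot m0) π hπ
    (Line.gen K (AdjoinRoot.root m0)) ht (CoverIdem.hgen_line K N A m0) h2f
    (fun e he hid =>
      CoverIdem.exists_const_of_idem2 K N A m0 hℓ hℓN hℓ3 hA hm0 hrelF π hπ hmax e he hid)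

/-- **`π` is prime in `C = integralClosure A₀[1/h] F#`**, sealed carriers: `X₀(3)`-cover `j h = (h + 27)(h + 3)³` (`ℓ ≠ 3`, `ℓ ∤ N`), chart at
infinity. -/
theorem prime_inv2 {ℓ : ℕ} (hℓ : ℓ.Prime) (hℓN : ¬ ℓ ∣ N) (hℓ3 : ℓ ≠ 3)
    (hA : A.LiesOverPrime ℓ) (hm0 : m0.Monic)
    (hrelF : algebraMap (FK K N) (AdjoinRoot m0) (jF K N) * AdjoinRoot.root m0 =
      (AdjoinRoot.root m0 + 27) * (AdjoinRoot.root m0 + 3) ^ 3)
    (π : ↥(A0.down K A)) (hπ : Irreducible π)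
    (hmax : IsLocalRing.maximalIdeal ↥(A0.down K A) = Ideal.span {π}) :
    Prime (algebraMap ↥(A0.down K A)
      ↥(integralClosure (chart ↥(A0.down K A) (Line K (AdjoinRoot.root m0))
      (Line.gen K (AdjoinRoot.root m0))⁻¹) (AdjoinRoot m0)) π) := by
  classical
  have hdvr : IsDiscreteValuationRing ↥(A0.down K A) := NormalJ.dvr K A hℓ hA
  haveI : FiniteDimensional (Line K (AdjoinRoot.root m0)) (AdjoinRoot m0) :=
    FibreH.finiteDimensional_line2 K N m0 hm0 hrelF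
  have ht : Transcendental ↥(A0.down K A) (Line.gen K (AdjoinRoot.root m0)) :=
    FibreH.transcendental_gen2 K N A m0 hrelF
  have ht0 : Line.gen K (AdjoinRoot.root m0) ≠ 0 := fun h0 => ht (h0 ▸ isAlgebraic_zero)
  obtain ⟨-, h2i⟩ := CoverIdem.h2Hyp_sealed2 K N A m0 hℓ hℓN hℓ3 hA hm0 hrelF π hπ hmax
  exact PrimePi.prime_of_idem (Line K (AdjoinRoot.root m0)) (AdjoinRoot m0) π hπ
    (Line.gen K (AdjoinRoot.root m0))⁻¹ (IntConst.transcendental_inv _ ht)
    (ChartGlue.hgen_inv _ ht0 (CoverIdem.hgen_line K N A m0)) h2i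
    (fun e he hid =>
      CoverIdem.exists_const_of_idem_inv2 K N A m0 hℓ hℓN hℓ3 hA hm0 hrelF π hπ hmax e he
        hid)

end Fermat.Agent.S37.PrimePiCover
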