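import Mathlib

/-!
# S37 (W2), rationality of places: the abstract core

`R` is a commutative domain (the valuation ring of a place `P`), `ev : R →+* L` the value at `P`.

* `ev_mem_of_pow_mul_mem` : if `B ⊆ R` is a subring with `ev B ⊆ κ` (a subfield of `L`), `u ∈ R`
  has value `0`, and every `b ∈ B` with value `0` satisfies `s * b = u * b₁` for some `s, b₁ ∈ B`
  with `ev s ≠ 0`, then every `y` with `u ^ n * y ∈ B` has its value in `κ`.
* `star_of_lifts` : the hypothesis for `B = O[θ_i]` when every new constant `θ_i` is the value of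
  some `x_i ∈ O` and `s_i * (x_i - θ_i) ∈ u B` with `ev s_i ≠ 0`.
* `exists_factor` : `m(x) - m(θ) = (x - θ) (m'(θ) + k (x - θ))`, which produces `s_i`.
* `star_of_minpoly` : the hypothesis for `B = O[θ]` when all values of `O` lie in a field `K₁`
  (then `1, θ, …, θ^(d-1)` are independent over the values).
* `exists_pow_mul_mem` : clearing denominators, `u ^ n * y ∈ B` for `y` in the field generated
  by the fraction field of `O` and the new constants.
-/

set_option autoImplicit false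

open Polynomial

namespace Fermat.Agent.S37.RatCore

section Core

variable {R L : Type*} [CommRing R] [Field L] (ev : R →+* L)

/-- **The induction.** -/
theorem ev_mem_of_pow_mul_mem [IsDomain R] (B : Subring R) (κ : Subfield L)
    (hκ : ∀ b ∈ B, ev b ∈ κ) {u : R} (hu0 : u ≠ 0) (huev : ev u = 0)
    (hstar : ∀ b ∈ B, ev b = 0 → ∃ s ∈ B, ∃ b₁ ∈ B, ev s ≠ 0 ∧ s * b = u * b₁) :
    ∀ (n : ℕ) (y : R), u ^ n * y ∈ B → ev y ∈ κ := by
  intro n
  induction n with
  | zero =>
    intro y hy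
    rw [pow_zero, one_mul] at hy
    exact hκ y hy
  | succ n ih =>
    intro y hy
    have hb0 : ev (u ^ (n + 1) * y) = 0 := by
      rw [map_mul, map_pow, huev, zero_pow (Nat.succ_ne_zero n), zero_mul]
    obtain ⟨s, hs, b₁, hb₁, hsne, h⟩ := hstar _ hy hb0
    have h2 : u ^ n * (s * y) = b₁ := by
      apply mul_left_cancel₀ hu0
      rw [← h]
      ring
    have h3 := ih (s * y) (h2 ▸ hb₁)
    rw [map_mul] at h3
    have h4 : ev y = (ev s)⁻¹ * (ev s * ev y) := by
      rw [← mul_assoc, inv_mul_cancel₀ hsne, one_mul]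
    rw [h4]
    exact κ.mul_mem (κ.inv_mem (hκ s hs)) h3

/-- the values of a subring generated by a set lie in a subfield as soon as the values of the
generators do. -/
theorem ev_mem_of_mem_closure (S : Set R) (κ : Subfield L) (h : ∀ s ∈ S, ev s ∈ κ) :
    ∀ b ∈ Subring.closure S, ev b ∈ κ := by
  have hle : Subring.closure S ≤ κ.toSubring.comap ev := by
    rw [Subring.closure_le]
    intro s hs
    exact h s hs
  intro b hb
  exact hle hb

/-- **The hypothesis of the induction for constants which are values.** -/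
theorem star_of_lifts (O : Subring R) {u : R} (huev : ev u = 0)
    (hdiv : ∀ o ∈ O, ev o = 0 → ∃ o' ∈ O, o = u * o')
    {ι : Type*} [DecidableEq ι] (T : Finset ι) (θ x s w : ι → R)
    (hx : ∀ i ∈ T, x i ∈ O)
    (hs : ∀ i ∈ T, s i ∈ Subring.closure ((O : Set R) ∪ θ '' T))
    (hw : ∀ i ∈ T, w i ∈ Subring.closure ((O : Set R) ∪ θ '' T))
    (hsev : ∀ i ∈ T, ev (s i) ≠ 0)
    (hrel : ∀ i ∈ T, s i * (x i - θ i) = u * w i) :
    ∀ b ∈ Subring.closure ((O : Set R) ∪ θ '' T), ev b = 0 →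
      ∃ s' ∈ Subring.closure ((O : Set R) ∪ θ '' T),
        ∃ b₁ ∈ Subring.closure ((O : Set R) ∪ θ '' T), ev s' ≠ 0 ∧ s' * b = u * b₁ := by
  set B := Subring.closure ((O : Set R) ∪ θ '' T) with hB
  have hOB : ∀ o ∈ O, o ∈ B := fun o ho => Subring.subset_closure (Or.inl ho)
  set S := ∏ i ∈ T, s i with hS
  have hSB : S ∈ B := Subring.prod_mem _ hs
  have hSev : ev S ≠ 0 := by
    rw [hS, map_prod]
    exact Finset.prod_ne_zero_iff.mpr hsev
  have key : ∀ b ∈ B, ∃ o ∈ O, ∃ b' ∈ B, S * b = S * o + u * b' := by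
    intro b hb
    induction hb using Subring.closure_induction with
    | mem y hy =>
      rcases hy with hy | ⟨i, hi, rfl⟩
      · exact ⟨y, hy, 0, B.zero_mem, by ring⟩
      · have hi' : i ∈ T := hi
        refine ⟨x i, hx i hi', -((∏ j ∈ T.erase i, s j) * w i),
          B.neg_mem (B.mul_mem (Subring.prod_mem _ fun j hj => hs j (Finset.mem_of_mem_erase hj))
            (hw i hi')), ?_⟩
        have h1 : S = s i * ∏ j ∈ T.erase i, s j := (Finset.mul_prod_erase T s hi').symm
        have h2 := hrel i hi'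
        have h3 : S * (x i - θ i) = u * ((∏ j ∈ T.erase i, s j) * w i) := by
          rw [h1]
          calc s i * (∏ j ∈ T.erase i, s j) * (x i - θ i)
              = (∏ j ∈ T.erase i, s j) * (s i * (x i - θ i)) := by ring
            _ = u * ((∏ j ∈ T.erase i, s j) * w i) := by rw [h2]; ring
        linear_combination (-1 : R) * h3
    | zero => exact ⟨0, O.zero_mem, 0, B.zero_mem, by ring⟩
    | one => exact ⟨1, O.one_mem, 0, B.zero_mem, by ring⟩
    | add y z _ _ hy hz =>
      obtain ⟨o₁, ho₁, b₁, hb₁, e₁⟩ := hy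
      obtain ⟨o₂, ho₂, b₂, hb₂, e₂⟩ := hz
      exact ⟨o₁ + o₂, O.add_mem ho₁ ho₂, b₁ + b₂, B.add_mem hb₁ hb₂, by
        linear_combination e₁ + e₂⟩
    | neg y _ hy =>
      obtain ⟨o₁, ho₁, b₁, hb₁, e₁⟩ := hy
      exact ⟨-o₁, O.neg_mem ho₁, -b₁, B.neg_mem hb₁, by linear_combination (-1 : R) * e₁⟩
    | mul y z _ hz' hy hz =>
      obtain ⟨o₁, ho₁, b₁, hb₁, e₁⟩ := hy
      obtain ⟨o₂, ho₂, b₂, hb₂, e₂⟩ := hz
      refine ⟨o₁ * o₂, O.mul_mem ho₁ ho₂, o₁ * b₂ + b₁ * z,
        B.add_mem (B.mul_mem (hOB _ ho₁) hb₂) (B.mul_mem hb₁ hz'), ?_⟩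
      linear_combination z * e₁ + o₁ * e₂
  intro b hb hb0
  obtain ⟨o, ho, b', hb', e⟩ := key b hb
  have ho0 : ev o = 0 := by
    have h1 := congrArg ev e
    rw [map_mul, hb0, mul_zero, map_add, map_mul, map_mul, huev, zero_mul, add_zero] at h1
    exact (mul_eq_zero.mp h1.symm).resolve_left hSev
  obtain ⟨o', ho', rfl⟩ := hdiv o ho ho0
  exact ⟨S, hSB, S * o' + b', B.add_mem (B.mul_mem hSB (hOB _ ho')) hb', hSev, by
    linear_combination e⟩

/-- `m(x) - m(θ) = (x - θ) (m'(θ) + k (x - θ))`. -/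
theorem exists_factor {B : Type*} [CommRing B] (m : ℤ[X]) (x θ : B) :
    ∃ k : B, aeval x m - aeval θ m = (x - θ) * (aeval θ (derivative m) + k * (x - θ)) := by
  obtain ⟨k, hk⟩ := binomExpansion (m.map (Int.castRingHom B)) θ (x - θ)
  refine ⟨k, ?_⟩
  have e1 : ∀ (y : B) (q : ℤ[X]), aeval y q = (q.map (Int.castRingHom B)).eval y := by
    intro y q
    rw [aeval_def, eval₂_eq_eval_map, algebraMap_int_eq]
  rw [e1, e1, e1, ← derivative_map]
  rw [add_sub_cancel] at hk
  rw [hk]
  ring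

/-- **The hypothesis of the induction for a constant over a field containing all values.** -/
theorem star_of_minpoly {K₁ : Type*} [Field K₁] [Algebra K₁ L] (O : Subring R)
    (c₁ : K₁ →+* R) (hc₁ : ∀ a, c₁ a ∈ O)
    (hrat : ∀ o ∈ O, ev o ∈ Set.range (algebraMap K₁ L))
    {u : R} (hdiv : ∀ o ∈ O, ev o = 0 → ∃ o' ∈ O, o = u * o')
    (θ : L) (hθ : IsIntegral K₁ θ) (tθ : R) (hevθ : ev tθ = θ)
    (hrel : (minpoly K₁ θ).eval₂ c₁ tθ = 0) :
    ∀ b ∈ Subring.closure ((O : Set R) ∪ {tθ}), ev b = 0 →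
      ∃ b₁ ∈ Subring.closure ((O : Set R) ∪ {tθ}), b = u * b₁ := by
  set B := Subring.closure ((O : Set R) ∪ {tθ}) with hB
  have hOB : ∀ o ∈ O, o ∈ B := fun o ho => Subring.subset_closure (Or.inl ho)
  have htB : tθ ∈ B := Subring.subset_closure (Or.inr rfl)
  have : Nontrivial R := ev.domain_nontrivial
  -- every element of `B` is a polynomial in `tθ` with coefficients in `O`
  have hpoly : ∀ b ∈ B, ∃ g : (↥O)[X], b = g.eval₂ O.subtype tθ := by
    intro b hb
    induction hb using Subring.closure_induction with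
    | mem y hy =>
      rcases hy with hy | hy
      · exact ⟨C ⟨y, hy⟩, by rw [eval₂_C]; rfl⟩
      · exact ⟨X, by rw [eval₂_X]; exact hy⟩
    | zero => exact ⟨0, by rw [eval₂_zero]⟩
    | one => exact ⟨1, by rw [eval₂_one]⟩
    | add y z _ _ hy hz =>
      obtain ⟨g₁, rfl⟩ := hy
      obtain ⟨g₂, rfl⟩ := hz
      exact ⟨g₁ + g₂, by rw [eval₂_add]⟩
    | neg y _ hy =>
      obtain ⟨g₁, rfl⟩ := hy
      exact ⟨-g₁, by rw [eval₂_neg]⟩
    | mul y z _ _ hy hz =>
      obtain ⟨g₁, rfl⟩ := hy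
      obtain ⟨g₂, rfl⟩ := hz
      exact ⟨g₁ * g₂, by rw [eval₂_mul]⟩
  set c₁' : K₁ →+* ↥O := c₁.codRestrict O hc₁ with hc₁'
  set M : (↥O)[X] := (minpoly K₁ θ).map c₁' with hM
  have hMmonic : M.Monic := (minpoly.monic hθ).map _
  set d := (minpoly K₁ θ).natDegree with hd
  have hMdeg : M.natDegree = d := (minpoly.monic hθ).natDegree_map _
  have hdpos : 0 < d := minpoly.natDegree_pos hθ
  have hM1 : M ≠ 1 := by
    intro h
    rw [h, natDegree_one] at hMdeg
    omega
  have hMev : M.eval₂ O.subtype tθ = 0 := by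
    rw [hM, eval₂_map]
    have : O.subtype.comp c₁' = c₁ := RingHom.ext fun a => rfl
    rw [this]
    exact hrel
  intro b hb hb0
  obtain ⟨g, rfl⟩ := hpoly b hb
  set r := g %ₘ M with hr
  have hrdeg : r.natDegree < d := by
    rw [← hMdeg]
    exact natDegree_modByMonic_lt g hMmonic hM1
  have hgr : g.eval₂ O.subtype tθ = r.eval₂ O.subtype tθ := by
    conv_lhs => rw [← modByMonic_add_div g M]
    rw [eval₂_add, eval₂_mul, hMev, zero_mul, add_zero]
  rw [hgr] at hb0 ⊢
  rw [eval₂_eq_sum_range' O.subtype hrdeg] at hb0 ⊢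
  -- the values of the coefficients vanish
  have hcoeff : ∀ i : Fin d, ev (r.coeff i : R) = 0 := by
    choose a ha using fun i : Fin d => hrat (r.coeff i : R) (r.coeff i).2
    have hli := linearIndependent_pow (K := K₁) θ
    rw [Fintype.linearIndependent_iff] at hli
    have hsum : ∑ i : Fin d, a i • θ ^ (i : ℕ) = 0 := by
      rw [map_sum] at hb0
      rw [← hb0, ← Fin.sum_univ_eq_sum_range (fun i => ev (O.subtype (r.coeff i) * tθ ^ i)) d]
      refine Finset.sum_congr rfl fun i _ => ?_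
      rw [map_mul, map_pow, hevθ, Algebra.smul_def, ha i]
      rfl
    intro i
    have := hli a hsum i
    rw [← ha i, this, map_zero]
  choose o' ho' ho'e using fun i : Fin d => hdiv (r.coeff i : R) (r.coeff i).2 (hcoeff i)
  refine ⟨∑ i : Fin d, o' i * tθ ^ (i : ℕ), ?_, ?_⟩
  · exact B.sum_mem fun i _ => B.mul_mem (hOB _ (ho' i)) (B.pow_mem htB _)
  · rw [← Fin.sum_univ_eq_sum_range (fun i => O.subtype (r.coeff i) * tθ ^ i) d, Finset.mul_sum]
    refine Finset.sum_congr rfl fun i _ => ?_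
    have : O.subtype (r.coeff i) = u * o' i := ho'e i
    rw [this]
    ring

end Core

section Clear

variable {R Ω : Type*} [CommRing R] [Field Ω] [Algebra R Ω]

/-- **Clearing denominators.** -/
theorem exists_pow_mul_mem (E₀ : Subfield Ω) (O : Subring R) {u : R} (hu : u ∈ O)
    (hclear : ∀ z ∈ E₀, ∃ n : ℕ, ∃ o ∈ O, algebraMap R Ω (u ^ n) * z = algebraMap R Ω o)
    (T : Set R) (halg : ∀ θ ∈ T, IsAlgebraic ↥E₀ (algebraMap R Ω θ)) :
    ∀ y ∈ IntermediateField.adjoin ↥E₀ (algebraMap R Ω '' T),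
      ∃ n : ℕ, ∃ b ∈ Subring.closure ((O : Set R) ∪ T),
        algebraMap R Ω (u ^ n) * y = algebraMap R Ω b := by
  intro y hy
  have hy' : y ∈ Algebra.adjoin ↥E₀ (algebraMap R Ω '' T) := by
    rw [← IntermediateField.adjoin_toSubalgebra_of_isAlgebraic
      (by rintro _ ⟨θ, hθ, rfl⟩; exact halg θ hθ)]
    exact hy
  clear hy
  have huB : u ∈ Subring.closure ((O : Set R) ∪ T) := Subring.subset_closure (Or.inl hu)
  induction hy' using Algebra.adjoin_induction with
  | mem x hx =>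
    obtain ⟨θ, hθ, rfl⟩ := hx
    exact ⟨0, θ, Subring.subset_closure (Or.inr hθ), by rw [pow_zero, map_one, one_mul]⟩
  | algebraMap z =>
    obtain ⟨n, o, ho, e⟩ := hclear (z : Ω) z.2
    exact ⟨n, o, Subring.subset_closure (Or.inl ho), e⟩
  | add x y _ _ hx hy =>
    obtain ⟨n₁, b₁, hb₁, e₁⟩ := hx
    obtain ⟨n₂, b₂, hb₂, e₂⟩ := hy
    refine ⟨n₁ + n₂, u ^ n₂ * b₁ + u ^ n₁ * b₂,
      Subring.add_mem _ (Subring.mul_mem _ (Subring.pow_mem _ huB _) hb₁)
        (Subring.mul_mem _ (Subring.pow_mem _ huB _) hb₂), ?_⟩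
    rw [map_add, map_mul, map_mul, ← e₁, ← e₂, pow_add, map_mul]
    ring
  | mul x y _ _ hx hy =>
    obtain ⟨n₁, b₁, hb₁, e₁⟩ := hx
    obtain ⟨n₂, b₂, hb₂, e₂⟩ := hy
    refine ⟨n₁ + n₂, b₁ * b₂, Subring.mul_mem _ hb₁ hb₂, ?_⟩
    rw [map_mul, ← e₁, ← e₂, pow_add, map_mul]
    ring

end Clear

section Values

variable {K E L : Type*} [Field K] [Field E] [Field L] [Algebra K E] [Algebra K L]
  (O : ValuationSubring E) (ev : ↥O →+* L)

/-- the value of a function, as a total function (`0` outside the valuation ring). -/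
noncomputable def valOf (x : E) : L := by
  classical exact if h : x ∈ O then ev ⟨x, h⟩ else 0

theorem valOf_mk {x : E} (hx : x ∈ O) : valOf O ev x = ev ⟨x, hx⟩ := by
  unfold valOf
  rw [dif_pos hx]

theorem valOf_zero : valOf O ev 0 = 0 := by
  rw [valOf_mk O ev O.zero_mem]
  exact map_zero ev

theorem valOf_one : valOf O ev 1 = 1 := by
  rw [valOf_mk O ev O.one_mem]
  exact map_one ev

theorem valOf_add {x y : E} (hx : x ∈ O) (hy : y ∈ O) :
    valOf O ev (x + y) = valOf O ev x + valOf O ev y := by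
  rw [valOf_mk O ev hx, valOf_mk O ev hy, valOf_mk O ev (O.add_mem _ _ hx hy), ← map_add]
  rfl

theorem valOf_mul {x y : E} (hx : x ∈ O) (hy : y ∈ O) :
    valOf O ev (x * y) = valOf O ev x * valOf O ev y := by
  rw [valOf_mk O ev hx, valOf_mk O ev hy, valOf_mk O ev (O.mul_mem _ _ hx hy), ← map_mul]
  rfl

theorem valOf_pow {x : E} (hx : x ∈ O) (n : ℕ) :
    valOf O ev (x ^ n) = valOf O ev x ^ n := by
  rw [valOf_mk O ev hx, valOf_mk O ev (pow_mem hx n), ← map_pow]
  rfl

theorem valOf_sum {ι : Type*} (s : Finset ι) (f : ι → E) (hf : ∀ i ∈ s, f i ∈ O) :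
    valOf O ev (∑ i ∈ s, f i) = ∑ i ∈ s, valOf O ev (f i) := by
  classical
  induction s using Finset.induction_on with
  | empty => rw [Finset.sum_empty, Finset.sum_empty, valOf_zero]
  | insert a s ha ih =>
    rw [Finset.sum_insert ha, Finset.sum_insert ha,
      valOf_add O ev (hf a (Finset.mem_insert_self a s))
        (sum_mem fun i hi => hf i (Finset.mem_insert_of_mem hi)),
      ih fun i hi => hf i (Finset.mem_insert_of_mem hi)]

variable (hKO : ∀ c : K, algebraMap K E c ∈ O)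
  (hevK : ∀ c : K, valOf O ev (algebraMap K E c) = algebraMap K L c)
  {t : E} (ht : t ∈ O) (hevt : valOf O ev t = 0)

include hKO ht in
theorem aeval_mem (p : K[X]) : aeval t p ∈ O := by
  induction p using Polynomial.induction_on' with
  | add p q hp hq =>
    rw [map_add]
    exact O.add_mem _ _ hp hq
  | monomial n c =>
    rw [aeval_monomial]
    exact O.mul_mem _ _ (hKO c) (pow_mem ht n)

include hKO hevK ht hevt in
theorem valOf_aeval (p : K[X]) : valOf O ev (aeval t p) = algebraMap K L (p.coeff 0) := by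
  induction p using Polynomial.induction_on' with
  | add p q hp hq =>
    rw [map_add, valOf_add O ev (aeval_mem O hKO ht p) (aeval_mem O hKO ht q), hp, hq, coeff_add,
      map_add]
  | monomial n c =>
    rw [aeval_monomial, valOf_mul O ev (hKO c) (pow_mem ht n), valOf_pow O ev ht, hevK, hevt,
      coeff_monomial]
    rcases Nat.eq_zero_or_pos n with rfl | hn
    · rw [pow_zero, mul_one, if_pos rfl]
    · rw [zero_pow hn.ne', mul_zero, if_neg hn.ne', map_zero]

include hKO hevK ht hevt in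
/-- **The line is rational**: a function in `K(t)` regular at the place has its value in `K`. -/
theorem valOf_mem_range_of_mem_adjoin {g : E} (hg : g ∈ O)
    (hgm : g ∈ IntermediateField.adjoin K {t}) :
    valOf O ev g ∈ Set.range (algebraMap K L) := by
  obtain ⟨r, s, rfl⟩ := (IntermediateField.mem_adjoin_simple_iff K g).mp hgm
  have main : ∀ (d : ℕ) (r s : K[X]), s.natDegree = d → aeval t r / aeval t s ∈ O →
      valOf O ev (aeval t r / aeval t s) ∈ Set.range (algebraMap K L) := by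
    intro d
    induction d using Nat.strong_induction_on with
    | _ d ih =>
      intro r s hd hmem
      by_cases h0 : aeval t s = 0
      · rw [h0, div_zero, valOf_zero]
        exact ⟨0, map_zero _⟩
      have hmul : valOf O ev (aeval t r / aeval t s) * algebraMap K L (s.coeff 0) =
          algebraMap K L (r.coeff 0) := by
        rw [← valOf_aeval O ev hKO hevK ht hevt s, ← valOf_aeval O ev hKO hevK ht hevt r,
          ← valOf_mul O ev hmem (aeval_mem O hKO ht s), div_mul_cancel₀ _ h0]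
      by_cases hc : s.coeff 0 = 0
      · rw [hc, map_zero, mul_zero] at hmul
        have hr0 : r.coeff 0 = 0 :=
          (map_eq_zero_iff _ (algebraMap K L).injective).mp hmul.symm
        obtain ⟨s₁, rfl⟩ := X_dvd_iff.mpr hc
        obtain ⟨r₁, rfl⟩ := X_dvd_iff.mpr hr0
        have hs₁ : s₁ ≠ 0 := by
          rintro rfl
          apply h0
          rw [mul_zero, map_zero]
        rw [map_mul, aeval_X] at h0
        have ht0 : t ≠ 0 := left_ne_zero_of_mul h0
        have hdeg : s₁.natDegree < d := by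
          rw [← hd, natDegree_X_mul hs₁]
          omega
        have e : aeval t (X * r₁) / aeval t (X * s₁) = aeval t r₁ / aeval t s₁ := by
          rw [map_mul, map_mul, aeval_X, mul_div_mul_left _ _ ht0]
        rw [e] at hmem ⊢
        exact ih _ hdeg r₁ s₁ rfl hmem
      · refine ⟨r.coeff 0 / s.coeff 0, ?_⟩
        rw [map_div₀, ← hmul, mul_div_assoc, div_self, mul_one]
        exact (map_ne_zero_iff _ (algebraMap K L).injective).mpr hc
  exact main _ r s rfl hg

include hKO hevK ht hevt in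
/-- **The values at a place of a function field of finite degree over the line `K(t)` span a
finite-dimensional `K`-space.** -/
theorem exists_finset_span (M : IntermediateField K E) (hM : M ≤ IntermediateField.adjoin K {t})
    [FiniteDimensional M E] :
    ∃ T : Finset L, (∀ θ ∈ T, ∃ x ∈ O, valOf O ev x = θ) ∧
      ∀ x ∈ O, valOf O ev x ∈ Submodule.span K (T : Set L) := by
  classical
  let S : Submodule K L :=
    { carrier := {v | ∃ x ∈ O, valOf O ev x = v}
      zero_mem' := ⟨0, O.zero_mem, valOf_zero O ev⟩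
      add_mem' := by
        rintro _ _ ⟨x, hx, rfl⟩ ⟨y, hy, rfl⟩
        exact ⟨x + y, O.add_mem _ _ hx hy, valOf_add O ev hx hy⟩
      smul_mem' := by
        rintro c _ ⟨x, hx, rfl⟩
        exact ⟨algebraMap K E c * x, O.mul_mem _ _ (hKO c) hx, by
          rw [valOf_mul O ev (hKO c) hx, hevK, Algebra.smul_def]⟩ }
  have hbound : ∀ s : Finset ↥S, (LinearIndependent K fun i : s => (i : ↥S)) →
      s.card ≤ Module.finrank M E := by
    intro s hli
    choose z hzO hz using fun w : ↥S => w.2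
    have hZ : LinearIndependent M (fun i : s => z i.1) := by
      rw [Fintype.linearIndependent_iff]
      intro g hg i
      by_contra hne
      obtain ⟨i₀, -, hmax⟩ := Finset.exists_max_image Finset.univ
        (fun j : s => O.valuation (g j : E)) ⟨i, Finset.mem_univ _⟩
      have hgi : O.valuation (g i : E) ≠ 0 := by
        rw [ne_eq, map_eq_zero]
        exact fun h => hne (Subtype.ext h)
      have hgi₀ : O.valuation (g i₀ : E) ≠ 0 := by
        intro h
        have := hmax i (Finset.mem_univ _)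
        rw [h] at this
        exact hgi (le_antisymm this zero_le)
      have hg₀ : (g i₀ : E) ≠ 0 := by
        intro h
        apply hgi₀
        rw [h, map_zero]
      have hhO : ∀ j : s, (g j : E) / (g i₀ : E) ∈ O := by
        intro j
        rw [← O.valuation_le_one_iff, map_div₀]
        exact (div_le_one₀ (zero_lt_iff.mpr hgi₀)).mpr (hmax j (Finset.mem_univ _))
      have hhM : ∀ j : s, (g j : E) / (g i₀ : E) ∈ IntermediateField.adjoin K {t} :=
        fun j => hM (div_mem (g j).2 (g i₀).2)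
      choose c hc using fun j : s =>
        valOf_mem_range_of_mem_adjoin O ev hKO hevK ht hevt (hhO j) (hhM j)
      have hrel : ∑ j : s, (g j : E) / (g i₀ : E) * z j.1 = 0 := by
        have h1 : ∑ j : s, (g j : E) * z j.1 = 0 := by
          rw [← hg]
          refine Finset.sum_congr rfl fun j _ => ?_
          rw [IntermediateField.smul_def, smul_eq_mul]
        have h2 : ∑ j : s, (g j : E) / (g i₀ : E) * z j.1 =
            (g i₀ : E)⁻¹ * ∑ j : s, (g j : E) * z j.1 := by
          rw [Finset.mul_sum]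
          refine Finset.sum_congr rfl fun j _ => ?_
          rw [div_eq_mul_inv]
          ring
        rw [h2, h1, mul_zero]
      have hval : ∑ j : s, c j • ((j : ↥S) : L) = 0 := by
        have h3 := congrArg (valOf O ev) hrel
        rw [valOf_zero, valOf_sum O ev _ _ fun j _ => O.mul_mem _ _ (hhO j) (hzO j.1)] at h3
        rw [← h3]
        refine Finset.sum_congr rfl fun j _ => ?_
        rw [valOf_mul O ev (hhO j) (hzO j.1), hz j.1, ← hc j, Algebra.smul_def]
      have hli' := hli.map' S.subtype (Submodule.ker_subtype S)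
      rw [Fintype.linearIndependent_iff] at hli'
      have hc0 := hli' c hval i₀
      have h1 := hc i₀
      rw [hc0, map_zero, div_self hg₀, valOf_one] at h1
      exact zero_ne_one h1
    have := hZ.fintype_card_le_finrank
    rwa [Fintype.card_coe] at this
  have hrank : Module.rank K ↥S ≤ (Module.finrank M E : ℕ) :=
    rank_le hbound
  have hfin : Module.Finite K ↥S :=
    Module.rank_lt_aleph0_iff.mp (lt_of_le_of_lt hrank (Cardinal.natCast_lt_aleph0))
  have hfg : S.FG := (Submodule.fg_top S).mp Module.Finite.fg_top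
  obtain ⟨T, hT, hspan⟩ := Submodule.fg_def.mp hfg
  refine ⟨hT.toFinset, fun θ hθ => ?_, fun x hx => ?_⟩
  · have : θ ∈ S := by
      rw [← hspan]
      exact Submodule.subset_span (hT.mem_toFinset.mp hθ)
    exact this
  · rw [Set.Finite.coe_toFinset, hspan]
    exact ⟨x, hx, rfl⟩

end Values

section Aux

/-- an algebraic element of a field of characteristic zero is a simple root of an integer
polynomial. -/
theorem exists_int_poly {L : Type*} [Field L] [CharZero L] {θ : L} (hθ : IsAlgebraic ℤ θ) :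
    ∃ m : ℤ[X], aeval θ m = 0 ∧ aeval θ (derivative m) ≠ 0 := by
  classical
  have hex : ∃ n : ℕ, ∃ p : ℤ[X], p ≠ 0 ∧ aeval θ p = 0 ∧ p.natDegree = n := by
    obtain ⟨p, hp0, hp⟩ := hθ
    exact ⟨_, p, hp0, hp, rfl⟩
  obtain ⟨p, hp0, hp, hpn⟩ := Nat.find_spec hex
  refine ⟨p, hp, fun hd => ?_⟩
  have hdeg : p.natDegree ≠ 0 := by
    intro h0
    rw [eq_C_of_natDegree_eq_zero h0, aeval_C] at hp
    apply hp0
    rw [eq_C_of_natDegree_eq_zero h0]
    have : p.coeff 0 = 0 := by
      have h1 : ((p.coeff 0 : ℤ) : L) = 0 := by simpa using hp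
      exact_mod_cast h1
    rw [this, map_zero]
  have hd0 : derivative p ≠ 0 := fun h => hdeg (Polynomial.derivative_eq_zero.mp h)
  have hlt : (derivative p).natDegree < Nat.find hex := by
    rw [← hpn]
    exact natDegree_derivative_lt hdeg
  exact Nat.find_min hex hlt ⟨derivative p, hd0, hd, rfl⟩

variable {R : Type*} [CommRing R]

theorem aeval_mem_subring (B : Subring R) (m : ℤ[X]) {x : R} (hx : x ∈ B) : aeval x m ∈ B := by
  induction m using Polynomial.induction_on' with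
  | add p q hp hq =>
    rw [map_add]
    exact B.add_mem hp hq
  | monomial n c =>
    rw [aeval_monomial]
    exact B.mul_mem (by rw [algebraMap_int_eq]; exact intCast_mem B c) (B.pow_mem hx n)

/-- `exists_factor` with the cofactor in a subring. -/
theorem exists_factor_mem (B : Subring R) (m : ℤ[X]) {x θ : R} (hx : x ∈ B) (hθ : θ ∈ B) :
    ∃ k ∈ B, aeval x m - aeval θ m = (x - θ) * (aeval θ (derivative m) + k * (x - θ)) := by
  obtain ⟨k, hk⟩ := exists_factor m (⟨x, hx⟩ : ↥B) ⟨θ, hθ⟩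
  refine ⟨k, k.2, ?_⟩
  have e : ∀ (y : ↥B) (q : ℤ[X]), ((aeval y q : ↥B) : R) = aeval (y : R) q := by
    intro y q
    exact (aeval_algHom_apply B.subtype.toIntAlgHom y q).symm
  have h := congrArg (Subtype.val : ↥B → R) hk
  simpa [e] using h

/-- **A uniformizer of the trace of a discrete valuation on a subfield.** -/
theorem exists_uniformizer {Ω : Type*} [Field Ω] (V : ValuationSubring Ω) (ord : Ω → ℤ)
    (hmul : ∀ f g : Ω, f ≠ 0 → g ≠ 0 → ord (f * g) = ord f + ord g)
    (hnonneg : ∀ f : Ω, f ≠ 0 → (0 ≤ ord f ↔ f ∈ V))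
    (E₀ : Subfield Ω) {τ : Ω} (hτE : τ ∈ E₀) (hτ0 : τ ≠ 0) (hτ : 0 < ord τ) :
    ∃ u ∈ E₀, u ≠ 0 ∧ 0 < ord u ∧ (∀ z ∈ E₀, z ≠ 0 → 0 < ord z → z / u ∈ V) ∧
      ∀ z ∈ E₀, ∃ n : ℕ, u ^ n * z ∈ V := by
  classical
  have hone : ord 1 = 0 := by
    have := hmul 1 1 one_ne_zero one_ne_zero
    rw [mul_one] at this
    omega
  have hinv : ∀ f : Ω, f ≠ 0 → ord f⁻¹ = -ord f := by
    intro f hf
    have := hmul f f⁻¹ hf (inv_ne_zero hf)
    rw [mul_inv_cancel₀ hf, hone] at this
    omega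
  have hpow : ∀ (f : Ω) (n : ℕ), f ≠ 0 → ord (f ^ n) = n * ord f := by
    intro f n hf
    induction n with
    | zero => rw [pow_zero, hone]; simp
    | succ n ih =>
      rw [pow_succ, hmul _ _ (pow_ne_zero n hf) hf, ih]
      push_cast
      ring
  have hex : ∃ n : ℕ, 0 < n ∧ ∃ z ∈ E₀, z ≠ 0 ∧ ord z = n :=
    ⟨(ord τ).toNat, by omega, τ, hτE, hτ0, by omega⟩
  obtain ⟨hm, u, huE, hu0, hu⟩ := Nat.find_spec hex
  have hmin : ∀ z ∈ E₀, z ≠ 0 → 0 < ord z → ord u ≤ ord z := by
    intro z hz hz0 hpos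
    by_contra hlt
    rw [not_le] at hlt
    exact Nat.find_min hex (m := (ord z).toNat) (by omega) ⟨by omega, z, hz, hz0, by omega⟩
  refine ⟨u, huE, hu0, by omega, fun z hz hz0 hpos => ?_, fun z hz => ?_⟩
  · rw [← hnonneg _ (div_ne_zero hz0 hu0), div_eq_mul_inv, hmul _ _ hz0 (inv_ne_zero hu0),
      hinv u hu0]
    have := hmin z hz hz0 hpos
    omega
  · rcases eq_or_ne z 0 with rfl | hz0
    · exact ⟨0, by rw [mul_zero]; exact V.zero_mem⟩
    · refine ⟨(-ord z).toNat, ?_⟩
      rw [← hnonneg _ (mul_ne_zero (pow_ne_zero _ hu0) hz0), hmul _ _ (pow_ne_zero _ hu0) hz0,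
        hpow u _ hu0]
      have h1 : (0 : ℤ) ≤ ((-ord z).toNat : ℤ) := Int.natCast_nonneg _
      have h2 : -ord z ≤ ((-ord z).toNat : ℤ) := Int.self_le_toNat _
      have h3 : (1 : ℤ) ≤ ord u := by omega
      nlinarith [mul_le_mul_of_nonneg_left h3 h1]

end Aux

section Stars

variable {R L : Type*} [CommRing R] [Field L] (ev : R →+* L) (cst : L →+* R)

/-- **The hypothesis of the induction for new constants which are values of `O`.** -/
theorem star_of_values [CharZero L] (hcst : ∀ c, ev (cst c) = c)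
    (O : Subring R) {u : R} (huev : ev u = 0)
    (hdiv : ∀ o ∈ O, ev o = 0 → ∃ o' ∈ O, o = u * o')
    (T : Finset L) (hTalg : ∀ c ∈ T, IsAlgebraic ℤ c) (hTlift : ∀ c ∈ T, ∃ x ∈ O, ev x = c) :
    ∀ b ∈ Subring.closure ((O : Set R) ∪ cst '' (T : Set L)), ev b = 0 →
      ∃ s ∈ Subring.closure ((O : Set R) ∪ cst '' (T : Set L)),
        ∃ b₁ ∈ Subring.closure ((O : Set R) ∪ cst '' (T : Set L)),
          ev s ≠ 0 ∧ s * b = u * b₁ := by
  classical
  set B := Subring.closure ((O : Set R) ∪ cst '' (T : Set L)) with hB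
  have hOB : ∀ o ∈ O, o ∈ B := fun o ho => Subring.subset_closure (Or.inl ho)
  have hTB : ∀ c ∈ T, cst c ∈ B := fun c hc => Subring.subset_closure (Or.inr ⟨c, hc, rfl⟩)
  have hdata : ∀ c ∈ T, ∃ x ∈ O, ∃ s ∈ B, ∃ w ∈ B, ev s ≠ 0 ∧ s * (x - cst c) = u * w := by
    intro c hc
    obtain ⟨x, hxO, hxc⟩ := hTlift c hc
    obtain ⟨m, hm0, hm'⟩ := exists_int_poly (hTalg c hc)
    obtain ⟨k, hkB, hk⟩ := exists_factor_mem B m (hOB x hxO) (hTB c hc)
    have e1 : ∀ q : ℤ[X], aeval (cst c) q = cst (aeval c q) := fun q =>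
      aeval_algHom_apply cst.toIntAlgHom c q
    have e2 : ∀ q : ℤ[X], ev (aeval x q) = aeval c q := fun q => by
      rw [← hxc]
      exact (aeval_algHom_apply ev.toIntAlgHom x q).symm
    have hmx : aeval x m ∈ O := aeval_mem_subring O m hxO
    have hmx0 : ev (aeval x m) = 0 := by rw [e2, hm0]
    obtain ⟨w, hwO, hw⟩ := hdiv _ hmx hmx0
    refine ⟨x, hxO, aeval (cst c) (derivative m) + k * (x - cst c), ?_, w, hOB w hwO, ?_, ?_⟩
    · exact B.add_mem (aeval_mem_subring B _ (hTB c hc))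
        (B.mul_mem hkB (B.sub_mem (hOB x hxO) (hTB c hc)))
    · rw [map_add, map_mul, map_sub, hxc, hcst, sub_self, mul_zero, add_zero, e1, hcst]
      exact hm'
    · rw [← hw, mul_comm, ← hk, e1 m, hm0, map_zero, sub_zero]
  choose! x hx s hs w hw hsev hrel using hdata
  exact star_of_lifts ev O huev hdiv T cst x s w hx hs hw hsev hrel

/-- **The hypothesis of the induction for one new constant over a field containing all the
values of `O`.** -/
theorem star_of_primitive (hcst : ∀ c, ev (cst c) = c)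
    {K₁ : Type*} [Field K₁] [Algebra K₁ L] (O : Subring R)
    (hc₁ : ∀ a : K₁, cst (algebraMap K₁ L a) ∈ O)
    (hrat : ∀ o ∈ O, ev o ∈ Set.range (algebraMap K₁ L))
    {u : R} (hdiv : ∀ o ∈ O, ev o = 0 → ∃ o' ∈ O, o = u * o')
    (θ : L) (hθ : IsIntegral K₁ θ) :
    ∀ b ∈ Subring.closure ((O : Set R) ∪ cst '' ({θ} : Set L)), ev b = 0 →
      ∃ s ∈ Subring.closure ((O : Set R) ∪ cst '' ({θ} : Set L)),
        ∃ b₁ ∈ Subring.closure ((O : Set R) ∪ cst '' ({θ} : Set L)),
          ev s ≠ 0 ∧ s * b = u * b₁ := by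
  rw [Set.image_singleton]
  intro b hb hb0
  have hrel : (minpoly K₁ θ).eval₂ (cst.comp (algebraMap K₁ L)) (cst θ) = 0 := by
    rw [← Polynomial.hom_eval₂, ← aeval_def, minpoly.aeval, map_zero]
  obtain ⟨b₁, hb₁, e⟩ := star_of_minpoly ev O (cst.comp (algebraMap K₁ L)) hc₁ hrat hdiv θ hθ
    (cst θ) (hcst θ) hrel b hb hb0
  exact ⟨1, Subring.one_mem _, b₁, hb₁, by rw [map_one]; exact one_ne_zero, by rw [one_mul, e]⟩

end Stars

section Assembly

variable {Ω L : Type*} [Field Ω] [Field L] [Algebra L Ω] (V : ValuationSubring Ω)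
  (ev : ↥V →+* L) (ord : Ω → ℤ)

/-- the constants, as a ring homomorphism into the valuation ring. -/
def cstV (hLV : ∀ c : L, algebraMap L Ω c ∈ V) : L →+* ↥V :=
  (algebraMap L Ω).codRestrict V hLV

theorem coe_cstV (hLV : ∀ c : L, algebraMap L Ω c ∈ V) (c : L) :
    ((cstV V hLV c : ↥V) : Ω) = algebraMap L Ω c := rfl

/-- the trace of a subfield on the valuation ring. -/
def traceRing (E₀ : Subfield Ω) : Subring ↥V := E₀.toSubring.comap V.subtype

theorem mem_traceRing (E₀ : Subfield Ω) (y : ↥V) : y ∈ traceRing V E₀ ↔ (y : Ω) ∈ E₀ := Iff.rfl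

/-- **One level step**: if the values of `E₀ ∩ V` and of the new constants `T` lie in `κ` and
the induction hypothesis holds for `(E₀ ∩ V)[T]`, then the values of `E₀(T) ∩ V` lie in `κ`. -/
theorem level_step
    (hmul : ∀ f g : Ω, f ≠ 0 → g ≠ 0 → ord (f * g) = ord f + ord g)
    (hnonneg : ∀ f : Ω, f ≠ 0 → (0 ≤ ord f ↔ f ∈ V))
    (hzero : ∀ x : ↥V, ev x = 0 ↔ (x : Ω) = 0 ∨ 0 < ord (x : Ω))
    (hLV : ∀ c : L, algebraMap L Ω c ∈ V)
    (E₀ : Subfield Ω) {τ : Ω} (hτE : τ ∈ E₀) (hτ0 : τ ≠ 0) (hτ : 0 < ord τ)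
    (T : Set L) (halg : ∀ θ ∈ T, IsAlgebraic ↥E₀ (algebraMap L Ω θ))
    (κ : Subfield L) (hκO : ∀ y : ↥V, (y : Ω) ∈ E₀ → ev y ∈ κ)
    (hκT : ∀ θ ∈ T, ev (cstV V hLV θ) ∈ κ)
    (hstar : ∀ u : ↥V, u ∈ traceRing V E₀ → ev u = 0 →
      (∀ o ∈ traceRing V E₀, ev o = 0 → ∃ o' ∈ traceRing V E₀, o = u * o') →
      ∀ b ∈ Subring.closure ((traceRing V E₀ : Set ↥V) ∪ cstV V hLV '' T), ev b = 0 →
        ∃ s ∈ Subring.closure ((traceRing V E₀ : Set ↥V) ∪ cstV V hLV '' T),
          ∃ b₁ ∈ Subring.closure ((traceRing V E₀ : Set ↥V) ∪ cstV V hLV '' T),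
            ev s ≠ 0 ∧ s * b = u * b₁) :
    ∀ y : ↥V, (y : Ω) ∈ IntermediateField.adjoin ↥E₀ (algebraMap L Ω '' T) → ev y ∈ κ := by
  intro y hy
  obtain ⟨u₀, hu₀E, hu₀0, hu₀pos, hu₀div, hu₀clear⟩ :=
    exists_uniformizer V ord hmul hnonneg E₀ hτE hτ0 hτ
  have hu₀V : u₀ ∈ V := (hnonneg u₀ hu₀0).mp hu₀pos.le
  set u : ↥V := ⟨u₀, hu₀V⟩ with hu
  have huO : u ∈ traceRing V E₀ := hu₀E
  have huev : ev u = 0 := (hzero u).mpr (Or.inr hu₀pos)
  have hu0 : u ≠ 0 := fun h => hu₀0 (congrArg Subtype.val h)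
  have hdiv : ∀ o ∈ traceRing V E₀, ev o = 0 → ∃ o' ∈ traceRing V E₀, o = u * o' := by
    intro o ho ho0
    rcases eq_or_ne (o : Ω) 0 with h | h
    · exact ⟨0, Subring.zero_mem _, by rw [mul_zero]; exact Subtype.ext h⟩
    · have hpos : 0 < ord (o : Ω) := ((hzero o).mp ho0).resolve_left h
      have hV : (o : Ω) / u₀ ∈ V := hu₀div (o : Ω) ho h hpos
      refine ⟨⟨(o : Ω) / u₀, hV⟩, E₀.div_mem ho hu₀E, Subtype.ext ?_⟩
      show (o : Ω) = u₀ * ((o : Ω) / u₀)
      field_simp
  have hclear : ∀ z ∈ E₀, ∃ n : ℕ, ∃ o ∈ traceRing V E₀,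
      algebraMap ↥V Ω (u ^ n) * z = algebraMap ↥V Ω o := by
    intro z hz
    obtain ⟨n, hn⟩ := hu₀clear z hz
    exact ⟨n, ⟨u₀ ^ n * z, hn⟩, E₀.mul_mem (E₀.pow_mem hu₀E n) hz, by
      rw [map_pow]; rfl⟩
  have himg : algebraMap ↥V Ω '' (cstV V hLV '' T) = algebraMap L Ω '' T := by
    rw [Set.image_image]
    rfl
  have halg' : ∀ θ ∈ cstV V hLV '' T, IsAlgebraic ↥E₀ (algebraMap ↥V Ω θ) := by
    rintro _ ⟨θ, hθ, rfl⟩
    exact halg θ hθ
  obtain ⟨n, b, hb, e⟩ := exists_pow_mul_mem E₀ (traceRing V E₀) huO hclear (cstV V hLV '' T)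
    halg' (y : Ω) (by rw [himg]; exact hy)
  have e' : u ^ n * y = b := Subtype.ext (by
    rw [map_pow] at e
    exact e)
  refine ev_mem_of_pow_mul_mem ev _ κ ?_ hu0 huev (hstar u huO huev hdiv) n y (e' ▸ hb)
  refine ev_mem_of_mem_closure ev _ κ ?_
  rintro s (hs | ⟨θ, hθ, rfl⟩)
  · exact hκO s hs
  · exact hκT θ hθ

/-- **Rationality of a place over all large number fields**, abstract form: the level `K`
field is the subfield generated by a fixed set `G` and the constants of `K`. -/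
theorem exists_rational_level_of_closure [CharZero L] [Algebra.IsAlgebraic ℚ L]
    (hmul : ∀ f g : Ω, f ≠ 0 → g ≠ 0 → ord (f * g) = ord f + ord g)
    (hnonneg : ∀ f : Ω, f ≠ 0 → (0 ≤ ord f ↔ f ∈ V))
    (hzero : ∀ x : ↥V, ev x = 0 ↔ (x : Ω) = 0 ∨ 0 < ord (x : Ω))
    (hLV : ∀ c : L, algebraMap L Ω c ∈ V)
    (hevL : ∀ c : L, ev (cstV V hLV c) = c)
    (G : Set Ω) (K₀ : IntermediateField ℚ L) [FiniteDimensional ℚ K₀] (T : Finset L)
    (hT : ∀ θ ∈ T, ∃ x : ↥V,
      (x : Ω) ∈ Subfield.closure (G ∪ algebraMap L Ω '' (K₀ : Set L)) ∧ ev x = θ)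
    (hspan : ∀ x : ↥V, (x : Ω) ∈ Subfield.closure (G ∪ algebraMap L Ω '' (K₀ : Set L)) →
      ev x ∈ Submodule.span ↥K₀ (T : Set L))
    {τ : Ω} (hτE : τ ∈ Subfield.closure (G ∪ algebraMap L Ω '' (K₀ : Set L)))
    (hτ0 : τ ≠ 0) (hτ : 0 < ord τ) :
    ∃ (K₁ : IntermediateField ℚ L) (_ : FiniteDimensional ℚ K₁), K₀ ≤ K₁ ∧
      ∀ (K : IntermediateField ℚ L) [FiniteDimensional ℚ K], K₁ ≤ K →
        ∀ y : ↥V, (y : Ω) ∈ Subfield.closure (G ∪ algebraMap L Ω '' (K : Set L)) →
          ev y ∈ K := by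
  classical
  have : CharZero Ω := charZero_of_injective_algebraMap (algebraMap L Ω).injective
  set Ef : IntermediateField ℚ L → Subfield Ω :=
    fun K => Subfield.closure (G ∪ algebraMap L Ω '' (K : Set L)) with hEf
  have hEmono : ∀ K K' : IntermediateField ℚ L, K ≤ K' → Ef K ≤ Ef K' := fun K K' h =>
    Subfield.closure_mono (Set.union_subset_union_right _ (Set.image_mono h))
  have hGE : ∀ K, G ⊆ Ef K := fun K g hg => Subfield.subset_closure (Or.inl hg)
  have hcE : ∀ (K : IntermediateField ℚ L) (c : L), c ∈ K → algebraMap L Ω c ∈ Ef K :=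
    fun K c hc => Subfield.subset_closure (Or.inr ⟨c, hc, rfl⟩)
  have halgZ : ∀ θ : L, IsAlgebraic ℤ θ := fun θ =>
    (IsFractionRing.isAlgebraic_iff ℤ ℚ L).mpr (Algebra.IsAlgebraic.isAlgebraic θ)
  have halgE : ∀ (E₀ : Subfield Ω) (θ : L), IsAlgebraic ↥E₀ (algebraMap L Ω θ) := by
    intro E₀ θ
    obtain ⟨p, hp0, hp⟩ := halgZ θ
    have h1 : IsAlgebraic ℤ (algebraMap L Ω θ) := ⟨p, hp0, by
      rw [show algebraMap L Ω θ = (algebraMap L Ω).toIntAlgHom θ from rfl, aeval_algHom_apply,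
        hp, map_zero]⟩
    exact IsAlgebraic.extendScalars (by
      rw [algebraMap_int_eq]
      exact (Int.castRingHom ↥E₀).injective_int) h1
  -- generation
  have hgen : ∀ (K K' : IntermediateField ℚ L) (S : Set L),
      K' ≤ K ⊔ IntermediateField.adjoin ℚ S → ∀ z ∈ Ef K',
        z ∈ IntermediateField.adjoin ↥(Ef K) (algebraMap L Ω '' S) := by
    intro K K' S hK'
    set A := IntermediateField.adjoin ↥(Ef K) (algebraMap L Ω '' S) with hA
    have hEA : ∀ z ∈ Ef K, z ∈ A := fun z hz => A.algebraMap_mem ⟨z, hz⟩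
    let X : IntermediateField ℚ L :=
      (A.toSubfield.comap (algebraMap L Ω)).toIntermediateField (fun q => by
        show algebraMap L Ω (algebraMap ℚ L q) ∈ A
        rw [eq_ratCast, map_ratCast]
        exact SubfieldClass.ratCast_mem A q)
    have hKX : K ≤ X := fun c hc => hEA _ (hcE K c hc)
    have hSX : IntermediateField.adjoin ℚ S ≤ X :=
      IntermediateField.adjoin_le_iff.mpr
        (fun c hc => IntermediateField.subset_adjoin _ _ ⟨c, hc, rfl⟩)
    have hK'X : K' ≤ X := hK'.trans (sup_le hKX hSX)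
    intro z hz
    have hle : Ef K' ≤ A.toSubfield := by
      show Subfield.closure (G ∪ algebraMap L Ω '' (K' : Set L)) ≤ A.toSubfield
      rw [Subfield.closure_le]
      rintro z (hz | ⟨c, hc, rfl⟩)
      · exact hEA z (hGE K hz)
      · exact hK'X hc
    exact hle hz
  set K₁ : IntermediateField ℚ L := K₀ ⊔ IntermediateField.adjoin ℚ (T : Set L) with hK₁
  have hfinT : FiniteDimensional ℚ (IntermediateField.adjoin ℚ (T : Set L)) :=
    IntermediateField.finiteDimensional_adjoin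
      (fun x _ => (Algebra.IsAlgebraic.isAlgebraic x).isIntegral)
  have hfin₁ : FiniteDimensional ℚ K₁ := IntermediateField.finiteDimensional_sup K₀ _
  have h01 : K₀ ≤ K₁ := le_sup_left
  have hT1 : ∀ θ ∈ T, θ ∈ K₁ := fun θ hθ =>
    (le_sup_right : IntermediateField.adjoin ℚ (T : Set L) ≤ K₁)
      (IntermediateField.subset_adjoin ℚ _ hθ)
  -- the level `K₁` is rational
  have hB : ∀ y : ↥V, (y : Ω) ∈ Ef K₁ → ev y ∈ K₁ := by
    intro y hy
    have hy' := hgen K₀ K₁ (T : Set L) le_rfl _ hy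
    refine level_step V ev ord hmul hnonneg hzero hLV (Ef K₀) hτE hτ0 hτ (T : Set L)
      (fun θ _ => halgE _ θ) K₁.toSubfield ?_ ?_ ?_ y hy'
    · intro x hx
      have h := hspan x hx
      refine Submodule.span_induction (p := fun v _ => v ∈ K₁) ?_ ?_ ?_ ?_ h
      · intro v hv
        exact hT1 v hv
      · exact K₁.zero_mem
      · intro a b _ _ ha hb
        exact K₁.add_mem ha hb
      · intro c v _ hv
        rw [Algebra.smul_def]
        exact K₁.mul_mem (h01 c.2) hv
    · intro θ hθ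
      rw [hevL]
      exact hT1 θ hθ
    · intro u huO huev hdiv
      exact star_of_values ev (cstV V hLV) hevL (traceRing V (Ef K₀)) huev hdiv T
        (fun c _ => halgZ c) (fun c hc => hT c hc)
  refine ⟨K₁, hfin₁, h01, ?_⟩
  intro K _ hK y hy
  obtain ⟨α, hα⟩ := Field.exists_primitive_element ℚ ↥K
  set θ : L := (α : L) with hθ
  have hKθ : K ≤ K₁ ⊔ IntermediateField.adjoin ℚ {θ} := by
    intro c hc
    have h1 : (⟨c, hc⟩ : ↥K) ∈ (⊤ : IntermediateField ℚ ↥K) := IntermediateField.mem_top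
    rw [← hα] at h1
    have h2 : IntermediateField.adjoin ℚ {α} ≤ (IntermediateField.adjoin ℚ {θ}).comap K.val := by
      rw [IntermediateField.adjoin_simple_le_iff]
      exact IntermediateField.subset_adjoin ℚ _ rfl
    exact (le_sup_right : IntermediateField.adjoin ℚ {θ} ≤ K₁ ⊔ _) (h2 h1)
  have hy' := hgen K₁ K {θ} hKθ _ hy
  refine level_step V ev ord hmul hnonneg hzero hLV (Ef K₁) (hEmono _ _ h01 hτE) hτ0 hτ {θ}
    (fun θ' _ => halgE _ θ') K.toSubfield ?_ ?_ ?_ y hy'
  · intro x hx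
    exact hK (hB x hx)
  · intro θ' hθ'
    rw [Set.mem_singleton_iff] at hθ'
    subst hθ'
    rw [hevL]
    exact α.2
  · intro u huO huev hdiv
    exact star_of_primitive ev (cstV V hLV) hevL (K₁ := ↥K₁) (traceRing V (Ef K₁))
      (fun a => hcE K₁ _ a.2) (fun o ho => ⟨⟨ev o, hB o ho⟩, rfl⟩) hdiv θ
      ((Algebra.IsAlgebraic.isAlgebraic (R := ℚ) θ).isIntegral.tower_top)

end Assembly

end Fermat.Agent.S37.RatCore
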