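import Mathlib
import Fermat.Agent.S18.Setup
import Fermat.Agent.S37.EvalGal
import Fermat.Agent.S37.RatCore

/-!
# S37 (W2): every place of `X₀(N)` over `ℚ̄` is rational over all large number fields

`exists_rational_level` : for a place `P` of `F_L = ℚ̄(j(q^d) : d ∣ N)` there is a number field
`K₁ ⊆ ℚ̄` such that for every number field `K ⊇ K₁`, every function of `F_K` (the function field
over `K`, sealed carrier `Setup.FK K N`) which is regular at `P` takes a value in `K` at `P`.

The proof instantiates the abstract `RatCore.exists_rational_level_of_closure`: the image of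
`F_K` in `F_L` is the subfield generated by the `j(q^d)` and the constants of `K`, and the values
at `P` of the functions of `F_{K₀}` regular at `P` span a finite-dimensional `K₀`-space because
`F_{K₀}` is finite over the line `K₀(j)`.
-/

set_option autoImplicit false

open AlgebraicCurve ModularCurve Polynomial

namespace Fermat.Agent.S37.RatPlace

open Fermat.Agent.S18 Fermat.Agent.S37

local notation "Qb" => AlgebraicClosure ℚ

variable (N : ℕ) [NeZero N]

/-- the generators `j(q^d)`, `d ∣ N`, inside `F_L`. -/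
noncomputable def gens : Set ↥(S24Export.FL N) :=
  {y | ∃ (d : ℕ) (_ : NeZero d), d ∣ N ∧ (y : LaurentSeries Qb) = qExpand Qb d (jqModC Qb)}

/-- the image of `F_K` in `F_L`, as the subfield generated by the `j(q^d)` and the constants. -/
noncomputable def level (K : IntermediateField ℚ Qb) : Subfield ↥(S24Export.FL N) :=
  Subfield.closure (gens N ∪ algebraMap Qb ↥(S24Export.FL N) '' (K : Set Qb))

/-- the image of `F_K` lies in every subfield containing the generators and the constants. -/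
theorem ιL_mem_of_le (K : Type*) [Field K] [Algebra K Qb] (F' : Subfield ↥(S24Export.FL N))
    (hG : gens N ⊆ F')
    (hc : ∀ c : K, algebraMap Qb ↥(S24Export.FL N) (algebraMap K Qb c) ∈ F')
    (x : Setup.FK K N) : Setup.ιL K N x ∈ F' := by
  have key : ∀ x₀ : LaurentSeries K, x₀ ∈ IntermediateField.adjoin K (divisorExpansionsC K N) →
      ∀ h : x₀ ∈ modularFunctionFieldFullC K N, Setup.ιL K N (Setup.FK.mk x₀ h) ∈ F' := by
    intro x₀ hx₀
    induction hx₀ using IntermediateField.adjoin_induction with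
    | mem x hx =>
      intro h
      obtain ⟨d, hd, hdN, rfl⟩ := hx
      apply hG
      refine ⟨d, hd, hdN, ?_⟩
      rw [Setup.coe_ιL, Setup.FK.val_mk, FieldDef.coeffMap_gen]
    | algebraMap c =>
      intro h
      have e : Setup.FK.mk (algebraMap K (LaurentSeries K) c) h = algebraMap K (Setup.FK K N) c :=
        rfl
      rw [e, Setup.ιL_algebraMap]
      exact hc c
    | add x y hx hy ihx ihy =>
      intro h
      have hx' : x ∈ modularFunctionFieldFullC K N := hx
      have hy' : y ∈ modularFunctionFieldFullC K N := hy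
      have e : Setup.FK.mk (x + y) h = Setup.FK.mk x hx' + Setup.FK.mk y hy' := rfl
      rw [e, map_add]
      exact F'.add_mem (ihx hx') (ihy hy')
    | inv x hx ihx =>
      intro h
      have hx' : x ∈ modularFunctionFieldFullC K N := hx
      have e : Setup.FK.mk x⁻¹ h = (Setup.FK.mk x hx')⁻¹ := rfl
      rw [e, map_inv₀]
      exact F'.inv_mem (ihx hx')
    | mul x y hx hy ihx ihy =>
      intro h
      have hx' : x ∈ modularFunctionFieldFullC K N := hx
      have hy' : y ∈ modularFunctionFieldFullC K N := hy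
      have e : Setup.FK.mk (x * y) h = Setup.FK.mk x hx' * Setup.FK.mk y hy' := rfl
      rw [e, map_mul]
      exact F'.mul_mem (ihx hx') (ihy hy')
  have := key (Setup.FK.val K N x) (Setup.FK.val_mem x) (Setup.FK.val_mem x)
  rwa [Setup.FK.mk_val] at this

theorem ιL_mem_level (K : IntermediateField ℚ Qb) (x : Setup.FK K N) :
    Setup.ιL K N x ∈ level N K :=
  ιL_mem_of_le N K (level N K) (fun _ hg => Subfield.subset_closure (Or.inl hg))
    (fun c => Subfield.subset_closure (Or.inr ⟨(c : Qb), c.2, rfl⟩)) x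

theorem exists_of_mem_level (K : IntermediateField ℚ Qb) {y : ↥(S24Export.FL N)}
    (hy : y ∈ level N K) : ∃ x : Setup.FK K N, Setup.ιL K N x = y := by
  have hle : level N K ≤ (Setup.ιL K N).fieldRange := by
    unfold level
    rw [Subfield.closure_le]
    rintro z (hz | ⟨c, hc, rfl⟩)
    · obtain ⟨d, hd, hdN, e⟩ := hz
      refine ⟨Setup.FK.mk (qExpand K d (jqModC K)) (jqModCd_mem_full K N hdN), Subtype.ext ?_⟩
      rw [Setup.coe_ιL, Setup.FK.val_mk, FieldDef.coeffMap_gen, e]
    · exact ⟨algebraMap K (Setup.FK K N) ⟨c, hc⟩, Setup.ιL_algebraMap K N ⟨c, hc⟩⟩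
  exact hle hy

/-- a number field `K₀` and a function of `F_{K₀}` vanishing at `P` which generates the line. -/
theorem exists_base (P : Place Qb ↥(S24Export.FL N)) :
    ∃ (K₀ : IntermediateField ℚ Qb) (_ : FiniteDimensional ℚ K₀) (t : Setup.FK K₀ N),
      t ≠ 0 ∧ IntermediateField.adjoin ↥K₀ {Setup.jF K₀ N} ≤ IntermediateField.adjoin ↥K₀ {t} ∧
        0 < P.ord (Setup.ιL K₀ N t) := by
  have hQ : Algebra.IsAlgebraic ℚ Qb := AlgebraicClosure.isAlgebraic ℚ
  by_cases hj : S24Export.jL N ∈ P.toValuationSubring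
  · set a : Qb := EvalGal.evL P ⟨S24Export.jL N, hj⟩ with ha
    have hint : IsIntegral ℚ a := (Algebra.IsAlgebraic.isAlgebraic a).isIntegral
    refine ⟨IntermediateField.adjoin ℚ {a}, IntermediateField.adjoin.finiteDimensional hint,
      Setup.jF _ N - algebraMap _ _
        (⟨a, IntermediateField.mem_adjoin_simple_self ℚ a⟩ : ↥(IntermediateField.adjoin ℚ {a})),
      ?_, ?_, ?_⟩
    · intro h
      apply Setup.transcendental_jF (↥(IntermediateField.adjoin ℚ {a})) N
      rw [sub_eq_zero.mp h]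
      exact isAlgebraic_algebraMap _
    · rw [IntermediateField.adjoin_simple_le_iff]
      have hmem := add_mem (IntermediateField.mem_adjoin_simple_self
        (↥(IntermediateField.adjoin ℚ {a})) (Setup.jF (↥(IntermediateField.adjoin ℚ {a})) N -
          algebraMap _ _ (⟨a, IntermediateField.mem_adjoin_simple_self ℚ a⟩ :
            ↥(IntermediateField.adjoin ℚ {a}))))
        (IntermediateField.algebraMap_mem _
          (⟨a, IntermediateField.mem_adjoin_simple_self ℚ a⟩ :
            ↥(IntermediateField.adjoin ℚ {a})))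
      rwa [sub_add_cancel] at hmem
    · rw [map_sub, Setup.ιL_jF, Setup.ιL_algebraMap]
      have h2 := (EvalGal.evL_eq_iff_ord P ⟨S24Export.jL N, hj⟩ a).mp rfl
      rcases h2 with h2 | h2
      · exact absurd (sub_eq_zero.mpr h2) (S24Export.jL_sub_ne_zero N a)
      · exact h2
  · refine ⟨⊥, inferInstance, (Setup.jF _ N)⁻¹, ?_, ?_, ?_⟩
    · exact inv_ne_zero (fun h => Setup.transcendental_jF _ N (h ▸ isAlgebraic_zero))
    · rw [IntermediateField.adjoin_simple_le_iff]
      have hmem := inv_mem (IntermediateField.mem_adjoin_simple_self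
        (↥(⊥ : IntermediateField ℚ Qb)) (Setup.jF (↥(⊥ : IntermediateField ℚ Qb)) N)⁻¹)
      rwa [inv_inv] at hmem
    · rw [map_inv₀, Setup.ιL_jF,
        Fermat.Agent.S24.FFDeg.ord_pos_iff P (inv_ne_zero (S24Export.jL_ne_zero N)), inv_inv]
      exact hj

/-- **Every place of `X₀(N)` over `ℚ̄` is rational over all large number fields**, in terms of
the value `EvalGal.evL P`. -/
theorem exists_rational_level_ev (P : Place Qb ↥(S24Export.FL N)) :
    ∃ (K₁ : IntermediateField ℚ Qb) (_ : FiniteDimensional ℚ K₁),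
      ∀ (K : IntermediateField ℚ Qb) [FiniteDimensional ℚ K], K₁ ≤ K →
        ∀ (x : Setup.FK K N) (hx : Setup.ιL K N x ∈ P.toValuationSubring),
          EvalGal.evL P ⟨Setup.ιL K N x, hx⟩ ∈ K := by
  classical
  have hQ : Algebra.IsAlgebraic ℚ Qb := AlgebraicClosure.isAlgebraic ℚ
  set V := P.toValuationSubring with hV
  set ev := EvalGal.evL P with hev
  have hmul : ∀ f g : ↥(S24Export.FL N), f ≠ 0 → g ≠ 0 → P.ord (f * g) = P.ord f + P.ord g :=
    fun f g hf hg => P.ord_mul hf hg
  have hnonneg : ∀ f : ↥(S24Export.FL N), f ≠ 0 → (0 ≤ P.ord f ↔ f ∈ V) :=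
    fun f hf => Fermat.Agent.S24.FFDeg.ord_nonneg_iff P hf
  have hzero : ∀ x : ↥V, ev x = 0 ↔ (x : ↥(S24Export.FL N)) = 0 ∨
      0 < P.ord (x : ↥(S24Export.FL N)) := by
    intro x
    rw [hev, EvalGal.evL, EvalGal.ev_eq_zero_iff, EvalGal.mem_maximalIdeal_iff]
    constructor
    · rintro (h | h)
      · left
        rw [h]
        rfl
      · exact Or.inr h
    · rintro (h | h)
      · exact Or.inl (Subtype.ext h)
      · exact Or.inr h
  have hLV : ∀ c : Qb, algebraMap Qb ↥(S24Export.FL N) c ∈ V := P.algebraMap_mem'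
  have hevL : ∀ c : Qb, ev (RatCore.cstV V hLV c) = c := fun c => EvalGal.evL_algebraMap P c
  obtain ⟨K₀, hfin₀, t, ht0, hM, htpos⟩ := exists_base N P
  -- the place on the level `K₀`
  let O : ValuationSubring (Setup.FK K₀ N) := V.comap (Setup.ιL K₀ N)
  let evK : ↥O →+* Qb := ev.comp ((Setup.ιL K₀ N).restrict O V (fun x hx => hx))
  have hval : ∀ (x : Setup.FK K₀ N) (hx : Setup.ιL K₀ N x ∈ V),
      RatCore.valOf O evK x = ev ⟨Setup.ιL K₀ N x, hx⟩ := by
    intro x hx
    have hx' : x ∈ O := hx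
    rw [RatCore.valOf_mk O evK hx']
    rfl
  have hKO : ∀ c : ↥K₀, algebraMap ↥K₀ (Setup.FK K₀ N) c ∈ O := by
    intro c
    show Setup.ιL K₀ N (algebraMap ↥K₀ (Setup.FK K₀ N) c) ∈ V
    rw [Setup.ιL_algebraMap]
    exact hLV _
  have hevK : ∀ c : ↥K₀, RatCore.valOf O evK (algebraMap ↥K₀ (Setup.FK K₀ N) c) =
      algebraMap ↥K₀ Qb c := by
    intro c
    rw [hval _ (hKO c)]
    have e : (⟨Setup.ιL K₀ N (algebraMap ↥K₀ (Setup.FK K₀ N) c), hKO c⟩ : ↥V) =
        RatCore.cstV V hLV (algebraMap ↥K₀ Qb c) := Subtype.ext (Setup.ιL_algebraMap K₀ N c)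
    rw [e, hevL]
  have hτ0 : Setup.ιL K₀ N t ≠ 0 := (_root_.map_ne_zero _).mpr ht0
  have htV : Setup.ιL K₀ N t ∈ V := (hnonneg _ hτ0).mp htpos.le
  have htO : t ∈ O := htV
  have hevt : RatCore.valOf O evK t = 0 := by
    rw [hval t htV]
    exact (hzero _).mpr (Or.inr htpos)
  have : FiniteDimensional ↥(IntermediateField.adjoin ↥K₀ {Setup.jF K₀ N}) (Setup.FK K₀ N) :=
    Setup.instFiniteDimensionalLineFK K₀ N
  obtain ⟨T, hT, hspan⟩ := RatCore.exists_finset_span O evK hKO hevK htO hevt
    (IntermediateField.adjoin ↥K₀ {Setup.jF K₀ N}) hM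
  obtain ⟨K₁, hfin₁, -, hmain⟩ := RatCore.exists_rational_level_of_closure V ev P.ord hmul hnonneg
    hzero hLV hevL (gens N) K₀ T
    (fun θ hθ => by
      obtain ⟨x, hxO, e⟩ := hT θ hθ
      exact ⟨⟨Setup.ιL K₀ N x, hxO⟩, ιL_mem_level N K₀ x, by rw [← e, hval x hxO]⟩)
    (fun y hy => by
      obtain ⟨x, hx⟩ := exists_of_mem_level N K₀ hy
      have hxV : Setup.ιL K₀ N x ∈ V := by
        rw [hx]
        exact y.2
      have h := hspan x hxV
      rw [hval x hxV] at h
      have e : (⟨Setup.ιL K₀ N x, hxV⟩ : ↥V) = y := Subtype.ext hx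
      rwa [e] at h)
    (ιL_mem_level N K₀ t) hτ0 htpos
  exact ⟨K₁, hfin₁, fun K _ hK x hx => hmain K hK ⟨Setup.ιL K N x, hx⟩ (ιL_mem_level N K x)⟩

/-- **Every place of `X₀(N)` over `ℚ̄` is rational over all large number fields.** -/
theorem exists_rational_level (P : Place Qb ↥(S24Export.FL N)) :
    ∃ (K₁ : IntermediateField ℚ Qb) (_ : FiniteDimensional ℚ K₁),
      ∀ (K : IntermediateField ℚ Qb) [FiniteDimensional ℚ K], K₁ ≤ K →
        ∀ x : Setup.FK K N, Setup.ιL K N x ∈ P.toValuationSubring →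
          ∃ c : K, Setup.ιL K N x - algebraMap Qb ↥(S24Export.FL N) (algebraMap K Qb c) ∈
            P.toValuationSubring.nonunits := by
  obtain ⟨K₁, hfin₁, hmain⟩ := exists_rational_level_ev N P
  refine ⟨K₁, hfin₁, fun K _ hK x hx => ?_⟩
  have h := hmain K hK x hx
  refine ⟨⟨EvalGal.evL P ⟨Setup.ιL K N x, hx⟩, h⟩, ?_⟩
  have h1 := EvalGal.sub_ev_mem P (S24Export.deg_eq_one N P) ⟨Setup.ιL K N x, hx⟩
  rw [ValuationSubring.mem_nonunits_iff_exists_mem_maximalIdeal]
  exact ⟨sub_mem hx (P.algebraMap_mem' _), h1⟩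

/-- **Finitely many places are simultaneously rational over all large number fields**
(containing a prescribed number field `Kd`). -/
theorem exists_rational_level_finset (Kd : IntermediateField ℚ Qb) [FiniteDimensional ℚ Kd]
    (S : Finset (Place Qb ↥(S24Export.FL N))) :
    ∃ (K₁ : IntermediateField ℚ Qb) (_ : FiniteDimensional ℚ K₁), Kd ≤ K₁ ∧
      ∀ (K : IntermediateField ℚ Qb) [FiniteDimensional ℚ K], K₁ ≤ K → ∀ P ∈ S,
        ∀ (x : Setup.FK K N) (hx : Setup.ιL K N x ∈ P.toValuationSubring),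
          EvalGal.evL P ⟨Setup.ιL K N x, hx⟩ ∈ K := by
  classical
  induction S using Finset.induction_on with
  | empty => exact ⟨Kd, inferInstance, le_rfl, fun K _ _ P hP => absurd hP (Finset.notMem_empty P)⟩
  | insert P S _ ih =>
    obtain ⟨K₁, hfin₁, hd, h₁⟩ := ih
    obtain ⟨K₂, hfin₂, h₂⟩ := exists_rational_level_ev N P
    refine ⟨K₁ ⊔ K₂, IntermediateField.finiteDimensional_sup K₁ K₂, hd.trans le_sup_left,
      fun K _ hK Q hQ x hx => ?_⟩
    rcases Finset.mem_insert.mp hQ with rfl | hQ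
    · exact h₂ K (le_sup_right.trans hK) x hx
    · exact h₁ K (le_sup_left.trans hK) Q hQ x hx

end Fermat.Agent.S37.RatPlace
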