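import Mathlib
import Fermat.Agent.S18.CoverBaseS
import Fermat.Agent.S37.CoverDefs
import Fermat.Agent.S37.RatPlace
import Fermat.Agent.S37.RatUnram

/-!
# S37 (W2, cover chain, leaf (R)): rationality of the places of the cover

`Ω = AdjoinRoot m` for a monic irreducible polynomial `m` over `F_L = FL N`.  For a place `P` of
`Ω` over `ℚ̄` there is a number field `K₁` such that for every number field `K ⊇ K₁` and every
level datum `(m0, hmap : m0.map (ιL K N) = m)`, every function of `F# = AdjoinRoot m0` which is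
regular at `P` (through `CoverDefs.phi`) takes a value in `K` at `P`.

This is `RatCore.exists_rational_level_of_closure` once more: the image of `AdjoinRoot m0` in `Ω`
is the subfield generated by the `j(q^d)`, the root of `m` and the constants of `K`.
-/

set_option autoImplicit false

open AlgebraicCurve ModularCurve Polynomial

namespace Fermat.Agent.S37.RatCover

open Fermat.Agent.S18 Fermat.Agent.S18.Setup Fermat.Agent.S18.S24Export Fermat.Agent.S37
open Fermat.Agent.S37.CoverDefs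

local notation "Qb" => AlgebraicClosure ℚ

variable (N : ℕ) [NeZero N] (m : (FL N)[X]) [Fact (Irreducible m)]

/-- the generators of the cover over the constants: the `j(q^d)` and the root of `m`. -/
noncomputable def gensO : Set (AdjoinRoot m) :=
  AdjoinRoot.of m '' RatPlace.gens N ∪ {AdjoinRoot.root m}

/-- the image of a level `K` of the cover, as a subfield of `Ω`. -/
noncomputable def levelO (K : IntermediateField ℚ Qb) : Subfield (AdjoinRoot m) :=
  Subfield.closure (gensO N m ∪ algebraMap Qb (AdjoinRoot m) '' (K : Set Qb))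

theorem of_ιL_mem_levelO (K : IntermediateField ℚ Qb) (x : FK K N) :
    AdjoinRoot.of m (ιL K N x) ∈ levelO N m K := by
  have h := RatPlace.ιL_mem_of_le N K ((levelO N m K).comap (AdjoinRoot.of m))
    (fun g hg => Subfield.subset_closure (Or.inl (Or.inl ⟨g, hg, rfl⟩)))
    (fun c => Subfield.subset_closure (Or.inr ⟨(c : Qb), c.2, rfl⟩)) x
  exact h

theorem phi_mem_levelO (K : IntermediateField ℚ Qb) (m0 : (FK K N)[X])
    (hmap : m0.map (ιL K N) = m) (x : AdjoinRoot m0) :
    phi N m m0 hmap x ∈ levelO N m K := by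
  induction x using AdjoinRoot.induction_on with
  | ih p =>
    induction p using Polynomial.induction_on' with
    | add p q hp hq =>
      rw [map_add, map_add]
      exact add_mem hp hq
    | monomial n a =>
      rw [← C_mul_X_pow_eq_monomial, map_mul, map_pow, AdjoinRoot.mk_C, AdjoinRoot.mk_X, map_mul,
        map_pow, phi_of, phi_root]
      have hroot : AdjoinRoot.root m ∈ levelO N m K :=
        Subfield.subset_closure (Or.inl (Or.inr rfl))
      exact mul_mem (of_ιL_mem_levelO N m K a) (pow_mem hroot n)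

theorem exists_of_mem_levelO (K : IntermediateField ℚ Qb) (m0 : (FK K N)[X])
    [Fact (Irreducible m0)] (hmap : m0.map (ιL K N) = m) {y : AdjoinRoot m}
    (hy : y ∈ levelO N m K) : ∃ x : AdjoinRoot m0, phi N m m0 hmap x = y := by
  have hle : levelO N m K ≤ (phi N m m0 hmap).fieldRange := by
    unfold levelO
    rw [Subfield.closure_le]
    rintro z ((⟨g, hg, rfl⟩ | hz) | ⟨c, hc, rfl⟩)
    · obtain ⟨x', hx'⟩ := RatPlace.exists_of_mem_level N K
        (Subfield.subset_closure (Or.inl hg) : g ∈ RatPlace.level N K)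
      exact ⟨AdjoinRoot.of m0 x', by rw [phi_of, hx']⟩
    · rw [Set.mem_singleton_iff] at hz
      subst hz
      exact ⟨AdjoinRoot.root m0, phi_root N m m0 hmap⟩
    · exact ⟨AdjoinRoot.of m0 (algebraMap K (FK K N) ⟨c, hc⟩), by
        rw [phi_of, ιL_algebraMap]
        rfl⟩
  exact hle hy

omit [NeZero N] in
theorem of_jL_ne (a : Qb) :
    AdjoinRoot.of m (jL N) ≠ algebraMap Qb (AdjoinRoot m) a := by
  intro h
  have h1 : AdjoinRoot.of m (jL N) = AdjoinRoot.of m (algebraMap Qb (FL N) a) := h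
  exact jL_sub_ne_zero N a (sub_eq_zero.mpr ((AdjoinRoot.of m).injective h1))

/-- every place of the cover has degree one. -/
theorem deg_eq_one (P : Place Qb (AdjoinRoot m)) : P.deg = 1 := by
  have hfd : FiniteDimensional (FL N) (AdjoinRoot m) :=
    (AdjoinRoot.powerBasis (Fact.out : Irreducible m).ne_zero).finite
  have : FiniteDimensional
      ↥(IntermediateField.adjoin Qb {AdjoinRoot.of m (jL N)}) (AdjoinRoot m) :=
    CoverField.finiteDimensional_adjoin_simple (jL N) (AdjoinRoot.of m (jL N))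
      (IntermediateField.mem_adjoin_simple_self Qb _)
  exact Fermat.Agent.S24.FFDeg.deg_eq_one
    (IntermediateField.adjoin Qb {AdjoinRoot.of m (jL N)}) (AdjoinRoot.of m (jL N)) rfl P

/-- a function of the level `K₀` vanishing at `P` which generates the line, as soon as `K₀`
contains the value of `j` at `P`. -/
theorem exists_base (K₀ : IntermediateField ℚ Qb) (m0 : (FK K₀ N)[X]) [Fact (Irreducible m0)]
    (hmap : m0.map (ιL K₀ N) = m) (P : Place Qb (AdjoinRoot m))
    (ha : ∀ hj : AdjoinRoot.of m (jL N) ∈ P.toValuationSubring,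
      EvalGal.ev P (deg_eq_one N m P) ⟨AdjoinRoot.of m (jL N), hj⟩ ∈ K₀) :
    ∃ t : AdjoinRoot m0, t ≠ 0 ∧
      IntermediateField.adjoin ↥K₀ {AdjoinRoot.of m0 (jF K₀ N)} ≤
        IntermediateField.adjoin ↥K₀ {t} ∧ 0 < P.ord (phi N m m0 hmap t) := by
  have hne0 : ∀ t : AdjoinRoot m0, 0 < P.ord (phi N m m0 hmap t) → t ≠ 0 := by
    rintro t ht rfl
    rw [map_zero, Place.ord_zero] at ht
    exact lt_irrefl 0 ht
  by_cases hj : AdjoinRoot.of m (jL N) ∈ P.toValuationSubring
  · set a : Qb := EvalGal.ev P (deg_eq_one N m P) ⟨AdjoinRoot.of m (jL N), hj⟩ with hadef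
    have haK : a ∈ K₀ := ha hj
    have hpos : 0 < P.ord (phi N m m0 hmap (AdjoinRoot.of m0 (jF K₀ N) -
        algebraMap ↥K₀ (AdjoinRoot m0) ⟨a, haK⟩)) := by
      have e : phi N m m0 hmap (AdjoinRoot.of m0 (jF K₀ N) -
          algebraMap ↥K₀ (AdjoinRoot m0) ⟨a, haK⟩) =
          AdjoinRoot.of m (jL N) - algebraMap Qb (AdjoinRoot m) a := by
        have e1 : algebraMap ↥K₀ (AdjoinRoot m0) ⟨a, haK⟩ =
            AdjoinRoot.of m0 (algebraMap ↥K₀ (FK K₀ N) ⟨a, haK⟩) := rfl
        rw [map_sub, e1, phi_of, phi_of, ιL_jF, ιL_algebraMap]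
        rfl
      rw [e]
      rcases (EvalGal.ev_eq_iff_ord P (deg_eq_one N m P) ⟨AdjoinRoot.of m (jL N), hj⟩ a).mp rfl
        with h2 | h2
      · exact absurd h2 (of_jL_ne N m a)
      · exact h2
    refine ⟨_, hne0 _ hpos, ?_, hpos⟩
    rw [IntermediateField.adjoin_simple_le_iff]
    have hmem := add_mem (IntermediateField.mem_adjoin_simple_self ↥K₀
      (AdjoinRoot.of m0 (jF K₀ N) - algebraMap ↥K₀ (AdjoinRoot m0) ⟨a, haK⟩))
      (IntermediateField.algebraMap_mem _ (⟨a, haK⟩ : ↥K₀))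
    rwa [sub_add_cancel] at hmem
  · have hpos : 0 < P.ord (phi N m m0 hmap (AdjoinRoot.of m0 (jF K₀ N))⁻¹) := by
      have hne : AdjoinRoot.of m (jL N) ≠ 0 := by
        have := of_jL_ne N m 0
        rwa [map_zero] at this
      rw [map_inv₀, phi_of, ιL_jF, Fermat.Agent.S24.FFDeg.ord_pos_iff P (inv_ne_zero hne), inv_inv]
      exact hj
    refine ⟨_, hne0 _ hpos, ?_, hpos⟩
    rw [IntermediateField.adjoin_simple_le_iff]
    have hmem := inv_mem (IntermediateField.mem_adjoin_simple_self ↥K₀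
      (AdjoinRoot.of m0 (jF K₀ N))⁻¹)
    rwa [inv_inv] at hmem

/-- **Every place of the cover is rational over all large number fields**, in terms of the value
`EvalGal.ev P`. -/
theorem exists_rational_level_ev (hm : m.Monic) (P : Place Qb (AdjoinRoot m)) :
    ∃ (K₁ : IntermediateField ℚ Qb) (_ : FiniteDimensional ℚ K₁),
      ∀ (K : IntermediateField ℚ Qb) [FiniteDimensional ℚ K], K₁ ≤ K →
        ∀ (m0 : (FK K N)[X]) (hmap : m0.map (ιL K N) = m) (x : AdjoinRoot m0)
          (hx : phi N m m0 hmap x ∈ P.toValuationSubring),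
          EvalGal.ev P (deg_eq_one N m P) ⟨phi N m m0 hmap x, hx⟩ ∈ K := by
  classical
  have hQ : Algebra.IsAlgebraic ℚ Qb := AlgebraicClosure.isAlgebraic ℚ
  set V := P.toValuationSubring with hV
  set ev := EvalGal.ev P (deg_eq_one N m P) with hev
  have hmul : ∀ f g : AdjoinRoot m, f ≠ 0 → g ≠ 0 → P.ord (f * g) = P.ord f + P.ord g :=
    fun f g hf hg => P.ord_mul hf hg
  have hnonneg : ∀ f : AdjoinRoot m, f ≠ 0 → (0 ≤ P.ord f ↔ f ∈ V) :=
    fun f hf => Fermat.Agent.S24.FFDeg.ord_nonneg_iff P hf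
  have hzero : ∀ x : ↥V, ev x = 0 ↔ (x : AdjoinRoot m) = 0 ∨ 0 < P.ord (x : AdjoinRoot m) := by
    intro x
    rw [hev, EvalGal.ev_eq_zero_iff, EvalGal.mem_maximalIdeal_iff]
    constructor
    · rintro (h | h)
      · left
        rw [h]
        rfl
      · exact Or.inr h
    · rintro (h | h)
      · exact Or.inl (Subtype.ext h)
      · exact Or.inr h
  have hLV : ∀ c : Qb, algebraMap Qb (AdjoinRoot m) c ∈ V := P.algebraMap_mem'
  have hevL : ∀ c : Qb, ev (RatCore.cstV V hLV c) = c := fun c => EvalGal.ev_algebraMap P _ c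
  -- the base level
  obtain ⟨Kb, hKb, hcoef⟩ := CoverBaseS.exists_base_field N m
  set a : Qb := if hj : AdjoinRoot.of m (jL N) ∈ V then ev ⟨AdjoinRoot.of m (jL N), hj⟩ else 0
    with hadef
  have hinta : IsIntegral ℚ a := (Algebra.IsAlgebraic.isAlgebraic a).isIntegral
  have hfina : FiniteDimensional ℚ ↥(IntermediateField.adjoin ℚ {a}) :=
    IntermediateField.adjoin.finiteDimensional hinta
  set K₀ : IntermediateField ℚ Qb := Kb ⊔ IntermediateField.adjoin ℚ {a} with hK₀
  have hfin₀ : FiniteDimensional ℚ ↥K₀ := IntermediateField.finiteDimensional_sup Kb _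
  obtain ⟨m0, hm0, hirr0, hmap0, -⟩ := CoverBaseS.exists_descent ↥K₀ m hm Fact.out
    (hcoef K₀ le_sup_left)
  have : Fact (Irreducible m0) := ⟨hirr0⟩
  have haK : ∀ hj : AdjoinRoot.of m (jL N) ∈ P.toValuationSubring,
      EvalGal.ev P (deg_eq_one N m P) ⟨AdjoinRoot.of m (jL N), hj⟩ ∈ K₀ := by
    intro hj
    have e : EvalGal.ev P (deg_eq_one N m P) ⟨AdjoinRoot.of m (jL N), hj⟩ = a := by
      rw [hadef, dif_pos hj]
    rw [e]
    exact (le_sup_right : IntermediateField.adjoin ℚ {a} ≤ K₀)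
      (IntermediateField.mem_adjoin_simple_self ℚ a)
  obtain ⟨t, ht0, hM, htpos⟩ := exists_base N m K₀ m0 hmap0 P haK
  -- the place on the level `K₀`
  let O : ValuationSubring (AdjoinRoot m0) := V.comap (phi N m m0 hmap0)
  let evK : ↥O →+* Qb := ev.comp ((phi N m m0 hmap0).restrict O V (fun x hx => hx))
  have hval : ∀ (x : AdjoinRoot m0) (hx : phi N m m0 hmap0 x ∈ V),
      RatCore.valOf O evK x = ev ⟨phi N m m0 hmap0 x, hx⟩ := by
    intro x hx
    have hx' : x ∈ O := hx
    rw [RatCore.valOf_mk O evK hx']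
    rfl
  have hphic : ∀ c : ↥K₀, phi N m m0 hmap0 (algebraMap ↥K₀ (AdjoinRoot m0) c) =
      algebraMap Qb (AdjoinRoot m) (algebraMap ↥K₀ Qb c) := by
    intro c
    have e1 : algebraMap ↥K₀ (AdjoinRoot m0) c =
        AdjoinRoot.of m0 (algebraMap ↥K₀ (FK K₀ N) c) := rfl
    rw [e1, phi_of, ιL_algebraMap]
    rfl
  have hKO : ∀ c : ↥K₀, algebraMap ↥K₀ (AdjoinRoot m0) c ∈ O := by
    intro c
    show phi N m m0 hmap0 (algebraMap ↥K₀ (AdjoinRoot m0) c) ∈ V
    rw [hphic]
    exact hLV _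
  have hevK : ∀ c : ↥K₀, RatCore.valOf O evK (algebraMap ↥K₀ (AdjoinRoot m0) c) =
      algebraMap ↥K₀ Qb c := by
    intro c
    rw [hval _ (hKO c)]
    have e : (⟨phi N m m0 hmap0 (algebraMap ↥K₀ (AdjoinRoot m0) c), hKO c⟩ : ↥V) =
        RatCore.cstV V hLV (algebraMap ↥K₀ Qb c) := Subtype.ext (hphic c)
    rw [e, hevL]
  have hτ0 : phi N m m0 hmap0 t ≠ 0 := (_root_.map_ne_zero _).mpr ht0
  have htV : phi N m m0 hmap0 t ∈ V := (hnonneg _ hτ0).mp htpos.le
  have htO : t ∈ O := htV
  have hevt : RatCore.valOf O evK t = 0 := by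
    rw [hval t htV]
    exact (hzero _).mpr (Or.inr htpos)
  have hfd0 : FiniteDimensional (FK K₀ N) (AdjoinRoot m0) :=
    (AdjoinRoot.powerBasis hirr0.ne_zero).finite
  have hfdj : FiniteDimensional ↥(IntermediateField.adjoin ↥K₀ {jF K₀ N}) (FK K₀ N) :=
    instFiniteDimensionalLineFK K₀ N
  have : FiniteDimensional ↥(IntermediateField.adjoin ↥K₀ {AdjoinRoot.of m0 (jF K₀ N)})
      (AdjoinRoot m0) :=
    CoverField.finiteDimensional_adjoin_simple (jF K₀ N) (AdjoinRoot.of m0 (jF K₀ N))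
      (IntermediateField.mem_adjoin_simple_self ↥K₀ _)
  obtain ⟨T, hT, hspan⟩ := RatCore.exists_finset_span O evK hKO hevK htO hevt
    (IntermediateField.adjoin ↥K₀ {AdjoinRoot.of m0 (jF K₀ N)}) hM
  obtain ⟨K₁, hfin₁, -, hmain⟩ := RatCore.exists_rational_level_of_closure V ev P.ord hmul hnonneg
    hzero hLV hevL (gensO N m) K₀ T
    (fun θ hθ => by
      obtain ⟨x, hxO, e⟩ := hT θ hθ
      exact ⟨⟨phi N m m0 hmap0 x, hxO⟩, phi_mem_levelO N m K₀ m0 hmap0 x, by
        rw [← e, hval x hxO]⟩)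
    (fun y hy => by
      obtain ⟨x, hx⟩ := exists_of_mem_levelO N m K₀ m0 hmap0 hy
      have hxV : phi N m m0 hmap0 x ∈ V := by
        rw [hx]
        exact y.2
      have h := hspan x hxV
      rw [hval x hxV] at h
      have e : (⟨phi N m m0 hmap0 x, hxV⟩ : ↥V) = y := Subtype.ext hx
      rwa [e] at h)
    (phi_mem_levelO N m K₀ m0 hmap0 t) hτ0 htpos
  exact ⟨K₁, hfin₁, fun K _ hK m0' hmap' x hx =>
    hmain K hK ⟨phi N m m0' hmap' x, hx⟩ (phi_mem_levelO N m K m0' hmap' x)⟩

/-- **Every place of the cover is rational over all large number fields** (leaf (R)). -/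
theorem exists_rational_level (hm : m.Monic) (P : Place Qb (AdjoinRoot m)) :
    ∃ (K₁ : IntermediateField ℚ Qb) (_ : FiniteDimensional ℚ K₁),
      ∀ (K : IntermediateField ℚ Qb) [FiniteDimensional ℚ K], K₁ ≤ K →
        ∀ (m0 : (FK K N)[X]) (hmap : m0.map (ιL K N) = m) (x : AdjoinRoot m0),
          phi N m m0 hmap x ∈ P.toValuationSubring →
            ∃ c : K, phi N m m0 hmap x - algebraMap Qb (AdjoinRoot m) (algebraMap K Qb c) ∈
              P.toValuationSubring.nonunits := by
  obtain ⟨K₁, hfin₁, hmain⟩ := exists_rational_level_ev N m hm P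
  refine ⟨K₁, hfin₁, fun K _ hK m0 hmap x hx => ?_⟩
  have h := hmain K hK m0 hmap x hx
  refine ⟨⟨EvalGal.ev P (deg_eq_one N m P) ⟨phi N m m0 hmap x, hx⟩, h⟩, ?_⟩
  have h1 := EvalGal.sub_ev_mem P (deg_eq_one N m P) ⟨phi N m m0 hmap x, hx⟩
  rw [ValuationSubring.mem_nonunits_iff_exists_mem_maximalIdeal]
  exact ⟨sub_mem hx (P.algebraMap_mem' _), h1⟩

/-- **Finitely many places of the cover are simultaneously rational over all large number
fields** (containing a prescribed number field `Kd`). -/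
theorem exists_rational_level_finset (hm : m.Monic) (Kd : IntermediateField ℚ Qb)
    [FiniteDimensional ℚ Kd] (S : Finset (Place Qb (AdjoinRoot m))) :
    ∃ (K₁ : IntermediateField ℚ Qb) (_ : FiniteDimensional ℚ K₁), Kd ≤ K₁ ∧
      ∀ (K : IntermediateField ℚ Qb) [FiniteDimensional ℚ K], K₁ ≤ K → ∀ P ∈ S,
        ∀ (m0 : (FK K N)[X]) (hmap : m0.map (ιL K N) = m) (x : AdjoinRoot m0),
          phi N m m0 hmap x ∈ P.toValuationSubring →
            ∃ c : K, phi N m m0 hmap x - algebraMap Qb (AdjoinRoot m) (algebraMap K Qb c) ∈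
              P.toValuationSubring.nonunits := by
  classical
  induction S using Finset.induction_on with
  | empty =>
    exact ⟨Kd, inferInstance, le_rfl, fun K _ _ P hP => absurd hP (Finset.notMem_empty P)⟩
  | insert P S _ ih =>
    obtain ⟨K₁, hfin₁, hd, h₁⟩ := ih
    obtain ⟨K₂, hfin₂, h₂⟩ := exists_rational_level N m hm P
    refine ⟨K₁ ⊔ K₂, IntermediateField.finiteDimensional_sup K₁ K₂, hd.trans le_sup_left,
      fun K _ hK Q hQ m0 hmap x hx => ?_⟩
    rcases Finset.mem_insert.mp hQ with rfl | hQ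
    · exact h₂ K (le_sup_right.trans hK) m0 hmap x hx
    · exact h₁ K (le_sup_left.trans hK) Q hQ m0 hmap x hx

/-- the conclusion of (R) at one level is `RatUnram.SameTrace φ P P` (helper25's vocabulary). -/
theorem sameTrace_of_rational (K : IntermediateField ℚ Qb) (m0 : (FK K N)[X])
    [Fact (Irreducible m0)] (hmap : m0.map (ιL K N) = m) (P : Place Qb (AdjoinRoot m))
    (h : ∀ x : AdjoinRoot m0, phi N m m0 hmap x ∈ P.toValuationSubring →
      ∃ c : K, phi N m m0 hmap x - algebraMap Qb (AdjoinRoot m) (algebraMap K Qb c) ∈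
        P.toValuationSubring.nonunits) :
    RatUnram.SameTrace (K0 := ↥K) (phi N m m0 hmap) P P :=
  ⟨fun _ => Iff.rfl, fun f hf => by
    obtain ⟨c, hc⟩ := h f hf
    exact ⟨c, hc, hc⟩⟩

/-- **(R) in the vocabulary of (U)**: finitely many places of the cover are `K`-rational along
`phi` for every large number field `K` and every level datum over `K`. -/
theorem exists_sameTrace_level_finset (hm : m.Monic) (Kd : IntermediateField ℚ Qb)
    [FiniteDimensional ℚ Kd] (S : Finset (Place Qb (AdjoinRoot m))) :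
    ∃ (K₁ : IntermediateField ℚ Qb) (_ : FiniteDimensional ℚ K₁), Kd ≤ K₁ ∧
      ∀ (K : IntermediateField ℚ Qb) [FiniteDimensional ℚ K], K₁ ≤ K → ∀ P ∈ S,
        ∀ (m0 : (FK K N)[X]) [Fact (Irreducible m0)] (hmap : m0.map (ιL K N) = m),
          RatUnram.SameTrace (K0 := ↥K) (phi N m m0 hmap) P P := by
  obtain ⟨K₁, hfin₁, hd, h⟩ := exists_rational_level_finset N m hm Kd S
  exact ⟨K₁, hfin₁, hd, fun K _ hK P hP m0 _ hmap =>
    sameTrace_of_rational N m K m0 hmap P (h K hK P hP m0 hmap)⟩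

end Fermat.Agent.S37.RatCover
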