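/-
S37, cover chain, leaf (L), SEALED: the contract `CoverHyps.HLocal` on the two covers.

`LocalCoverCls.exists_sub_mul_mem_of_classes` (the local theorem with places, class form)
instantiated at the carriers of `CoverDefs`:

* `A0 = A ∩ K`, `K0 = K`, `L = ℚ̄`, `F0 = F# = AdjoinRoot m0`, `Ω = AdjoinRoot m`,
  `C = integralClosure (A ∩ K)[tK b] F#`, `φ = phi`, `γ = ` the inclusion `C → F#`;
* `In w := InA A w (tO b)`, `Rel := SameChar A (tO b)`.

`local_core` is the statement for one chart with the three algebraic inputs (`C` Noetherian,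
`π` prime in `C`, the fibre generator) as hypotheses; `hLocal3`, `hLocal2` are the contract
theorems for the two covers.
-/
import Mathlib
import Fermat.Agent.S37.CoverHyps
import Fermat.Agent.S37.CoverLevel
import Fermat.Agent.S37.LocalCoverCls
import Fermat.Agent.S37.FibreZero
import Fermat.Agent.S37.GenCover
import Fermat.Agent.S37.RatCover
import Fermat.Agent.S37.FibreH
import Fermat.Agent.S37.PrimePiCover

set_option autoImplicit false
set_option linter.unusedSectionVars false
set_option linter.style.haveILetI false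

noncomputable section

open Polynomial AlgebraicCurve ModularCurve IntermediateField

namespace Fermat.Agent.S37.CoverLocal

open Fermat.Agent.S18 Fermat.Agent.S18.Setup Fermat.Agent.S18.S24Export
open Fermat.Agent.S18.CoreDefs Fermat.Agent.S37.CoverDefs Fermat.Agent.S37.CoverHyps

local notation "Qb" => AlgebraicClosure ℚ

/-! ### The fraction field of the integral closure of a chart -/

section Frac

variable {A0 : Type*} [CommRing A0] [IsDomain A0] (M : Type*) [Field M] [Algebra A0 M]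
  (E : Type*) [Field E] [Algebra M E] [Algebra A0 E] [IsScalarTower A0 M E]
  [Algebra.IsAlgebraic M E]

/-- every element of `E` is a quotient of elements of the integral closure of the chart. -/
theorem exists_frac (t : M)
    (hgen : ∀ m : M, ∃ a b : chart A0 M t, b ≠ 0 ∧ m * (b : M) = (a : M)) (f : E) :
    ∃ x y : integralClosure (chart A0 M t) E, y ≠ 0 ∧ f * (y : E) = (x : E) := by
  haveI := AdjoinChart.isFractionRing M t hgen
  have halg : IsAlgebraic (chart A0 M t) f :=
    (IsFractionRing.isAlgebraic_iff (chart A0 M t) M E).mpr (Algebra.IsAlgebraic.isAlgebraic f)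
  obtain ⟨y, hy, hint⟩ := halg.exists_integral_multiple
  have hyE : algebraMap (chart A0 M t) E y ≠ 0 := by
    intro h0
    apply hy
    apply Subtype.ext
    have h1 : algebraMap M E ((y : chart A0 M t) : M) = 0 := h0
    exact (map_eq_zero (algebraMap M E)).mp h1
  refine ⟨⟨y • f, hint⟩, algebraMap (chart A0 M t) (integralClosure (chart A0 M t) E) y, ?_, ?_⟩
  · intro h0
    apply hyE
    have h1 := congrArg (fun z : integralClosure (chart A0 M t) E => (z : E)) h0
    exact h1
  · show f * algebraMap (chart A0 M t) E y = y • f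
    rw [Algebra.smul_def, mul_comm]

end Frac

/-! ### The sealed dictionary -/

section Sealed

variable (N : ℕ) [NeZero N] (A : ValuationSubring Qb) (m : (FL N)[X]) [Fact (Irreducible m)]
  (K : Type*) [Field K] [Algebra K Qb] (m0 : (FK K N)[X]) [Fact (Irreducible m0)]
  (hmap : m0.map (ιL K N) = m) (b : Bool)

/-- the constants of the level, as constants of `A`. -/
theorem constO_eq :
    constO N m K A = ((algebraMap Qb (AdjoinRoot m)).comp A.subtype).comp (A0.incl K A) :=
  RingHom.ext fun _ => rfl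

/-- an element of `F#` integral over the chart of the level is, in `Ω`, integral over the
chart `A[tO b]`. -/
theorem isIntegralElem_phi {x : AdjoinRoot m0}
    (hx : IsIntegral (chart ↥(A0.down K A) (Line K (AdjoinRoot.root m0)) (tK N m0 b)) x) :
    (EvalInt.chartHom A (tO N m b)).IsIntegralElem (phi N m m0 hmap x) := by
  have h1 := (CoverLevel.isIntegral_chart_iff_phi N m m0 A hmap b x).mp hx
  unfold chartHomO at h1
  rw [constO_eq] at h1
  exact CoverLevel.isIntegralElem_of_comp _ _ _ h1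

/-- the value in `A` of an element of `C` at a place of the chart. -/
theorem exists_value {w : Place Qb (AdjoinRoot m)} (hw : InA A w (tO N m b))
    {x : AdjoinRoot m0}
    (hx : IsIntegral (chart ↥(A0.down K A) (Line K (AdjoinRoot.root m0)) (tK N m0 b)) x) :
    ∃ a : ↥A, phi N m m0 hmap x - algebraMap Qb (AdjoinRoot m) (a : Qb) ∈
      w.toValuationSubring.nonunits := by
  obtain ⟨a₀, ht⟩ := hw
  exact EvalInt.exists_sub_mem_nonunits A w (tO N m b) (RatCover.deg_eq_one N m w) a₀ ht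
    (isIntegralElem_phi N A m K m0 hmap b hx)

/-- the chart coordinate, as an element of `F#`, is integral over the chart. -/
theorem isIntegral_tK :
    IsIntegral (chart ↥(A0.down K A) (Line K (AdjoinRoot.root m0)) (tK N m0 b))
      (algebraMap (Line K (AdjoinRoot.root m0)) (AdjoinRoot m0) (tK N m0 b)) := by
  have h : IsIntegral (chart ↥(A0.down K A) (Line K (AdjoinRoot.root m0)) (tK N m0 b))
      (algebraMap (chart ↥(A0.down K A) (Line K (AdjoinRoot.root m0)) (tK N m0 b))
        (AdjoinRoot m0) (coord ↥(A0.down K A) (Line K (AdjoinRoot.root m0)) (tK N m0 b))) :=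
    isIntegral_algebraMap
  exact h

end Sealed

/-! ### The local theorem on one chart -/

section Core

variable (N : ℕ) [NeZero N] (A : ValuationSubring Qb) (m : (FL N)[X]) [Fact (Irreducible m)]
  (K : Type*) [Field K] [Algebra K Qb] (m0 : (FK K N)[X]) [Fact (Irreducible m0)]
  (hmap : m0.map (ιL K N) = m) (b : Bool)

set_option quotPrecheck false in
local notation "𝓡" => chart ↥(A0.down K A) (Line K (AdjoinRoot.root m0)) (tK N m0 b)

set_option maxHeartbeats 3200000 in
/-- **(L) on one chart of a cover**, with the algebraic inputs as hypotheses: `C` Noetherian,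
`π` prime in `C` (G), the fibre generator (H). -/
theorem local_core [Algebra ℚ K]
    (hdvr : IsDiscreteValuationRing ↥(A0.down K A))
    [Algebra.IsAlgebraic (Line K (AdjoinRoot.root m0)) (AdjoinRoot m0)]
    (hgen : ∀ x : Line K (AdjoinRoot.root m0), ∃ u v : 𝓡,
      v ≠ 0 ∧ x * (v : Line K (AdjoinRoot.root m0)) = (u : Line K (AdjoinRoot.root m0)))
    (hNoeth : IsNoetherianRing ↥(integralClosure 𝓡 (AdjoinRoot m0)))
    (π : ↥(A0.down K A)) (hπ : Irreducible π)
    (hmaxA : IsLocalRing.maximalIdeal ↥(A0.down K A) = Ideal.span {π})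
    (hprime : Prime (algebraMap ↥(A0.down K A) ↥(integralClosure 𝓡 (AdjoinRoot m0)) π))
    (hmaxC : ∀ n : Ideal ↥(integralClosure 𝓡 (AdjoinRoot m0)), n.IsMaximal →
      algebraMap ↥(A0.down K A) ↥(integralClosure 𝓡 (AdjoinRoot m0)) π ∈ n →
      ∃ s ∈ n, ∀ x ∈ n, ∃ w, w ∉ n ∧ w * x ∈ Ideal.span
        {algebraMap ↥(A0.down K A) ↥(integralClosure 𝓡 (AdjoinRoot m0)) π, s})
    (a c : AdjoinRoot m0) (ha : IsIntegral 𝓡 a) (hc : IsIntegral 𝓡 c)
    (haπ : ∀ d : AdjoinRoot m0, IsIntegral 𝓡 d → a ≠ π • d)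
    (hcπ : ∀ d : AdjoinRoot m0, IsIntegral 𝓡 d → c ≠ π • d)
    (T : Finset (Place Qb (AdjoinRoot m)))
    (hT : ∀ w : Place Qb (AdjoinRoot m),
      (w.ord (phi N m m0 hmap a) ≠ 0 ∨ w.ord (phi N m m0 hmap c) ≠ 0) → w ∈ T)
    (hratT : ∀ w ∈ T, ∀ x : AdjoinRoot m0, phi N m m0 hmap x ∈ w.toValuationSubring →
      ∃ k : K, phi N m m0 hmap x - algebraMap Qb (AdjoinRoot m) (algebraMap K Qb k) ∈
        w.toValuationSubring.nonunits)
    (hz : ∀ w₀ : Place Qb (AdjoinRoot m), InA A w₀ (tO N m b) →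
      ∀ T' : Finset (Place Qb (AdjoinRoot m)),
        (∀ w, w ∈ T' ↔ w ∈ T ∧ InA A w (tO N m b) ∧ SameChar A (tO N m b) w w₀) →
        ∑ w ∈ T', (w.ord (phi N m m0 hmap a) - w.ord (phi N m m0 hmap c)) = 0) :
    ∃ d e : AdjoinRoot m0, IsIntegral 𝓡 d ∧ IsIntegral 𝓡 e ∧ a - c * d = π • e := by
  haveI := hdvr
  haveI := hNoeth
  haveI : FiniteDimensional (FL N) (AdjoinRoot m) :=
    (AdjoinRoot.powerBasis (Fact.out : Irreducible m).ne_zero).finite
  haveI : FiniteDimensional
      ↥(IntermediateField.adjoin Qb {AdjoinRoot.of m (jL N)}) (AdjoinRoot m) :=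
    CoverField.finiteDimensional_adjoin_simple (jL N) (AdjoinRoot.of m (jL N))
      (IntermediateField.mem_adjoin_simple_self Qb _)
  have hx : Transcendental Qb (AdjoinRoot.of m (jL N)) := by
    intro h
    have h' : IsAlgebraic Qb (IsScalarTower.toAlgHom Qb (FL N) (AdjoinRoot m) (jL N)) := h
    exact transcendental_jL N ((isAlgebraic_algHom_iff _ (RingHom.injective _)).mp h')
  haveI : Algebra.IsAlgebraic ℚ Qb := AlgebraicClosure.isAlgebraic ℚ
  haveI : Algebra.IsAlgebraic K Qb := Algebra.IsAlgebraic.tower_top (K := ℚ) K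
  have key : ∃ c' : ↥(integralClosure 𝓡 (AdjoinRoot m0)),
      (⟨a, ha⟩ : ↥(integralClosure 𝓡 (AdjoinRoot m0))) - ⟨c, hc⟩ * c' ∈ Ideal.span
        {algebraMap ↥(A0.down K A) ↥(integralClosure 𝓡 (AdjoinRoot m0)) π} := by
    refine LocalCoverCls.exists_sub_mul_mem_of_classes
      (A0 := ↥(A0.down K A)) (K0 := K) (L := Qb) (F0 := AdjoinRoot m0) (Ω := AdjoinRoot m)
      (C := ↥(integralClosure 𝓡 (AdjoinRoot m0)))
      (phi N m m0 hmap) (CoverLevel.phi_algebraMap N m m0 hmap) (AdjoinRoot.of m (jL N)) hx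
      (GenCover.gen_phi N m m0 hmap)
      (algebraMap ↥(integralClosure 𝓡 (AdjoinRoot m0)) (AdjoinRoot m0)) Subtype.val_injective
      (fun _ => rfl)
      (exists_frac (Line K (AdjoinRoot.root m0)) (AdjoinRoot m0) (tK N m0 b) hgen)
      π hπ hprime hmaxC
      (fun w => InA A w (tO N m b)) (fun w w' => SameChar A (tO N m b) w w')
      ?_ ?_ ?_ ?_ ?_ ?_ ?_ ⟨a, ha⟩ ⟨c, hc⟩ ?_ ?_ T ?_ ?_ ?_
    · -- hreg
      intro w hw x
      obtain ⟨a', ha'⟩ := exists_value N A m K m0 hmap b hw x.2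
      exact EvalInt.mem_of_sub_mem_nonunits w ha'
    · -- hInt
      intro w hw x k hk
      obtain ⟨a', ha'⟩ := exists_value N A m K m0 hmap b hw x.2
      have h1 : algebraMap K Qb k = (a' : Qb) := EvalInt.sub_mem_nonunits_unique w hk ha'
      refine ⟨⟨k, ?_⟩, rfl⟩
      show algebraMap K Qb k ∈ A
      rw [h1]
      exact a'.2
    · -- hIn
      intro w h
      obtain ⟨a0, ha0⟩ := h ⟨algebraMap (Line K (AdjoinRoot.root m0)) (AdjoinRoot m0) (tK N m0 b),
        isIntegral_tK N A K m0 b⟩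
      refine ⟨A0.incl K A a0, ?_⟩
      rw [← CoverLevel.phi_tK N m m0 hmap b]
      exact ha0
    · -- hrefl
      exact fun w _ => SameChar.refl A _ w
    · -- hsymm
      exact fun w w' _ _ h => h.symm
    · -- htrans
      exact fun w w' w'' _ hw' _ h h' =>
        FibreZero.sameChar_trans (RatCover.deg_eq_one N m w') hw' h h'
    · -- hRel
      intro w w' hw hw' hR x a0 a0' h1 h2 hdiv
      have hres : IsLocalRing.residue ↥A (A0.incl K A a0) =
          IsLocalRing.residue ↥A (A0.incl K A a0') :=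
        hR (phi N m m0 hmap (x : AdjoinRoot m0)) (isIntegralElem_phi N A m K m0 hmap b x.2)
          (A0.incl K A a0) (A0.incl K A a0') h1 h2
      have h3 : a0 ∈ IsLocalRing.maximalIdeal ↥(A0.down K A) := by
        rw [hmaxA]
        exact Ideal.mem_span_singleton.mpr hdiv
      have h4 : A0.incl K A a0 ∈ IsLocalRing.maximalIdeal ↥A :=
        (A0.incl_mem_maximalIdeal_iff A a0).mpr h3
      have h5 : IsLocalRing.residue ↥A (A0.incl K A a0) = 0 :=
        (IsLocalRing.residue_eq_zero_iff _).mpr h4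
      rw [hres] at h5
      have h6 := (A0.incl_mem_maximalIdeal_iff A a0').mp ((IsLocalRing.residue_eq_zero_iff _).mp h5)
      rw [hmaxA] at h6
      exact Ideal.mem_span_singleton.mp h6
    · -- ha
      rintro ⟨d, hd⟩
      refine haπ (d : AdjoinRoot m0) d.2 ?_
      have h1 := congrArg (fun z : ↥(integralClosure 𝓡 (AdjoinRoot m0)) => (z : AdjoinRoot m0)) hd
      have h2 : a = algebraMap ↥(A0.down K A) (AdjoinRoot m0) π * (d : AdjoinRoot m0) := h1
      rw [h2, Algebra.smul_def]
    · -- hb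
      rintro ⟨d, hd⟩
      refine hcπ (d : AdjoinRoot m0) d.2 ?_
      have h1 := congrArg (fun z : ↥(integralClosure 𝓡 (AdjoinRoot m0)) => (z : AdjoinRoot m0)) hd
      have h2 : c = algebraMap ↥(A0.down K A) (AdjoinRoot m0) π * (d : AdjoinRoot m0) := h1
      rw [h2, Algebra.smul_def]
    · -- hT
      intro w h
      apply hT
      rcases h with h | h
      · exact Or.inl (ne_of_gt h)
      · exact Or.inr (ne_of_gt h)
    · -- hrat
      exact fun w hw => ⟨fun _ => Iff.rfl, fun f hf => by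
        obtain ⟨k, hk⟩ := hratT w hw f hf
        exact ⟨k, hk, hk⟩⟩
    · -- hzero
      intro w₀ _ hIn
      refine hz w₀ hIn _ ?_
      intro w
      classical
      exact Finset.mem_filter
  obtain ⟨c', hc'⟩ := key
  rw [Ideal.mem_span_singleton] at hc'
  obtain ⟨e, he⟩ := hc'
  refine ⟨c', e, c'.2, e.2, ?_⟩
  have h1 := congrArg (fun z : ↥(integralClosure 𝓡 (AdjoinRoot m0)) => (z : AdjoinRoot m0)) he
  have h2 : a - c * (c' : AdjoinRoot m0) =
      algebraMap ↥(A0.down K A) (AdjoinRoot m0) π * (e : AdjoinRoot m0) := h1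
  rw [h2, Algebra.smul_def]

end Core

/-! ### The contract theorems -/

section Contract

variable (N : ℕ) [NeZero N] (A : ValuationSubring Qb) (m : (FL N)[X]) [Fact (Irreducible m)]

/-- **(L) for the `X₀(2)`-cover** (`j h² = (h + 256)³`, `ℓ ≠ 2`): the contract `HLocal`. -/
theorem hLocal3 {ℓ : ℕ} (hℓ : ℓ.Prime) (hℓN : ¬ ℓ ∣ N) (hℓ2 : ℓ ≠ 2) (hA : A.LiesOverPrime ℓ) :
    HLocal N A m (Good3 N) := by
  intro K hK m0 _ hmap hGood hm0 π hπ hmaxA b a c ha hc _ _ haπ hcπ T hT hratT hz
  haveI := hK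
  haveI : Fact (Irreducible (m0.map (ιL K N))) := ⟨hmap ▸ (Fact.out : Irreducible m)⟩
  have hdvr : IsDiscreteValuationRing ↥(A0.down K A) := NormalJ.dvr K A hℓ hA
  have hc0 : CharZero K := charZero_of_injective_algebraMap (algebraMap ℚ K).injective
  haveI : CharZero (AdjoinRoot m0) :=
    charZero_of_injective_algebraMap (algebraMap K (AdjoinRoot m0)).injective
  have hh : Transcendental K (AdjoinRoot.root m0) :=
    H3SelfH.transcendental_of_rel3 (jF K N) (transcendental_jF K N) (AdjoinRoot.root m0) hGood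
  haveI := FibreH.finiteDimensional_line3 K N m0 hm0 hGood
  have hgen := CoverLevel.hgen_tK N m0 A hh b
  cases b
  · exact local_core N A m K m0 hmap false hdvr hgen
      (FibreH.isNoetherianRing_inv3 K N A m0 hℓ hA hm0 hGood) π hπ hmaxA
      (PrimePiCover.prime_inv3 K N A m0 hℓ hℓN hℓ2 hA hm0 hGood π hπ hmaxA)
      (FibreH.hmax_inv3' K N A m0 hℓ hℓN hℓ2 hA hm0 hGood π hπ hmaxA
        (PrimePiCover.prime_inv3 K N A m0 hℓ hℓN hℓ2 hA hm0 hGood π hπ hmaxA))
      a c ha hc haπ hcπ T hT hratT hz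
  · exact local_core N A m K m0 hmap true hdvr hgen
      (FibreH.isNoetherianRing_fin3 K N A m0 hℓ hA hm0 hGood) π hπ hmaxA
      (PrimePiCover.prime_fin3 K N A m0 hℓ hℓN hℓ2 hA hm0 hGood π hπ hmaxA)
      (FibreH.hmax_fin3' K N A m0 hℓ hℓN hℓ2 hA hm0 hGood π hπ hmaxA
        (PrimePiCover.prime_fin3 K N A m0 hℓ hℓN hℓ2 hA hm0 hGood π hπ hmaxA))
      a c ha hc haπ hcπ T hT hratT hz

/-- **(L) for the `X₀(3)`-cover** (`j h = (h + 27)(h + 3)³`, `ℓ ≠ 3`): the contract `HLocal`. -/
theorem hLocal2 {ℓ : ℕ} (hℓ : ℓ.Prime) (hℓN : ¬ ℓ ∣ N) (hℓ3 : ℓ ≠ 3) (hA : A.LiesOverPrime ℓ) :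
    HLocal N A m (Good2 N) := by
  intro K hK m0 _ hmap hGood hm0 π hπ hmaxA b a c ha hc _ _ haπ hcπ T hT hratT hz
  haveI := hK
  haveI : Fact (Irreducible (m0.map (ιL K N))) := ⟨hmap ▸ (Fact.out : Irreducible m)⟩
  have hdvr : IsDiscreteValuationRing ↥(A0.down K A) := NormalJ.dvr K A hℓ hA
  have hc0 : CharZero K := charZero_of_injective_algebraMap (algebraMap ℚ K).injective
  haveI : CharZero (AdjoinRoot m0) :=
    charZero_of_injective_algebraMap (algebraMap K (AdjoinRoot m0)).injective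
  have hh : Transcendental K (AdjoinRoot.root m0) :=
    H3SelfH.transcendental_of_rel2 (jF K N) (transcendental_jF K N) (AdjoinRoot.root m0) hGood
  haveI := FibreH.finiteDimensional_line2 K N m0 hm0 hGood
  have hgen := CoverLevel.hgen_tK N m0 A hh b
  cases b
  · exact local_core N A m K m0 hmap false hdvr hgen
      (FibreH.isNoetherianRing_inv2 K N A m0 hℓ hA hm0 hGood) π hπ hmaxA
      (PrimePiCover.prime_inv2 K N A m0 hℓ hℓN hℓ3 hA hm0 hGood π hπ hmaxA)
      (FibreH.hmax_inv2' K N A m0 hℓ hℓN hℓ3 hA hm0 hGood π hπ hmaxA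
        (PrimePiCover.prime_inv2 K N A m0 hℓ hℓN hℓ3 hA hm0 hGood π hπ hmaxA))
      a c ha hc haπ hcπ T hT hratT hz
  · exact local_core N A m K m0 hmap true hdvr hgen
      (FibreH.isNoetherianRing_fin2 K N A m0 hℓ hA hm0 hGood) π hπ hmaxA
      (PrimePiCover.prime_fin2 K N A m0 hℓ hℓN hℓ3 hA hm0 hGood π hπ hmaxA)
      (FibreH.hmax_fin2' K N A m0 hℓ hℓN hℓ3 hA hm0 hGood π hπ hmaxA
        (PrimePiCover.prime_fin2 K N A m0 hℓ hℓN hℓ3 hA hm0 hGood π hπ hmaxA))
      a c ha hc haπ hcπ T hT hratT hz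

end Contract

end Fermat.Agent.S37.CoverLocal
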