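/-
S37, cover chain, leaf (A) "GaussRep": a Gauss unit of the cover is a quotient `a / b` of two
elements of the chart ring `C` (the integral closure of `A₀[t]`), neither divisible by `π`.

* `unif_dvd_of_dvd`     : `π C ∩ A₀[t] = π A₀[t]`;
* `exists_rep`          : (abstract, any chart) `x` and `x⁻¹` in the Gauss ring of the chart
                          `⟹ x = a / b`, `b` the image of a chart element `s` with `π ∤ s`,
                          `π ∤ a`, `π ∤ b` in `C`; and `a ≡ b c (mod π C) ⟹ x ≡ c (mod π)` in the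
                          Gauss ring (`InPiGauss (x - c)`);
* `exists_zpow_mul_unit`: (sealed level `K`) every nonzero `y ∈ F_K` is `π ^ n * u` with `u` a unit
                          of the Gauss ring `OvK` (`redOv u ≠ 0`, `u⁻¹ ∈ OvK`);
* `exists_rep_cover`    : `exists_rep` on the charts `tK N m0 b` of the cover `F# = F_K[X]/(m0)`
                          (`CoverDefs` carriers), for the image of `u : F_K`.
-/
import Mathlib
import Fermat.Agent.S18.CoreDefs
import Fermat.Agent.S18.AdjoinChart
import Fermat.Agent.S37.FibreGen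
import Fermat.Agent.S37.ConstEnd
import Fermat.Agent.S37.CoverDefs
import Fermat.Agent.S37.CoverLevel

set_option autoImplicit false
set_option linter.unusedSectionVars false
set_option synthInstance.maxHeartbeats 400000

noncomputable section

open Polynomial ModularCurve AlgebraicCurve

namespace Fermat.Agent.S37.CoverGauss

open Fermat.Agent.S18 Fermat.Agent.S18.CoreDefs Fermat.Agent.S18.Setup

local notation "Qb" => AlgebraicClosure ℚ

/-! ### The abstract representation lemma -/

section Abstract

variable {A0 : Type*} [CommRing A0] [IsDomain A0] [IsDiscreteValuationRing A0]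
  (M : Type*) [Field M] [Algebra A0 M]
  (E : Type*) [Field E] [Algebra M E] [Algebra A0 E] [IsScalarTower A0 M E]

/-- `π C ∩ A0[t] = π A0[t]` for the integral closure `C` of the chart ring in `E`. -/
theorem unif_dvd_of_dvd (π : A0) (hπ : Irreducible π) (t : M) (ht : Transcendental A0 t)
    (hgen : ∀ m : M, ∃ a b : chart A0 M t, b ≠ 0 ∧ m * (b : M) = (a : M))
    (s : chart A0 M t)
    (h : algebraMap A0 (integralClosure (chart A0 M t) E) π ∣
      algebraMap (chart A0 M t) (integralClosure (chart A0 M t) E) s) :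
    unif A0 M t π ∣ s := by
  have := AdjoinChart.isIntegrallyClosed M t ht
  have := AdjoinChart.isFractionRing M t hgen
  have hu0 : unif A0 M t π ≠ 0 := (AdjoinChart.prime_unif M t ht π hπ).ne_zero
  refine FibreGen.dvd_of_dvd_algebraMap M E (unif A0 M t π) hu0 s ?_
  have e : algebraMap A0 (integralClosure (chart A0 M t) E) π =
      algebraMap (chart A0 M t) (integralClosure (chart A0 M t) E) (unif A0 M t π) :=
    IsScalarTower.algebraMap_apply A0 (chart A0 M t) (integralClosure (chart A0 M t) E) π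
  rw [← e]
  exact h

/-- **Representation of a Gauss unit on a chart** (cover chain, leaf (A), abstract form).
If `x` and `x⁻¹` lie in the Gauss ring of the chart `A0[t]` of `E`, then `x = a / b` with
`b` the image of a chart element `s` not divisible by `π`, `a = s • x` in the integral closure
`C` of the chart ring, neither of them divisible by `π` in `C`; and a congruence
`a ≡ b * c` modulo `π C` gives `x ≡ c` modulo `π` in the Gauss ring. -/
theorem exists_rep (π : A0) (hπ : Irreducible π) (t : M) (ht : Transcendental A0 t)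
    (hgen : ∀ m : M, ∃ a b : chart A0 M t, b ≠ 0 ∧ m * (b : M) = (a : M))
    (x : E) (hx0 : x ≠ 0) (hx : InGauss A0 M E t π x) (hx' : InGauss A0 M E t π x⁻¹) :
    ∃ (s : chart A0 M t) (a : integralClosure (chart A0 M t) E),
      ¬ unif A0 M t π ∣ s ∧ (a : E) = s • x ∧
      algebraMap (chart A0 M t) (integralClosure (chart A0 M t) E) s ≠ 0 ∧
      ¬ algebraMap A0 (integralClosure (chart A0 M t) E) π ∣ a ∧
      ¬ algebraMap A0 (integralClosure (chart A0 M t) E) π ∣
        algebraMap (chart A0 M t) (integralClosure (chart A0 M t) E) s ∧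
      ∀ c : integralClosure (chart A0 M t) E,
        a - algebraMap (chart A0 M t) (integralClosure (chart A0 M t) E) s * c ∈
          Ideal.span {algebraMap A0 (integralClosure (chart A0 M t) E) π} →
        InPiGauss A0 M E t π (x - (c : E)) := by
  obtain ⟨s, hs, hsx⟩ := hx
  obtain ⟨s', hs', hsx'⟩ := hx'
  have hb : ¬ algebraMap A0 (integralClosure (chart A0 M t) E) π ∣
      algebraMap (chart A0 M t) (integralClosure (chart A0 M t) E) s :=
    fun h => hs (unif_dvd_of_dvd M E π hπ t ht hgen s h)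
  refine ⟨s, ⟨s • x, hsx⟩, hs, rfl, fun h0 => hb (h0 ▸ dvd_zero _), ?_, hb, ?_⟩
  · rintro ⟨d, hd⟩
    have hmul : algebraMap (chart A0 M t) (integralClosure (chart A0 M t) E) (s * s') =
        (⟨s • x, hsx⟩ : integralClosure (chart A0 M t) E) * ⟨s' • x⁻¹, hsx'⟩ := by
      apply Subtype.ext
      show algebraMap (chart A0 M t) E (s * s') = (s • x) * (s' • x⁻¹)
      rw [Algebra.smul_def, Algebra.smul_def, map_mul]
      field_simp
    have hdvd : algebraMap A0 (integralClosure (chart A0 M t) E) π ∣
        algebraMap (chart A0 M t) (integralClosure (chart A0 M t) E) (s * s') := by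
      rw [hmul, hd, mul_assoc]
      exact dvd_mul_right _ _
    have h1 := unif_dvd_of_dvd M E π hπ t ht hgen (s * s') hdvd
    rcases (AdjoinChart.prime_unif M t ht π hπ).dvd_or_dvd h1 with h2 | h2
    · exact hs h2
    · exact hs' h2
  · intro c hc
    obtain ⟨d, hd⟩ := Ideal.mem_span_singleton.mp hc
    refine ⟨s, hs, (d : E), d.2, ?_⟩
    have h1 := congrArg (fun z : integralClosure (chart A0 M t) E => (z : E)) hd
    have h2 : s • x - algebraMap (chart A0 M t) E s * (c : E) = algebraMap A0 E π * (d : E) := h1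
    rw [smul_sub, Algebra.smul_def s (c : E), h2, Algebra.smul_def]

end Abstract

/-! ### The sealed level `K` -/

section Sealed

open Fermat.Agent.S37.ConstEnd Fermat.Agent.S37.CoverDefs

variable (K : Type*) [Field K] [Algebra K Qb] [Algebra ℚ K] [FiniteDimensional ℚ K]
  (N : ℕ) [NeZero N] (A : ValuationSubring Qb)

/-- **Gauss normalisation** (sealed level `K`): every nonzero element of `F_K` is a power of the
uniformizer times a unit of the Gauss ring. -/
theorem exists_zpow_mul_unit {ℓ : ℕ} (hℓ : ℓ.Prime) (hℓN : ¬ ℓ ∣ N) (hA : A.LiesOverPrime ℓ)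
    (π : ↥(A0.down K A)) (hπ : Irreducible π)
    (hmax : IsLocalRing.maximalIdeal ↥(A0.down K A) = Ideal.span {π})
    (y : FK K N) (hy : y ≠ 0) :
    ∃ (n : ℤ) (u : FK K N) (hu : u ∈ OvK K N A), redOv K N A ⟨u, hu⟩ ≠ 0 ∧
      u⁻¹ ∈ OvK K N A ∧ u ≠ 0 ∧ y = algebraMap K (FK K N) ((π : K) ^ n) * u := by
  obtain ⟨hφ, hπ0, hkrull, hfink, hNk⟩ := H2Top.gauss_hyps K N A hℓ hℓN hA π hπ hmax
  have hG := GaussDeg.isGauss (A0.down K A) (IsLocalRing.residue ↥(A0.down K A)) N hφ hπ0 hkrull
  obtain ⟨n, u, hyu, hu⟩ := hG.exists_zpow (x := (y : ↥(modularFunctionFieldFullC K N))) hy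
  have hinv := hG.inv_mem hu
  let u' : ↥(OvK K N A) := u
  have hyu' : y = (algebraMap K (FK K N) (π : K)) ^ n * (u' : FK K N) := hyu
  refine ⟨n, (u' : FK K N), u'.2, hu, hinv, ?_, ?_⟩
  · intro h0
    apply hu
    have : u = 0 := Subtype.ext h0
    rw [this, map_zero]
  · rw [hyu', map_zpow₀]

/-- a unit of the Gauss ring `OvK` lies, with its inverse, in the Gauss ring of the `j`-line. -/
theorem inGauss_jline_of_unit {ℓ : ℕ} (hℓ : ℓ.Prime) (hℓN : ¬ ℓ ∣ N) (hA : A.LiesOverPrime ℓ)
    (π : ↥(A0.down K A)) (hπ : Irreducible π)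
    (hmax : IsLocalRing.maximalIdeal ↥(A0.down K A) = Ideal.span {π})
    (u : FK K N) (hu : u ∈ OvK K N A) (hinv : u⁻¹ ∈ OvK K N A) :
    InGauss ↥(A0.down K A) (Line K (jF K N)) (FK K N) (Line.gen K (jF K N)) π u ∧
      InGauss ↥(A0.down K A) (Line K (jF K N)) (FK K N) (Line.gen K (jF K N)) π u⁻¹ :=
  ⟨(inGauss_iff_mem K N A hℓ hℓN hA π hπ hmax u).mpr hu,
    (inGauss_iff_mem K N A hℓ hℓN hA π hπ hmax u⁻¹).mpr hinv⟩

variable (m0 : (FK K N)[X]) [Fact (Irreducible m0)]

/-- **(A) on the charts of the cover** `F# = F_K[X]/(m0)` (`CoverDefs` carriers): the image `x` of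
`u : F_K` with `x`, `x⁻¹` in the Gauss ring of the chart `tK N m0 b` is `a / b` with `a`, `b` in
the chart ring `C_b`, not divisible by `π`; and `a ≡ b c (mod π C_b)` gives `x ≡ c` modulo `π`.
(The two `InGauss` hypotheses are the transfer (TR) of `CoverTR` applied to `u` and `u⁻¹`.) -/
theorem exists_rep_cover {ℓ : ℕ} (hℓ : ℓ.Prime) (hA : A.LiesOverPrime ℓ)
    (hh : Transcendental K (AdjoinRoot.root m0))
    (π : ↥(A0.down K A)) (hπ : Irreducible π) (b : Bool) (u : FK K N) (hu0 : u ≠ 0)
    (h1 : InGauss ↥(A0.down K A) (Line K (AdjoinRoot.root m0)) (AdjoinRoot m0) (tK N m0 b) π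
      (algebraMap (FK K N) (AdjoinRoot m0) u))
    (h2 : InGauss ↥(A0.down K A) (Line K (AdjoinRoot.root m0)) (AdjoinRoot m0) (tK N m0 b) π
      (algebraMap (FK K N) (AdjoinRoot m0) u⁻¹)) :
    ∃ (s : chart ↥(A0.down K A) (Line K (AdjoinRoot.root m0)) (tK N m0 b))
      (a : integralClosure (chart ↥(A0.down K A) (Line K (AdjoinRoot.root m0)) (tK N m0 b))
        (AdjoinRoot m0)),
      ¬ unif ↥(A0.down K A) (Line K (AdjoinRoot.root m0)) (tK N m0 b) π ∣ s ∧
      (a : AdjoinRoot m0) = s • algebraMap (FK K N) (AdjoinRoot m0) u ∧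
      algebraMap (chart ↥(A0.down K A) (Line K (AdjoinRoot.root m0)) (tK N m0 b))
        (integralClosure (chart ↥(A0.down K A) (Line K (AdjoinRoot.root m0)) (tK N m0 b))
          (AdjoinRoot m0)) s ≠ 0 ∧
      ¬ algebraMap ↥(A0.down K A)
        (integralClosure (chart ↥(A0.down K A) (Line K (AdjoinRoot.root m0)) (tK N m0 b))
          (AdjoinRoot m0)) π ∣ a ∧
      ¬ algebraMap ↥(A0.down K A)
        (integralClosure (chart ↥(A0.down K A) (Line K (AdjoinRoot.root m0)) (tK N m0 b))
          (AdjoinRoot m0)) π ∣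
        algebraMap (chart ↥(A0.down K A) (Line K (AdjoinRoot.root m0)) (tK N m0 b))
          (integralClosure (chart ↥(A0.down K A) (Line K (AdjoinRoot.root m0)) (tK N m0 b))
            (AdjoinRoot m0)) s ∧
      ∀ c : integralClosure (chart ↥(A0.down K A) (Line K (AdjoinRoot.root m0)) (tK N m0 b))
          (AdjoinRoot m0),
        a - algebraMap (chart ↥(A0.down K A) (Line K (AdjoinRoot.root m0)) (tK N m0 b))
            (integralClosure (chart ↥(A0.down K A) (Line K (AdjoinRoot.root m0)) (tK N m0 b))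
              (AdjoinRoot m0)) s * c ∈
          Ideal.span {algebraMap ↥(A0.down K A)
            (integralClosure (chart ↥(A0.down K A) (Line K (AdjoinRoot.root m0)) (tK N m0 b))
              (AdjoinRoot m0)) π} →
        InPiGauss ↥(A0.down K A) (Line K (AdjoinRoot.root m0)) (AdjoinRoot m0) (tK N m0 b) π
          (algebraMap (FK K N) (AdjoinRoot m0) u - (c : AdjoinRoot m0)) := by
  have hB : (A0.down K A).LiesOverPrime ℓ := (A0.liesOverPrime_down_iff A).mpr hA
  have hdvr : IsDiscreteValuationRing ↥(A0.down K A) := A0.isDiscreteValuationRing _ hℓ hB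
  have hx0 : algebraMap (FK K N) (AdjoinRoot m0) u ≠ 0 := by
    rw [Ne, map_eq_zero]
    exact hu0
  rw [map_inv₀] at h2
  exact exists_rep (Line K (AdjoinRoot.root m0)) (AdjoinRoot m0) π hπ (tK N m0 b)
    (CoverLevel.transcendental_tK N m0 A hh b) (CoverLevel.hgen_tK N m0 A hh b)
    (algebraMap (FK K N) (AdjoinRoot m0) u) hx0 h1 h2

end Sealed

end Fermat.Agent.S37.CoverGauss
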