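import Mathlib

/-!
# S37 (long shot), block (W2): rationality of the values at a place, Galois-free

Abstract linear algebra behind "for a place `P` of `F_L` there is a finite level `K` with
`ev_P (D ∩ F_K) ⊆ K`".

`D` is an `L`-algebra (the integral closure of `L[t]` in `F_L`) with a coordinate `t` and an
`L[t]`-basis `x 1, …, x n`; `ev : D → L` is an `L`-algebra homomorphism (the evaluation at a
place).  If `ev t` and the `ev (x i)` lie in a subfield `K` of `L` and `d ∈ D` becomes, after
multiplication by a nonzero polynomial in `t` over `K`, a `K[t]`-combination of the `x i` (that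
is: `d` lies in the `K(t)`-span of the `x i`, the field `F_K`), then `ev d ∈ K`.
-/

set_option autoImplicit false

open Polynomial

namespace Fermat.Agent.S37.Rational

variable {K L : Type*} [Field K] [Field L] [Algebra K L]

/-- A polynomial over `L` whose product with a nonzero polynomial coming from `K` comes from
`K` itself comes from `K`. -/
theorem exists_map_eq_of_mul_eq {s r : K[X]} (hs : s ≠ 0) {p : L[X]}
    (h : s.map (algebraMap K L) * p = r.map (algebraMap K L)) :
    ∃ q : K[X], p = q.map (algebraMap K L) := by
  have hdvd : s.map (algebraMap K L) ∣ r.map (algebraMap K L) := ⟨p, h.symm⟩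
  rw [Polynomial.map_dvd_map' (algebraMap K L)] at hdvd
  obtain ⟨q, rfl⟩ := hdvd
  refine ⟨q, ?_⟩
  have hs' : s.map (algebraMap K L) ≠ 0 :=
    (Polynomial.map_ne_zero_iff (algebraMap K L).injective).mpr hs
  rw [Polynomial.map_mul] at h
  exact mul_left_cancel₀ hs' h

variable {D : Type*} [CommRing D] [Algebra L D]

/-- The value of an `L`-algebra homomorphism at a polynomial expression over `K` in an element
with value in `K` lies in `K`. -/
theorem eval_aeval_map_mem_range (ev : D →ₐ[L] L) (t : D)
    (ht : ev t ∈ Set.range (algebraMap K L)) (q : K[X]) :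
    ev (aeval t (q.map (algebraMap K L))) ∈ Set.range (algebraMap K L) := by
  obtain ⟨c, hc⟩ := ht
  refine ⟨q.eval c, ?_⟩
  rw [← Polynomial.aeval_algHom_apply, ← hc, Polynomial.aeval_map_algebraMap,
    Polynomial.aeval_algebraMap_apply, Polynomial.aeval_def, Polynomial.eval₂_eq_eval_map]
  simp

/-- **Rationality of the value at a place** (abstract form). -/
theorem eval_mem_range (ev : D →ₐ[L] L) (t : D) {n : ℕ} (x : Fin n → D)
    (hind : ∀ c : Fin n → L[X], ∑ i, aeval t (c i) * x i = 0 → ∀ i, c i = 0)
    (ht : ev t ∈ Set.range (algebraMap K L))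
    (hx : ∀ i, ev (x i) ∈ Set.range (algebraMap K L))
    (d : D) (hdD : ∃ p : Fin n → L[X], d = ∑ i, aeval t (p i) * x i)
    (hdK : ∃ (s : K[X]) (r : Fin n → K[X]), s ≠ 0 ∧
      aeval t (s.map (algebraMap K L)) * d =
        ∑ i, aeval t ((r i).map (algebraMap K L)) * x i) :
    ev d ∈ Set.range (algebraMap K L) := by
  obtain ⟨p, hp⟩ := hdD
  obtain ⟨s, r, hs, hsr⟩ := hdK
  -- compare coefficients
  have h0 : ∑ i, aeval t (s.map (algebraMap K L) * p i - (r i).map (algebraMap K L)) * x i
      = 0 := by
    have e : ∀ i, aeval t (s.map (algebraMap K L) * p i - (r i).map (algebraMap K L)) * x i =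
        aeval t (s.map (algebraMap K L)) * (aeval t (p i) * x i) -
          aeval t ((r i).map (algebraMap K L)) * x i := by
      intro i
      rw [map_sub, map_mul]
      ring
    rw [Finset.sum_congr rfl (fun i _ => e i), Finset.sum_sub_distrib, ← Finset.mul_sum, ← hp,
      hsr, sub_self]
  have hq : ∀ i, ∃ q : K[X], p i = q.map (algebraMap K L) := fun i =>
    exists_map_eq_of_mul_eq hs (sub_eq_zero.mp (hind _ h0 i))
  choose q hq using hq
  rw [hp, map_sum]
  have hrange : ∀ i, ev (aeval t (p i) * x i) ∈ (algebraMap K L).range := by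
    intro i
    rw [map_mul, hq i]
    exact (algebraMap K L).range.mul_mem (eval_aeval_map_mem_range ev t ht (q i)) (hx i)
  exact (algebraMap K L).range.sum_mem (fun i _ => hrange i)

end Fermat.Agent.S37.Rational
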