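import Mathlib
import Fermat.Agent.S37.Rational

/-!
# S37 (long shot), block (W2): rationality of the values at a place -- the basis

For a field `F` finite over `K(t)` (`t` transcendental, characteristic zero), the integral closure
`D` of `K[t]` in `F` is a free `K[t]`-module of rank `[F : K(t)]`.  `exists_basis` gives a basis
in the form consumed by `Rational.eval_mem_range`: a family `x : Fin n → D` which is
`K[t]`-independent and spans `D` over `K[t]`, with `K[t]` acting through `aeval`.

`eval_mem_range_of_basis` then is `Rational.eval_mem_range` for `D`: for a subfield `K₀` of `K`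
containing the values `ev t`, `ev (x i)` of a `K`-algebra homomorphism `ev : D → K`, every
`d ∈ D` lying in the `K₀(t)`-span of the `x i` has `ev d ∈ K₀`.
-/

set_option autoImplicit false

open Polynomial IntermediateField
open scoped IntermediateField.algebraAdjoinAdjoin

namespace Fermat.Agent.S37.RatBasis

variable {K F : Type*} [Field K] [Field F] [Algebra K F] (t : F)

/-- the coordinate `t` as an element of the integral closure of `K[t]`. -/
noncomputable def tD : ↥(integralClosure (Algebra.adjoin K {t}) F) :=
  algebraMap (Algebra.adjoin K {t}) _ ⟨t, Algebra.self_mem_adjoin_singleton K t⟩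

@[simp]
theorem coe_tD : ((tD (K := K) t : ↥(integralClosure (Algebra.adjoin K {t}) F)) : F) = t := rfl

/-- `aeval` at the coordinate, in `F`. -/
theorem coe_aeval_tD (p : K[X]) :
    ((aeval (tD (K := K) t) p : ↥(integralClosure (Algebra.adjoin K {t}) F)) : F) = aeval t p := by
  have h := Polynomial.aeval_algHom_apply
    (((integralClosure (Algebra.adjoin K {t}) F).val.restrictScalars K) :
      ↥(integralClosure (Algebra.adjoin K {t}) F) →ₐ[K] F) (tD (K := K) t) p
  exact h.symm

/-- **The integral closure of `K[t]` in `F` is free over `K[t]`**, in `aeval` form. -/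
theorem exists_basis [CharZero K] (ht : Transcendental K t) [FiniteDimensional K⟮t⟯ F] :
    ∃ x : Fin (Module.finrank K⟮t⟯ F) → ↥(integralClosure (Algebra.adjoin K {t}) F),
      (∀ c : Fin (Module.finrank K⟮t⟯ F) → K[X],
        ∑ i, aeval (tD (K := K) t) (c i) * x i = 0 → ∀ i, c i = 0) ∧
      ∀ d : ↥(integralClosure (Algebra.adjoin K {t}) F),
        ∃ p : Fin (Module.finrank K⟮t⟯ F) → K[X], d = ∑ i, aeval (tD (K := K) t) (p i) * x i := by
  have hPID : IsPrincipalIdealRing (Algebra.adjoin K {t}) :=
    IsPrincipalIdealRing.of_surjective (Polynomial.algEquivOfTranscendental K t ht)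
      (AlgEquiv.surjective _)
  have hchar : CharZero K⟮t⟯ := charZero_of_injective_algebraMap (algebraMap K K⟮t⟯).injective
  have hsep : Algebra.IsSeparable K⟮t⟯ F := inferInstance
  have hfree : Module.Free (Algebra.adjoin K {t}) (integralClosure (Algebra.adjoin K {t}) F) :=
    IsIntegralClosure.module_free (Algebra.adjoin K {t}) K⟮t⟯ F _
  have hfin : Module.Finite (Algebra.adjoin K {t}) (integralClosure (Algebra.adjoin K {t}) F) :=
    IsIntegralClosure.finite (Algebra.adjoin K {t}) K⟮t⟯ F _
  have hrank : Module.finrank (Algebra.adjoin K {t}) (integralClosure (Algebra.adjoin K {t}) F)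
      = Module.finrank K⟮t⟯ F :=
    IsIntegralClosure.rank (Algebra.adjoin K {t}) K⟮t⟯ F _
  let b := Module.finBasisOfFinrankEq (Algebra.adjoin K {t})
    (integralClosure (Algebra.adjoin K {t}) F) hrank
  -- elements of `K[t]` are polynomial expressions
  set tA : Algebra.adjoin K {t} := ⟨t, Algebra.self_mem_adjoin_singleton K t⟩ with htA
  have hA : ∀ a : Algebra.adjoin K {t}, ∃ p : K[X], aeval tA p = a := by
    rintro ⟨a, ha⟩
    rw [Algebra.adjoin_singleton_eq_range_aeval] at ha
    obtain ⟨p, hp⟩ := ha
    refine ⟨p, Subtype.ext ?_⟩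
    have h := Polynomial.aeval_algHom_apply (Algebra.adjoin K {t}).val tA p
    exact h.symm.trans hp
  have hinj : ∀ p : K[X], aeval tA p = 0 → p = 0 := by
    intro p hp
    have h := Polynomial.aeval_algHom_apply (Algebra.adjoin K {t}).val tA p
    rw [hp, map_zero] at h
    exact (transcendental_iff.mp ht) p h
  have hsmul : ∀ (p : K[X]) (d : ↥(integralClosure (Algebra.adjoin K {t}) F)),
      aeval (tD (K := K) t) p * d = (aeval tA p) • d := by
    intro p d
    rw [Algebra.smul_def, tD, Polynomial.aeval_algebraMap_apply]
  refine ⟨b, ?_, ?_⟩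
  · intro c hc
    have h0 : ∑ i, (aeval tA (c i)) • b i = 0 := by
      rw [← hc]
      exact Finset.sum_congr rfl (fun i _ => (hsmul _ _).symm)
    intro i
    exact hinj _ (Fintype.linearIndependent_iff.mp b.linearIndependent _ h0 i)
  · intro d
    choose p hp using fun i => hA (b.repr d i)
    refine ⟨p, ?_⟩
    conv_lhs => rw [← b.sum_repr d]
    exact Finset.sum_congr rfl (fun i _ => by rw [hsmul, hp])

end Fermat.Agent.S37.RatBasis
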