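import Mathlib
import Fermat.Agent.S37.RatBasis
import Fermat.Agent.S18.Setup
import Fermat.Agent.S18.S24Export
import Fermat.Agent.S18.FieldDef

/-!
# S37 (long shot), block (W2): rationality of the values at a place, on `F_L = ℚ̄(X₀(N))`

`D := integralClosure ℚ̄[t] F_L` for a coordinate `t` (`j` or `1/j`), `ev : D → ℚ̄` a
`ℚ̄`-algebra homomorphism (the evaluation at a place where `t` is finite).

`exists_level`: there is a number field `K₁` such that for every number field `K₀ ⊇ K₁` and every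
element `z` of `F_{K₀}` whose image in `F_L` lies in `D`, the value `ev z` lies in `K₀`.

Galois-free: `D` is free over `ℚ̄[t]` with a basis defined over a number field
(`RatBasis.exists_basis`), which is a `K₀(t)`-basis of `F_{K₀}` for dimension reasons (`DepAt`),
and `Rational.eval_mem_range`.
-/

set_option autoImplicit false
set_option linter.style.haveILetI false

open Polynomial IntermediateField AlgebraicCurve ModularCurve
open scoped IntermediateField.algebraAdjoinAdjoin

namespace Fermat.Agent.S37.RatInst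

open Fermat.Agent.S18 Fermat.Agent.S18.Setup Fermat.Agent.S18.S24Export
open Fermat.Agent.S37.RatBasis Fermat.Agent.S37.Rational

local notation "Qb" => AlgebraicClosure ℚ

/-! ### Polynomial relations from a dimension bound -/

section Dep

variable {K M F : Type*} [Field K] [Field M] [Algebra K M] [Field F] [Algebra M F] [Algebra K F]
  [IsScalarTower K M F]

/-- `n + 1` elements of a vector space of dimension `≤ n` over `M = K(t)` satisfy a nontrivial
linear relation with coefficients in `K[t]`. -/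
theorem exists_polynomial_relation (t : M) (htop : K⟮t⟯ = ⊤) [FiniteDimensional M F] {n : ℕ}
    (hn : Module.finrank M F ≤ n) (y : Fin (n + 1) → F) :
    ∃ c : Fin (n + 1) → K[X], c ≠ 0 ∧ ∑ i, aeval (algebraMap M F t) (c i) * y i = 0 := by
  classical
  have hdep : ¬ LinearIndependent M y := by
    intro h
    have := h.fintype_card_le_finrank
    rw [Fintype.card_fin] at this
    omega
  obtain ⟨g, hg, i0, hi0⟩ := Fintype.not_linearIndependent_iff.mp hdep
  have hfrac : ∀ i, ∃ r s : K[X], aeval t s ≠ 0 ∧ g i * aeval t s = aeval t r := by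
    intro i
    have hmem : g i ∈ K⟮t⟯ := htop ▸ IntermediateField.mem_top
    obtain ⟨r, s, hrs⟩ := (IntermediateField.mem_adjoin_simple_iff K (g i)).mp hmem
    by_cases hs : aeval t s = 0
    · refine ⟨0, 1, by simp, ?_⟩
      rw [hrs, hs, div_zero]
      simp
    · exact ⟨r, s, hs, by rw [hrs, div_mul_cancel₀ _ hs]⟩
  choose r s hs hrs using hfrac
  set B : M := ∏ k, aeval t (s k) with hB
  have hB0 : B ≠ 0 := Finset.prod_ne_zero_iff.mpr (fun k _ => hs k)
  let c : Fin (n + 1) → K[X] := fun i => r i * ∏ k ∈ Finset.univ.erase i, s k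
  have hc : ∀ i, aeval t (c i) = g i * B := by
    intro i
    change aeval t (r i * ∏ k ∈ Finset.univ.erase i, s k) = g i * B
    rw [map_mul, map_prod, ← hrs i, mul_assoc, hB,
      Finset.mul_prod_erase Finset.univ (fun k => aeval t (s k)) (Finset.mem_univ i)]
  refine ⟨c, ?_, ?_⟩
  · intro h0
    have h1 : aeval t (c i0) = 0 := by rw [h0]; simp
    rw [hc i0] at h1
    exact (mul_ne_zero hi0 hB0) h1
  · have e : ∀ i, aeval (algebraMap M F t) (c i) * y i = B • (g i • y i) := by
      intro i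
      rw [Polynomial.aeval_algebraMap_apply, hc i, Algebra.smul_def, Algebra.smul_def, map_mul]
      ring
    rw [Finset.sum_congr rfl (fun i _ => e i), ← Finset.smul_sum, hg, smul_zero]

end Dep

/-! ### Rationality from one relation -/

section Rel

variable {K0 L F : Type*} [Field K0] [Field L] [Algebra K0 L] [Field F] [Algebra L F]

/-- coercion of a polynomial combination. -/
theorem coe_sum_aeval_tD (t : F) {n : ℕ}
    (x : Fin n → ↥(integralClosure (Algebra.adjoin L {t}) F)) (r : Fin n → L[X]) :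
    ((∑ i : Fin n, aeval (tD (K := L) t) (r i) * x i :
        ↥(integralClosure (Algebra.adjoin L {t}) F)) : F) =
      ∑ i : Fin n, aeval t (r i) * (x i : F) := by
  rw [AddSubmonoidClass.coe_finsetSum]
  refine Finset.sum_congr rfl (fun i _ => ?_)
  rw [MulMemClass.coe_mul, coe_aeval_tD]

/-- **Rationality from a relation**: if `d ∈ D` satisfies a nontrivial `K₀[t]`-linear relation
with the basis `x` (relation read in `F`), then `ev d ∈ K₀`. -/
theorem mem_range_of_rel (t : F)
    (ev : ↥(integralClosure (Algebra.adjoin L {t}) F) →ₐ[L] L) {n : ℕ}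
    (x : Fin n → ↥(integralClosure (Algebra.adjoin L {t}) F))
    (hind : ∀ c : Fin n → L[X], ∑ i, aeval (tD (K := L) t) (c i) * x i = 0 → ∀ i, c i = 0)
    (hspan : ∀ d : ↥(integralClosure (Algebra.adjoin L {t}) F),
      ∃ p : Fin n → L[X], d = ∑ i, aeval (tD (K := L) t) (p i) * x i)
    (htK : ev (tD (K := L) t) ∈ Set.range (algebraMap K0 L))
    (heK : ∀ i, ev (x i) ∈ Set.range (algebraMap K0 L))
    (c0 : K0[X]) (c : Fin n → K0[X]) (hne : c0 = 0 → ∃ i, c i ≠ 0)
    (d : ↥(integralClosure (Algebra.adjoin L {t}) F))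
    (hrel : aeval t (c0.map (algebraMap K0 L)) * (d : F) +
      ∑ i : Fin n, aeval t ((c i).map (algebraMap K0 L)) * (x i : F) = 0) :
    ev d ∈ Set.range (algebraMap K0 L) := by
  classical
  have hmap : Function.Injective (Polynomial.map (algebraMap K0 L)) :=
    Polynomial.map_injective _ (algebraMap K0 L).injective
  refine eval_mem_range (K := K0) ev (tD (K := L) t) x hind htK heK d (hspan _)
    ⟨c0, fun i => - c i, ?_, ?_⟩
  · intro h0
    obtain ⟨i, hi⟩ := hne h0
    apply hi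
    have h1 : ∑ i : Fin n, aeval (tD (K := L) t) ((c i).map (algebraMap K0 L)) * x i = 0 := by
      apply Subtype.ext
      rw [h0, Polynomial.map_zero, map_zero, zero_mul, zero_add] at hrel
      rw [coe_sum_aeval_tD, hrel]
      rfl
    exact hmap (by rw [hind _ h1 i, Polynomial.map_zero])
  · apply Subtype.ext
    rw [coe_sum_aeval_tD, MulMemClass.coe_mul, coe_aeval_tD]
    simp only [Polynomial.map_neg, map_neg, neg_mul, Finset.sum_neg_distrib]
    exact eq_neg_of_add_eq_zero_left hrel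

end Rel

variable (N : ℕ) [NeZero N]

/-! ### Levels -/

/-- The dimension input at level `K₀` for the coordinate `t`: `t` is defined over `K₀` and any
`n + 1` elements of `F_{K₀}` are `K₀[t]`-dependent. -/
def DepAt (t : FL N) (n : ℕ) (K0 : IntermediateField ℚ Qb) : Prop :=
  ∃ tK : FK K0 N, ιL K0 N tK = t ∧ ∀ y : Fin (n + 1) → FK K0 N,
    ∃ c : Fin (n + 1) → (↥K0)[X], c ≠ 0 ∧ ∑ i, aeval tK (c i) * y i = 0

/-- `ιL` commutes with polynomial expressions. -/
theorem ιL_aeval (K0 : IntermediateField ℚ Qb) (tK : FK K0 N) (p : (↥K0)[X]) :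
    ιL K0 N (aeval tK p) = aeval (ιL K0 N tK) (p.map (algebraMap K0 Qb)) := by
  rw [Polynomial.aeval_def, Polynomial.hom_eval₂, Polynomial.aeval_def, Polynomial.eval₂_map]
  congr 1
  exact RingHom.ext fun c => ιL_algebraMap K0 N c

/-- Every element of `F_L` is defined over all sufficiently large number fields. -/
theorem exists_level_mem (y : FL N) :
    ∃ K1 : IntermediateField ℚ Qb, FiniteDimensional ℚ K1 ∧
      ∀ K0 : IntermediateField ℚ Qb, K1 ≤ K0 → ∃ y' : FK K0 N, ιL K0 N y' = y := by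
  haveI : Algebra.IsAlgebraic ℚ Qb := AlgebraicClosure.isAlgebraic ℚ
  have hy : (y : LaurentSeries Qb) ∈ modularFunctionFieldFullC Qb N := by
    rw [← FieldDef.bar_eq_fullC]
    exact y.2
  obtain ⟨K1, hK1, hdef⟩ := FieldDef.exists_finite_subfield hy
  refine ⟨K1, hK1, fun K0 h10 => ?_⟩
  obtain ⟨z, hz, hzy⟩ := FieldDef.DefinedOver.mono h10 hdef
  refine ⟨FK.mk z hz, Subtype.ext ?_⟩
  rw [coe_ιL, FK.val_mk, hzy]

/-- Every element of `ℚ̄` lies in all sufficiently large number fields. -/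
theorem exists_level_const (c : Qb) :
    ∃ K1 : IntermediateField ℚ Qb, FiniteDimensional ℚ K1 ∧
      ∀ K0 : IntermediateField ℚ Qb, K1 ≤ K0 → c ∈ Set.range (algebraMap K0 Qb) := by
  haveI : Algebra.IsAlgebraic ℚ Qb := AlgebraicClosure.isAlgebraic ℚ
  refine ⟨ℚ⟮c⟯, IntermediateField.adjoin.finiteDimensional
    (Algebra.IsIntegral.isIntegral c), fun K0 h10 => ?_⟩
  exact ⟨⟨c, h10 (IntermediateField.mem_adjoin_simple_self ℚ c)⟩, rfl⟩

/-- Rationality at a fixed level `K₀`, from a basis of `D` over `ℚ̄[t]` defined over `K₀`. -/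
theorem mem_range_of_level (t : FL N)
    (ev : ↥(integralClosure (Algebra.adjoin Qb {t}) (FL N)) →ₐ[Qb] Qb) {n : ℕ}
    (x : Fin n → ↥(integralClosure (Algebra.adjoin Qb {t}) (FL N)))
    (hind : ∀ c : Fin n → Qb[X], ∑ i, aeval (tD (K := Qb) t) (c i) * x i = 0 → ∀ i, c i = 0)
    (hspan : ∀ d : ↥(integralClosure (Algebra.adjoin Qb {t}) (FL N)),
      ∃ p : Fin n → Qb[X], d = ∑ i, aeval (tD (K := Qb) t) (p i) * x i)
    (K0 : IntermediateField ℚ Qb) (hdep : DepAt N t n K0)
    (hxK : ∀ i, ∃ y' : FK K0 N, ιL K0 N y' = (x i : FL N))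
    (heK : ∀ i, ev (x i) ∈ Set.range (algebraMap K0 Qb))
    (htK : ev (tD (K := Qb) t) ∈ Set.range (algebraMap K0 Qb))
    (z : FK K0 N) (hz : ιL K0 N z ∈ integralClosure (Algebra.adjoin Qb {t}) (FL N)) :
    ev ⟨ιL K0 N z, hz⟩ ∈ Set.range (algebraMap K0 Qb) := by
  classical
  obtain ⟨tK, htK', hrel⟩ := hdep
  choose x' hx' using hxK
  obtain ⟨c, hc0, hc⟩ := hrel (Fin.cons z x')
  rw [Fin.sum_univ_succ] at hc
  simp only [Fin.cons_zero, Fin.cons_succ] at hc
  -- transport the relation to `F_L`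
  have hcL : aeval t ((c 0).map (algebraMap K0 Qb)) * ιL K0 N z +
      ∑ i : Fin n, aeval t ((c i.succ).map (algebraMap K0 Qb)) * (x i : FL N) = 0 := by
    have h := congrArg (ιL K0 N) hc
    rw [map_add, map_mul, map_sum, map_zero, ιL_aeval, htK'] at h
    rw [← h]
    congr 1
    refine Finset.sum_congr rfl (fun i _ => ?_)
    rw [map_mul, ιL_aeval, htK', hx' i]
  refine mem_range_of_rel (K0 := K0) (L := Qb) (F := FL N) t ev x hind hspan htK heK (c 0)
    (fun i => c i.succ) (fun h0 => ?_) ⟨ιL K0 N z, hz⟩ hcL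
  by_contra hall
  apply hc0
  funext i
  exact Fin.cases h0 (fun i => not_not.mp (fun hi => hall ⟨i, hi⟩)) i

/-- **Rationality of the values at a place**, from a basis of `D` over `ℚ̄[t]`. -/
theorem exists_level_of_basis (t : FL N)
    (ev : ↥(integralClosure (Algebra.adjoin Qb {t}) (FL N)) →ₐ[Qb] Qb) {n : ℕ}
    (x : Fin n → ↥(integralClosure (Algebra.adjoin Qb {t}) (FL N)))
    (hind : ∀ c : Fin n → Qb[X], ∑ i, aeval (tD (K := Qb) t) (c i) * x i = 0 → ∀ i, c i = 0)
    (hspan : ∀ d : ↥(integralClosure (Algebra.adjoin Qb {t}) (FL N)),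
      ∃ p : Fin n → Qb[X], d = ∑ i, aeval (tD (K := Qb) t) (p i) * x i)
    (Kd : IntermediateField ℚ Qb) [FiniteDimensional ℚ Kd]
    (hdep : ∀ K0 : IntermediateField ℚ Qb, Kd ≤ K0 → DepAt N t n K0) :
    ∃ K1 : IntermediateField ℚ Qb, FiniteDimensional ℚ K1 ∧ Kd ≤ K1 ∧
      ∀ K0 : IntermediateField ℚ Qb, K1 ≤ K0 → ∀ (z : FK K0 N)
        (hz : ιL K0 N z ∈ integralClosure (Algebra.adjoin Qb {t}) (FL N)),
        ev ⟨ιL K0 N z, hz⟩ ∈ Set.range (algebraMap K0 Qb) := by
  classical
  choose Kx hKxfin hKx using fun i => exists_level_mem N (x i : FL N)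
  choose Ke hKefin hKe using fun i => exists_level_const (ev (x i))
  obtain ⟨Kt, hKtfin, hKt⟩ := exists_level_const (ev (tD (K := Qb) t))
  haveI := hKxfin
  haveI := hKefin
  haveI := hKtfin
  have hfx : FiniteDimensional ℚ ↥(⨆ i, Kx i) := IntermediateField.finiteDimensional_iSup_of_finite
  have hfe : FiniteDimensional ℚ ↥(⨆ i, Ke i) := IntermediateField.finiteDimensional_iSup_of_finite
  have hf1 : FiniteDimensional ℚ ↥(Kd ⊔ Kt) := IntermediateField.finiteDimensional_sup Kd Kt
  have hf2 : FiniteDimensional ℚ ↥(Kd ⊔ Kt ⊔ (⨆ i, Kx i)) :=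
    IntermediateField.finiteDimensional_sup _ _
  have hf3 : FiniteDimensional ℚ ↥(Kd ⊔ Kt ⊔ (⨆ i, Kx i) ⊔ (⨆ i, Ke i)) :=
    IntermediateField.finiteDimensional_sup _ _
  refine ⟨Kd ⊔ Kt ⊔ (⨆ i, Kx i) ⊔ (⨆ i, Ke i), hf3,
    le_sup_of_le_left (le_sup_of_le_left le_sup_left), fun K0 h10 z hz => ?_⟩
  have hd0 : Kd ≤ K0 := le_trans (le_sup_of_le_left (le_sup_of_le_left le_sup_left)) h10
  have ht0 : Kt ≤ K0 := le_trans (le_sup_of_le_left (le_sup_of_le_left le_sup_right)) h10
  have hx0 : ∀ i, Kx i ≤ K0 := fun i =>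
    le_trans (le_sup_of_le_left (le_sup_of_le_right (le_iSup Kx i))) h10
  have he0 : ∀ i, Ke i ≤ K0 := fun i => le_trans (le_sup_of_le_right (le_iSup Ke i)) h10
  exact mem_range_of_level N t ev x hind hspan K0 (hdep K0 hd0) (fun i => hKx i K0 (hx0 i))
    (fun i => hKe i K0 (he0 i)) (hKt K0 ht0) z hz

/-- **Rationality of the values at a place.**  `t` a coordinate of `F_L` (transcendental, `F_L`
finite over `ℚ̄(t)`), with the dimension input `DepAt` at all large levels. -/
theorem exists_level (t : FL N) (ht : Transcendental Qb t) [FiniteDimensional Qb⟮t⟯ (FL N)]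
    (ev : ↥(integralClosure (Algebra.adjoin Qb {t}) (FL N)) →ₐ[Qb] Qb)
    (Kd : IntermediateField ℚ Qb) [FiniteDimensional ℚ Kd]
    (hdep : ∀ K0 : IntermediateField ℚ Qb, Kd ≤ K0 →
      DepAt N t (Module.finrank Qb⟮t⟯ (FL N)) K0) :
    ∃ K1 : IntermediateField ℚ Qb, FiniteDimensional ℚ K1 ∧ Kd ≤ K1 ∧
      ∀ K0 : IntermediateField ℚ Qb, K1 ≤ K0 → ∀ (z : FK K0 N)
        (hz : ιL K0 N z ∈ integralClosure (Algebra.adjoin Qb {t}) (FL N)),
        ev ⟨ιL K0 N z, hz⟩ ∈ Set.range (algebraMap K0 Qb) := by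
  obtain ⟨x, hind, hspan⟩ := exists_basis (K := Qb) t ht
  exact exists_level_of_basis N t ev x hind hspan Kd hdep

/-- The dimension input for the coordinate `j`, at every level. -/
theorem depAt_j (K0 : IntermediateField ℚ Qb) :
    DepAt N (jL N) (Module.finrank Qb⟮jL N⟯ (FL N)) K0 := by
  refine ⟨jF K0 N, ιL_jF K0 N, fun y => ?_⟩
  have hn : Module.finrank (Line K0 (jF K0 N)) (FK K0 N) ≤ Module.finrank Qb⟮jL N⟯ (FL N) := by
    rw [S24Export.finrank_adjoin]
    exact finrank_line_le K0 N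
  obtain ⟨c, hc0, hc⟩ := exists_polynomial_relation (K := K0) (Line.gen K0 (jF K0 N))
    (Line.adjoin_gen K0 (jF K0 N)) hn y
  exact ⟨c, hc0, hc⟩

/-- **Rationality of the values at a place, chart `j`.** -/
theorem exists_level_j
    (ev : ↥(integralClosure (Algebra.adjoin Qb {jL N}) (FL N)) →ₐ[Qb] Qb) :
    ∃ K1 : IntermediateField ℚ Qb, FiniteDimensional ℚ K1 ∧
      ∀ K0 : IntermediateField ℚ Qb, K1 ≤ K0 → ∀ (z : FK K0 N)
        (hz : ιL K0 N z ∈ integralClosure (Algebra.adjoin Qb {jL N}) (FL N)),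
        ev ⟨ιL K0 N z, hz⟩ ∈ Set.range (algebraMap K0 Qb) := by
  obtain ⟨K1, hfin, -, h⟩ := exists_level N (jL N) (transcendental_jL N) ev ⊥
    (fun K0 _ => depAt_j N K0)
  exact ⟨K1, hfin, h⟩

end Fermat.Agent.S37.RatInst
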