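/-
S37, cover chain, leaf (A): the Gauss representation `CoverHyps.HRep` on the two covers.

A nonzero function `h` of level `N` is, after multiplication by a nonzero constant `c`, the image
of a unit `u` of the Gauss ring of a finite level `K1`; the transfer (TR) of `CoverTR` puts `u`
and `u⁻¹` in the Gauss rings of both charts of the cover at that level, and the level lemmas of
`CoverLevel` translate the two `InGauss` statements into integrality statements in `Ω`.

* `exists_isUnit_coeff` : `π ∤ p(t)` in the chart ring `⟹` some coefficient of `p` is a unit;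
* `rep_level`           : `InGauss` on the chart `tK b` of a level, read in `Ω`;
* `hRep_of_TR`          : `HRep` from the descent `HDesc` and the transfer (TR), any `Good`;
* `hRep_cover3`, `hRep_cover2` : `CoverHyps.HRep N A m` for the covers `j h² = (h + 256)³`
                          (`ℓ ≠ 2`) and `j h = (h + 27)(h + 3)³` (`ℓ ≠ 3`).
-/
import Mathlib
import Fermat.Agent.S37.CoverHyps
import Fermat.Agent.S37.CoverGauss
import Fermat.Agent.S37.CoverTR
import Fermat.Agent.S37.CoverLevel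
import Fermat.Agent.S37.RatInst

set_option autoImplicit false
set_option linter.unusedSectionVars false
set_option linter.style.haveILetI false
set_option synthInstance.maxHeartbeats 400000

noncomputable section

open Polynomial ModularCurve AlgebraicCurve

namespace Fermat.Agent.S37.CoverRep

open Fermat.Agent.S18 Fermat.Agent.S18.CoreDefs Fermat.Agent.S18.Setup
  Fermat.Agent.S18.S24Export Fermat.Agent.S37.CoverDefs Fermat.Agent.S37.CoverHyps
  Fermat.Agent.S37.ConstEnd

local notation "Qb" => AlgebraicClosure ℚ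

/-! ### Denominators: a chart element prime to `π` has a unit coefficient -/

section Abstract

variable {A0 : Type*} [CommRing A0] [IsLocalRing A0] (M : Type*) [Field M] [Algebra A0 M]

/-- If `p(t)` is not divisible by `π` in the chart ring `A0[t]`, then some coefficient of `p` is
a unit of the local ring `A0` (with maximal ideal `(π)`). -/
theorem exists_isUnit_coeff (t : M) (π : A0)
    (hmax : IsLocalRing.maximalIdeal A0 = Ideal.span {π}) (p : A0[X])
    (h : ¬ unif A0 M t π ∣ CoverLevel.toChart t p) : ∃ i, IsUnit (p.coeff i) := by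
  by_contra hne
  apply h
  have h1 : C π ∣ p := by
    rw [Polynomial.C_dvd_iff_dvd_coeff]
    intro i
    have h2 : p.coeff i ∈ IsLocalRing.maximalIdeal A0 :=
      (IsLocalRing.mem_maximalIdeal _).mpr (fun hu => hne ⟨i, hu⟩)
    rw [hmax] at h2
    exact Ideal.mem_span_singleton.mp h2
  rw [← CoverLevel.toChart_C_unif t π]
  exact map_dvd (CoverLevel.toChart t) h1

end Abstract

/-! ### One level -/

section Level

variable (N : ℕ) [NeZero N] (A : ValuationSubring Qb) (m : (FL N)[X]) [Fact (Irreducible m)]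
  (K : Type*) [Field K] [Algebra K Qb] (m0 : (FK K N)[X]) [Fact (Irreducible m0)]

/-- **`InGauss` on a chart of a level, read in `Ω`**: if the image of `u : F_K` lies in the Gauss
ring of the chart `tK b` of the cover at the level `K`, then `p(tO b) * u` is an integral element
of the chart `(A ∩ K)[X] → Ω` for a polynomial `p` with a unit coefficient. -/
theorem rep_level (hmap : m0.map (ιL K N) = m) [IsLocalRing ↥(A0.down K A)]
    (π : ↥(A0.down K A))
    (hmax : IsLocalRing.maximalIdeal ↥(A0.down K A) = Ideal.span {π}) (b : Bool) (u : FK K N)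
    (h1 : InGauss ↥(A0.down K A) (Line K (AdjoinRoot.root m0)) (AdjoinRoot m0) (tK N m0 b) π
      (algebraMap (FK K N) (AdjoinRoot m0) u)) :
    ∃ p : (↥(A0.down K A))[X], (∃ i, IsUnit (p.coeff i)) ∧
      (chartHomO N m K A b).IsIntegralElem
        (chartHomO N m K A b p * algebraMap (FL N) (AdjoinRoot m) (ιL K N u)) := by
  obtain ⟨s, hs, hint⟩ := h1
  obtain ⟨p, rfl⟩ := CoverLevel.toChart_surjective (A0 := ↥(A0.down K A)) (tK N m0 b) s
  refine ⟨p, exists_isUnit_coeff _ (tK N m0 b) π hmax p hs, ?_⟩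
  have h2 := (CoverLevel.isIntegral_chart_iff_phi N m m0 A hmap b _).mp hint
  have h3 : phi N m m0 hmap (CoverLevel.toChart (tK N m0 b) p •
      algebraMap (FK K N) (AdjoinRoot m0) u) =
      chartHomO N m K A b p * algebraMap (FL N) (AdjoinRoot m) (ιL K N u) := by
    rw [Algebra.smul_def, map_mul, CoverLevel.phi_toChart]
    congr 1
    exact phi_of N m m0 hmap u
  rw [h3] at h2
  exact h2

end Level

/-! ### The representation -/

section Rep

variable (N : ℕ) [NeZero N] (A : ValuationSubring Qb) (m : (FL N)[X]) [Fact (Irreducible m)]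

/-- **(A) from (D) and (TR)**: the Gauss representation `HRep`, given the descent of the cover to
the finite levels above `Kb` and the transfer (TR) of the Gauss ring of `F_K` to both charts of
the cover of each such level. -/
theorem hRep_of_TR {ℓ : ℕ} (hℓ : ℓ.Prime) (hℓN : ¬ ℓ ∣ N) (hA : A.LiesOverPrime ℓ)
    (Good : ∀ K : IntermediateField ℚ Qb, (FK K N)[X] → Prop)
    (Kb : IntermediateField ℚ Qb) (hKb : FiniteDimensional ℚ Kb) (hDesc : HDesc N m Good Kb)
    (hTR : ∀ (K : IntermediateField ℚ Qb) [FiniteDimensional ℚ K] (m0 : (FK K N)[X])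
      [Fact (Irreducible m0)], Good K m0 → ∀ π : ↥(A0.down K A), Irreducible π →
      IsLocalRing.maximalIdeal ↥(A0.down K A) = Ideal.span {π} → ∀ (b : Bool) (x : FK K N),
      x ∈ OvK K N A →
      InGauss ↥(A0.down K A) (Line K (AdjoinRoot.root m0)) (AdjoinRoot m0) (tK N m0 b) π
        (algebraMap (FK K N) (AdjoinRoot m0) x)) :
    HRep N A m := by
  intro h hh
  obtain ⟨Kh, hKh, hdef⟩ := RatInst.exists_level_mem N h
  haveI := hKh
  haveI := hKb
  obtain ⟨K1, hK1⟩ : ∃ K1 : IntermediateField ℚ Qb, K1 = Kh ⊔ Kb := ⟨_, rfl⟩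
  haveI hfin : FiniteDimensional ℚ K1 := by
    rw [hK1]
    exact IntermediateField.finiteDimensional_sup Kh Kb
  have hle1 : Kh ≤ K1 := hK1 ▸ le_sup_left
  have hle2 : Kb ≤ K1 := hK1 ▸ le_sup_right
  obtain ⟨y1, hy1⟩ := hdef K1 hle1
  have hy10 : y1 ≠ 0 := by
    rintro rfl
    rw [map_zero] at hy1
    exact hh hy1.symm
  obtain ⟨hdvr, π, hπ, hπ0, hmax, -⟩ := Setup.exists_unif K1 A hℓ hA
  obtain ⟨n, u, hu, -, hinv, hu0, hyu⟩ :=
    CoverGauss.exists_zpow_mul_unit K1 N A hℓ hℓN hA π hπ hmax y1 hy10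
  have hπK : (π : K1) ≠ 0 := fun h0 => hπ0 (Subtype.ext h0)
  -- the constant
  have hc : h * algebraMap Qb (FL N) (algebraMap K1 Qb ((π : K1) ^ (-n))) = ιL K1 N u := by
    rw [← hy1, hyu, ← ιL_algebraMap, ← map_mul]
    congr 1
    rw [mul_right_comm, ← map_mul, ← zpow_add₀ hπK, add_neg_cancel, zpow_zero, map_one, one_mul]
  refine ⟨algebraMap K1 Qb ((π : K1) ^ (-n)), ?_, K1, hfin, ?_, ?_⟩
  · rw [Ne, map_eq_zero]
    exact zpow_ne_zero _ hπK
  · intro K _ hle
    obtain ⟨y', hy'⟩ := hdef K (hle1.trans hle)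
    refine ⟨y' * algebraMap K (FK K N) (IntermediateField.inclusion hle ((π : K1) ^ (-n))), ?_⟩
    rw [map_mul, hy', ιL_algebraMap]
    rfl
  · intro b
    obtain ⟨m0, -, hirr, hmap, hgood⟩ := hDesc K1 hfin hle2
    haveI : Fact (Irreducible m0) := ⟨hirr⟩
    have hloc : IsLocalRing ↥(A0.down K1 A) := inferInstance
    obtain ⟨p, hp, hpi⟩ := rep_level N A m K1 m0 hmap π hmax b u
      (hTR K1 m0 hgood π hπ hmax b u hu)
    obtain ⟨p', hp', hpi'⟩ := rep_level N A m K1 m0 hmap π hmax b u⁻¹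
      (hTR K1 m0 hgood π hπ hmax b u⁻¹ hinv)
    refine ⟨p, p', hp, hp', ?_, ?_⟩
    · rw [hc]
      exact hpi
    · rw [hc, ← map_inv₀, ← map_inv₀]
      exact hpi'

/-- **(A), cover `j h² = (h + 256)³`** (`ℓ ≠ 2`): `CoverHyps.HRep`. -/
theorem hRep_cover3 {ℓ : ℕ} (hℓ : ℓ.Prime) (hℓN : ¬ ℓ ∣ N) (hℓ2 : ℓ ≠ 2)
    (hA : A.LiesOverPrime ℓ) (Kb : IntermediateField ℚ Qb) (hKb : FiniteDimensional ℚ Kb)
    (hDesc : HDesc N m (Good3 N) Kb) : HRep N A m :=
  hRep_of_TR N A m hℓ hℓN hA (Good3 N) Kb hKb hDesc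
    (fun K _ m0 _ hgood π hπ hmax b _ hx =>
      CoverTR.inGauss_tK_cover3 K N A m0 hℓ hℓN hℓ2 hA hgood π hπ hmax b hx)

/-- **(A), cover `j h = (h + 27)(h + 3)³`** (`ℓ ≠ 3`): `CoverHyps.HRep`. -/
theorem hRep_cover2 {ℓ : ℕ} (hℓ : ℓ.Prime) (hℓN : ¬ ℓ ∣ N) (hℓ3 : ℓ ≠ 3)
    (hA : A.LiesOverPrime ℓ) (Kb : IntermediateField ℚ Qb) (hKb : FiniteDimensional ℚ Kb)
    (hDesc : HDesc N m (Good2 N) Kb) : HRep N A m :=
  hRep_of_TR N A m hℓ hℓN hA (Good2 N) Kb hKb hDesc
    (fun K _ m0 _ hgood π hπ hmax b _ hx =>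
      CoverTR.inGauss_tK_cover2 K N A m0 hℓ hℓN hℓ3 hA hgood π hπ hmax b hx)

end Rep

end Fermat.Agent.S37.CoverRep
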