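import Mathlib
import Fermat.Agent.S37.CoverHyps
import Fermat.Agent.S37.RatCover

/-!
# S37 (W2, cover chain, leaf (R)): the contract form `CoverHyps.HRat`

`hRat : CoverHyps.HRat N m` for every monic irreducible `m` over `FL N`: finitely many places of
the cover `AdjoinRoot m` are rational at all large levels.  This is
`RatCover.exists_rational_level_finset` with the quantifiers of the contract.
-/

set_option autoImplicit false

open AlgebraicCurve ModularCurve Polynomial

namespace Fermat.Agent.S37.RatHyp

open Fermat.Agent.S18 Fermat.Agent.S18.Setup Fermat.Agent.S18.S24Export Fermat.Agent.S37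
open Fermat.Agent.S37.CoverDefs

local notation "Qb" => AlgebraicClosure ℚ

variable (N : ℕ) [NeZero N] (m : (FL N)[X]) [Fact (Irreducible m)]

/-- **(R)**, contract form. -/
theorem hRat (hm : m.Monic) : CoverHyps.HRat N m := by
  intro Kd hKd S
  obtain ⟨K₁, hfin₁, hd, h⟩ := RatCover.exists_rational_level_finset N m hm Kd S
  exact ⟨K₁, hfin₁, hd, fun K hK hle m0 hmap w hw x hx => h K hle w hw m0 hmap x hx⟩

/-- one place, contract vocabulary. -/
theorem isRat_of_le (hm : m.Monic) (w : Place Qb (AdjoinRoot m)) :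
    ∃ K1 : IntermediateField ℚ Qb, FiniteDimensional ℚ K1 ∧
      ∀ K : IntermediateField ℚ Qb, FiniteDimensional ℚ K → K1 ≤ K →
        ∀ (m0 : (FK K N)[X]) (hmap : m0.map (ιL K N) = m), CoverHyps.IsRat N m K m0 hmap w := by
  obtain ⟨K₁, hfin₁, h⟩ := RatCover.exists_rational_level N m hm w
  exact ⟨K₁, hfin₁, fun K hK hle m0 hmap x hx => h K hle m0 hmap x hx⟩

/-- the contract predicate `IsRat` is `RatUnram.SameTrace` (the hypothesis of (U)). -/
theorem sameTrace_of_isRat (K : IntermediateField ℚ Qb) (m0 : (FK K N)[X])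
    [Fact (Irreducible m0)] (hmap : m0.map (ιL K N) = m) (w : Place Qb (AdjoinRoot m))
    (h : CoverHyps.IsRat N m K m0 hmap w) :
    RatUnram.SameTrace (K0 := ↥K) (phi N m m0 hmap) w w :=
  RatCover.sameTrace_of_rational N m K m0 hmap w h

end Fermat.Agent.S37.RatHyp
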