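/-
S37, block (W2): the zero-sum contract `PZero` for the reduction map `RedPlace.r`, for every
prime `ℓ ∤ N` -- the cover chain assembled (`CoverAsm.zeroSumConst_of_cover`) with its leaves:
the `X₀(3)`-cover `j h = (h + 27)(h + 3)³` for `ℓ = 2`, the `X₀(2)`-cover `j h² = (h + 256)³`
for `ℓ ≠ 2`.
-/
import Mathlib
import Fermat.Agent.S37.CoverAsm
import Fermat.Agent.S37.CoverFin
import Fermat.Agent.S37.CoverHZero
import Fermat.Agent.S37.RatHyp
import Fermat.Agent.S37.ChartCmpUse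
import Fermat.Agent.S37.CoverLevHyp
import Fermat.Agent.S37.CoverLast
import Fermat.Agent.S37.CoverRep
import Fermat.Agent.S37.CoverLocal

set_option autoImplicit false
set_option linter.unusedSectionVars false
set_option linter.style.haveILetI false

noncomputable section

open Polynomial AlgebraicCurve ModularCurve

namespace Fermat.Agent.S37.CoverZero

open Fermat.Agent.S18 Fermat.Agent.S18.Setup Fermat.Agent.S18.S24Export
open Fermat.Agent.S37.CoverHyps

local notation "Qb" => AlgebraicClosure ℚ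

/-- **Block (W2).** -/
theorem zeroSumConst (N : ℕ) [NeZero N] {ℓ : ℕ} (hℓ : ℓ.Prime) (hℓN : ¬ ℓ ∣ N)
    (A : ValuationSubring Qb) (hA : A.LiesOverPrime ℓ) :
    Skeleton2.PZero N ℓ A (RedPlace.r A N) := by
  intro q _ _
  by_cases hℓ2 : ℓ = 2
  · have hℓ3 : ℓ ≠ 3 := by omega
    obtain ⟨Kb, hKb, m, hm, hirr, hdvd, hDesc⟩ := CoverAsm.exists_cover2_desc N
    haveI : Fact (Irreducible m) := ⟨hirr⟩
    exact CoverAsm.zeroSumConst_of_cover hℓ hℓN hA q hKb hDesc
      (CoverFin.hFin N m)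
      (CoverHZero.hZero2 N A m hℓ hℓ3 hA (ChartCmpUse.hrel_of_dvd2 N m hdvd))
      (CoverRep.hRep_cover2 N A m hℓ hℓN hℓ3 hA Kb hKb hDesc)
      (RatHyp.hRat N m hm)
      (CoverLevHyp.hLevInt N A m)
      (CoverLevHyp.hLevSig2 N A m hℓ hA)
      (CoverLocal.hLocal2 N A m hℓ hℓN hℓ3 hA)
      (CoverLast.hLast2 N A m hℓ hℓN hℓ3 hA)
  · obtain ⟨Kb, hKb, m, hm, hirr, hdvd, hDesc⟩ := CoverAsm.exists_cover3_desc N
    haveI : Fact (Irreducible m) := ⟨hirr⟩
    exact CoverAsm.zeroSumConst_of_cover hℓ hℓN hA q hKb hDesc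
      (CoverFin.hFin N m)
      (CoverHZero.hZero3 N A m hℓ hℓ2 hA (ChartCmpUse.hrel_of_dvd3 N m hdvd))
      (CoverRep.hRep_cover3 N A m hℓ hℓN hℓ2 hA Kb hKb hDesc)
      (RatHyp.hRat N m hm)
      (CoverLevHyp.hLevInt N A m)
      (CoverLevHyp.hLevSig3 N A m hℓ hA)
      (CoverLocal.hLocal3 N A m hℓ hℓN hℓ2 hA)
      (CoverLast.hLast3 N A m hℓ hℓN hℓ2 hA)

end Fermat.Agent.S37.CoverZero
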