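import Mathlib
import Fermat.Prelude.Def_AlgebraicCurve_Correspondence
import Fermat.Agent.S24.FFBasic

/-!
# S37 (W0): the norm formula for divisors along a finite extension of function fields

For a finite extension `F' / F` of fields over an algebraically closed field `K` of characteristic
zero in which every place has degree one, the frozen `AlgebraicCurve.Divisor.PushforwardNormFormula
K F F'` holds: for `f ≠ 0` in `F'` with divisor `D`,
`(pushforward F D) v = ord_v (N_{F'/F} f)` at every place `v` of `F`.

Route: `B :=` integral closure of the discrete valuation ring `O_v` in `F'` is a semilocal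
Dedekind domain, finite over `O_v`; the places of `F'` over `v` are the height-one primes of `B`
(`ofHeightOneSpectrum_restrict`, `exists_heightOneSpectrum_of_restrict`); Mathlib's relative ideal
norm gives `(N b) = 𝔪_v ^ (∑_q ord_q b)` (`span_intNorm_eq_pow`).
-/

set_option autoImplicit false

namespace Fermat.Agent.S37.NormFormula

open AlgebraicCurve IsDedekindDomain WithZero Fermat.Agent.S24

/-! ### The abstract Dedekind statement -/

section Abstract

variable {A B : Type*} [CommRing A] [IsDomain A] [IsDiscreteValuationRing A]
  [CommRing B] [IsDedekindDomain B] [Algebra A B] [Module.Finite A B] [Module.IsTorsionFree A B]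

omit [Module.IsTorsionFree A B] in
/-- Every height-one prime of a finite extension of a discrete valuation ring lies over the
maximal ideal. -/
theorem liesOver_maximalIdeal (q : HeightOneSpectrum B) :
    q.asIdeal.LiesOver (IsLocalRing.maximalIdeal A) := by
  have h1 : (q.asIdeal.under A).IsPrime := Ideal.IsPrime.under A q.asIdeal
  have h2 : q.asIdeal.under A ≠ ⊥ := mt Ideal.eq_bot_of_comap_eq_bot q.ne_bot
  have h3 : (q.asIdeal.under A).IsMaximal := Ring.DimensionLEOne.maximalOfPrime h2 h1
  exact ⟨(IsLocalRing.eq_maximalIdeal h3).symm⟩

include A in
/-- A finite torsion-free Dedekind extension of a discrete valuation ring is semilocal. -/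
theorem finite_heightOneSpectrum : Finite (HeightOneSpectrum B) := by
  have : Finite ((IsLocalRing.maximalIdeal A).primesOver B) :=
    (IsDedekindDomain.primesOver_finite (IsLocalRing.maximalIdeal A) B).to_subtype
  refine Finite.of_injective
    (fun q : HeightOneSpectrum B =>
      (⟨q.asIdeal, q.isPrime, liesOver_maximalIdeal q⟩ : (IsLocalRing.maximalIdeal A).primesOver B))
    fun q q' h => ?_
  exact HeightOneSpectrum.ext (congrArg Subtype.val h)

variable [PerfectField (FractionRing A)]

/-- **Norm of an element as a power of the maximal ideal**, all residue degrees being one. -/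
theorem span_intNorm_eq_pow
    (hdeg : ∀ q : HeightOneSpectrum B, q.asIdeal.inertiaDeg A = 1) (b : B) (hb : b ≠ 0) :
    Ideal.span {Algebra.intNorm A B b} = IsLocalRing.maximalIdeal A ^
      (∑ᶠ q : HeightOneSpectrum B,
        (Associates.mk q.asIdeal).count (Associates.mk (Ideal.span {b} : Ideal B)).factors) := by
  classical
  have := finite_heightOneSpectrum (A := A) (B := B)
  letI : Fintype (HeightOneSpectrum B) := Fintype.ofFinite _
  have hI : (Ideal.span {b} : Ideal B) ≠ 0 := by
    rw [Ne, Ideal.zero_eq_bot, Ideal.span_singleton_eq_bot]
    exact hb
  rw [← Ideal.relNorm_singleton]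
  conv_lhs => rw [← Ideal.finprod_heightOneSpectrum_factorization hI]
  rw [finprod_eq_prod_of_fintype, map_prod, finsum_eq_sum_of_fintype, ← Finset.prod_pow_eq_pow_sum]
  refine Finset.prod_congr rfl fun q _ => ?_
  have := liesOver_maximalIdeal (A := A) q
  have : q.asIdeal.IsMaximal := q.isMaximal
  rw [HeightOneSpectrum.maxPowDividing, map_pow,
    Ideal.relNorm_eq_pow_of_isMaximal q.asIdeal (IsLocalRing.maximalIdeal A), hdeg q, pow_one]

end Abstract

/-! ### The local Dedekind domain over a place -/

variable {K F F' : Type*} [Field K] [Field F] [Field F'] [Algebra K F] [Algebra K F']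
  [Algebra F F'] [IsScalarTower K F F']

/-- The tower `K → O_v → F'`. -/
theorem isScalarTower_place (v : Place K F) : IsScalarTower K v.toValuationSubring F' :=
  IsScalarTower.of_algebraMap_eq fun a => by
    rw [IsScalarTower.algebraMap_apply K F F' a]
    rfl

omit [Algebra K F'] [IsScalarTower K F F'] in
theorem isTorsionFree_place (v : Place K F) : Module.IsTorsionFree v.toValuationSubring F' :=
  Module.isTorsionFree_iff_algebraMap_injective.mpr fun _ _ h =>
    Subtype.ext ((algebraMap F F').injective h)

omit [Algebra K F'] [IsScalarTower K F F'] in
theorem perfectField_fractionRing [CharZero F] (v : Place K F) :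
    PerfectField (FractionRing v.toValuationSubring) := by
  have h1 : CharZero v.toValuationSubring := ⟨fun m n h => by
    have h' := congrArg (Subtype.val : v.toValuationSubring → F) h
    push_cast at h'
    exact Nat.cast_injective h'⟩
  have h2 : CharZero (FractionRing v.toValuationSubring) :=
    charZero_of_injective_algebraMap
      (IsFractionRing.injective v.toValuationSubring (FractionRing v.toValuationSubring))
  infer_instance

/-- The ord of an element of `O_v` generating the `m`-th power of the maximal ideal. -/
theorem ord_coe_of_span_eq (v : Place K F) (a : v.toValuationSubring) (m : ℕ)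
    (h : Ideal.span {a} = IsLocalRing.maximalIdeal v.toValuationSubring ^ m) :
    v.ord (a : F) = m := by
  obtain ⟨ϖ, hϖ⟩ := IsDiscreteValuationRing.exists_irreducible v.toValuationSubring
  rw [hϖ.maximalIdeal_eq, Ideal.span_singleton_pow, Ideal.span_singleton_eq_span_singleton] at h
  obtain ⟨u, hu⟩ := h.symm
  have h1 : (a : F) = ((u : v.toValuationSubring) : F) * ((ϖ : F) ^ (m : ℤ)) := by
    rw [← hu, zpow_natCast]
    push_cast
    ring
  rw [h1, v.ord_unit_smul_zpow u hϖ m]

section Local

variable [Module.Finite F F'] [CharZero F] (v : Place K F)

attribute [local instance] isScalarTower_place isTorsionFree_place perfectField_fractionRing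

omit [Algebra K F'] [IsScalarTower K F F'] in
theorem isDedekindDomain_integralClosure :
    IsDedekindDomain (integralClosure v.toValuationSubring F') :=
  integralClosure.isDedekindDomain v.toValuationSubring F F'

omit [Algebra K F'] [IsScalarTower K F F'] [CharZero F] in
theorem isFractionRing_integralClosure :
    IsFractionRing (integralClosure v.toValuationSubring F') F' :=
  integralClosure.isFractionRing_of_finite_extension F F'

omit [Algebra K F'] [IsScalarTower K F F'] in
theorem finite_integralClosure :
    Module.Finite v.toValuationSubring (integralClosure v.toValuationSubring F') :=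
  IsIntegralClosure.finite v.toValuationSubring F F' _

attribute [local instance] isDedekindDomain_integralClosure isFractionRing_integralClosure
  finite_integralClosure

/-- The place of `F'` attached to a height-one prime of the integral closure of `O_v` lies
over `v`. -/
theorem ofHeightOneSpectrum_restrict
    (q : HeightOneSpectrum (integralClosure v.toValuationSubring F')) :
    (Place.ofHeightOneSpectrum (K := K) (F := F') q).restrict F = v := by
  symm
  apply FFBasic.place_eq_of_le
  intro x hx
  rw [Place.restrict_toValuationSubring, ValuationSubring.mem_comap,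
    Place.ofHeightOneSpectrum_toValuationSubring, Valuation.mem_valuationSubring_iff]
  have h1 : algebraMap F F' x = algebraMap (integralClosure v.toValuationSubring F') F'
      (algebraMap v.toValuationSubring (integralClosure v.toValuationSubring F') ⟨x, hx⟩) := rfl
  rw [h1]
  exact q.valuation_le_one _

/-- Every place of `F'` over `v` comes from a height-one prime of the integral closure of
`O_v`. -/
theorem exists_heightOneSpectrum_of_restrict (w : Place K F') (hw : w.restrict F = v) :
    ∃ q : HeightOneSpectrum (integralClosure v.toValuationSubring F'),
      Place.ofHeightOneSpectrum (K := K) (F := F') q = w := by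
  apply FFBasic.exists_heightOneSpectrum_eq w
  intro b
  refine FFBasic.mem_of_isIntegral w (R := v.toValuationSubring) (fun r => ?_) b.2
  have h1 : (r : F) ∈ (w.restrict F).toValuationSubring := hw ▸ r.2
  exact h1

theorem range_ofHeightOneSpectrum :
    Set.range (Place.ofHeightOneSpectrum (K := K) (F := F')
      (R := integralClosure v.toValuationSubring F')) = {w : Place K F' | w.restrict F = v} := by
  ext w
  constructor
  · rintro ⟨q, rfl⟩
    exact ofHeightOneSpectrum_restrict v q
  · intro hw
    exact exists_heightOneSpectrum_of_restrict v w hw

theorem ord_ofHeightOneSpectrum_algebraMap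
    (q : HeightOneSpectrum (integralClosure v.toValuationSubring F'))
    (b : integralClosure v.toValuationSubring F') (hb : b ≠ 0) :
    (Place.ofHeightOneSpectrum (K := K) (F := F') q).ord
        (algebraMap (integralClosure v.toValuationSubring F') F' b) =
      ((Associates.mk q.asIdeal).count (Associates.mk (Ideal.span {b} :
        Ideal (integralClosure v.toValuationSubring F'))).factors : ℤ) := by
  rw [FFBasic.ord_algebraMap_eq, q.intValuation_if_neg hb, log_exp, neg_neg]

/-- The norm formula for an element of the integral closure. -/
theorem ord_norm_algebraMap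
    (hdeg : ∀ q : HeightOneSpectrum (integralClosure v.toValuationSubring F'),
      q.asIdeal.inertiaDeg v.toValuationSubring = 1)
    (b : integralClosure v.toValuationSubring F') (hb : b ≠ 0) :
    v.ord (Algebra.norm F (algebraMap (integralClosure v.toValuationSubring F') F' b)) =
      ∑ᶠ q : HeightOneSpectrum (integralClosure v.toValuationSubring F'),
        (Place.ofHeightOneSpectrum (K := K) (F := F') q).ord
          (algebraMap (integralClosure v.toValuationSubring F') F' b) := by
  classical
  have := finite_heightOneSpectrum (A := v.toValuationSubring)
    (B := integralClosure v.toValuationSubring F')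
  letI : Fintype (HeightOneSpectrum (integralClosure v.toValuationSubring F')) :=
    Fintype.ofFinite _
  rw [← Algebra.algebraMap_intNorm (A := v.toValuationSubring) (K := F) (L := F')
    (B := integralClosure v.toValuationSubring F') b]
  have h1 := span_intNorm_eq_pow (A := v.toValuationSubring)
    (B := integralClosure v.toValuationSubring F') hdeg b hb
  have h2 := ord_coe_of_span_eq v _ _ h1
  have h3 : algebraMap v.toValuationSubring F
      (Algebra.intNorm v.toValuationSubring (integralClosure v.toValuationSubring F') b) =
      ((Algebra.intNorm v.toValuationSubring (integralClosure v.toValuationSubring F') b :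
        v.toValuationSubring) : F) := rfl
  rw [h3, h2, finsum_eq_sum_of_fintype, finsum_eq_sum_of_fintype, Nat.cast_sum]
  exact Finset.sum_congr rfl fun q _ => (ord_ofHeightOneSpectrum_algebraMap v q b hb).symm

/-- **The local norm formula**: `ord_v (N f) = ∑_q ord_q f`, all residue degrees being one. -/
theorem ord_norm
    (hdeg : ∀ q : HeightOneSpectrum (integralClosure v.toValuationSubring F'),
      q.asIdeal.inertiaDeg v.toValuationSubring = 1)
    (f : F') (hf : f ≠ 0) :
    v.ord (Algebra.norm F f) =
      ∑ᶠ q : HeightOneSpectrum (integralClosure v.toValuationSubring F'),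
        (Place.ofHeightOneSpectrum (K := K) (F := F') q).ord f := by
  classical
  have := finite_heightOneSpectrum (A := v.toValuationSubring)
    (B := integralClosure v.toValuationSubring F')
  obtain ⟨a, s, hs, rfl⟩ := IsFractionRing.div_surjective
    (A := integralClosure v.toValuationSubring F') f
  have hs0 : s ≠ 0 := nonZeroDivisors.ne_zero hs
  have ha0 : a ≠ 0 := by
    rintro rfl
    simp at hf
  have hsF : algebraMap (integralClosure v.toValuationSubring F') F' s ≠ 0 := by
    simpa using hs0
  have haF : algebraMap (integralClosure v.toValuationSubring F') F' a ≠ 0 := by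
    simpa using ha0
  have hNs : Algebra.norm F (algebraMap (integralClosure v.toValuationSubring F') F' s) ≠ 0 :=
    Algebra.norm_ne_zero_iff.mpr hsF
  have hNa : Algebra.norm F (algebraMap (integralClosure v.toValuationSubring F') F' a) ≠ 0 :=
    Algebra.norm_ne_zero_iff.mpr haF
  have hN : Algebra.norm F (algebraMap (integralClosure v.toValuationSubring F') F' a /
      algebraMap (integralClosure v.toValuationSubring F') F' s) =
      Algebra.norm F (algebraMap (integralClosure v.toValuationSubring F') F' a) /
        Algebra.norm F (algebraMap (integralClosure v.toValuationSubring F') F' s) := by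
    rw [eq_div_iff hNs, ← map_mul, div_mul_cancel₀ _ hsF]
  rw [hN, div_eq_mul_inv, v.ord_mul hNa (inv_ne_zero hNs), v.ord_inv,
    ord_norm_algebraMap v hdeg a ha0, ord_norm_algebraMap v hdeg s hs0, ← sub_eq_add_neg,
    ← finsum_sub_distrib (Set.toFinite _) (Set.toFinite _)]
  refine finsum_congr fun q => ?_
  rw [div_eq_mul_inv, Place.ord_mul _ haF (inv_ne_zero hsF), Place.ord_inv, sub_eq_add_neg]

/-- Residue degree one over an algebraically closed constant field. -/
theorem inertiaDeg_eq_one [IsAlgClosed K] (hv : v.deg = 1)
    (q : HeightOneSpectrum (integralClosure v.toValuationSubring F')) :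
    q.asIdeal.inertiaDeg v.toValuationSubring = 1 := by
  have := liesOver_maximalIdeal (A := v.toValuationSubring) q
  have : q.asIdeal.IsMaximal := q.isMaximal
  rw [Ideal.inertiaDeg_eq_of_isMaximal (IsLocalRing.maximalIdeal v.toValuationSubring) q.asIdeal]
  refine FFBasic.finrank_quotient_eq_one (K := K) (IsLocalRing.maximalIdeal v.toValuationSubring)
    q.asIdeal ?_
  have h1 : Module.finrank K (v.toValuationSubring ⧸ IsLocalRing.maximalIdeal v.toValuationSubring)
      = 1 := hv
  intro y
  obtain ⟨c, hc⟩ := (finrank_eq_one_iff_of_nonzero' (1 : v.toValuationSubring ⧸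
    IsLocalRing.maximalIdeal v.toValuationSubring) one_ne_zero).mp h1 y
  exact ⟨c, by rw [← hc, Algebra.smul_def, mul_one]⟩

end Local

/-! ### The frozen norm formula -/

section Global

variable [Module.Finite F F'] [CharZero K] [IsAlgClosed K]

attribute [local instance] isScalarTower_place isTorsionFree_place perfectField_fractionRing
  isDedekindDomain_integralClosure isFractionRing_integralClosure finite_integralClosure

/-- **Norm formula, pointwise form**: for `f ≠ 0` in `F'` with divisor `D` and a place `v` of `F`
of degree one, `(pushforward F D) v = ord_v (N f)` provided the places of `F'` have degree one. -/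
theorem pushforward_apply_eq_ord_norm (hF' : ∀ w : Place K F', w.deg = 1)
    (v : Place K F) (hv : v.deg = 1) (f : F') (hf : f ≠ 0) (D : Divisor K F')
    (hD : ∀ w, D w = w.ord f) :
    Divisor.pushforward F D v = v.ord (Algebra.norm F f) := by
  classical
  have : CharZero F := charZero_of_injective_algebraMap (algebraMap K F).injective
  have hinert : ∀ w : Place K F', w.restrict F = v → w.inertiaDeg F = 1 := by
    intro w hw
    have h1 := w.deg_restrict_mul_inertiaDeg (F := F)
    rw [hw, hv, hF' w, one_mul] at h1
    exact h1
  rw [ord_norm v (inertiaDeg_eq_one v hv) f hf, Divisor.pushforward_apply,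
    ← finsum_mem_range (f := fun w : Place K F' => w.ord f)
      (FFBasic.ofHeightOneSpectrum_injective (K := K) (F := F')
        (R := integralClosure v.toValuationSubring F')),
    range_ofHeightOneSpectrum v, finsum_mem_def,
    finsum_eq_sum_of_support_subset (s := D.support)]
  · refine Finset.sum_congr rfl fun w _ => ?_
    by_cases hw : w.restrict F = v
    · rw [if_pos hw, Set.indicator_of_mem (by exact hw), hD w, hinert w hw, Nat.cast_one, mul_one]
    · rw [if_neg hw, Set.indicator_of_notMem (by exact hw)]
  · intro w hw
    rw [Function.mem_support] at hw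
    rw [Finset.mem_coe, Finsupp.mem_support_iff, hD w]
    intro h0
    apply hw
    by_cases hwv : w ∈ {w : Place K F' | w.restrict F = v}
    · rw [Set.indicator_of_mem hwv, h0]
    · rw [Set.indicator_of_notMem hwv]

/-- **Norm formula over the fibre**: `∑_{w | v} ord_w f = ord_v (N f)`. -/
theorem sum_fiber_ord_eq_ord_norm [HasPrincipalDivisors K F'] (v : Place K F) (hv : v.deg = 1)
    (f : F') (hf : f ≠ 0) :
    ∑ w ∈ v.fiber F', w.ord f = v.ord (Algebra.norm F f) := by
  classical
  have : CharZero F := charZero_of_injective_algebraMap (algebraMap K F).injective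
  rw [ord_norm v (inertiaDeg_eq_one v hv) f hf,
    ← finsum_mem_range (f := fun w : Place K F' => w.ord f)
      (FFBasic.ofHeightOneSpectrum_injective (K := K) (F := F')
        (R := integralClosure v.toValuationSubring F')),
    range_ofHeightOneSpectrum v,
    finsum_mem_eq_finite_toFinset_sum _ (Place.restrict_fiber_finite v)]
  rfl

/-- **The fundamental identity** `∑_{w | v} e(w | v) deg w = [F' : F] deg v` (the frozen class
`FundamentalIdentity K F F'`) for a finite extension of fields over an algebraically closed field
of characteristic zero all of whose places have degree one. -/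
theorem fundamentalIdentity [HasPrincipalDivisors K F'] (hF : ∀ v : Place K F, v.deg = 1)
    (hF' : ∀ w : Place K F', w.deg = 1) : FundamentalIdentity K F F' where
  sum_ramificationIndex_mul_deg v := by
    obtain ⟨ϖ, hϖ⟩ := IsDiscreteValuationRing.exists_irreducible v.toValuationSubring
    have hϖ0 : (ϖ : F) ≠ 0 := by
      simpa [ne_eq, ZeroMemClass.coe_eq_zero] using hϖ.ne_zero
    have key : ∀ w ∈ v.fiber F', (w.ramificationIndex F : ℤ) * (w.deg : ℤ) =
        w.ord (algebraMap F F' (ϖ : F)) := by
      intro w hw
      rw [w.ord_restrict (ϖ : F), Place.mem_fiber.mp hw, v.ord_coe_irreducible hϖ, hF' w,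
        Nat.cast_one]
    rw [Finset.sum_congr rfl key,
      sum_fiber_ord_eq_ord_norm v (hF v) _ (by simpa using hϖ0), Algebra.norm_algebraMap,
      ← zpow_natCast, v.ord_zpow, v.ord_coe_irreducible hϖ, hF v, Nat.cast_one]

/-- **The frozen norm formula** `PushforwardNormFormula K F F'` for a finite extension of fields
over an algebraically closed field of characteristic zero all of whose places have degree one. -/
theorem pushforwardNormFormula (hF : ∀ v : Place K F, v.deg = 1)
    (hF' : ∀ w : Place K F', w.deg = 1) : Divisor.PushforwardNormFormula K F F' :=
  fun f hf D hD v => pushforward_apply_eq_ord_norm hF' v (hF v) f hf D hD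

end Global

/-! ### The `Along` form consumed by `HeckeInputsAlong` -/

section Along

variable {K F F' : Type*} [Field K] [Field F] [Field F'] [Algebra K F] [Algebra K F']
  [CharZero K] [IsAlgClosed K]

/-- **The frozen norm formula along a `K`-algebra homomorphism** `φ : F →ₐ[K] F'` making `F'`
finite over `F`, all places of `F` and `F'` having degree one. -/
theorem normFormulaAlong (φ : F →ₐ[K] F') (hfin : FiniteAlong K φ)
    (hF : ∀ v : Place K F, v.deg = 1) (hF' : ∀ w : Place K F', w.deg = 1) :
    NormFormulaAlong K φ hfin := by
  letI := algebraAlong φ
  haveI := isScalarTower_along φ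
  haveI : Module.Finite F F' := hfin
  exact pushforwardNormFormula hF hF'

/-- **The frozen fundamental identity along a `K`-algebra homomorphism** `φ : F →ₐ[K] F'` making
`F'` finite over `F`, all places of `F` and `F'` having degree one. -/
theorem fundamentalIdentityAlong [HasPrincipalDivisors K F'] (φ : F →ₐ[K] F')
    (hφ : φ.toRingHom.IsIntegral) (hfin : FiniteAlong K φ)
    (hF : ∀ v : Place K F, v.deg = 1) (hF' : ∀ w : Place K F', w.deg = 1) :
    FundamentalIdentityAlong K φ hφ := by
  letI := algebraAlong φ
  haveI := isScalarTower_along φ
  haveI : Module.Finite F F' := hfin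
  exact fundamentalIdentity hF hF'

end Along

end Fermat.Agent.S37.NormFormula
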