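import Mathlib
import Fermat.Prelude.Def_AlgebraicCurve_Correspondence
import Fermat.Agent.S37.NormFormula

/-!
# S37 (W0-A): the norm formula and the fundamental identity in the `Along` shapes

The two abstract inputs of `ModularCurve.HeckeInputsAlong`, for a `K`-algebra homomorphism
`φ : F →ₐ[K] F'` making `F'` finite over `F`, over an algebraically closed field `K` of
characteristic zero, all places of `F` and `F'` having degree one.  Both are proved in
`Fermat.Agent.S37.NormFormula`; this file only fixes the names of leaf W0-A.
-/

set_option autoImplicit false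

namespace Fermat.Agent.S37.PushPull

open AlgebraicCurve

variable {K F F' : Type*} [Field K] [IsAlgClosed K] [CharZero K] [Field F] [Field F']
  [Algebra K F] [Algebra K F']

/-- **Norm formula along `φ`**: the frozen `NormFormulaAlong K φ hfin`. -/
theorem normFormulaAlong (φ : F →ₐ[K] F') (hfin : FiniteAlong K φ)
    (hF : ∀ v : Place K F, v.deg = 1) (hF' : ∀ w : Place K F', w.deg = 1) :
    NormFormulaAlong K φ hfin :=
  NormFormula.normFormulaAlong φ hfin hF hF'

/-- **Fundamental identity along `φ`**: the frozen `FundamentalIdentityAlong K φ hφ`. -/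
theorem fundamentalIdentityAlong [HasPrincipalDivisors K F'] (φ : F →ₐ[K] F')
    (hφ : φ.toRingHom.IsIntegral) (hfin : FiniteAlong K φ)
    (hF : ∀ v : Place K F, v.deg = 1) (hF' : ∀ w : Place K F', w.deg = 1) :
    FundamentalIdentityAlong K φ hφ :=
  NormFormula.fundamentalIdentityAlong φ hφ hfin hF hF'

end Fermat.Agent.S37.PushPull
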