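import Mathlib
import Fermat.Prelude.Def_ModularCurve_HeckeModule
import Fermat.Agent.S18.S24Export
import Fermat.Agent.S24.FFDeg
import Fermat.Agent.S37.PushPull

/-!
# S37 (W0-B): the Hecke inputs over `ℚ̄`

`HeckeInputsAlong ℚ̄ N ℓ` holds for every level `N` and every `ℓ`, so the Prelude's Hecke operator
`heckeOperatorAlong ℚ̄ N ℓ` is the correspondence `α_* β^*` on `Pic⁰` (and not the junk value `0`).

* `hasPrincipalDivisors M` : `HasPrincipalDivisors ℚ̄ (FL M)`;
* `finiteAlong φ`, `isIntegral_toRingHom φ` : every `ℚ̄`-algebra map `FL N → FL M` is finite;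
* `heckeInputsAlong N ℓ`;
* `heckeOperatorAlong_mk` : the value of the Hecke operator on the class of a divisor.
-/

set_option autoImplicit false

open AlgebraicCurve ModularCurve IntermediateField
open Fermat.Agent.S18.S24Export

namespace Fermat.Agent.S37.HeckeInputs

local notation "Qb" => AlgebraicClosure ℚ

/-- Principal divisors of the function field of `X₀(M)` over `ℚ̄` exist and have degree zero. -/
theorem hasPrincipalDivisors (M : ℕ) [NeZero M] : HasPrincipalDivisors Qb (FL M) := by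
  classical
  refine ⟨fun f hf => ?_⟩
  obtain ⟨S, hS, hsum⟩ := exists_sum_ord_eq_zero M f hf
  set D : Divisor Qb (FL M) := Finsupp.onFinset S (fun v => v.ord f) (fun v hv => by
    by_contra hvS
    exact hv (hS v hvS)) with hD
  refine ⟨D, fun v => rfl, ?_⟩
  have hdeg : Divisor.degree D = ∑ v ∈ D.support, D v := by
    rw [Divisor.degree, Finsupp.liftAddHom_apply, Finsupp.sum]
    refine Finset.sum_congr rfl fun v _ => ?_
    rw [AddMonoidHom.mulRight_apply, deg_eq_one M v, Nat.cast_one, mul_one]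
  have hsub : ∑ v ∈ D.support, D v = ∑ v ∈ S, D v :=
    Finset.sum_subset Finsupp.support_onFinset_subset (fun v _ hv => by
      rw [Finsupp.mem_support_iff, not_not] at hv
      exact hv)
  rw [hdeg, hsub]
  exact hsum

variable {N M : ℕ} [NeZero N] [NeZero M]

omit [NeZero N] in
/-- Every `ℚ̄`-algebra homomorphism between the function fields is finite. -/
theorem finiteAlong (φ : FL N →ₐ[Qb] FL M) : FiniteAlong Qb φ := by
  let _ := algebraAlong φ
  show Module.Finite (FL N) (FL M)
  have hx : Transcendental Qb (φ (jL N)) := fun h =>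
    transcendental_jL N ((isAlgebraic_algHom_iff φ φ.injective).mp h)
  have hfd : FiniteDimensional (IntermediateField.adjoin Qb {φ (jL N)}) (FL M) :=
    Fermat.Agent.S24.FFDeg.finiteDimensional_adjoin_of_transcendental
      (IntermediateField.adjoin Qb {jL M}) (jL M) rfl (φ (jL N)) hx
  have hle : IntermediateField.adjoin Qb {φ (jL N)} ≤ φ.fieldRange := by
    rw [IntermediateField.adjoin_le_iff]
    rintro _ rfl
    exact ⟨jL N, rfl⟩
  obtain ⟨s, hs⟩ := hfd.fg_top
  refine ⟨⟨s, ?_⟩⟩
  rw [eq_top_iff]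
  rintro y -
  have hy : y ∈ Submodule.span (IntermediateField.adjoin Qb {φ (jL N)}) (s : Set (FL M)) := by
    rw [hs]
    exact Submodule.mem_top
  induction hy using Submodule.span_induction with
  | mem z hz => exact Submodule.subset_span hz
  | zero => exact zero_mem _
  | add a b _ _ ha hb => exact add_mem ha hb
  | smul c z _ hz =>
    obtain ⟨c', hc'⟩ := hle c.2
    have h1 : c • z = c' • z := by
      rw [Algebra.smul_def c' z, IntermediateField.smul_def, smul_eq_mul]
      exact congrArg (· * z) hc'.symm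
    rw [h1]
    exact Submodule.smul_mem _ c' hz

omit [NeZero N] in
/-- Every `ℚ̄`-algebra homomorphism between the function fields is integral. -/
theorem isIntegral_toRingHom (φ : FL N →ₐ[Qb] FL M) : φ.toRingHom.IsIntegral := by
  let _ := algebraAlong φ
  have : Module.Finite (FL N) (FL M) := finiteAlong φ
  intro x
  exact (Algebra.IsIntegral.of_finite (FL N) (FL M)).isIntegral x

/-- All inertia degrees are `1` (the constant field `ℚ̄` is algebraically closed). -/
theorem inertiaDegAlong_eq_one (φ : FL N →ₐ[Qb] FL M) (hφ : φ.toRingHom.IsIntegral)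
    (w : Place Qb (FL M)) : w.inertiaDegAlong φ hφ = 1 := by
  let _ := algebraAlong φ
  have := isScalarTower_along φ
  have := isIntegral_along φ hφ
  have h := w.deg_restrict_mul_inertiaDeg (F := FL N)
  rw [deg_eq_one, deg_eq_one, one_mul] at h
  exact h

section Hecke

variable (N ℓ : ℕ) [NeZero N] [NeZero ℓ]

theorem heckeAlphaBarIntegral : HeckeAlphaBarIntegral Qb N ℓ :=
  isIntegral_toRingHom (heckeAlphaBar Qb N ℓ)

theorem heckeBetaBarIntegral : HeckeBetaBarIntegral Qb N ℓ :=
  isIntegral_toRingHom (heckeBetaBar Qb N ℓ)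

theorem fundamentalIdentityAlong_beta [HasPrincipalDivisors Qb (FL (N * ℓ))]
    (hβ : HeckeBetaBarIntegral Qb N ℓ) :
    FundamentalIdentityAlong Qb (heckeBetaBar Qb N ℓ) hβ :=
  PushPull.fundamentalIdentityAlong (heckeBetaBar Qb N ℓ) hβ (finiteAlong _) (deg_eq_one N)
    (deg_eq_one (N * ℓ))

theorem normFormulaAlong_alpha (hfin : FiniteAlong Qb (heckeAlphaBar Qb N ℓ)) :
    NormFormulaAlong Qb (heckeAlphaBar Qb N ℓ) hfin :=
  PushPull.normFormulaAlong (heckeAlphaBar Qb N ℓ) hfin (deg_eq_one N) (deg_eq_one (N * ℓ))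

/-- **(W0)** The Hecke inputs hold over `ℚ̄` for every level and every `ℓ`. -/
theorem heckeInputsAlong : HeckeInputsAlong Qb N ℓ := by
  have : HasPrincipalDivisors Qb (FL (N * ℓ)) := hasPrincipalDivisors (N * ℓ)
  exact heckeInputsAlong_intro (heckeAlphaBarIntegral N ℓ) (heckeBetaBarIntegral N ℓ)
    (fundamentalIdentityAlong_beta N ℓ _) (finiteAlong _) (normFormulaAlong_alpha N ℓ _)

variable {N ℓ}

/-- `α_* β^*` preserves degree zero. -/
theorem pushforward_pullback_mem_degZero [HasPrincipalDivisors Qb (FL (N * ℓ))]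
    (hα : HeckeAlphaBarIntegral Qb N ℓ) (hβ : HeckeBetaBarIntegral Qb N ℓ)
    (D : Divisor.degZero (K := Qb) (F := FL N)) :
    Divisor.pushforwardAlong (heckeAlphaBar Qb N ℓ) hα
        (Divisor.pullbackAlong (heckeBetaBar Qb N ℓ) hβ (D : Divisor Qb (FL N))) ∈
      Divisor.degZero (K := Qb) (F := FL N) :=
  Divisor.correspondence_mem_degZero (heckeBetaBar Qb N ℓ) (heckeAlphaBar Qb N ℓ) hβ hα
    (fundamentalIdentityAlong_beta N ℓ hβ) D.2

/-- **The Hecke operator on the class of a divisor**: `T_ℓ [D] = [α_* β^* D]`. -/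
theorem heckeOperatorAlong_mk [HasPrincipalDivisors Qb (FL (N * ℓ))]
    (hα : HeckeAlphaBarIntegral Qb N ℓ) (hβ : HeckeBetaBarIntegral Qb N ℓ)
    (D : Divisor.degZero (K := Qb) (F := FL N)) :
    heckeOperatorAlong Qb N ℓ (Pic0.mk D) =
      Pic0.mk ⟨Divisor.pushforwardAlong (heckeAlphaBar Qb N ℓ) hα
        (Divisor.pullbackAlong (heckeBetaBar Qb N ℓ) hβ (D : Divisor Qb (FL N))),
        pushforward_pullback_mem_degZero hα hβ D⟩ := by
  rw [heckeOperatorAlong_eq hα hβ (fundamentalIdentityAlong_beta N ℓ hβ) (finiteAlong _)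
    (normFormulaAlong_alpha N ℓ _)]
  rfl

/-- `heckeDivBar = α_* β^*` on divisors (definitional). -/
theorem heckeDivBar_apply [HasPrincipalDivisors Qb (FL (N * ℓ))]
    (hα : HeckeAlphaBarIntegral Qb N ℓ) (hβ : HeckeBetaBarIntegral Qb N ℓ)
    (D : Divisor Qb (FL N)) :
    heckeDivBar hα hβ D = Divisor.pushforwardAlong (heckeAlphaBar Qb N ℓ) hα
      (Divisor.pullbackAlong (heckeBetaBar Qb N ℓ) hβ D) :=
  rfl

/-- **(T)** The Hecke correspondence on a point: `T_ℓ (n·P) = ∑_{W ∣ P along β} n·e(W/P)·α(W)`. -/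
theorem heckeDivBar_single [HasPrincipalDivisors Qb (FL (N * ℓ))]
    (hα : HeckeAlphaBarIntegral Qb N ℓ) (hβ : HeckeBetaBarIntegral Qb N ℓ)
    (P : Place Qb (FL N)) (n : ℤ) :
    heckeDivBar hα hβ (Finsupp.single P n) =
      ∑ W ∈ Place.fiberAlong (heckeBetaBar Qb N ℓ) hβ P,
        Finsupp.single (W.restrictAlong (heckeAlphaBar Qb N ℓ) hα)
          (n * (W.ramificationIndexAlong (heckeBetaBar Qb N ℓ) : ℤ)) := by
  rw [heckeDivBar_apply, Divisor.pullbackAlong_single, map_sum]
  refine Finset.sum_congr rfl fun W _ => ?_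
  rw [Divisor.pushforwardAlong_single, inertiaDegAlong_eq_one, Nat.cast_one, mul_one]

/-- The Hecke operator on the class of a divisor, in `heckeDivBar` form. -/
theorem heckeOperatorAlong_mk_heckeDivBar [HasPrincipalDivisors Qb (FL (N * ℓ))]
    (hα : HeckeAlphaBarIntegral Qb N ℓ) (hβ : HeckeBetaBarIntegral Qb N ℓ)
    (D : Divisor.degZero (K := Qb) (F := FL N)) :
    heckeOperatorAlong Qb N ℓ (Pic0.mk D) =
      Pic0.mk ⟨heckeDivBar hα hβ (D : Divisor Qb (FL N)),
        pushforward_pullback_mem_degZero hα hβ D⟩ :=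
  heckeOperatorAlong_mk hα hβ D

end Hecke

section Module

variable {N : ℕ} [NeZero N]

/-- **The generator `T_ℓ` of the Hecke algebra acting on the class of a divisor**, in the
module structure `heckeModuleBar N` of the statement S37. -/
theorem heckeGen_smul_mk (h : HeckeOperatorsCommuteBar N) (ℓ : Nat.Primes)
    [NeZero (ℓ : ℕ)] [HasPrincipalDivisors Qb (FL (N * (ℓ : ℕ)))]
    (hα : HeckeAlphaBarIntegral Qb N ℓ) (hβ : HeckeBetaBarIntegral Qb N ℓ)
    (D : Divisor.degZero (K := Qb) (F := FL N)) :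
    (letI := heckeModuleBar N; heckeGen ℓ • (Pic0.mk D : JZero N)) =
      Pic0.mk ⟨Divisor.pushforwardAlong (heckeAlphaBar Qb N ℓ) hα
        (Divisor.pullbackAlong (heckeBetaBar Qb N ℓ) hβ (D : Divisor Qb (FL N))),
        pushforward_pullback_mem_degZero hα hβ D⟩ := by
  rw [heckeModuleBar_heckeGen_smul h, heckeOperatorBar_apply]
  exact heckeOperatorAlong_mk hα hβ D

end Module

end Fermat.Agent.S37.HeckeInputs
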