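import Mathlib
import Fermat.Agent.S37.RedPlace
import Fermat.Agent.S37.ChartAdapt
import Fermat.Prelude.Def_EllipticCurve_FrobeniusTrace

/-!
# S37 (W3): transport of values, charts and flags under the decomposition group

`A` a valuation subring of `ℚ̄`, `σ` in its decomposition group, acting on `F_L = FL N`
coefficientwise (`gal N σ`), on the places of `F_L`, and on the residue field of `A`.

* `apply_mem_iff`: `σ a ∈ A ↔ a ∈ A`.
* `smul_mem_Rint_iff`: `σ x ∈ Rint (σ P) ↔ x ∈ Rint P`.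
* `val_smul_smul`: `val (σ P) (σ x) = σ̄ (val P x)`; `val_smul`: `val (σ P) x = σ̄ (val P (σ⁻¹ x))`.
* `smul_mem_chart_iff`: `σ x ∈ chart A N b ↔ x ∈ chart A N b`.
* `isFin_smul_iff`, `flag_smul`: `flag (σ P) = flag P`.
* inertia: `val_inertia`, `val_inertia'`; Frobenius: `val_frob`, `val_frob'`, `val_frob_inv`
  (`val (σ P) x = (val P (σ⁻¹ x)) ^ ℓ`, `val P (σ x) = (val (σ⁻¹ P) x) ^ ℓ`).
* `r_inertia_of_key`: `r (τ P) = r P` for `τ` in the inertia group, from the key fact (K)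
  (`val P (τ x - x) = 0` for `x` in the chart of `P`).
-/

set_option autoImplicit false
set_option linter.unusedSectionVars false

namespace Fermat.Agent.S37.GalVal

open AlgebraicCurve ModularCurve
open Fermat.Agent.S18.S24Export Fermat.Agent.S37.EvalGal Fermat.Agent.S37.RedPlace

open scoped Pointwise

local notation "Qb" => AlgebraicClosure ℚ

variable (A : ValuationSubring Qb) (N : ℕ) [NeZero N]

/-! ### The decomposition group -/

/-- elements of the decomposition group preserve `A`. -/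
theorem apply_mem_iff {σ : Qb ≃ₐ[ℚ] Qb} (hσ : σ ∈ A.decompositionSubgroup ℚ) (a : Qb) :
    σ a ∈ A ↔ a ∈ A := by
  have hσ' : σ • A = A := hσ
  have h : σ • a ∈ σ • A ↔ a ∈ A := ValuationSubring.smul_mem_pointwise_smul_iff
  rw [hσ'] at h
  exact h

/-- elements of the inertia group lie in the decomposition group. -/
theorem mem_decomp_of_mem_inertia {τ : Qb ≃ₐ[ℚ] Qb} (hτ : τ ∈ A.inertiaSubgroupIn ℚ) :
    τ ∈ A.decompositionSubgroup ℚ := by
  obtain ⟨τd, -, rfl⟩ := hτ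
  exact τd.2

/-- `gal N` is a group homomorphism. -/
theorem gal_inv (σ : Qb ≃ₐ[ℚ] Qb) : gal N σ⁻¹ = (gal N σ)⁻¹ :=
  map_inv (arithmeticGalois (modularFunctionFieldFull N)) σ

theorem gal_mul (σ τ : Qb ≃ₐ[ℚ] Qb) : gal N (σ * τ) = gal N σ * gal N τ :=
  map_mul (arithmeticGalois (modularFunctionFieldFull N)) σ τ

/-- `j` is fixed by the coefficientwise Galois action. -/
theorem gal_smul_jL (σ : Qb ≃ₐ[ℚ] Qb) : gal N σ • jL N = jL N := by
  apply Subtype.ext
  show coeffMap (σ : Qb →+* Qb) ((jL N : FL N) : LaurentSeries Qb) = _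
  rw [coe_jL]
  exact coeffMap_coeffEmb σ jq

/-- the chart coordinates are fixed by the coefficientwise Galois action. -/
theorem gal_smul_coord (σ : Qb ≃ₐ[ℚ] Qb) (b : Bool) : gal N σ • coord N b = coord N b := by
  cases b
  · rw [coord_false, smul_inv'', gal_smul_jL]
  · rw [coord_true, gal_smul_jL]

/-- constants under the coefficientwise Galois action. -/
theorem gal_smul_algebraMap (σ : Qb ≃ₐ[ℚ] Qb) (a : Qb) :
    gal N σ • algebraMap Qb (FL N) a = algebraMap Qb (FL N) (σ a) :=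
  arithmeticRingAut_algebraMap _ σ a

/-- **`Rint` is transported by the decomposition group.** -/
theorem smul_mem_Rint_iff {σ : Qb ≃ₐ[ℚ] Qb} (hσ : σ ∈ A.decompositionSubgroup ℚ)
    (P : Place Qb (FL N)) (x : FL N) :
    gal N σ • x ∈ Rint A N (gal N σ • P) ↔ x ∈ Rint A N P := by
  rw [mem_Rint_iff, mem_Rint_iff]
  constructor
  · rintro ⟨hx', hA'⟩
    have hx : x ∈ P.toValuationSubring := (galois_smul_mem_iff σ P x).mp hx'
    refine ⟨hx, ?_⟩
    have h := evL_galois σ P ⟨x, hx⟩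
    have h2 : σ (evL P ⟨x, hx⟩) ∈ A := by
      rw [← h]
      exact hA'
    exact (apply_mem_iff A hσ _).mp h2
  · rintro ⟨hx, hA'⟩
    refine ⟨galois_smul_mem σ P hx, ?_⟩
    have h := evL_galois σ P ⟨x, hx⟩
    have h2 : σ (evL P ⟨x, hx⟩) ∈ A := (apply_mem_iff A hσ _).mpr hA'
    rw [← h] at h2
    exact h2

/-- **Transport of values**: `val (σ P) (σ x) = σ̄ (val P x)` for `σ` in the decomposition
group, `σ̄` its action on the residue field. -/
theorem val_smul_smul (σ : A.decompositionSubgroup ℚ) (P : Place Qb (FL N)) (x : FL N) :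
    val A N (gal N (σ : Qb ≃ₐ[ℚ] Qb) • P) (gal N (σ : Qb ≃ₐ[ℚ] Qb) • x) = σ • val A N P x := by
  by_cases hx : x ∈ Rint A N P
  · have hx' : gal N (σ : Qb ≃ₐ[ℚ] Qb) • x ∈ Rint A N (gal N (σ : Qb ≃ₐ[ℚ] Qb) • P) :=
      (smul_mem_Rint_iff A N σ.2 P x).mpr hx
    rw [val_of_mem_Rint A N _ hx', val_of_mem_Rint A N P hx,
      ← IsLocalRing.ResidueField.residue_smul]
    congr 1
    apply Subtype.ext
    exact evL_galois (σ : Qb ≃ₐ[ℚ] Qb) P ⟨x, hx.1⟩
  · have hx' : gal N (σ : Qb ≃ₐ[ℚ] Qb) • x ∉ Rint A N (gal N (σ : Qb ≃ₐ[ℚ] Qb) • P) :=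
      fun h => hx ((smul_mem_Rint_iff A N σ.2 P x).mp h)
    rw [val_of_not_mem_Rint A N _ hx', val_of_not_mem_Rint A N P hx, smul_zero]

/-- `val (σ P) x = σ̄ (val P (σ⁻¹ x))`. -/
theorem val_smul (σ : A.decompositionSubgroup ℚ) (P : Place Qb (FL N)) (x : FL N) :
    val A N (gal N (σ : Qb ≃ₐ[ℚ] Qb) • P) x =
      σ • val A N P ((gal N (σ : Qb ≃ₐ[ℚ] Qb))⁻¹ • x) := by
  have h := val_smul_smul A N σ P ((gal N (σ : Qb ≃ₐ[ℚ] Qb))⁻¹ • x)
  rwa [smul_inv_smul] at h

/-! ### Charts and flags -/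

/-- the chart rings are stable under the decomposition group. -/
theorem smul_mem_chart {σ : Qb ≃ₐ[ℚ] Qb} (hσ : σ ∈ A.decompositionSubgroup ℚ) (b : Bool)
    {x : FL N} (hx : x ∈ chart A N b) : gal N σ • x ∈ chart A N b := by
  rw [ChartAdapt.mem_chart_iff_isIntegralElem] at hx ⊢
  obtain ⟨p, hp, hpx⟩ := hx
  let ρ : ↥A →+* ↥A := MulSemiringAction.toRingHom (A.decompositionSubgroup ℚ) ↥A ⟨σ, hσ⟩
  have hρ : ∀ a : ↥A, ((ρ a : ↥A) : Qb) = σ (a : Qb) := fun _ => rfl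
  refine ⟨p.map (Polynomial.mapRingHom ρ), hp.map _, ?_⟩
  have hcomp : (EvalInt.chartHom A (coord N b)).comp (Polynomial.mapRingHom ρ) =
      ((SemilinearAut.toRingAut (gal N σ) : FL N ≃+* FL N) : FL N →+* FL N).comp
        (EvalInt.chartHom A (coord N b)) := by
    refine Polynomial.ringHom_ext (fun a => ?_) ?_
    · simp only [EvalInt.chartHom, RingHom.comp_apply, Polynomial.coe_mapRingHom,
        Polynomial.map_C, Polynomial.coe_eval₂RingHom, Polynomial.eval₂_C,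
        ValuationSubring.subtype_apply, RingHom.coe_coe, hρ]
      exact (gal_smul_algebraMap N σ (a : Qb)).symm
    · simp only [EvalInt.chartHom, RingHom.comp_apply, Polynomial.coe_mapRingHom,
        Polynomial.map_X, Polynomial.coe_eval₂RingHom, Polynomial.eval₂_X, RingHom.coe_coe]
      exact (gal_smul_coord N σ b).symm
  rw [Polynomial.eval₂_map]
  have h2 := Polynomial.hom_eval₂ p (EvalInt.chartHom A (coord N b))
    ((SemilinearAut.toRingAut (gal N σ) : FL N ≃+* FL N) : FL N →+* FL N) x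
  have h3 : Polynomial.eval₂ (EvalInt.chartHom A (coord N b)) x p = 0 := hpx
  rw [h3, map_zero, ← hcomp] at h2
  exact h2.symm

theorem smul_mem_chart_iff {σ : Qb ≃ₐ[ℚ] Qb} (hσ : σ ∈ A.decompositionSubgroup ℚ) (b : Bool)
    (x : FL N) : gal N σ • x ∈ chart A N b ↔ x ∈ chart A N b := by
  refine ⟨fun h => ?_, smul_mem_chart A N hσ b⟩
  have hinv : σ⁻¹ ∈ A.decompositionSubgroup ℚ := inv_mem hσ
  have h2 := smul_mem_chart A N hinv b h
  have h3 : gal N σ⁻¹ • gal N σ • x = x := by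
    rw [gal_inv, inv_smul_smul]
  rwa [h3] at h2

/-- `(gal N σ)⁻¹ • x ∈ chart ↔ x ∈ chart`. -/
theorem inv_smul_mem_chart_iff {σ : Qb ≃ₐ[ℚ] Qb} (hσ : σ ∈ A.decompositionSubgroup ℚ)
    (b : Bool) (x : FL N) : (gal N σ)⁻¹ • x ∈ chart A N b ↔ x ∈ chart A N b := by
  have h := smul_mem_chart_iff A N hσ b ((gal N σ)⁻¹ • x)
  rw [smul_inv_smul] at h
  exact h.symm

/-- the finite chart is stable under the decomposition group. -/
theorem isFin_smul_iff {σ : Qb ≃ₐ[ℚ] Qb} (hσ : σ ∈ A.decompositionSubgroup ℚ)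
    (P : Place Qb (FL N)) : IsFin A N (gal N σ • P) ↔ IsFin A N P := by
  rw [isFin_iff, isFin_iff]
  have h := smul_mem_Rint_iff A N hσ P (jL N)
  rwa [gal_smul_jL] at h

/-- **the chart flag is invariant under the decomposition group.** -/
theorem flag_smul {σ : Qb ≃ₐ[ℚ] Qb} (hσ : σ ∈ A.decompositionSubgroup ℚ)
    (P : Place Qb (FL N)) : flag A N (gal N σ • P) = flag A N P := by
  rw [Bool.eq_iff_iff, flag_eq_true_iff, flag_eq_true_iff]
  exact isFin_smul_iff A N hσ P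

/-- the flag of `(gal N σ)⁻¹ • P`. -/
theorem flag_inv_smul {σ : Qb ≃ₐ[ℚ] Qb} (hσ : σ ∈ A.decompositionSubgroup ℚ)
    (P : Place Qb (FL N)) : flag A N ((gal N σ)⁻¹ • P) = flag A N P := by
  have h := flag_smul A N hσ ((gal N σ)⁻¹ • P)
  rw [smul_inv_smul] at h
  exact h.symm

/-! ### Inertia -/

/-- **inertia does not change values**: `val (τ P) (τ x) = val P x`. -/
theorem val_inertia {τ : Qb ≃ₐ[ℚ] Qb} (hτ : τ ∈ A.inertiaSubgroupIn ℚ)
    (P : Place Qb (FL N)) (x : FL N) :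
    val A N (gal N τ • P) (gal N τ • x) = val A N P x := by
  obtain ⟨τd, hτd, rfl⟩ := hτ
  have h1 : MulSemiringAction.toRingAut (A.decompositionSubgroup ℚ)
      (IsLocalRing.ResidueField A) τd = 1 := hτd
  have h2 : τd • val A N P x = val A N P x := by
    have := congrArg (fun f => f (val A N P x)) h1
    simpa using this
  have h3 := val_smul_smul A N τd P x
  rw [h2] at h3
  exact h3

/-- `val (τ P) x = val P (τ⁻¹ x)` for `τ` in the inertia group. -/
theorem val_inertia' {τ : Qb ≃ₐ[ℚ] Qb} (hτ : τ ∈ A.inertiaSubgroupIn ℚ)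
    (P : Place Qb (FL N)) (x : FL N) :
    val A N (gal N τ • P) x = val A N P ((gal N τ)⁻¹ • x) := by
  have h := val_inertia A N hτ P ((gal N τ)⁻¹ • x)
  rwa [smul_inv_smul] at h

/-! ### Frobenius -/

/-- **a Frobenius element raises values to the `ℓ`-th power**:
`val (σ P) (σ x) = (val P x) ^ ℓ`. -/
theorem val_frob {σ : Qb ≃ₐ[ℚ] Qb} {ℓ : ℕ} (hσ : A.IsFrobeniusAt σ ℓ)
    (P : Place Qb (FL N)) (x : FL N) :
    val A N (gal N σ • P) (gal N σ • x) = (val A N P x) ^ ℓ := by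
  obtain ⟨hσd, hfrob⟩ := hσ
  have h := val_smul_smul A N ⟨σ, hσd⟩ P x
  rw [hfrob] at h
  exact h

/-- `val (σ P) x = (val P (σ⁻¹ x)) ^ ℓ` for a Frobenius element `σ`. -/
theorem val_frob' {σ : Qb ≃ₐ[ℚ] Qb} {ℓ : ℕ} (hσ : A.IsFrobeniusAt σ ℓ)
    (P : Place Qb (FL N)) (x : FL N) :
    val A N (gal N σ • P) x = (val A N P ((gal N σ)⁻¹ • x)) ^ ℓ := by
  have h := val_frob A N hσ P ((gal N σ)⁻¹ • x)
  rwa [smul_inv_smul] at h

/-- `val P (σ x) = (val (σ⁻¹ P) x) ^ ℓ` for a Frobenius element `σ`. -/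
theorem val_frob_inv {σ : Qb ≃ₐ[ℚ] Qb} {ℓ : ℕ} (hσ : A.IsFrobeniusAt σ ℓ)
    (P : Place Qb (FL N)) (x : FL N) :
    val A N P (gal N σ • x) = (val A N ((gal N σ)⁻¹ • P) x) ^ ℓ := by
  have h := val_frob A N hσ ((gal N σ)⁻¹ • P) x
  rwa [smul_inv_smul] at h

/-- a Frobenius element lies in the decomposition group. -/
theorem mem_decomp_of_isFrobeniusAt {σ : Qb ≃ₐ[ℚ] Qb} {ℓ : ℕ} (hσ : A.IsFrobeniusAt σ ℓ) :
    σ ∈ A.decompositionSubgroup ℚ :=
  hσ.mem_decompositionSubgroup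

/-! ### The block statement modulo the key fact (K) -/

/-- **(W3) modulo (K).**  If `τ x - x` has value `0` at every place of the chart of `x`
(for `τ` in the inertia group and `x` in a chart ring), then `r (τ P) = r P`. -/
theorem r_inertia_of_key
    (hK : ∀ τ ∈ A.inertiaSubgroupIn ℚ, ∀ (b : Bool) (x : FL N), x ∈ chart A N b →
      ∀ P : Place Qb (FL N), flag A N P = b → val A N P (gal N τ • x - x) = 0) :
    ∀ τ ∈ A.inertiaSubgroupIn ℚ, ∀ P : Place Qb (FL N), r A N (gal N τ • P) = r A N P := by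
  intro τ hτ P
  have hτd : τ ∈ A.decompositionSubgroup ℚ := mem_decomp_of_mem_inertia A hτ
  have hflag : flag A N (gal N τ • P) = flag A N P := flag_smul A N hτd P
  rw [r_eq_iff]
  refine ⟨hflag, fun x hx => ?_⟩
  rw [hflag] at hx
  rw [val_inertia' A N hτ P x]
  have hτinv : τ⁻¹ ∈ A.inertiaSubgroupIn ℚ := inv_mem hτ
  have h0 := hK τ⁻¹ hτinv _ x hx P rfl
  have hx1 : x ∈ Rint A N P := ChartAdapt.chart_le_Rint A N P hx
  have hx2 : gal N τ⁻¹ • x ∈ Rint A N P :=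
    ChartAdapt.chart_le_Rint A N P (smul_mem_chart A N (inv_mem hτd) _ hx)
  rw [val_sub A N P hx2 hx1, sub_eq_zero] at h0
  rw [← h0, gal_inv]

end Fermat.Agent.S37.GalVal
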