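import Mathlib
import Fermat.Agent.S18.Setup
import Fermat.Agent.S18.FieldDef
import Fermat.Agent.S18.FieldDefQ
import Fermat.Agent.S18.A0
import Fermat.Agent.S37.RedPlace

/-!
# S37, block (W2), leaf I3 (a) + (d): finite levels of the chart rings

`A` a valuation subring of `ℚ̄`, `D_b = RedPlace.chart A N b` the ring of functions on `X₀(N)`
over `ℚ̄` integral over `A[j]` (`b = true`) resp. `A[1/j]` (`b = false`).  For a subfield `K` of
`ℚ̄`, `A₀ = A ∩ K`, `M = K(j)` and `C_K(b)` = the integral closure of the chart ring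
`A₀[coordK K N b]` in `F_K = FK K N`:

* `ιL_mem_chart` : `ιL K N` maps `C_K(b)` into `D_b`;
* `exists_level` : every finite subset of `D_b` (and every finite set of constants) comes from
  `C_K(b)` for all sufficiently large finite `K`;
* `arch` : the valuation ring `A` has rank one (`c ∣ c' ^ n` for `c ≠ 0`, `c'` a non-unit);
  `harch` : the same in the shape used by `LaurentCIC`.
-/

set_option autoImplicit false
set_option linter.unusedSectionVars false

noncomputable section

open Polynomial IntermediateField ModularCurve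

namespace Fermat.Agent.S37.ChartLevel

open Fermat.Agent.S18 Fermat.Agent.S18.CoreDefs Fermat.Agent.S18.Setup
open Fermat.Agent.S18.S24Export

local notation "Qb" => AlgebraicClosure ℚ

section Level

variable (K : Type*) [Field K] [Algebra K Qb] (A : ValuationSubring Qb) (N : ℕ) [NeZero N]

/-- The chart coordinate at level `K`: `j` for `b = true`, `j⁻¹` for `b = false`. -/
def coordK (b : Bool) : Line K (jF K N) :=
  if b then Line.gen K (jF K N) else (Line.gen K (jF K N))⁻¹

theorem coordK_true : coordK K N true = Line.gen K (jF K N) := rfl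

theorem coordK_false : coordK K N false = (Line.gen K (jF K N))⁻¹ := rfl

/-- the image of the chart coordinate in `F_L` -/
theorem ιL_coordK (b : Bool) :
    ιL K N (algebraMap (Line K (jF K N)) (FK K N) (coordK K N b)) = RedPlace.coord N b := by
  cases b
  · rw [coordK_false, map_inv₀, algebraMap_gen, map_inv₀, ιL_jF]
    rfl
  · rw [coordK_true, algebraMap_gen, ιL_jF]
    rfl

/-- the image of a constant of `A₀` in `F_L` -/
theorem ιL_algebraMap_down (a : ↥(A0.down K A)) :
    ιL K N (algebraMap ↥(A0.down K A) (FK K N) a) =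
      algebraMap ↥A (FL N) (A0.incl K A a) := by
  rw [algebraMap_val_top, ιL_algebraMap]
  rfl

/-- the image of an element of the chart ring `A₀[coordK]` lies in `A[coord]`. -/
theorem ιL_chart_mem (b : Bool)
    (s : chart ↥(A0.down K A) (Line K (jF K N)) (coordK K N b)) :
    ιL K N (algebraMap (Line K (jF K N)) (FK K N) (s : Line K (jF K N))) ∈
      Algebra.adjoin ↥A ({RedPlace.coord N b} : Set (FL N)) := by
  obtain ⟨s, hs⟩ := s
  induction hs using Algebra.adjoin_induction with
  | mem x hx =>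
    rw [Set.mem_singleton_iff] at hx
    subst hx
    rw [ιL_coordK]
    exact Algebra.subset_adjoin rfl
  | algebraMap a =>
    have h1 : algebraMap (Line K (jF K N)) (FK K N)
        (algebraMap ↥(A0.down K A) (Line K (jF K N)) a) =
        algebraMap ↥(A0.down K A) (FK K N) a := by
      rw [← IsScalarTower.algebraMap_apply]
    show ιL K N (algebraMap (Line K (jF K N)) (FK K N)
        (algebraMap ↥(A0.down K A) (Line K (jF K N)) a)) ∈ _
    rw [h1, ιL_algebraMap_down]
    exact Subalgebra.algebraMap_mem _ _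
  | add x y _ _ hx hy =>
    show ιL K N (algebraMap (Line K (jF K N)) (FK K N) (x + y)) ∈ _
    rw [map_add, map_add]
    exact add_mem hx hy
  | mul x y _ _ hx hy =>
    show ιL K N (algebraMap (Line K (jF K N)) (FK K N) (x * y)) ∈ _
    rw [map_mul, map_mul]
    exact mul_mem hx hy

/-- The map of chart rings `A₀[coordK] → A[coord]` induced by `K ⊆ ℚ̄`. -/
def phiK (b : Bool) :
    chart ↥(A0.down K A) (Line K (jF K N)) (coordK K N b) →+*
      ↥(Algebra.adjoin ↥A ({RedPlace.coord N b} : Set (FL N))) :=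
  (((ιL K N).comp (algebraMap (Line K (jF K N)) (FK K N))).comp
    (chart ↥(A0.down K A) (Line K (jF K N)) (coordK K N b)).val.toRingHom).codRestrict
    (Algebra.adjoin ↥A ({RedPlace.coord N b} : Set (FL N))) (fun s => ιL_chart_mem K A N b s)

theorem coe_phiK (b : Bool) (s : chart ↥(A0.down K A) (Line K (jF K N)) (coordK K N b)) :
    ((phiK K A N b s : ↥(Algebra.adjoin ↥A ({RedPlace.coord N b} : Set (FL N)))) : FL N) =
      ιL K N (algebraMap (Line K (jF K N)) (FK K N) (s : Line K (jF K N))) := rfl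

theorem phiK_comm (b : Bool) :
    (algebraMap ↥(Algebra.adjoin ↥A ({RedPlace.coord N b} : Set (FL N))) (FL N)).comp
        (phiK K A N b) =
      (ιL K N).comp (algebraMap (chart ↥(A0.down K A) (Line K (jF K N)) (coordK K N b))
        (FK K N)) := by
  ext s
  rfl

/-- **(A1)** `ιL` maps the integral closure of the chart ring at level `K` into the chart ring
`D_b` over `A`. -/
theorem ιL_mem_chart (b : Bool) (c : FK K N)
    (hc : IsIntegral (chart ↥(A0.down K A) (Line K (jF K N)) (coordK K N b)) c) :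
    ιL K N c ∈ RedPlace.chart A N b := by
  rw [RedPlace.mem_chart_iff]
  exact IsIntegral.map_of_comp_eq (phiK K A N b) (ιL K N) (phiK_comm K A N b) hc

end Level

section Exists

variable (A : ValuationSubring Qb) (N : ℕ) [NeZero N]

theorem isIntegral_rat (a : Qb) : IsIntegral ℚ a := by
  have : Algebra.IsAlgebraic ℚ Qb := AlgebraicClosure.isAlgebraic ℚ
  exact Algebra.IsIntegral.isIntegral a

/-- every element of `A[coord]` comes from `A₀[coordK]` at all sufficiently large levels. -/
theorem exists_level_adjoin (b : Bool) (z : FL N)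
    (hz : z ∈ Algebra.adjoin ↥A ({RedPlace.coord N b} : Set (FL N))) :
    ∃ K1 : IntermediateField ℚ Qb, FiniteDimensional ℚ K1 ∧
      ∀ K : IntermediateField ℚ Qb, K1 ≤ K →
        ∃ s : chart ↥(A0.down K A) (Line K (jF K N)) (coordK K N b),
          ιL K N (algebraMap (Line K (jF K N)) (FK K N) (s : Line K (jF K N))) = z := by
  induction hz using Algebra.adjoin_induction with
  | mem x hx =>
    rw [Set.mem_singleton_iff] at hx
    subst hx
    exact ⟨⊥, inferInstance, fun K _ =>
      ⟨⟨coordK K N b, Algebra.subset_adjoin rfl⟩, ιL_coordK K N b⟩⟩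
  | algebraMap a =>
    have ha : IsIntegral ℚ (a : Qb) := isIntegral_rat _
    refine ⟨ℚ⟮(a : Qb)⟯, IntermediateField.adjoin.finiteDimensional ha, fun K hK => ?_⟩
    have haK : (a : Qb) ∈ K := hK (IntermediateField.mem_adjoin_simple_self ℚ _)
    have ha0 : (⟨(a : Qb), haK⟩ : ↥K) ∈ A0.down K A := a.2
    refine ⟨algebraMap ↥(A0.down K A) _ ⟨⟨(a : Qb), haK⟩, ha0⟩, ?_⟩
    have h1 : algebraMap (Line K (jF K N)) (FK K N)
        ((algebraMap ↥(A0.down K A) (chart ↥(A0.down K A) (Line K (jF K N)) (coordK K N b))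
          ⟨⟨(a : Qb), haK⟩, ha0⟩ : chart ↥(A0.down K A) (Line K (jF K N)) (coordK K N b)) :
            Line K (jF K N)) =
        algebraMap ↥(A0.down K A) (FK K N) ⟨⟨(a : Qb), haK⟩, ha0⟩ := by
      show algebraMap (Line K (jF K N)) (FK K N)
        (algebraMap ↥(A0.down K A) (Line K (jF K N)) ⟨⟨(a : Qb), haK⟩, ha0⟩) = _
      rw [← IsScalarTower.algebraMap_apply]
    rw [h1, ιL_algebraMap_down]
    rfl
  | add x y _ _ hx hy =>
    obtain ⟨K1, hK1, h1⟩ := hx
    obtain ⟨K2, hK2, h2⟩ := hy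
    refine ⟨K1 ⊔ K2, IntermediateField.finiteDimensional_sup K1 K2, fun K hK => ?_⟩
    obtain ⟨s1, hs1⟩ := h1 K (le_sup_left.trans hK)
    obtain ⟨s2, hs2⟩ := h2 K (le_sup_right.trans hK)
    refine ⟨s1 + s2, ?_⟩
    show ιL K N (algebraMap (Line K (jF K N)) (FK K N)
      ((s1 : Line K (jF K N)) + (s2 : Line K (jF K N)))) = _
    rw [map_add, map_add, hs1, hs2]
  | mul x y _ _ hx hy =>
    obtain ⟨K1, hK1, h1⟩ := hx
    obtain ⟨K2, hK2, h2⟩ := hy
    refine ⟨K1 ⊔ K2, IntermediateField.finiteDimensional_sup K1 K2, fun K hK => ?_⟩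
    obtain ⟨s1, hs1⟩ := h1 K (le_sup_left.trans hK)
    obtain ⟨s2, hs2⟩ := h2 K (le_sup_right.trans hK)
    refine ⟨s1 * s2, ?_⟩
    show ιL K N (algebraMap (Line K (jF K N)) (FK K N)
      ((s1 : Line K (jF K N)) * (s2 : Line K (jF K N)))) = _
    rw [map_mul, map_mul, hs1, hs2]

/-- finitely many elements of `A[coord]` come from `A₀[coordK]` at all large levels. -/
theorem exists_level_adjoin_finset (b : Bool) (T : Finset (FL N))
    (hT : ∀ z ∈ T, z ∈ Algebra.adjoin ↥A ({RedPlace.coord N b} : Set (FL N))) :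
    ∃ K1 : IntermediateField ℚ Qb, FiniteDimensional ℚ K1 ∧
      ∀ K : IntermediateField ℚ Qb, K1 ≤ K → ∀ z ∈ T,
        ∃ s : chart ↥(A0.down K A) (Line K (jF K N)) (coordK K N b),
          ιL K N (algebraMap (Line K (jF K N)) (FK K N) (s : Line K (jF K N))) = z := by
  classical
  induction T using Finset.induction_on with
  | empty => exact ⟨⊥, inferInstance, fun K _ z hz => absurd hz (Finset.notMem_empty z)⟩
  | insert z T _ ih =>
    obtain ⟨K1, hK1, h1⟩ := ih (fun w hw => hT w (Finset.mem_insert_of_mem hw))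
    obtain ⟨K2, hK2, h2⟩ := exists_level_adjoin A N b z (hT z (Finset.mem_insert_self z T))
    refine ⟨K1 ⊔ K2, IntermediateField.finiteDimensional_sup K1 K2, fun K hK w hw => ?_⟩
    rcases Finset.mem_insert.mp hw with rfl | hw
    · exact h2 K (le_sup_right.trans hK)
    · exact h1 K (le_sup_left.trans hK) w hw

/-- every element of the chart ring `D_b` comes from the integral closure of the chart ring at
all sufficiently large finite levels. -/
theorem exists_level_one (b : Bool) (x : FL N) (hx : x ∈ RedPlace.chart A N b) :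
    ∃ K0 : IntermediateField ℚ Qb, FiniteDimensional ℚ K0 ∧
      ∀ K : IntermediateField ℚ Qb, K0 ≤ K →
        ∃ c : FK K N, IsIntegral (chart ↥(A0.down K A) (Line K (jF K N)) (coordK K N b)) c ∧
          ιL K N c = x := by
  classical
  have : Algebra.IsAlgebraic ℚ Qb := AlgebraicClosure.isAlgebraic ℚ
  obtain ⟨p, hp, hpx⟩ := hx
  have hxL : (x : LaurentSeries Qb) ∈ modularFunctionFieldFullC Qb N := by
    rw [← FieldDefQ.FL_eq]
    exact x.2
  obtain ⟨Kx, hKx, hdef⟩ := FieldDef.exists_finite_subfield hxL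
  obtain ⟨K1, hK1, hcoef⟩ := exists_level_adjoin_finset A N b
    (Finset.image (fun i => ((p.coeff i : ↥(Algebra.adjoin ↥A ({RedPlace.coord N b} :
      Set (FL N)))) : FL N)) (Finset.range (p.natDegree + 1)))
    (by
      intro z hz
      obtain ⟨i, -, rfl⟩ := Finset.mem_image.mp hz
      exact (p.coeff i).2)
  refine ⟨Kx ⊔ K1, IntermediateField.finiteDimensional_sup Kx K1, fun K hK => ?_⟩
  obtain ⟨x0, hx0, hx0x⟩ := hdef.mono (le_sup_left.trans hK)
  have hc : ιL K N ((FK.mk x0 hx0 : FK K N)) = x := by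
    apply Subtype.ext
    rw [coe_ιL, FK.val_mk]
    exact hx0x
  have hlift : p ∈ Polynomial.lifts (phiK K A N b) := by
    rw [Polynomial.lifts_iff_coeff_lifts]
    intro i
    by_cases hi : i ≤ p.natDegree
    · obtain ⟨s, hs⟩ := hcoef K (le_sup_right.trans hK) _
        (Finset.mem_image.mpr ⟨i, Finset.mem_range.mpr (by omega), rfl⟩)
      exact ⟨s, Subtype.ext hs⟩
    · rw [Polynomial.coeff_eq_zero_of_natDegree_lt (not_le.mp hi)]
      exact ⟨0, map_zero _⟩
  obtain ⟨q, hq, -, hqm⟩ := Polynomial.lifts_and_natDegree_eq_and_monic hlift hp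
  refine ⟨(FK.mk x0 hx0 : FK K N), ⟨q, hqm, ?_⟩, hc⟩
  apply ιL_injective K N
  rw [map_zero, Polynomial.hom_eval₂, ← phiK_comm, ← Polynomial.eval₂_map, hq, hc]
  exact hpx

/-- **(A2)** Finitely many elements of the chart ring `D_b` and finitely many constants come
from one finite level, and from every larger one. -/
theorem exists_level (b : Bool) (S : Finset (FL N)) (hS : ∀ x ∈ S, x ∈ RedPlace.chart A N b)
    (T : Finset Qb) :
    ∃ K0 : IntermediateField ℚ Qb, FiniteDimensional ℚ K0 ∧ (∀ a ∈ T, a ∈ K0) ∧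
      ∀ (K : IntermediateField ℚ Qb) [FiniteDimensional ℚ K], K0 ≤ K → ∀ x ∈ S,
        ∃ c : FK K N, IsIntegral (chart ↥(A0.down K A) (Line K (jF K N)) (coordK K N b)) c ∧
          ιL K N c = x := by
  classical
  have hTfin : FiniteDimensional ℚ ↥(IntermediateField.adjoin ℚ (T : Set Qb)) :=
    IntermediateField.finiteDimensional_adjoin (fun a _ => isIntegral_rat a)
  have key : ∃ K1 : IntermediateField ℚ Qb, FiniteDimensional ℚ K1 ∧
      ∀ K : IntermediateField ℚ Qb, K1 ≤ K → ∀ x ∈ S,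
        ∃ c : FK K N, IsIntegral (chart ↥(A0.down K A) (Line K (jF K N)) (coordK K N b)) c ∧
          ιL K N c = x := by
    induction S using Finset.induction_on with
    | empty => exact ⟨⊥, inferInstance, fun K _ z hz => absurd hz (Finset.notMem_empty z)⟩
    | insert z S _ ih =>
      obtain ⟨K1, hK1, h1⟩ := ih (fun w hw => hS w (Finset.mem_insert_of_mem hw))
      obtain ⟨K2, hK2, h2⟩ := exists_level_one A N b z (hS z (Finset.mem_insert_self z S))
      refine ⟨K1 ⊔ K2, IntermediateField.finiteDimensional_sup K1 K2, fun K hK w hw => ?_⟩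
      rcases Finset.mem_insert.mp hw with rfl | hw
      · exact h2 K (le_sup_right.trans hK)
      · exact h1 K (le_sup_left.trans hK) w hw
  obtain ⟨K1, hK1, h1⟩ := key
  refine ⟨IntermediateField.adjoin ℚ (T : Set Qb) ⊔ K1,
    IntermediateField.finiteDimensional_sup _ K1, fun a ha => ?_, fun K _ hK x hx => ?_⟩
  · exact (le_sup_left : IntermediateField.adjoin ℚ (T : Set Qb) ≤ _)
      (IntermediateField.subset_adjoin ℚ _ ha)
  · exact h1 K (le_sup_right.trans hK) x hx

end Exists

section Arch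

variable (A : ValuationSubring Qb)

/-- **(A3)** The valuation ring `A` has rank one: every nonzero element divides a power of
every non-unit. -/
theorem arch {ℓ : ℕ} (hℓ : ℓ.Prime) (hA : A.LiesOverPrime ℓ) :
    ∀ c c' : ↥A, c ≠ 0 → c' ∈ IsLocalRing.maximalIdeal ↥A → ∃ n : ℕ, c ∣ c' ^ n := by
  intro c c' hc hc'
  obtain ⟨K, hKdef⟩ : ∃ K : IntermediateField ℚ Qb,
      K = IntermediateField.adjoin ℚ ({(c : Qb), (c' : Qb)} : Set Qb) := ⟨_, rfl⟩
  have hfin : FiniteDimensional ℚ ↥K := by
    rw [hKdef]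
    exact IntermediateField.finiteDimensional_adjoin (fun a _ => isIntegral_rat a)
  have hcK : (c : Qb) ∈ K := by
    rw [hKdef]
    exact IntermediateField.subset_adjoin ℚ _ (Set.mem_insert _ _)
  have hc'K : (c' : Qb) ∈ K := by
    rw [hKdef]
    exact IntermediateField.subset_adjoin ℚ _ (Set.mem_insert_of_mem _ rfl)
  obtain ⟨hdvr, π, hirr, hπ0, hmax, harch, -, -⟩ := Setup.exists_unif K A hℓ hA
  have hc0m : (⟨(c : Qb), hcK⟩ : ↥K) ∈ A0.down K A := c.2
  have hc0m' : (⟨(c' : Qb), hc'K⟩ : ↥K) ∈ A0.down K A := c'.2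
  have e0 : A0.incl K A ⟨⟨(c : Qb), hcK⟩, hc0m⟩ = c := Subtype.ext rfl
  have e0' : A0.incl K A ⟨⟨(c' : Qb), hc'K⟩, hc0m'⟩ = c' := Subtype.ext rfl
  have hc0 : (⟨⟨(c : Qb), hcK⟩, hc0m⟩ : ↥(A0.down K A)) ≠ 0 := by
    intro h
    apply hc
    rw [← e0, h, map_zero]
  have hc0' : (⟨⟨(c' : Qb), hc'K⟩, hc0m'⟩ : ↥(A0.down K A)) ∈
      IsLocalRing.maximalIdeal ↥(A0.down K A) := by
    rw [← A0.incl_mem_maximalIdeal_iff, e0']
    exact hc'
  obtain ⟨n, hn⟩ := harch _ hc0
  rw [hmax, Ideal.mem_span_singleton] at hc0'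
  refine ⟨n, ?_⟩
  have h2 := map_dvd (A0.incl K A) (hn.trans (pow_dvd_pow_of_dvd hc0' n))
  rwa [map_pow, e0, e0'] at h2

/-- the maximal ideal of `A` is not zero. -/
theorem maximalIdeal_ne_bot {ℓ : ℕ} (hℓ : ℓ.Prime) (hA : A.LiesOverPrime ℓ) :
    IsLocalRing.maximalIdeal ↥A ≠ ⊥ := by
  intro h
  have h1 : ((ℓ : ℕ) : Qb) ∈ A.nonunits := hA
  obtain ⟨hm, h2⟩ := ValuationSubring.mem_nonunits_iff_exists_mem_maximalIdeal.mp h1
  rw [h, Ideal.mem_bot] at h2
  have h3 : ((ℓ : ℕ) : Qb) = 0 := congrArg Subtype.val h2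
  exact hℓ.ne_zero (by exact_mod_cast h3)

/-- The rank one property of `A` in the shape used by `LaurentCIC`. -/
theorem harch {ℓ : ℕ} (hℓ : ℓ.Prime) (hA : A.LiesOverPrime ℓ) :
    ∀ x : Qb, x ∉ A → ∀ e : Qb, e ≠ 0 → ∃ n : ℕ, e * x ^ n ∉ A := by
  intro x hx e he
  have hx0 : x ≠ 0 := by
    rintro rfl
    exact hx A.zero_mem
  have hxi : x⁻¹ ∈ A := (A.mem_or_inv_mem x).resolve_left hx
  by_cases heA : e ∈ A
  · have hxm : (⟨x⁻¹, hxi⟩ : ↥A) ∈ IsLocalRing.maximalIdeal ↥A := by
      rw [← ValuationSubring.coe_mem_nonunits_iff, ValuationSubring.mem_nonunits_iff_or]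
      right
      show (x⁻¹)⁻¹ ∉ A
      rw [inv_inv]
      exact hx
    obtain ⟨n, d, hd⟩ := arch A hℓ hA ⟨e, heA⟩ ⟨x⁻¹, hxi⟩
      (fun h => he (congrArg Subtype.val h)) hxm
    by_cases h1 : e * x ^ n ∈ A
    · refine ⟨n + 1, fun h2 => hx ?_⟩
      have h3 : (x⁻¹) ^ n = e * (d : Qb) := congrArg Subtype.val hd
      have h5 : e * (d : Qb) * x ^ n = 1 := by
        rw [← h3, ← mul_pow, inv_mul_cancel₀ hx0, one_pow]
      have h4 : x = (e * x ^ (n + 1)) * (d : Qb) := by
        calc x = (e * (d : Qb) * x ^ n) * x := by rw [h5, one_mul]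
          _ = (e * x ^ (n + 1)) * (d : Qb) := by ring
      rw [h4]
      exact A.mul_mem _ _ h2 d.2
    · exact ⟨n, h1⟩
  · exact ⟨0, by simpa using heA⟩

end Arch

end Fermat.Agent.S37.ChartLevel
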