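import Mathlib
import Fermat.Agent.S18.GaussA0

/-!
# S37: Laurent series over a valuation ring are integrally closed in their fraction field

Let `B` be a valuation subring of a field `K` whose value group is archimedean, in the form

`harch : ∀ x ∉ B, ∀ e ≠ 0, ∃ n, e * x ^ n ∉ B`

(true for discrete valuation rings and for every valuation subring of `ℚ̄`).  Then the ring
`B((q))` is integrally closed in its fraction field inside `K((q))`:

* `mem_range_of_forall_mul_pow_mem` : if `d ≠ 0` and `d * c ^ n` has coefficients in `B` for all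
  `n` (`c` is *almost integral* over `B((q))`), then `c` has coefficients in `B`;
* `exists_incl_eq_of_isIntegral` : if `c ∈ K((q))` is integral over `B((q))` and `c * b = a` with
  `a, b ∈ B((q))`, `b ≠ 0`, then `c ∈ B((q))`.

The proof is the classical argument that `D[[X]]` is completely integrally closed when `D` is
(leading coefficients); no Weierstrass preparation and no completeness are needed.  Note that
`B((q))` is *not* integrally closed in `K((q))`, so the fraction field hypothesis is needed.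
-/

set_option autoImplicit false

open Polynomial

namespace Fermat.Agent.S37.LaurentCIC

open Fermat.Agent.S18

variable {K : Type*} [Field K] (B : ValuationSubring K)

/-- the leading coefficient of `d * x ^ n` -/
theorem leadingCoeff_mul_pow (d x : LaurentSeries K) (n : ℕ) :
    (d * x ^ n).leadingCoeff = d.leadingCoeff * x.leadingCoeff ^ n := by
  induction n with
  | zero => simp
  | succ n ih =>
    rw [pow_succ, ← mul_assoc, HahnSeries.leadingCoeff_mul, ih, pow_succ, mul_assoc]

/-- the leading coefficient of a series with coefficients in `B` lies in `B` -/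
theorem leadingCoeff_mem_of_mem_range {x : LaurentSeries K} (hx : x ∈ (GaussA0.incl B).range) :
    x.leadingCoeff ∈ B := by
  rw [HahnSeries.leadingCoeff_eq]
  exact (GaussA0.mem_range_incl_iff B x).mp hx _

/-- **`B((q))` is completely integrally closed** (inside `K((q))`): an element `c` of `K((q))`
with `d * c ^ n ∈ B((q))` for all `n` and some `d ≠ 0` lies in `B((q))`. -/
theorem mem_range_of_forall_mul_pow_mem
    (harch : ∀ x : K, x ∉ B → ∀ e : K, e ≠ 0 → ∃ n : ℕ, e * x ^ n ∉ B)
    (c d : LaurentSeries K) (hd : d ≠ 0) (h : ∀ n : ℕ, d * c ^ n ∈ (GaussA0.incl B).range) :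
    c ∈ (GaussA0.incl B).range := by
  classical
  rw [GaussA0.mem_range_incl_iff]
  by_contra hcon
  push Not at hcon
  have hsub : {m : ℤ | c.coeff m ∉ B} ⊆ c.support := by
    intro m hm
    rw [HahnSeries.mem_support]
    intro h0
    exact hm (by rw [h0]; exact B.zero_mem)
  have hwf : {m : ℤ | c.coeff m ∉ B}.IsWF := c.isWF_support.mono hsub
  have hne : {m : ℤ | c.coeff m ∉ B}.Nonempty := hcon
  have hm0 : c.coeff (hwf.min hne) ∉ B := hwf.min_mem hne
  have hlt : ∀ i : ℤ, i < hwf.min hne → c.coeff i ∈ B := by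
    intro i hi
    by_contra hi'
    exact absurd (hwf.min_le hne hi') (not_le.mpr hi)
  generalize hwf.min hne = m0 at hm0 hlt
  have hc0 : HahnSeries.truncLT m0 c ∈ (GaussA0.incl B).range := by
    rw [GaussA0.mem_range_incl_iff]
    intro n
    by_cases hn : n < m0
    · rw [HahnSeries.coeff_truncLT_of_lt hn]
      exact hlt n hn
    · rw [HahnSeries.coeff_truncLT_of_le (not_lt.mp hn)]
      exact B.zero_mem
  have hc'n : ∀ n : ℕ, d * (c - HahnSeries.truncLT m0 c) ^ n ∈ (GaussA0.incl B).range := by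
    intro n
    rw [sub_eq_add_neg, add_pow, Finset.mul_sum]
    refine Subring.sum_mem _ (fun k _ => ?_)
    have e1 : d * (c ^ k * (-HahnSeries.truncLT m0 c) ^ (n - k) * (n.choose k : LaurentSeries K))
        = (d * c ^ k) * ((-HahnSeries.truncLT m0 c) ^ (n - k) * (n.choose k : LaurentSeries K)) := by
      ring
    rw [e1]
    exact Subring.mul_mem _ (h k) (Subring.mul_mem _
      (Subring.pow_mem _ (Subring.neg_mem _ hc0) _) (natCast_mem _ _))
  -- the leading coefficient of `c - truncLT m0 c` is `c.coeff m0`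
  have hcoeff_lt : ∀ i : ℤ, i < m0 → (c - HahnSeries.truncLT m0 c).coeff i = 0 := by
    intro i hi
    rw [HahnSeries.coeff_sub, HahnSeries.coeff_truncLT_of_lt hi, sub_self]
  have hcoeff_m0 : (c - HahnSeries.truncLT m0 c).coeff m0 = c.coeff m0 := by
    rw [HahnSeries.coeff_sub, HahnSeries.coeff_truncLT_of_le le_rfl, sub_zero]
  have hcm0 : c.coeff m0 ≠ 0 := by
    intro h0
    exact hm0 (by rw [h0]; exact B.zero_mem)
  have hc'0 : c - HahnSeries.truncLT m0 c ≠ 0 := by
    intro h0
    rw [h0, HahnSeries.coeff_zero] at hcoeff_m0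
    exact hcm0 hcoeff_m0.symm
  have hord : (c - HahnSeries.truncLT m0 c).order = m0 := by
    refine le_antisymm (HahnSeries.order_le_of_coeff_ne_zero (by rw [hcoeff_m0]; exact hcm0)) ?_
    by_contra hlt'
    exact hc'0 (HahnSeries.coeff_order_eq_zero.mp (hcoeff_lt _ (not_le.mp hlt')))
  have hlc : (c - HahnSeries.truncLT m0 c).leadingCoeff = c.coeff m0 := by
    rw [HahnSeries.leadingCoeff_eq, hord, hcoeff_m0]
  obtain ⟨n, hn⟩ := harch (c.coeff m0) hm0 d.leadingCoeff (HahnSeries.leadingCoeff_ne_zero.mpr hd)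
  apply hn
  have := leadingCoeff_mem_of_mem_range B (hc'n n)
  rwa [leadingCoeff_mul_pow, hlc] at this

/-- **`B((q))` is integrally closed in its fraction field**: an element `c` of `K((q))` which is
integral over `B((q))` and is a quotient `a / b` of two series over `B` has coefficients in `B`. -/
theorem mem_range_of_isIntegralElem
    (harch : ∀ x : K, x ∉ B → ∀ e : K, e ≠ 0 → ∃ n : ℕ, e * x ^ n ∉ B)
    (c : LaurentSeries K) (a b : LaurentSeries ↥B) (hb : b ≠ 0)
    (hc : c * GaussA0.incl B b = GaussA0.incl B a)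
    (hint : (GaussA0.incl B).IsIntegralElem c) : c ∈ (GaussA0.incl B).range := by
  obtain ⟨p, hp, hpc⟩ := hint
  -- `c ^ N = - ∑ i < N, p_i c ^ i`
  have hrec : c ^ p.natDegree =
      -∑ i ∈ Finset.range p.natDegree, GaussA0.incl B (p.coeff i) * c ^ i := by
    rw [Polynomial.eval₂_eq_sum_range, Finset.sum_range_succ, hp.coeff_natDegree, map_one,
      one_mul] at hpc
    exact eq_neg_of_add_eq_zero_right hpc
  -- `b ^ N * c ^ k ∈ B((q))` for `k ≤ N`
  have hsmall : ∀ k : ℕ, k ≤ p.natDegree →
      GaussA0.incl B b ^ p.natDegree * c ^ k ∈ (GaussA0.incl B).range := by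
    intro k hk
    have e1 : GaussA0.incl B b ^ p.natDegree * c ^ k =
        GaussA0.incl B b ^ (p.natDegree - k) * (c * GaussA0.incl B b) ^ k := by
      rw [mul_pow, mul_comm (c ^ k), ← mul_assoc, ← pow_add, Nat.sub_add_cancel hk]
    rw [e1, hc, ← map_pow, ← map_pow, ← map_mul]
    exact ⟨_, rfl⟩
  have hall : ∀ k : ℕ, GaussA0.incl B b ^ p.natDegree * c ^ k ∈ (GaussA0.incl B).range := by
    intro k
    induction k using Nat.strong_induction_on with
    | _ k ih =>
      by_cases hk : k ≤ p.natDegree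
      · exact hsmall k hk
      · have hk' : p.natDegree ≤ k := le_of_not_ge hk
        have e1 : GaussA0.incl B b ^ p.natDegree * c ^ k =
            -∑ i ∈ Finset.range p.natDegree, GaussA0.incl B (p.coeff i) *
              (GaussA0.incl B b ^ p.natDegree * c ^ (k - p.natDegree + i)) := by
          have e2 : c ^ k = c ^ (k - p.natDegree) * c ^ p.natDegree := by
            rw [← pow_add, Nat.sub_add_cancel hk']
          rw [e2, hrec, mul_neg, mul_neg, Finset.mul_sum, Finset.mul_sum]
          congr 1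
          refine Finset.sum_congr rfl (fun i _ => ?_)
          rw [pow_add]
          ring
        rw [e1]
        refine Subring.neg_mem _ (Subring.sum_mem _ (fun i hi => ?_))
        refine Subring.mul_mem _ ⟨_, rfl⟩ (ih _ ?_)
        have := Finset.mem_range.mp hi
        omega
  exact mem_range_of_forall_mul_pow_mem B harch c (GaussA0.incl B b ^ p.natDegree)
    (pow_ne_zero _ (GaussA0.incl_ne_zero B hb)) hall

/-- the same, as the existence of a series over `B` -/
theorem exists_incl_eq_of_isIntegral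
    (harch : ∀ x : K, x ∉ B → ∀ e : K, e ≠ 0 → ∃ n : ℕ, e * x ^ n ∉ B)
    (c : LaurentSeries K) (a b : LaurentSeries ↥B) (hb : b ≠ 0)
    (hc : c * GaussA0.incl B b = GaussA0.incl B a)
    (hint : (GaussA0.incl B).IsIntegralElem c) : ∃ y : LaurentSeries ↥B, GaussA0.incl B y = c :=
  mem_range_of_isIntegralElem B harch c a b hb hc hint

/-- The archimedean hypothesis for a valuation subring with a uniformizer `π` dividing every
non-unit and such that no nonzero element is divisible by all powers of `π` (a discrete valuation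
ring). -/
theorem harch_of_krull (π : ↥B) (hdvd : ∀ w : ↥B, ¬ IsUnit w → π ∣ w)
    (hkrull : ∀ c : ↥B, c ≠ 0 → ∃ n : ℕ, ¬ π ^ n ∣ c) :
    ∀ x : K, x ∉ B → ∀ e : K, e ≠ 0 → ∃ n : ℕ, e * x ^ n ∉ B := by
  intro x hx e he
  have hx0 : x ≠ 0 := by
    rintro rfl
    exact hx B.zero_mem
  have hxi : x⁻¹ ∈ B := (B.mem_or_inv_mem x).resolve_left hx
  by_contra hcon
  push Not at hcon
  have he' : e ∈ B := by simpa using hcon 0
  have hwu : ¬ IsUnit (⟨x⁻¹, hxi⟩ : ↥B) := by
    intro hu
    obtain ⟨u, hu⟩ := hu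
    apply hx
    have h1 : ((u⁻¹ : (↥B)ˣ) : ↥B) * (⟨x⁻¹, hxi⟩ : ↥B) = 1 := by
      rw [← hu, Units.inv_mul]
    have h2 : (((u⁻¹ : (↥B)ˣ) : ↥B) : K) * x⁻¹ = 1 := congrArg Subtype.val h1
    have h3 : (((u⁻¹ : (↥B)ˣ) : ↥B) : K) = x := by
      field_simp at h2
      exact h2
    rw [← h3]
    exact ((u⁻¹ : (↥B)ˣ) : ↥B).2
  obtain ⟨w', hw'⟩ := hdvd _ hwu
  have he0 : (⟨e, he'⟩ : ↥B) ≠ 0 := fun h => he (congrArg Subtype.val h)
  obtain ⟨n, hn⟩ := hkrull _ he0
  apply hn
  refine ⟨⟨e * x ^ n, hcon n⟩ * w' ^ n, ?_⟩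
  have h4 : (⟨x⁻¹, hxi⟩ : ↥B) ^ n = π ^ n * w' ^ n := by rw [hw', mul_pow]
  have h5 : (⟨e, he'⟩ : ↥B) = ⟨e * x ^ n, hcon n⟩ * (⟨x⁻¹, hxi⟩ : ↥B) ^ n := by
    apply Subtype.ext
    show e = e * x ^ n * (x⁻¹) ^ n
    rw [mul_assoc, ← mul_pow, mul_inv_cancel₀ hx0, one_pow, mul_one]
  rw [h5, h4]
  ring

end Fermat.Agent.S37.LaurentCIC
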