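import Mathlib
import Fermat.Agent.S18.Setup
import Fermat.Agent.S18.H2Inst
import Fermat.Agent.S18.H2InstAux
import Fermat.Agent.S18.H2Top
import Fermat.Agent.S18.GaussDeg
import Fermat.Agent.S18.GaussSwap
import Fermat.Agent.S18.IntTrick
import Fermat.Agent.S18.LineGen
import Fermat.Agent.S18.AdjoinChart
import Fermat.Agent.S18.FieldDefQ
import Fermat.Agent.S37.NormalJ

/-!
# S37 (W2): the reduction dictionary `C / π C = D_k` on one chart

`C` is the integral closure of a chart ring `A[u]` (`u = j` or `u = j⁻¹`) in the modular function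
field `F_K = K(j(q^d) : d ∣ N)`, `A` a discrete valuation subring of `K` with residue field `k`.
The Gauss reduction `redO` restricts to a ring homomorphism `redC : C →+* F_k`, with kernel
`π C`, whose values are integral over `k[ū]`, and which is onto the integral closure of `k[ū]`
in `F_k` as soon as the special fibre is normal (hypothesis `hNorm`, the contract of the
machine `(N)`).
-/

set_option autoImplicit false
set_option linter.unusedSectionVars false
set_option linter.unusedVariables false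

open ModularCurve Polynomial

namespace Fermat.Agent.S37.RedC

open Fermat.Agent.S18.CoreDefs Fermat.Agent.S18.GaussA0 Fermat.Agent.S18

namespace Gen

variable {K : Type*} [Field K] (A : ValuationSubring K) {k : Type*} [Field k] (φ : ↥A →+* k)
  (N : ℕ) {π : ↥A} (hφ : ∀ x, φ x = 0 ↔ π ∣ x) (hπ0 : π ≠ 0)
  (hkrull : ∀ c : ↥A, c ≠ 0 → ∃ n : ℕ, ¬ π ^ n ∣ c)

variable (M : Type*) [Field M] [Algebra K M] [Algebra M ↥(modularFunctionFieldFullC K N)]
  [IsScalarTower K M ↥(modularFunctionFieldFullC K N)]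
  [Algebra ↥A M] [Algebra ↥A ↥(modularFunctionFieldFullC K N)]
  [IsScalarTower ↥A M ↥(modularFunctionFieldFullC K N)]
  (hAF : ∀ a : ↥A, algebraMap ↥A ↥(modularFunctionFieldFullC K N) a =
    algebraMap K ↥(modularFunctionFieldFullC K N) (a : K))
  (u : M) (hπ' : Prime (unif ↥A M u π))
  (hG : ∀ z : ↥(modularFunctionFieldFullC K N),
    InGauss ↥A M ↥(modularFunctionFieldFullC K N) u π z ↔ z ∈ Ov A φ N hφ hπ0 hkrull)
  (hPG : ∀ z : ↥(modularFunctionFieldFullC K N),
    InPiGauss ↥A M ↥(modularFunctionFieldFullC K N) u π z ↔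
      ∃ hm : z ∈ Ov A φ N hφ hπ0 hkrull, redO A φ N hφ hπ0 hkrull ⟨z, hm⟩ = 0)
  (hfull : ∀ x : ↥(Ov A φ N hφ hπ0 hkrull),
    redO A φ N hφ hπ0 hkrull x ∈ modularFunctionFieldFullC k N)

include hπ' hG in
/-- integral elements over the chart lie in the Gauss ring. -/
theorem mem_Ov_of_isIntegral {c : ↥(modularFunctionFieldFullC K N)}
    (hc : IsIntegral (chart ↥A M u) c) : c ∈ Ov A φ N hφ hπ0 hkrull := by
  refine (hG c).mp ⟨1, fun h => hπ'.not_isUnit (isUnit_of_dvd_one h), ?_⟩
  rwa [one_smul]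

/-- The inclusion of the integral closure of the chart into the Gauss ring. -/
noncomputable def toOv :
    ↥(integralClosure (chart ↥A M u) ↥(modularFunctionFieldFullC K N)) →+*
      ↥(Ov A φ N hφ hπ0 hkrull) where
  toFun c := ⟨c.1, mem_Ov_of_isIntegral A φ N hφ hπ0 hkrull M u hπ' hG c.2⟩
  map_one' := rfl
  map_mul' _ _ := rfl
  map_zero' := rfl
  map_add' _ _ := rfl

theorem coe_toOv (c : ↥(integralClosure (chart ↥A M u) ↥(modularFunctionFieldFullC K N))) :
    ((toOv A φ N hφ hπ0 hkrull M u hπ' hG c : ↥(Ov A φ N hφ hπ0 hkrull)) :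
      ↥(modularFunctionFieldFullC K N)) = (c : ↥(modularFunctionFieldFullC K N)) := rfl

/-- **The reduction of the integral closure of the chart**, with values in the function field
in characteristic `ℓ`. -/
noncomputable def redC :
    ↥(integralClosure (chart ↥A M u) ↥(modularFunctionFieldFullC K N)) →+*
      ↥(modularFunctionFieldFullC k N) :=
  ((redO A φ N hφ hπ0 hkrull).comp (toOv A φ N hφ hπ0 hkrull M u hπ' hG)).codRestrict
    (modularFunctionFieldFullC k N) (fun _ => hfull _)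

theorem coe_redC (c : ↥(integralClosure (chart ↥A M u) ↥(modularFunctionFieldFullC K N))) :
    ((redC A φ N hφ hπ0 hkrull M u hπ' hG hfull c : ↥(modularFunctionFieldFullC k N)) :
      LaurentSeries k) =
      redO A φ N hφ hπ0 hkrull (toOv A φ N hφ hπ0 hkrull M u hπ' hG c) := rfl

/-- the computation rule: `redC c * rho b = rho a` when `c * b = a` on `q`-expansions. -/
theorem redC_mul_rho (c : ↥(integralClosure (chart ↥A M u) ↥(modularFunctionFieldFullC K N)))
    (a b : LaurentSeries ↥A) (hb : rho φ b ≠ 0)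
    (h : (((c : ↥(modularFunctionFieldFullC K N)) : LaurentSeries K)) * incl A b = incl A a) :
    ((redC A φ N hφ hπ0 hkrull M u hπ' hG hfull c : ↥(modularFunctionFieldFullC k N)) :
      LaurentSeries k) * rho φ b = rho φ a :=
  redO_mul_rho A φ N hφ hπ0 hkrull (toOv A φ N hφ hπ0 hkrull M u hπ' hG c) hb h

/-- `redC` of an element whose `q`-expansion has coefficients in `A` is the coefficientwise
reduction. -/
theorem redC_of_incl (c : ↥(integralClosure (chart ↥A M u) ↥(modularFunctionFieldFullC K N)))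
    (a : LaurentSeries ↥A)
    (h : (((c : ↥(modularFunctionFieldFullC K N)) : LaurentSeries K)) = incl A a) :
    ((redC A φ N hφ hπ0 hkrull M u hπ' hG hfull c : ↥(modularFunctionFieldFullC k N)) :
      LaurentSeries k) = rho φ a :=
  redO_of_incl A φ N hφ hπ0 hkrull (toOv A φ N hφ hπ0 hkrull M u hπ' hG c) a h

include hAF in
/-- `redC` on the constants is the residue map. -/
theorem redC_algebraMap (a : ↥A) :
    redC A φ N hφ hπ0 hkrull M u hπ' hG hfull
        (algebraMap (chart ↥A M u)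
          ↥(integralClosure (chart ↥A M u) ↥(modularFunctionFieldFullC K N))
          (algebraMap ↥A (chart ↥A M u) a)) =
      algebraMap k ↥(modularFunctionFieldFullC k N) (φ a) := by
  apply Subtype.ext
  rw [coe_redC]
  have h1 : toOv A φ N hφ hπ0 hkrull M u hπ' hG
      (algebraMap (chart ↥A M u)
          ↥(integralClosure (chart ↥A M u) ↥(modularFunctionFieldFullC K N))
          (algebraMap ↥A (chart ↥A M u) a)) =
      constOv A φ N hφ hπ0 hkrull a := by
    apply Subtype.ext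
    rw [coe_toOv, coe_constOv, ← hAF]
    exact (IsScalarTower.algebraMap_apply ↥A M ↥(modularFunctionFieldFullC K N) a).symm
  rw [h1, redO_constOv, ← algebraMap_eq_C]
  rfl

/-! ### The chart and its reduction -/

/-- every element of the chart is a polynomial in the coordinate. -/
theorem exists_aeval_coord (r : chart ↥A M u) :
    ∃ P : Polynomial ↥A, Polynomial.aeval (coord ↥A M u) P = r := by
  have h : (r : M) ∈ (Polynomial.aeval u : Polynomial ↥A →ₐ[↥A] M).range := by
    rw [← Algebra.adjoin_singleton_eq_range_aeval]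
    exact r.2
  obtain ⟨P, hP⟩ := h
  exact ⟨P, Subtype.ext ((Subalgebra.aeval_coe _ (coord ↥A M u) P).symm.trans hP)⟩

/-- The coordinate of the chart, as an element of the integral closure. -/
noncomputable def uC : ↥(integralClosure (chart ↥A M u) ↥(modularFunctionFieldFullC K N)) :=
  algebraMap (chart ↥A M u) _ (coord ↥A M u)

/-- The reduction of the coordinate. -/
noncomputable def ubar : ↥(modularFunctionFieldFullC k N) :=
  redC A φ N hφ hπ0 hkrull M u hπ' hG hfull (uC A N M u)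

include hAF in
/-- `redC` on the chart: polynomials in the coordinate reduce coefficientwise. -/
theorem redC_aeval (P : Polynomial ↥A) :
    redC A φ N hφ hπ0 hkrull M u hπ' hG hfull
      (algebraMap (chart ↥A M u) _ (Polynomial.aeval (coord ↥A M u) P)) =
      Polynomial.aeval (ubar A φ N hφ hπ0 hkrull M u hπ' hG hfull) (P.map φ) := by
  have h : ((redC A φ N hφ hπ0 hkrull M u hπ' hG hfull).comp
      (algebraMap (chart ↥A M u)
        ↥(integralClosure (chart ↥A M u) ↥(modularFunctionFieldFullC K N)))).comp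
      (Polynomial.aeval (coord ↥A M u) : Polynomial ↥A →ₐ[↥A] (chart ↥A M u)).toRingHom =
      ((Polynomial.aeval (ubar A φ N hφ hπ0 hkrull M u hπ' hG hfull) :
        Polynomial k →ₐ[k] ↥(modularFunctionFieldFullC k N)).toRingHom).comp
        (Polynomial.mapRingHom φ) := by
    apply Polynomial.ringHom_ext
    · intro a
      simp only [RingHom.comp_apply, AlgHom.toRingHom_eq_coe, RingHom.coe_coe,
        Polynomial.aeval_C, Polynomial.coe_mapRingHom, Polynomial.map_C]
      exact redC_algebraMap A φ N hφ hπ0 hkrull M hAF u hπ' hG hfull a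
    · simp only [RingHom.comp_apply, AlgHom.toRingHom_eq_coe, RingHom.coe_coe,
        Polynomial.aeval_X, Polynomial.coe_mapRingHom, Polynomial.map_X]
      rfl
  exact congrArg (fun f => f P) h

include hAF in
/-- the reduction of a chart element lies in `k[ū]`. -/
theorem redC_chart_mem (r : chart ↥A M u) :
    redC A φ N hφ hπ0 hkrull M u hπ' hG hfull (algebraMap (chart ↥A M u) _ r) ∈
      Algebra.adjoin k {ubar A φ N hφ hπ0 hkrull M u hπ' hG hfull} := by
  obtain ⟨P, rfl⟩ := exists_aeval_coord A M u r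
  rw [redC_aeval A φ N hφ hπ0 hkrull M hAF u hπ' hG hfull P]
  exact Polynomial.aeval_mem_adjoin_singleton _ _

/-- The reduction of the chart `A[u] → k[ū]`. -/
noncomputable def redR :
    chart ↥A M u →+* ↥(Algebra.adjoin k {ubar A φ N hφ hπ0 hkrull M u hπ' hG hfull}) :=
  ((redC A φ N hφ hπ0 hkrull M u hπ' hG hfull).comp
    (algebraMap (chart ↥A M u)
      ↥(integralClosure (chart ↥A M u) ↥(modularFunctionFieldFullC K N)))).codRestrict
    (Algebra.adjoin k {ubar A φ N hφ hπ0 hkrull M u hπ' hG hfull})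
    (redC_chart_mem A φ N hφ hπ0 hkrull M hAF u hπ' hG hfull)

theorem algebraMap_redR (r : chart ↥A M u) :
    algebraMap ↥(Algebra.adjoin k {ubar A φ N hφ hπ0 hkrull M u hπ' hG hfull})
        ↥(modularFunctionFieldFullC k N)
        (redR A φ N hφ hπ0 hkrull M hAF u hπ' hG hfull r) =
      redC A φ N hφ hπ0 hkrull M u hπ' hG hfull (algebraMap (chart ↥A M u) _ r) := rfl

include hAF in
/-- **(R4)** the reduction of an integral element is integral over `k[ū]`. -/
theorem isIntegral_redC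
    (c : ↥(integralClosure (chart ↥A M u) ↥(modularFunctionFieldFullC K N))) :
    IsIntegral ↥(Algebra.adjoin k {ubar A φ N hφ hπ0 hkrull M u hπ' hG hfull})
      (redC A φ N hφ hπ0 hkrull M u hπ' hG hfull c) :=
  IsIntegral.map_of_comp_eq (redR A φ N hφ hπ0 hkrull M hAF u hπ' hG hfull)
    (redC A φ N hφ hπ0 hkrull M u hπ' hG hfull) (RingHom.ext fun _ => rfl)
    (integralClosure.isIntegral c)

/-! ### The kernel -/

include hAF hφ in
/-- `redC (π c) = 0`. -/
theorem redC_unif_mul (c : ↥(integralClosure (chart ↥A M u) ↥(modularFunctionFieldFullC K N))) :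
    redC A φ N hφ hπ0 hkrull M u hπ' hG hfull
      (algebraMap (chart ↥A M u) _ (unif ↥A M u π) * c) = 0 := by
  rw [map_mul]
  have h := redC_algebraMap A φ N hφ hπ0 hkrull M hAF u hπ' hG hfull π
  rw [(hφ π).mpr dvd_rfl, map_zero] at h
  have h' : redC A φ N hφ hπ0 hkrull M u hπ' hG hfull
      (algebraMap (chart ↥A M u) _ (unif ↥A M u π)) = 0 := h
  rw [h', zero_mul]

include hAF hφ in
/-- **(R5)** the kernel of `redC` is `π C`. -/
theorem redC_eq_zero_iff [IsIntegrallyClosed (chart ↥A M u)] [IsFractionRing (chart ↥A M u) M]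
    (c : ↥(integralClosure (chart ↥A M u) ↥(modularFunctionFieldFullC K N))) :
    redC A φ N hφ hπ0 hkrull M u hπ' hG hfull c = 0 ↔
      ∃ c' : ↥(integralClosure (chart ↥A M u) ↥(modularFunctionFieldFullC K N)),
        c = algebraMap (chart ↥A M u) _ (unif ↥A M u π) * c' := by
  constructor
  · intro h0
    have h1 : redO A φ N hφ hπ0 hkrull (toOv A φ N hφ hπ0 hkrull M u hπ' hG c) = 0 :=
      congrArg Subtype.val h0
    obtain ⟨z, hz⟩ := (redO_eq_zero_iff_dvd A φ N hφ hπ0 hkrull _).mp h1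
    have hcz : (c : ↥(modularFunctionFieldFullC K N)) =
        unif ↥A M u π • (z : ↥(modularFunctionFieldFullC K N)) := by
      have h2 := congrArg (Subtype.val : ↥(Ov A φ N hφ hπ0 hkrull) → _) hz
      rw [coe_toOv] at h2
      rw [h2, Algebra.smul_def]
      change _ = algebraMap M ↥(modularFunctionFieldFullC K N) (algebraMap ↥A M π) * _
      rw [← IsScalarTower.algebraMap_apply, hAF]
      rfl
    obtain ⟨s, hs, hsz⟩ := (hG (z : ↥(modularFunctionFieldFullC K N))).mpr z.2
    have hc : IsIntegral (chart ↥A M u)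
        (unif ↥A M u π • (z : ↥(modularFunctionFieldFullC K N))) := by
      rw [← hcz]
      exact c.2
    have hzi : IsIntegral (chart ↥A M u) (z : ↥(modularFunctionFieldFullC K N)) :=
      IntTrick.isIntegral_of_smul_of_smul (M := M) (unif ↥A M u π) s hπ' hs _ hc hsz
    refine ⟨⟨z, hzi⟩, Subtype.ext ?_⟩
    rw [hcz, Algebra.smul_def]
    rfl
  · rintro ⟨c', rfl⟩
    exact redC_unif_mul A φ N hφ hπ0 hkrull M hAF u hπ' hG hfull c'

/-! ### Surjectivity onto the integral closure of `k[ū]` (normal special fibre) -/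

include hAF in
/-- the reduction of the chart is onto `k[ū]`. -/
theorem redR_surjective (hφs : Function.Surjective φ) :
    Function.Surjective (redR A φ N hφ hπ0 hkrull M hAF u hπ' hG hfull) := by
  intro s
  have h : (s : ↥(modularFunctionFieldFullC k N)) ∈
      (Polynomial.aeval (ubar A φ N hφ hπ0 hkrull M u hπ' hG hfull) :
        Polynomial k →ₐ[k] ↥(modularFunctionFieldFullC k N)).range := by
    rw [← Algebra.adjoin_singleton_eq_range_aeval]
    exact s.2
  obtain ⟨g, hg⟩ := h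
  obtain ⟨G, rfl⟩ := Polynomial.map_surjective φ hφs g
  refine ⟨Polynomial.aeval (coord ↥A M u) G, Subtype.ext ?_⟩
  exact (redC_aeval A φ N hφ hπ0 hkrull M hAF u hπ' hG hfull G).trans hg

include hAF hPG in
/-- **(R6)** if the special fibre is normal (hypothesis `hNorm`, the contract of the machine
`(N)`), `redC` is onto the integral closure of `k[ū]` in `F_k`. -/
theorem exists_redC_eq (hφs : Function.Surjective φ)
    (hsurj : ∀ y : ↥(modularFunctionFieldFullC k N),
      ∃ x : ↥(Ov A φ N hφ hπ0 hkrull), redO A φ N hφ hπ0 hkrull x = (y : LaurentSeries k))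
    (hNorm : ∀ x : ↥(modularFunctionFieldFullC K N),
      InGauss ↥A M ↥(modularFunctionFieldFullC K N) u π x →
      (∃ p : Polynomial (chart ↥A M u), p.Monic ∧
        InPiGauss ↥A M ↥(modularFunctionFieldFullC K N) u π (Polynomial.aeval x p)) →
      ∃ c : ↥(modularFunctionFieldFullC K N), IsIntegral (chart ↥A M u) c ∧
        InPiGauss ↥A M ↥(modularFunctionFieldFullC K N) u π (x - c))
    (y : ↥(modularFunctionFieldFullC k N))
    (hy : IsIntegral ↥(Algebra.adjoin k {ubar A φ N hφ hπ0 hkrull M u hπ' hG hfull}) y) :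
    ∃ c : ↥(integralClosure (chart ↥A M u) ↥(modularFunctionFieldFullC K N)),
      redC A φ N hφ hπ0 hkrull M u hπ' hG hfull c = y := by
  obtain ⟨q, hq, hqy⟩ := hy
  obtain ⟨p, hpq, -, hp⟩ := Polynomial.lifts_and_natDegree_eq_and_monic
    ((Polynomial.mem_lifts q).mpr (Polynomial.map_surjective _
      (redR_surjective A φ N hφ hπ0 hkrull M hAF u hπ' hG hfull hφs) q)) hq
  obtain ⟨x, hx⟩ := hsurj y
  -- the value of `p` at `x`, inside the Gauss ring
  have hw : (Polynomial.aeval (x : ↥(modularFunctionFieldFullC K N)) p) =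
      ((Polynomial.eval₂ ((toOv A φ N hφ hπ0 hkrull M u hπ' hG).comp
        (algebraMap (chart ↥A M u)
          ↥(integralClosure (chart ↥A M u) ↥(modularFunctionFieldFullC K N)))) x p :
        ↥(Ov A φ N hφ hπ0 hkrull)) : ↥(modularFunctionFieldFullC K N)) := by
    have h1 := Polynomial.hom_eval₂ p ((toOv A φ N hφ hπ0 hkrull M u hπ' hG).comp
        (algebraMap (chart ↥A M u)
          ↥(integralClosure (chart ↥A M u) ↥(modularFunctionFieldFullC K N))))
      (Ov A φ N hφ hπ0 hkrull).subtype x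
    exact h1.symm
  have hred : redO A φ N hφ hπ0 hkrull
      (Polynomial.eval₂ ((toOv A φ N hφ hπ0 hkrull M u hπ' hG).comp
        (algebraMap (chart ↥A M u)
          ↥(integralClosure (chart ↥A M u) ↥(modularFunctionFieldFullC K N)))) x p) = 0 := by
    rw [Polynomial.hom_eval₂, hx]
    have h2 : (redO A φ N hφ hπ0 hkrull).comp
        ((toOv A φ N hφ hπ0 hkrull M u hπ' hG).comp
          (algebraMap (chart ↥A M u)
            ↥(integralClosure (chart ↥A M u) ↥(modularFunctionFieldFullC K N)))) =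
        ((modularFunctionFieldFullC k N).subtype.comp
          (algebraMap ↥(Algebra.adjoin k {ubar A φ N hφ hπ0 hkrull M u hπ' hG hfull})
            ↥(modularFunctionFieldFullC k N))).comp
          (redR A φ N hφ hπ0 hkrull M hAF u hπ' hG hfull) := RingHom.ext fun _ => rfl
    rw [h2, ← Polynomial.eval₂_map, hpq]
    have h3 := Polynomial.hom_eval₂ q
      (algebraMap ↥(Algebra.adjoin k {ubar A φ N hφ hπ0 hkrull M u hπ' hG hfull})
        ↥(modularFunctionFieldFullC k N)) (modularFunctionFieldFullC k N).subtype y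
    rw [hqy, map_zero] at h3
    exact h3.symm
  have hPi : InPiGauss ↥A M ↥(modularFunctionFieldFullC K N) u π
      (Polynomial.aeval (x : ↥(modularFunctionFieldFullC K N)) p) := by
    rw [hPG, hw]
    exact ⟨Subtype.coe_prop _, hred⟩
  obtain ⟨c, hc, hxc⟩ := hNorm x ((hG x).mpr x.2) ⟨p, hp, hPi⟩
  obtain ⟨hm, h0⟩ := (hPG _).mp hxc
  refine ⟨⟨c, hc⟩, Subtype.ext ?_⟩
  rw [coe_redC, ← hx]
  have h4 : (⟨(x : ↥(modularFunctionFieldFullC K N)) - c, hm⟩ : ↥(Ov A φ N hφ hπ0 hkrull)) =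
      x - toOv A φ N hφ hπ0 hkrull M u hπ' hG ⟨c, hc⟩ := Subtype.ext rfl
  rw [h4, map_sub, sub_eq_zero] at h0
  exact h0.symm

include hPG in
/-- two elements of `C` have the same reduction iff their difference lies in `π O''`. -/
theorem redC_eq_iff_inPiGauss
    (c c' : ↥(integralClosure (chart ↥A M u) ↥(modularFunctionFieldFullC K N))) :
    redC A φ N hφ hπ0 hkrull M u hπ' hG hfull c = redC A φ N hφ hπ0 hkrull M u hπ' hG hfull c' ↔
      InPiGauss ↥A M ↥(modularFunctionFieldFullC K N) u π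
        ((c : ↥(modularFunctionFieldFullC K N)) - (c' : ↥(modularFunctionFieldFullC K N))) := by
  rw [hPG]
  have h4 : ∀ hm, (⟨(c : ↥(modularFunctionFieldFullC K N)) -
      (c' : ↥(modularFunctionFieldFullC K N)), hm⟩ : ↥(Ov A φ N hφ hπ0 hkrull)) =
      toOv A φ N hφ hπ0 hkrull M u hπ' hG c - toOv A φ N hφ hπ0 hkrull M u hπ' hG c' :=
    fun hm => Subtype.ext rfl
  constructor
  · intro h
    have hm : (c : ↥(modularFunctionFieldFullC K N)) - (c' : ↥(modularFunctionFieldFullC K N)) ∈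
        Ov A φ N hφ hπ0 hkrull :=
      (toOv A φ N hφ hπ0 hkrull M u hπ' hG c - toOv A φ N hφ hπ0 hkrull M u hπ' hG c').2
    refine ⟨hm, ?_⟩
    rw [h4 hm, map_sub, sub_eq_zero]
    exact congrArg Subtype.val h
  · rintro ⟨hm, h0⟩
    rw [h4 hm, map_sub, sub_eq_zero] at h0
    exact Subtype.ext h0

end Gen


/-! ## The sealed carriers of `S18.Setup`: the two charts of the `j`-line -/

section Sealed

open Fermat.Agent.S18.Setup

local notation "Qb" => AlgebraicClosure ℚ

variable (K : Type*) [Field K] [Algebra K Qb] [Algebra ℚ K] [FiniteDimensional ℚ K]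
  (N : ℕ) [NeZero N] (A : ValuationSubring Qb)

/-- the `k₀`-algebra structure of `F_{k₀}`, named (instance synthesis is very slow on the residue
field); it is the instance found by synthesis, `SubalgebraClass.toAlgebra`. -/
noncomputable local instance instAlgebraFk :
    Algebra (IsLocalRing.ResidueField ↥(A0.down K A))
      ↥(modularFunctionFieldFullC (IsLocalRing.ResidueField ↥(A0.down K A)) N) :=
  SubalgebraClass.toAlgebra (modularFunctionFieldFullC (IsLocalRing.ResidueField ↥(A0.down K A)) N)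

/-- The two coordinates of the `j`-line: `j` (finite chart) and `1/j` (chart at infinity). -/
def IsCoord (u : Line K (jF K N)) : Prop :=
  u = Line.gen K (jF K N) ∨ u = (Line.gen K (jF K N))⁻¹

theorem isCoord_gen : IsCoord K N (Line.gen K (jF K N)) := Or.inl rfl

theorem isCoord_inv : IsCoord K N (Line.gen K (jF K N))⁻¹ := Or.inr rfl

theorem hyp1 {ℓ : ℕ} (hℓ : ℓ.Prime) (hℓN : ¬ ℓ ∣ N) (hA : A.LiesOverPrime ℓ)
    (π : ↥(A0.down K A)) (hπ : Irreducible π)
    (hmax : IsLocalRing.maximalIdeal ↥(A0.down K A) = Ideal.span {π}) : ∀ x : ↥(A0.down K A), IsLocalRing.residue ↥(A0.down K A) x = 0 ↔ π ∣ x :=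
  (H2Top.gauss_hyps K N A hℓ hℓN hA π hπ hmax).1

theorem hyp2 {ℓ : ℕ} (hℓ : ℓ.Prime) (hℓN : ¬ ℓ ∣ N) (hA : A.LiesOverPrime ℓ)
    (π : ↥(A0.down K A)) (hπ : Irreducible π)
    (hmax : IsLocalRing.maximalIdeal ↥(A0.down K A) = Ideal.span {π}) : π ≠ 0 :=
  (H2Top.gauss_hyps K N A hℓ hℓN hA π hπ hmax).2.1

theorem hyp3 {ℓ : ℕ} (hℓ : ℓ.Prime) (hℓN : ¬ ℓ ∣ N) (hA : A.LiesOverPrime ℓ)
    (π : ↥(A0.down K A)) (hπ : Irreducible π)
    (hmax : IsLocalRing.maximalIdeal ↥(A0.down K A) = Ideal.span {π}) : ∀ c : ↥(A0.down K A), c ≠ 0 → ∃ n : ℕ, ¬ π ^ n ∣ c :=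
  (H2Top.gauss_hyps K N A hℓ hℓN hA π hπ hmax).2.2.1

/-- the coordinate is transcendental over `A₀`. -/
theorem transcendental_coord (u : Line K (jF K N)) (hu : IsCoord K N u) :
    Transcendental ↥(A0.down K A) u := by
  have ht : Transcendental ↥(A0.down K A) (Line.gen K (jF K N)) :=
    Line.transcendental_gen_val (jF K N) (A0.down K A) (transcendental_jF K N)
  rcases hu with rfl | rfl
  · exact ht
  · exact IntConst.transcendental_inv _ ht

/-- the line is the fraction field of the chart. -/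
theorem hgen_coord (u : Line K (jF K N)) (hu : IsCoord K N u) :
    ∀ m : Line K (jF K N), ∃ a b : chart ↥(A0.down K A) (Line K (jF K N)) u,
      b ≠ 0 ∧ m * (b : Line K (jF K N)) = (a : Line K (jF K N)) := by
  have ht : Transcendental ↥(A0.down K A) (Line.gen K (jF K N)) :=
    Line.transcendental_gen_val (jF K N) (A0.down K A) (transcendental_jF K N)
  have hgen := LineGen.hgen_of_adjoin_eq_top (A0 := ↥(A0.down K A)) (K0 := K)
    (Line.gen K (jF K N)) (Line.adjoin_gen K (jF K N))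
  rcases hu with rfl | rfl
  · exact hgen
  · refine ChartGlue.hgen_inv _ ?_ hgen
    rintro h0
    exact ht ⟨Polynomial.X, Polynomial.X_ne_zero, by rw [h0]; simp⟩

/-- `π` is a prime element of the chart. -/
theorem prime_unif {ℓ : ℕ} (hℓ : ℓ.Prime) (hℓN : ¬ ℓ ∣ N) (hA : A.LiesOverPrime ℓ)
    (π : ↥(A0.down K A)) (hπ : Irreducible π)
    (hmax : IsLocalRing.maximalIdeal ↥(A0.down K A) = Ideal.span {π})
    (u : Line K (jF K N)) (hu : IsCoord K N u) :
    Prime (unif ↥(A0.down K A) (Line K (jF K N)) u π) := by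
  have hB : (A0.down K A).LiesOverPrime ℓ := (A0.liesOverPrime_down_iff A).mpr hA
  have hdvr : IsDiscreteValuationRing ↥(A0.down K A) := A0.isDiscreteValuationRing _ hℓ hB
  exact AdjoinChart.prime_unif (Line K (jF K N)) u (transcendental_coord K N A u hu) π hπ

/-- the dictionary between `InGauss` / `InPiGauss` on the chart and the Gauss ring `Ov` of
`q`-expansions, and the reduction takes values in `F_k`. -/
theorem gauss_dict {ℓ : ℕ} (hℓ : ℓ.Prime) (hℓN : ¬ ℓ ∣ N) (hA : A.LiesOverPrime ℓ)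
    (π : ↥(A0.down K A)) (hπ : Irreducible π)
    (hmax : IsLocalRing.maximalIdeal ↥(A0.down K A) = Ideal.span {π})
    (u : Line K (jF K N)) (hu : IsCoord K N u) :
    (∀ z : FK K N, InGauss ↥(A0.down K A) (Line K (jF K N)) (FK K N) u π z ↔
      z ∈ GaussA0.Ov (A0.down K A) (IsLocalRing.residue ↥(A0.down K A)) N (hyp1 K N A hℓ hℓN hA π hπ hmax)
        (hyp2 K N A hℓ hℓN hA π hπ hmax) (hyp3 K N A hℓ hℓN hA π hπ hmax)) ∧
    (∀ z : FK K N, InPiGauss ↥(A0.down K A) (Line K (jF K N)) (FK K N) u π z ↔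
      ∃ hm : z ∈ GaussA0.Ov (A0.down K A) (IsLocalRing.residue ↥(A0.down K A)) N (hyp1 K N A hℓ hℓN hA π hπ hmax)
        (hyp2 K N A hℓ hℓN hA π hπ hmax) (hyp3 K N A hℓ hℓN hA π hπ hmax),
        GaussA0.redO (A0.down K A) (IsLocalRing.residue ↥(A0.down K A)) N (hyp1 K N A hℓ hℓN hA π hπ hmax)
        (hyp2 K N A hℓ hℓN hA π hπ hmax) (hyp3 K N A hℓ hℓN hA π hπ hmax) ⟨z, hm⟩ = 0) ∧
    (∀ x : ↥(GaussA0.Ov (A0.down K A) (IsLocalRing.residue ↥(A0.down K A)) N (hyp1 K N A hℓ hℓN hA π hπ hmax)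
        (hyp2 K N A hℓ hℓN hA π hπ hmax) (hyp3 K N A hℓ hℓN hA π hπ hmax)),
      GaussA0.redO (A0.down K A) (IsLocalRing.residue ↥(A0.down K A)) N (hyp1 K N A hℓ hℓN hA π hπ hmax)
        (hyp2 K N A hℓ hℓN hA π hπ hmax) (hyp3 K N A hℓ hℓN hA π hπ hmax) x ∈
        modularFunctionFieldFullC (IsLocalRing.ResidueField ↥(A0.down K A)) N) := by
  obtain ⟨hφ, hπ0, hkrull, hfin, hNk⟩ := H2Top.gauss_hyps K N A hℓ hℓN hA π hπ hmax
  have hB : (A0.down K A).LiesOverPrime ℓ := (A0.liesOverPrime_down_iff A).mpr hA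
  have hdvr : IsDiscreteValuationRing ↥(A0.down K A) := A0.isDiscreteValuationRing _ hℓ hB
  have ht : Transcendental ↥(A0.down K A) (Line.gen K (jF K N)) :=
    Line.transcendental_gen_val (jF K N) (A0.down K A) (transcendental_jF K N)
  have hπ' := AdjoinChart.prime_unif (Line K (jF K N)) (Line.gen K (jF K N)) ht π hπ
  have hN : 0 < N := Nat.pos_of_ne_zero (NeZero.ne N)
  have hden := @H2InstAux.hden K _ (A0.down K A) _ _ (IsLocalRing.residue ↥(A0.down K A)) N π
    hφ hπ0 hkrull (Line K (jF K N)) (instFieldLine K (jF K N)) (instAlgebraLine K (jF K N))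
    (instAlgebraLineTop K (jF K N)) (instIsScalarTowerLine K (jF K N))
    (inferInstance : Algebra ↥(A0.down K A) (Line K (jF K N)))
    (inferInstance : Algebra ↥(A0.down K A) (FK K N))
    (inferInstance : IsScalarTower ↥(A0.down K A) (Line K (jF K N)) (FK K N))
    (fun _ => rfl) (Line.gen K (jF K N)) rfl ht (algebraMap_line_mem K (jF K N))
  have hG := @H2Inst.inGauss_iff_mono K _ (A0.down K A) _ _
    (IsLocalRing.residue ↥(A0.down K A)) N π
    hφ hπ0 hkrull IsLocalRing.residue_surjective (Line K (jF K N)) (instFieldLine K (jF K N))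
    (instAlgebraLine K (jF K N)) (instAlgebraLineTop K (jF K N))
    (instIsScalarTowerLine K (jF K N))
    (inferInstance : Algebra ↥(A0.down K A) (Line K (jF K N)))
    (inferInstance : Algebra ↥(A0.down K A) (FK K N))
    (inferInstance : IsScalarTower ↥(A0.down K A) (Line K (jF K N)) (FK K N))
    (fun _ => rfl) (Line.gen K (jF K N)) rfl hπ' hden hN hNk
    (instFiniteDimensionalLineFK K N) (finrank_line_le K N)
  have hPG := @H2Inst.inPiGauss_iff_mono K _ (A0.down K A) _ _
    (IsLocalRing.residue ↥(A0.down K A)) N π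
    hφ hπ0 hkrull IsLocalRing.residue_surjective (Line K (jF K N)) (instFieldLine K (jF K N))
    (instAlgebraLine K (jF K N)) (instAlgebraLineTop K (jF K N))
    (instIsScalarTowerLine K (jF K N))
    (inferInstance : Algebra ↥(A0.down K A) (Line K (jF K N)))
    (inferInstance : Algebra ↥(A0.down K A) (FK K N))
    (inferInstance : IsScalarTower ↥(A0.down K A) (Line K (jF K N)) (FK K N))
    (fun _ => rfl) (Line.gen K (jF K N)) rfl hπ' hden hN hNk
    (instFiniteDimensionalLineFK K N) (finrank_line_le K N)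
  refine ⟨?_, ?_, ?_⟩
  · intro z
    rcases hu with rfl | rfl
    · exact hG z
    · exact (GaussSwap.inGauss_inv_iff (Line K (jF K N)) (Line.gen K (jF K N)) π hπ ht z).trans
        (hG z)
  · intro z
    rcases hu with rfl | rfl
    · exact hPG z
    · exact (GaussSwap.inPiGauss_inv_iff (Line K (jF K N)) (Line.gen K (jF K N)) π hπ ht z).trans
        (hPG z)
  · intro x
    obtain ⟨m, hm, hmono⟩ := GaussDeg.exists_monomials (IsLocalRing.ResidueField ↥(A0.down K A)) N hN hNk
    have hfd := (FieldDefQ.finrank_le_psi K N).1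
    exact GaussDeg.redv_mem_full hφ hπ0 hkrull hN m hm hmono (FieldDefQ.finrank_le_psi K N).2 x

/-- **(R1) The reduction of the integral closure `C` of the chart `A₀[u]`** (`u = j` or `1/j`) in
`F_K`, with values in the function field `F_{k₀}` over the residue field. -/
noncomputable def redC {ℓ : ℕ} (hℓ : ℓ.Prime) (hℓN : ¬ ℓ ∣ N) (hA : A.LiesOverPrime ℓ)
    (π : ↥(A0.down K A)) (hπ : Irreducible π)
    (hmax : IsLocalRing.maximalIdeal ↥(A0.down K A) = Ideal.span {π})
    (u : Line K (jF K N)) (hu : IsCoord K N u) :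
    ↥(integralClosure ↥(chart ↥(A0.down K A) (Line K (jF K N)) u) (FK K N)) →+*
      ↥(modularFunctionFieldFullC (IsLocalRing.ResidueField ↥(A0.down K A)) N) :=
  @Gen.redC K _ (A0.down K A) _ _ (IsLocalRing.residue ↥(A0.down K A)) N π
    (hyp1 K N A hℓ hℓN hA π hπ hmax) (hyp2 K N A hℓ hℓN hA π hπ hmax) (hyp3 K N A hℓ hℓN hA π hπ hmax)
    (Line K (jF K N)) (instFieldLine K (jF K N)) (instAlgebraLine K (jF K N))
    (instAlgebraLineTop K (jF K N)) (instIsScalarTowerLine K (jF K N))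
    (inferInstance : Algebra ↥(A0.down K A) (Line K (jF K N)))
    (inferInstance : Algebra ↥(A0.down K A) (FK K N))
    (inferInstance : IsScalarTower ↥(A0.down K A) (Line K (jF K N)) (FK K N)) u
    (prime_unif K N A hℓ hℓN hA π hπ hmax u hu) (gauss_dict K N A hℓ hℓN hA π hπ hmax u hu).1
    (gauss_dict K N A hℓ hℓN hA π hπ hmax u hu).2.2

/-- **(R2)** the computation rule: if `c · b = a` on `q`-expansions, with `a`, `b` series over
`A₀` and `b̄ ≠ 0`, then `redC c · b̄ = ā`. -/
theorem redC_mul {ℓ : ℕ} (hℓ : ℓ.Prime) (hℓN : ¬ ℓ ∣ N) (hA : A.LiesOverPrime ℓ)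
    (π : ↥(A0.down K A)) (hπ : Irreducible π)
    (hmax : IsLocalRing.maximalIdeal ↥(A0.down K A) = Ideal.span {π})
    (u : Line K (jF K N)) (hu : IsCoord K N u)
    (c : ↥(integralClosure ↥(chart ↥(A0.down K A) (Line K (jF K N)) u) (FK K N)))
    (a b : LaurentSeries ↥(A0.down K A))
    (hb : coeffMap (IsLocalRing.residue ↥(A0.down K A)) b ≠ 0)
    (h : FK.val K N (c : FK K N) * coeffMap (A0.down K A).subtype b =
      coeffMap (A0.down K A).subtype a) :
    ((redC K N A hℓ hℓN hA π hπ hmax u hu c : ↥(modularFunctionFieldFullC (IsLocalRing.ResidueField ↥(A0.down K A)) N)) :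
      LaurentSeries (IsLocalRing.ResidueField ↥(A0.down K A))) * coeffMap (IsLocalRing.residue ↥(A0.down K A)) b =
      coeffMap (IsLocalRing.residue ↥(A0.down K A)) a :=
  @Gen.redC_mul_rho K _ (A0.down K A) _ _ (IsLocalRing.residue ↥(A0.down K A)) N π
    (hyp1 K N A hℓ hℓN hA π hπ hmax) (hyp2 K N A hℓ hℓN hA π hπ hmax) (hyp3 K N A hℓ hℓN hA π hπ hmax)
    (Line K (jF K N)) (instFieldLine K (jF K N)) (instAlgebraLine K (jF K N))
    (instAlgebraLineTop K (jF K N)) (instIsScalarTowerLine K (jF K N))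
    (inferInstance : Algebra ↥(A0.down K A) (Line K (jF K N)))
    (inferInstance : Algebra ↥(A0.down K A) (FK K N))
    (inferInstance : IsScalarTower ↥(A0.down K A) (Line K (jF K N)) (FK K N)) u
    (prime_unif K N A hℓ hℓN hA π hπ hmax u hu) (gauss_dict K N A hℓ hℓN hA π hπ hmax u hu).1
    (gauss_dict K N A hℓ hℓN hA π hπ hmax u hu).2.2 c a b hb h

/-- **(R2)**, integral `q`-expansion: `redC` is the coefficientwise reduction. -/
theorem redC_of_coeffMap {ℓ : ℕ} (hℓ : ℓ.Prime) (hℓN : ¬ ℓ ∣ N) (hA : A.LiesOverPrime ℓ)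
    (π : ↥(A0.down K A)) (hπ : Irreducible π)
    (hmax : IsLocalRing.maximalIdeal ↥(A0.down K A) = Ideal.span {π})
    (u : Line K (jF K N)) (hu : IsCoord K N u)
    (c : ↥(integralClosure ↥(chart ↥(A0.down K A) (Line K (jF K N)) u) (FK K N)))
    (a : LaurentSeries ↥(A0.down K A))
    (h : FK.val K N (c : FK K N) = coeffMap (A0.down K A).subtype a) :
    ((redC K N A hℓ hℓN hA π hπ hmax u hu c : ↥(modularFunctionFieldFullC (IsLocalRing.ResidueField ↥(A0.down K A)) N)) :
      LaurentSeries (IsLocalRing.ResidueField ↥(A0.down K A))) = coeffMap (IsLocalRing.residue ↥(A0.down K A)) a :=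
  @Gen.redC_of_incl K _ (A0.down K A) _ _ (IsLocalRing.residue ↥(A0.down K A)) N π
    (hyp1 K N A hℓ hℓN hA π hπ hmax) (hyp2 K N A hℓ hℓN hA π hπ hmax) (hyp3 K N A hℓ hℓN hA π hπ hmax)
    (Line K (jF K N)) (instFieldLine K (jF K N)) (instAlgebraLine K (jF K N))
    (instAlgebraLineTop K (jF K N)) (instIsScalarTowerLine K (jF K N))
    (inferInstance : Algebra ↥(A0.down K A) (Line K (jF K N)))
    (inferInstance : Algebra ↥(A0.down K A) (FK K N))
    (inferInstance : IsScalarTower ↥(A0.down K A) (Line K (jF K N)) (FK K N)) u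
    (prime_unif K N A hℓ hℓN hA π hπ hmax u hu) (gauss_dict K N A hℓ hℓN hA π hπ hmax u hu).1
    (gauss_dict K N A hℓ hℓN hA π hπ hmax u hu).2.2 c a h

/-- every element of `C` is a quotient of two series over `A₀` with nonzero reduction of the
denominator (so that `redC_mul` applies). -/
theorem exists_coeffMap_mul_eq {ℓ : ℕ} (hℓ : ℓ.Prime) (hℓN : ¬ ℓ ∣ N) (hA : A.LiesOverPrime ℓ)
    (π : ↥(A0.down K A)) (hπ : Irreducible π)
    (hmax : IsLocalRing.maximalIdeal ↥(A0.down K A) = Ideal.span {π})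
    (u : Line K (jF K N)) (hu : IsCoord K N u)
    (c : ↥(integralClosure ↥(chart ↥(A0.down K A) (Line K (jF K N)) u) (FK K N))) :
    ∃ a b : LaurentSeries ↥(A0.down K A), coeffMap (IsLocalRing.residue ↥(A0.down K A)) b ≠ 0 ∧
      FK.val K N (c : FK K N) * coeffMap (A0.down K A).subtype b =
        coeffMap (A0.down K A).subtype a :=
  (@Gen.toOv K _ (A0.down K A) _ _ (IsLocalRing.residue ↥(A0.down K A)) N π
    (hyp1 K N A hℓ hℓN hA π hπ hmax) (hyp2 K N A hℓ hℓN hA π hπ hmax) (hyp3 K N A hℓ hℓN hA π hπ hmax)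
    (Line K (jF K N)) (instFieldLine K (jF K N)) (instAlgebraLine K (jF K N))
    (instAlgebraLineTop K (jF K N)) (instIsScalarTowerLine K (jF K N))
    (inferInstance : Algebra ↥(A0.down K A) (Line K (jF K N)))
    (inferInstance : Algebra ↥(A0.down K A) (FK K N))
    (inferInstance : IsScalarTower ↥(A0.down K A) (Line K (jF K N)) (FK K N)) u
    (prime_unif K N A hℓ hℓN hA π hπ hmax u hu) (gauss_dict K N A hℓ hℓN hA π hπ hmax u hu).1 c).2

/-- **(R3)** `redC` on the constants is the residue map. -/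
theorem redC_algebraMap {ℓ : ℕ} (hℓ : ℓ.Prime) (hℓN : ¬ ℓ ∣ N) (hA : A.LiesOverPrime ℓ)
    (π : ↥(A0.down K A)) (hπ : Irreducible π)
    (hmax : IsLocalRing.maximalIdeal ↥(A0.down K A) = Ideal.span {π})
    (u : Line K (jF K N)) (hu : IsCoord K N u) (a : ↥(A0.down K A)) :
    redC K N A hℓ hℓN hA π hπ hmax u hu
        (algebraMap ↥(chart ↥(A0.down K A) (Line K (jF K N)) u)
          ↥(integralClosure ↥(chart ↥(A0.down K A) (Line K (jF K N)) u) (FK K N))
          (algebraMap ↥(A0.down K A) ↥(chart ↥(A0.down K A) (Line K (jF K N)) u) a)) =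
      algebraMap (IsLocalRing.ResidueField ↥(A0.down K A)) ↥(modularFunctionFieldFullC (IsLocalRing.ResidueField ↥(A0.down K A)) N)
        ((IsLocalRing.residue ↥(A0.down K A)) a) :=
  @Gen.redC_algebraMap K _ (A0.down K A) _ _ (IsLocalRing.residue ↥(A0.down K A)) N π
    (hyp1 K N A hℓ hℓN hA π hπ hmax) (hyp2 K N A hℓ hℓN hA π hπ hmax) (hyp3 K N A hℓ hℓN hA π hπ hmax)
    (Line K (jF K N)) (instFieldLine K (jF K N)) (instAlgebraLine K (jF K N))
    (instAlgebraLineTop K (jF K N)) (instIsScalarTowerLine K (jF K N))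
    (inferInstance : Algebra ↥(A0.down K A) (Line K (jF K N)))
    (inferInstance : Algebra ↥(A0.down K A) (FK K N))
    (inferInstance : IsScalarTower ↥(A0.down K A) (Line K (jF K N)) (FK K N)) (fun _ => rfl) u
    (prime_unif K N A hℓ hℓN hA π hπ hmax u hu) (gauss_dict K N A hℓ hℓN hA π hπ hmax u hu).1
    (gauss_dict K N A hℓ hℓN hA π hπ hmax u hu).2.2 a

/-- The reduction `ū` of the coordinate of the chart. -/
noncomputable def ubar {ℓ : ℕ} (hℓ : ℓ.Prime) (hℓN : ¬ ℓ ∣ N) (hA : A.LiesOverPrime ℓ)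
    (π : ↥(A0.down K A)) (hπ : Irreducible π)
    (hmax : IsLocalRing.maximalIdeal ↥(A0.down K A) = Ideal.span {π})
    (u : Line K (jF K N)) (hu : IsCoord K N u) :
    ↥(modularFunctionFieldFullC (IsLocalRing.ResidueField ↥(A0.down K A)) N) :=
  @Gen.ubar K _ (A0.down K A) _ _ (IsLocalRing.residue ↥(A0.down K A)) N π
    (hyp1 K N A hℓ hℓN hA π hπ hmax) (hyp2 K N A hℓ hℓN hA π hπ hmax) (hyp3 K N A hℓ hℓN hA π hπ hmax)
    (Line K (jF K N)) (instFieldLine K (jF K N)) (instAlgebraLine K (jF K N))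
    (instAlgebraLineTop K (jF K N)) (instIsScalarTowerLine K (jF K N))
    (inferInstance : Algebra ↥(A0.down K A) (Line K (jF K N)))
    (inferInstance : Algebra ↥(A0.down K A) (FK K N))
    (inferInstance : IsScalarTower ↥(A0.down K A) (Line K (jF K N)) (FK K N)) u
    (prime_unif K N A hℓ hℓN hA π hπ hmax u hu) (gauss_dict K N A hℓ hℓN hA π hπ hmax u hu).1
    (gauss_dict K N A hℓ hℓN hA π hπ hmax u hu).2.2

theorem ubar_eq {ℓ : ℕ} (hℓ : ℓ.Prime) (hℓN : ¬ ℓ ∣ N) (hA : A.LiesOverPrime ℓ)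
    (π : ↥(A0.down K A)) (hπ : Irreducible π)
    (hmax : IsLocalRing.maximalIdeal ↥(A0.down K A) = Ideal.span {π})
    (u : Line K (jF K N)) (hu : IsCoord K N u) :
    ubar K N A hℓ hℓN hA π hπ hmax u hu = redC K N A hℓ hℓN hA π hπ hmax u hu
      (algebraMap ↥(chart ↥(A0.down K A) (Line K (jF K N)) u)
        ↥(integralClosure ↥(chart ↥(A0.down K A) (Line K (jF K N)) u) (FK K N))
        (coord ↥(A0.down K A) (Line K (jF K N)) u)) := rfl

/-- **(R4)** the reduction of an element of `C` is integral over `k₀[ū]`. -/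
theorem isIntegral_redC {ℓ : ℕ} (hℓ : ℓ.Prime) (hℓN : ¬ ℓ ∣ N) (hA : A.LiesOverPrime ℓ)
    (π : ↥(A0.down K A)) (hπ : Irreducible π)
    (hmax : IsLocalRing.maximalIdeal ↥(A0.down K A) = Ideal.span {π})
    (u : Line K (jF K N)) (hu : IsCoord K N u)
    (c : ↥(integralClosure ↥(chart ↥(A0.down K A) (Line K (jF K N)) u) (FK K N))) :
    IsIntegral ↥(Algebra.adjoin (IsLocalRing.ResidueField ↥(A0.down K A))
      {ubar K N A hℓ hℓN hA π hπ hmax u hu}) (redC K N A hℓ hℓN hA π hπ hmax u hu c) :=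
  @Gen.isIntegral_redC K _ (A0.down K A) _ _ (IsLocalRing.residue ↥(A0.down K A)) N π
    (hyp1 K N A hℓ hℓN hA π hπ hmax) (hyp2 K N A hℓ hℓN hA π hπ hmax) (hyp3 K N A hℓ hℓN hA π hπ hmax)
    (Line K (jF K N)) (instFieldLine K (jF K N)) (instAlgebraLine K (jF K N))
    (instAlgebraLineTop K (jF K N)) (instIsScalarTowerLine K (jF K N))
    (inferInstance : Algebra ↥(A0.down K A) (Line K (jF K N)))
    (inferInstance : Algebra ↥(A0.down K A) (FK K N))
    (inferInstance : IsScalarTower ↥(A0.down K A) (Line K (jF K N)) (FK K N)) (fun _ => rfl) u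
    (prime_unif K N A hℓ hℓN hA π hπ hmax u hu) (gauss_dict K N A hℓ hℓN hA π hπ hmax u hu).1
    (gauss_dict K N A hℓ hℓN hA π hπ hmax u hu).2.2 c

/-- **(R5)** the kernel of `redC` is `π C`. -/
theorem redC_eq_zero_iff {ℓ : ℕ} (hℓ : ℓ.Prime) (hℓN : ¬ ℓ ∣ N) (hA : A.LiesOverPrime ℓ)
    (π : ↥(A0.down K A)) (hπ : Irreducible π)
    (hmax : IsLocalRing.maximalIdeal ↥(A0.down K A) = Ideal.span {π})
    (u : Line K (jF K N)) (hu : IsCoord K N u)
    (c : ↥(integralClosure ↥(chart ↥(A0.down K A) (Line K (jF K N)) u) (FK K N))) :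
    redC K N A hℓ hℓN hA π hπ hmax u hu c = 0 ↔
      ∃ c' : ↥(integralClosure ↥(chart ↥(A0.down K A) (Line K (jF K N)) u) (FK K N)),
        c = algebraMap ↥(chart ↥(A0.down K A) (Line K (jF K N)) u)
          ↥(integralClosure ↥(chart ↥(A0.down K A) (Line K (jF K N)) u) (FK K N))
          (unif ↥(A0.down K A) (Line K (jF K N)) u π) * c' := by
  have hB : (A0.down K A).LiesOverPrime ℓ := (A0.liesOverPrime_down_iff A).mpr hA
  have hdvr : IsDiscreteValuationRing ↥(A0.down K A) := A0.isDiscreteValuationRing _ hℓ hB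
  have hic := AdjoinChart.isIntegrallyClosed (Line K (jF K N)) u
    (transcendental_coord K N A u hu)
  have hfr := AdjoinChart.isFractionRing (Line K (jF K N)) u (hgen_coord K N A u hu)
  exact @Gen.redC_eq_zero_iff K _ (A0.down K A) _ _ (IsLocalRing.residue ↥(A0.down K A)) N π
    (hyp1 K N A hℓ hℓN hA π hπ hmax) (hyp2 K N A hℓ hℓN hA π hπ hmax) (hyp3 K N A hℓ hℓN hA π hπ hmax)
    (Line K (jF K N)) (instFieldLine K (jF K N)) (instAlgebraLine K (jF K N))
    (instAlgebraLineTop K (jF K N)) (instIsScalarTowerLine K (jF K N))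
    (inferInstance : Algebra ↥(A0.down K A) (Line K (jF K N)))
    (inferInstance : Algebra ↥(A0.down K A) (FK K N))
    (inferInstance : IsScalarTower ↥(A0.down K A) (Line K (jF K N)) (FK K N)) (fun _ => rfl) u
    (prime_unif K N A hℓ hℓN hA π hπ hmax u hu) (gauss_dict K N A hℓ hℓN hA π hπ hmax u hu).1
    (gauss_dict K N A hℓ hℓN hA π hπ hmax u hu).2.2 hic hfr c

/-- two elements of `C` have the same reduction iff their difference lies in `π O''`. -/
theorem redC_eq_iff_inPiGauss {ℓ : ℕ} (hℓ : ℓ.Prime) (hℓN : ¬ ℓ ∣ N) (hA : A.LiesOverPrime ℓ)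
    (π : ↥(A0.down K A)) (hπ : Irreducible π)
    (hmax : IsLocalRing.maximalIdeal ↥(A0.down K A) = Ideal.span {π})
    (u : Line K (jF K N)) (hu : IsCoord K N u)
    (c c' : ↥(integralClosure ↥(chart ↥(A0.down K A) (Line K (jF K N)) u) (FK K N))) :
    redC K N A hℓ hℓN hA π hπ hmax u hu c = redC K N A hℓ hℓN hA π hπ hmax u hu c' ↔
      InPiGauss ↥(A0.down K A) (Line K (jF K N)) (FK K N) u π ((c : FK K N) - (c' : FK K N)) :=
  @Gen.redC_eq_iff_inPiGauss K _ (A0.down K A) _ _ (IsLocalRing.residue ↥(A0.down K A)) N π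
    (hyp1 K N A hℓ hℓN hA π hπ hmax) (hyp2 K N A hℓ hℓN hA π hπ hmax) (hyp3 K N A hℓ hℓN hA π hπ hmax)
    (Line K (jF K N)) (instFieldLine K (jF K N)) (instAlgebraLine K (jF K N))
    (instAlgebraLineTop K (jF K N)) (instIsScalarTowerLine K (jF K N))
    (inferInstance : Algebra ↥(A0.down K A) (Line K (jF K N)))
    (inferInstance : Algebra ↥(A0.down K A) (FK K N))
    (inferInstance : IsScalarTower ↥(A0.down K A) (Line K (jF K N)) (FK K N)) u
    (prime_unif K N A hℓ hℓN hA π hπ hmax u hu) (gauss_dict K N A hℓ hℓN hA π hπ hmax u hu).1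
    (gauss_dict K N A hℓ hℓN hA π hπ hmax u hu).2.1
    (gauss_dict K N A hℓ hℓN hA π hπ hmax u hu).2.2 c c'

/-- **(R6)** if the special fibre is normal on the chart (hypothesis `hNorm` = the conclusion of
machine N, `NormalFibre.exists_lift_chart_of_isIntegral`), `redC` is onto the integral closure
of `k₀[ū]` in `F_{k₀}`. -/
theorem exists_redC_eq_of_normal {ℓ : ℕ} (hℓ : ℓ.Prime) (hℓN : ¬ ℓ ∣ N) (hA : A.LiesOverPrime ℓ)
    (π : ↥(A0.down K A)) (hπ : Irreducible π)
    (hmax : IsLocalRing.maximalIdeal ↥(A0.down K A) = Ideal.span {π})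
    (u : Line K (jF K N)) (hu : IsCoord K N u)
    (hNorm : ∀ x : FK K N, InGauss ↥(A0.down K A) (Line K (jF K N)) (FK K N) u π x →
      (∃ p : Polynomial ↥(chart ↥(A0.down K A) (Line K (jF K N)) u), p.Monic ∧
        InPiGauss ↥(A0.down K A) (Line K (jF K N)) (FK K N) u π (Polynomial.aeval x p)) →
      ∃ c : FK K N, IsIntegral ↥(chart ↥(A0.down K A) (Line K (jF K N)) u) c ∧
        InPiGauss ↥(A0.down K A) (Line K (jF K N)) (FK K N) u π (x - c))
    (y : ↥(modularFunctionFieldFullC (IsLocalRing.ResidueField ↥(A0.down K A)) N))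
    (hy : IsIntegral ↥(Algebra.adjoin (IsLocalRing.ResidueField ↥(A0.down K A))
      {ubar K N A hℓ hℓN hA π hπ hmax u hu}) y) :
    ∃ c : ↥(integralClosure ↥(chart ↥(A0.down K A) (Line K (jF K N)) u) (FK K N)),
      redC K N A hℓ hℓN hA π hπ hmax u hu c = y :=
  @Gen.exists_redC_eq K _ (A0.down K A) _ _ (IsLocalRing.residue ↥(A0.down K A)) N π
    (hyp1 K N A hℓ hℓN hA π hπ hmax) (hyp2 K N A hℓ hℓN hA π hπ hmax) (hyp3 K N A hℓ hℓN hA π hπ hmax)
    (Line K (jF K N)) (instFieldLine K (jF K N)) (instAlgebraLine K (jF K N))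
    (instAlgebraLineTop K (jF K N)) (instIsScalarTowerLine K (jF K N))
    (inferInstance : Algebra ↥(A0.down K A) (Line K (jF K N)))
    (inferInstance : Algebra ↥(A0.down K A) (FK K N))
    (inferInstance : IsScalarTower ↥(A0.down K A) (Line K (jF K N)) (FK K N)) (fun _ => rfl) u
    (prime_unif K N A hℓ hℓN hA π hπ hmax u hu) (gauss_dict K N A hℓ hℓN hA π hπ hmax u hu).1
    (gauss_dict K N A hℓ hℓN hA π hπ hmax u hu).2.1
    (gauss_dict K N A hℓ hℓN hA π hπ hmax u hu).2.2 IsLocalRing.residue_surjective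
    (fun y => (GaussA0.mem_resField_iff (A0.down K A) (IsLocalRing.residue ↥(A0.down K A)) N _).mp
      (GaussA0.full_le_resField (A0.down K A) (IsLocalRing.residue ↥(A0.down K A)) N
        IsLocalRing.residue_surjective y.2))
    hNorm y hy

/-- the special fibre is normal on both charts of the `j`-line when `ℓ ≥ 5` (`NormalJ`). -/
theorem normal_of_five_le {ℓ : ℕ} (hℓ : ℓ.Prime) (hℓN : ¬ ℓ ∣ N) (hA : A.LiesOverPrime ℓ)
    (π : ↥(A0.down K A)) (hπ : Irreducible π)
    (hmax : IsLocalRing.maximalIdeal ↥(A0.down K A) = Ideal.span {π})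
    (u : Line K (jF K N)) (hu : IsCoord K N u) (h5 : 5 ≤ ℓ) :
    ∀ x : FK K N, InGauss ↥(A0.down K A) (Line K (jF K N)) (FK K N) u π x →
      (∃ p : Polynomial ↥(chart ↥(A0.down K A) (Line K (jF K N)) u), p.Monic ∧
        InPiGauss ↥(A0.down K A) (Line K (jF K N)) (FK K N) u π (Polynomial.aeval x p)) →
      ∃ c : FK K N, IsIntegral ↥(chart ↥(A0.down K A) (Line K (jF K N)) u) c ∧
        InPiGauss ↥(A0.down K A) (Line K (jF K N)) (FK K N) u π (x - c) := by
  rcases hu with rfl | rfl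
  · exact fun x hx hint => NormalJ.exists_lift_fin K N A hℓ hℓN h5 hA π hπ hmax x hx hint
  · exact fun x hx hint => NormalJ.exists_lift_inv K N A hℓ hℓN h5 hA π hπ hmax x hx hint

/-- **(R6), `ℓ ≥ 5`**: `redC` is onto the integral closure of `k₀[ū]` in `F_{k₀}`. -/
theorem exists_redC_eq {ℓ : ℕ} (hℓ : ℓ.Prime) (hℓN : ¬ ℓ ∣ N) (hA : A.LiesOverPrime ℓ)
    (π : ↥(A0.down K A)) (hπ : Irreducible π)
    (hmax : IsLocalRing.maximalIdeal ↥(A0.down K A) = Ideal.span {π})
    (u : Line K (jF K N)) (hu : IsCoord K N u) (h5 : 5 ≤ ℓ)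
    (y : ↥(modularFunctionFieldFullC (IsLocalRing.ResidueField ↥(A0.down K A)) N))
    (hy : IsIntegral ↥(Algebra.adjoin (IsLocalRing.ResidueField ↥(A0.down K A))
      {ubar K N A hℓ hℓN hA π hπ hmax u hu}) y) :
    ∃ c : ↥(integralClosure ↥(chart ↥(A0.down K A) (Line K (jF K N)) u) (FK K N)),
      redC K N A hℓ hℓN hA π hπ hmax u hu c = y :=
  exists_redC_eq_of_normal K N A hℓ hℓN hA π hπ hmax u hu (normal_of_five_le K N A hℓ hℓN hA π hπ hmax u hu h5) y hy

/-! ### The Gauss ring in terms of `q`-expansions -/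

/-- `x ∈ O''` iff the `q`-expansion of `x` is a quotient `a / b` of series over `A₀` with
`b̄ ≠ 0`. -/
theorem inGauss_iff {ℓ : ℕ} (hℓ : ℓ.Prime) (hℓN : ¬ ℓ ∣ N) (hA : A.LiesOverPrime ℓ)
    (π : ↥(A0.down K A)) (hπ : Irreducible π)
    (hmax : IsLocalRing.maximalIdeal ↥(A0.down K A) = Ideal.span {π})
    (u : Line K (jF K N)) (hu : IsCoord K N u) (z : FK K N) :
    InGauss ↥(A0.down K A) (Line K (jF K N)) (FK K N) u π z ↔
      ∃ a b : LaurentSeries ↥(A0.down K A), coeffMap (IsLocalRing.residue ↥(A0.down K A)) b ≠ 0 ∧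
        FK.val K N z * coeffMap (A0.down K A).subtype b = coeffMap (A0.down K A).subtype a :=
  (gauss_dict K N A hℓ hℓN hA π hπ hmax u hu).1 z

/-- `x ∈ π O''` iff the `q`-expansion of `x` is a quotient `a / b` of series over `A₀` with
`b̄ ≠ 0` and `ā = 0`. -/
theorem inPiGauss_iff {ℓ : ℕ} (hℓ : ℓ.Prime) (hℓN : ¬ ℓ ∣ N) (hA : A.LiesOverPrime ℓ)
    (π : ↥(A0.down K A)) (hπ : Irreducible π)
    (hmax : IsLocalRing.maximalIdeal ↥(A0.down K A) = Ideal.span {π})
    (u : Line K (jF K N)) (hu : IsCoord K N u) (z : FK K N) :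
    InPiGauss ↥(A0.down K A) (Line K (jF K N)) (FK K N) u π z ↔
      ∃ a b : LaurentSeries ↥(A0.down K A), coeffMap (IsLocalRing.residue ↥(A0.down K A)) b ≠ 0 ∧
        coeffMap (IsLocalRing.residue ↥(A0.down K A)) a = 0 ∧
        FK.val K N z * coeffMap (A0.down K A).subtype b = coeffMap (A0.down K A).subtype a := by
  rw [(gauss_dict K N A hℓ hℓN hA π hπ hmax u hu).2.1 z]
  constructor
  · rintro ⟨hm, h0⟩
    obtain ⟨a, b, hb, hab⟩ := hm
    refine ⟨a, b, hb, ?_, hab⟩
    have h1 := GaussA0.redO_mul_rho (A0.down K A) (IsLocalRing.residue ↥(A0.down K A)) N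
      (hyp1 K N A hℓ hℓN hA π hπ hmax) (hyp2 K N A hℓ hℓN hA π hπ hmax) (hyp3 K N A hℓ hℓN hA π hπ hmax) ⟨z, ⟨a, b, hb, hab⟩⟩ hb hab
    rw [h0, zero_mul] at h1
    exact h1.symm
  · rintro ⟨a, b, hb, ha, hab⟩
    refine ⟨⟨a, b, hb, hab⟩, ?_⟩
    have h1 := GaussA0.redO_mul_rho (A0.down K A) (IsLocalRing.residue ↥(A0.down K A)) N
      (hyp1 K N A hℓ hℓN hA π hπ hmax) (hyp2 K N A hℓ hℓN hA π hπ hmax) (hyp3 K N A hℓ hℓN hA π hπ hmax) ⟨z, ⟨a, b, hb, hab⟩⟩ hb hab
    have h2 : GaussA0.rho (IsLocalRing.residue ↥(A0.down K A)) a = 0 := ha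
    rw [h2] at h1
    exact (mul_eq_zero.mp h1).resolve_right hb

/-! ### The reduction of the coordinate -/

/-- **(R3)** on the finite chart, `ū = j̄`. -/
theorem coe_ubar_gen {ℓ : ℕ} (hℓ : ℓ.Prime) (hℓN : ¬ ℓ ∣ N) (hA : A.LiesOverPrime ℓ)
    (π : ↥(A0.down K A)) (hπ : Irreducible π)
    (hmax : IsLocalRing.maximalIdeal ↥(A0.down K A) = Ideal.span {π}) :
    ((ubar K N A hℓ hℓN hA π hπ hmax (Line.gen K (jF K N)) (isCoord_gen K N) :
      ↥(modularFunctionFieldFullC (IsLocalRing.ResidueField ↥(A0.down K A)) N)) : LaurentSeries (IsLocalRing.ResidueField ↥(A0.down K A))) =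
      jqModC (IsLocalRing.ResidueField ↥(A0.down K A)) := by
  have h := redC_of_coeffMap K N A hℓ hℓN hA π hπ hmax (Line.gen K (jF K N)) (isCoord_gen K N)
    (algebraMap _ _ (coord ↥(A0.down K A) (Line K (jF K N)) (Line.gen K (jF K N))))
    (jqModC ↥(A0.down K A)) (GaussA0.incl_jqModC (A0.down K A)).symm
  rw [ubar_eq, h]
  exact GaussA0.rho_jqModC (A0.down K A) (IsLocalRing.residue ↥(A0.down K A))

/-- **(R7)** on the chart at infinity, `ū = 1 / j̄`. -/
theorem coe_ubar_inv {ℓ : ℕ} (hℓ : ℓ.Prime) (hℓN : ¬ ℓ ∣ N) (hA : A.LiesOverPrime ℓ)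
    (π : ↥(A0.down K A)) (hπ : Irreducible π)
    (hmax : IsLocalRing.maximalIdeal ↥(A0.down K A) = Ideal.span {π}) :
    ((ubar K N A hℓ hℓN hA π hπ hmax (Line.gen K (jF K N))⁻¹ (isCoord_inv K N) :
      ↥(modularFunctionFieldFullC (IsLocalRing.ResidueField ↥(A0.down K A)) N)) : LaurentSeries (IsLocalRing.ResidueField ↥(A0.down K A))) =
      (jqModC (IsLocalRing.ResidueField ↥(A0.down K A)))⁻¹ := by
  have hj : jqModC K ≠ 0 := jqModC_ne_zero_of_nontrivial K
  have hjk : jqModC (IsLocalRing.ResidueField ↥(A0.down K A)) ≠ 0 :=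
    jqModC_ne_zero_of_nontrivial _
  have hb : coeffMap (IsLocalRing.residue ↥(A0.down K A)) (jqModC ↥(A0.down K A)) ≠ 0 := by
    rw [show coeffMap (IsLocalRing.residue ↥(A0.down K A)) (jqModC ↥(A0.down K A)) = jqModC (IsLocalRing.ResidueField ↥(A0.down K A)) from
      GaussA0.rho_jqModC (A0.down K A) (IsLocalRing.residue ↥(A0.down K A))]
    exact hjk
  have h := redC_mul K N A hℓ hℓN hA π hπ hmax (Line.gen K (jF K N))⁻¹ (isCoord_inv K N)
    (algebraMap _ _ (coord ↥(A0.down K A) (Line K (jF K N)) (Line.gen K (jF K N))⁻¹)) 1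
    (jqModC ↥(A0.down K A)) hb (by
      rw [show coeffMap (A0.down K A).subtype (jqModC ↥(A0.down K A)) = jqModC K from
        GaussA0.incl_jqModC (A0.down K A), map_one]
      have h1 : FK.val K N (algebraMap (Line K (jF K N)) (FK K N) (Line.gen K (jF K N))⁻¹) =
          (jqModC K)⁻¹ := by
        rw [map_inv₀, map_inv₀]
        rfl
      exact (congrArg (· * jqModC K) h1).trans (inv_mul_cancel₀ hj))
  rw [show coeffMap (IsLocalRing.residue ↥(A0.down K A)) (jqModC ↥(A0.down K A)) = jqModC (IsLocalRing.ResidueField ↥(A0.down K A)) from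
      GaussA0.rho_jqModC (A0.down K A) (IsLocalRing.residue ↥(A0.down K A)), map_one] at h
  rw [ubar_eq]
  exact eq_inv_of_mul_eq_one_left h

end Sealed

end Fermat.Agent.S37.RedC
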