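import Mathlib
import Fermat.Agent.S18.Step1
import Fermat.Agent.S28.Defs
import Fermat.Agent.S37.LaurentCIC
import Fermat.Agent.S37.ChartLevel
import Fermat.Agent.S37.RedC

/-!
# S37, block (W2), leaf I3 (b), (c), (G): the reduction of the chart rings

`A` a valuation subring of `ℚ̄` over the prime `ℓ ∤ N`, `k` its residue field,
`D_b = RedPlace.chart A N b` the ring of functions on `X₀(N)` over `ℚ̄` integral over `A[j]`
(`b = true`) resp. `A[1/j]` (`b = false`).

* `exists_series` (finite level): the `q`-expansion of an element of `F_K` integral over the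
  chart ring `A₀[coordK]` has coefficients in `A₀ = A ∩ K` (`LaurentCIC`);
* `exists_isInt` : every element of `D_b` is the function of a `Step1.IsInt` series over `A`;
* `ser`, `red` : the `q`-expansion `D_b → A((q))` and the reduction `D_b → F_k` as ring
  homomorphisms; `const` : the constants `A → D_b`;
* `red_ιL` : compatibility with the finite level reduction `RedC.redC`;
* `red_eq_zero_iff` : the kernel of `red` is `𝔪_A D_b`;
* `dvd_of_dvd_mul` : a nonzero constant dividing `a * w` with `red a ≠ 0` divides `w`.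
-/

set_option autoImplicit false
set_option linter.unusedSectionVars false

noncomputable section

open Polynomial IntermediateField ModularCurve

namespace Fermat.Agent.S37.ChartRed

open Fermat.Agent.S18 Fermat.Agent.S18.CoreDefs Fermat.Agent.S18.Setup
open Fermat.Agent.S18.S24Export Fermat.Agent.S37.ChartLevel

local notation "Qb" => AlgebraicClosure ℚ

/-! ### Finite level -/

section Sealed

variable (K : Type*) [Field K] [Algebra K Qb] [Algebra ℚ K] [FiniteDimensional ℚ K]
  (N : ℕ) [NeZero N] (A : ValuationSubring Qb)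

theorem isCoord_coordK (b : Bool) : RedC.IsCoord K N (coordK K N b) := by
  cases b
  · exact Or.inr rfl
  · exact Or.inl rfl

/-- the `q`-expansion of an element of the chart ring `A₀[coordK]` has coefficients in `A₀`. -/
theorem val_chart_mem (b : Bool)
    (s : chart ↥(A0.down K A) (Line K (jF K N)) (coordK K N b)) :
    FK.val K N (algebraMap (Line K (jF K N)) (FK K N) (s : Line K (jF K N))) ∈
      Set.range (GaussA0.incl (A0.down K A)) := by
  obtain ⟨s, hs⟩ := s
  induction hs using Algebra.adjoin_induction with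
  | mem x hx =>
    rw [Set.mem_singleton_iff] at hx
    subst hx
    cases b
    · refine ⟨Fermat.Agent.S28.Defs.jqInv ↥(A0.down K A), ?_⟩
      show coeffMap (A0.down K A).subtype _ = _
      rw [Fermat.Agent.S28.Defs.coeffMap_jqInv, Fermat.Agent.S28.Defs.jqInv_eq_inv]
      show (jqModC K)⁻¹ =
        FK.val K N (algebraMap (Line K (jF K N)) (FK K N) (Line.gen K (jF K N))⁻¹)
      rw [map_inv₀, map_inv₀]
      rfl
    · exact ⟨jqModC ↥(A0.down K A), GaussA0.incl_jqModC (A0.down K A)⟩
  | algebraMap a =>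
    refine ⟨HahnSeries.C a, ?_⟩
    rw [GaussA0.incl_C, ← GaussA0.algebraMap_eq_C]
    rfl
  | add x y _ _ hx hy =>
    obtain ⟨u, hu⟩ := hx
    obtain ⟨v, hv⟩ := hy
    refine ⟨u + v, ?_⟩
    show _ = FK.val K N (algebraMap (Line K (jF K N)) (FK K N) (x + y))
    rw [map_add, map_add, map_add, hu, hv]
  | mul x y _ _ hx hy =>
    obtain ⟨u, hu⟩ := hx
    obtain ⟨v, hv⟩ := hy
    refine ⟨u * v, ?_⟩
    show _ = FK.val K N (algebraMap (Line K (jF K N)) (FK K N) (x * y))
    rw [map_mul, map_mul, map_mul, hu, hv]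

/-- the `q`-expansion of an element of `F_K` integral over the chart ring is integral over
`A₀((q))`. -/
theorem isIntegralElem_val (b : Bool) (c : FK K N)
    (hc : IsIntegral (chart ↥(A0.down K A) (Line K (jF K N)) (coordK K N b)) c) :
    (GaussA0.incl (A0.down K A)).IsIntegralElem (FK.val K N c) := by
  obtain ⟨p, hp, hpc⟩ := hc
  have hlift : p.map ((FK.val K N).toRingHom.comp
      (algebraMap (chart ↥(A0.down K A) (Line K (jF K N)) (coordK K N b)) (FK K N))) ∈
      Polynomial.lifts (GaussA0.incl (A0.down K A)) := by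
    rw [Polynomial.lifts_iff_coeff_lifts]
    intro n
    rw [Polynomial.coeff_map]
    exact val_chart_mem K N A b (p.coeff n)
  obtain ⟨P, hP, -, hPm⟩ := Polynomial.lifts_and_natDegree_eq_and_monic hlift (hp.map _)
  refine ⟨P, hPm, ?_⟩
  rw [Polynomial.eval₂_eq_eval_map, hP, Polynomial.eval_map]
  have h1 := Polynomial.hom_eval₂ p
    (algebraMap (chart ↥(A0.down K A) (Line K (jF K N)) (coordK K N b)) (FK K N))
    (FK.val K N).toRingHom c
  rw [hpc, map_zero] at h1
  exact h1.symm

/-- **Integral elements have integral `q`-expansions**: the `q`-expansion of an element of `F_K`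
integral over the chart ring `A₀[coordK]` has coefficients in `A₀ = A ∩ K`. -/
theorem exists_series {ℓ : ℕ} (hℓ : ℓ.Prime) (hA : A.LiesOverPrime ℓ) (b : Bool) (c : FK K N)
    (hc : IsIntegral (chart ↥(A0.down K A) (Line K (jF K N)) (coordK K N b)) c) :
    ∃ y0 : LaurentSeries ↥(A0.down K A), coeffMap (A0.down K A).subtype y0 = FK.val K N c := by
  obtain ⟨hdvr, π, hirr, hπ0, hmax, harch, -, -⟩ := Setup.exists_unif K A hℓ hA
  have hdvd : ∀ w : ↥(A0.down K A), ¬ IsUnit w → π ∣ w := by
    intro w hw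
    have h1 : w ∈ IsLocalRing.maximalIdeal ↥(A0.down K A) :=
      (IsLocalRing.mem_maximalIdeal w).mpr hw
    rwa [hmax, Ideal.mem_span_singleton] at h1
  have hkrull := GaussA0.krull_of_arch hπ0 hirr.not_isUnit harch
  obtain ⟨a, d, hd, had⟩ := (GaussA0.mem_fracSubfield_iff (A0.down K A) _).mp
    (GaussA0.full_le_fracSubfield (A0.down K A) N (FK.val_mem c))
  exact LaurentCIC.exists_incl_eq_of_isIntegral (A0.down K A)
    (LaurentCIC.harch_of_krull (A0.down K A) π hdvd hkrull) (FK.val K N c) a d hd had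
    (isIntegralElem_val K N A b c hc)

/-- change of coefficients: `A₀((q)) → A((q)) → ℚ̄((q))` is `A₀((q)) → K((q)) → ℚ̄((q))`. -/
theorem coeffMap_subtype_incl (y0 : LaurentSeries ↥(A0.down K A)) :
    coeffMap A.subtype (coeffMap (A0.incl K A) y0) =
      coeffMap (algebraMap K Qb) (coeffMap (A0.down K A).subtype y0) := by
  rw [coeffMap_coeffMap, coeffMap_coeffMap]
  exact coeffMap_congr (RingHom.ext fun _ => rfl) y0

/-- change of coefficients: reduction modulo `𝔪_A` after `A₀((q)) → A((q))` is the residue field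
extension after reduction modulo `𝔪_{A₀}`. -/
theorem coeffMap_residue_incl (y0 : LaurentSeries ↥(A0.down K A)) :
    coeffMap (IsLocalRing.residue ↥A) (coeffMap (A0.incl K A) y0) =
      coeffMap (A0.resMap K A) (coeffMap (IsLocalRing.residue ↥(A0.down K A)) y0) := by
  rw [coeffMap_coeffMap, coeffMap_coeffMap]
  exact coeffMap_congr (RingHom.ext fun x => (A0.resMap_residue A x).symm) y0

/-- The constants `A₀ → C_K(b)`. -/
def constC (b : Bool) : ↥(A0.down K A) →+*
    ↥(integralClosure ↥(chart ↥(A0.down K A) (Line K (jF K N)) (coordK K N b)) (FK K N)) :=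
  (algebraMap ↥(chart ↥(A0.down K A) (Line K (jF K N)) (coordK K N b))
    ↥(integralClosure ↥(chart ↥(A0.down K A) (Line K (jF K N)) (coordK K N b)) (FK K N))).comp
    (algebraMap ↥(A0.down K A) ↥(chart ↥(A0.down K A) (Line K (jF K N)) (coordK K N b)))

theorem coe_constC (b : Bool) (a : ↥(A0.down K A)) :
    ((constC K N A b a : ↥(integralClosure ↥(chart ↥(A0.down K A) (Line K (jF K N))
      (coordK K N b)) (FK K N))) : FK K N) = algebraMap ↥(A0.down K A) (FK K N) a := rfl

theorem ιL_constC (b : Bool) (a : ↥(A0.down K A)) :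
    ιL K N ((constC K N A b a : ↥(integralClosure ↥(chart ↥(A0.down K A) (Line K (jF K N))
      (coordK K N b)) (FK K N))) : FK K N) = algebraMap Qb (FL N) ((A0.incl K A a : ↥A) : Qb) := by
  rw [coe_constC, ιL_algebraMap_down]
  rfl

variable {ℓ : ℕ} (hℓ : ℓ.Prime) (hℓN : ¬ ℓ ∣ N) (hA : A.LiesOverPrime ℓ)
  (π : ↥(A0.down K A)) (hπ : Irreducible π)
  (hmax : IsLocalRing.maximalIdeal ↥(A0.down K A) = Ideal.span {π})

/-- `RedC.redC` is the coefficientwise reduction of the integral `q`-expansion. -/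
theorem redC_series (b : Bool)
    (c : ↥(integralClosure ↥(chart ↥(A0.down K A) (Line K (jF K N)) (coordK K N b)) (FK K N)))
    (y0 : LaurentSeries ↥(A0.down K A))
    (hy0 : coeffMap (A0.down K A).subtype y0 = FK.val K N (c : FK K N)) :
    ((RedC.redC K N A hℓ hℓN hA π hπ hmax (coordK K N b) (isCoord_coordK K N b) c :
      ↥(modularFunctionFieldFullC (IsLocalRing.ResidueField ↥(A0.down K A)) N)) :
      LaurentSeries (IsLocalRing.ResidueField ↥(A0.down K A))) =
      coeffMap (IsLocalRing.residue ↥(A0.down K A)) y0 :=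
  RedC.redC_of_coeffMap K N A hℓ hℓN hA π hπ hmax (coordK K N b) (isCoord_coordK K N b) c y0
    hy0.symm

/-- the uniformizer reduces to zero. -/
theorem redC_constC_unif (b : Bool) :
    RedC.redC K N A hℓ hℓN hA π hπ hmax (coordK K N b) (isCoord_coordK K N b)
      (constC K N A b π) = 0 :=
  (RedC.redC_eq_zero_iff K N A hℓ hℓN hA π hπ hmax (coordK K N b) (isCoord_coordK K N b)
    (constC K N A b π)).mpr ⟨1, (mul_one _).symm⟩

theorem constC_unif_ne_zero (b : Bool) (hπ0 : π ≠ 0) : constC K N A b π ≠ 0 := by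
  intro h0
  have h1 : algebraMap ↥(A0.down K A) (FK K N) π = 0 := by
    rw [← coe_constC K N A b π, h0]
    rfl
  rw [algebraMap_val_top, map_eq_zero] at h1
  exact hπ0 (Subtype.ext h1)

/-- **(G) at a finite level**: if `π ^ n` divides `a * w` in `C_K(b)` and the reduction of `a`
is not zero, then `π ^ n` divides `w`. -/
theorem exists_eq_pow_mul (b : Bool)
    (a : ↥(integralClosure ↥(chart ↥(A0.down K A) (Line K (jF K N)) (coordK K N b)) (FK K N)))
    (ha : RedC.redC K N A hℓ hℓN hA π hπ hmax (coordK K N b) (isCoord_coordK K N b) a ≠ 0) :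
    ∀ (n : ℕ) (w z : ↥(integralClosure ↥(chart ↥(A0.down K A) (Line K (jF K N))
      (coordK K N b)) (FK K N))), a * w = constC K N A b π ^ n * z →
      ∃ w' : ↥(integralClosure ↥(chart ↥(A0.down K A) (Line K (jF K N)) (coordK K N b))
        (FK K N)), w = constC K N A b π ^ n * w' := by
  intro n
  induction n with
  | zero =>
    intro w z _
    exact ⟨w, by rw [pow_zero, one_mul]⟩
  | succ n ih =>
    intro w z h
    have h1 := congrArg (RedC.redC K N A hℓ hℓN hA π hπ hmax (coordK K N b)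
      (isCoord_coordK K N b)) h
    rw [map_mul, map_mul, map_pow, redC_constC_unif, zero_pow (Nat.succ_ne_zero n),
      zero_mul] at h1
    have h2 := (mul_eq_zero.mp h1).resolve_left ha
    obtain ⟨w₁, hw₁⟩ := (RedC.redC_eq_zero_iff K N A hℓ hℓN hA π hπ hmax (coordK K N b)
      (isCoord_coordK K N b) w).mp h2
    have hw₁' : w = constC K N A b π * w₁ := hw₁
    have h3 : constC K N A b π * (a * w₁) = constC K N A b π * (constC K N A b π ^ n * z) := by
      calc constC K N A b π * (a * w₁) = a * w := by rw [hw₁']; ring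
        _ = constC K N A b π ^ (n + 1) * z := h
        _ = constC K N A b π * (constC K N A b π ^ n * z) := by rw [pow_succ']; ring
    obtain ⟨w', hw'⟩ := ih w₁ z
      (mul_left_cancel₀ (constC_unif_ne_zero K N A π b hπ.ne_zero) h3)
    exact ⟨w', by rw [hw₁', hw', pow_succ']; ring⟩

end Sealed


/-! ### The level of `A` -/

section Top

variable (A : ValuationSubring Qb) (N : ℕ) [NeZero N]
  {ℓ : ℕ} (hℓ : ℓ.Prime) (hℓN : ¬ ℓ ∣ N) (hA : A.LiesOverPrime ℓ) (b : Bool)

include hℓ hℓN hA in
/-- **(B1)** Every element of the chart ring `D_b` is the function of an integral series over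
`A` (coefficients in `A`, reduction in the function field over the residue field). -/
theorem exists_isInt (x : FL N) (hx : x ∈ RedPlace.chart A N b) :
    ∃ y : LaurentSeries ↥A, Step1.IsInt A N y ∧ coeffMap A.subtype y = (x : LaurentSeries Qb) := by
  obtain ⟨K, hK, hlev⟩ := exists_level_one A N b x hx
  have := hK
  obtain ⟨c, hc, hcx⟩ := hlev K le_rfl
  obtain ⟨hdvr, π, hirr, hπ0, hmax, -, -, -⟩ := Setup.exists_unif K A hℓ hA
  obtain ⟨y0, hy0⟩ := exists_series K N A hℓ hA b c hc
  have h1 : coeffMap A.subtype (coeffMap (A0.incl K A) y0) = (x : LaurentSeries Qb) := by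
    rw [coeffMap_subtype_incl, hy0, ← coe_ιL, hcx]
  refine ⟨coeffMap (A0.incl K A) y0, ⟨?_, ?_⟩, h1⟩
  · rw [h1]
    exact x.2
  · rw [coeffMap_residue_incl, ← redC_series K N A hℓ hℓN hA π hirr hmax b ⟨c, hc⟩ y0 hy0]
    exact FieldDef.coeffMap_mem_fullC _ N (Subtype.property _)

/-- The integral `q`-expansion of an element of the chart ring `D_b`. -/
def ser (x : ↥(RedPlace.chart A N b)) : LaurentSeries ↥A :=
  Classical.choose (exists_isInt A N hℓ hℓN hA b x.1 x.2)

theorem ser_isInt (x : ↥(RedPlace.chart A N b)) : Step1.IsInt A N (ser A N hℓ hℓN hA b x) :=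
  (Classical.choose_spec (exists_isInt A N hℓ hℓN hA b x.1 x.2)).1

theorem coeffMap_ser (x : ↥(RedPlace.chart A N b)) :
    coeffMap A.subtype (ser A N hℓ hℓN hA b x) = ((x : FL N) : LaurentSeries Qb) :=
  (Classical.choose_spec (exists_isInt A N hℓ hℓN hA b x.1 x.2)).2

theorem ser_unique (x : ↥(RedPlace.chart A N b)) (y : LaurentSeries ↥A)
    (hy : coeffMap A.subtype y = ((x : FL N) : LaurentSeries Qb)) :
    ser A N hℓ hℓN hA b x = y :=
  GaussA0.incl_injective A ((coeffMap_ser A N hℓ hℓN hA b x).trans hy.symm)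

/-- The integral `q`-expansion, as a ring homomorphism `D_b → A((q))`. -/
def serHom : ↥(RedPlace.chart A N b) →+* LaurentSeries ↥A where
  toFun := ser A N hℓ hℓN hA b
  map_one' := ser_unique A N hℓ hℓN hA b 1 1 (map_one _)
  map_zero' := ser_unique A N hℓ hℓN hA b 0 0 (map_zero _)
  map_mul' x y := ser_unique A N hℓ hℓN hA b (x * y) _ (by
    rw [map_mul, coeffMap_ser, coeffMap_ser]
    rfl)
  map_add' x y := ser_unique A N hℓ hℓN hA b (x + y) _ (by
    rw [map_add, coeffMap_ser, coeffMap_ser]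
    rfl)

theorem serHom_apply (x : ↥(RedPlace.chart A N b)) :
    serHom A N hℓ hℓN hA b x = ser A N hℓ hℓN hA b x := rfl

/-- **(B2) The reduction** `D_b → F_k` of the chart ring. -/
def red : ↥(RedPlace.chart A N b) →+*
    ↥(modularFunctionFieldFullC (IsLocalRing.ResidueField ↥A) N) :=
  ((coeffMap (IsLocalRing.residue ↥A)).comp (serHom A N hℓ hℓN hA b)).codRestrict
    (modularFunctionFieldFullC (IsLocalRing.ResidueField ↥A) N)
    (fun x => (ser_isInt A N hℓ hℓN hA b x).memk)

theorem coe_red (x : ↥(RedPlace.chart A N b)) :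
    ((red A N hℓ hℓN hA b x : ↥(modularFunctionFieldFullC (IsLocalRing.ResidueField ↥A) N)) :
      LaurentSeries (IsLocalRing.ResidueField ↥A)) =
      coeffMap (IsLocalRing.residue ↥A) (ser A N hℓ hℓN hA b x) := rfl

/-- `red` is the coefficientwise reduction of any integral `q`-expansion. -/
theorem red_eq (x : ↥(RedPlace.chart A N b)) (y : LaurentSeries ↥A)
    (hy : coeffMap A.subtype y = ((x : FL N) : LaurentSeries Qb)) :
    ((red A N hℓ hℓN hA b x : ↥(modularFunctionFieldFullC (IsLocalRing.ResidueField ↥A) N)) :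
      LaurentSeries (IsLocalRing.ResidueField ↥A)) = coeffMap (IsLocalRing.residue ↥A) y := by
  rw [coe_red, ser_unique A N hℓ hℓN hA b x y hy]

theorem red_eq_zero_iff_ser (x : ↥(RedPlace.chart A N b)) :
    red A N hℓ hℓN hA b x = 0 ↔
      coeffMap (IsLocalRing.residue ↥A) (ser A N hℓ hℓN hA b x) = 0 := by
  rw [← coe_red]
  constructor
  · intro h
    rw [h]
    rfl
  · intro h
    exact Subtype.ext h

/-! ### Constants -/

/-- constants of `A` lie in the chart ring. -/
theorem algebraMap_mem_chart (a : ↥A) :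
    algebraMap Qb (FL N) (a : Qb) ∈ RedPlace.chart A N b := by
  rw [RedPlace.mem_chart_iff]
  exact isIntegral_algebraMap (R := ↥(Algebra.adjoin ↥A ({RedPlace.coord N b} : Set (FL N))))
    (x := algebraMap ↥A _ a)

/-- **The constants** `A → D_b`. -/
def const : ↥A →+* ↥(RedPlace.chart A N b) :=
  ((algebraMap Qb (FL N)).comp A.subtype).codRestrict (RedPlace.chart A N b)
    (fun a => algebraMap_mem_chart A N b a)

theorem coe_const (a : ↥A) :
    ((const A N b a : ↥(RedPlace.chart A N b)) : FL N) = algebraMap Qb (FL N) (a : Qb) := rfl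

theorem const_injective : Function.Injective (const A N b) := by
  intro a a' h
  have h1 := congrArg (Subtype.val : ↥(RedPlace.chart A N b) → FL N) h
  rw [coe_const, coe_const] at h1
  exact Subtype.ext ((algebraMap Qb (FL N)).injective h1)

theorem ser_const (a : ↥A) : ser A N hℓ hℓN hA b (const A N b a) = HahnSeries.C a := by
  apply ser_unique
  have h1 : coeffMap A.subtype (HahnSeries.C a) = HahnSeries.C (a : Qb) := GaussA0.incl_C a
  rw [h1, ← GaussA0.algebraMap_eq_C]
  rfl

theorem red_const (a : ↥A) :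
    ((red A N hℓ hℓN hA b (const A N b a) :
      ↥(modularFunctionFieldFullC (IsLocalRing.ResidueField ↥A) N)) :
      LaurentSeries (IsLocalRing.ResidueField ↥A)) = HahnSeries.C (IsLocalRing.residue ↥A a) := by
  rw [coe_red, ser_const]
  exact GaussA0.rho_C (IsLocalRing.residue ↥A) a

theorem red_const_eq_zero (a : ↥A) (ha : a ∈ IsLocalRing.maximalIdeal ↥A) :
    red A N hℓ hℓN hA b (const A N b a) = 0 := by
  apply Subtype.ext
  rw [red_const, (IsLocalRing.residue_eq_zero_iff a).mpr ha, map_zero]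
  rfl

theorem red_const_ne_zero (a : ↥A) (ha : a ∉ IsLocalRing.maximalIdeal ↥A) :
    red A N hℓ hℓN hA b (const A N b a) ≠ 0 := by
  intro h0
  have h1 := congrArg (Subtype.val) h0
  rw [red_const] at h1
  have h2 : (HahnSeries.C (IsLocalRing.residue ↥A a) :
      LaurentSeries (IsLocalRing.ResidueField ↥A)) = HahnSeries.C 0 := by
    rw [h1, map_zero]
    rfl
  exact ha ((IsLocalRing.residue_eq_zero_iff a).mp (HahnSeries.C_injective h2))

/-! ### Compatibility with the finite levels -/

/-- **`red` at a finite level** is `RedC.redC` followed by the extension of residue fields. -/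
theorem red_ιL (K : Type*) [Field K] [Algebra K Qb] [Algebra ℚ K] [FiniteDimensional ℚ K]
    (π : ↥(A0.down K A)) (hπ : Irreducible π)
    (hmax : IsLocalRing.maximalIdeal ↥(A0.down K A) = Ideal.span {π})
    (c : ↥(integralClosure ↥(chart ↥(A0.down K A) (Line K (jF K N)) (coordK K N b)) (FK K N))) :
    ((red A N hℓ hℓN hA b ⟨ιL K N (c : FK K N), ιL_mem_chart K A N b c c.2⟩ :
      ↥(modularFunctionFieldFullC (IsLocalRing.ResidueField ↥A) N)) :
      LaurentSeries (IsLocalRing.ResidueField ↥A)) =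
    coeffMap (A0.resMap K A)
      ((RedC.redC K N A hℓ hℓN hA π hπ hmax (coordK K N b) (isCoord_coordK K N b) c :
        ↥(modularFunctionFieldFullC (IsLocalRing.ResidueField ↥(A0.down K A)) N)) :
        LaurentSeries (IsLocalRing.ResidueField ↥(A0.down K A))) := by
  obtain ⟨y0, hy0⟩ := exists_series K N A hℓ hA b (c : FK K N) c.2
  rw [red_eq A N hℓ hℓN hA b _ (coeffMap (A0.incl K A) y0)
    (by rw [coeffMap_subtype_incl, hy0]; rfl), coeffMap_residue_incl,
    redC_series K N A hℓ hℓN hA π hπ hmax b c y0 hy0]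

/-! ### The kernel of the reduction -/

/-- **(C)** The kernel of `red` is `𝔪_A D_b`. -/
theorem red_eq_zero_iff (x : ↥(RedPlace.chart A N b)) :
    red A N hℓ hℓN hA b x = 0 ↔
      ∃ c ∈ IsLocalRing.maximalIdeal ↥A, ∃ y : ↥(RedPlace.chart A N b),
        x = const A N b c * y := by
  constructor
  · intro h0
    obtain ⟨K, hK, hlev⟩ := exists_level_one A N b x.1 x.2
    have := hK
    obtain ⟨c, hc, hcx⟩ := hlev K le_rfl
    obtain ⟨hdvr, π, hirr, hπ0, hmax, -, -, -⟩ := Setup.exists_unif K A hℓ hA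
    have h1 := red_ιL A N hℓ hℓN hA b K π hirr hmax ⟨c, hc⟩
    have hx' : (⟨ιL K N c, ιL_mem_chart K A N b c hc⟩ : ↥(RedPlace.chart A N b)) = x :=
      Subtype.ext hcx
    have h2 : RedC.redC K N A hℓ hℓN hA π hirr hmax (coordK K N b) (isCoord_coordK K N b)
        ⟨c, hc⟩ = 0 := by
      apply Subtype.ext
      apply FieldDef.coeffMap_injective (A0.resMap K A)
      rw [← h1, hx', h0]
      rfl
    obtain ⟨c', hc'⟩ := (RedC.redC_eq_zero_iff K N A hℓ hℓN hA π hirr hmax (coordK K N b)
      (isCoord_coordK K N b) ⟨c, hc⟩).mp h2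
    have hc'' : c = algebraMap ↥(A0.down K A) (FK K N) π * (c' : FK K N) :=
      congrArg Subtype.val hc'
    refine ⟨A0.incl K A π, ?_, ⟨ιL K N (c' : FK K N), ιL_mem_chart K A N b c' c'.2⟩, ?_⟩
    · rw [A0.incl_mem_maximalIdeal_iff, hmax]
      exact Ideal.mem_span_singleton_self π
    · apply Subtype.ext
      show (x : FL N) = algebraMap Qb (FL N) ((A0.incl K A π : ↥A) : Qb) * ιL K N (c' : FK K N)
      rw [← hcx, hc'', map_mul, ιL_algebraMap_down]
      rfl
  · rintro ⟨c, hc, y, rfl⟩
    rw [map_mul, red_const_eq_zero A N hℓ hℓN hA b c hc, zero_mul]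

/-- an element of `D_b` is *primitive* (not divisible by a non-unit constant) iff its reduction
is not zero. -/
theorem prim_iff (x : ↥(RedPlace.chart A N b)) :
    (∀ c ∈ IsLocalRing.maximalIdeal ↥A, ¬ const A N b c ∣ x) ↔ red A N hℓ hℓN hA b x ≠ 0 := by
  constructor
  · intro h h0
    obtain ⟨c, hc, y, hy⟩ := (red_eq_zero_iff A N hℓ hℓN hA b x).mp h0
    exact h c hc ⟨y, hy⟩
  · rintro h c hc ⟨y, hy⟩
    exact h ((red_eq_zero_iff A N hℓ hℓN hA b x).mpr ⟨c, hc, y, hy⟩)

/-! ### Divisibility by constants -/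

set_option maxHeartbeats 1600000 in
/-- **(G)** If a nonzero constant `c` divides `a * w` in `D_b` and the reduction of `a` is not
zero, then `c` divides `w`. -/
theorem dvd_of_dvd_mul (c : ↥A) (hc : c ≠ 0) (a w : ↥(RedPlace.chart A N b))
    (ha : red A N hℓ hℓN hA b a ≠ 0) (h : const A N b c ∣ a * w) : const A N b c ∣ w := by
  classical
  obtain ⟨z, hz⟩ := h
  obtain ⟨K, hK, hcK, hlev⟩ := exists_level A N b {a.1, w.1, z.1}
    (by
      intro x hx
      rcases Finset.mem_insert.mp hx with rfl | hx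
      · exact a.2
      rcases Finset.mem_insert.mp hx with rfl | hx
      · exact w.2
      rw [Finset.mem_singleton.mp hx]
      exact z.2) {(c : Qb)}
  have := hK
  obtain ⟨aK, haK, haKx⟩ := hlev K le_rfl a.1 (Finset.mem_insert_self _ _)
  obtain ⟨wK, hwK, hwKx⟩ := hlev K le_rfl w.1
    (Finset.mem_insert_of_mem (Finset.mem_insert_self _ _))
  obtain ⟨zK, hzK, hzKx⟩ := hlev K le_rfl z.1
    (Finset.mem_insert_of_mem (Finset.mem_insert_of_mem (Finset.mem_singleton_self _)))
  have hcK' : (c : Qb) ∈ K := hcK _ (Finset.mem_singleton_self _)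
  have hc0m : (⟨(c : Qb), hcK'⟩ : ↥K) ∈ A0.down K A := c.2
  have e0 : A0.incl K A ⟨⟨(c : Qb), hcK'⟩, hc0m⟩ = c := Subtype.ext rfl
  obtain ⟨hdvr, π, hirr, hπ0, hmax, -, -, -⟩ := Setup.exists_unif K A hℓ hA
  have hc0 : (⟨⟨(c : Qb), hcK'⟩, hc0m⟩ : ↥(A0.down K A)) ≠ 0 := by
    intro h0
    apply hc
    rw [← e0, h0, map_zero]
  obtain ⟨n, u, hu⟩ := IsDiscreteValuationRing.eq_unit_mul_pow_irreducible hc0 hirr
  -- the equation at level `K`
  have hEq : (⟨aK, haK⟩ : ↥(integralClosure ↥(chart ↥(A0.down K A) (Line K (jF K N))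
      (coordK K N b)) (FK K N))) * ⟨wK, hwK⟩ =
      constC K N A b π ^ n * (constC K N A b (u : ↥(A0.down K A)) * ⟨zK, hzK⟩) := by
    apply Subtype.ext
    apply ιL_injective K N
    have h1 : ιL K N (aK * wK) = (a : FL N) * (w : FL N) := by
      rw [map_mul, haKx, hwKx]
    have h2 : ιL K N ((algebraMap ↥(A0.down K A) (FK K N) π) ^ n *
        (algebraMap ↥(A0.down K A) (FK K N) (u : ↥(A0.down K A)) * zK)) =
        algebraMap Qb (FL N) (c : Qb) * (z : FL N) := by
      have h3 : (algebraMap ↥(A0.down K A) (FK K N) π) ^ n *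
          (algebraMap ↥(A0.down K A) (FK K N) (u : ↥(A0.down K A)) * zK) =
          algebraMap ↥(A0.down K A) (FK K N) ⟨⟨(c : Qb), hcK'⟩, hc0m⟩ * zK := by
        rw [hu, map_mul, map_pow]
        ring
      rw [h3, map_mul, ιL_algebraMap_down, e0, hzKx]
      rfl
    have h4 : (a : FL N) * (w : FL N) = algebraMap Qb (FL N) (c : Qb) * (z : FL N) :=
      congrArg Subtype.val hz
    exact h1.trans (h4.trans h2.symm)
  have haR : RedC.redC K N A hℓ hℓN hA π hirr hmax (coordK K N b) (isCoord_coordK K N b)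
      ⟨aK, haK⟩ ≠ 0 := by
    intro h0
    apply ha
    apply Subtype.ext
    have h1 := red_ιL A N hℓ hℓN hA b K π hirr hmax ⟨aK, haK⟩
    have hx' : (⟨ιL K N aK, ιL_mem_chart K A N b aK haK⟩ : ↥(RedPlace.chart A N b)) = a :=
      Subtype.ext haKx
    rw [hx', h0] at h1
    rw [h1]
    exact map_zero _
  obtain ⟨w', hw'⟩ := exists_eq_pow_mul K N A hℓ hℓN hA π hirr hmax b ⟨aK, haK⟩ haR n
    ⟨wK, hwK⟩ _ hEq
  refine ⟨⟨ιL K N ((constC K N A b ((u⁻¹ : (↥(A0.down K A))ˣ) : ↥(A0.down K A)) * w' :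
    ↥(integralClosure ↥(chart ↥(A0.down K A) (Line K (jF K N)) (coordK K N b)) (FK K N))) :
      FK K N), ιL_mem_chart K A N b _ (Subtype.property _)⟩, ?_⟩
  apply Subtype.ext
  show (w : FL N) = algebraMap Qb (FL N) (c : Qb) * ιL K N _
  have h5 : wK = algebraMap ↥(A0.down K A) (FK K N) ⟨⟨(c : Qb), hcK'⟩, hc0m⟩ *
      ((constC K N A b ((u⁻¹ : (↥(A0.down K A))ˣ) : ↥(A0.down K A)) * w' :
        ↥(integralClosure ↥(chart ↥(A0.down K A) (Line K (jF K N)) (coordK K N b)) (FK K N))) :
          FK K N) := by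
    have h6 : wK = (algebraMap ↥(A0.down K A) (FK K N) π) ^ n * (w' : FK K N) :=
      congrArg Subtype.val hw'
    have h7 : ((constC K N A b ((u⁻¹ : (↥(A0.down K A))ˣ) : ↥(A0.down K A)) * w' :
        ↥(integralClosure ↥(chart ↥(A0.down K A) (Line K (jF K N)) (coordK K N b)) (FK K N))) :
          FK K N) = algebraMap ↥(A0.down K A) (FK K N)
            ((u⁻¹ : (↥(A0.down K A))ˣ) : ↥(A0.down K A)) * (w' : FK K N) := rfl
    have h8 : (⟨⟨(c : Qb), hcK'⟩, hc0m⟩ : ↥(A0.down K A)) *
        ((u⁻¹ : (↥(A0.down K A))ˣ) : ↥(A0.down K A)) = π ^ n := by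
      rw [hu, mul_comm (u : ↥(A0.down K A)), mul_assoc, Units.mul_inv, mul_one]
    rw [h6, h7, ← mul_assoc, ← map_mul, h8, map_pow]
  rw [← hwKx, h5, map_mul, ιL_algebraMap_down, e0]
  rfl

end Top



end Fermat.Agent.S37.ChartRed
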