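import Mathlib
import Fermat.Agent.S37.ChartRed
import Fermat.Agent.S37.ChartAdapt

/-!
# S37, blocks (W3)/(W4): the two chart facts consumed by `HeckeCore.val_heckeNorm`

`A` a valuation subring of `ℚ̄` over the prime `ℓ ∤ N`, `D_b = RedPlace.chart A N b`.

* `exists_series` (`hInt`) : every element of `D_b` has a `q`-expansion with coefficients in `A`;
* `val_eq_zero_of_coeffMap_residue_eq_zero` (`hGS`) : an element of `D_b` whose `A`-series reduces
  to `0` modulo the maximal ideal has value `0` at every place `P` of the chart `b`.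

Both are corollaries of `ChartRed` (`exists_isInt`, `red_eq`, `red_eq_zero_iff`).
-/

set_option autoImplicit false

noncomputable section

open AlgebraicCurve ModularCurve
open Fermat.Agent.S18.S24Export

namespace Fermat.Agent.S37.ChartGS

local notation "Qb" => AlgebraicClosure ℚ

variable (N : ℕ) [NeZero N] {ℓ : ℕ} (hℓ : ℓ.Prime) (hℓN : ¬ ℓ ∣ N)
  (A : ValuationSubring Qb) (hA : A.LiesOverPrime ℓ) (b : Bool)

include hℓ hℓN hA in
/-- **(hInt)** chart elements have `A`-integral `q`-expansions. -/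
theorem exists_series {x : FL N} (hx : x ∈ RedPlace.chart A N b) :
    ∃ y : LaurentSeries ↥A, coeffMap A.subtype y = ((x : FL N) : LaurentSeries Qb) := by
  obtain ⟨y, -, hy⟩ := ChartRed.exists_isInt A N hℓ hℓN hA b x hx
  exact ⟨y, hy⟩

include hℓ hℓN hA in
/-- **(hGS)** a chart element whose `A`-series reduces to `0` has value `0` at every place of
the chart. -/
theorem val_eq_zero_of_coeffMap_residue_eq_zero {x : FL N} (hx : x ∈ RedPlace.chart A N b)
    (y : LaurentSeries ↥A) (hy : coeffMap A.subtype y = ((x : FL N) : LaurentSeries Qb))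
    (hy0 : coeffMap (IsLocalRing.residue ↥A) y = 0) (P : Place Qb (FL N))
    (hP : RedPlace.flag A N P = b) : RedPlace.val A N P x = 0 := by
  subst hP
  have h0 : ChartRed.red A N hℓ hℓN hA _ ⟨x, hx⟩ = 0 := by
    apply Subtype.ext
    rw [ChartRed.red_eq A N hℓ hℓN hA _ ⟨x, hx⟩ y hy, hy0]
    rfl
  obtain ⟨c, hc, w, hw⟩ := (ChartRed.red_eq_zero_iff A N hℓ hℓN hA _ ⟨x, hx⟩).mp h0
  have hx' : x = algebraMap Qb (FL N) (c : Qb) * (w : FL N) := by
    have h := congrArg Subtype.val hw
    rw [Subring.coe_mul, ChartRed.coe_const] at h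
    exact h
  rw [hx', RedPlace.val_mul A N P (RedPlace.algebraMap_mem_Rint A N P c)
    (ChartAdapt.chart_le_Rint A N P w.2), RedPlace.val_algebraMap,
    (IsLocalRing.residue_eq_zero_iff _).mpr hc, zero_mul]

include hℓ hℓN hA in
/-- the pair in the exact shape of the hypotheses `hInt`, `hGS` of `HeckeCore.val_heckeNorm`
(for the chart of the place `P`). -/
theorem hInt_hGS (P : Place Qb (FL N)) :
    (∀ x ∈ RedPlace.chart A N (RedPlace.flag A N P), ∃ y : LaurentSeries ↥A,
      coeffMap A.subtype y = ((x : FL N) : LaurentSeries Qb)) ∧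
    (∀ x ∈ RedPlace.chart A N (RedPlace.flag A N P), ∀ y : LaurentSeries ↥A,
      coeffMap A.subtype y = ((x : FL N) : LaurentSeries Qb) →
      coeffMap (IsLocalRing.residue ↥A) y = 0 → RedPlace.val A N P x = 0) :=
  ⟨fun _ hx => exists_series N hℓ hℓN A hA _ hx,
   fun _ hx y hy hy0 =>
    val_eq_zero_of_coeffMap_residue_eq_zero N hℓ hℓN A hA _ hx y hy hy0 P rfl⟩

end Fermat.Agent.S37.ChartGS
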