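import Mathlib
import Fermat.Agent.S05.InertiaAPI
import Fermat.Agent.S37.ChartGS
import Fermat.Agent.S37.GalVal

/-!
# S37, block (W3): the key fact (K) for the inertia group

`A` a valuation subring of `ℚ̄` over the prime `ℓ ∤ N`, `D_b = RedPlace.chart A N b`,
`τ` in the inertia group of `A`.

* `coeff_gal_smul_sub` : the `q`-expansion of `τ x - x` is `τ(x_n) - x_n` coefficientwise;
* `val_smul_sub_eq_zero` **(K)** : for `x ∈ D_b` and a place `P` of the chart `b`, the value of
  `τ x - x` at `P` is `0`.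

Proof of (K): `τ x - x` lies in the chart (`GalVal.smul_mem_chart`), its `A`-series
(`ChartGS.exists_series`) has coefficients `τ(x_n) - x_n` with `x_n ∈ A`, which are non-units of
`A` since inertia acts trivially on the residue field; hence the series reduces to `0` and
`ChartGS.val_eq_zero_of_coeffMap_residue_eq_zero` applies.
-/

set_option autoImplicit false

noncomputable section

open AlgebraicCurve ModularCurve
open Fermat.Agent.S18.S24Export

namespace Fermat.Agent.S37.InertiaKey

local notation "Qb" => AlgebraicClosure ℚ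

variable (N : ℕ) [NeZero N]

omit [NeZero N] in
/-- the `q`-expansion of `σ x - x`, coefficientwise. -/
theorem coeff_gal_smul_sub (σ : Qb ≃ₐ[ℚ] Qb) (x : FL N) (n : ℤ) :
    (((RedPlace.gal N σ • x - x : FL N) : LaurentSeries Qb)).coeff n =
      σ (((x : FL N) : LaurentSeries Qb).coeff n) - ((x : FL N) : LaurentSeries Qb).coeff n := by
  have h1 : ((RedPlace.gal N σ • x - x : FL N) : LaurentSeries Qb) =
      coeffMap (σ : Qb →+* Qb) ((x : FL N) : LaurentSeries Qb) - ((x : FL N) : LaurentSeries Qb) :=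
    rfl
  rw [h1, HahnSeries.coeff_sub, coeffMap_coeff]
  rfl

variable {ℓ : ℕ} (hℓ : ℓ.Prime) (hℓN : ¬ ℓ ∣ N) (A : ValuationSubring Qb)
  (hA : A.LiesOverPrime ℓ)

include hℓ hℓN hA in
/-- **(K)** for `τ` in the inertia group of `A`, `x` in the chart `b` and `P` a place of the
chart `b`: `τ x - x` has value `0` at `P`. -/
theorem val_smul_sub_eq_zero {τ : Qb ≃ₐ[ℚ] Qb} (hτ : τ ∈ A.inertiaSubgroupIn ℚ) (b : Bool)
    {x : FL N} (hx : x ∈ RedPlace.chart A N b) (P : Place Qb (FL N))
    (hP : RedPlace.flag A N P = b) :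
    RedPlace.val A N P (RedPlace.gal N τ • x - x) = 0 := by
  have hτx : RedPlace.gal N τ • x ∈ RedPlace.chart A N b :=
    GalVal.smul_mem_chart A N (GalVal.mem_decomp_of_mem_inertia A hτ) b hx
  have hd : RedPlace.gal N τ • x - x ∈ RedPlace.chart A N b := Subring.sub_mem _ hτx hx
  obtain ⟨y, hy⟩ := ChartGS.exists_series N hℓ hℓN A hA b hx
  obtain ⟨z, hz⟩ := ChartGS.exists_series N hℓ hℓN A hA b hd
  refine ChartGS.val_eq_zero_of_coeffMap_residue_eq_zero N hℓ hℓN A hA b hd z hz ?_ P hP
  ext n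
  rw [coeffMap_coeff, HahnSeries.coeff_zero, IsLocalRing.residue_eq_zero_iff,
    ← ValuationSubring.coe_mem_nonunits_iff]
  have h1 : ((z.coeff n : ↥A) : Qb) =
      τ ((y.coeff n : ↥A) : Qb) - ((y.coeff n : ↥A) : Qb) := by
    have h2 := congrArg (fun s : LaurentSeries Qb => s.coeff n) hz
    have h3 := congrArg (fun s : LaurentSeries Qb => s.coeff n) hy
    simp only [coeffMap_coeff] at h2 h3
    rw [coeff_gal_smul_sub, ← h3] at h2
    exact h2
  rw [h1]
  exact Fermat.Agent.S05.InertiaAPI.apply_sub_mem_nonunits hτ (y.coeff n).2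

end Fermat.Agent.S37.InertiaKey
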