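import Mathlib
import Fermat.Agent.S37.Skeleton2
import Fermat.Agent.S37.GalVal
import Fermat.Agent.S37.InertiaKey

/-!
# S37, block (W3): the reduction of a place is invariant under the inertia group

`A` a valuation subring of `ℚ̄` over the prime `ℓ ∤ N`, `r = RedPlace.r A N` the reduction of
places of `X₀(N)` over `ℚ̄`.  For `τ` in the inertia group of `A` and every place `P`:
`r (τ P) = r P`.

* `r_inertia` : the block statement, in the form `Skeleton2.PInertia N A (RedPlace.r A N)`;
* `r_inertia'` : the same, unfolded.

Proof: `GalVal.r_inertia_of_key` (transport of values, charts and flags under the decomposition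
group) applied to the key fact `InertiaKey.val_smul_sub_eq_zero` (`τ x - x` has value `0` at the
places of the chart of `x`).
-/

set_option autoImplicit false

noncomputable section

open AlgebraicCurve ModularCurve
open Fermat.Agent.S18.S24Export

namespace Fermat.Agent.S37.RedGal

local notation "Qb" => AlgebraicClosure ℚ

variable (N : ℕ) [NeZero N] {ℓ : ℕ} (hℓ : ℓ.Prime) (hℓN : ¬ ℓ ∣ N)
  (A : ValuationSubring Qb) (hA : A.LiesOverPrime ℓ)

include hℓ hℓN hA in
/-- **Block (W3), unfolded.**  `r (τ P) = r P` for `τ` in the inertia group of `A`. -/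
theorem r_inertia' :
    ∀ τ ∈ A.inertiaSubgroupIn ℚ, ∀ P : Place Qb (FL N),
      RedPlace.r A N (RedPlace.gal N τ • P) = RedPlace.r A N P :=
  GalVal.r_inertia_of_key A N
    (fun _ hτ b _ hx P hP => InertiaKey.val_smul_sub_eq_zero N hℓ hℓN A hA hτ b hx P hP)

include hℓ hℓN hA in
/-- **Block (W3).**  The reduction of places is invariant under the inertia group of `A`. -/
theorem r_inertia : Skeleton2.PInertia N A (RedPlace.r A N) :=
  r_inertia' N hℓ hℓN A hA

end Fermat.Agent.S37.RedGal
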