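import Mathlib
import Fermat.Prelude.Def_ModularCurve_X0
import Fermat.Prelude.Def_ModularCurve_LaurentCoeff
import Fermat.Prelude.Thm_ModularCurve_coeffMap_qExpand
import Fermat.Agent.S28.HahnSubst

/-!
# S37 (W4): the Kronecker congruence for an arbitrary integral Laurent series

Pure Laurent-series statement.  `R` is a coefficient ring (`A` or `A ∩ K₀`), `ι : R → S` its
embedding into a field, `res : R → k` a reduction to a ring of characteristic `ℓ`, `ζ` an
`ℓ`-th root of unity with `res ζ = 1`.  If a polynomial `c` over `S((q))` satisfies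

  `c(q^ℓ) = (X - y(q^(ℓ²))) ∏_{i<ℓ} (X - y(ζ^i q))`

for a series `y` with coefficients in `R`, then `c` has coefficients in `R((q))` and its
reduction is `(X - ȳ(q^ℓ)) (X^ℓ - (φ ȳ)(q))`, `φ` the coefficientwise Frobenius.
-/

set_option autoImplicit false
set_option linter.unusedSectionVars false
set_option linter.style.haveILetI false

noncomputable section

open Polynomial ModularCurve

namespace Fermat.Agent.S37.Kronecker

open Fermat.Agent.S28.HahnSubst

/-! ### Frobenius on Laurent series in characteristic `ℓ` -/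

section CharL

variable {k : Type*} [CommRing k] (ℓ : ℕ) [Fact ℓ.Prime] [CharP k ℓ]

/-- `k((q))` has characteristic `ℓ`. -/
theorem laurentCharP : CharP (LaurentSeries k) ℓ :=
  charP_of_injective_ringHom (f := (HahnSeries.C : k →+* LaurentSeries k))
    HahnSeries.C_injective ℓ

/-- the coefficients of `qExpand ℓ g` -/
theorem qExpand_coeff (g : LaurentSeries k) (n : ℤ) :
    (qExpand k ℓ g).coeff n = if (ℓ : ℤ) ∣ n then g.coeff (n / ℓ) else 0 := by
  split_ifs with h
  · obtain ⟨m, rfl⟩ := h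
    rw [qExpand_coeff_mul, Int.mul_ediv_cancel_left _ (by exact_mod_cast NeZero.ne ℓ)]
  · exact qExpand_coeff_of_not_dvd ℓ g h

/-- **Frobenius on Laurent series**: `f(q)^ℓ = (φ f)(q^ℓ)` in characteristic `ℓ`, `φ` the
coefficientwise Frobenius. -/
theorem pow_char_eq_qExpand (f : LaurentSeries k) :
    f ^ ℓ = qExpand k ℓ (coeffMap (frobenius k ℓ) f) := by
  haveI := laurentCharP (k := k) ℓ
  have hℓ0 : (0 : ℤ) < ℓ := by exact_mod_cast (Fact.out : ℓ.Prime).pos
  ext n
  -- truncation level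
  obtain ⟨M, hM⟩ : ∃ M : ℤ, n < ℓ * M := by
    refine ⟨|n| + 1, ?_⟩
    have h1 : n ≤ |n| := le_abs_self n
    have h2 : (1 : ℤ) ≤ ℓ := hℓ0
    nlinarith [abs_nonneg n]
  set s : Finset ℤ := Finset.Ico f.order M with hs
  set p : LaurentSeries k := ∑ i ∈ s, HahnSeries.single i (f.coeff i) with hp
  set r : LaurentSeries k := f - p with hr
  have hpcoeff : ∀ i : ℤ, p.coeff i = if i ∈ s then f.coeff i else 0 := by
    intro i
    rw [hp, HahnSeries.coeff_sum]
    split_ifs with hi
    · rw [Finset.sum_eq_single i]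
      · rw [HahnSeries.coeff_single_same]
      · intro j _ hji
        exact HahnSeries.coeff_single_of_ne (Ne.symm hji)
      · intro h; exact absurd hi h
    · refine Finset.sum_eq_zero fun j hj => ?_
      refine HahnSeries.coeff_single_of_ne ?_
      rintro rfl
      exact hi hj
  have hrcoeff : ∀ i : ℤ, i < M → r.coeff i = 0 := by
    intro i hi
    rw [hr, HahnSeries.coeff_sub, hpcoeff]
    split_ifs with his
    · rw [sub_self]
    · rw [sub_zero]
      rcases eq_or_ne f 0 with rfl | hf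
      · rfl
      · apply HahnSeries.coeff_eq_zero_of_lt_order
        by_contra hlt
        exact his (Finset.mem_Ico.mpr ⟨not_lt.mp hlt, hi⟩)
  have hrtop : ((M : ℤ) : WithTop ℤ) ≤ r.orderTop := by
    rw [HahnSeries.le_orderTop_iff_forall]
    intro i hi
    exact hrcoeff i (by exact_mod_cast hi)
  have hrpow : (r ^ ℓ).coeff n = 0 := by
    apply HahnSeries.coeff_eq_zero_of_lt_orderTop
    refine lt_of_lt_of_le ?_ (HahnSeries.orderTop_nsmul_le_orderTop_pow (x := r) (n := ℓ))
    refine lt_of_lt_of_le ?_ (nsmul_le_nsmul_right hrtop ℓ)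
    rw [← WithTop.coe_nsmul, WithTop.coe_lt_coe, nsmul_eq_mul]
    exact hM
  have hf : f = p + r := by rw [hr]; ring
  have hΨr : (qExpand k ℓ (coeffMap (frobenius k ℓ) r)).coeff n = 0 := by
    rw [qExpand_coeff]
    split_ifs with h
    · obtain ⟨m, rfl⟩ := h
      rw [Int.mul_ediv_cancel_left _ hℓ0.ne', coeffMap_coeff, hrcoeff m (by
        by_contra hmM
        have : (ℓ : ℤ) * M ≤ ℓ * m := mul_le_mul_of_nonneg_left (not_lt.mp hmM) hℓ0.le
        omega), map_zero]
    · rfl
  have hpp : p ^ ℓ = qExpand k ℓ (coeffMap (frobenius k ℓ) p) := by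
    rw [hp, sum_pow_char, map_sum, map_sum]
    refine Finset.sum_congr rfl fun i _ => ?_
    rw [HahnSeries.single_pow, coeffMap_single, qExpand_single, frobenius_def, nsmul_eq_mul]
  conv_lhs => rw [hf, add_pow_char, HahnSeries.coeff_add, hrpow, add_zero, hpp]
  conv_rhs => rw [hf, map_add, map_add, HahnSeries.coeff_add, hΨr, add_zero]

end CharL

/-! ### The twist over a coefficient ring -/

section Twist

variable {R S : Type*} [CommRing R] [Field S]

/-- `f(q) ↦ f(c q)` for a unit `c` of a commutative ring (a plain function). -/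
def twR (c : Rˣ) (f : LaurentSeries R) : LaurentSeries R where
  coeff n := ((c ^ n : Rˣ) : R) * f.coeff n
  isPWO_support' := f.isPWO_support.mono (fun n hn => by
    simp only [Function.mem_support, ne_eq] at hn
    exact fun h => hn (by rw [h, mul_zero]))

@[simp] theorem twR_coeff (c : Rˣ) (f : LaurentSeries R) (n : ℤ) :
    (twR c f).coeff n = ((c ^ n : Rˣ) : R) * f.coeff n := rfl

/-- the iterates of the twist over a field -/
theorem iterate_twist_coeff (ζ : Sˣ) (i : ℕ) (f : LaurentSeries S) (n : ℤ) :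
    ((twist ζ)^[i] f).coeff n = (((ζ ^ i) ^ n : Sˣ) : S) * f.coeff n := by
  induction i generalizing f with
  | zero => simp
  | succ i ih =>
    rw [Function.iterate_succ_apply, ih, twist_coeff, ← mul_assoc, ← Units.val_mul, ← mul_zpow,
      pow_succ]

theorem iterate_twist_eq (ζ : Sˣ) (i : ℕ) (f : LaurentSeries S) :
    (twist ζ)^[i] f = twist (ζ ^ i) f := by
  ext n
  rw [iterate_twist_coeff, twist_coeff]

/-- the twist over the coefficient ring maps to the twist over the field -/
theorem coeffMap_twR (ι : R →+* S) (c : Rˣ) (f : LaurentSeries R) :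
    coeffMap ι (twR c f) = twist (Units.map (ι : R →* S) c) (coeffMap ι f) := by
  ext n
  rw [coeffMap_coeff, twR_coeff, twist_coeff, coeffMap_coeff, map_mul]
  congr 1
  have h : (((Units.map (ι : R →* S) c) ^ n : Sˣ) : S) =
      ((Units.map (ι : R →* S) (c ^ n) : Sˣ) : S) := by rw [map_zpow]
  rw [h]
  rfl

/-- the twist by a unit reducing to `1` disappears after reduction -/
theorem coeffMap_twR_of_eq_one {k : Type*} [CommRing k] (res : R →+* k) (c : Rˣ)
    (hc : res c = 1) (f : LaurentSeries R) :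
    coeffMap res (twR c f) = coeffMap res f := by
  ext n
  rw [coeffMap_coeff, twR_coeff, coeffMap_coeff, map_mul]
  have h : res ((c ^ n : Rˣ) : R) = 1 := by
    have h1 : Units.map (res : R →* k) c = 1 := Units.ext hc
    have h2 : res ((c ^ n : Rˣ) : R) = ((Units.map (res : R →* k) (c ^ n) : kˣ) : k) := rfl
    rw [h2, map_zpow, h1, one_zpow, Units.val_one]
  rw [h, one_mul]

end Twist

/-! ### Descent of coefficients along `q ↦ q^ℓ` -/

section Lift

variable {R S : Type*} [CommRing R] [CommRing S]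

theorem coeffMap_injective (ι : R →+* S) (hι : Function.Injective ι) :
    Function.Injective (coeffMap ι) := by
  intro x y hxy
  ext n
  apply hι
  have := congrArg (fun z => z.coeff n) hxy
  simpa using this

/-- If `x(q^ℓ)` has coefficients in `R`, so has `x`. -/
theorem exists_coeffMap_eq_of_qExpand (ι : R →+* S) (hι : Function.Injective ι) (ℓ : ℕ)
    [NeZero ℓ] (x : LaurentSeries S) (w : LaurentSeries R)
    (h : qExpand S ℓ x = coeffMap ι w) : ∃ xR : LaurentSeries R, coeffMap ι xR = x := by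
  have hcoeff : ∀ m : ℤ, ι (w.coeff ((ℓ : ℤ) * m)) = x.coeff m := by
    intro m
    rw [← coeffMap_coeff, ← h, qExpand_coeff_mul]
  have hbdd : BddBelow (Function.support fun m : ℤ => w.coeff ((ℓ : ℤ) * m)) := by
    rcases eq_or_ne x 0 with rfl | hx
    · have : (Function.support fun m : ℤ => w.coeff ((ℓ : ℤ) * m)) = ∅ := by
        ext m
        simp only [Function.mem_support, ne_eq, Set.mem_empty_iff_false, iff_false, not_not]
        apply hι
        rw [hcoeff, map_zero, HahnSeries.coeff_zero]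
      rw [this]
      exact bddBelow_empty
    · refine ⟨x.order, fun m hm => ?_⟩
      by_contra hlt
      apply hm
      apply hι
      rw [hcoeff, map_zero]
      exact HahnSeries.coeff_eq_zero_of_lt_order (not_le.mp hlt)
  refine ⟨HahnSeries.ofSuppBddBelow _ hbdd, ?_⟩
  ext m
  rw [coeffMap_coeff]
  exact hcoeff m

end Lift

/-! ### The Kronecker congruence -/

section Main

variable {R S k : Type*} [CommRing R] [Field S] [CommRing k] (ℓ : ℕ) [Fact ℓ.Prime] [CharP k ℓ]

/-- the characteristic-`ℓ` polynomial identity `(X - a)^ℓ = X^ℓ - a^ℓ` over `k((q))` -/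
theorem X_sub_C_pow_char (a : LaurentSeries k) :
    (X - C a) ^ ℓ = X ^ ℓ - C (a ^ ℓ) := by
  haveI := laurentCharP (k := k) ℓ
  rw [sub_pow_char, ← C_pow]

/-- **Kronecker congruence for an arbitrary integral series.**  If
`c(q^ℓ) = (X - y(q^(ℓ²))) ∏_{i<ℓ} (X - y(ζ^i q))` with `y` over `R`, then `c` is defined over
`R((q))` and reduces to `(X - ȳ(q^ℓ)) (X^ℓ - (φ ȳ)(q))`. -/
theorem kronecker (ι : R →+* S) (hι : Function.Injective ι) (res : R →+* k) (ζ : Sˣ) (ζR : Rˣ)
    (hζ : ι ζR = ζ) (hζ1 : res ζR = 1) (y : LaurentSeries R) (c : (LaurentSeries S)[X])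
    (hc : c.map (qExpand S ℓ) = (X - C (qExpand S (ℓ ^ 2) (coeffMap ι y))) *
      ∏ i ∈ Finset.range ℓ, (X - C ((twist ζ)^[i] (coeffMap ι y)))) :
    ∃ cR : (LaurentSeries R)[X], cR.map (coeffMap ι) = c ∧
      cR.map (coeffMap res) = (X - C (qExpand k ℓ (coeffMap res y))) *
        (X ^ ℓ - C (coeffMap (frobenius k ℓ) (coeffMap res y))) := by
  -- the right-hand side over `R`
  set PR : (LaurentSeries R)[X] := (X - C (qExpand R (ℓ ^ 2) y)) *
    ∏ i ∈ Finset.range ℓ, (X - C (twR (ζR ^ i) y)) with hPR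
  have hζ' : Units.map (ι : R →* S) ζR = ζ := Units.ext hζ
  have hPRι : PR.map (coeffMap ι) = c.map (qExpand S ℓ) := by
    rw [hc, hPR, Polynomial.map_mul, Polynomial.map_sub, Polynomial.map_X, Polynomial.map_C,
      Polynomial.map_prod, coeffMap_qExpand]
    congr 1
    refine Finset.prod_congr rfl fun i _ => ?_
    rw [Polynomial.map_sub, Polynomial.map_X, Polynomial.map_C, coeffMap_twR, map_pow, hζ',
      iterate_twist_eq]
  -- the coefficients of `c` descend
  have hlift : ∀ n : ℕ, c.coeff n ∈ Set.range (coeffMap ι) := by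
    intro n
    obtain ⟨xR, hxR⟩ := exists_coeffMap_eq_of_qExpand ι hι ℓ (c.coeff n) (PR.coeff n) (by
      rw [← Polynomial.coeff_map, ← Polynomial.coeff_map, hPRι])
    exact ⟨xR, hxR⟩
  obtain ⟨cR, hcR⟩ : ∃ cR : (LaurentSeries R)[X], cR.map (coeffMap ι) = c := by
    have : c ∈ Polynomial.lifts (coeffMap ι) := (Polynomial.lifts_iff_coeff_lifts c).mpr hlift
    exact (Polynomial.mem_lifts c).mp this
  refine ⟨cR, hcR, ?_⟩
  -- `cR(q^ℓ) = PR`
  have hcomm : (coeffMap ι).comp (qExpand R ℓ) = (qExpand S ℓ).comp (coeffMap ι) :=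
    RingHom.ext fun x => coeffMap_qExpand ι ℓ x
  have hcRP : cR.map (qExpand R ℓ) = PR := by
    apply Polynomial.map_injective (coeffMap ι) (coeffMap_injective ι hι)
    rw [Polynomial.map_map, hcomm, ← Polynomial.map_map, hcR, hPRι]
  -- reduce
  have hcomm' : (coeffMap res).comp (qExpand R ℓ) = (qExpand k ℓ).comp (coeffMap res) :=
    RingHom.ext fun x => coeffMap_qExpand res ℓ x
  apply Polynomial.map_injective (qExpand k ℓ) (qExpand_injective ℓ)
  rw [Polynomial.map_map, ← hcomm', ← Polynomial.map_map, hcRP, hPR, Polynomial.map_mul,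
    Polynomial.map_sub, Polynomial.map_X, Polynomial.map_C, Polynomial.map_prod,
    coeffMap_qExpand, Polynomial.map_mul, Polynomial.map_sub, Polynomial.map_sub,
    Polynomial.map_X, Polynomial.map_C, Polynomial.map_C, Polynomial.map_pow, Polynomial.map_X,
    qExpand_qExpand, ← pow_char_eq_qExpand, ← X_sub_C_pow_char]
  congr 1
  · rw [qExpand_congr (R := k) (pow_two ℓ)]
  · rw [Finset.prod_congr rfl (g := fun _ => (X - C (coeffMap res y) : (LaurentSeries k)[X]))
      (fun i _ => by
        rw [Polynomial.map_sub, Polynomial.map_X, Polynomial.map_C,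
          coeffMap_twR_of_eq_one res (ζR ^ i) (by rw [Units.val_pow_eq_pow_val, map_pow, hζ1,
            one_pow])]),
      Finset.prod_const, Finset.card_range]

/-- Corollary form with a coefficientwise `ℓ`-th root `g` of the reduction (`k` perfect):
the reduced polynomial is `(X - g^ℓ) (X^ℓ - φ ȳ)`. -/
theorem kronecker' (ι : R →+* S) (hι : Function.Injective ι) (res : R →+* k) (ζ : Sˣ) (ζR : Rˣ)
    (hζ : ι ζR = ζ) (hζ1 : res ζR = 1) (y : LaurentSeries R) (c : (LaurentSeries S)[X])
    (hc : c.map (qExpand S ℓ) = (X - C (qExpand S (ℓ ^ 2) (coeffMap ι y))) *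
      ∏ i ∈ Finset.range ℓ, (X - C ((twist ζ)^[i] (coeffMap ι y))))
    (g : LaurentSeries k) (hg : coeffMap (frobenius k ℓ) g = coeffMap res y) :
    ∃ cR : (LaurentSeries R)[X], cR.map (coeffMap ι) = c ∧
      cR.map (coeffMap res) = (X - C (g ^ ℓ)) *
        (X ^ ℓ - C (coeffMap (frobenius k ℓ) (coeffMap res y))) := by
  obtain ⟨cR, h1, h2⟩ := kronecker ℓ ι hι res ζ ζR hζ hζ1 y c hc
  exact ⟨cR, h1, by rw [h2, pow_char_eq_qExpand, hg]⟩

theorem coeffMap_C' {R' S' : Type*} [CommRing R'] [CommRing S'] (f : R' →+* S') (a : R') :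
    coeffMap f (HahnSeries.C a) = HahnSeries.C (f a) := by
  rw [HahnSeries.C_apply, coeffMap_single, HahnSeries.C_apply]

/-- **Kronecker congruence, norm form.**  If
`c(q^ℓ) = (y(q^(ℓ²)) - a) ∏_{i<ℓ} (y(ζ^i q) - a)` with `y` over `R` and `a ∈ R`, then `c` is
defined over `R((q))` and reduces to `(ȳ(q^ℓ) - ā) ((φ ȳ)(q) - ā^ℓ)`. -/
theorem kronecker_norm (ι : R →+* S) (hι : Function.Injective ι) (res : R →+* k) (ζ : Sˣ)
    (ζR : Rˣ) (hζ : ι ζR = ζ) (hζ1 : res ζR = 1) (y : LaurentSeries R) (a : R)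
    (c : LaurentSeries S)
    (hc : qExpand S ℓ c = (qExpand S (ℓ ^ 2) (coeffMap ι y) - HahnSeries.C (ι a)) *
      ∏ i ∈ Finset.range ℓ, ((twist ζ)^[i] (coeffMap ι y) - HahnSeries.C (ι a))) :
    ∃ cR : LaurentSeries R, coeffMap ι cR = c ∧
      coeffMap res cR = (qExpand k ℓ (coeffMap res y) - HahnSeries.C (res a)) *
        (coeffMap (frobenius k ℓ) (coeffMap res y) - HahnSeries.C (res a ^ ℓ)) := by
  haveI := laurentCharP (k := k) ℓ
  set w : LaurentSeries R := (qExpand R (ℓ ^ 2) y - HahnSeries.C a) *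
    ∏ i ∈ Finset.range ℓ, (twR (ζR ^ i) y - HahnSeries.C a) with hw
  have hζ' : Units.map (ι : R →* S) ζR = ζ := Units.ext hζ
  have hwι : coeffMap ι w = qExpand S ℓ c := by
    rw [hc, hw, map_mul, map_sub, coeffMap_qExpand, coeffMap_C', map_prod]
    congr 1
    refine Finset.prod_congr rfl fun i _ => ?_
    rw [map_sub, coeffMap_C', coeffMap_twR, map_pow, hζ', iterate_twist_eq]
  obtain ⟨cR, hcR⟩ := exists_coeffMap_eq_of_qExpand ι hι ℓ c w hwι.symm
  refine ⟨cR, hcR, ?_⟩
  have hcRw : qExpand R ℓ cR = w := by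
    apply coeffMap_injective ι hι
    rw [coeffMap_qExpand, hcR, hwι]
  apply qExpand_injective ℓ
  rw [← coeffMap_qExpand, hcRw, hw, map_mul, map_sub, coeffMap_qExpand, coeffMap_C', map_prod,
    map_mul, map_sub, map_sub, qExpand_C, qExpand_C, qExpand_qExpand, ← pow_char_eq_qExpand,
    map_pow (HahnSeries.C : k →+* LaurentSeries k), ← sub_pow_char]
  congr 1
  · rw [qExpand_congr (R := k) (pow_two ℓ)]
  · rw [Finset.prod_congr rfl (g := fun _ => (coeffMap res y - HahnSeries.C (res a)))
      (fun i _ => by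
        rw [map_sub, coeffMap_C',
          coeffMap_twR_of_eq_one res (ζR ^ i) (by rw [Units.val_pow_eq_pow_val, map_pow, hζ1,
            one_pow])]),
      Finset.prod_const, Finset.card_range]

/-- `kronecker_norm` with the conjugates written `twist (ζ ^ i)`. -/
theorem kronecker_norm' (ι : R →+* S) (hι : Function.Injective ι) (res : R →+* k) (ζ : Sˣ)
    (ζR : Rˣ) (hζ : ι ζR = ζ) (hζ1 : res ζR = 1) (y : LaurentSeries R) (a : R)
    (c : LaurentSeries S)
    (hc : qExpand S ℓ c = (qExpand S (ℓ ^ 2) (coeffMap ι y) - HahnSeries.C (ι a)) *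
      ∏ i ∈ Finset.range ℓ, (twist (ζ ^ i) (coeffMap ι y) - HahnSeries.C (ι a))) :
    ∃ cR : LaurentSeries R, coeffMap ι cR = c ∧
      coeffMap res cR = (qExpand k ℓ (coeffMap res y) - HahnSeries.C (res a)) *
        (coeffMap (frobenius k ℓ) (coeffMap res y) - HahnSeries.C (res a ^ ℓ)) := by
  refine kronecker_norm ℓ ι hι res ζ ζR hζ hζ1 y a c ?_
  rw [hc]
  congr 1
  exact Finset.prod_congr rfl fun i _ => by rw [iterate_twist_eq]

end Main

/-! ### The root of unity in a valuation ring of residue characteristic `ℓ` -/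

section RootOfUnity

variable {L : Type*} [Field L] (A : ValuationSubring L) (ℓ : ℕ) [Fact ℓ.Prime]
  [CharP (IsLocalRing.ResidueField A) ℓ]

/-- An `ℓ`-th root of unity of `L` is a unit of the valuation ring `A` with residue `1`, if the
residue field has characteristic `ℓ`.  This supplies `ζR`, `hζ`, `hζ1` of `kronecker` for
`R = A`, `ι = A.subtype`, `res = IsLocalRing.residue A`. -/
theorem exists_unit_of_pow_eq_one (ζ : Lˣ) (hζ : ζ ^ ℓ = 1) :
    ∃ ζA : (A : Type _)ˣ, A.subtype ζA = ζ ∧ IsLocalRing.residue A ζA = 1 := by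
  have hℓ0 : ℓ ≠ 0 := (Fact.out : ℓ.Prime).ne_zero
  have hζ' : ((ζ : L)) ^ ℓ = 1 := by
    rw [← Units.val_pow_eq_pow_val, hζ, Units.val_one]
  have hmem : (ζ : L) ∈ A := by
    have hint : IsIntegral A (ζ : L) := by
      refine ⟨X ^ ℓ - 1, monic_X_pow_sub_C (1 : A) hℓ0, ?_⟩
      rw [eval₂_sub, eval₂_X_pow, eval₂_one, hζ', sub_self]
    obtain ⟨a, ha⟩ := IsIntegrallyClosed.isIntegral_iff.mp hint
    rw [← ha]
    exact a.2
  set a : A := ⟨ζ, hmem⟩ with ha
  have hapow : a ^ ℓ = 1 := by
    apply Subtype.ext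
    rw [SubmonoidClass.coe_pow]
    exact hζ'
  have hunit : IsUnit a := IsUnit.of_pow_eq_one hapow hℓ0
  refine ⟨hunit.unit, rfl, ?_⟩
  rw [IsUnit.unit_spec]
  have h1 : (IsLocalRing.residue A a - 1) ^ ℓ = 0 := by
    rw [sub_pow_char, one_pow, ← map_pow, hapow, map_one, sub_self]
  exact sub_eq_zero.mp (pow_eq_zero_iff hℓ0 |>.mp h1)

end RootOfUnity

end Fermat.Agent.S37.Kronecker
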