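import Mathlib
import Fermat.Agent.S18.JInt
import Fermat.Agent.S28.ModPkgIntZ
import Fermat.Agent.S37.Kronecker

/-!
# S37 (W4 leaf): integrality of the Hecke norm / characteristic polynomial over the chart

For `y` integral over `R[j]` inside `S((q))` (`R → S` a coefficient ring inside a field), the
conjugates `y(ζ^i q)` and `y(q^(ℓ²))` of `y(q)` over the field of series in `q^ℓ` are integral
over `R[j(q^ℓ)]` (both directions of the modular equation), hence so are the coefficients of
`(X - y(q^(ℓ²))) ∏ (X - y(ζ^i q))` and the norms `(y(q^(ℓ²)) - a) ∏ (y(ζ^i q) - a)`; descending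
along `q ↦ q^ℓ` (injective) the series `c` with `c(q^ℓ) =` these are integral over `R[j]`.
These are the integrality hypotheses needed to apply the value dictionary of the reduction map
to the output of `Kronecker.kronecker` / `Kronecker.kronecker_norm`.
-/

set_option autoImplicit false

noncomputable section

namespace Fermat.Agent.S37.HeckeInt

open Polynomial ModularCurve
open Fermat.Agent.S28.HahnSubst (twist)
open Fermat.Agent.S18.JInt (evJ)

/-! ### The reverse modular equation: `j` is integral over `ℤ[j(q^p)]` -/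

/-- evaluation `ℤ[X] → R((q))`, `X ↦ j(q^p)` -/
abbrev evJp (R : Type*) [CommRing R] (p : ℕ) [NeZero p] : ℤ[X] →+* LaurentSeries R :=
  ((aeval (qExpand R p (jqModC R)) : ℤ[X] →ₐ[ℤ] LaurentSeries R) : ℤ[X] →+* LaurentSeries R)

theorem coeffMap_comp_evJp {R S : Type*} [CommRing R] [CommRing S] (f : R →+* S) (p : ℕ)
    [NeZero p] : (coeffMap f).comp (evJp R p) = evJp S p := by
  apply Polynomial.ringHom_ext'
  · exact RingHom.ext_int _ _
  · simp [coeffMap_qExpand, coeffMap_jqModC]

/-- `j` is integral over `ℤ[j(q^p)]` in `ℂ((q))`, ring-hom form. -/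
theorem isIntegralElem_j_complex (p : ℕ) [Fact p.Prime] :
    (evJp ℂ p).IsIntegralElem (jqModC ℂ) := by
  obtain ⟨Φ, T, Ψ, hΦ, hΦd, hΨ, hΨd, hT, h2, h3, h4, h5, h6, h6'⟩ :=
    Fermat.Agent.S28.ModPkg.exists_complex p
  have hb0 : (Fermat.Agent.S28.ModPkg.phiZero ℤ p).coeff (1 - (p : ℤ)) ≠ 0 := by
    rw [Fermat.Agent.S28.ModPkg.coeff_phiZero]; exact one_ne_zero
  obtain ⟨Φ₀, T₀, Ψ₀, hΦ₀, -, -⟩ := Fermat.Agent.S28.ModPkgRed.exists_lifts p
    (Fermat.Agent.S28.ModPkg.phiInf ℤ p) (Fermat.Agent.S28.ModPkg.phiZero ℤ p) hb0 Φ T Ψ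
    hΦ hΦd hΨ hΨd hT ⟨h2, h3, h4, h5, h6, h6'⟩
  have hinj : Function.Injective
      (Polynomial.mapRingHom (Fermat.Agent.S28.ModPkgRed.OC.subtype)) :=
    Fermat.Agent.S28.ModPkgRed.mapRingHom_injective _ Subtype.val_injective
  have hΦ₀m : Φ₀.Monic := Polynomial.monic_of_injective hinj (by rw [hΦ₀]; exact hΦ)
  obtain ⟨P, hPm, hP⟩ := Fermat.Agent.S28.ModPkg.exists_monic_int_of_lift
    Fermat.Agent.S28.ModPkgRed.OC (fun x hx => hx) (jqModC ℂ) (qExpand ℂ p (jqModC ℂ)) Φ₀ hΦ₀m
    (by rw [hΦ₀]; exact h3)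
  refine ⟨P, hPm, ?_⟩
  rw [Polynomial.eval₂_eq_eval_map]
  exact hP

/-- `j` is integral over `ℤ[j(q^p)]` in `ℤ((q))`, ring-hom form. -/
theorem isIntegralElem_j_int (p : ℕ) [Fact p.Prime] :
    (evJp ℤ p).IsIntegralElem (jqModC ℤ) := by
  obtain ⟨P, hPm, hP⟩ := isIntegralElem_j_complex p
  have hψ : Function.Injective (coeffMap (Int.castRingHom ℂ)) :=
    Fermat.Agent.S28.ModPkgRed.coeffMap_injective _ (Int.castRingHom ℂ).injective_int
  refine ⟨P, hPm, hψ ?_⟩
  rw [map_zero, Polynomial.hom_eval₂, coeffMap_comp_evJp, coeffMap_jqModC]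
  exact hP

/-- **`j` is integral over `ℤ[j(q^p)]` in `R((q))`** for every commutative ring `R`: there is a
monic `P ∈ ℤ[X][X]` with `P(j(q^p), j) = 0`. -/
theorem isIntegralElem_j (R : Type*) [CommRing R] (p : ℕ) [Fact p.Prime] :
    (evJp R p).IsIntegralElem (jqModC R) := by
  obtain ⟨P, hPm, hP⟩ := isIntegralElem_j_int p
  refine ⟨P, hPm, ?_⟩
  have h := congrArg (coeffMap (Int.castRingHom R)) hP
  rw [map_zero, Polynomial.hom_eval₂, coeffMap_comp_evJp, coeffMap_jqModC] at h
  exact h

/-! ### Generic transfer lemmas for the chart homomorphism -/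

theorem algebraMap_eq_C {S : Type*} [CommRing S] (c : S) :
    algebraMap S (LaurentSeries S) c = HahnSeries.C c := by
  rw [Fermat.Agent.S28.PolyInt.algebraMap_eq_single, HahnSeries.C_apply]

section Generic

variable {R S : Type*} [CommRing R] [Field S] (ι : R →+* S)

/-- the chart homomorphism `R[X] → S((q))`, `X ↦ t` (constants through `ι`) -/
def ch (t : LaurentSeries S) : R[X] →+* LaurentSeries S :=
  Polynomial.eval₂RingHom ((algebraMap S (LaurentSeries S)).comp ι) t

theorem ch_C (t : LaurentSeries S) (r : R) :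
    ch ι t (C r) = algebraMap S (LaurentSeries S) (ι r) := by
  simp [ch]

theorem ch_X (t : LaurentSeries S) : ch ι t X = t := by
  simp [ch]

/-- a ring endomorphism of `S((q))` fixing the constants moves the chart -/
theorem comp_ch (σ : LaurentSeries S →+* LaurentSeries S)
    (hσ : ∀ c : S, σ (algebraMap S (LaurentSeries S) c) = algebraMap S (LaurentSeries S) c)
    (t : LaurentSeries S) : σ.comp (ch ι t) = ch ι (σ t) := by
  apply Polynomial.ringHom_ext
  · intro r
    rw [RingHom.comp_apply, ch_C, ch_C, hσ]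
  · rw [RingHom.comp_apply, ch_X, ch_X]

theorem isIntegralElem_map (σ : LaurentSeries S →+* LaurentSeries S)
    (hσ : ∀ c : S, σ (algebraMap S (LaurentSeries S) c) = algebraMap S (LaurentSeries S) c)
    {t y : LaurentSeries S} (h : (ch ι t).IsIntegralElem y) :
    (ch ι (σ t)).IsIntegralElem (σ y) := by
  rw [← comp_ch ι σ hσ]
  exact h.map σ

/-- from integrality over `ℤ[t']` to integrality over `R[t']` -/
theorem isIntegralElem_of_int {t' x : LaurentSeries S}
    (h : ((aeval t' : ℤ[X] →ₐ[ℤ] LaurentSeries S) : ℤ[X] →+* LaurentSeries S).IsIntegralElem x) :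
    (ch ι t').IsIntegralElem x := by
  have hcomp : (ch ι t').comp (Polynomial.mapRingHom (Int.castRingHom R)) =
      ((aeval t' : ℤ[X] →ₐ[ℤ] LaurentSeries S) : ℤ[X] →+* LaurentSeries S) := by
    apply Polynomial.ringHom_ext'
    · exact RingHom.ext_int _ _
    · simp [ch]
  rw [← hcomp] at h
  exact h.of_comp

theorem isIntegralElem_const (t : LaurentSeries S) (a : R) :
    (ch ι t).IsIntegralElem (HahnSeries.C (ι a)) := by
  rw [← algebraMap_eq_C, ← ch_C ι t]
  exact RingHom.isIntegralElem_map _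

theorem isIntegralElem_pow {t x : LaurentSeries S} (h : (ch ι t).IsIntegralElem x) (n : ℕ) :
    (ch ι t).IsIntegralElem (x ^ n) := by
  induction n with
  | zero => rw [pow_zero]; exact RingHom.isIntegralElem_one _
  | succ n ih => rw [pow_succ]; exact ih.mul _ h

theorem isIntegralElem_prod {t : LaurentSeries S} {α : Type*} (s : Finset α)
    (f : α → LaurentSeries S) (h : ∀ i ∈ s, (ch ι t).IsIntegralElem (f i)) :
    (ch ι t).IsIntegralElem (∏ i ∈ s, f i) :=
  Finset.prod_induction f _ (fun _ _ ha hb => ha.mul _ hb) (RingHom.isIntegralElem_one _) h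

/-- transitivity: if `t` is integral over `R[t']`, everything integral over `R[t]` is integral
over `R[t']` -/
theorem isIntegralElem_trans {t t' y : LaurentSeries S} (ht : (ch ι t').IsIntegralElem t)
    (hy : (ch ι t).IsIntegralElem y) : (ch ι t').IsIntegralElem y := by
  obtain ⟨Q, hQ, hy⟩ := hy
  refine Fermat.Agent.S28.ModPkg.isIntegralElem_of_monic (ch ι t') (ch ι t) ?_ Q hQ y hy
  intro s
  induction s using Polynomial.induction_on' with
  | add f g hf hg => rw [map_add]; exact hf.add _ hg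
  | monomial n a =>
    rw [← C_mul_X_pow_eq_monomial, map_mul, map_pow, ch_C, ch_X]
    refine RingHom.IsIntegralElem.mul _ ?_ (isIntegralElem_pow ι ht n)
    rw [← ch_C ι t']
    exact RingHom.isIntegralElem_map _

/-- the coefficients of a polynomial that is a product of `X - C r` with integral `r` are
integral -/
theorem isIntegralElem_coeff_of_mem {t : LaurentSeries S} (P : (LaurentSeries S)[X])
    (hP : P ∈ Subring.closure ({X} ∪ {Q | ∃ r, (ch ι t).IsIntegralElem r ∧ Q = C r} :
      Set (LaurentSeries S)[X])) (n : ℕ) : (ch ι t).IsIntegralElem (P.coeff n) := by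
  let _ : Algebra R[X] (LaurentSeries S) := (ch ι t).toAlgebra
  let O : Subring (LaurentSeries S) := (integralClosure R[X] (LaurentSeries S)).toSubring
  have hle : Subring.closure ({X} ∪ {Q | ∃ r, (ch ι t).IsIntegralElem r ∧ Q = C r} :
      Set (LaurentSeries S)[X]) ≤ Polynomial.liftsRing O.subtype := by
    rw [Subring.closure_le]
    rintro Q (hQ | ⟨r, hr, rfl⟩)
    · rw [Set.mem_singleton_iff] at hQ
      rw [hQ]
      exact (Polynomial.lifts_iff_liftsRing _ _).mp (Polynomial.X_mem_lifts _)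
    · exact (Polynomial.lifts_iff_liftsRing _ _).mp (Polynomial.C_mem_lifts O.subtype ⟨r, hr⟩)
  have h1 := (Polynomial.lifts_iff_liftsRing _ _).mpr (hle hP)
  obtain ⟨x, hx⟩ := (Polynomial.lifts_iff_coeff_lifts P).mp h1 n
  rw [← hx]
  exact x.2

/-- bridge to an intermediate field `F ⊆ S((q))`: integrality over the chart inside `F` is
integrality of the coerced series (for `F = FL N`, `ι = A.subtype` the left-hand side is
`(EvalInt.chartHom A t).IsIntegralElem f`). -/
theorem isIntegralElem_iff_coe (F : IntermediateField S (LaurentSeries S)) (t f : F) :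
    (Polynomial.eval₂RingHom ((algebraMap S F).comp ι) t).IsIntegralElem f ↔
      (ch ι (t : LaurentSeries S)).IsIntegralElem (f : LaurentSeries S) := by
  have hcomp : (F.val : F →+* LaurentSeries S).comp
      (Polynomial.eval₂RingHom ((algebraMap S F).comp ι) t) = ch ι (t : LaurentSeries S) := by
    apply Polynomial.ringHom_ext
    · intro r
      simp [ch]
    · simp [ch]
  rw [← hcomp]
  exact (RingHom.IsIntegralElem.map_iff (f := Polynomial.eval₂RingHom ((algebraMap S F).comp ι) t)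
    (g := (F.val : F →+* LaurentSeries S)) (x := f) Subtype.val_injective).symm

end Generic

/-! ### The twist and `q ↦ q^ℓ` fix the constants -/

section Maps

variable {S : Type*} [Field S]

theorem twist_algebraMap (ζ : Sˣ) (c : S) :
    twist ζ (algebraMap S (LaurentSeries S) c) = algebraMap S (LaurentSeries S) c := by
  rw [algebraMap_eq_C]
  ext n
  rw [Fermat.Agent.S28.HahnSubst.twist_coeff, HahnSeries.C_apply, HahnSeries.coeff_single]
  split_ifs with h
  · rw [h, zpow_zero, Units.val_one, one_mul]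
  · rw [mul_zero]

theorem qExpand_algebraMap (ℓ : ℕ) [NeZero ℓ] (c : S) :
    qExpand S ℓ (algebraMap S (LaurentSeries S) c) = algebraMap S (LaurentSeries S) c := by
  rw [algebraMap_eq_C, qExpand_C]

theorem twist_qExpand (ζ : Sˣ) (ℓ : ℕ) [NeZero ℓ] (hζ : ζ ^ ℓ = 1) (f : LaurentSeries S) :
    twist ζ (qExpand S ℓ f) = qExpand S ℓ f := by
  ext n
  rw [Fermat.Agent.S28.HahnSubst.twist_coeff]
  by_cases h : (ℓ : ℤ) ∣ n
  · obtain ⟨m, rfl⟩ := h
    have h1 : ζ ^ ((ℓ : ℤ) * m) = 1 := by
      rw [zpow_mul, zpow_natCast, hζ, one_zpow]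
    rw [h1, Units.val_one, one_mul]
  · rw [qExpand_coeff_of_not_dvd ℓ f h, mul_zero]

end Maps

/-! ### The finite chart -/

section Finite

variable {R S : Type*} [CommRing R] [Field S] (ι : R →+* S) (ℓ : ℕ) [Fact ℓ.Prime]

/-- `j(ζ q)` is integral over `R[j(q^ℓ)]` -/
theorem isIntegralElem_twist_j (ζ : Sˣ) (hζ : ζ ^ ℓ = 1) :
    (ch ι (qExpand S ℓ (jqModC S))).IsIntegralElem (twist ζ (jqModC S)) := by
  apply isIntegralElem_of_int
  have h := (isIntegralElem_j S ℓ).map (twist ζ)
  have hcomp : (twist ζ).comp (evJp S ℓ) = evJp S ℓ := by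
    apply Polynomial.ringHom_ext'
    · exact RingHom.ext_int _ _
    · simp [twist_qExpand ζ ℓ hζ]
  rw [hcomp] at h
  exact h

/-- `j(q^(ℓ²))` is integral over `R[j(q^ℓ)]` -/
theorem isIntegralElem_qExpand_sq_j :
    (ch ι (qExpand S ℓ (jqModC S))).IsIntegralElem (qExpand S (ℓ ^ 2) (jqModC S)) := by
  apply isIntegralElem_of_int
  have h := (Fermat.Agent.S18.JInt.isIntegralElem_jp S ℓ).map (qExpand S ℓ)
  have hcomp : (qExpand S ℓ).comp (evJ S) = evJp S ℓ := by
    apply Polynomial.ringHom_ext'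
    · exact RingHom.ext_int _ _
    · simp
  rw [hcomp, qExpand_qExpand, qExpand_congr (R := S) (pow_two ℓ).symm] at h
  exact h

variable {ι}

/-- **(F1)** the conjugates `y(ζ^i q)` of a series integral over `R[j]` are integral over
`R[j(q^ℓ)]` -/
theorem isIntegralElem_twist (ζ : Sˣ) (hζ : ζ ^ ℓ = 1) {y : LaurentSeries S}
    (hy : (ch ι (jqModC S)).IsIntegralElem y) (i : ℕ) :
    (ch ι (qExpand S ℓ (jqModC S))).IsIntegralElem ((twist ζ)^[i] y) := by
  rw [Fermat.Agent.S37.Kronecker.iterate_twist_eq]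
  have hζi : (ζ ^ i) ^ ℓ = 1 := by rw [← pow_mul, mul_comm, pow_mul, hζ, one_pow]
  exact isIntegralElem_trans ι (isIntegralElem_twist_j ι ℓ (ζ ^ i) hζi)
    (isIntegralElem_map ι (twist (ζ ^ i)) (twist_algebraMap _) hy)

/-- **(F1)** the last conjugate `y(q^(ℓ²))` of a series integral over `R[j]` is integral over
`R[j(q^ℓ)]` -/
theorem isIntegralElem_qExpand_sq {y : LaurentSeries S}
    (hy : (ch ι (jqModC S)).IsIntegralElem y) :
    (ch ι (qExpand S ℓ (jqModC S))).IsIntegralElem (qExpand S (ℓ ^ 2) y) :=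
  isIntegralElem_trans ι (isIntegralElem_qExpand_sq_j ι ℓ)
    (isIntegralElem_map ι (qExpand S (ℓ ^ 2)) (qExpand_algebraMap _) hy)

/-- **(F2)** descent along `q ↦ q^ℓ` -/
theorem isIntegralElem_of_qExpand {c : LaurentSeries S}
    (h : (ch ι (qExpand S ℓ (jqModC S))).IsIntegralElem (qExpand S ℓ c)) :
    (ch ι (jqModC S)).IsIntegralElem c := by
  rw [← comp_ch ι (qExpand S ℓ) (qExpand_algebraMap ℓ)] at h
  exact h.of_map (qExpand_injective ℓ)

/-- **(F3), norm form**: the hypothesis `hc` of `Kronecker.kronecker_norm` forces `c` to be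
integral over `R[j]`. -/
theorem isIntegralElem_of_norm (ζ : Sˣ) (hζ : ζ ^ ℓ = 1) {y : LaurentSeries S}
    (hy : (ch ι (jqModC S)).IsIntegralElem y) (a : R) (c : LaurentSeries S)
    (hc : qExpand S ℓ c = (qExpand S (ℓ ^ 2) y - HahnSeries.C (ι a)) *
      ∏ i ∈ Finset.range ℓ, ((twist ζ)^[i] y - HahnSeries.C (ι a))) :
    (ch ι (jqModC S)).IsIntegralElem c := by
  apply isIntegralElem_of_qExpand ℓ
  rw [hc]
  refine RingHom.IsIntegralElem.mul _
    ((isIntegralElem_qExpand_sq ℓ hy).sub _ (isIntegralElem_const ι _ a))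
    (isIntegralElem_prod ι _ _ fun i _ => ?_)
  exact (isIntegralElem_twist ℓ ζ hζ hy i).sub _ (isIntegralElem_const ι _ a)

/-- **(F3), characteristic polynomial form**: the hypothesis `hc` of `Kronecker.kronecker`
forces every coefficient of `c` to be integral over `R[j]`. -/
theorem isIntegralElem_coeff_of_charpoly (ζ : Sˣ) (hζ : ζ ^ ℓ = 1) {y : LaurentSeries S}
    (hy : (ch ι (jqModC S)).IsIntegralElem y) (c : (LaurentSeries S)[X])
    (hc : c.map (qExpand S ℓ) = (X - C (qExpand S (ℓ ^ 2) y)) *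
      ∏ i ∈ Finset.range ℓ, (X - C ((twist ζ)^[i] y))) (n : ℕ) :
    (ch ι (jqModC S)).IsIntegralElem (c.coeff n) := by
  apply isIntegralElem_of_qExpand ℓ
  rw [← Polynomial.coeff_map, hc]
  apply isIntegralElem_coeff_of_mem ι
  have hX : (X : (LaurentSeries S)[X]) ∈ Subring.closure ({X} ∪
      {Q | ∃ r, (ch ι (qExpand S ℓ (jqModC S))).IsIntegralElem r ∧ Q = C r} :
      Set (LaurentSeries S)[X]) := Subring.subset_closure (Or.inl rfl)
  refine Subring.mul_mem _ (Subring.sub_mem _ hX
    (Subring.subset_closure (Or.inr ⟨_, isIntegralElem_qExpand_sq ℓ hy, rfl⟩)))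
    (Subring.prod_mem _ fun i _ => Subring.sub_mem _ hX
      (Subring.subset_closure (Or.inr ⟨_, isIntegralElem_twist ℓ ζ hζ hy i, rfl⟩)))

end Finite

end Fermat.Agent.S37.HeckeInt
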