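import Mathlib
import Fermat.Agent.S28.ModPkgK
import Fermat.Agent.S37.HeckeInt

/-!
# S37 (W4 leaf): the modular equation at the cusp chart

Series level.  `S` an algebraically closed field, `ι : R →+* S` an injective coefficient ring
containing a primitive `ℓ`-th root of unity `ζ`.  The `ℓ + 1` roots of the modular polynomial
`Φ(X, j(q^ℓ))` are `j(ζ^i q)` (`i < ℓ`) and `j(q^(ℓ²))`; from their `q`-orders the coefficients
`a_k(Y)` of `Φ = ∑ a_k(Y) X^k` lie in `R[Y]`, have degree `≤ ℓ + 1`, and the coefficient of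
`Y^(ℓ+1)` in `a_0` is a unit of `R`.  Reversing both variables gives `G ∈ R[V][U]` with
`G(1/ρ; 1/j(q^ℓ)) = 0` for every root `ρ` and with leading coefficient `g(V)`, `g(0) ∈ Rˣ`.
Hence `g(v_ℓ) · (1/ρ)` is integral over `R[v_ℓ]` (`v_ℓ = 1/j(q^ℓ)`): the chart at infinity is
stable under the Hecke correspondence after inverting `g`, which is a unit near the cusps.
-/

set_option autoImplicit false

noncomputable section

namespace Fermat.Agent.S37.CuspEq

open Polynomial ModularCurve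
open Fermat.Agent.S28.HahnSubst (twist)
open Fermat.Agent.S37.HeckeInt

/-! ### Orders of Laurent series -/

section Ord

variable {S : Type*} [CommRing S]

/-- `x` has no terms below `q^m` -/
def OrdGe (m : ℤ) (x : LaurentSeries S) : Prop := ∀ n : ℤ, n < m → x.coeff n = 0

theorem OrdGe.mono {m m' : ℤ} {x : LaurentSeries S} (h : OrdGe m x) (hm : m' ≤ m) :
    OrdGe m' x := fun n hn => h n (lt_of_lt_of_le hn hm)

theorem ordGe_zero (m : ℤ) : OrdGe m (0 : LaurentSeries S) := fun _ _ => rfl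

theorem ordGe_one : OrdGe 0 (1 : LaurentSeries S) := fun n hn => by
  rw [HahnSeries.coeff_one, if_neg (ne_of_lt hn)]

theorem OrdGe.add {m : ℤ} {x y : LaurentSeries S} (hx : OrdGe m x) (hy : OrdGe m y) :
    OrdGe m (x + y) := fun n hn => by
  rw [HahnSeries.coeff_add, hx n hn, hy n hn, add_zero]

theorem OrdGe.neg {m : ℤ} {x : LaurentSeries S} (hx : OrdGe m x) : OrdGe m (-x) := fun n hn => by
  rw [HahnSeries.coeff_neg, hx n hn, neg_zero]

theorem OrdGe.sub {m : ℤ} {x y : LaurentSeries S} (hx : OrdGe m x) (hy : OrdGe m y) :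
    OrdGe m (x - y) := fun n hn => by
  rw [HahnSeries.coeff_sub, hx n hn, hy n hn, sub_zero]

/-- a series of order `≥ m` is `q^m` times a power series -/
theorem OrdGe.eq_single_mul {m : ℤ} {x : LaurentSeries S} (h : OrdGe m x) :
    x = HahnSeries.single m (1 : S) *
      HahnSeries.ofPowerSeries ℤ S (PowerSeries.mk fun n => x.coeff ((n : ℤ) + m)) := by
  ext k
  rw [Fermat.Agent.S28.ModPkg.coeff_single_mul_ofPowerSeries, one_mul]
  rcases lt_or_ge k m with hk | hk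
  · rw [ModularCurve.ofPowerSeries_coeff_of_neg _ (by omega)]
    exact h k hk
  · obtain ⟨n, hn⟩ := Int.eq_ofNat_of_zero_le (sub_nonneg.mpr hk)
    rw [hn, HahnSeries.ofPowerSeries_apply_coeff, PowerSeries.coeff_mk]
    congr 1
    omega

theorem single_mul_mul_single_mul (a b : ℤ) (U V : PowerSeries S) :
    HahnSeries.single a (1 : S) * HahnSeries.ofPowerSeries ℤ S U *
      (HahnSeries.single b (1 : S) * HahnSeries.ofPowerSeries ℤ S V) =
    HahnSeries.single (a + b) (1 : S) * HahnSeries.ofPowerSeries ℤ S (U * V) := by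
  rw [map_mul, ← one_mul (1 : S), ← HahnSeries.single_mul_single, one_mul]
  ring

theorem OrdGe.mul {a b : ℤ} {x y : LaurentSeries S} (hx : OrdGe a x) (hy : OrdGe b y) :
    OrdGe (a + b) (x * y) := by
  rw [hx.eq_single_mul, hy.eq_single_mul, single_mul_mul_single_mul]
  intro n hn
  exact Fermat.Agent.S28.ModPkg.coeff_single_mul_ofPowerSeries_of_lt _ _ _ hn

theorem OrdGe.coeff_mul {a b : ℤ} {x y : LaurentSeries S} (hx : OrdGe a x) (hy : OrdGe b y) :
    (x * y).coeff (a + b) = x.coeff a * y.coeff b := by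
  conv_lhs => rw [hx.eq_single_mul, hy.eq_single_mul, single_mul_mul_single_mul]
  rw [Fermat.Agent.S28.ModPkg.coeff_single_mul_ofPowerSeries, sub_self, one_mul]
  have h := HahnSeries.ofPowerSeries_apply_coeff (Γ := ℤ)
    ((PowerSeries.mk fun n => x.coeff ((n : ℤ) + a)) *
      (PowerSeries.mk fun n => y.coeff ((n : ℤ) + b))) 0
  rw [Nat.cast_zero] at h
  rw [h, PowerSeries.coeff_zero_eq_constantCoeff_apply, map_mul,
    ← PowerSeries.coeff_zero_eq_constantCoeff_apply, ← PowerSeries.coeff_zero_eq_constantCoeff_apply,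
    PowerSeries.coeff_mk, PowerSeries.coeff_mk, Nat.cast_zero, zero_add, zero_add]

/-- order and leading coefficient of a finite product -/
theorem ordGe_prod {α : Type*} (s : Finset α) (f : α → LaurentSeries S) (e : α → ℤ)
    (hf : ∀ i ∈ s, OrdGe (e i) (f i)) :
    OrdGe (∑ i ∈ s, e i) (∏ i ∈ s, f i) ∧
      (∏ i ∈ s, f i).coeff (∑ i ∈ s, e i) = ∏ i ∈ s, (f i).coeff (e i) := by
  classical
  induction s using Finset.induction_on with
  | empty =>
    refine ⟨by simpa using ordGe_one, ?_⟩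
    simp
  | insert a s ha ih =>
    obtain ⟨h1, h2⟩ := ih fun i hi => hf i (Finset.mem_insert_of_mem hi)
    have ha' := hf a (Finset.mem_insert_self a s)
    rw [Finset.sum_insert ha, Finset.prod_insert ha, Finset.prod_insert ha]
    exact ⟨ha'.mul h1, by rw [ha'.coeff_mul h1, h2]⟩

/-- the coefficients of `∏ (X - C (f i))` have order at least the sum of the (nonpositive) orders
of the roots -/
theorem ordGe_coeff_prod {α : Type*} (s : Finset α) (f : α → LaurentSeries S) (e : α → ℤ)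
    (he : ∀ i ∈ s, e i ≤ 0) (hf : ∀ i ∈ s, OrdGe (e i) (f i)) (k : ℕ) :
    OrdGe (∑ i ∈ s, e i) ((∏ i ∈ s, (X - C (f i))).coeff k) := by
  classical
  induction s using Finset.induction_on generalizing k with
  | empty =>
    rw [Finset.prod_empty, Finset.sum_empty, Polynomial.coeff_one]
    split_ifs
    · exact ordGe_one
    · exact ordGe_zero 0
  | insert a s ha ih =>
    have ih' := ih (fun i hi => he i (Finset.mem_insert_of_mem hi))
      (fun i hi => hf i (Finset.mem_insert_of_mem hi))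
    have ha' := hf a (Finset.mem_insert_self a s)
    have hea := he a (Finset.mem_insert_self a s)
    rw [Finset.sum_insert ha, Finset.prod_insert ha, sub_mul, Polynomial.coeff_sub,
      Polynomial.coeff_C_mul]
    refine OrdGe.sub ?_ (ha'.mul (ih' k))
    cases k with
    | zero =>
      rw [Polynomial.coeff_X_mul_zero]
      exact ordGe_zero _
    | succ k =>
      rw [Polynomial.coeff_X_mul]
      exact (ih' k).mono (by omega)

end Ord

/-! ### The roots of the modular polynomial -/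

section Roots

variable {S : Type*} [Field S] (ℓ : ℕ) [Fact ℓ.Prime]

/-- the `ℓ + 1` conjugates of `j(q)` over the series in `q^ℓ` -/
def rt (ζ : Sˣ) : Option (Fin ℓ) → LaurentSeries S
  | none => qExpand S (ℓ ^ 2) (jqModC S)
  | some i => twist (ζ ^ (i : ℕ)) (jqModC S)

/-- their orders -/
def ordRt : Option (Fin ℓ) → ℤ
  | none => -((ℓ : ℤ) ^ 2)
  | some _ => -1

/-- their leading coefficients -/
def lcRt {M : Type*} [Monoid M] (ζ : Mˣ) : Option (Fin ℓ) → Mˣ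
  | none => 1
  | some i => (ζ ^ (i : ℕ)) ^ (-1 : ℤ)

omit [Fact ℓ.Prime] in
theorem ordRt_nonpos (i : Option (Fin ℓ)) : ordRt ℓ i ≤ 0 := by
  cases i with
  | none => exact neg_nonpos.mpr (sq_nonneg _)
  | some i => exact neg_nonpos.mpr zero_le_one

omit [Fact ℓ.Prime] in
theorem sum_ordRt : ∑ i, ordRt ℓ i = (ℓ : ℤ) * (-((ℓ : ℤ) + 1)) := by
  rw [Fintype.sum_option]
  simp only [ordRt, Finset.sum_const, Finset.card_univ, Fintype.card_fin, nsmul_eq_mul]
  ring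

theorem ordGe_rt (ζ : Sˣ) (i : Option (Fin ℓ)) : OrdGe (ordRt ℓ i) (rt ℓ ζ i) := by
  have hℓ : (0 : ℤ) < (ℓ : ℤ) := by exact_mod_cast (Fact.out : ℓ.Prime).pos
  cases i with
  | none =>
    intro n hn
    by_cases h : ((ℓ ^ 2 : ℕ) : ℤ) ∣ n
    · obtain ⟨m, rfl⟩ := h
      show (qExpand S (ℓ ^ 2) (jqModC S)).coeff _ = 0
      rw [qExpand_coeff_mul]
      apply coeff_jqModC_of_lt
      have hn' : ((ℓ ^ 2 : ℕ) : ℤ) * m < -((ℓ : ℤ) ^ 2) := hn
      push_cast at hn'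
      by_contra hm
      rw [not_lt] at hm
      nlinarith [sq_nonneg (ℓ : ℤ), mul_pos hℓ hℓ]
    · exact qExpand_coeff_of_not_dvd (ℓ ^ 2) _ h
  | some i =>
    intro n hn
    show (twist (ζ ^ (i : ℕ)) (jqModC S)).coeff n = 0
    rw [Fermat.Agent.S28.HahnSubst.twist_coeff, coeff_jqModC_of_lt S hn, mul_zero]

theorem coeff_rt (ζ : Sˣ) (i : Option (Fin ℓ)) :
    (rt ℓ ζ i).coeff (ordRt ℓ i) = (lcRt ℓ ζ i : S) := by
  cases i with
  | none =>
    show (qExpand S (ℓ ^ 2) (jqModC S)).coeff (-((ℓ : ℤ) ^ 2)) = ((1 : Sˣ) : S)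
    have h : -((ℓ : ℤ) ^ 2) = ((ℓ ^ 2 : ℕ) : ℤ) * (-1) := by push_cast; ring
    rw [h, qExpand_coeff_mul, coeff_jqModC_neg_one, Units.val_one]
  | some i =>
    show (twist (ζ ^ (i : ℕ)) (jqModC S)).coeff (-1) = _
    rw [Fermat.Agent.S28.HahnSubst.twist_coeff, coeff_jqModC_neg_one, mul_one]
    rfl

theorem rt_ne_zero (ζ : Sˣ) (i : Option (Fin ℓ)) : rt ℓ ζ i ≠ 0 := by
  intro h
  have h1 := coeff_rt ℓ ζ i
  rw [h, HahnSeries.coeff_zero] at h1
  exact (Units.ne_zero _) h1.symm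

theorem rt_injective (ζ : Sˣ) (hζ : IsPrimitiveRoot ζ ℓ) : Function.Injective (rt ℓ ζ) := by
  have hp : ℓ.Prime := Fact.out
  have hnd : ¬ ((ℓ ^ 2 : ℕ) : ℤ) ∣ (-1 : ℤ) := by
    intro h
    rw [Int.dvd_neg] at h
    have h1 : (ℓ ^ 2 : ℕ) ∣ 1 := Int.natCast_dvd_natCast.mp (by simpa using h)
    have h2 : ℓ ∣ 1 := Dvd.dvd.trans (dvd_pow_self ℓ two_ne_zero) h1
    exact hp.one_lt.ne' (Nat.dvd_one.mp h2)
  have hnone : (rt ℓ ζ none).coeff (-1) = 0 := qExpand_coeff_of_not_dvd (ℓ ^ 2) _ hnd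
  have hsome : ∀ i : Fin ℓ, (rt ℓ ζ (some i)).coeff (-1) = (((ζ ^ (i : ℕ)) ^ (-1 : ℤ) : Sˣ) : S) :=
    fun i => coeff_rt ℓ ζ (some i)
  intro a b hab
  cases a with
  | none =>
    cases b with
    | none => rfl
    | some i =>
      exact absurd (by rw [← hsome i, ← hab]; exact hnone) (Units.ne_zero _)
  | some i =>
    cases b with
    | none => exact absurd (by rw [← hsome i, hab]; exact hnone) (Units.ne_zero _)
    | some i' =>
      have h1 : (((ζ ^ (i : ℕ)) ^ (-1 : ℤ) : Sˣ) : S) = (((ζ ^ (i' : ℕ)) ^ (-1 : ℤ) : Sˣ) : S) := by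
        rw [← hsome i, ← hsome i', hab]
      have h2 : (ζ ^ (i : ℕ)) ^ (-1 : ℤ) = (ζ ^ (i' : ℕ)) ^ (-1 : ℤ) := Units.ext h1
      have h3 : ζ ^ (i : ℕ) = ζ ^ (i' : ℕ) := by
        simpa using h2
      have h4 : (i : ℕ) = (i' : ℕ) := hζ.pow_inj i.2 i'.2 h3
      rw [Fin.ext h4]

/-- the conjugates are roots of `Φ(X, j(q^ℓ))` -/
theorem eval_rt (ζ : Sˣ) (hζ : ζ ^ ℓ = 1) (Φ : S[X][X])
    (h2 : Fermat.Agent.S28.ModPkg.ev (qExpand S ℓ (jqModC S)) (jqModC S) Φ = 0)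
    (h3 : Fermat.Agent.S28.ModPkg.ev (jqModC S) (qExpand S ℓ (jqModC S)) Φ = 0)
    (i : Option (Fin ℓ)) :
    (Φ.map (aeval (qExpand S ℓ (jqModC S)) : S[X] →ₐ[S] LaurentSeries S).toRingHom).eval
      (rt ℓ ζ i) = 0 := by
  cases i with
  | none =>
    have h := Fermat.Agent.S28.ModPkg.ev_ringHom (qExpand S ℓ) (qExpand_algebraMap ℓ)
      (qExpand S ℓ (jqModC S)) (jqModC S) Φ
    have h2' : (Φ.map (aeval (jqModC S) : S[X] →ₐ[S] LaurentSeries S).toRingHom).eval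
        (qExpand S ℓ (jqModC S)) = 0 := h2
    rw [h2', map_zero, qExpand_qExpand, qExpand_congr (R := S) (pow_two ℓ).symm] at h
    exact h.symm
  | some i =>
    have hζi : (ζ ^ (i : ℕ)) ^ ℓ = 1 := by rw [← pow_mul, mul_comm, pow_mul, hζ, one_pow]
    have h := Fermat.Agent.S28.ModPkg.ev_ringHom (twist (ζ ^ (i : ℕ))) (twist_algebraMap _)
      (jqModC S) (qExpand S ℓ (jqModC S)) Φ
    have h3' : (Φ.map (aeval (qExpand S ℓ (jqModC S)) : S[X] →ₐ[S] LaurentSeries S).toRingHom).eval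
        (jqModC S) = 0 := h3
    rw [h3', map_zero, twist_qExpand _ ℓ hζi] at h
    exact h.symm

/-- **the product formula** `Φ(X, j(q^ℓ)) = ∏ (X - ρ)` -/
theorem map_eq_prod (ζ : Sˣ) (hζ : IsPrimitiveRoot ζ ℓ) (Φ : S[X][X]) (hΦ : Φ.Monic)
    (hΦd : Φ.natDegree = ℓ + 1)
    (h2 : Fermat.Agent.S28.ModPkg.ev (qExpand S ℓ (jqModC S)) (jqModC S) Φ = 0)
    (h3 : Fermat.Agent.S28.ModPkg.ev (jqModC S) (qExpand S ℓ (jqModC S)) Φ = 0) :
    Φ.map (aeval (qExpand S ℓ (jqModC S)) : S[X] →ₐ[S] LaurentSeries S).toRingHom =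
      ∏ i, (X - C (rt ℓ ζ i)) := by
  refine Fermat.Agent.S28.ModPkgRed.eq_prod_of_roots _ (hΦ.map _) (rt ℓ ζ)
    (rt_injective ℓ ζ hζ) ?_ (eval_rt ℓ ζ (hζ.pow_eq_one) Φ h2 h3)
  rw [hΦ.natDegree_map, hΦd, Fintype.card_option, Fintype.card_fin]

end Roots

/-! ### The coefficients of the modular polynomial -/

section Coeff

theorem coeff_prod_X_sub_C_mem {A : Type*} [CommRing A] (T : Subring A) {α : Type*}
    (s : Finset α) (f : α → A) (hf : ∀ i ∈ s, f i ∈ T) (k : ℕ) :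
    (∏ i ∈ s, (X - C (f i))).coeff k ∈ T := by
  have h : ∏ i ∈ s, (X - C (f i)) ∈ Polynomial.liftsRing T.subtype :=
    Subring.prod_mem _ fun i hi => Subring.sub_mem _
      ((Polynomial.lifts_iff_liftsRing _ _).mp (Polynomial.X_mem_lifts _))
      ((Polynomial.lifts_iff_liftsRing _ _).mp (Polynomial.C_mem_lifts T.subtype ⟨f i, hf i hi⟩))
  obtain ⟨x, hx⟩ := (Polynomial.lifts_iff_coeff_lifts _).mp
    ((Polynomial.lifts_iff_liftsRing _ _).mpr h) k
  rw [← hx]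
  exact x.2

variable {R S : Type*} [CommRing R] [Field S] (ι : R →+* S) (ℓ : ℕ) [Fact ℓ.Prime]

/-- `a(j(q^ℓ)) = a(j)(q^ℓ)` -/
theorem aeval_qExpand (a : S[X]) :
    aeval (qExpand S ℓ (jqModC S)) a = qExpand S ℓ (aeval (jqModC S) a) := by
  have h := Fermat.Agent.S28.ModPkgRed.map_aeval (qExpand S ℓ) (RingHom.id S)
    (fun c => by simpa using qExpand_algebraMap ℓ c) (jqModC S) a
  rw [Polynomial.map_id] at h
  exact h.symm

theorem coeff_aeval_qExpand (a : S[X]) (n : ℤ) :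
    (aeval (jqModC S) a).coeff n = (aeval (qExpand S ℓ (jqModC S)) a).coeff ((ℓ : ℤ) * n) := by
  rw [aeval_qExpand, qExpand_coeff_mul]

/-- degree bound in `Y` for the coefficients of `Φ` -/
theorem natDegree_le_of_aeval (ζ : Sˣ) (a : S[X]) (k : ℕ)
    (ha : aeval (qExpand S ℓ (jqModC S)) a = (∏ i, (X - C (rt ℓ ζ i))).coeff k) :
    a.natDegree ≤ ℓ + 1 := by
  have hℓ : (0 : ℤ) < (ℓ : ℤ) := by exact_mod_cast (Fact.out : ℓ.Prime).pos
  by_contra hd
  rw [not_le] at hd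
  have h1 := Fermat.Agent.S28.PolyInt.coeff_aeval_neg (jqModC S) (coeff_jqModC_neg_one S)
    (fun _ hk => coeff_jqModC_of_lt S hk) a a.natDegree (Nat.lt_succ_self _)
  have h2 : (aeval (jqModC S) a).coeff (-(a.natDegree : ℤ)) = 0 := by
    rw [coeff_aeval_qExpand ℓ, ha]
    have h3 := ordGe_coeff_prod Finset.univ (rt ℓ ζ) (ordRt ℓ) (fun i _ => ordRt_nonpos ℓ i)
      (fun i _ => ordGe_rt ℓ ζ i) k
    rw [sum_ordRt] at h3
    apply h3
    have hd' : ((ℓ : ℤ) + 1) < (a.natDegree : ℤ) := by exact_mod_cast hd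
    nlinarith
  rw [h2] at h1
  have h4 : a = 0 := Polynomial.leadingCoeff_eq_zero.mp h1.symm
  rw [h4, Polynomial.natDegree_zero] at hd
  omega

/-- the conjugates have coefficients in the image of `R` -/
theorem rt_mem_coeffSubring (ζ : Sˣ) (ζR : Rˣ) (hζR : ι ζR = ζ) (i : Option (Fin ℓ)) :
    rt ℓ ζ i ∈ Fermat.Agent.S28.PolyInt.coeffSubring ι.range := by
  rw [Fermat.Agent.S28.PolyInt.mem_coeffSubring]
  intro n
  cases i with
  | none =>
    show (qExpand S (ℓ ^ 2) (jqModC S)).coeff n ∈ ι.range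
    by_cases h : ((ℓ ^ 2 : ℕ) : ℤ) ∣ n
    · obtain ⟨m, rfl⟩ := h
      rw [qExpand_coeff_mul]
      exact Fermat.Agent.S28.PolyInt.coeff_jqModC_mem S _ m
    · rw [qExpand_coeff_of_not_dvd (ℓ ^ 2) _ h]
      exact Subring.zero_mem _
  | some i =>
    show (twist (ζ ^ (i : ℕ)) (jqModC S)).coeff n ∈ ι.range
    rw [Fermat.Agent.S28.HahnSubst.twist_coeff]
    refine Subring.mul_mem _ ?_ (Fermat.Agent.S28.PolyInt.coeff_jqModC_mem S _ n)
    have hζ' : Units.map (ι : R →* S) ζR = ζ := Units.ext hζR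
    have h : (ζ ^ (i : ℕ)) ^ n = Units.map (ι : R →* S) ((ζR ^ (i : ℕ)) ^ n) := by
      rw [map_zpow, map_pow, hζ']
    rw [h]
    exact ⟨_, rfl⟩

/-- integrality of the coefficients of `Φ` -/
theorem coeff_mem_range_of_aeval (ζ : Sˣ) (ζR : Rˣ) (hζR : ι ζR = ζ) (a : S[X]) (k : ℕ)
    (ha : aeval (qExpand S ℓ (jqModC S)) a = (∏ i, (X - C (rt ℓ ζ i))).coeff k) (m : ℕ) :
    a.coeff m ∈ ι.range := by
  refine Fermat.Agent.S28.PolyInt.coeff_mem_of_aeval_jq ι.range a (fun n => ?_) m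
  rw [coeff_aeval_qExpand ℓ, ha]
  exact Fermat.Agent.S28.PolyInt.mem_coeffSubring.mp
    (coeff_prod_X_sub_C_mem _ Finset.univ (rt ℓ ζ)
      (fun i _ => rt_mem_coeffSubring ι ℓ ζ ζR hζR i) k) _

/-- the top coefficient of `Φ(0, Y)` -/
theorem coeff_top_of_aeval (ζ : Sˣ) (a : S[X])
    (ha : aeval (qExpand S ℓ (jqModC S)) a = (∏ i, (X - C (rt ℓ ζ i))).coeff 0) :
    a.coeff (ℓ + 1) = ∏ i, (-(lcRt ℓ ζ i : S)) := by
  have hdeg := natDegree_le_of_aeval ℓ ζ a 0 ha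
  have h1 := Fermat.Agent.S28.PolyInt.coeff_aeval_neg (jqModC S) (coeff_jqModC_neg_one S)
    (fun _ hk => coeff_jqModC_of_lt S hk) a (ℓ + 1) (Nat.lt_succ_of_le hdeg)
  rw [← h1, coeff_aeval_qExpand ℓ, ha, Polynomial.coeff_zero_eq_eval_zero, Polynomial.eval_prod]
  have h2 : ∀ i : Option (Fin ℓ), Polynomial.eval 0 (X - C (rt ℓ ζ i)) = -rt ℓ ζ i := fun i => by
    rw [Polynomial.eval_sub, Polynomial.eval_X, Polynomial.eval_C, zero_sub]
  simp only [h2]
  have h3 := (ordGe_prod Finset.univ (fun i => -rt ℓ ζ i) (ordRt ℓ)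
    (fun i _ => (ordGe_rt ℓ ζ i).neg)).2
  rw [sum_ordRt] at h3
  have h4 : (ℓ : ℤ) * -(((ℓ + 1 : ℕ)) : ℤ) = (ℓ : ℤ) * (-((ℓ : ℤ) + 1)) := by push_cast; ring
  rw [h4, h3]
  refine Finset.prod_congr rfl fun i _ => ?_
  rw [HahnSeries.coeff_neg, coeff_rt]

end Coeff

/-! ### The modular polynomial over the coefficient ring and the cusp equation -/

section Main

variable {R S : Type*} [CommRing R] [Field S] (ι : R →+* S) (ℓ : ℕ) [Fact ℓ.Prime]

omit [Fact ℓ.Prime] in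
theorem map_lcRt (ζR : Rˣ) (i : Option (Fin ℓ)) :
    Units.map (ι : R →* S) (lcRt ℓ ζR i) = lcRt ℓ (Units.map (ι : R →* S) ζR) i := by
  cases i with
  | none => exact map_one _
  | some i =>
    show Units.map (ι : R →* S) ((ζR ^ (i : ℕ)) ^ (-1 : ℤ)) = _
    rw [map_zpow, map_pow]
    rfl

/-- **the modular polynomial over `R`**: coefficients of `Y`-degree `≤ ℓ + 1`, the coefficient of
`Y^(ℓ+1)` in `Φ(0, Y)` is a unit, and the `ℓ + 1` conjugates are roots of `Φ(X, j(q^ℓ))`. -/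
theorem exists_modPoly [IsAlgClosed S] (hι : Function.Injective ι) (ζ : Sˣ)
    (hζ : IsPrimitiveRoot ζ ℓ) (ζR : Rˣ) (hζR : ι ζR = ζ) :
    ∃ Ψ : R[X][X], (∀ k, (Ψ.coeff k).natDegree ≤ ℓ + 1) ∧
      IsUnit ((Ψ.coeff 0).coeff (ℓ + 1)) ∧
      ∀ i : Option (Fin ℓ), ∑ k ∈ Finset.range (ℓ + 2),
        Polynomial.eval₂ ((algebraMap S (LaurentSeries S)).comp ι) (qExpand S ℓ (jqModC S))
          (Ψ.coeff k) * rt ℓ ζ i ^ k = 0 := by
  obtain ⟨Φ, T, Ψ', hΦ, hΦd, -, -, -, h2, h3, -⟩ := Fermat.Agent.S28.ModPkgK.exists_modPkg ℓ S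
  have hprod := map_eq_prod ℓ ζ hζ Φ hΦ hΦd h2 h3
  have hco : ∀ k, aeval (qExpand S ℓ (jqModC S)) (Φ.coeff k) =
      (∏ i, (X - C (rt ℓ ζ i))).coeff k := fun k => by
    rw [← hprod, Fermat.Agent.S28.ModPkg.coeff_map_aeval]
  have hl : Φ ∈ Polynomial.lifts (Polynomial.mapRingHom ι) := by
    rw [Polynomial.lifts_iff_coeff_lifts]
    intro k
    have hk : Φ.coeff k ∈ Polynomial.lifts ι := by
      rw [Polynomial.lifts_iff_coeff_lifts]
      intro m
      exact RingHom.mem_range.mp (coeff_mem_range_of_aeval ι ℓ ζ ζR hζR (Φ.coeff k) k (hco k) m)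
    obtain ⟨q, hq⟩ := (Polynomial.mem_lifts _).mp hk
    exact ⟨q, by rw [Polynomial.coe_mapRingHom]; exact hq⟩
  obtain ⟨Ψ, hΨ⟩ := (Polynomial.mem_lifts _).mp hl
  have hΨk : ∀ k, (Ψ.coeff k).map ι = Φ.coeff k := fun k => by
    rw [← hΨ, Polynomial.coeff_map, Polynomial.coe_mapRingHom]
  refine ⟨Ψ, fun k => ?_, ?_, fun i => ?_⟩
  · rw [← Polynomial.natDegree_map_eq_of_injective hι, hΨk]
    exact natDegree_le_of_aeval ℓ ζ _ k (hco k)
  · have h := coeff_top_of_aeval ℓ ζ (Φ.coeff 0) (hco 0)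
    rw [← hΨk 0, Polynomial.coeff_map] at h
    have hζ' : Units.map (ι : R →* S) ζR = ζ := Units.ext hζR
    have hu : ι ((∏ i : Option (Fin ℓ), -(lcRt ℓ ζR i) : Rˣ) : R) =
        ∏ i : Option (Fin ℓ), (-(lcRt ℓ ζ i : S)) := by
      rw [Units.coe_prod, map_prod]
      refine Finset.prod_congr rfl fun i _ => ?_
      rw [Units.val_neg, map_neg, ← hζ', ← map_lcRt]
      rfl
    have h' : (Ψ.coeff 0).coeff (ℓ + 1) = ((∏ i : Option (Fin ℓ), -(lcRt ℓ ζR i) : Rˣ) : R) :=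
      hι (by rw [h, hu])
    rw [h']
    exact Units.isUnit _
  · have h := eval_rt ℓ ζ hζ.pow_eq_one Φ h2 h3 i
    rw [Polynomial.eval_eq_sum_range, hΦ.natDegree_map, hΦd] at h
    rw [← h]
    refine Finset.sum_congr rfl fun k _ => ?_
    rw [Fermat.Agent.S28.ModPkg.coeff_map_aeval, ← hΨk k, Polynomial.aeval_def,
      Polynomial.eval₂_map]

/-- the reversed polynomial `∑ₘ (Vⁿ aₙ₋ₘ(1/V)) Uᵐ` of `∑ₖ aₖ(Y) Xᵏ` -/
def cuspPoly (n : ℕ) (Ψ : R[X][X]) : R[X][X] :=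
  ∑ m ∈ Finset.range (n + 1), Polynomial.monomial m (Polynomial.reflect n (Ψ.coeff (n - m)))

theorem coeff_cuspPoly (n : ℕ) (Ψ : R[X][X]) (m : ℕ) :
    (cuspPoly n Ψ).coeff m = if m ≤ n then Polynomial.reflect n (Ψ.coeff (n - m)) else 0 := by
  rw [cuspPoly, Polynomial.finsetSum_coeff]
  simp only [Polynomial.coeff_monomial]
  rw [Finset.sum_ite_eq' (Finset.range (n + 1)) m]
  simp only [Finset.mem_range, Nat.lt_succ_iff]

theorem natDegree_cuspPoly_le (n : ℕ) (Ψ : R[X][X]) : (cuspPoly n Ψ).natDegree ≤ n := by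
  rw [Polynomial.natDegree_le_iff_coeff_eq_zero]
  intro m hm
  rw [coeff_cuspPoly, if_neg (not_le.mpr hm)]

theorem leadingCoeff_cuspPoly (n : ℕ) (Ψ : R[X][X])
    (h : Polynomial.reflect n (Ψ.coeff 0) ≠ 0) :
    (cuspPoly n Ψ).leadingCoeff = Polynomial.reflect n (Ψ.coeff 0) := by
  have hc : (cuspPoly n Ψ).coeff n = Polynomial.reflect n (Ψ.coeff 0) := by
    rw [coeff_cuspPoly, if_pos le_rfl, Nat.sub_self]
  have hd : (cuspPoly n Ψ).natDegree = n :=
    Polynomial.natDegree_eq_of_le_of_coeff_ne_zero (natDegree_cuspPoly_le n Ψ) (by rw [hc]; exact h)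
  rw [Polynomial.leadingCoeff, hd, hc]

theorem eval₂_cuspPoly {K : Type*} [Field K] (f : R →+* K) (x ρ : K) (hx : x ≠ 0) (hρ : ρ ≠ 0)
    (n : ℕ) (Ψ : R[X][X]) (hdeg : ∀ k, (Ψ.coeff k).natDegree ≤ n) :
    Polynomial.eval₂ (Polynomial.eval₂RingHom f x⁻¹) ρ⁻¹ (cuspPoly n Ψ) =
      (∑ k ∈ Finset.range (n + 1), Polynomial.eval₂ f x (Ψ.coeff k) * ρ ^ k) * (x ^ n)⁻¹ *
        (ρ ^ n)⁻¹ := by
  have hrefl : ∀ p : R[X], p.natDegree ≤ n →
      Polynomial.eval₂ f x⁻¹ (Polynomial.reflect n p) = Polynomial.eval₂ f x p * (x ^ n)⁻¹ := by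
    intro p hp
    let _ := invertibleOfNonzero hx
    have h := Polynomial.eval₂_reflect_mul_pow f x n p hp
    rw [invOf_eq_inv] at h
    rw [← h, mul_assoc, mul_inv_cancel₀ (pow_ne_zero n hx), mul_one]
  rw [cuspPoly, Polynomial.eval₂_finsetSum, Finset.sum_mul, Finset.sum_mul,
    ← Finset.sum_range_reflect (fun k => Polynomial.eval₂ f x (Ψ.coeff k) * ρ ^ k * (x ^ n)⁻¹ *
      (ρ ^ n)⁻¹) (n + 1)]
  refine Finset.sum_congr rfl fun m hm => ?_
  have hm' : m ≤ n := Nat.lt_succ_iff.mp (Finset.mem_range.mp hm)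
  have h1 : n + 1 - 1 - m = n - m := by omega
  have h2 : ρ ^ n = ρ ^ (n - m) * ρ ^ m := by rw [← pow_add, Nat.sub_add_cancel hm']
  rw [Polynomial.eval₂_monomial, Polynomial.coe_eval₂RingHom, hrefl _ (hdeg _), h1, inv_pow, h2]
  have h3 : ρ ^ (n - m) ≠ 0 := pow_ne_zero _ hρ
  have h4 : ρ ^ m ≠ 0 := pow_ne_zero _ hρ
  field_simp

/-- **The cusp equation.**  There is `G ∈ R[V][U]` whose leading coefficient `g(V)` has
`g(0) ∈ Rˣ` and with `G(1/ρ; 1/j(q^ℓ)) = 0` for each of the `ℓ + 1` conjugates `ρ` of `j(q)`. -/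
theorem exists_cusp_equation [IsAlgClosed S] (hι : Function.Injective ι) (ζ : Sˣ)
    (hζ : IsPrimitiveRoot ζ ℓ) (ζR : Rˣ) (hζR : ι ζR = ζ) :
    ∃ G : R[X][X], IsUnit (G.leadingCoeff.coeff 0) ∧
      ∀ i : Option (Fin ℓ),
        Polynomial.eval₂ (ch ι (qExpand S ℓ (jqModC S))⁻¹) (rt ℓ ζ i)⁻¹ G = 0 := by
  obtain ⟨Ψ, hdeg, hu, hroot⟩ := exists_modPoly ι ℓ hι ζ hζ ζR hζR
  have hR : Nontrivial R := ι.domain_nontrivial
  have hc0 : (Polynomial.reflect (ℓ + 1) (Ψ.coeff 0)).coeff 0 = (Ψ.coeff 0).coeff (ℓ + 1) := by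
    rw [Polynomial.coeff_reflect, Polynomial.revAt_le (Nat.zero_le _), Nat.sub_zero]
  have hne : Polynomial.reflect (ℓ + 1) (Ψ.coeff 0) ≠ 0 := by
    intro h
    rw [h, Polynomial.coeff_zero] at hc0
    exact hu.ne_zero hc0.symm
  refine ⟨cuspPoly (ℓ + 1) Ψ, ?_, fun i => ?_⟩
  · rw [leadingCoeff_cuspPoly _ _ hne, hc0]
    exact hu
  · have hx : qExpand S ℓ (jqModC S) ≠ 0 :=
      (map_ne_zero (qExpand S ℓ)).mpr (jqModC_ne_zero_of_nontrivial S)
    have h := eval₂_cuspPoly ((algebraMap S (LaurentSeries S)).comp ι) _ _ hx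
      (rt_ne_zero ℓ ζ i) (ℓ + 1) Ψ hdeg
    show Polynomial.eval₂ (Polynomial.eval₂RingHom ((algebraMap S (LaurentSeries S)).comp ι)
      (qExpand S ℓ (jqModC S))⁻¹) _ _ = 0
    rw [h, hroot i, zero_mul, zero_mul]

/-- **The chart at infinity, conjugates of `1/j`.**  With `g := G.leadingCoeff`:
`g(v_ℓ) · (1/j)(ζ^i q)` and `g(v_ℓ) · (1/j)(q^(ℓ²))` are integral over `R[v_ℓ]`,
`v_ℓ = 1/j(q^ℓ)`, and `g(0)` is a unit of `R`. -/
theorem exists_cusp_g [IsAlgClosed S] (hι : Function.Injective ι) (ζ : Sˣ)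
    (hζ : IsPrimitiveRoot ζ ℓ) (ζR : Rˣ) (hζR : ι ζR = ζ) :
    ∃ g : R[X], IsUnit (g.coeff 0) ∧
      (∀ i : ℕ, (ch ι (qExpand S ℓ (jqModC S))⁻¹).IsIntegralElem
        (ch ι (qExpand S ℓ (jqModC S))⁻¹ g * (twist (ζ ^ i) (jqModC S))⁻¹)) ∧
      (ch ι (qExpand S ℓ (jqModC S))⁻¹).IsIntegralElem
        (ch ι (qExpand S ℓ (jqModC S))⁻¹ g * (qExpand S (ℓ ^ 2) (jqModC S))⁻¹) := by
  obtain ⟨G, hG, hroot⟩ := exists_cusp_equation ι ℓ hι ζ hζ ζR hζR
  have hℓ : 0 < ℓ := (Fact.out : ℓ.Prime).pos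
  refine ⟨G.leadingCoeff, hG, fun i => ?_, ?_⟩
  · have h := RingHom.isIntegralElem_leadingCoeff_mul _ G _ (hroot (some ⟨i % ℓ, Nat.mod_lt i hℓ⟩))
    have hi : ζ ^ (i % ℓ) = ζ ^ i := by
      conv_rhs => rw [← Nat.div_add_mod i ℓ, pow_add, pow_mul, hζ.pow_eq_one, one_pow, one_mul]
    have hrt : rt ℓ ζ (some ⟨i % ℓ, Nat.mod_lt i hℓ⟩) = twist (ζ ^ i) (jqModC S) := by
      show twist (ζ ^ (i % ℓ)) (jqModC S) = _
      rw [hi]
    rw [hrt] at h
    exact h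
  · exact RingHom.isIntegralElem_leadingCoeff_mul _ G _ (hroot none)

end Main

/-! ### Consequences for integrality over the chart at infinity -/

section Corollaries

variable {R S : Type*} [CommRing R] [Field S] (ι : R →+* S)

theorem isIntegralElem_sum {t : LaurentSeries S} {α : Type*} (s : Finset α)
    (f : α → LaurentSeries S) (h : ∀ i ∈ s, (ch ι t).IsIntegralElem (f i)) :
    (ch ι t).IsIntegralElem (∑ i ∈ s, f i) :=
  Finset.sum_induction f _ (fun _ _ ha hb => ha.add _ hb) (RingHom.isIntegralElem_zero _) h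

/-- `c(t) · g(t')^N` is integral over `R[t']` when `g(t') · t` is and `deg c ≤ N` -/
theorem isIntegralElem_ch_mul_pow {t t' : LaurentSeries S} (g : R[X])
    (h : (ch ι t').IsIntegralElem (ch ι t' g * t)) (c : R[X]) (N : ℕ) (hN : c.natDegree ≤ N) :
    (ch ι t').IsIntegralElem (ch ι t c * (ch ι t' g) ^ N) := by
  have hγ : (ch ι t').IsIntegralElem (ch ι t' g) := RingHom.isIntegralElem_map _
  have hexp : ch ι t c = ∑ k ∈ Finset.range (c.natDegree + 1),
      algebraMap S (LaurentSeries S) (ι (c.coeff k)) * t ^ k := by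
    show Polynomial.eval₂ _ t c = _
    rw [Polynomial.eval₂_eq_sum_range]
    rfl
  rw [hexp, Finset.sum_mul]
  refine isIntegralElem_sum ι _ _ fun k hk => ?_
  have hk' : k ≤ N := le_trans (Nat.lt_succ_iff.mp (Finset.mem_range.mp hk)) hN
  have hN' : (ch ι t' g) ^ N = (ch ι t' g) ^ (N - k) * (ch ι t' g) ^ k := by
    rw [← pow_add, Nat.sub_add_cancel hk']
  have e : algebraMap S (LaurentSeries S) (ι (c.coeff k)) * t ^ k * (ch ι t' g) ^ N =
      ch ι t' (C (c.coeff k)) * ((ch ι t' g * t) ^ k * (ch ι t' g) ^ (N - k)) := by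
    rw [ch_C, hN', mul_pow]
    ring
  rw [e]
  exact (RingHom.isIntegralElem_map _).mul _
    ((isIntegralElem_pow ι h k).mul _ (isIntegralElem_pow ι hγ (N - k)))

/-- **(D2)** if `g(t') · t` is integral over `R[t']`, then every `y` integral over `R[t]` becomes
integral over `R[t']` after multiplication by a power of `g(t')`. -/
theorem exists_pow_mul_isIntegralElem {t t' : LaurentSeries S} (g : R[X])
    (h : (ch ι t').IsIntegralElem (ch ι t' g * t)) {y : LaurentSeries S}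
    (hy : (ch ι t).IsIntegralElem y) :
    ∃ m : ℕ, ∀ m' : ℕ, m ≤ m' → (ch ι t').IsIntegralElem ((ch ι t' g) ^ m' * y) := by
  obtain ⟨p, hp, hpy⟩ := hy
  have hγ : (ch ι t').IsIntegralElem (ch ι t' g) := RingHom.isIntegralElem_map _
  let m : ℕ := (Finset.range p.natDegree).sup fun i => (p.coeff i).natDegree
  have key : (ch ι t').IsIntegralElem ((ch ι t' g) ^ m * y) := by
    have hPm : (p.map (ch ι t)).Monic := hp.map _
    have hPd : (p.map (ch ι t)).natDegree = p.natDegree := hp.natDegree_map _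
    have hPy : (p.map (ch ι t)).eval y = 0 := by
      rw [Polynomial.eval_map]
      exact hpy
    have hQ : ((p.map (ch ι t)).scaleRoots ((ch ι t' g) ^ m)).eval ((ch ι t' g) ^ m * y) = 0 := by
      have h1 := Polynomial.scaleRoots_eval₂_eq_zero (RingHom.id (LaurentSeries S)) (r := y)
        (s := (ch ι t' g) ^ m) (p := p.map (ch ι t)) (by rwa [Polynomial.eval₂_id])
      rwa [Polynomial.eval₂_id, RingHom.id_apply] at h1
    let _ : Algebra R[X] (LaurentSeries S) := (ch ι t').toAlgebra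
    refine Fermat.Agent.S28.ModPkgJp.isIntegral_of_monic_of_coeff (R := R[X]) _
      ((Polynomial.monic_scaleRoots_iff _).mpr hPm) (fun i => ?_) _ hQ
    show (ch ι t').IsIntegralElem (((p.map (ch ι t)).scaleRoots ((ch ι t' g) ^ m)).coeff i)
    rw [Polynomial.coeff_scaleRoots, hPd, Polynomial.coeff_map, ← pow_mul]
    rcases lt_trichotomy i p.natDegree with hi | hi | hi
    · apply isIntegralElem_ch_mul_pow ι g h
      calc (p.coeff i).natDegree ≤ m :=
            Finset.le_sup (f := fun i => (p.coeff i).natDegree) (Finset.mem_range.mpr hi)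
        _ ≤ m * (p.natDegree - i) := Nat.le_mul_of_pos_right m (Nat.sub_pos_of_lt hi)
    · rw [hi, Nat.sub_self, mul_zero, pow_zero, mul_one, hp.coeff_natDegree, map_one]
      exact RingHom.isIntegralElem_one _
    · rw [Polynomial.coeff_eq_zero_of_natDegree_lt hi, map_zero, zero_mul]
      exact RingHom.isIntegralElem_zero _
  refine ⟨m, fun m' hm' => ?_⟩
  have e : (ch ι t' g) ^ m' * y = (ch ι t' g) ^ (m' - m) * ((ch ι t' g) ^ m * y) := by
    rw [← mul_assoc, ← pow_add, Nat.sub_add_cancel hm']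
  rw [e]
  exact (isIntegralElem_pow ι hγ _).mul _ key

variable (ℓ : ℕ) [Fact ℓ.Prime]

/-- descent along `q ↦ q^ℓ`, any chart -/
theorem isIntegralElem_of_qExpand' {t c : LaurentSeries S}
    (h : (ch ι (qExpand S ℓ t)).IsIntegralElem (qExpand S ℓ c)) : (ch ι t).IsIntegralElem c := by
  rw [← comp_ch ι (qExpand S ℓ) (qExpand_algebraMap ℓ)] at h
  exact h.of_map (qExpand_injective ℓ)

/-- **(D4) the Hecke norm at the cusp chart.**  There is `g ∈ R[V]` with `g(0) ∈ Rˣ` such that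
for every `y` integral over `R[1/j]` and every `c` as in the hypothesis `hc` of
`Kronecker.kronecker_norm`, some `g(1/j)^m · c` is integral over `R[1/j]`. -/
theorem exists_pow_mul_isIntegralElem_of_norm [IsAlgClosed S] (hι : Function.Injective ι)
    (ζ : Sˣ) (hζ : IsPrimitiveRoot ζ ℓ) (ζR : Rˣ) (hζR : ι ζR = ζ) :
    ∃ g : R[X], IsUnit (g.coeff 0) ∧
      ∀ y : LaurentSeries S, (ch ι (jqModC S)⁻¹).IsIntegralElem y →
        ∀ (a : R) (c : LaurentSeries S),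
          qExpand S ℓ c = (qExpand S (ℓ ^ 2) y - HahnSeries.C (ι a)) *
            ∏ i ∈ Finset.range ℓ, ((twist ζ)^[i] y - HahnSeries.C (ι a)) →
          ∃ m : ℕ, (ch ι (jqModC S)⁻¹).IsIntegralElem ((ch ι (jqModC S)⁻¹ g) ^ m * c) := by
  obtain ⟨g, hg, htw, hsq⟩ := exists_cusp_g ι ℓ hι ζ hζ ζR hζR
  refine ⟨g, hg, fun y hy a c hc => ?_⟩
  have hγint : (ch ι (qExpand S ℓ (jqModC S))⁻¹).IsIntegralElem
      (ch ι (qExpand S ℓ (jqModC S))⁻¹ g) := RingHom.isIntegralElem_map _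
  have hconj_sq : ∃ m : ℕ, ∀ m' : ℕ, m ≤ m' → (ch ι (qExpand S ℓ (jqModC S))⁻¹).IsIntegralElem
      ((ch ι (qExpand S ℓ (jqModC S))⁻¹ g) ^ m' * qExpand S (ℓ ^ 2) y) := by
    have h1 := isIntegralElem_map ι (qExpand S (ℓ ^ 2)) (qExpand_algebraMap _) hy
    rw [map_inv₀] at h1
    exact exists_pow_mul_isIntegralElem ι g hsq h1
  have hconj_tw : ∀ i : ℕ, ∃ m : ℕ, ∀ m' : ℕ, m ≤ m' →
      (ch ι (qExpand S ℓ (jqModC S))⁻¹).IsIntegralElem
        ((ch ι (qExpand S ℓ (jqModC S))⁻¹ g) ^ m' * (twist ζ)^[i] y) := by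
    intro i
    rw [Fermat.Agent.S37.Kronecker.iterate_twist_eq]
    have h1 := isIntegralElem_map ι (twist (ζ ^ i)) (twist_algebraMap _) hy
    rw [map_inv₀] at h1
    exact exists_pow_mul_isIntegralElem ι g (htw i) h1
  obtain ⟨m0, hm0⟩ := hconj_sq
  choose mi hmi using hconj_tw
  have hconst : ∀ M : ℕ, (ch ι (qExpand S ℓ (jqModC S))⁻¹).IsIntegralElem
      ((ch ι (qExpand S ℓ (jqModC S))⁻¹ g) ^ M * HahnSeries.C (ι a)) := fun M =>
    (isIntegralElem_pow ι hγint M).mul _ (isIntegralElem_const ι _ a)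
  have h0 : (ch ι (qExpand S ℓ (jqModC S))⁻¹).IsIntegralElem
      ((ch ι (qExpand S ℓ (jqModC S))⁻¹ g) ^ (m0 + ∑ i ∈ Finset.range ℓ, mi i) *
        (qExpand S (ℓ ^ 2) y - HahnSeries.C (ι a))) := by
    rw [mul_sub]
    exact (hm0 _ (Nat.le_add_right _ _)).sub _ (hconst _)
  have hi : ∀ i ∈ Finset.range ℓ, (ch ι (qExpand S ℓ (jqModC S))⁻¹).IsIntegralElem
      ((ch ι (qExpand S ℓ (jqModC S))⁻¹ g) ^ (m0 + ∑ i ∈ Finset.range ℓ, mi i) *
        ((twist ζ)^[i] y - HahnSeries.C (ι a))) := by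
    intro i hi
    rw [mul_sub]
    refine (hmi i _ ?_).sub _ (hconst _)
    calc mi i ≤ ∑ i ∈ Finset.range ℓ, mi i :=
          Finset.single_le_sum (f := mi) (fun _ _ => Nat.zero_le _) hi
      _ ≤ m0 + ∑ i ∈ Finset.range ℓ, mi i := Nat.le_add_left _ _
  refine ⟨(m0 + ∑ i ∈ Finset.range ℓ, mi i) * (ℓ + 1), ?_⟩
  apply isIntegralElem_of_qExpand' ι ℓ
  have hγ' : qExpand S ℓ (ch ι (jqModC S)⁻¹ g) = ch ι (qExpand S ℓ (jqModC S))⁻¹ g := by
    rw [← map_inv₀, ← comp_ch ι (qExpand S ℓ) (qExpand_algebraMap ℓ)]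
    rfl
  have e : (ch ι (qExpand S ℓ (jqModC S))⁻¹ g) ^ ((m0 + ∑ i ∈ Finset.range ℓ, mi i) * (ℓ + 1)) *
      ((qExpand S (ℓ ^ 2) y - HahnSeries.C (ι a)) *
        ∏ i ∈ Finset.range ℓ, ((twist ζ)^[i] y - HahnSeries.C (ι a))) =
      ((ch ι (qExpand S ℓ (jqModC S))⁻¹ g) ^ (m0 + ∑ i ∈ Finset.range ℓ, mi i) *
        (qExpand S (ℓ ^ 2) y - HahnSeries.C (ι a))) *
      ∏ i ∈ Finset.range ℓ, ((ch ι (qExpand S ℓ (jqModC S))⁻¹ g) ^
        (m0 + ∑ i ∈ Finset.range ℓ, mi i) * ((twist ζ)^[i] y - HahnSeries.C (ι a))) := by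
    rw [Finset.prod_mul_distrib, Finset.prod_const, Finset.card_range]
    ring
  rw [map_inv₀, map_mul, map_pow, hγ', hc, e]
  exact h0.mul _ (isIntegralElem_prod ι _ _ hi)

end Corollaries

end Fermat.Agent.S37.CuspEq
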