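import Mathlib
import Fermat.Agent.S37.RedPlace
import Fermat.Agent.S37.Kronecker
import Fermat.Agent.S18.ResField
import Fermat.Prelude.Def_EllipticCurve_FrobeniusTrace
import Fermat.Prelude.Def_ModularCurve_HeckeOperator

/-!
# S37 (W4): the Eichler–Shimura congruence for one function, value form  (OWNER: helper8)

`A` a valuation subring of `ℚ̄` over `ℓ`, `σ` a Frobenius element at `A`, `P` a place of
`F_L = FL N` on the chart `b`, `x ∈ D_b = chart A N b`.  With
`heckeNorm N ℓ x = N_β(α x) ∈ F_L` (norm from `F(Nℓ)` down to `β F(N)`, `β : q ↦ q^ℓ`):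

  `val_heckeNorm :  val P (N_β(α x)) = val P (σ⁻¹ x) ^ ℓ * val P (σ x)`

from the Kronecker congruence (`Kronecker.kronecker_norm'`) and the following inputs, all taken
as HYPOTHESES here (they are the leaves of the W4 block):

* `hRint`  : chart elements are regular at `P` with value in `A`;
* `hgal`   : `σ^{±1}` preserve the chart ring;
* `hInt`   : chart elements have `A`-integral `q`-expansions;
* `hGS`    : a chart element whose `q`-expansion reduces to `0` has value `0` at `P`;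
* `hNI`    : `s * N_β(α x) ∈ D_b` for some `s ∈ D_b` with nonzero value at `P`;
* `hLoc`   : `N_β(α x)` is regular at `P` with value in `A`;
* `hTheta` : `N_β(α x)(q^ℓ) = x(q^{ℓ²}) ∏_{i<ℓ} x(ζ^i q)`.

Also: `restr A s` (the restriction to `A` of an element `s` of the decomposition group) with
`residue_restr` / `residue_restr_inv` (Frobenius on the residue field), and `val_pow`.
-/

set_option autoImplicit false

noncomputable section

open AlgebraicCurve ModularCurve
open Fermat.Agent.S18.S24Export Fermat.Agent.S37.EvalGal Fermat.Agent.S37.RedPlace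
open Fermat.Agent.S28.HahnSubst

namespace Fermat.Agent.S37.HeckeCore

local notation "Qb" => AlgebraicClosure ℚ

section Frob

variable (A : ValuationSubring Qb)

/-- the restriction to `A` of an element of the decomposition group -/
def restr (s : A.decompositionSubgroup ℚ) : ↥A →+* ↥A :=
  MulSemiringAction.toRingHom (A.decompositionSubgroup ℚ) ↥A s

theorem coe_restr (s : A.decompositionSubgroup ℚ) (a : ↥A) :
    ((restr A s a : ↥A) : Qb) = (s : Qb ≃ₐ[ℚ] Qb) (a : Qb) := rfl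

theorem subtype_comp_restr (s : A.decompositionSubgroup ℚ) :
    A.subtype.comp (restr A s) = (((s : Qb ≃ₐ[ℚ] Qb) : Qb ≃ₐ[ℚ] Qb) : Qb →+* Qb).comp A.subtype :=
  RingHom.ext fun _ => rfl

theorem residue_restr {σ : Qb ≃ₐ[ℚ] Qb} {ℓ : ℕ} (hσ : A.IsFrobeniusAt σ ℓ) (a : ↥A) :
    IsLocalRing.residue ↥A (restr A ⟨σ, hσ.mem_decompositionSubgroup⟩ a)
      = IsLocalRing.residue ↥A a ^ ℓ := by
  have h := hσ.smul_residue_eq (IsLocalRing.residue ↥A a)
  rw [← IsLocalRing.ResidueField.residue_smul] at h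
  exact h

theorem residue_restr_inv {σ : Qb ≃ₐ[ℚ] Qb} {ℓ : ℕ} (hσ : A.IsFrobeniusAt σ ℓ) (a : ↥A) :
    IsLocalRing.residue ↥A (restr A (⟨σ, hσ.mem_decompositionSubgroup⟩)⁻¹ a) ^ ℓ
      = IsLocalRing.residue ↥A a := by
  rw [← residue_restr A hσ]
  congr 1
  show (⟨σ, hσ.mem_decompositionSubgroup⟩ : A.decompositionSubgroup ℚ) •
    ((⟨σ, hσ.mem_decompositionSubgroup⟩ : A.decompositionSubgroup ℚ)⁻¹ • a) = a
  rw [smul_inv_smul]

end Frob

section Core

variable (A : ValuationSubring Qb) (N : ℕ) [NeZero N]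

theorem val_pow (P : Place Qb (FL N)) {x : FL N} (hx : x ∈ Rint A N P) (n : ℕ) :
    val A N P (x ^ n) = val A N P x ^ n := by
  have h := map_pow (valHom A N P) ⟨x, hx⟩ n
  rw [← val_eq_valHom, ← val_eq_valHom] at h
  exact h

/-- the Hecke norm `N_β(α x)`: the norm of `x` (viewed in `F(Nℓ)` through the inclusion `α`)
down to `F(N)` embedded by `β : q ↦ q^ℓ`. -/
def heckeNorm (ℓ : ℕ) [NeZero ℓ] (x : FL N) : FL N :=
  letI := algebraAlong (heckeBetaBar Qb N ℓ)
  Algebra.norm (FL N) (heckeAlphaBar Qb N ℓ x)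

theorem heckeNorm_def (ℓ : ℕ) [NeZero ℓ] (x : FL N) :
    heckeNorm N ℓ x = (letI := algebraAlong (heckeBetaBar Qb N ℓ);
      Algebra.norm (FL N) (heckeAlphaBar Qb N ℓ x)) := rfl

variable {ℓ : ℕ} [NeZero ℓ]

set_option maxHeartbeats 800000 in
/-- **The Eichler–Shimura congruence for one function, value form.** -/
theorem val_heckeNorm (hℓ : ℓ.Prime) (hA : A.LiesOverPrime ℓ) {σ : Qb ≃ₐ[ℚ] Qb}
    (hσ : A.IsFrobeniusAt σ ℓ) (P : Place Qb (FL N)) (b : Bool)
    (hRint : ∀ x ∈ chart A N b, x ∈ Rint A N P)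
    (hgal : ∀ x ∈ chart A N b, gal N σ • x ∈ chart A N b ∧ (gal N σ)⁻¹ • x ∈ chart A N b)
    (hInt : ∀ x ∈ chart A N b, ∃ y : LaurentSeries ↥A,
      coeffMap A.subtype y = ((x : FL N) : LaurentSeries Qb))
    (hGS : ∀ x ∈ chart A N b, ∀ y : LaurentSeries ↥A,
      coeffMap A.subtype y = ((x : FL N) : LaurentSeries Qb) →
      coeffMap (IsLocalRing.residue ↥A) y = 0 → val A N P x = 0)
    (x : FL N) (hx : x ∈ chart A N b)
    (hNI : ∃ s ∈ chart A N b, val A N P s ≠ 0 ∧ s * heckeNorm N ℓ x ∈ chart A N b)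
    (hLoc : heckeNorm N ℓ x ∈ Rint A N P)
    (ζ : Qbˣ) (hζ : ζ ^ ℓ = 1)
    (hTheta : qExpand Qb ℓ ((heckeNorm N ℓ x : FL N) : LaurentSeries Qb)
      = qExpand Qb (ℓ ^ 2) (x : LaurentSeries Qb)
        * ∏ i ∈ Finset.range ℓ, twist (ζ ^ i) (x : LaurentSeries Qb)) :
    val A N P (heckeNorm N ℓ x)
      = val A N P ((gal N σ)⁻¹ • x) ^ ℓ * val A N P (gal N σ • x) := by
  have : Fact ℓ.Prime := ⟨hℓ⟩
  have : CharP (IsLocalRing.ResidueField ↥A) ℓ := Fermat.Agent.S18.ResField.charP A hA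
  set s₀ : A.decompositionSubgroup ℚ := ⟨σ, hσ.mem_decompositionSubgroup⟩ with hs₀
  obtain ⟨y, hy⟩ := hInt x hx
  obtain ⟨ζA, hζA, hζ1⟩ := Kronecker.exists_unit_of_pow_eq_one A ℓ ζ hζ
  obtain ⟨cR, hcR, hcRres⟩ := Kronecker.kronecker_norm' ℓ A.subtype Subtype.val_injective
    (IsLocalRing.residue ↥A) ζ ζA hζA hζ1 y 0
    ((heckeNorm N ℓ x : FL N) : LaurentSeries Qb) (by
      rw [hy, map_zero, map_zero, sub_zero]
      simp_rw [sub_zero]
      exact hTheta)
  rw [map_zero, zero_pow hℓ.ne_zero, map_zero, sub_zero, sub_zero] at hcRres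
  set yp : LaurentSeries ↥A := coeffMap (restr A s₀) y with hypdef
  set ym : LaurentSeries ↥A := coeffMap (restr A s₀⁻¹) y with hymdef
  have hyp : coeffMap A.subtype yp = ((gal N σ • x : FL N) : LaurentSeries Qb) := by
    rw [hypdef, coeffMap_coeffMap, subtype_comp_restr, ← coeffMap_coeffMap, hy]
    rfl
  have hym : coeffMap A.subtype ym = (((gal N σ)⁻¹ • x : FL N) : LaurentSeries Qb) := by
    rw [hymdef, coeffMap_coeffMap, subtype_comp_restr, ← coeffMap_coeffMap, hy, ← map_inv]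
    rfl
  have hresp : coeffMap (IsLocalRing.residue ↥A) yp
      = coeffMap (frobenius (IsLocalRing.ResidueField ↥A) ℓ)
          (coeffMap (IsLocalRing.residue ↥A) y) := by
    rw [hypdef, coeffMap_coeffMap, coeffMap_coeffMap]
    exact coeffMap_congr (RingHom.ext fun a => residue_restr A hσ a) y
  have hresm : coeffMap (IsLocalRing.residue ↥A) ym ^ ℓ
      = qExpand (IsLocalRing.ResidueField ↥A) ℓ (coeffMap (IsLocalRing.residue ↥A) y) := by
    rw [Kronecker.pow_char_eq_qExpand, hymdef, coeffMap_coeffMap, coeffMap_coeffMap]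
    congr 1
    exact coeffMap_congr (RingHom.ext fun a => residue_restr_inv A hσ a) y
  obtain ⟨s, hs, hsval, hsc⟩ := hNI
  obtain ⟨ys, hys⟩ := hInt s hs
  obtain ⟨c', hc'def⟩ : ∃ c' : FL N, c' = ((gal N σ)⁻¹ • x) ^ ℓ * (gal N σ • x) := ⟨_, rfl⟩
  have hc' : c' ∈ chart A N b := by
    rw [hc'def]
    exact mul_mem (pow_mem (hgal x hx).2 ℓ) (hgal x hx).1
  obtain ⟨δ, hδdef⟩ : ∃ δ : FL N, δ = s * heckeNorm N ℓ x - s * c' := ⟨_, rfl⟩
  have hδ : δ ∈ chart A N b := by
    rw [hδdef]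
    exact sub_mem hsc (mul_mem hs hc')
  have hδcoe : ((δ : FL N) : LaurentSeries Qb)
      = (s : LaurentSeries Qb) * ((heckeNorm N ℓ x : FL N) : LaurentSeries Qb)
        - (s : LaurentSeries Qb) * ((((gal N σ)⁻¹ • x : FL N) : LaurentSeries Qb) ^ ℓ
          * ((gal N σ • x : FL N) : LaurentSeries Qb)) := by
    rw [hδdef, hc'def]
    rfl
  have hδy : coeffMap A.subtype (ys * (cR - ym ^ ℓ * yp)) = ((δ : FL N) : LaurentSeries Qb) := by
    have e1 : coeffMap A.subtype (ys * (cR - ym ^ ℓ * yp))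
        = coeffMap A.subtype ys * (coeffMap A.subtype cR
          - coeffMap A.subtype ym ^ ℓ * coeffMap A.subtype yp) := by
      rw [map_mul, map_sub, map_mul, map_pow]
    have e2 : coeffMap A.subtype ys * (coeffMap A.subtype cR
          - coeffMap A.subtype ym ^ ℓ * coeffMap A.subtype yp)
        = (s : LaurentSeries Qb) * (((heckeNorm N ℓ x : FL N) : LaurentSeries Qb)
          - (((gal N σ)⁻¹ • x : FL N) : LaurentSeries Qb) ^ ℓ
            * ((gal N σ • x : FL N) : LaurentSeries Qb)) :=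
      congr (congrArg HMul.hMul hys) (congr (congrArg HSub.hSub hcR)
        (congr (congrArg HMul.hMul (congrArg (· ^ ℓ) hym)) hyp))
    rw [e1, e2, hδcoe, mul_sub]
  have hδres : coeffMap (IsLocalRing.residue ↥A) (ys * (cR - ym ^ ℓ * yp)) = 0 := by
    rw [map_mul, map_sub, map_mul, map_pow, hcRres, hresp, hresm, sub_self, mul_zero]
  have h0 := hGS δ hδ _ hδy hδres
  have hsR := hRint s hs
  have hc'R := hRint c' hc'
  have h1 : val A N P δ
      = val A N P s * val A N P (heckeNorm N ℓ x) - val A N P s * val A N P c' := by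
    rw [hδdef, val_sub A N P (Subring.mul_mem _ hsR hLoc) (Subring.mul_mem _ hsR hc'R),
      val_mul A N P hsR hLoc, val_mul A N P hsR hc'R]
  rw [h1, ← mul_sub, mul_eq_zero] at h0
  have h2 : val A N P (heckeNorm N ℓ x) = val A N P c' :=
    sub_eq_zero.mp (h0.resolve_left hsval)
  have hxp := hRint _ (hgal x hx).1
  have hxm := hRint _ (hgal x hx).2
  rw [h2, hc'def, val_mul A N P (Subring.pow_mem _ hxm ℓ) hxp, val_pow A N P hxm]

end Core

end Fermat.Agent.S37.HeckeCore
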