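import Mathlib
import Fermat.Prelude.Def_ModularCurve_HeckeOperator
import Fermat.Agent.S18.S24Export
import Fermat.Agent.S18.FieldDefQ
import Fermat.Agent.S28.ModPkgK
import Fermat.Agent.S28.ModPkgAn
import Fermat.Agent.S28.Twist
import Fermat.Agent.S20.Cosets

/-!
# S37 (W4): the degree of the Hecke correspondence

For a prime `ℓ ∤ N`, the function field `F(Nℓ)` of `X₀(Nℓ)` over `ℚ̄` has degree `ℓ + 1` over the
image of `F(N)` under `β : f(q) ↦ f(q^ℓ)`.
-/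

set_option autoImplicit false
set_option linter.style.haveILetI false

noncomputable section

open ModularCurve IntermediateField AlgebraicCurve Polynomial

namespace Fermat.Agent.S37.HeckeDeg

local notation "Qb" => AlgebraicClosure ℚ

open Fermat.Agent.S18 Fermat.Agent.S18.S24Export

/-! ### `ψ(Nℓ) = (ℓ + 1) ψ(N)` -/

theorem dedekindPsi_mul_prime (N ℓ : ℕ) (hℓ : ℓ.Prime) (hℓN : ¬ ℓ ∣ N) :
    dedekindPsi (N * ℓ) = dedekindPsi N * (ℓ + 1) := by
  have hco : N.Coprime ℓ := (Nat.Prime.coprime_iff_not_dvd hℓ).mpr hℓN |>.symm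
  rw [Fermat.Agent.S20.Cosets.dedekindPsi_eq_sum,
    Fermat.Agent.S20.Cosets.sum_mul_of_mul Fermat.Agent.S20.Cosets.sqTerm_mul hco,
    ← Fermat.Agent.S20.Cosets.dedekindPsi_eq_sum, ← Fermat.Agent.S20.Cosets.dedekindPsi_eq_sum,
    Fermat.Agent.S28.ModPkgAn.dedekindPsi_prime ℓ hℓ]

/-! ### The substitution `q ↦ q^ℓ` as an algebra map -/

/-- `q ↦ q^ℓ` on `ℚ̄((q))`, as a `ℚ̄`-algebra map. -/
def V (ℓ : ℕ) [NeZero ℓ] : LaurentSeries Qb →ₐ[Qb] LaurentSeries Qb :=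
  { qExpand Qb ℓ with
    commutes' := fun a => by
      show qExpand Qb ℓ (algebraMap Qb (LaurentSeries Qb) a) = algebraMap Qb (LaurentSeries Qb) a
      rw [algebraMap_laurentSeries_eq_single, qExpand_single, mul_zero] }

@[simp]
theorem V_apply (ℓ : ℕ) [NeZero ℓ] (f : LaurentSeries Qb) : V ℓ f = qExpand Qb ℓ f := rfl

/-! ### Degrees over `ℚ̄(j)` -/

theorem j_mem (M : ℕ) : jqModC Qb ∈ FL M := by
  rw [← FieldDefQ.coe_jL_eq M]
  exact (jL M).2

theorem adjoin_j_le (M : ℕ) : Qb⟮jqModC Qb⟯ ≤ FL M := by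
  rw [adjoin_simple_le_iff]
  exact j_mem M

/-- `[F(M) : ℚ̄(j)] = ψ(M)`, as a relative degree inside `ℚ̄((q))`. -/
theorem relfinrank_j (M : ℕ) [NeZero M] :
    relfinrank Qb⟮jqModC Qb⟯ (FL M) = dedekindPsi M := by
  have h := S24Export.finrank_adjoin M
  rw [← relfinrank_top_right, ← relfinrank_map_map _ _ (FL M).val, adjoin_map, Set.image_singleton,
    ← AlgHom.fieldRange_eq_map, fieldRange_val] at h
  have h2 : (FL M).val (jL M) = jqModC Qb := FieldDefQ.coe_jL_eq M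
  rwa [h2] at h

/-! ### Generic: the degree of `F(a, b)` over `F(a)` -/

theorem relfinrank_adjoin_pair {F E : Type*} [Field F] [Field E] [Algebra F E] (a b : E)
    (hb : IsIntegral ↥F⟮a⟯ b) :
    relfinrank F⟮a⟯ (IntermediateField.adjoin F {a, b}) = (minpoly ↥F⟮a⟯ b).natDegree := by
  have hle : F⟮a⟯ ≤ IntermediateField.adjoin F {a, b} :=
    IntermediateField.adjoin.mono F _ _ (by intro x hx; rw [Set.mem_singleton_iff] at hx; simp [hx])
  rw [relfinrank_eq_finrank_of_le hle]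
  have h1 : extendScalars hle = (↥F⟮a⟯)⟮b⟯ := by
    apply IntermediateField.restrictScalars_injective F
    rw [extendScalars_restrictScalars, adjoin_simple_adjoin_simple]
  rw [h1]
  exact IntermediateField.adjoin.finrank hb

/-! ### Level `ℓ` -/

section Prime

variable (ℓ : ℕ) [Fact ℓ.Prime]

local instance : NeZero ℓ := ⟨(Fact.out : ℓ.Prime).ne_zero⟩

theorem FL_prime_eq :
    FL ℓ = IntermediateField.adjoin Qb {jqModC Qb, qExpand Qb ℓ (jqModC Qb)} := by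
  have hℓ : ℓ.Prime := Fact.out
  rw [FieldDefQ.FL_eq, modularFunctionFieldFullC]
  apply le_antisymm
  · rw [adjoin_le_iff]
    rintro _ ⟨d, hd, hdvd, rfl⟩
    rcases (Nat.dvd_prime hℓ).mp hdvd with rfl | rfl
    · rw [qExpand_one_apply]
      exact subset_adjoin Qb _ (by simp)
    · exact subset_adjoin Qb _ (by simp)
  · rw [adjoin_le_iff]
    rintro x hx
    rcases hx with rfl | rfl
    · refine subset_adjoin Qb _ ⟨1, ⟨one_ne_zero⟩, one_dvd _, ?_⟩
      rw [qExpand_one_apply]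
    · exact subset_adjoin Qb _ ⟨ℓ, inferInstance, dvd_rfl, rfl⟩

/-- evaluation of a two-variable polynomial with the inner variable in a simple extension. -/
theorem aeval_map_gen (y w : LaurentSeries Qb) (Φ : Polynomial (Polynomial Qb)) :
    aeval w (Φ.map (aeval (AdjoinSimple.gen Qb y)).toRingHom) =
      (Φ.map (aeval y).toRingHom).eval w := by
  rw [aeval_def, eval₂_map, eval_map]
  congr 1
  apply Polynomial.ringHom_ext
  · intro a
    simp
  · simp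

/-- **`j(q)` has degree `ℓ + 1` over `ℚ̄(j(q^ℓ))`.** -/
theorem relfinrank_y_FL :
    relfinrank Qb⟮qExpand Qb ℓ (jqModC Qb)⟯ (FL ℓ) = ℓ + 1 := by
  have hℓ : ℓ.Prime := Fact.out
  obtain ⟨Φ, T, Ψ, hΦ, hΦd, -, -, -, h1, h2, -⟩ :=
    Fermat.Agent.S28.ModPkgK.exists_modPkg ℓ Qb
  set x : LaurentSeries Qb := jqModC Qb with hx
  set y : LaurentSeries Qb := qExpand Qb ℓ x with hy
  set z : LaurentSeries Qb := qExpand Qb ℓ y with hz
  replace h1 : (Φ.map (aeval x).toRingHom).eval y = 0 := h1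
  replace h2 : (Φ.map (aeval y).toRingHom).eval x = 0 := h2
  -- `z` is a root of `Φ(y, ·)`
  have hz0 : (Φ.map (aeval y).toRingHom).eval z = 0 := by
    have h := Fermat.Agent.S28.Twist.qExpand_ev ℓ y x Φ
    rw [h1, map_zero] at h
    exact h.symm
  set m : Polynomial ↥Qb⟮y⟯ := Φ.map (aeval (AdjoinSimple.gen Qb y)).toRingHom with hm
  have hmm : m.Monic := hΦ.map _
  have hmd : m.natDegree = ℓ + 1 := by rw [hm, hΦ.natDegree_map, hΦd]
  have hmz : aeval z m = 0 := by rw [hm, aeval_map_gen, hz0]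
  have hmx : aeval x m = 0 := by rw [hm, aeval_map_gen, h2]
  have hiz : IsIntegral ↥Qb⟮y⟯ z := ⟨m, hmm, hmz⟩
  have hix : IsIntegral ↥Qb⟮y⟯ x := ⟨m, hmm, hmx⟩
  -- the degree of `z` over `ℚ̄(y)` is the degree of `y` over `ℚ̄(x)`, by `q ↦ q^ℓ`
  have hdz : (minpoly ↥Qb⟮y⟯ z).natDegree = ℓ + 1 := by
    rw [← relfinrank_adjoin_pair y z hiz]
    have h := relfinrank_map_map Qb⟮x⟯ (IntermediateField.adjoin Qb {x, y}) (V ℓ)
    rw [adjoin_map, adjoin_map, Set.image_singleton, Set.image_pair] at h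
    rw [V_apply, V_apply] at h
    rw [h, ← FL_prime_eq ℓ, relfinrank_j ℓ, Fermat.Agent.S28.ModPkgAn.dedekindPsi_prime ℓ hℓ]
  have hmin : minpoly ↥Qb⟮y⟯ z = m :=
    (Polynomial.eq_of_monic_of_dvd_of_natDegree_le (minpoly.monic hiz) hmm
      (minpoly.dvd _ _ hmz) (by rw [hmd, hdz])).symm
  have hirr : Irreducible m := hmin ▸ minpoly.irreducible hiz
  have hminx : minpoly ↥Qb⟮y⟯ x = m := (minpoly.eq_of_irreducible_of_monic hirr hmx hmm).symm
  rw [FL_prime_eq ℓ, Set.pair_comm, relfinrank_adjoin_pair y x hix, hminx, hmd]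

end Prime

/-! ### Level `N ℓ` over `β(F(N))` -/

theorem FL_mono {M M' : ℕ} [NeZero M] [NeZero M'] (h : M ∣ M') : FL M ≤ FL M' := by
  rw [FieldDefQ.FL_eq, FieldDefQ.FL_eq, modularFunctionFieldFullC, adjoin_le_iff]
  rintro _ ⟨d, hd, hdvd, rfl⟩
  exact subset_adjoin Qb _ ⟨d, hd, hdvd.trans h, rfl⟩

theorem dedekindPsi_pos' (N : ℕ) [NeZero N] : 0 < dedekindPsi N := by
  rw [dedekindPsi]
  refine Finset.sum_pos' (fun _ _ => Nat.zero_le _) ⟨1, ?_, ?_⟩
  · simp [NeZero.ne N]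
  · simp [Nat.pos_of_ne_zero (NeZero.ne N)]

section Main

variable (N ℓ : ℕ) [NeZero N] [Fact ℓ.Prime]

local instance : NeZero ℓ := ⟨(Fact.out : ℓ.Prime).ne_zero⟩

/-- the image of `F(N)` under `q ↦ q^ℓ` lies in `F(N ℓ)`. -/
theorem map_V_le : (FL N).map (V ℓ) ≤ FL (N * ℓ) := by
  rw [FieldDefQ.FL_eq, FieldDefQ.FL_eq, modularFunctionFieldFullC, adjoin_map, adjoin_le_iff]
  rintro _ ⟨_, ⟨d, hd, hdvd, rfl⟩, rfl⟩
  haveI := hd
  haveI : NeZero (ℓ * d) := ⟨Nat.mul_ne_zero (NeZero.ne ℓ) (NeZero.ne d)⟩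
  refine subset_adjoin Qb _ ⟨ℓ * d, inferInstance, ?_, ?_⟩
  · rw [mul_comm]; exact Nat.mul_dvd_mul_right hdvd ℓ
  · rw [V_apply, qExpand_qExpand]

/-- **`[F(Nℓ) : β(F(N))] = ℓ + 1`** as a relative degree inside `ℚ̄((q))`. -/
theorem relfinrank_map_V (hℓN : ¬ ℓ ∣ N) :
    relfinrank ((FL N).map (V ℓ)) (FL (N * ℓ)) = ℓ + 1 := by
  have hℓ : ℓ.Prime := Fact.out
  set x : LaurentSeries Qb := jqModC Qb with hx
  set y : LaurentSeries Qb := qExpand Qb ℓ x with hy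
  have hℓM : FL ℓ ≤ FL (N * ℓ) := FL_mono (Dvd.intro_left N rfl)
  have hyℓ : Qb⟮y⟯ ≤ FL ℓ := by
    rw [FL_prime_eq ℓ]
    exact IntermediateField.adjoin.mono Qb _ _ (by
      intro w hw; rw [Set.mem_singleton_iff] at hw; rw [hw]; exact Set.mem_insert_of_mem _ rfl)
  -- the tower over `ℚ̄(x)`
  have hA1 := relfinrank_mul_relfinrank (adjoin_j_le ℓ) hℓM
  rw [relfinrank_j ℓ, relfinrank_j (N * ℓ),
    Fermat.Agent.S28.ModPkgAn.dedekindPsi_prime ℓ hℓ] at hA1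
  -- the tower over `ℚ̄(y)` through `F(ℓ)`
  have hA2 := relfinrank_mul_relfinrank hyℓ hℓM
  rw [relfinrank_y_FL ℓ, hA1] at hA2
  -- the tower over `ℚ̄(y)` through `β(F(N))`
  have hyB : Qb⟮y⟯ ≤ (FL N).map (V ℓ) := by
    rw [adjoin_simple_le_iff]
    exact ⟨x, j_mem N, rfl⟩
  have hA3 := relfinrank_mul_relfinrank hyB (map_V_le N ℓ)
  have hB : relfinrank Qb⟮y⟯ ((FL N).map (V ℓ)) = dedekindPsi N := by
    have h := relfinrank_map_map Qb⟮x⟯ (FL N) (V ℓ)
    rw [adjoin_map, Set.image_singleton, V_apply] at h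
    rw [h, relfinrank_j N]
  rw [hB, ← hA2, dedekindPsi_mul_prime N ℓ hℓ hℓN] at hA3
  exact Nat.eq_of_mul_eq_mul_left (dedekindPsi_pos' N) hA3

/-- **The degree of the Hecke correspondence**: `[F(Nℓ) : β F(N)] = ℓ + 1`. -/
theorem finrank_beta (hℓN : ¬ ℓ ∣ N) :
    letI := algebraAlong (heckeBetaBar Qb N ℓ)
    Module.finrank (FL N) (FL (N * ℓ)) = ℓ + 1 := by
  letI := algebraAlong (heckeBetaBar Qb N ℓ)
  set β := heckeBetaBar Qb N ℓ with hβ
  have h1 : Module.finrank (FL N) (FL (N * ℓ)) = Module.finrank β.fieldRange (FL (N * ℓ)) := by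
    refine Algebra.finrank_eq_of_equiv_equiv (AlgEquiv.ofInjectiveField β).toRingEquiv
      (RingEquiv.refl _) ?_
    ext w
    rfl
  rw [h1, ← relfinrank_top_right, ← relfinrank_map_map _ _ (FL (N * ℓ)).val,
    ← AlgHom.fieldRange_eq_map, fieldRange_val]
  have h2 : β.fieldRange.map (FL (N * ℓ)).val = (FL N).map (V ℓ) := by
    rw [AlgHom.map_fieldRange]
    conv_rhs => rw [← fieldRange_val (FL N), AlgHom.map_fieldRange]
    congr 1
  rw [h2]
  exact relfinrank_map_V N ℓ hℓN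

theorem finiteAlong_beta (hℓN : ¬ ℓ ∣ N) : FiniteAlong Qb (heckeBetaBar Qb N ℓ) := by
  letI := algebraAlong (heckeBetaBar Qb N ℓ)
  have h := finrank_beta N ℓ hℓN
  exact Module.finite_of_finrank_pos (by rw [h]; exact Nat.succ_pos ℓ)

theorem heckeBetaBarIntegral (hℓN : ¬ ℓ ∣ N) : HeckeBetaBarIntegral Qb N ℓ := by
  letI := algebraAlong (heckeBetaBar Qb N ℓ)
  haveI : Module.Finite (FL N) (FL (N * ℓ)) := finiteAlong_beta N ℓ hℓN
  exact (Algebra.IsIntegral.of_finite (FL N) (FL (N * ℓ))).isIntegral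

end Main

end Fermat.Agent.S37.HeckeDeg
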