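import Mathlib
import Fermat.Prelude.Def_ModularCurve_X0
import Fermat.Agent.S28.HahnSubst

/-!
# S37 (W4): the `(ℓ+1)`-st conjugate, abstractly

Let `L` be a field of characteristic zero with a primitive `ℓ`-th root of unity `ζ` (`ℓ` prime),
and let `E / F` be a field extension of degree `ℓ + 1` together with a "`q`-expansion"
`ι : E →+* L((q))` such that the image of `F` is fixed by the twist `q ↦ ζ q` and some `u : E` has
an expansion which is not fixed.  Then the `ℓ` maps `g ↦ (ι g)(ζ^i q)` are pairwise distinct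
`F`-embeddings of `E`, so there is exactly one more, and it is given by the trace formula
`θ g = Tr_{E/F} g - ∑ i < ℓ, (ι g)(ζ^i q)`: it takes values in `L((q))`, these values are fixed by
the twist, and the characteristic polynomial of `g` over `F` is
`(X - θ g) * ∏ i < ℓ, (X - (ι g)(ζ^i q))`.

OWNER: helper20.  Imports: Mathlib + Prelude `Def_ModularCurve_X0` + `S28.HahnSubst` (the twist).
-/

set_option autoImplicit false

noncomputable section

namespace Fermat.Agent.S37.ThetaConj

open Polynomial Fermat.Agent.S28.HahnSubst ModularCurve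

variable {L : Type*} [Field L]

/-! ### The twist `q ↦ ζ q` -/

theorem twist_eq_self_iff_coeff (ζ : Lˣ) (x : LaurentSeries L) :
    twist ζ x = x ↔ ∀ n : ℤ, x.coeff n = 0 ∨ ζ ^ n = 1 := by
  constructor
  · intro h n
    have hn : ((ζ ^ n : Lˣ) : L) * x.coeff n = x.coeff n := by
      rw [← twist_coeff, h]
    by_cases hx : x.coeff n = 0
    · exact Or.inl hx
    · right
      have h1 : ((ζ ^ n : Lˣ) : L) = 1 := by
        have h2 : (((ζ ^ n : Lˣ) : L) - 1) * x.coeff n = 0 := by
          rw [sub_mul, hn, one_mul, sub_self]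
        rcases mul_eq_zero.mp h2 with h3 | h3
        · exact sub_eq_zero.mp h3
        · exact absurd h3 hx
      exact Units.ext (by rw [h1, Units.val_one])
  · intro h
    ext n
    rw [twist_coeff]
    rcases h n with h0 | h1
    · rw [h0, mul_zero]
    · rw [h1, Units.val_one, one_mul]

theorem twist_pow_eq_self {ζ : Lˣ} {x : LaurentSeries L} (h : twist ζ x = x) (i : ℕ) :
    twist (ζ ^ i) x = x := by
  rw [twist_eq_self_iff_coeff] at h ⊢
  intro n
  rcases h n with h0 | h1
  · exact Or.inl h0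
  · right
    rw [← zpow_natCast ζ i, ← zpow_mul, mul_comm, zpow_mul, h1, one_zpow]

theorem twist_twist (a b : Lˣ) (x : LaurentSeries L) :
    twist a (twist b x) = twist (a * b) x := by
  ext n
  rw [twist_coeff, twist_coeff, twist_coeff, mul_zpow, Units.val_mul, mul_assoc]

theorem twist_one (x : LaurentSeries L) : twist (1 : Lˣ) x = x := by
  ext n
  rw [twist_coeff, one_zpow, Units.val_one, one_mul]

theorem iterate_twist (ζ : Lˣ) (i : ℕ) (x : LaurentSeries L) :
    (twist ζ)^[i] x = twist (ζ ^ i) x := by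
  induction i with
  | zero => rw [Function.iterate_zero, id, pow_zero, twist_one]
  | succ i ih => rw [Function.iterate_succ_apply', ih, twist_twist, ← pow_succ']

/-- The series fixed by `q ↦ ζ q`, `ζ` a primitive `ℓ`-th root of unity, are the series in `q^ℓ`. -/
theorem twist_eq_self_iff_mem_range (ℓ : ℕ) [NeZero ℓ] {ζ : Lˣ} (hζ : IsPrimitiveRoot ζ ℓ)
    (x : LaurentSeries L) : twist ζ x = x ↔ x ∈ Set.range (qExpand L ℓ) := by
  rw [twist_eq_self_iff_coeff]
  constructor
  · intro h
    have h0 : ∀ n : ℤ, ¬ (ℓ : ℤ) ∣ n → x.coeff n = 0 := by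
      intro n hn
      rcases h n with h0 | h1
      · exact h0
      · exact absurd ((hζ.zpow_eq_one_iff_dvd n).mp h1) hn
    have hbdd : BddBelow (Function.support fun m : ℤ => x.coeff ((ℓ : ℤ) * m)) := by
      refine ⟨min x.order 0, fun m hm => ?_⟩
      by_contra hlt
      rw [not_le] at hlt
      apply hm
      apply HahnSeries.coeff_eq_zero_of_lt_order
      have h1 : m < x.order := lt_of_lt_of_le hlt (min_le_left _ _)
      have h2 : m < 0 := lt_of_lt_of_le hlt (min_le_right _ _)
      have hl : (1 : ℤ) ≤ ℓ := by exact_mod_cast Nat.one_le_iff_ne_zero.mpr (NeZero.ne ℓ)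
      nlinarith
    refine ⟨HahnSeries.ofSuppBddBelow _ hbdd, ?_⟩
    ext n
    by_cases hn : (ℓ : ℤ) ∣ n
    · obtain ⟨m, rfl⟩ := hn
      rw [qExpand_coeff_mul]
      rfl
    · rw [qExpand_coeff_of_not_dvd ℓ _ hn, h0 n hn]
  · rintro ⟨y, rfl⟩ n
    by_cases hn : (ℓ : ℤ) ∣ n
    · right
      exact (hζ.zpow_eq_one_iff_dvd n).mpr hn
    · left
      exact qExpand_coeff_of_not_dvd ℓ y hn

/-! ### The main theorem -/

section Main

variable [CharZero L] {F E : Type*} [Field F] [Field E] [Algebra F E] [FiniteDimensional F E]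

/-- The characteristic polynomial of multiplication by `g` is the product over all embeddings
into an algebraically closed field. -/
theorem charpoly_map_eq_prod_embeddings [CharZero F] (Ω : Type*) [Field Ω] [IsAlgClosed Ω]
    [Algebra F Ω] (g : E) :
    (LinearMap.mulLeft F g).charpoly.map (algebraMap F Ω)
      = ∏ σ : E →ₐ[F] Ω, (X - C (σ g)) := by
  apply Polynomial.eq_of_infinite_eval_eq
  have hinf : (Set.range (algebraMap F Ω)).Infinite :=
    Set.infinite_range_of_injective (algebraMap F Ω).injective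
  refine hinf.mono ?_
  rintro _ ⟨c, rfl⟩
  show eval _ _ = eval _ _
  rw [Polynomial.eval_map_algebraMap, Polynomial.aeval_algebraMap_apply,
    Polynomial.coe_aeval_eq_eval, LinearMap.eval_charpoly, Polynomial.eval_prod]
  have h1 : (algebraMap F (Module.End F E) c - LinearMap.mulLeft F g)
      = Algebra.lmul F E (algebraMap F E c - g) := by
    ext y
    simp [Algebra.smul_def]
  rw [h1, ← Algebra.norm_apply, Algebra.norm_eq_prod_embeddings F Ω]
  refine Finset.prod_congr rfl fun σ _ => ?_
  rw [map_sub, AlgHom.commutes, Polynomial.eval_sub, Polynomial.eval_X, Polynomial.eval_C]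

/-- **The `(ℓ+1)`-st conjugate.**  `E / F` of degree `ℓ + 1` with a `q`-expansion `ι` such that
`F` lands in the twist-fixed series and `E` does not: the remaining `F`-embedding `θ` of `E` is
given by the trace formula, takes values in the twist-fixed Laurent series, the characteristic
polynomial of every `g : E` over `F` is `(X - θ g) * ∏ i < ℓ, (X - (ι g)(ζ^i q))`, and its norm
is `θ g * ∏ i < ℓ, (ι g)(ζ^i q)`. -/
theorem exists_theta (ℓ : ℕ) [Fact ℓ.Prime] (ζ : Lˣ) (hζ : IsPrimitiveRoot ζ ℓ)
    (ι : E →+* LaurentSeries L)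
    (hF : ∀ b : F, twist ζ (ι (algebraMap F E b)) = ι (algebraMap F E b))
    (hdeg : Module.finrank F E = ℓ + 1) (u : E) (hu : twist ζ (ι u) ≠ ι u) :
    ∃ θ : E →+* LaurentSeries L,
      (∀ b : F, θ (algebraMap F E b) = ι (algebraMap F E b)) ∧
      (∀ g : E, twist ζ (θ g) = θ g) ∧
      (∀ g : E, θ g = ι (algebraMap F E (Algebra.trace F E g))
          - ∑ i ∈ Finset.range ℓ, twist (ζ ^ i) (ι g)) ∧
      (∀ g : E, (LinearMap.mulLeft F g).charpoly.map (ι.comp (algebraMap F E))
          = (X - C (θ g)) * ∏ i ∈ Finset.range ℓ, (X - C (twist (ζ ^ i) (ι g)))) ∧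
      ∀ g : E, ι (algebraMap F E (Algebra.norm F g))
          = θ g * ∏ i ∈ Finset.range ℓ, twist (ζ ^ i) (ι g) := by
  classical
  have hℓ : ℓ.Prime := Fact.out
  have hLS : CharZero (LaurentSeries L) :=
    charZero_of_injective_algebraMap (algebraMap L (LaurentSeries L)).injective
  have hF0 : CharZero F := (ι.comp (algebraMap F E)).charZero
  let Ω := AlgebraicClosure (LaurentSeries L)
  let j : LaurentSeries L →+* Ω := algebraMap (LaurentSeries L) Ω
  have hj : Function.Injective j := (algebraMap (LaurentSeries L) Ω).injective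
  let algFΩ : Algebra F Ω := (j.comp (ι.comp (algebraMap F E))).toAlgebra
  have halg : ∀ b : F, algebraMap F Ω b = j (ι (algebraMap F E b)) := fun b => rfl
  -- the `ℓ` known embeddings
  let σ : ℕ → (E →ₐ[F] Ω) := fun i =>
    { toRingHom := j.comp ((twist (ζ ^ i)).comp ι)
      commutes' := fun b => by
        show j (twist (ζ ^ i) (ι (algebraMap F E b))) = j (ι (algebraMap F E b))
        rw [twist_pow_eq_self (hF b) i] }
  have hσ : ∀ i g, σ i g = j (twist (ζ ^ i) (ι g)) := fun i g => rfl
  -- they are pairwise distinct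
  obtain ⟨n, hn0, hn1⟩ : ∃ n : ℤ, (ι u).coeff n ≠ 0 ∧ ¬ (ℓ : ℤ) ∣ n := by
    by_contra hcon
    push Not at hcon
    apply hu
    rw [twist_eq_self_iff_coeff]
    intro n
    by_cases h0 : (ι u).coeff n = 0
    · exact Or.inl h0
    · exact Or.inr ((hζ.zpow_eq_one_iff_dvd n).mpr (hcon n h0))
  have key : ∀ a b : ℕ, a ≤ b → b < ℓ → σ a = σ b → a = b := by
    intro a b hab hb h
    have h1 : twist (ζ ^ a) (ι u) = twist (ζ ^ b) (ι u) := hj (by rw [← hσ, ← hσ, h])
    have h2 : (((ζ ^ a) ^ n : Lˣ) : L) * (ι u).coeff n = (((ζ ^ b) ^ n : Lˣ) : L) * (ι u).coeff n := by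
      rw [← twist_coeff, ← twist_coeff, h1]
    have h4 : (ζ ^ a) ^ n = (ζ ^ b) ^ n := Units.ext (mul_right_cancel₀ hn0 h2)
    have h5 : ζ ^ (((b - a : ℕ) : ℤ) * n) = 1 := by
      have h : (ζ ^ b) ^ n = (ζ ^ a) ^ n * ζ ^ (((b - a : ℕ) : ℤ) * n) := by
        rw [← zpow_natCast ζ b, ← zpow_natCast ζ a, ← zpow_mul, ← zpow_mul, ← zpow_add]
        congr 1
        rw [Nat.cast_sub hab]
        ring
      rw [← h4] at h
      exact (mul_eq_left.mp h.symm)
    have h6 : (ℓ : ℤ) ∣ ((b - a : ℕ) : ℤ) * n := (hζ.zpow_eq_one_iff_dvd _).mp h5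
    have h7 : (ℓ : ℤ) ∣ ((b - a : ℕ) : ℤ) :=
      ((Nat.prime_iff_prime_int.mp hℓ).dvd_or_dvd h6).resolve_right hn1
    have h8 : ℓ ∣ b - a := Int.natCast_dvd_natCast.mp h7
    have h9 : b - a = 0 := Nat.eq_zero_of_dvd_of_lt h8 (by omega)
    omega
  have hinj : Set.InjOn σ (Finset.range ℓ : Finset ℕ) := by
    intro a ha b hb hab
    rcases le_total a b with h | h
    · exact key a b h (Finset.mem_range.mp hb) hab
    · exact (key b a h (Finset.mem_range.mp ha) hab.symm).symm
  -- counting: exactly one more embedding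
  have hcard : Fintype.card (E →ₐ[F] Ω) = ℓ + 1 := by rw [AlgHom.card, hdeg]
  set T : Finset (E →ₐ[F] Ω) := (Finset.range ℓ).image σ with hT
  have hTcard : T.card = ℓ := by rw [hT, Finset.card_image_of_injOn hinj, Finset.card_range]
  have hcompl : (Finset.univ \ T).card = 1 := by
    rw [Finset.card_sdiff_of_subset (Finset.subset_univ _), Finset.card_univ, hcard, hTcard]
    omega
  obtain ⟨θ', hθ'⟩ := Finset.card_eq_one.mp hcompl
  have hθT : θ' ∉ T := by
    have h : θ' ∈ Finset.univ \ T := by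
      rw [hθ']
      exact Finset.mem_singleton_self _
    exact (Finset.mem_sdiff.mp h).2
  have huniv : (Finset.univ : Finset (E →ₐ[F] Ω)) = insert θ' T := by
    ext τ
    simp only [Finset.mem_univ, Finset.mem_insert, true_iff]
    by_cases hτ : τ ∈ T
    · exact Or.inr hτ
    · left
      have h : τ ∈ Finset.univ \ T := Finset.mem_sdiff.mpr ⟨Finset.mem_univ _, hτ⟩
      rw [hθ'] at h
      exact Finset.mem_singleton.mp h
  have hsum : ∀ f : (E →ₐ[F] Ω) → Ω, ∑ τ, f τ = f θ' + ∑ i ∈ Finset.range ℓ, f (σ i) := by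
    intro f
    rw [huniv, Finset.sum_insert hθT, hT, Finset.sum_image hinj]
  have hprodΩ : ∀ f : (E →ₐ[F] Ω) → Ω, ∏ τ, f τ = f θ' * ∏ i ∈ Finset.range ℓ, f (σ i) := by
    intro f
    rw [huniv, Finset.prod_insert hθT, hT, Finset.prod_image hinj]
  have hprod : ∀ f : (E →ₐ[F] Ω) → Polynomial Ω,
      ∏ τ, f τ = f θ' * ∏ i ∈ Finset.range ℓ, f (σ i) := by
    intro f
    rw [huniv, Finset.prod_insert hθT, hT, Finset.prod_image hinj]
  -- the trace formula
  let θf : E → LaurentSeries L := fun g =>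
    ι (algebraMap F E (Algebra.trace F E g)) - ∑ i ∈ Finset.range ℓ, twist (ζ ^ i) (ι g)
  have hθf : ∀ g, j (θf g) = θ' g := by
    intro g
    have h1 := trace_eq_sum_embeddings (K := F) (L := E) Ω (x := g)
    rw [hsum] at h1
    show j (ι (algebraMap F E (Algebra.trace F E g))
      - ∑ i ∈ Finset.range ℓ, twist (ζ ^ i) (ι g)) = θ' g
    rw [map_sub, map_sum, ← halg, h1]
    simp only [hσ]
    rw [add_sub_cancel_right]
  let θ : E →+* LaurentSeries L :=
    { toFun := θf
      map_one' := hj (by rw [hθf, map_one, map_one])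
      map_mul' := fun x y => hj (by rw [hθf, map_mul, map_mul, hθf, hθf])
      map_zero' := hj (by rw [hθf, map_zero, map_zero])
      map_add' := fun x y => hj (by rw [hθf, map_add, map_add, hθf, hθf]) }
  have hθ : ∀ g, j (θ g) = θ' g := hθf
  refine ⟨θ, ?_, ?_, fun g => rfl, ?_, ?_⟩
  · intro b
    apply hj
    rw [hθ, AlgHom.commutes, halg]
  · intro g
    show twist ζ (ι (algebraMap F E (Algebra.trace F E g))
      - ∑ i ∈ Finset.range ℓ, twist (ζ ^ i) (ι g))
      = ι (algebraMap F E (Algebra.trace F E g)) - ∑ i ∈ Finset.range ℓ, twist (ζ ^ i) (ι g)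
    rw [map_sub, map_sum, hF]
    congr 1
    have hshift : ∀ i, twist ζ (twist (ζ ^ i) (ι g)) = twist (ζ ^ (i + 1)) (ι g) := fun i => by
      rw [twist_twist, ← pow_succ']
    simp only [hshift]
    have h1 := Finset.sum_range_succ' (fun i => twist (ζ ^ i) (ι g)) ℓ
    have h2 := Finset.sum_range_succ (fun i => twist (ζ ^ i) (ι g)) ℓ
    rw [h2] at h1
    have h3 : twist (ζ ^ ℓ) (ι g) = twist (ζ ^ 0) (ι g) := by
      rw [hζ.pow_eq_one, pow_zero]
    rw [h3] at h1
    exact (add_right_cancel h1).symm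
  · intro g
    apply Polynomial.map_injective j hj
    rw [Polynomial.map_map]
    have h1 := charpoly_map_eq_prod_embeddings (F := F) (E := E) Ω g
    rw [hprod] at h1
    show (LinearMap.mulLeft F g).charpoly.map (algebraMap F Ω) = _
    rw [h1, Polynomial.map_mul, Polynomial.map_sub, Polynomial.map_X, Polynomial.map_C, hθ,
      Polynomial.map_prod]
    congr 1
    refine Finset.prod_congr rfl fun i _ => ?_
    rw [Polynomial.map_sub, Polynomial.map_X, Polynomial.map_C, hσ]
  · intro g
    apply hj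
    have h1 := Algebra.norm_eq_prod_embeddings F Ω g
    rw [hprodΩ] at h1
    rw [← halg, h1, map_mul, hθ, map_prod]
    congr 1

end Main

end Fermat.Agent.S37.ThetaConj
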