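import Mathlib
import Fermat.Prelude.Def_ModularCurve_HeckeOperator
import Fermat.Agent.S28.ModPkgK
import Fermat.Agent.S28.CoeffRing
import Fermat.Agent.S18.FieldDef
import Fermat.Agent.S37.ThetaConj

/-!
# S37 (W4-E): the `(ℓ+1)`-st conjugate for the Hecke correspondence `T_ℓ`

`F = F_{ℚ̄}(N)`, `E = F_{ℚ̄}(Nℓ)`, `α` the inclusion, `β : f(q) ↦ f(q^ℓ)`, `ℓ ∤ N` prime.  Over
`β(F)` the field `E` has degree `ℓ + 1` (hypothesis `hdeg`), and the `ℓ + 1` embeddings of `E` over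
`β(F)` are the `ℓ` twists `g(q) ↦ g(ζ^i q)` and one more, `θ`, with `θ ∘ α = (f(q) ↦ f(q^(ℓ²)))`.
Consequently, for `f ∈ F`, the norm and the characteristic polynomial of `α f` over `β(F)` are
`f(q^(ℓ²)) ∏ f(ζ^i q)` resp. `(X - f(q^(ℓ²))) ∏ (X - f(ζ^i q))` (as series in `q^ℓ`).

No Atkin-Lehner involution and no analysis: `θ` is produced by counting embeddings
(`ThetaConj.exists_theta`) and identified on the generators `j(q^d)`, `d ∣ N`, as the only
twist-fixed root of the modular equation `Φ_ℓ(X, j(q^(dℓ)))` (S28 `ModPkgK.exists_modPkg`).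

OWNER: helper20.
-/

set_option autoImplicit false

noncomputable section

namespace Fermat.Agent.S37.ThetaHecke

open Polynomial ModularCurve AlgebraicCurve Fermat.Agent.S28.HahnSubst Fermat.Agent.S37.ThetaConj

local notation "Qb" => AlgebraicClosure ℚ

/-! ### Generalities on the twist -/

section Twist

variable {k : Type*} [Field k]

theorem twist_algebraMap (c : kˣ) (a : k) :
    twist c (algebraMap k (LaurentSeries k) a) = algebraMap k (LaurentSeries k) a := by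
  rw [twist_eq_self_iff_coeff]
  intro n
  by_cases hn : n = 0
  · right
    rw [hn, zpow_zero]
  · left
    rw [algebraMap_laurentSeries_eq_single, HahnSeries.coeff_single_of_ne hn]

theorem twist_qExpand_of_pow_eq_one (c : kˣ) (p : ℕ) [NeZero p] (hc : c ^ p = 1)
    (f : LaurentSeries k) : twist c (qExpand k p f) = qExpand k p f := by
  rw [twist_eq_self_iff_coeff]
  intro n
  by_cases hn : (p : ℤ) ∣ n
  · right
    obtain ⟨m, rfl⟩ := hn
    rw [zpow_mul, zpow_natCast, hc, one_zpow]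
  · left
    exact qExpand_coeff_of_not_dvd p f hn

/-- If `x` has a nonzero coefficient in a degree prime to `ℓ`, the twists `x(ζ^i q)`, `i < ℓ`,
are pairwise distinct. -/
theorem twist_pow_injOn {ℓ : ℕ} (hℓ : ℓ.Prime) {ζ : kˣ} (hζ : IsPrimitiveRoot ζ ℓ)
    (x : LaurentSeries k) {n : ℤ} (hn0 : x.coeff n ≠ 0) (hn1 : ¬ (ℓ : ℤ) ∣ n) :
    Set.InjOn (fun i : ℕ => twist (ζ ^ i) x) (Finset.range ℓ : Finset ℕ) := by
  have key : ∀ a b : ℕ, a ≤ b → b < ℓ → twist (ζ ^ a) x = twist (ζ ^ b) x → a = b := by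
    intro a b hab hb h1
    have h2 : (((ζ ^ a) ^ n : kˣ) : k) * x.coeff n = (((ζ ^ b) ^ n : kˣ) : k) * x.coeff n := by
      rw [← twist_coeff, ← twist_coeff, h1]
    have h4 : (ζ ^ a) ^ n = (ζ ^ b) ^ n := Units.ext (mul_right_cancel₀ hn0 h2)
    have h5 : ζ ^ (((b - a : ℕ) : ℤ) * n) = 1 := by
      have h : (ζ ^ b) ^ n = (ζ ^ a) ^ n * ζ ^ (((b - a : ℕ) : ℤ) * n) := by
        rw [← zpow_natCast ζ b, ← zpow_natCast ζ a, ← zpow_mul, ← zpow_mul, ← zpow_add]
        congr 1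
        rw [Nat.cast_sub hab]
        ring
      rw [← h4] at h
      exact (mul_eq_left.mp h.symm)
    have h6 : (ℓ : ℤ) ∣ ((b - a : ℕ) : ℤ) * n := (hζ.zpow_eq_one_iff_dvd _).mp h5
    have h7 : (ℓ : ℤ) ∣ ((b - a : ℕ) : ℤ) :=
      ((Nat.prime_iff_prime_int.mp hℓ).dvd_or_dvd h6).resolve_right hn1
    have h8 : ℓ ∣ b - a := Int.natCast_dvd_natCast.mp h7
    have h9 : b - a = 0 := Nat.eq_zero_of_dvd_of_lt h8 (by omega)
    omega
  intro a ha b hb hab
  rcases le_total a b with h | h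
  · exact key a b h (Finset.mem_range.mp hb) hab
  · exact (key b a h (Finset.mem_range.mp ha) hab.symm).symm

/-- If `x` has a nonzero coefficient in a degree prime to `ℓ`, no twist `x(ζ^i q)` is fixed by
the twist. -/
theorem twist_twist_pow_ne {ℓ : ℕ} {ζ : kˣ} (hζ : IsPrimitiveRoot ζ ℓ)
    (x : LaurentSeries k) {n : ℤ} (hn0 : x.coeff n ≠ 0) (hn1 : ¬ (ℓ : ℤ) ∣ n) (i : ℕ) :
    twist ζ (twist (ζ ^ i) x) ≠ twist (ζ ^ i) x := by
  intro h
  rw [twist_eq_self_iff_coeff] at h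
  rcases h n with h0 | h1
  · rw [twist_coeff] at h0
    exact hn0 ((mul_eq_zero.mp h0).resolve_left (Units.ne_zero _))
  · exact hn1 ((hζ.zpow_eq_one_iff_dvd n).mp h1)

end Twist

/-! ### `qExpand` bookkeeping -/

section QExpand

variable {k : Type*} [Field k]

theorem qExpand_comm (a b : ℕ) [NeZero a] [NeZero b] (f : LaurentSeries k) :
    qExpand k a (qExpand k b f) = qExpand k b (qExpand k a f) := by
  rw [qExpand_qExpand, qExpand_qExpand]
  exact qExpand_congr (mul_comm a b) f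

theorem qExpand_sq (a : ℕ) [NeZero a] (f : LaurentSeries k) :
    qExpand k (a ^ 2) f = qExpand k a (qExpand k a f) := by
  rw [qExpand_qExpand]
  exact qExpand_congr (sq a) f

theorem qExpand_algebraMap (a : ℕ) [NeZero a] (c : k) :
    qExpand k a (algebraMap k (LaurentSeries k) c) = algebraMap k (LaurentSeries k) c := by
  rw [algebraMap_laurentSeries_eq_single, qExpand_single, mul_zero]

end QExpand

/-! ### The twist-fixed root of the modular equation -/

section Roots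

open Fermat.Agent.S28.ModPkg

variable {k : Type*} [Field k]

/-- Let `Φ` be monic of degree `ℓ + 1` with `Φ(j(q^ℓ), j) = 0 = Φ(j, j(q^ℓ))` and `ℓ ∤ d`.  The
only root of `Φ(X, j(q^(dℓ)))` which is fixed by the twist `q ↦ ζ q` is `j(q^(dℓ²))`. -/
theorem eq_of_root_of_twist_eq (ℓ : ℕ) [Fact ℓ.Prime] {ζ : kˣ} (hζ : IsPrimitiveRoot ζ ℓ)
    (Φ : Polynomial (Polynomial k)) (hΦm : Φ.Monic) (hΦd : Φ.natDegree = ℓ + 1)
    (h1 : ev (qExpand k ℓ (jqModC k)) (jqModC k) Φ = 0)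
    (h2 : ev (jqModC k) (qExpand k ℓ (jqModC k)) Φ = 0)
    (d : ℕ) [NeZero d] (hd : ¬ ℓ ∣ d) (w : LaurentSeries k) (hw : twist ζ w = w)
    (hroot : ev w (qExpand k ℓ (qExpand k d (jqModC k))) Φ = 0) :
    w = qExpand k (ℓ ^ 2) (qExpand k d (jqModC k)) := by
  classical
  have hℓ : ℓ.Prime := Fact.out
  set x : LaurentSeries k := qExpand k d (jqModC k) with hx
  set y : LaurentSeries k := qExpand k ℓ x with hy
  set z : LaurentSeries k := qExpand k (ℓ ^ 2) x with hz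
  set P : Polynomial (LaurentSeries k) := Φ.map (aeval y : Polynomial k →ₐ[k] LaurentSeries k).toRingHom
    with hP
  have hPm : P.Monic := hΦm.map _
  have hPd : P.natDegree = ℓ + 1 := by rw [hP, hΦm.natDegree_map, hΦd]
  have hP0 : P ≠ 0 := hPm.ne_zero
  -- the coefficient of `x` in degree `-d`
  have hn0 : x.coeff (-(d : ℤ)) ≠ 0 := by
    rw [hx, Fermat.Agent.S28.CoeffRing.coeff_qExpand_jqModC_neg k d]
    exact one_ne_zero
  have hn1 : ¬ (ℓ : ℤ) ∣ -(d : ℤ) := by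
    rw [dvd_neg, Int.natCast_dvd_natCast]
    exact hd
  -- the known roots
  have hrx : P.eval x = 0 := by
    have h := ev_ringHom (qExpand k d) (qExpand_algebraMap d) (jqModC k)
      (qExpand k ℓ (jqModC k)) Φ
    rw [show (Polynomial.map (aeval (qExpand k ℓ (jqModC k)) : Polynomial k →ₐ[k] LaurentSeries k).toRingHom Φ).eval
      (jqModC k) = 0 from h2, map_zero, qExpand_comm d ℓ] at h
    exact h.symm
  have hrz : P.eval z = 0 := by
    have h := ev_ringHom ((qExpand k ℓ).comp (qExpand k d))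
      (fun c => by rw [RingHom.comp_apply, qExpand_algebraMap, qExpand_algebraMap])
      (qExpand k ℓ (jqModC k)) (jqModC k) Φ
    rw [show (Polynomial.map (aeval (jqModC k) : Polynomial k →ₐ[k] LaurentSeries k).toRingHom Φ).eval
      (qExpand k ℓ (jqModC k)) = 0 from h1, map_zero] at h
    have h3 : ((qExpand k ℓ).comp (qExpand k d)) (qExpand k ℓ (jqModC k)) = z := by
      rw [RingHom.comp_apply, hz, qExpand_sq, qExpand_comm d ℓ]
    rw [h3] at h
    exact h.symm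
  have hri : ∀ i : ℕ, P.eval (twist (ζ ^ i) x) = 0 := by
    intro i
    have h := ev_ringHom (twist (ζ ^ i)) (twist_algebraMap (ζ ^ i)) x y Φ
    rw [show (Polynomial.map (aeval y : Polynomial k →ₐ[k] LaurentSeries k).toRingHom Φ).eval x = 0
      from hrx, map_zero, twist_qExpand_of_pow_eq_one (ζ ^ i) ℓ
        (by rw [← pow_mul, mul_comm, pow_mul, hζ.pow_eq_one, one_pow])] at h
    exact h.symm
  have hzfix : twist ζ z = z := by
    rw [hz, qExpand_sq]
    exact twist_qExpand_of_pow_eq_one ζ ℓ hζ.pow_eq_one _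
  -- counting roots
  by_contra hwz
  set T : Finset (LaurentSeries k) := (Finset.range ℓ).image (fun i : ℕ => twist (ζ ^ i) x) with hT
  have hTcard : T.card = ℓ := by
    rw [hT, Finset.card_image_of_injOn (twist_pow_injOn hℓ hζ x hn0 hn1), Finset.card_range]
  have hfixT : ∀ v : LaurentSeries k, twist ζ v = v → v ∉ T := by
    intro v hv hvT
    obtain ⟨i, -, rfl⟩ := Finset.mem_image.mp hvT
    exact twist_twist_pow_ne hζ x hn0 hn1 i hv
  have hzT : z ∉ T := hfixT z hzfix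
  have hwT : w ∉ insert z T := by
    rw [Finset.mem_insert, not_or]
    exact ⟨hwz, hfixT w hw⟩
  have hcard : (insert w (insert z T)).card = ℓ + 2 := by
    rw [Finset.card_insert_of_notMem hwT, Finset.card_insert_of_notMem hzT, hTcard]
  have hsub : (insert w (insert z T)).val ⊆ P.roots := by
    intro v hv
    rw [Polynomial.mem_roots hP0, Polynomial.IsRoot.def]
    have hv' : v ∈ insert w (insert z T) := hv
    rw [Finset.mem_insert, Finset.mem_insert] at hv'
    rcases hv' with rfl | rfl | hv'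
    · exact hroot
    · exact hrz
    · obtain ⟨i, -, rfl⟩ := Finset.mem_image.mp hv'
      exact hri i
  have hle := Polynomial.card_le_degree_of_subset_roots hsub
  rw [hcard, hPd] at hle
  omega

end Roots

/-! ### Ring homomorphisms out of `F_{ℚ̄}(N)` are determined on the generators -/

section Ext

open Fermat.Agent.S18.FieldDef

theorem jd_mem (N : ℕ) [NeZero N] {d : ℕ} [NeZero d] (hd : d ∣ N) :
    qExpand Qb d (jqModC Qb) ∈ modularFunctionFieldBar N := by
  rw [bar_eq_fullC]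
  exact jqModCd_mem_full Qb N hd

/-- Two ring homomorphisms from `F_{ℚ̄}(N)` to a field which agree on the constants and on the
generators `j(q^d)`, `d ∣ N`, are equal. -/
theorem ringHom_ext_bar (N : ℕ) [NeZero N] {R : Type*} [Field R]
    (φ₁ φ₂ : modularFunctionFieldBar N →+* R)
    (hc : ∀ c : Qb, φ₁ (algebraMap Qb (modularFunctionFieldBar N) c)
      = φ₂ (algebraMap Qb (modularFunctionFieldBar N) c))
    (hj : ∀ (d : ℕ) [NeZero d] (hd : d ∣ N),
      φ₁ ⟨qExpand Qb d (jqModC Qb), jd_mem N hd⟩ = φ₂ ⟨qExpand Qb d (jqModC Qb), jd_mem N hd⟩) :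
    φ₁ = φ₂ := by
  have hb : ∀ x : LaurentSeries Qb, x ∈ modularFunctionFieldFullC Qb N →
      x ∈ modularFunctionFieldBar N := by
    intro x hx
    rw [bar_eq_fullC]
    exact hx
  have key : ∀ x (_ : x ∈ modularFunctionFieldFullC Qb N)
      (hx' : x ∈ modularFunctionFieldBar N), φ₁ ⟨x, hx'⟩ = φ₂ ⟨x, hx'⟩ := by
    intro x hx
    unfold modularFunctionFieldFullC at hx
    induction hx using IntermediateField.adjoin_induction with
    | mem x hx =>
      obtain ⟨d, hd, hdN, rfl⟩ := hx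
      intro hx'
      exact hj d hdN
    | algebraMap c =>
      intro hx'
      exact hc c
    | add x y hx hy ihx ihy =>
      intro hx'
      have hxb := hb x hx
      have hyb := hb y hy
      have h : (⟨x + y, hx'⟩ : modularFunctionFieldBar N) = ⟨x, hxb⟩ + ⟨y, hyb⟩ := rfl
      rw [h, map_add, map_add, ihx hxb, ihy hyb]
    | inv x hx ih =>
      intro hx'
      have hxb := hb x hx
      have h : (⟨x⁻¹, hx'⟩ : modularFunctionFieldBar N) = (⟨x, hxb⟩)⁻¹ := rfl
      rw [h, map_inv₀, map_inv₀, ih hxb]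
    | mul x y hx hy ihx ihy =>
      intro hx'
      have hxb := hb x hx
      have hyb := hb y hy
      have h : (⟨x * y, hx'⟩ : modularFunctionFieldBar N) = ⟨x, hxb⟩ * ⟨y, hyb⟩ := rfl
      rw [h, map_mul, map_mul, ihx hxb, ihy hyb]
  ext x
  exact key x.1 (by rw [← bar_eq_fullC]; exact x.2) x.2

end Ext

/-! ### The abstract statement along two homomorphisms -/

section Along

open Fermat.Agent.S28.ModPkg

theorem C_eq_algebraMap' {L : Type*} [Field L] (a : L) :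
    (HahnSeries.C a : LaurentSeries L) = algebraMap L (LaurentSeries L) a := by
  rw [algebraMap_laurentSeries_eq_single, HahnSeries.C_apply]

variable {L : Type*} [Field L] [CharZero L] {F E : Type*} [Field F] [Field E] [Algebra L F]
  [Algebra L E]

/-- **The `(ℓ+1)`-st conjugate, along `α` and `β`.**  `F`, `E` fields over `L` with
`q`-expansions `ιF`, `ιE`; `α` compatible with the expansions and `β` acting as `q ↦ q^ℓ`; `E` of
degree `ℓ + 1` over `β(F)`; `j ∈ E`; `F` generated (for ring homomorphisms into `L((q))`) by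
elements with expansion `j(q^d)`, `ℓ ∤ d`; `Φ` the modular equation of level `ℓ`.  Then there is
`θ : E → L((q))`, the identity on `β(F)` and on the constants, with twist-fixed values, such that
`θ (α f) = f(q^(ℓ²))` and `N_{E/β(F)} g = θ g * ∏ i < ℓ, g(ζ^i q)` (as a series in `q^ℓ`). -/
theorem exists_theta_along (ℓ : ℕ) [Fact ℓ.Prime] (ζ : Lˣ) (hζ : IsPrimitiveRoot ζ ℓ)
    (α β : F →ₐ[L] E) (ιF : F →ₐ[L] LaurentSeries L) (ιE : E →ₐ[L] LaurentSeries L)
    (hα : ∀ f, ιE (α f) = ιF f) (hβ : ∀ f, ιE (β f) = qExpand L ℓ (ιF f))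
    (hdeg : finrankAlong L β = ℓ + 1) (hjE : ∃ u : E, ιE u = jqModC L)
    (Φ : Polynomial (Polynomial L)) (hΦm : Φ.Monic) (hΦd : Φ.natDegree = ℓ + 1)
    (h1 : ev (qExpand L ℓ (jqModC L)) (jqModC L) Φ = 0)
    (h2 : ev (jqModC L) (qExpand L ℓ (jqModC L)) Φ = 0)
    (G : Set F)
    (hG : ∀ φ₁ φ₂ : F →+* LaurentSeries L,
      (∀ c : L, φ₁ (algebraMap L F c) = φ₂ (algebraMap L F c)) → (∀ x ∈ G, φ₁ x = φ₂ x) → φ₁ = φ₂)
    (hGj : ∀ x ∈ G, ∃ (d : ℕ) (_ : NeZero d), ¬ ℓ ∣ d ∧ ιF x = qExpand L d (jqModC L)) :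
    ∃ θ : E →+* LaurentSeries L,
      (∀ b : F, θ (β b) = ιE (β b)) ∧
      (∀ c : L, θ (algebraMap L E c) = algebraMap L (LaurentSeries L) c) ∧
      (∀ g : E, twist ζ (θ g) = θ g) ∧
      (∀ f : F, θ (α f) = qExpand L (ℓ ^ 2) (ιF f)) ∧
      ∀ g : E, ιE (β (letI := algebraAlong β; Algebra.norm F g))
          = θ g * ∏ i ∈ Finset.range ℓ, twist (ζ ^ i) (ιE g) := by
  classical
  have hℓ : ℓ.Prime := Fact.out
  let alg := algebraAlong β
  have hdeg' : Module.finrank F E = ℓ + 1 := hdeg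
  have hfd : FiniteDimensional F E :=
    Module.finite_of_finrank_pos (by rw [hdeg']; exact Nat.succ_pos ℓ)
  have halg : ∀ b : F, algebraMap F E b = β b := fun b => rfl
  have hF : ∀ b : F, twist ζ (ιE.toRingHom (algebraMap F E b)) = ιE.toRingHom (algebraMap F E b) := by
    intro b
    show twist ζ (ιE (algebraMap F E b)) = ιE (algebraMap F E b)
    rw [halg, hβ]
    exact twist_qExpand_of_pow_eq_one ζ ℓ hζ.pow_eq_one _
  obtain ⟨u, hu⟩ := hjE
  have hu' : twist ζ (ιE.toRingHom u) ≠ ιE.toRingHom u := by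
    intro h
    have h' : twist ζ (jqModC L) = jqModC L := by
      rw [← hu]
      exact h
    rw [twist_eq_self_iff_coeff] at h'
    rcases h' (-1) with h0 | h1'
    · rw [coeff_jqModC_neg_one] at h0
      exact one_ne_zero h0
    · have h3 : (ℓ : ℤ) ∣ -1 := (hζ.zpow_eq_one_iff_dvd _).mp h1'
      rw [dvd_neg] at h3
      have h4 : ℓ ∣ 1 := Int.natCast_dvd_natCast.mp (by simpa using h3)
      exact hℓ.one_lt.ne' (Nat.dvd_one.mp h4)
  obtain ⟨θ, hθ1, hθ2, -, -, hθ5⟩ := exists_theta ℓ ζ hζ ιE.toRingHom hF hdeg' u hu'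
  have hθβ : ∀ b : F, θ (β b) = ιE (β b) := fun b => hθ1 b
  have hθc : ∀ c : L, θ (algebraMap L E c) = algebraMap L (LaurentSeries L) c := by
    intro c
    rw [← β.commutes c, hθβ, β.commutes c, ιE.commutes c]
  refine ⟨θ, hθβ, hθc, hθ2, ?_, fun g => hθ5 g⟩
  intro f
  have hcomp : θ.comp α.toRingHom = (qExpand L (ℓ ^ 2)).comp ιF.toRingHom := by
    apply hG
    · intro c
      show θ (α (algebraMap L F c)) = qExpand L (ℓ ^ 2) (ιF (algebraMap L F c))
      rw [α.commutes c, hθc, ιF.commutes c, qExpand_algebraMap]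
    · intro x hx
      obtain ⟨d, hd0, hd, hxd⟩ := hGj x hx
      show θ (α x) = qExpand L (ℓ ^ 2) (ιF x)
      rw [hxd]
      apply eq_of_root_of_twist_eq ℓ hζ Φ hΦm hΦd h1 h2 d hd _ (hθ2 _)
      -- the relation inside `E`
      have hE : (Φ.map (aeval (β x) : Polynomial L →ₐ[L] E).toRingHom).eval (α x) = 0 := by
        apply ιE.toRingHom.injective
        show ιE _ = ιE 0
        rw [map_zero, ev_algHom ιE, hα, hβ, hxd]
        have h := ev_ringHom (qExpand L d) (qExpand_algebraMap d) (jqModC L)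
          (qExpand L ℓ (jqModC L)) Φ
        rw [show (Polynomial.map (aeval (qExpand L ℓ (jqModC L)) :
          Polynomial L →ₐ[L] LaurentSeries L).toRingHom Φ).eval (jqModC L) = 0 from h2,
          map_zero, qExpand_comm d ℓ] at h
        exact h.symm
      have h := ev_ringHom θ hθc (α x) (β x) Φ
      rw [hE, map_zero, hθβ, hβ, hxd] at h
      exact h.symm
  exact RingHom.congr_fun hcomp f

/-- **Consumer form.**  In the situation of `exists_theta_along`: for `f : F` and a constant `a`,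
the norm of `α f - a` over `β(F)` has expansion (in `q^ℓ`)
`(f(q^(ℓ²)) - a) * ∏ i < ℓ, (f(ζ^i q) - a)`. -/
theorem norm_alpha_sub_const_along (ℓ : ℕ) [Fact ℓ.Prime] (ζ : Lˣ) (hζ : IsPrimitiveRoot ζ ℓ)
    (α β : F →ₐ[L] E) (ιF : F →ₐ[L] LaurentSeries L) (ιE : E →ₐ[L] LaurentSeries L)
    (hα : ∀ f, ιE (α f) = ιF f) (hβ : ∀ f, ιE (β f) = qExpand L ℓ (ιF f))
    (hdeg : finrankAlong L β = ℓ + 1) (hjE : ∃ u : E, ιE u = jqModC L)
    (Φ : Polynomial (Polynomial L)) (hΦm : Φ.Monic) (hΦd : Φ.natDegree = ℓ + 1)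
    (h1 : ev (qExpand L ℓ (jqModC L)) (jqModC L) Φ = 0)
    (h2 : ev (jqModC L) (qExpand L ℓ (jqModC L)) Φ = 0)
    (G : Set F)
    (hG : ∀ φ₁ φ₂ : F →+* LaurentSeries L,
      (∀ c : L, φ₁ (algebraMap L F c) = φ₂ (algebraMap L F c)) → (∀ x ∈ G, φ₁ x = φ₂ x) → φ₁ = φ₂)
    (hGj : ∀ x ∈ G, ∃ (d : ℕ) (_ : NeZero d), ¬ ℓ ∣ d ∧ ιF x = qExpand L d (jqModC L))
    (f : F) (a : L) :
    qExpand L ℓ (ιF (letI := algebraAlong β; Algebra.norm F (α f - algebraMap L E a)))
      = (qExpand L (ℓ ^ 2) (ιF f) - HahnSeries.C a) *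
        ∏ i ∈ Finset.range ℓ, ((twist ζ)^[i] (ιF f) - HahnSeries.C a) := by
  obtain ⟨θ, hθβ, hθc, -, hθα, hθN⟩ :=
    exists_theta_along ℓ ζ hζ α β ιF ιE hα hβ hdeg hjE Φ hΦm hΦd h1 h2 G hG hGj
  rw [← hβ, hθN, map_sub, hθα, hθc, C_eq_algebraMap']
  congr 1
  refine Finset.prod_congr rfl fun i _ => ?_
  rw [map_sub, hα, ιE.commutes, map_sub, twist_algebraMap, iterate_twist]

end Along

/-! ### The modular instance -/

section Main

open Fermat.Agent.S28.ModPkg

variable (N ℓ : ℕ) [NeZero N] [Fact ℓ.Prime]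

/-- the generators `j(q^d)`, `d ∣ N`, of `F_{ℚ̄}(N)` -/
def gens : Set (modularFunctionFieldBar N) :=
  {x | ∃ (d : ℕ) (_ : NeZero d), d ∣ N ∧ (x : LaurentSeries Qb) = qExpand Qb d (jqModC Qb)}

theorem ringHom_ext_gens (φ₁ φ₂ : modularFunctionFieldBar N →+* LaurentSeries Qb)
    (hc : ∀ c : Qb, φ₁ (algebraMap Qb (modularFunctionFieldBar N) c)
      = φ₂ (algebraMap Qb (modularFunctionFieldBar N) c))
    (hj : ∀ x ∈ gens N, φ₁ x = φ₂ x) : φ₁ = φ₂ :=
  ringHom_ext_bar N φ₁ φ₂ hc fun d _ hd => hj _ ⟨d, inferInstance, hd, rfl⟩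

theorem jqModC_mem_bar : jqModC Qb ∈ modularFunctionFieldBar N := by
  have h := jd_mem N (d := 1) (one_dvd _)
  rwa [qExpand_one_apply] at h

/-- **The `(ℓ+1)`-st conjugate for `T_ℓ`.**  With `E = F_{ℚ̄}(Nℓ)` of degree `ℓ + 1` over
`F = F_{ℚ̄}(N)` along `β : f(q) ↦ f(q^ℓ)` and `ℓ ∤ N`: there is a ring homomorphism
`θ : E → ℚ̄((q))` which is the identity on `β(F)` and on the constants, takes twist-fixed values,
satisfies `θ (α f) = f(q^(ℓ²))`, and such that the norm over `β(F)` is the product over `θ` and the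
`ℓ` twists `g(q) ↦ g(ζ^i q)`. -/
theorem exists_theta_hecke (hℓN : ¬ ℓ ∣ N) (ζ : Qbˣ) (hζ : IsPrimitiveRoot ζ ℓ)
    (hdeg : finrankAlong Qb (heckeBetaBar Qb N ℓ) = ℓ + 1) :
    ∃ θ : modularFunctionFieldBar (N * ℓ) →+* LaurentSeries Qb,
      (∀ b : modularFunctionFieldBar N, θ (heckeBetaBar Qb N ℓ b)
        = ((heckeBetaBar Qb N ℓ b : modularFunctionFieldBar (N * ℓ)) : LaurentSeries Qb)) ∧
      (∀ c : Qb, θ (algebraMap Qb (modularFunctionFieldBar (N * ℓ)) c)
        = algebraMap Qb (LaurentSeries Qb) c) ∧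
      (∀ g : modularFunctionFieldBar (N * ℓ), twist ζ (θ g) = θ g) ∧
      (∀ f : modularFunctionFieldBar N,
        θ (heckeAlphaBar Qb N ℓ f) = qExpand Qb (ℓ ^ 2) (f : LaurentSeries Qb)) ∧
      ∀ g : modularFunctionFieldBar (N * ℓ),
        ((heckeBetaBar Qb N ℓ (letI := algebraAlong (heckeBetaBar Qb N ℓ)
            Algebra.norm (modularFunctionFieldBar N) g) :
            modularFunctionFieldBar (N * ℓ)) : LaurentSeries Qb)
          = θ g * ∏ i ∈ Finset.range ℓ, twist (ζ ^ i) (g : LaurentSeries Qb) := by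
  obtain ⟨Φ, T, Ψ, hΦm, hΦd, -, -, -, h1, h2, -⟩ := Fermat.Agent.S28.ModPkgK.exists_modPkg ℓ Qb
  exact exists_theta_along ℓ ζ hζ (heckeAlphaBar Qb N ℓ) (heckeBetaBar Qb N ℓ)
    (modularFunctionFieldBar N).val (modularFunctionFieldBar (N * ℓ)).val
    (fun f => coe_heckeAlphaBar N ℓ f) (fun f => coe_heckeBetaBar N ℓ f) hdeg
    ⟨⟨jqModC Qb, jqModC_mem_bar (N * ℓ)⟩, rfl⟩ Φ hΦm hΦd h1 h2 (gens N) (ringHom_ext_gens N)
    (fun x hx => by
      obtain ⟨d, hd0, hd, hxd⟩ := hx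
      exact ⟨d, hd0, fun h => hℓN (h.trans hd), hxd⟩)

/-- **Consumer form for `T_ℓ`.**  For `f ∈ F_{ℚ̄}(N)` and a constant `a`, the norm `c` of
`α f - a` over `β(F)` (an element of `F_{ℚ̄}(N)`) satisfies
`c(q^ℓ) = (f(q^(ℓ²)) - a) * ∏ i < ℓ, (f(ζ^i q) - a)`. -/
theorem norm_alpha_sub_const (hℓN : ¬ ℓ ∣ N) (ζ : Qbˣ) (hζ : IsPrimitiveRoot ζ ℓ)
    (hdeg : finrankAlong Qb (heckeBetaBar Qb N ℓ) = ℓ + 1)
    (f : modularFunctionFieldBar N) (a : Qb) :
    qExpand Qb ℓ (((letI := algebraAlong (heckeBetaBar Qb N ℓ)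
        Algebra.norm (modularFunctionFieldBar N)
          (heckeAlphaBar Qb N ℓ f - algebraMap Qb (modularFunctionFieldBar (N * ℓ)) a)) :
        modularFunctionFieldBar N) : LaurentSeries Qb)
      = (qExpand Qb (ℓ ^ 2) (f : LaurentSeries Qb) - HahnSeries.C a) *
        ∏ i ∈ Finset.range ℓ, ((twist ζ)^[i] (f : LaurentSeries Qb) - HahnSeries.C a) := by
  obtain ⟨Φ, T, Ψ, hΦm, hΦd, -, -, -, h1, h2, -⟩ := Fermat.Agent.S28.ModPkgK.exists_modPkg ℓ Qb
  exact norm_alpha_sub_const_along ℓ ζ hζ (heckeAlphaBar Qb N ℓ) (heckeBetaBar Qb N ℓ)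
    (modularFunctionFieldBar N).val (modularFunctionFieldBar (N * ℓ)).val
    (fun f => coe_heckeAlphaBar N ℓ f) (fun f => coe_heckeBetaBar N ℓ f) hdeg
    ⟨⟨jqModC Qb, jqModC_mem_bar (N * ℓ)⟩, rfl⟩ Φ hΦm hΦd h1 h2 (gens N) (ringHom_ext_gens N)
    (fun x hx => by
      obtain ⟨d, hd0, hd, hxd⟩ := hx
      exact ⟨d, hd0, fun h => hℓN (h.trans hd), hxd⟩) f a

/-- The same with `twist (ζ ^ i)` in place of the iterate `(twist ζ)^[i]`. -/
theorem norm_alpha_sub_const' (hℓN : ¬ ℓ ∣ N) (ζ : Qbˣ) (hζ : IsPrimitiveRoot ζ ℓ)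
    (hdeg : finrankAlong Qb (heckeBetaBar Qb N ℓ) = ℓ + 1)
    (f : modularFunctionFieldBar N) (a : Qb) :
    qExpand Qb ℓ (((letI := algebraAlong (heckeBetaBar Qb N ℓ)
        Algebra.norm (modularFunctionFieldBar N)
          (heckeAlphaBar Qb N ℓ f - algebraMap Qb (modularFunctionFieldBar (N * ℓ)) a)) :
        modularFunctionFieldBar N) : LaurentSeries Qb)
      = (qExpand Qb (ℓ ^ 2) (f : LaurentSeries Qb) - HahnSeries.C a) *
        ∏ i ∈ Finset.range ℓ, (twist (ζ ^ i) (f : LaurentSeries Qb) - HahnSeries.C a) := by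
  rw [norm_alpha_sub_const N ℓ hℓN ζ hζ hdeg f a]
  congr 1
  refine Finset.prod_congr rfl fun i _ => ?_
  rw [iterate_twist]

/-- `ℚ̄` contains a primitive `ℓ`-th root of unity. -/
theorem exists_primitiveRoot_unit : ∃ ζ : Qbˣ, IsPrimitiveRoot ζ ℓ := by
  have hℓ : ℓ.Prime := Fact.out
  have hne : NeZero ((ℓ : ℕ) : Qb) := ⟨by exact_mod_cast hℓ.ne_zero⟩
  obtain ⟨ζ, hζ⟩ := HasEnoughRootsOfUnity.exists_primitiveRoot Qb ℓ
  have hζ0 : ζ ≠ 0 := hζ.ne_zero hℓ.ne_zero
  exact ⟨Units.mk0 ζ hζ0, IsPrimitiveRoot.coe_units_iff.mp hζ⟩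

end Main

end Fermat.Agent.S37.ThetaHecke
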