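import Mathlib
import Fermat.Agent.S37.HeckeCore
import Fermat.Agent.S37.ThetaHecke
import Fermat.Agent.S37.HeckeDeg
import Fermat.Agent.S37.CuspEq
import Fermat.Agent.S37.ChartAdapt

/-!
# S37 (W4, input (E2), cusp chart): the Hecke norm of a chart function at infinity

`A` a valuation subring of `ℚ̄` over `ℓ ∤ N`, `P` a place of `F_L = FL N` on the chart at
infinity (`flag A N P = false`, i.e. `j⁻¹(P) ∈ 𝔪_A`), `x ∈ chart A N false` (integral over
`A[j⁻¹]`).  Then `s * N_β(α x) ∈ chart A N false` for some `s ∈ chart A N false` with nonzero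
value at `P`: `s = g(j⁻¹)^m` with `g ∈ A[V]`, `g(0) ∈ Aˣ`, from the modular equation at the cusp
chart (`CuspEq.exists_pow_mul_isIntegralElem_of_norm`) and the product formula for the norm
(`ThetaHecke.norm_alpha_sub_const`, `HeckeDeg.finrank_beta`).
-/

set_option autoImplicit false

noncomputable section

open AlgebraicCurve ModularCurve Polynomial
open Fermat.Agent.S18.S24Export Fermat.Agent.S37.EvalGal Fermat.Agent.S37.RedPlace
open Fermat.Agent.S37.HeckeInt

namespace Fermat.Agent.S37.HeckeCusp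

local notation "Qb" => AlgebraicClosure ℚ

variable (A : ValuationSubring Qb) (N : ℕ) [NeZero N]

omit [NeZero N] in
/-- the `q`-expansion of `j` over `ℚ̄` -/
theorem coe_jL_eq : ((jL N : FL N) : LaurentSeries Qb) = jqModC Qb := by
  rw [coe_jL]
  exact coeffMap_jqModC (algebraMap ℚ Qb)

omit [NeZero N] in
theorem coe_jL_inv : (((jL N)⁻¹ : FL N) : LaurentSeries Qb) = (jqModC Qb)⁻¹ := by
  rw [← coe_jL_eq N]
  rfl

omit [NeZero N] in
/-- the coercion of the chart homomorphism is the series-level chart homomorphism -/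
theorem coe_chartHom (t : FL N) (p : Polynomial ↥A) :
    ((EvalInt.chartHom A t p : FL N) : LaurentSeries Qb) =
      ch A.subtype (t : LaurentSeries Qb) p := by
  have hcomp : ((FL N).val : FL N →+* LaurentSeries Qb).comp (EvalInt.chartHom A t) =
      ch A.subtype (t : LaurentSeries Qb) := by
    apply Polynomial.ringHom_ext
    · intro r
      simp [ch, EvalInt.chartHom]
    · simp [ch, EvalInt.chartHom]
  exact congrArg (fun φ : Polynomial ↥A →+* LaurentSeries Qb => φ p) hcomp

omit [NeZero N] in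
/-- chart membership, series form -/
theorem mem_chart_iff_ch (b : Bool) (x : FL N) :
    x ∈ chart A N b ↔
      (ch A.subtype ((coord N b : FL N) : LaurentSeries Qb)).IsIntegralElem
        ((x : FL N) : LaurentSeries Qb) := by
  rw [ChartAdapt.mem_chart_iff_isIntegralElem]
  exact isIntegralElem_iff_coe A.subtype (FL N) (coord N b) x

/-- the value of `g(j⁻¹)` at a place of the chart at infinity is `g(0)` modulo `𝔪_A` -/
theorem val_chartHom_inv (P : Place Qb (FL N)) (hP : flag A N P = false) (g : Polynomial ↥A) :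
    val A N P (EvalInt.chartHom A (jL N)⁻¹ g) = IsLocalRing.residue ↥A (g.coeff 0) := by
  have hfin : ¬ IsFin A N P := (flag_eq_false_iff A N P).mp hP
  have hle : chart A N false ≤ Rint A N P := by
    have h := ChartAdapt.chart_le_Rint A N P
    rwa [hP] at h
  have hmem : ∀ p : Polynomial ↥A, EvalInt.chartHom A (jL N)⁻¹ p ∈ Rint A N P := fun p =>
    hle ((ChartAdapt.mem_chart_iff_chartInt A N false _).mpr
      (EvalInt.chartHom_mem_chartInt A (coord N false) p))
  have hu : (jL N)⁻¹ ∈ Rint A N P := by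
    have h := hmem Polynomial.X
    simpa [EvalInt.chartHom] using h
  have hdecomp : EvalInt.chartHom A (jL N)⁻¹ g =
      EvalInt.chartHom A (jL N)⁻¹ g.divX * (jL N)⁻¹ +
        algebraMap Qb (FL N) ((g.coeff 0 : ↥A) : Qb) := by
    conv_lhs => rw [← Polynomial.divX_mul_X_add g]
    simp [EvalInt.chartHom]
  rw [hdecomp, val_add A N P (Subring.mul_mem _ (hmem _) hu) (algebraMap_mem_Rint A N P _),
    val_mul A N P (hmem _) hu, ChartAdapt.val_coord_eq_zero_of_not_isFin A N P hfin, mul_zero,
    zero_add, val_algebraMap]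

variable {ℓ : ℕ} [Fact ℓ.Prime]

/-- **(E2), cusp chart.**  For a place `P` on the chart at infinity and `x ∈ chart A N false`
there is `s ∈ chart A N false` with nonzero value at `P` such that `s * N_β(α x)` lies in
`chart A N false`. -/
theorem exists_mul_heckeNorm_mem_cusp (hℓN : ¬ ℓ ∣ N) (hA : A.LiesOverPrime ℓ)
    (P : Place Qb (FL N)) (hP : flag A N P = false) (x : FL N) (hx : x ∈ chart A N false) :
    ∃ s ∈ chart A N false, val A N P s ≠ 0 ∧
      s * HeckeCore.heckeNorm N ℓ x ∈ chart A N false := by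
  have : CharP (IsLocalRing.ResidueField ↥A) ℓ := Fermat.Agent.S18.ResField.charP A hA
  obtain ⟨ζ, hζ⟩ := ThetaHecke.exists_primitiveRoot_unit (ℓ := ℓ)
  obtain ⟨ζA, hζA, -⟩ := Kronecker.exists_unit_of_pow_eq_one A ℓ ζ hζ.pow_eq_one
  have hdeg : finrankAlong Qb (heckeBetaBar Qb N ℓ) = ℓ + 1 := HeckeDeg.finrank_beta N ℓ hℓN
  obtain ⟨g, hg, H⟩ := CuspEq.exists_pow_mul_isIntegralElem_of_norm A.subtype ℓ
    Subtype.val_injective ζ hζ ζA hζA
  -- the product formula for the norm
  have hTheta := ThetaHecke.norm_alpha_sub_const N ℓ hℓN ζ hζ hdeg x 0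
  have hnorm : HeckeCore.heckeNorm N ℓ x = (letI := algebraAlong (heckeBetaBar Qb N ℓ)
      Algebra.norm (modularFunctionFieldBar N)
        (heckeAlphaBar Qb N ℓ x - algebraMap Qb (modularFunctionFieldBar (N * ℓ)) 0)) := by
    rw [map_zero, sub_zero]
    rfl
  rw [← hnorm] at hTheta
  have hy : (ch A.subtype (jqModC Qb)⁻¹).IsIntegralElem ((x : FL N) : LaurentSeries Qb) := by
    have h := (mem_chart_iff_ch A N false x).mp hx
    rwa [coord_false, coe_jL_inv] at h
  obtain ⟨m, hm⟩ := H _ hy 0 ((HeckeCore.heckeNorm N ℓ x : FL N) : LaurentSeries Qb)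
    (by rw [map_zero A.subtype]; exact hTheta)
  refine ⟨EvalInt.chartHom A (jL N)⁻¹ g ^ m, ?_, ?_, ?_⟩
  · exact Subring.pow_mem _ ((ChartAdapt.mem_chart_iff_chartInt A N false _).mpr
      (EvalInt.chartHom_mem_chartInt A (coord N false) g)) m
  · have hle : chart A N false ≤ Rint A N P := by
      have h := ChartAdapt.chart_le_Rint A N P
      rwa [hP] at h
    have hmem : EvalInt.chartHom A (jL N)⁻¹ g ∈ Rint A N P :=
      hle ((ChartAdapt.mem_chart_iff_chartInt A N false _).mpr
        (EvalInt.chartHom_mem_chartInt A (coord N false) g))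
    rw [HeckeCore.val_pow A N P hmem, val_chartHom_inv A N P hP g]
    exact pow_ne_zero m ((IsLocalRing.residue ↥A).isUnit_map hg).ne_zero
  · rw [mem_chart_iff_ch, coord_false, coe_jL_inv]
    have e : (((EvalInt.chartHom A (jL N)⁻¹ g ^ m * HeckeCore.heckeNorm N ℓ x : FL N)) :
        LaurentSeries Qb) =
        (ch A.subtype (jqModC Qb)⁻¹ g) ^ m *
          ((HeckeCore.heckeNorm N ℓ x : FL N) : LaurentSeries Qb) := by
      rw [← coe_jL_inv N, ← coe_chartHom]
      rfl
    rw [e]
    exact hm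

/-- **(E2), finite chart** (series route): the Hecke norm of a function integral over `A[j]` is
integral over `A[j]`. -/
theorem heckeNorm_mem_chart_true (hℓN : ¬ ℓ ∣ N) (x : FL N) (hx : x ∈ chart A N true) :
    HeckeCore.heckeNorm N ℓ x ∈ chart A N true := by
  obtain ⟨ζ, hζ⟩ := ThetaHecke.exists_primitiveRoot_unit (ℓ := ℓ)
  have hdeg : finrankAlong Qb (heckeBetaBar Qb N ℓ) = ℓ + 1 := HeckeDeg.finrank_beta N ℓ hℓN
  have hTheta := ThetaHecke.norm_alpha_sub_const N ℓ hℓN ζ hζ hdeg x 0
  have hnorm : HeckeCore.heckeNorm N ℓ x = (letI := algebraAlong (heckeBetaBar Qb N ℓ)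
      Algebra.norm (modularFunctionFieldBar N)
        (heckeAlphaBar Qb N ℓ x - algebraMap Qb (modularFunctionFieldBar (N * ℓ)) 0)) := by
    rw [map_zero, sub_zero]
    rfl
  rw [← hnorm] at hTheta
  have hy : (ch A.subtype (jqModC Qb)).IsIntegralElem ((x : FL N) : LaurentSeries Qb) := by
    have h := (mem_chart_iff_ch A N true x).mp hx
    rwa [coord_true, coe_jL_eq] at h
  rw [mem_chart_iff_ch, coord_true, coe_jL_eq]
  exact isIntegralElem_of_norm ℓ ζ hζ.pow_eq_one hy 0
    ((HeckeCore.heckeNorm N ℓ x : FL N) : LaurentSeries Qb)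
    (by rw [map_zero A.subtype]; exact hTheta)

/-- **(E2), both charts**: the hypothesis `hNI` of `HeckeCore.val_heckeNorm` at every place. -/
theorem exists_mul_heckeNorm_mem (hℓN : ¬ ℓ ∣ N) (hA : A.LiesOverPrime ℓ)
    (P : Place Qb (FL N)) (x : FL N) (hx : x ∈ chart A N (flag A N P)) :
    ∃ s ∈ chart A N (flag A N P), val A N P s ≠ 0 ∧
      s * HeckeCore.heckeNorm N ℓ x ∈ chart A N (flag A N P) := by
  cases hP : flag A N P with
  | false =>
    rw [hP] at hx
    exact exists_mul_heckeNorm_mem_cusp A N hℓN hA P hP x hx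
  | true =>
    rw [hP] at hx
    refine ⟨1, Subring.one_mem _, ?_, ?_⟩
    · rw [val_one]
      exact one_ne_zero
    · rw [one_mul]
      exact heckeNorm_mem_chart_true A N hℓN x hx

end Fermat.Agent.S37.HeckeCusp
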