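import Fermat.Agent.S28.ModPkgJp

/-!
# S37 (W4): `j(q)` is integral over `ℤ[j(q^p)]`

The modular polynomial `Φ_p` of the S28 package satisfies BOTH `Φ(j(q^p), j) = 0` and
`Φ(j, j(q^p)) = 0`; `S18.JInt` uses the first identity (`j(q^p)` integral over `ℤ[j]`).
Here is the symmetric statement from the second identity: there is a monic `P ∈ ℤ[X][X]` with
`P(j(q^p), j) = 0` (coefficients evaluated at `j(q^p)`, the variable at `j`), in `R((q))` for
every commutative ring `R`.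
-/

set_option autoImplicit false
set_option linter.style.haveILetI false

namespace Fermat.Agent.S37.SymInt

open Polynomial ModularCurve Fermat.Agent.S28 Fermat.Agent.S28.ModPkg

/-- the evaluation `ℤ[X] → R((q))`, `X ↦ j(q^p)` -/
noncomputable abbrev evJp (R : Type*) [CommRing R] (p : ℕ) [NeZero p] : ℤ[X] →+* LaurentSeries R :=
  ((aeval (qExpand R p (jqModC R)) : ℤ[X] →ₐ[ℤ] LaurentSeries R) : ℤ[X] →+* LaurentSeries R)

theorem coeffMap_comp_evJp {R S : Type*} [CommRing R] [CommRing S] (f : R →+* S) (p : ℕ)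
    [NeZero p] : (coeffMap f).comp (evJp R p) = evJp S p := by
  apply Polynomial.ringHom_ext'
  · exact RingHom.ext_int _ _
  · simp [coeffMap_qExpand, coeffMap_jqModC]

/-- `j` is integral over `ℤ[j(q^p)]` in `ℂ((q))`, ring-hom form. -/
theorem isIntegralElem_j_complex (p : ℕ) [Fact p.Prime] :
    (evJp ℂ p).IsIntegralElem (jqModC ℂ) := by
  obtain ⟨Φ, T, Ψ, hΦ, hΦd, hΨ, hΨd, hT, h2, h3, h4, h5, h6, h6'⟩ := exists_complex p
  have hb0 : (phiZero ℤ p).coeff (1 - (p : ℤ)) ≠ 0 := by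
    rw [coeff_phiZero]; exact one_ne_zero
  obtain ⟨Φ₀, T₀, Ψ₀, hΦ₀, -, -⟩ := ModPkgRed.exists_lifts p (phiInf ℤ p) (phiZero ℤ p) hb0 Φ T Ψ
    hΦ hΦd hΨ hΨd hT ⟨h2, h3, h4, h5, h6, h6'⟩
  letI : Algebra (Polynomial ℤ) (LaurentSeries ℂ) := (evJp ℂ p).toAlgebra
  show IsIntegral (Polynomial ℤ) (jqModC ℂ)
  have hj : IsIntegral (Polynomial ℤ) (qExpand ℂ p (jqModC ℂ)) := by
    have : qExpand ℂ p (jqModC ℂ) = algebraMap (Polynomial ℤ) (LaurentSeries ℂ) X := by
      rw [RingHom.algebraMap_toAlgebra]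
      simp
    rw [this]
    exact isIntegral_algebraMap
  refine ModPkgJp.isIntegral_of_monic_of_coeff
    (Φ.map (Polynomial.aeval (qExpand ℂ p (jqModC ℂ))).toRingHom) (hΦ.map _) ?_ _ h3
  intro n
  rw [Polynomial.coeff_map]
  have hcoe : Φ.coeff n = (Φ₀.coeff n).map ModPkgRed.OC.subtype := by
    rw [← hΦ₀, Polynomial.coeff_map]
    rfl
  show IsIntegral (Polynomial ℤ) (Polynomial.aeval (qExpand ℂ p (jqModC ℂ)) (Φ.coeff n))
  rw [hcoe, Polynomial.aeval_eq_sum_range]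
  refine IsIntegral.sum _ fun m _ => ?_
  rw [Algebra.smul_def]
  refine IsIntegral.mul ?_ (hj.pow m)
  have hc : IsIntegral ℤ (((Φ₀.coeff n).map ModPkgRed.OC.subtype).coeff m) := by
    rw [Polynomial.coeff_map]
    exact ((Φ₀.coeff n).coeff m).2
  obtain ⟨Q, hQm, hQ⟩ := hc
  refine ⟨Q.map (Polynomial.C : ℤ →+* Polynomial ℤ), hQm.map _, ?_⟩
  rw [Polynomial.eval₂_map]
  have hcomp : (algebraMap (Polynomial ℤ) (LaurentSeries ℂ)).comp
      (Polynomial.C : ℤ →+* Polynomial ℤ) =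
      (algebraMap ℂ (LaurentSeries ℂ)).comp (algebraMap ℤ ℂ) := RingHom.ext_int _ _
  rw [hcomp, ← Polynomial.hom_eval₂, hQ, map_zero]

/-- `j` is integral over `ℤ[j(q^p)]` in `ℤ((q))`, ring-hom form. -/
theorem isIntegralElem_j_int (p : ℕ) [Fact p.Prime] :
    (evJp ℤ p).IsIntegralElem (jqModC ℤ) := by
  obtain ⟨P, hPm, hP⟩ := isIntegralElem_j_complex p
  have hψ : Function.Injective (coeffMap (Int.castRingHom ℂ)) :=
    ModPkgRed.coeffMap_injective _ (Int.castRingHom ℂ).injective_int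
  refine ⟨P, hPm, hψ ?_⟩
  rw [map_zero, Polynomial.hom_eval₂, coeffMap_comp_evJp, coeffMap_jqModC]
  exact hP

/-- **`j` is integral over `ℤ[j(q^p)]` in `R((q))`** for every commutative ring `R`, ring-hom
form: there is a monic `P ∈ ℤ[X][X]` with `P(j(q^p), j) = 0`. -/
theorem isIntegralElem_j (R : Type*) [CommRing R] (p : ℕ) [Fact p.Prime] :
    (evJp R p).IsIntegralElem (jqModC R) := by
  obtain ⟨P, hPm, hP⟩ := isIntegralElem_j_int p
  refine ⟨P, hPm, ?_⟩
  have h := congrArg (coeffMap (Int.castRingHom R)) hP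
  rw [map_zero, Polynomial.hom_eval₂, coeffMap_comp_evJp, coeffMap_jqModC] at h
  exact h

end Fermat.Agent.S37.SymInt
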