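import Fermat.Agent.S37.RedPlace
import Fermat.Agent.S37.EvalInt
import Fermat.Agent.S37.SymInt
import Fermat.Agent.S37.ChartAdapt
import Fermat.Agent.S18.JInt
import Fermat.Agent.S18.FieldDefQ
import Fermat.Prelude.Def_ModularCurve_HeckeOperator

/-!
# S37 (W4): integrality of the Hecke norms on the finite chart, chart stability (on `FL N`)

For `f` integral over `A[j]` in `F(N)` and `a ∈ A`, the norm of `α f - a` from `F(Nℓ)` to
`β F(N)` (a function of level `N`) is again integral over `A[j]`: `α f` is integral over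
`A[j(q)]`, and `j(q)` is integral over `ℤ[j(q^ℓ)] = β ℤ[j]` (`SymInt`).
-/

set_option autoImplicit false
set_option linter.style.haveILetI false
set_option linter.unusedSectionVars false

noncomputable section

open ModularCurve AlgebraicCurve Polynomial
open Fermat.Agent.S18 Fermat.Agent.S18.S24Export Fermat.Agent.S37.RedPlace

namespace Fermat.Agent.S37.HeckeChart

local notation "Qb" => AlgebraicClosure ℚ

variable (N ℓ : ℕ) [NeZero N] [Fact ℓ.Prime] (A : ValuationSubring Qb)

/-- a root of a monic polynomial whose coefficients are integral is integral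
(ring homomorphism form) -/
theorem isIntegralElem_of_monic' {R S L : Type*} [CommRing R] [CommRing S] [CommRing L]
    (f₀ : R →+* L) (f₁ : S →+* L) (hf₁ : ∀ s, f₀.IsIntegralElem (f₁ s)) (Q : S[X])
    (hQ : Q.Monic) (x : L) (hx : eval₂ f₁ x Q = 0) : f₀.IsIntegralElem x := by
  letI : Algebra R L := f₀.toAlgebra
  let g₁ : S →+* integralClosure R L := f₁.codRestrict (integralClosure R L) hf₁
  have hcomp : (algebraMap (integralClosure R L) L).comp g₁ = f₁ := RingHom.ext fun s => rfl
  have hxB : IsIntegral (integralClosure R L) x := by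
    refine ⟨Q.map g₁, hQ.map g₁, ?_⟩
    rw [eval₂_map, hcomp]
    exact hx
  exact isIntegral_trans x hxB

/-- generic: if `g s` is `ψ`-integral for every generator value, it is for every `s` -/
theorem isIntegralElem_of_C_of_X {R S : Type*} [CommRing R] [CommRing S] (ψ g : R[X] →+* S)
    (hC : ∀ a : R, ψ.IsIntegralElem (g (C a))) (hX : ψ.IsIntegralElem (g X)) (s : R[X]) :
    ψ.IsIntegralElem (g s) := by
  induction s using Polynomial.induction_on with
  | C a => exact hC a
  | add p q hp hq => rw [map_add]; exact hp.add ψ hq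
  | monomial n a h =>
    rw [pow_succ, ← mul_assoc, map_mul]
    exact h.mul ψ hX

/-- `β ∘ chartHom` on constants -/
theorem beta_chartHom_C (a : A) :
    heckeBetaBar Qb N ℓ (EvalInt.chartHom A (jL N) (C a)) = algebraMap Qb (FL (N * ℓ)) (a : Qb) := by
  rw [coe_eval₂RingHom, eval₂_C]
  exact (heckeBetaBar Qb N ℓ).commutes _

/-- `α ∘ chartHom` on constants -/
theorem alpha_chartHom_C (a : A) :
    heckeAlphaBar Qb N ℓ (EvalInt.chartHom A (jL N) (C a)) = algebraMap Qb (FL (N * ℓ)) (a : Qb) := by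
  rw [coe_eval₂RingHom, eval₂_C]
  exact (heckeAlphaBar Qb N ℓ).commutes _

theorem chartHom_X (t : FL N) : EvalInt.chartHom A t X = t := by
  rw [coe_eval₂RingHom, eval₂_X]

/-- **`α j = j(q)` is integral over `A[β j] = A[j(q^ℓ)]`** in `F(Nℓ)`. -/
theorem isIntegralElem_alpha_j :
    ((heckeBetaBar Qb N ℓ).toRingHom.comp (EvalInt.chartHom A (jL N))).IsIntegralElem
      (heckeAlphaBar Qb N ℓ (jL N)) := by
  obtain ⟨P, hPm, hP⟩ := SymInt.isIntegralElem_j Qb ℓ
  set ψ : (A : Type _)[X] →+* FL (N * ℓ) :=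
    (heckeBetaBar Qb N ℓ).toRingHom.comp (EvalInt.chartHom A (jL N)) with hψ
  refine ⟨P.map (Polynomial.mapRingHom (Int.castRingHom A)), hPm.map _, ?_⟩
  apply Subtype.val_injective
  have hval : ∀ x : FL (N * ℓ), (x : LaurentSeries Qb) = (FL (N * ℓ)).val x := fun _ => rfl
  rw [hval, ← AlgHom.coe_toRingHom, Polynomial.hom_eval₂, eval₂_map]
  have hcomp : ((((FL (N * ℓ)).val : FL (N * ℓ) →ₐ[Qb] LaurentSeries Qb) : FL (N * ℓ) →+* _).comp
      ψ).comp (Polynomial.mapRingHom (Int.castRingHom A)) = SymInt.evJp Qb ℓ := by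
    apply Polynomial.ringHom_ext'
    · exact RingHom.ext_int _ _
    · simp only [RingHom.coe_comp, Function.comp_apply, Polynomial.coe_mapRingHom,
        Polynomial.map_X, hψ, AlgHom.toRingHom_eq_coe, RingHom.coe_coe, chartHom_X]
      show ((heckeBetaBar Qb N ℓ (jL N) : FL (N * ℓ)) : LaurentSeries Qb) = _
      rw [coe_heckeBetaBar, FieldDefQ.coe_jL_eq]
      simp
  rw [hcomp]
  show eval₂ (SymInt.evJp Qb ℓ) ((heckeAlphaBar Qb N ℓ (jL N) : FL (N * ℓ)) : LaurentSeries Qb) P
    = ((0 : FL (N * ℓ)) : LaurentSeries Qb)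
  rw [coe_heckeAlphaBar, FieldDefQ.coe_jL_eq]
  exact hP

/-- `α f` is integral over `A[β j]` if `f` is integral over `A[j]`. -/
theorem isIntegralElem_alpha {f : FL N} (hf : (EvalInt.chartHom A (jL N)).IsIntegralElem f) :
    ((heckeBetaBar Qb N ℓ).toRingHom.comp (EvalInt.chartHom A (jL N))).IsIntegralElem
      (heckeAlphaBar Qb N ℓ f) := by
  set ψ : (A : Type _)[X] →+* FL (N * ℓ) :=
    (heckeBetaBar Qb N ℓ).toRingHom.comp (EvalInt.chartHom A (jL N)) with hψ
  set g : (A : Type _)[X] →+* FL (N * ℓ) :=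
    (heckeAlphaBar Qb N ℓ).toRingHom.comp (EvalInt.chartHom A (jL N)) with hg
  have hA : ∀ s, ψ.IsIntegralElem (g s) := by
    refine isIntegralElem_of_C_of_X ψ g (fun a => ?_) ?_
    · have h1 : g (C a) = ψ (C a) := by
        simp only [hg, hψ, RingHom.coe_comp, Function.comp_apply, AlgHom.toRingHom_eq_coe,
          RingHom.coe_coe]
        rw [alpha_chartHom_C, beta_chartHom_C]
      rw [h1]
      exact ψ.isIntegralElem_map
    · have h1 : g X = heckeAlphaBar Qb N ℓ (jL N) := by
        simp only [hg, RingHom.coe_comp, Function.comp_apply, AlgHom.toRingHom_eq_coe,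
          RingHom.coe_coe, chartHom_X]
      rw [h1]
      exact isIntegralElem_alpha_j N ℓ A
  obtain ⟨p, hpm, hp⟩ := hf
  refine isIntegralElem_of_monic' ψ g hA p hpm _ ?_
  have h := congrArg (heckeAlphaBar Qb N ℓ) hp
  rw [map_zero, ← AlgHom.coe_toRingHom, Polynomial.hom_eval₂] at h
  exact h

/-- **Integrality of the Hecke norm on the finite chart.**  For `f` integral over `A[j]` and
`a ∈ A`, the norm of `α f - a` along `β` is integral over `A[j]`. -/
theorem isIntegralElem_norm {f : FL N} (hf : (EvalInt.chartHom A (jL N)).IsIntegralElem f) {a : Qb} (ha : a ∈ A) :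
    letI := algebraAlong (heckeBetaBar Qb N ℓ)
    (EvalInt.chartHom A (jL N)).IsIntegralElem
      (Algebra.norm (FL N) (heckeAlphaBar Qb N ℓ f - algebraMap Qb (FL (N * ℓ)) a)) := by
  letI := algebraAlong (heckeBetaBar Qb N ℓ)
  set ψ : (A : Type _)[X] →+* FL (N * ℓ) :=
    (heckeBetaBar Qb N ℓ).toRingHom.comp (EvalInt.chartHom A (jL N)) with hψ
  have h1 : ψ.IsIntegralElem (heckeAlphaBar Qb N ℓ f - algebraMap Qb (FL (N * ℓ)) a) := by
    refine (isIntegralElem_alpha N ℓ A hf).sub ψ ?_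
    have : algebraMap Qb (FL (N * ℓ)) a = ψ (C ⟨a, ha⟩) := by
      simp only [hψ, RingHom.coe_comp, Function.comp_apply, AlgHom.toRingHom_eq_coe,
        RingHom.coe_coe]
      rw [beta_chartHom_C]
    rw [this]
    exact ψ.isIntegralElem_map
  letI : Algebra (A : Type _)[X] (FL N) := (EvalInt.chartHom A (jL N)).toAlgebra
  letI : Algebra (A : Type _)[X] (FL (N * ℓ)) := ψ.toAlgebra
  haveI : IsScalarTower (A : Type _)[X] (FL N) (FL (N * ℓ)) :=
    IsScalarTower.of_algebraMap_eq fun _ => rfl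
  have h2 : IsIntegral (A : Type _)[X]
      (heckeAlphaBar Qb N ℓ f - algebraMap Qb (FL (N * ℓ)) a) := h1
  exact Algebra.isIntegral_norm (FL N) h2

/-- `α ∘ chartHom A j = chartHom A (α j)` -/
theorem alpha_comp_chartHom :
    (heckeAlphaBar Qb N ℓ).toRingHom.comp (EvalInt.chartHom A (jL N)) =
      EvalInt.chartHom A (heckeAlphaBar Qb N ℓ (jL N)) := by
  apply Polynomial.ringHom_ext
  · intro a
    simp
  · simp

/-- `β ∘ chartHom A j = chartHom A (β j)` -/
theorem beta_comp_chartHom :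
    (heckeBetaBar Qb N ℓ).toRingHom.comp (EvalInt.chartHom A (jL N)) =
      EvalInt.chartHom A (heckeBetaBar Qb N ℓ (jL N)) := by
  apply Polynomial.ringHom_ext
  · intro a
    simp
  · simp

/-- **`β j = j(q^ℓ)` is integral over `A[α j] = A[j(q)]`** in `F(Nℓ)`. -/
theorem isIntegralElem_beta_j :
    (EvalInt.chartHom A (heckeAlphaBar Qb N ℓ (jL N))).IsIntegralElem
      (heckeBetaBar Qb N ℓ (jL N)) := by
  obtain ⟨P, hPm, hP⟩ := JInt.isIntegralElem_jp Qb ℓ
  refine ⟨P.map (Polynomial.mapRingHom (Int.castRingHom A)), hPm.map _, ?_⟩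
  apply Subtype.val_injective
  have hval : ∀ x : FL (N * ℓ), (x : LaurentSeries Qb) = (FL (N * ℓ)).val x := fun _ => rfl
  rw [hval, ← AlgHom.coe_toRingHom, Polynomial.hom_eval₂, eval₂_map]
  have hcomp : ((((FL (N * ℓ)).val : FL (N * ℓ) →ₐ[Qb] LaurentSeries Qb) : FL (N * ℓ) →+* _).comp
      (EvalInt.chartHom A (heckeAlphaBar Qb N ℓ (jL N)))).comp
        (Polynomial.mapRingHom (Int.castRingHom A)) = JInt.evJ Qb := by
    apply Polynomial.ringHom_ext'
    · exact RingHom.ext_int _ _
    · have h1 : ((heckeAlphaBar Qb N ℓ (jL N) : FL (N * ℓ)) : LaurentSeries Qb) = jqModC Qb := by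
        rw [coe_heckeAlphaBar, FieldDefQ.coe_jL_eq]
      rw [RingHom.comp_apply, RingHom.comp_apply, Polynomial.coe_mapRingHom, Polynomial.map_X,
        Polynomial.coe_eval₂RingHom, Polynomial.eval₂_X]
      refine h1.trans ?_
      simp
  rw [hcomp]
  show eval₂ (JInt.evJ Qb) ((heckeBetaBar Qb N ℓ (jL N) : FL (N * ℓ)) : LaurentSeries Qb) P
    = ((0 : FL (N * ℓ)) : LaurentSeries Qb)
  rw [coe_heckeBetaBar, FieldDefQ.coe_jL_eq]
  exact hP

/-! ### Places: chart stability under the Hecke correspondence -/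

section Places

variable {K F F' : Type*} [Field K] [Field F] [Field F'] [Algebra K F] [Algebra K F']

/-- the maximal ideal of a restricted place -/
theorem mem_nonunits_restrictAlong (φ : F →ₐ[K] F') (hφ : φ.toRingHom.IsIntegral)
    (w : Place K F') (x : F) :
    x ∈ (w.restrictAlong φ hφ).toValuationSubring.nonunits ↔
      φ x ∈ w.toValuationSubring.nonunits := by
  rw [ValuationSubring.mem_nonunits_iff_or, ValuationSubring.mem_nonunits_iff_or]
  have h1 : ∀ y : F, y ∈ (w.restrictAlong φ hφ).toValuationSubring ↔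
      φ y ∈ w.toValuationSubring := fun y => Iff.rfl
  rw [h1, map_inv₀, map_eq_zero]

/-- "`f(P) = c`" for a restricted place -/
theorem sub_mem_nonunits_restrictAlong (φ : F →ₐ[K] F') (hφ : φ.toRingHom.IsIntegral)
    (w : Place K F') (x : F) (c : K) :
    x - algebraMap K F c ∈ (w.restrictAlong φ hφ).toValuationSubring.nonunits ↔
      φ x - algebraMap K F' c ∈ w.toValuationSubring.nonunits := by
  rw [mem_nonunits_restrictAlong, map_sub, AlgHom.commutes]

end Places

/-- `IsFin` in `nonunits` form: `j(P) = a` for some `a ∈ A`. -/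
theorem isFin_iff_exists (P : Place Qb (FL N)) :
    IsFin A N P ↔ ∃ a : A, jL N - algebraMap Qb (FL N) (a : Qb) ∈ P.toValuationSubring.nonunits := by
  constructor
  · rintro ⟨hx, hA⟩
    refine ⟨⟨_, hA⟩, ?_⟩
    exact (EvalInt.sub_mem_nonunits_iff_ev P (deg_eq_one N P) (jL N) hx _).mpr rfl
  · rintro ⟨a, ha⟩
    refine ⟨EvalInt.mem_of_sub_mem_nonunits P ha, ?_⟩
    have h := EvalInt.ev_eq_of_sub_mem_nonunits P (deg_eq_one N P) ha
    show EvalGal.ev P (deg_eq_one N P) _ ∈ A
    rw [h]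
    exact a.2

/-- **Chart stability.**  For a place `P'` of `F(Nℓ)`, its images under `α` and `β` lie on the
same chart: `j(α_* P') ∈ A ↔ j(β_* P') ∈ A`. -/
theorem isFin_restrictAlong_alpha_iff (hα : HeckeAlphaBarIntegral Qb N ℓ)
    (hβ : HeckeBetaBarIntegral Qb N ℓ) (P' : Place Qb (FL (N * ℓ))) :
    IsFin A N (P'.restrictAlong (heckeAlphaBar Qb N ℓ) hα) ↔
      IsFin A N (P'.restrictAlong (heckeBetaBar Qb N ℓ) hβ) := by
  haveI : NeZero (N * ℓ) := ⟨Nat.mul_ne_zero (NeZero.ne N) (NeZero.ne ℓ)⟩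
  have hdeg : P'.deg = 1 := deg_eq_one (N * ℓ) P'
  rw [isFin_iff_exists, isFin_iff_exists]
  constructor
  · rintro ⟨a, ha⟩
    have ha' := (sub_mem_nonunits_restrictAlong (heckeAlphaBar Qb N ℓ) hα P' _ _).mp ha
    obtain ⟨b, hb⟩ := EvalInt.exists_sub_mem_nonunits A P' _ hdeg a ha'
      (isIntegralElem_beta_j N ℓ A)
    exact ⟨b, (sub_mem_nonunits_restrictAlong (heckeBetaBar Qb N ℓ) hβ P' _ _).mpr hb⟩
  · rintro ⟨a, ha⟩
    have ha' := (sub_mem_nonunits_restrictAlong (heckeBetaBar Qb N ℓ) hβ P' _ _).mp ha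
    have hint := isIntegralElem_alpha_j N ℓ A
    rw [beta_comp_chartHom] at hint
    obtain ⟨b, hb⟩ := EvalInt.exists_sub_mem_nonunits A P' _ hdeg a ha' hint
    exact ⟨b, (sub_mem_nonunits_restrictAlong (heckeAlphaBar Qb N ℓ) hα P' _ _).mpr hb⟩

/-- chart stability, flag form -/
theorem flag_restrictAlong_alpha (hα : HeckeAlphaBarIntegral Qb N ℓ)
    (hβ : HeckeBetaBarIntegral Qb N ℓ) (P' : Place Qb (FL (N * ℓ))) :
    flag A N (P'.restrictAlong (heckeAlphaBar Qb N ℓ) hα) =
      flag A N (P'.restrictAlong (heckeBetaBar Qb N ℓ) hβ) := by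
  rw [Bool.eq_iff_iff, flag_eq_true_iff, flag_eq_true_iff]
  exact isFin_restrictAlong_alpha_iff N ℓ A hα hβ P'

/-- chart stability in the fibre form used by `HeckeSep`: for every place `W` of `F(Nℓ)` above
`P` along `β`, the place `α_* W` lies on the chart of `P`. -/
theorem flag_restrictAlong_alpha_of_mem_fiber (hα : HeckeAlphaBarIntegral Qb N ℓ)
    (hβ : HeckeBetaBarIntegral Qb N ℓ) [HasPrincipalDivisors Qb (FL (N * ℓ))]
    (P : Place Qb (FL N)) :
    ∀ W ∈ Place.fiberAlong (heckeBetaBar Qb N ℓ) hβ P,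
      flag A N (W.restrictAlong (heckeAlphaBar Qb N ℓ) hα) = flag A N P := by
  intro W hW
  rw [flag_restrictAlong_alpha N ℓ A hα hβ W, Place.mem_fiberAlong.mp hW]

/-- **Integrality of the Hecke norm on the finite chart, chart form.**  For `f` in the finite
chart ring and `a ∈ A`, the norm of `α f - a` along `β` lies in the finite chart ring. -/
theorem norm_mem_chart_true {f : FL N} (hf : f ∈ chart A N true) {a : Qb} (ha : a ∈ A) :
    letI := algebraAlong (heckeBetaBar Qb N ℓ)
    Algebra.norm (FL N) (heckeAlphaBar Qb N ℓ f - algebraMap Qb (FL (N * ℓ)) a) ∈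
      chart A N true := by
  rw [ChartAdapt.mem_chart_iff_isIntegralElem] at hf ⊢
  exact isIntegralElem_norm N ℓ A hf ha

/-- the case `a = 0`: the norm of `α f` along `β` lies in the finite chart ring. -/
theorem norm_alpha_mem_chart_true {f : FL N} (hf : f ∈ chart A N true) :
    letI := algebraAlong (heckeBetaBar Qb N ℓ)
    Algebra.norm (FL N) (heckeAlphaBar Qb N ℓ f) ∈ chart A N true := by
  have h := norm_mem_chart_true N ℓ A hf (a := 0) A.zero_mem
  rwa [map_zero, sub_zero] at h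

end Fermat.Agent.S37.HeckeChart
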