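import Mathlib
import Fermat.Agent.S18.ResField
import Fermat.Agent.S37.RedPlace
import Fermat.Agent.S37.CharSep
import Fermat.Agent.S37.HeckeInputs

/-!
# S37 (W4): from the evaluated characteristic polynomial to the Hecke relation in `Y`

The last bookkeeping step of the Eichler–Shimura relation for the place reduction
`r = RedPlace.r A N`.  For a place `P` of `X₀(N)` over `ℚ̄` and two further places `P₁`, `P₂`
(in the application `P₁ = σP`, `P₂ = σ⁻¹P` for a Frobenius element `σ`):

if all the places `α(W)`, `W ∣ P` along `β`, and `P₁`, `P₂` lie on the chart of `P`, and for every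
function `x` of that chart ring
`∏_{W ∣ P} (X - x(αW))^{e(W)} = (X - x(P₁)) (X - x(P₂))^ℓ` modulo `𝔪_A`,
then `r_*(T_ℓ P) = [r P₁] + ℓ [r P₂]`.

* `chart_le_Rint` : chart functions are regular with integral value at every place of the chart;
* `charOf` : the character `x ↦ x(Q) mod 𝔪_A` of the chart ring attached to a place `Q`;
* `mapDomain_r_heckeDivBar` : the statement above (polynomial hypothesis);
* `mapDomain_r_heckeDivBar'` : the same with the evaluated hypothesis
  `∏_{W ∣ P} x(αW)^{e(W)} = x(P₁) x(P₂)^ℓ` (for all chart functions `x`).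
-/

set_option autoImplicit false

noncomputable section

open AlgebraicCurve ModularCurve Polynomial
open Fermat.Agent.S18.S24Export Fermat.Agent.S37.EvalGal Fermat.Agent.S37.RedPlace

namespace Fermat.Agent.S37.HeckeSep

local notation "Qb" => AlgebraicClosure ℚ

section Unit

variable {F : Type*} [Field F]

/-- a nonzero element of a valuation subring is a unit iff its inverse lies in it. -/
theorem isUnit_mk_iff_inv_mem (V : ValuationSubring F) {y : F} (hy : y ∈ V) (hy0 : y ≠ 0) :
    IsUnit (⟨y, hy⟩ : ↥V) ↔ y⁻¹ ∈ V := by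
  constructor
  · rintro ⟨u, hu⟩
    have h1 : ((u⁻¹ : (↥V)ˣ) : ↥V) * ⟨y, hy⟩ = 1 := by
      rw [← hu]
      exact u.inv_mul
    have h2 : (((u⁻¹ : (↥V)ˣ) : ↥V) : F) * y = 1 := congrArg Subtype.val h1
    have h3 : y⁻¹ = (((u⁻¹ : (↥V)ˣ) : ↥V) : F) := (eq_inv_of_mul_eq_one_left h2).symm
    rw [h3]
    exact ((u⁻¹ : (↥V)ˣ) : ↥V).2
  · intro h
    exact IsUnit.of_mul_eq_one ⟨y⁻¹, h⟩ (Subtype.ext (mul_inv_cancel₀ hy0))

end Unit

section Generic

variable {ι α β M : Type*} [CommMonoid M]

theorem prod_pow_sum_single (s : Finset ι) (g : ι → α) (e : ι → ℕ) (h : α → M) :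
    ∏ a ∈ (∑ i ∈ s, Finsupp.single (g i) (e i)).support,
        h a ^ (∑ i ∈ s, Finsupp.single (g i) (e i)) a
      = ∏ i ∈ s, h (g i) ^ e i := by
  classical
  show (∑ i ∈ s, Finsupp.single (g i) (e i)).prod (fun a n => h a ^ n) = _
  rw [← Finsupp.prod_finsetSum_index (h := fun a n => h a ^ n) (fun _ => pow_zero _)
    (fun _ _ _ => pow_add _ _ _)]
  refine Finset.prod_congr rfl fun i _ => ?_
  exact Finsupp.prod_single_index (h := fun a n => h a ^ n) (pow_zero _)

theorem prod_pow_add_single (a₁ a₂ : α) (n₁ n₂ : ℕ) (h : α → M) :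
    ∏ a ∈ (Finsupp.single a₁ n₁ + Finsupp.single a₂ n₂).support,
        h a ^ (Finsupp.single a₁ n₁ + Finsupp.single a₂ n₂) a
      = h a₁ ^ n₁ * h a₂ ^ n₂ := by
  classical
  show (Finsupp.single a₁ n₁ + Finsupp.single a₂ n₂).prod (fun a n => h a ^ n) = _
  rw [Finsupp.prod_add_index' (h := fun a n => h a ^ n) (fun _ => pow_zero _)
    (fun _ _ _ => pow_add _ _ _),
    Finsupp.prod_single_index (h := fun a n => h a ^ n) (pow_zero _),
    Finsupp.prod_single_index (h := fun a n => h a ^ n) (pow_zero _)]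

/-- push a multiplicity function forward along `F`, with values in `ℤ`. -/
def pushZ (F : α → β) (m : α →₀ ℕ) : β →₀ ℤ :=
  m.sum fun a n => Finsupp.single (F a) (n : ℤ)

theorem pushZ_sum_single (F : α → β) (s : Finset ι) (g : ι → α) (e : ι → ℕ) :
    pushZ F (∑ i ∈ s, Finsupp.single (g i) (e i))
      = ∑ i ∈ s, Finsupp.single (F (g i)) ((e i : ℕ) : ℤ) := by
  classical
  unfold pushZ
  rw [← Finsupp.sum_finsetSum_index (h := fun a n => Finsupp.single (F a) ((n : ℕ) : ℤ))
    (fun _ => by rw [Nat.cast_zero, Finsupp.single_zero])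
    (fun _ _ _ => by rw [Nat.cast_add, Finsupp.single_add])]
  refine Finset.sum_congr rfl fun i _ => ?_
  exact Finsupp.sum_single_index (h := fun a n => Finsupp.single (F a) ((n : ℕ) : ℤ))
    (by rw [Nat.cast_zero, Finsupp.single_zero])

theorem pushZ_add_single (F : α → β) (a₁ a₂ : α) (n₁ n₂ : ℕ) :
    pushZ F (Finsupp.single a₁ n₁ + Finsupp.single a₂ n₂)
      = Finsupp.single (F a₁) ((n₁ : ℕ) : ℤ) + Finsupp.single (F a₂) ((n₂ : ℕ) : ℤ) := by
  classical
  unfold pushZ
  rw [Finsupp.sum_add_index' (h := fun a n => Finsupp.single (F a) ((n : ℕ) : ℤ))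
    (fun _ => by rw [Nat.cast_zero, Finsupp.single_zero])
    (fun _ _ _ => by rw [Nat.cast_add, Finsupp.single_add]),
    Finsupp.sum_single_index (h := fun a n => Finsupp.single (F a) ((n : ℕ) : ℤ))
      (by rw [Nat.cast_zero, Finsupp.single_zero]),
    Finsupp.sum_single_index (h := fun a n => Finsupp.single (F a) ((n : ℕ) : ℤ))
      (by rw [Nat.cast_zero, Finsupp.single_zero])]

end Generic

variable (A : ValuationSubring Qb) (N : ℕ) [NeZero N]

/-! ### `Rint` is a valuation ring -/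

theorem mem_Rint_or_inv_mem (Q : Place Qb (FL N)) (x : FL N) :
    x ∈ Rint A N Q ∨ x⁻¹ ∈ Rint A N Q := by
  by_cases hx : x ∈ Q.toValuationSubring
  · by_cases hA : evL Q ⟨x, hx⟩ ∈ A
    · exact Or.inl ⟨hx, hA⟩
    · right
      have hc : evL Q ⟨x, hx⟩ ≠ 0 := fun h0 => hA (h0 ▸ A.zero_mem)
      have hx0 : x ≠ 0 := by
        rintro rfl
        exact hc (map_zero (evL Q))
      have hu : IsUnit (⟨x, hx⟩ : ↥Q.toValuationSubring) := by
        by_contra hnu
        have hmem : (⟨x, hx⟩ : ↥Q.toValuationSubring) ∈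
            IsLocalRing.maximalIdeal ↥Q.toValuationSubring :=
          (IsLocalRing.mem_maximalIdeal _).mpr hnu
        rw [← ker_evL, RingHom.mem_ker] at hmem
        exact hc hmem
      have hinv : x⁻¹ ∈ Q.toValuationSubring :=
        (isUnit_mk_iff_inv_mem Q.toValuationSubring hx hx0).mp hu
      refine ⟨hinv, ?_⟩
      have hmul : evL Q ⟨x⁻¹, hinv⟩ * evL Q ⟨x, hx⟩ = 1 := by
        rw [← map_mul]
        have h1 : (⟨x⁻¹, hinv⟩ * ⟨x, hx⟩ : ↥Q.toValuationSubring) = 1 :=
          Subtype.ext (inv_mul_cancel₀ hx0)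
        rw [h1, map_one]
      rw [eq_inv_of_mul_eq_one_left hmul]
      exact (A.mem_or_inv_mem _).resolve_left hA
  · right
    have hinv : x⁻¹ ∈ Q.toValuationSubring :=
      (Q.toValuationSubring.mem_or_inv_mem x).resolve_left hx
    refine ⟨hinv, ?_⟩
    have hx0 : x⁻¹ ≠ 0 := by
      intro h0
      rw [inv_eq_zero] at h0
      exact hx (h0 ▸ Q.toValuationSubring.zero_mem)
    have h0 : evL Q ⟨x⁻¹, hinv⟩ = 0 := by
      rw [← RingHom.mem_ker, ker_evL, IsLocalRing.mem_maximalIdeal, mem_nonunits_iff,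
        isUnit_mk_iff_inv_mem Q.toValuationSubring hinv hx0, inv_inv]
      exact hx
    rw [h0]
    exact A.zero_mem

/-- `Rint A N Q` as a valuation subring of `F_L` (the composite of `Q` and `A`). -/
def RintV (Q : Place Qb (FL N)) : ValuationSubring (FL N) :=
  { Rint A N Q with mem_or_inv_mem' := mem_Rint_or_inv_mem A N Q }

theorem mem_RintV_iff (Q : Place Qb (FL N)) (x : FL N) : x ∈ RintV A N Q ↔ x ∈ Rint A N Q :=
  Iff.rfl

/-- the chart coordinate lies in `Rint` at every place of the chart. -/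
theorem coord_mem_Rint (b : Bool) (Q : Place Qb (FL N)) (hQ : flag A N Q = b) :
    coord N b ∈ Rint A N Q := by
  cases b with
  | true => exact (isFin_iff A N Q).mp ((flag_eq_true_iff A N Q).mp hQ)
  | false =>
    have h : jL N ∉ Rint A N Q := fun hj =>
      (flag_eq_false_iff A N Q).mp hQ ((isFin_iff A N Q).mpr hj)
    exact (mem_Rint_or_inv_mem A N Q (jL N)).resolve_left h

theorem adjoin_le_Rint (b : Bool) (Q : Place Qb (FL N)) (hQ : flag A N Q = b) (y : FL N)
    (hy : y ∈ Algebra.adjoin ↥A ({coord N b} : Set (FL N))) : y ∈ Rint A N Q := by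
  induction hy using Algebra.adjoin_induction with
  | mem z hz =>
    rw [Set.mem_singleton_iff] at hz
    subst hz
    exact coord_mem_Rint A N b Q hQ
  | algebraMap a => exact algebraMap_mem_Rint A N Q a
  | add _ _ _ _ h1 h2 => exact add_mem h1 h2
  | mul _ _ _ _ h1 h2 => exact mul_mem h1 h2

/-- **chart functions are regular, with value in `A`, at every place of the chart.** -/
theorem chart_le_Rint (b : Bool) (Q : Place Qb (FL N)) (hQ : flag A N Q = b) :
    chart A N b ≤ Rint A N Q := by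
  intro x hx
  obtain ⟨p, hp, hpx⟩ := (mem_chart_iff A N b x).mp hx
  let g : ↥(Algebra.adjoin ↥A ({coord N b} : Set (FL N))) →+* ↥(RintV A N Q) :=
    (algebraMap ↥(Algebra.adjoin ↥A ({coord N b} : Set (FL N))) (FL N)).codRestrict (RintV A N Q)
      (fun y => adjoin_le_Rint A N b Q hQ y.1 y.2)
  have hint : IsIntegral ↥(RintV A N Q) x := by
    refine ⟨p.map g, hp.map g, ?_⟩
    rw [eval₂_map]
    exact hpx
  obtain ⟨y, hy⟩ := IsIntegrallyClosed.algebraMap_eq_of_integral hint
  rw [← hy]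
  exact y.2

/-! ### The character of a place on its chart ring -/

theorem const_mem_chart (b : Bool) (a : ↥A) : algebraMap Qb (FL N) (a : Qb) ∈ chart A N b := by
  rw [mem_chart_iff]
  have h := (Algebra.adjoin ↥A ({coord N b} : Set (FL N))).algebraMap_mem a
  exact isIntegral_algebraMap (R := ↥(Algebra.adjoin ↥A ({coord N b} : Set (FL N))))
    (x := ⟨_, h⟩)

/-- the constants of `A`, in the chart ring. -/
def constHom (b : Bool) : ↥A →+* ↥(chart A N b) :=
  ((algebraMap Qb (FL N)).comp A.subtype).codRestrict (chart A N b)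
    (fun a => const_mem_chart A N b a)

/-- the chart ring as an `A`-algebra. -/
abbrev algebraChart (b : Bool) : Algebra ↥A ↥(chart A N b) := (constHom A N b).toAlgebra

attribute [local instance] algebraChart

theorem coe_algebraMap_chart (b : Bool) (a : ↥A) :
    ((algebraMap ↥A ↥(chart A N b) a : ↥(chart A N b)) : FL N) = algebraMap Qb (FL N) (a : Qb) :=
  rfl

/-- **The character of a place `Q` on a chart ring containing it**: `x ↦ x(Q) mod 𝔪_A`. -/
def charOf (b : Bool) (Q : Place Qb (FL N)) (hQ : flag A N Q = b) :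
    ↥(chart A N b) →ₐ[↥A] IsLocalRing.ResidueField ↥A :=
  { (valHom A N Q).comp (Subring.inclusion (chart_le_Rint A N b Q hQ)) with
    commutes' := fun a => by
      show valHom A N Q ⟨algebraMap Qb (FL N) (a : Qb), _⟩ = _
      rw [← val_eq_valHom A N Q ⟨algebraMap Qb (FL N) (a : Qb), _⟩]
      exact val_algebraMap A N Q a }

theorem charOf_apply (b : Bool) (Q : Place Qb (FL N)) (hQ : flag A N Q = b)
    (x : ↥(chart A N b)) : charOf A N b Q hQ x = val A N Q (x : FL N) :=
  (val_eq_valHom A N Q ⟨(x : FL N), chart_le_Rint A N b Q hQ x.2⟩).symm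

open Classical in
/-- extension by zero of a character of the chart ring, as a point of `Y`. -/
def ext0 (b : Bool) (χ : ↥(chart A N b) →ₐ[↥A] IsLocalRing.ResidueField ↥A) : Y A N :=
  (b, fun x => if h : x ∈ chart A N b then χ ⟨x, h⟩ else 0)

theorem ext0_fst (b : Bool) (χ : ↥(chart A N b) →ₐ[↥A] IsLocalRing.ResidueField ↥A) :
    (ext0 A N b χ).1 = b := rfl

theorem ext0_snd_of_mem (b : Bool) (χ : ↥(chart A N b) →ₐ[↥A] IsLocalRing.ResidueField ↥A)
    (x : FL N) (h : x ∈ chart A N b) : (ext0 A N b χ).2 x = χ ⟨x, h⟩ := by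
  unfold ext0
  exact dif_pos h

theorem ext0_snd_of_not_mem (b : Bool) (χ : ↥(chart A N b) →ₐ[↥A] IsLocalRing.ResidueField ↥A)
    (x : FL N) (h : x ∉ chart A N b) : (ext0 A N b χ).2 x = 0 := by
  unfold ext0
  exact dif_neg h

theorem r_eq_ext0 (b : Bool) (Q : Place Qb (FL N)) (hQ : flag A N Q = b) :
    r A N Q = ext0 A N b (charOf A N b Q hQ) := by
  subst hQ
  refine Prod.ext rfl (funext fun x => ?_)
  show chi A N Q x = (ext0 A N (flag A N Q) (charOf A N (flag A N Q) Q rfl)).2 x
  by_cases hx : x ∈ chart A N (flag A N Q)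
  · rw [chi_of_mem A N Q x hx, ext0_snd_of_mem A N _ _ x hx, charOf_apply]
  · rw [chi_of_not_mem A N Q x hx, ext0_snd_of_not_mem A N _ _ x hx]

/-! ### The main bookkeeping step -/

section Main

variable {ℓ : ℕ} [NeZero ℓ]

/-- **(W4), final step, polynomial form.** -/
theorem mapDomain_r_heckeDivBar
    (hα : HeckeAlphaBarIntegral Qb N ℓ) (hβ : HeckeBetaBarIntegral Qb N ℓ)
    [HasPrincipalDivisors Qb (FL (N * ℓ))] (P P₁ P₂ : Place Qb (FL N))
    (hflag : ∀ W ∈ Place.fiberAlong (heckeBetaBar Qb N ℓ) hβ P,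
      flag A N (W.restrictAlong (heckeAlphaBar Qb N ℓ) hα) = flag A N P)
    (h₁ : flag A N P₁ = flag A N P) (h₂ : flag A N P₂ = flag A N P)
    (hval : ∀ x ∈ chart A N (flag A N P),
      ∏ W ∈ Place.fiberAlong (heckeBetaBar Qb N ℓ) hβ P,
        (X - C (val A N (W.restrictAlong (heckeAlphaBar Qb N ℓ) hα) x) :
          (IsLocalRing.ResidueField ↥A)[X]) ^ W.ramificationIndexAlong (heckeBetaBar Qb N ℓ)
      = (X - C (val A N P₁ x)) * (X - C (val A N P₂ x)) ^ ℓ) :
    Finsupp.mapDomain (r A N) (heckeDivBar hα hβ (Finsupp.single P 1))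
      = Finsupp.single (r A N P₁) 1 + Finsupp.single (r A N P₂) (ℓ : ℤ) := by
  classical
  set b : Bool := flag A N P with hb
  set S := Place.fiberAlong (heckeBetaBar Qb N ℓ) hβ P with hS
  -- the characters
  let χW : {W // W ∈ S} → (↥(chart A N b) →ₐ[↥A] IsLocalRing.ResidueField ↥A) := fun W =>
    charOf A N b (W.1.restrictAlong (heckeAlphaBar Qb N ℓ) hα) (hflag W.1 W.2)
  let eW : {W // W ∈ S} → ℕ := fun W => W.1.ramificationIndexAlong (heckeBetaBar Qb N ℓ)
  let χ₁ := charOf A N b P₁ h₁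
  let χ₂ := charOf A N b P₂ h₂
  have hsurj : Function.Surjective (algebraMap ↥A (IsLocalRing.ResidueField ↥A)) :=
    IsLocalRing.residue_surjective
  have hm : (∑ W ∈ S.attach, Finsupp.single (χW W) (eW W)) =
      Finsupp.single χ₁ 1 + Finsupp.single χ₂ ℓ := by
    refine CharSep.finsupp_eq_of_forall_prod_eq hsurj _ _ fun f => ?_
    rw [prod_pow_sum_single S.attach χW eW
        (fun χ => (X - C (χ f) : (IsLocalRing.ResidueField ↥A)[X])),
      prod_pow_add_single χ₁ χ₂ 1 ℓ
        (fun χ => (X - C (χ f) : (IsLocalRing.ResidueField ↥A)[X])), pow_one]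
    have h3 := hval (f : FL N) f.2
    rw [← Finset.prod_attach] at h3
    simp only [χW, eW, χ₁, χ₂, charOf_apply]
    exact h3
  -- transport to `Y`
  have hΦ := congrArg (pushZ (ext0 A N b)) hm
  rw [pushZ_sum_single, pushZ_add_single, Nat.cast_one] at hΦ
  rw [HeckeInputs.heckeDivBar_single, Finsupp.mapDomain_finsetSum, r_eq_ext0 A N b P₁ h₁,
    r_eq_ext0 A N b P₂ h₂, ← hΦ, ← Finset.sum_attach]
  refine Finset.sum_congr rfl fun W _ => ?_
  rw [Finsupp.mapDomain_single, one_mul,
    r_eq_ext0 A N b (W.1.restrictAlong (heckeAlphaBar Qb N ℓ) hα) (hflag W.1 W.2)]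

/-- **(W4), final step, evaluated form**: it suffices to know the value of the "norm"
`∏_{W ∣ P} x(αW)^{e(W)}` for every chart function `x`. -/
theorem mapDomain_r_heckeDivBar'
    (hα : HeckeAlphaBarIntegral Qb N ℓ) (hβ : HeckeBetaBarIntegral Qb N ℓ)
    [HasPrincipalDivisors Qb (FL (N * ℓ))] (P P₁ P₂ : Place Qb (FL N))
    (hflag : ∀ W ∈ Place.fiberAlong (heckeBetaBar Qb N ℓ) hβ P,
      flag A N (W.restrictAlong (heckeAlphaBar Qb N ℓ) hα) = flag A N P)
    (h₁ : flag A N P₁ = flag A N P) (h₂ : flag A N P₂ = flag A N P)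
    (hval : ∀ x ∈ chart A N (flag A N P),
      ∏ W ∈ Place.fiberAlong (heckeBetaBar Qb N ℓ) hβ P,
        val A N (W.restrictAlong (heckeAlphaBar Qb N ℓ) hα) x ^
          W.ramificationIndexAlong (heckeBetaBar Qb N ℓ)
      = val A N P₁ x * val A N P₂ x ^ ℓ) :
    Finsupp.mapDomain (r A N) (heckeDivBar hα hβ (Finsupp.single P 1))
      = Finsupp.single (r A N P₁) 1 + Finsupp.single (r A N P₂) (ℓ : ℤ) := by
  have : Infinite (IsLocalRing.ResidueField ↥A) :=
    Fermat.Agent.S18.ResField.infinite_of_isAlgClosed A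
  refine mapDomain_r_heckeDivBar A N hα hβ P P₁ P₂ hflag h₁ h₂ fun x hx => ?_
  apply Polynomial.funext
  intro c
  obtain ⟨a, rfl⟩ := IsLocalRing.residue_surjective c
  have hmem : algebraMap Qb (FL N) (a : Qb) - x ∈ chart A N (flag A N P) :=
    sub_mem (const_mem_chart A N _ a) hx
  have key : ∀ Q : Place Qb (FL N), flag A N Q = flag A N P →
      val A N Q (algebraMap Qb (FL N) (a : Qb) - x) = IsLocalRing.residue ↥A a - val A N Q x := by
    intro Q hQ
    rw [val_sub A N Q (algebraMap_mem_Rint A N Q a) (chart_le_Rint A N _ Q hQ hx),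
      val_algebraMap]
  have h := hval _ hmem
  rw [key P₁ h₁, key P₂ h₂] at h
  rw [eval_prod, eval_mul, eval_pow, eval_sub, eval_sub, eval_X, eval_C, eval_C, ← h]
  refine Finset.prod_congr rfl fun W hW => ?_
  rw [eval_pow, eval_sub, eval_X, eval_C, key _ (hflag W hW)]

end Main

end Fermat.Agent.S37.HeckeSep
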