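import Mathlib
import Fermat.Agent.S37.HeckeCore
import Fermat.Agent.S37.HeckeSep
import Fermat.Agent.S37.GalVal
import Fermat.Agent.S37.ThetaHecke
import Fermat.Agent.S37.HeckeDeg
import Fermat.Agent.S37.Skeleton2

/-!
# S37 (W4): the block theorem modulo its last leaves  (OWNER: helper8)

`r_hecke_of : Skeleton2.PHecke N ℓ A (RedPlace.r A N)`, i.e. for every Frobenius element `σ`
at `A` and every place `P` of `F_L = FL N`

  `r_*(T_ℓ P) = [r (σ P)] + ℓ [r (σ⁻¹ P)]`     in `Y →₀ ℤ`,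

from `HeckeSep.mapDomain_r_heckeDivBar'` (separation of characters), `HeckeCore.val_heckeNorm`
(Kronecker congruence, value form), `GalVal` (value transport under Frobenius),
`ThetaHecke.norm_alpha_sub_const'` + `HeckeDeg.finrank_beta` (the `q`-expansion of the Hecke
norm), and FIVE inputs taken as hypotheses:

* `hInt`  : chart elements have `A`-integral `q`-expansions                  (ChartRed);
* `hGS`   : a chart element whose `A`-series reduces to `0` has value `0`     (ChartInertia);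
* `hStab` : `flag (α_* W) = flag P` for `W` over `P` along `β`               (HeckeChart);
* `hNI`   : `s * N_β(α x)` lies in the chart ring for a chart element `s` with nonzero value
            at `P`                                                            (HeckeChart/CuspEq);
* `hH1`   : `N_β(α x) ∈ Rint P` and `∏_{W ∣ P} val (α_* W) x ^ e(W) = val P (N_β(α x))`
                                                                              (HeckeNorm).
-/

set_option autoImplicit false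

noncomputable section

open AlgebraicCurve ModularCurve
open Fermat.Agent.S18.S24Export Fermat.Agent.S37.EvalGal Fermat.Agent.S37.RedPlace
open Fermat.Agent.S28.HahnSubst

namespace Fermat.Agent.S37.RedHeckeOf

local notation "Qb" => AlgebraicClosure ℚ

variable (N : ℕ) [NeZero N] {ℓ : ℕ} [NeZero ℓ]

/-- the `q`-expansion of the Hecke norm (`ThetaHecke.norm_alpha_sub_const'` at `a = 0`). -/
theorem qExpand_heckeNorm (hℓ : ℓ.Prime) (hℓN : ¬ ℓ ∣ N) (ζ : Qbˣ) (hζ : IsPrimitiveRoot ζ ℓ)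
    (x : FL N) :
    qExpand Qb ℓ ((HeckeCore.heckeNorm N ℓ x : FL N) : LaurentSeries Qb)
      = qExpand Qb (ℓ ^ 2) (x : LaurentSeries Qb)
        * ∏ i ∈ Finset.range ℓ, twist (ζ ^ i) (x : LaurentSeries Qb) := by
  have : Fact ℓ.Prime := ⟨hℓ⟩
  have hdeg : finrankAlong Qb (heckeBetaBar Qb N ℓ) = ℓ + 1 := HeckeDeg.finrank_beta N ℓ hℓN
  have h := ThetaHecke.norm_alpha_sub_const' N ℓ hℓN ζ hζ hdeg x 0
  simp only [map_zero, sub_zero] at h
  exact h

/-- **(W4) modulo the leaves not yet on main.** -/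
theorem r_hecke_of (hℓ : ℓ.Prime) (hℓN : ¬ ℓ ∣ N) (A : ValuationSubring Qb)
    (hA : A.LiesOverPrime ℓ)
    (hInt : ∀ (b : Bool) (x : FL N), x ∈ chart A N b → ∃ y : LaurentSeries ↥A,
      coeffMap A.subtype y = ((x : FL N) : LaurentSeries Qb))
    (hGS : ∀ (b : Bool) (P : Place Qb (FL N)), flag A N P = b → ∀ x ∈ chart A N b,
      ∀ y : LaurentSeries ↥A, coeffMap A.subtype y = ((x : FL N) : LaurentSeries Qb) →
      coeffMap (IsLocalRing.residue ↥A) y = 0 → val A N P x = 0)
    (hStab : ∀ (hα : HeckeAlphaBarIntegral Qb N ℓ) (hβ : HeckeBetaBarIntegral Qb N ℓ)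
      [HasPrincipalDivisors Qb (FL (N * ℓ))] (P : Place Qb (FL N)),
      ∀ W ∈ Place.fiberAlong (heckeBetaBar Qb N ℓ) hβ P,
        flag A N (W.restrictAlong (heckeAlphaBar Qb N ℓ) hα) = flag A N P)
    (hNI : ∀ (P : Place Qb (FL N)) (x : FL N), x ∈ chart A N (flag A N P) →
      ∃ s ∈ chart A N (flag A N P), val A N P s ≠ 0 ∧
        s * HeckeCore.heckeNorm N ℓ x ∈ chart A N (flag A N P))
    (hH1 : ∀ (hα : HeckeAlphaBarIntegral Qb N ℓ) (hβ : HeckeBetaBarIntegral Qb N ℓ)
      [HasPrincipalDivisors Qb (FL (N * ℓ))] (P : Place Qb (FL N)),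
      (∀ W ∈ Place.fiberAlong (heckeBetaBar Qb N ℓ) hβ P,
        flag A N (W.restrictAlong (heckeAlphaBar Qb N ℓ) hα) = flag A N P) →
      ∀ x : FL N, x ∈ chart A N (flag A N P) →
        HeckeCore.heckeNorm N ℓ x ∈ Rint A N P ∧
        ∏ W ∈ Place.fiberAlong (heckeBetaBar Qb N ℓ) hβ P,
          val A N (W.restrictAlong (heckeAlphaBar Qb N ℓ) hα) x ^
            W.ramificationIndexAlong (heckeBetaBar Qb N ℓ)
          = val A N P (HeckeCore.heckeNorm N ℓ x)) :
    Skeleton2.PHecke N ℓ A (RedPlace.r A N) := by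
  intro σ hσ hα hβ _ P
  have hdec : σ ∈ A.decompositionSubgroup ℚ := hσ.mem_decompositionSubgroup
  have : Fact ℓ.Prime := ⟨hℓ⟩
  refine HeckeSep.mapDomain_r_heckeDivBar' A N hα hβ P (gal N σ • P) ((gal N σ)⁻¹ • P)
    (hStab hα hβ P) (GalVal.flag_smul A N hdec P) (GalVal.flag_inv_smul A N hdec P)
    (fun x hx => ?_)
  obtain ⟨hNR, hprod⟩ := hH1 hα hβ P (hStab hα hβ P) x hx
  obtain ⟨ζ, hζ⟩ := ThetaHecke.exists_primitiveRoot_unit ℓ
  have hcore := HeckeCore.val_heckeNorm A N hℓ hA hσ P (flag A N P)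
    (fun x hx => HeckeSep.chart_le_Rint A N _ P rfl hx)
    (fun x hx => ⟨GalVal.smul_mem_chart A N hdec _ hx,
      (GalVal.inv_smul_mem_chart_iff A N hdec _ x).mpr hx⟩)
    (hInt _) (hGS _ P rfl) x hx (hNI P x hx) hNR ζ hζ.pow_eq_one
    (qExpand_heckeNorm N hℓ hℓN ζ hζ x)
  rw [hprod, hcore, GalVal.val_frob' A N hσ P x, GalVal.val_frob_inv A N hσ P x]

end Fermat.Agent.S37.RedHeckeOf
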