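import Mathlib
import Fermat.Agent.S37.RedHeckeOf
import Fermat.Agent.S37.ChartRed
import Fermat.Agent.S37.HeckeChart

/-!
# S37 (W4): the block theorem modulo the cusp chart and (H1)  (OWNER: helper8)

`r_hecke_of2 : Skeleton2.PHecke N ℓ A (RedPlace.r A N)` from `RedHeckeOf.r_hecke_of` with

* `hInt`  := `exists_series`            (`ChartRed.exists_isInt`),
* `hGS`   := `val_eq_zero_of_residue`   (`ChartRed.red_eq` + `red_eq_zero_iff`),
* `hStab` := `HeckeChart.flag_restrictAlong_alpha_of_mem_fiber`,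
* `hNI`   := `exists_unit_fin` on the finite chart (`HeckeChart.norm_alpha_mem_chart_true`),

and TWO remaining hypotheses: `hCusp` (the cusp chart: `s * N_β(α x)` lies in the chart ring for a
chart element `s` with nonzero value at `P`) and `hH1` (the value of the Hecke norm at `P` is the
product over the fibre).
-/

set_option autoImplicit false
set_option linter.unusedSectionVars false

noncomputable section

open AlgebraicCurve ModularCurve
open Fermat.Agent.S18.S24Export Fermat.Agent.S37.EvalGal Fermat.Agent.S37.RedPlace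
open Fermat.Agent.S28.HahnSubst

namespace Fermat.Agent.S37.RedHeckeMid

local notation "Qb" => AlgebraicClosure ℚ

variable (N : ℕ) [NeZero N] {ℓ : ℕ} [NeZero ℓ]

/-- chart elements have `A`-integral `q`-expansions (`ChartRed.exists_isInt`). -/
theorem exists_series (hℓ : ℓ.Prime) (hℓN : ¬ ℓ ∣ N) (A : ValuationSubring Qb)
    (hA : A.LiesOverPrime ℓ) (b : Bool) (x : FL N) (hx : x ∈ chart A N b) :
    ∃ y : LaurentSeries ↥A, coeffMap A.subtype y = ((x : FL N) : LaurentSeries Qb) := by
  obtain ⟨y, -, hy⟩ := ChartRed.exists_isInt A N hℓ hℓN hA b x hx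
  exact ⟨y, hy⟩

/-- a chart element whose `A`-series reduces to `0` has value `0` at every place of the chart
(`ChartRed.red_eq_zero_iff`). -/
theorem val_eq_zero_of_residue (hℓ : ℓ.Prime) (hℓN : ¬ ℓ ∣ N) (A : ValuationSubring Qb)
    (hA : A.LiesOverPrime ℓ) (b : Bool) (P : Place Qb (FL N)) (hP : flag A N P = b)
    (x : FL N) (hx : x ∈ chart A N b) (y : LaurentSeries ↥A)
    (hy : coeffMap A.subtype y = ((x : FL N) : LaurentSeries Qb))
    (hres : coeffMap (IsLocalRing.residue ↥A) y = 0) : val A N P x = 0 := by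
  have hred : ChartRed.red A N hℓ hℓN hA b ⟨x, hx⟩ = 0 := by
    apply Subtype.ext
    rw [ChartRed.red_eq A N hℓ hℓN hA b ⟨x, hx⟩ y hy, hres]
    rfl
  obtain ⟨c, hc, y', hxy⟩ := (ChartRed.red_eq_zero_iff A N hℓ hℓN hA b ⟨x, hx⟩).mp hred
  have hx' : x = algebraMap Qb (FL N) (c : Qb) * (y' : FL N) := by
    have h := congrArg Subtype.val hxy
    simpa [ChartRed.coe_const] using h
  have hy'R : (y' : FL N) ∈ Rint A N P := HeckeSep.chart_le_Rint A N b P hP y'.2
  rw [hx', val_mul A N P (algebraMap_mem_Rint A N P c) hy'R, val_algebraMap,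
    (IsLocalRing.residue_eq_zero_iff c).mpr hc, zero_mul]

/-- integrality of the Hecke norm on the finite chart (`HeckeChart.norm_alpha_mem_chart_true`),
in the shape of `HeckeCore.val_heckeNorm`. -/
theorem exists_unit_fin (hℓ : ℓ.Prime) (A : ValuationSubring Qb) (P : Place Qb (FL N))
    (x : FL N) (hx : x ∈ chart A N true) :
    ∃ s ∈ chart A N true, val A N P s ≠ 0 ∧
      s * HeckeCore.heckeNorm N ℓ x ∈ chart A N true := by
  have : Fact ℓ.Prime := ⟨hℓ⟩
  refine ⟨1, one_mem _, ?_, ?_⟩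
  · rw [val_one]
    exact one_ne_zero
  · rw [one_mul]
    exact HeckeChart.norm_alpha_mem_chart_true N ℓ A hx

/-- **(W4) modulo the cusp chart and (H1).** -/
theorem r_hecke_of2 (hℓ : ℓ.Prime) (hℓN : ¬ ℓ ∣ N) (A : ValuationSubring Qb)
    (hA : A.LiesOverPrime ℓ)
    (hCusp : ∀ (P : Place Qb (FL N)), flag A N P = false → ∀ x : FL N, x ∈ chart A N false →
      ∃ s ∈ chart A N false, val A N P s ≠ 0 ∧
        s * HeckeCore.heckeNorm N ℓ x ∈ chart A N false)
    (hH1 : ∀ (hα : HeckeAlphaBarIntegral Qb N ℓ) (hβ : HeckeBetaBarIntegral Qb N ℓ)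
      [HasPrincipalDivisors Qb (FL (N * ℓ))] (P : Place Qb (FL N)),
      (∀ W ∈ Place.fiberAlong (heckeBetaBar Qb N ℓ) hβ P,
        flag A N (W.restrictAlong (heckeAlphaBar Qb N ℓ) hα) = flag A N P) →
      ∀ x : FL N, x ∈ chart A N (flag A N P) →
        HeckeCore.heckeNorm N ℓ x ∈ Rint A N P ∧
        ∏ W ∈ Place.fiberAlong (heckeBetaBar Qb N ℓ) hβ P,
          val A N (W.restrictAlong (heckeAlphaBar Qb N ℓ) hα) x ^
            W.ramificationIndexAlong (heckeBetaBar Qb N ℓ)
          = val A N P (HeckeCore.heckeNorm N ℓ x)) :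
    Skeleton2.PHecke N ℓ A (RedPlace.r A N) := by
  have hF : Fact ℓ.Prime := ⟨hℓ⟩
  refine RedHeckeOf.r_hecke_of N hℓ hℓN A hA (exists_series N hℓ hℓN A hA)
    (fun b P hP x hx y hy hres => val_eq_zero_of_residue N hℓ hℓN A hA b P hP x hx y hy hres)
    (fun hα hβ _ P => HeckeChart.flag_restrictAlong_alpha_of_mem_fiber N ℓ A hα hβ P)
    (fun P x hx => ?_) hH1
  rcases hb : flag A N P with _ | _
  · rw [hb] at hx
    exact hCusp P hb x hx
  · rw [hb] at hx
    exact exists_unit_fin N hℓ A P x hx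

end Fermat.Agent.S37.RedHeckeMid
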