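import Mathlib
import Fermat.Agent.S37.RedHeckeMid
import Fermat.Agent.S37.HeckeCusp
import Fermat.Agent.S37.NormValue
import Fermat.Agent.S37.HeckeInputs

/-!
# S37 (W4): the Eichler–Shimura congruence on places  (OWNER: helper8)

`A` a valuation subring of `ℚ̄` over the prime `ℓ ∤ N`, `r = RedPlace.r A N` the place reduction
of `X₀(N)`.  For every Frobenius element `σ` at `A` and every place `P` of `F_L = FL N`:

  `r_hecke :  r_*(T_ℓ P) = [r (σ P)] + ℓ [r (σ⁻¹ P)]`   in `Y →₀ ℤ`,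

i.e. `Skeleton2.PHecke N ℓ A (RedPlace.r A N)` (block (W4) of the S37 skeleton).

Chain: `HeckeSep.mapDomain_r_heckeDivBar'` (separation of characters of the chart ring) reduces
the statement to the identity of values, for every chart function `x`,

  `∏_{W ∣ P via β} x(α_* W)^{e(W)} = x(σ P) · x(σ⁻¹ P)^ℓ   (mod 𝔪_A)`;

the left side is the value at `P` of the Hecke norm `N_β(α x)` (`prod_val_eq_val_heckeNorm`,
from `NormValue.ev_norm_along`), and `HeckeCore.val_heckeNorm` (Kronecker congruence for the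
`q`-expansion `N_β(α x)(q^ℓ) = x(q^{ℓ²}) ∏ x(ζ^i q)`, `ThetaHecke`) computes it as
`x(σ⁻¹ ·)(P)^ℓ · x(σ ·)(P)`, which is the right side by `GalVal`.  Inputs: `ChartRed`
(integral `q`-expansions of chart functions, kernel of the reduction), `HeckeChart` / `HeckeCusp`
(chart stability, integrality of the Hecke norm on both charts), `HeckeDeg` (`[F(Nℓ) : βF(N)] =
ℓ + 1`).
-/

set_option autoImplicit false

noncomputable section

open AlgebraicCurve ModularCurve
open Fermat.Agent.S18.S24Export Fermat.Agent.S37.EvalGal Fermat.Agent.S37.RedPlace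

namespace Fermat.Agent.S37.RedHecke

local notation "Qb" => AlgebraicClosure ℚ

section H1

variable (A : ValuationSubring Qb) (N : ℕ) [NeZero N] {ℓ : ℕ} [NeZero ℓ]

/-- **(H1)** the value at `P` of the Hecke norm `N_β(α x)` of a chart function is the product
of its values at the places `α_* W`, `W` over `P` along `β`, with multiplicities `e_β(W)`. -/
theorem prod_val_eq_val_heckeNorm (hα : HeckeAlphaBarIntegral Qb N ℓ)
    (hβ : HeckeBetaBarIntegral Qb N ℓ) [HasPrincipalDivisors Qb (FL (N * ℓ))]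
    (P : Place Qb (FL N))
    (hflag : ∀ W ∈ Place.fiberAlong (heckeBetaBar Qb N ℓ) hβ P,
      flag A N (W.restrictAlong (heckeAlphaBar Qb N ℓ) hα) = flag A N P)
    (x : FL N) (hx : x ∈ chart A N (flag A N P)) :
    HeckeCore.heckeNorm N ℓ x ∈ Rint A N P ∧
    ∏ W ∈ Place.fiberAlong (heckeBetaBar Qb N ℓ) hβ P,
      val A N (W.restrictAlong (heckeAlphaBar Qb N ℓ) hα) x ^
        W.ramificationIndexAlong (heckeBetaBar Qb N ℓ)
      = val A N P (HeckeCore.heckeNorm N ℓ x) := by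
  classical
  have : NeZero (N * ℓ) := ⟨Nat.mul_ne_zero (NeZero.ne N) (NeZero.ne ℓ)⟩
  -- the values at the places of the fibre
  have hval : ∀ W : Place Qb (FL (N * ℓ)), ∃ a : ↥A,
      W ∈ Place.fiberAlong (heckeBetaBar Qb N ℓ) hβ P →
      x - algebraMap Qb (FL N) (a : Qb) ∈
        (W.restrictAlong (heckeAlphaBar Qb N ℓ) hα).toValuationSubring.nonunits := by
    intro W
    by_cases hW : W ∈ Place.fiberAlong (heckeBetaBar Qb N ℓ) hβ P
    · have hxR : x ∈ Rint A N (W.restrictAlong (heckeAlphaBar Qb N ℓ) hα) :=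
        HeckeSep.chart_le_Rint A N _ _ (hflag W hW) hx
      obtain ⟨a, ha⟩ := (ChartAdapt.mem_Rint_iff_exists A N _ x).mp hxR
      exact ⟨a, fun _ => ha⟩
    · exact ⟨0, fun h => absurd h hW⟩
  choose a ha using hval
  have ha' : ∀ W ∈ Place.fiberAlong (heckeBetaBar Qb N ℓ) hβ P,
      heckeAlphaBar Qb N ℓ x - algebraMap Qb (FL (N * ℓ)) ((a W : ↥A) : Qb) ∈
        W.toValuationSubring.nonunits := fun W hW =>
    (HeckeChart.sub_mem_nonunits_restrictAlong (heckeAlphaBar Qb N ℓ) hα W x _).mp (ha W hW)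
  have hg : ∀ W ∈ Place.fiberAlong (heckeBetaBar Qb N ℓ) hβ P,
      heckeAlphaBar Qb N ℓ x ∈ W.toValuationSubring := fun W hW =>
    EvalInt.mem_of_sub_mem_nonunits W (ha' W hW)
  have hdeg : ∀ W ∈ Place.fiberAlong (heckeBetaBar Qb N ℓ) hβ P, W.deg = 1 :=
    fun W _ => deg_eq_one (N * ℓ) W
  obtain ⟨hN, hev⟩ := NormValue.ev_norm_along (heckeBetaBar Qb N ℓ) hβ
    (HeckeInputs.finiteAlong (heckeBetaBar Qb N ℓ)) P (deg_eq_one N P) hdeg
    (heckeAlphaBar Qb N ℓ x) hg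
  have hevW : ∀ W : {W // W ∈ Place.fiberAlong (heckeBetaBar Qb N ℓ) hβ P},
      EvalGal.ev W.1 (hdeg W.1 W.2) ⟨heckeAlphaBar Qb N ℓ x, hg W.1 W.2⟩ = ((a W.1 : ↥A) : Qb) :=
    fun W => EvalInt.ev_eq_of_sub_mem_nonunits W.1 (hdeg W.1 W.2) (ha' W.1 W.2)
  set atot : ↥A := ∏ W ∈ Place.fiberAlong (heckeBetaBar Qb N ℓ) hβ P,
    a W ^ W.ramificationIndexAlong (heckeBetaBar Qb N ℓ) with hatot
  have hev' : EvalGal.ev P (deg_eq_one N P) ⟨HeckeCore.heckeNorm N ℓ x, hN⟩ = (atot : Qb) := by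
    rw [show EvalGal.ev P (deg_eq_one N P) ⟨HeckeCore.heckeNorm N ℓ x, hN⟩ = _ from hev]
    rw [Finset.prod_congr rfl (fun W _ => by rw [hevW W])]
    rw [Finset.prod_attach (Place.fiberAlong (heckeBetaBar Qb N ℓ) hβ P)
      (fun W => ((a W : ↥A) : Qb) ^ W.ramificationIndexAlong (heckeBetaBar Qb N ℓ))]
    rw [hatot]
    push_cast
    rfl
  have hnon : HeckeCore.heckeNorm N ℓ x - algebraMap Qb (FL N) (atot : Qb) ∈
      P.toValuationSubring.nonunits :=
    (EvalInt.sub_mem_nonunits_iff_ev P (deg_eq_one N P) _ hN _).mpr hev'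
  refine ⟨ChartAdapt.mem_Rint_of_sub_mem_nonunits A N P atot hnon, ?_⟩
  rw [ChartAdapt.val_eq_of_sub_mem_nonunits A N P atot hnon, hatot, map_prod]
  refine Finset.prod_congr rfl fun W hW => ?_
  rw [map_pow, ChartAdapt.val_eq_of_sub_mem_nonunits A N _ (a W) (ha W hW)]

end H1

/-- **(W4) The Eichler–Shimura congruence on places.**  For every Frobenius element `σ` at `A`
and every place `P` of `F_L = FL N`:
`r_*(T_ℓ P) = [r (σ P)] + ℓ [r (σ⁻¹ P)]` in `Y →₀ ℤ`. -/
theorem r_hecke (N : ℕ) [NeZero N] {ℓ : ℕ} [NeZero ℓ] (hℓ : ℓ.Prime) (hℓN : ¬ ℓ ∣ N)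
    (A : ValuationSubring Qb) (hA : A.LiesOverPrime ℓ) :
    Skeleton2.PHecke N ℓ A (RedPlace.r A N) := by
  have : Fact ℓ.Prime := ⟨hℓ⟩
  exact RedHeckeMid.r_hecke_of2 N hℓ hℓN A hA
    (fun P hP x hx => HeckeCusp.exists_mul_heckeNorm_mem_cusp A N hℓN hA P hP x hx)
    (fun hα hβ _ P hflag x hx => prod_val_eq_val_heckeNorm A N hα hβ P hflag x hx)

end Fermat.Agent.S37.RedHecke
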