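import Mathlib
import Fermat.Prelude.Def_FLTPrelim_Ramification
import Fermat.Agent.S18.CoverData
import Fermat.Agent.S37.ChartCmp
import Fermat.Agent.S37.FibreConst
import Fermat.Agent.S37.CoverSum
import Fermat.Agent.S37.CoverDefs
import Fermat.Agent.S37.FFTower

/-!
# S37, cover chain, leaf (c2): the consumer forms of the chart comparison

`ChartCmp` proves: on a cover `j h² = (h + 256)³` resp. `j h = (h + 27)(h + 3)³` the reduction
class of a place with respect to `j` determines its reduction class with respect to `h`. This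
file restates it in the shapes the cover chain consumes:

* `uniform_cover3`, `uniform_cover2` : for `t = h` and for `t = h⁻¹` (both charts, uniformly):
  `(InA A w t ↔ InA A w' t) ∧ (InA A w t → SameChar A t w w')` for two places `w`, `w'` in the
  same `j`-class (`CoverSum.JCls`).
* `hp_cover3`, `hp_cover2` : the hypothesis `hp` of `CoverSum.ord_class_sum_eq_zero(_redPlace)`
  for `p w := InA A w t ∧ SameChar A t w w₀` (`t = h` or `h⁻¹`): such a `p` is a union of
  `j`-classes. `hp_tO3`, `hp_tO2` : the same on the sealed cover `AdjoinRoot m`,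
  `t = CoverDefs.tO N m b`.
* the three copies of the vocabulary (`ChartCmp`, `CoverDefs`, `CoverSum`/`FibreConst`) agree
  by `Iff.rfl`.
* `isUnit_256`, `isUnit_27` : the unit hypotheses from `A.LiesOverPrime ℓ`, `ℓ ≠ 2` resp. `ℓ ≠ 3`.
-/

set_option autoImplicit false

open AlgebraicCurve IsLocalRing Polynomial

namespace Fermat.Agent.S37.ChartCmpUse

open Fermat.Agent.S37.EvalGal Fermat.Agent.S37.EvalInt Fermat.Agent.S37.ChartCmp

variable {K F : Type*} [Field K] [Field F] [Algebra K F]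

/-! ### The vocabularies agree -/

section Vocab

variable (A : ValuationSubring K) (t : F) (P P' : Place K F)

theorem inA_iff_coverSum : CoverSum.InA A P t ↔ InA A P t := Iff.rfl

theorem inA_iff_coverDefs : CoverDefs.InA A P t ↔ InA A P t := Iff.rfl

theorem sameChar_iff_fibreConst : FibreConst.SameChar A t P P' ↔ SameChar A t P P' := Iff.rfl

theorem sameChar_iff_coverDefs : CoverDefs.SameChar A t P P' ↔ SameChar A t P P' := Iff.rfl

theorem sameRed_iff_jCls : SameRed A t P P' ↔ CoverSum.JCls A t P P' := by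
  constructor
  · rintro ⟨e, k₁, k₂⟩
    by_cases h : InA A P t
    · exact Or.inl ⟨h, e.mp h, k₁ h⟩
    · exact Or.inr ⟨h, fun x => h (e.mpr x), k₂ h⟩
  · rintro (⟨h₁, h₂, h₃⟩ | ⟨h₁, h₂, h₃⟩)
    · exact ⟨⟨fun _ => h₂, fun _ => h₁⟩, fun _ => h₃, fun x => absurd h₁ x⟩
    · exact ⟨⟨fun x => absurd x h₁, fun x => absurd x h₂⟩, fun x => absurd x h₁, fun _ => h₃⟩

theorem sameRed_iff_coverDefs : SameRed A t P P' ↔ CoverDefs.SameRed A t P P' :=
  sameRed_iff_jCls A t P P'

theorem jCls_iff_coverDefs : CoverSum.JCls A t P P' ↔ CoverDefs.SameRed A t P P' := Iff.rfl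

end Vocab

/-! ### Inverting the coordinate on the overlap of the two charts -/

section Inv

variable {A : ValuationSubring K}

/-- if `t` lies in both valuation rings and the classes on the chart of `t` agree, then `t⁻¹`
lies in both rings or in neither, and in the first case the classes on the chart of `t⁻¹`
agree. -/
theorem SameKer.inv {t : F} {W₁ W₂ : ValuationSubring F} (h : SameKer A t W₁ W₂)
    (ht₁ : t ∈ W₁) (ht₂ : t ∈ W₂) :
    (t⁻¹ ∈ W₁ ↔ t⁻¹ ∈ W₂) ∧ (t⁻¹ ∈ W₁ → SameKer A t⁻¹ W₁ W₂) := by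
  rcases eq_or_ne t 0 with rfl | ht0
  · rw [inv_zero]
    exact ⟨⟨fun _ => ht₂, fun _ => ht₁⟩, fun _ => h⟩
  · have key : ∀ W : ValuationSubring F, t⁻¹ ∈ W ↔ t ∉ W.nonunits := by
      intro W
      rw [ValuationSubring.mem_nonunits_iff_or, not_or, not_not]
      exact ⟨fun x => ⟨ht0, x⟩, fun x => x.2⟩
    have e := h t (self_mem_chartInt A t)
    refine ⟨by rw [key W₁, key W₂, e], fun hinv => ?_⟩
    have n₁ : t ∉ W₁.nonunits := (key W₁).mp hinv
    have n₂ : t ∉ W₂.nonunits := fun x => n₁ (e.mpr x)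
    refine h.of_scale (e := t) (self_mem_chartInt A t) ?_ (valuation_eq_one_of_mem ht₁ n₁)
      (valuation_eq_one_of_mem ht₂ n₂)
    rw [mul_inv_cancel₀ ht0]
    exact (chartInt A t).one_mem

/-- place form: two places on the chart of `t` with the same character there lie both on the
chart of `t⁻¹` or both off it, and in the first case have the same character there. -/
theorem sameChar_inv {t : F} {P₁ P₂ : Place K F} (hP₁ : P₁.deg = 1) (hP₂ : P₂.deg = 1)
    (ht₁ : InA A P₁ t) (ht₂ : InA A P₂ t) (hs : SameChar A t P₁ P₂) :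
    (InA A P₁ t⁻¹ ↔ InA A P₂ t⁻¹) ∧ (InA A P₁ t⁻¹ → SameChar A t⁻¹ P₁ P₂) := by
  obtain ⟨e, k⟩ := SameKer.inv (sameKer_of_sameChar hP₁ hP₂ ht₁ ht₂ hs)
    ((mem_compVal_iff_inA A P₁ hP₁).mpr ht₁) ((mem_compVal_iff_inA A P₂ hP₂).mpr ht₂)
  rw [mem_compVal_iff_inA, mem_compVal_iff_inA] at e
  exact ⟨e, fun x => sameChar_of_sameKer hP₁ hP₂ (k ((mem_compVal_iff_inA A P₁ hP₁).mpr x))⟩

/-- **Uniform form of a reduction class**: two places with the same reduction with respect
to `h` satisfy, for `t = h` and for `t = h⁻¹`: `t(P₁) ∈ A ↔ t(P₂) ∈ A`, and then the characters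
of the chart of `t` agree. -/
theorem uniform_of_sameRed {h : F} {P₁ P₂ : Place K F} (hP₁ : P₁.deg = 1) (hP₂ : P₂.deg = 1)
    (hs : SameRed A h P₁ P₂) (t : F) (ht : t = h ∨ t = h⁻¹) :
    (InA A P₁ t ↔ InA A P₂ t) ∧ (InA A P₁ t → SameChar A t P₁ P₂) := by
  obtain ⟨e, k₁, k₂⟩ := hs
  rcases ht with rfl | rfl
  · exact ⟨e, k₁⟩
  · by_cases hh : InA A P₁ h
    · exact sameChar_inv hP₁ hP₂ hh (e.mp hh) (k₁ hh)
    · have hh₂ : ¬ InA A P₂ h := fun x => hh (e.mpr x)
      exact ⟨⟨fun _ => InA.inv_of_not hh₂ hP₂, fun _ => InA.inv_of_not hh hP₁⟩, fun _ => k₂ hh⟩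

end Inv

/-! ### The consumer forms on the two covers -/

section Covers

variable {A : ValuationSubring K} {j h : F}

/-- **(c2), uniform consumer form, cover `j h² = (h + 256)³`** (`256` a unit of `A`): two
places of degree one in the same `j`-class satisfy, for `t = h` and for `t = h⁻¹`:
`t(w) ∈ A ↔ t(w') ∈ A`, and then the characters of the chart of `t` at `w`, `w'` agree. -/
theorem uniform_cover3 (hrel : j * h ^ 2 = (h + 256) ^ 3) (h256 : IsUnit (256 : ↥A))
    {w w' : Place K F} (hw : w.deg = 1) (hw' : w'.deg = 1) (hcls : CoverSum.JCls A j w w')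
    (t : F) (ht : t = h ∨ t = h⁻¹) :
    (CoverSum.InA A w t ↔ CoverSum.InA A w' t) ∧
      (CoverSum.InA A w t → FibreConst.SameChar A t w w') :=
  uniform_of_sameRed hw hw'
    (sameRed_cover3 hrel h256 hw hw' ((sameRed_iff_jCls A j w w').mpr hcls)) t ht

/-- **(c2), uniform consumer form, cover `j h = (h + 27)(h + 3)³`** (`27` a unit of `A`). -/
theorem uniform_cover2 (hrel : j * h = (h + 27) * (h + 3) ^ 3) (h27 : IsUnit (27 : ↥A))
    {w w' : Place K F} (hw : w.deg = 1) (hw' : w'.deg = 1) (hcls : CoverSum.JCls A j w w')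
    (t : F) (ht : t = h ∨ t = h⁻¹) :
    (CoverSum.InA A w t ↔ CoverSum.InA A w' t) ∧
      (CoverSum.InA A w t → FibreConst.SameChar A t w w') :=
  uniform_of_sameRed hw hw'
    (sameRed_cover2 hrel h27 hw hw' ((sameRed_iff_jCls A j w w').mpr hcls)) t ht

/-- a class of the chart of `t` is a union of classes, for any relation satisfying the
uniform form. -/
theorem class_iff_of_uniform {t : F} {w w' : Place K F} (hw : w.deg = 1) (hw' : w'.deg = 1)
    (hu : (CoverSum.InA A w t ↔ CoverSum.InA A w' t) ∧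
      (CoverSum.InA A w t → FibreConst.SameChar A t w w')) (w₀ : Place K F) :
    (CoverSum.InA A w t ∧ FibreConst.SameChar A t w w₀) ↔
      (CoverSum.InA A w' t ∧ FibreConst.SameChar A t w' w₀) := by
  obtain ⟨e, k⟩ := hu
  constructor
  · rintro ⟨h1, h2⟩
    exact ⟨e.mp h1, CoverSum.sameChar_trans A t hw h1 (k h1).symm h2⟩
  · rintro ⟨h1, h2⟩
    exact ⟨e.mpr h1, CoverSum.sameChar_trans A t hw' h1 (k (e.mpr h1)) h2⟩

/-- **The hypothesis `hp` of `CoverSum.ord_class_sum_eq_zero` on the cover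
`j h² = (h + 256)³`**: for `t = h` or `t = h⁻¹` and any place `w₀`, the set of places `w` on the
chart of `t` with the same character as `w₀` is a union of `j`-classes. -/
theorem hp_cover3 (hrel : j * h ^ 2 = (h + 256) ^ 3) (h256 : IsUnit (256 : ↥A))
    (hdeg : ∀ w : Place K F, w.deg = 1) (t : F) (ht : t = h ∨ t = h⁻¹) (w₀ : Place K F) :
    ∀ w w' : Place K F, CoverSum.JCls A j w w' →
      ((CoverSum.InA A w t ∧ FibreConst.SameChar A t w w₀) ↔
        (CoverSum.InA A w' t ∧ FibreConst.SameChar A t w' w₀)) :=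
  fun w w' hcls => class_iff_of_uniform (hdeg w) (hdeg w')
    (uniform_cover3 hrel h256 (hdeg w) (hdeg w') hcls t ht) w₀

/-- **The hypothesis `hp` of `CoverSum.ord_class_sum_eq_zero` on the cover
`j h = (h + 27)(h + 3)³`**. -/
theorem hp_cover2 (hrel : j * h = (h + 27) * (h + 3) ^ 3) (h27 : IsUnit (27 : ↥A))
    (hdeg : ∀ w : Place K F, w.deg = 1) (t : F) (ht : t = h ∨ t = h⁻¹) (w₀ : Place K F) :
    ∀ w w' : Place K F, CoverSum.JCls A j w w' →
      ((CoverSum.InA A w t ∧ FibreConst.SameChar A t w w₀) ↔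
        (CoverSum.InA A w' t ∧ FibreConst.SameChar A t w' w₀)) :=
  fun w w' hcls => class_iff_of_uniform (hdeg w) (hdeg w')
    (uniform_cover2 hrel h27 (hdeg w) (hdeg w') hcls t ht) w₀

end Covers

/-! ### The unit hypotheses -/

section Units

variable {L : Type*} [Field L]

/-- a natural number prime to the residue characteristic is a unit of `A`. -/
theorem isUnit_natCast_of_coprime (A : ValuationSubring L) {ℓ n : ℕ} (hA : A.LiesOverPrime ℓ)
    (hcop : Nat.Coprime n ℓ) : IsUnit ((n : ℕ) : ↥A) := by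
  obtain ⟨a, b, hab⟩ := Nat.isCoprime_iff_coprime.mpr hcop
  have hℓ : ((ℓ : ℕ) : ↥A) ∈ maximalIdeal ↥A := by
    rw [← ValuationSubring.coe_mem_nonunits_iff]
    exact hA
  have h1 : (a : ↥A) * (n : ↥A) + (b : ↥A) * (ℓ : ↥A) = 1 := by
    exact_mod_cast congrArg (Int.cast : ℤ → ↥A) hab
  have h2 : (a : ↥A) * (n : ↥A) ∉ maximalIdeal ↥A := by
    intro hmem
    have h3 : (1 : ↥A) ∈ maximalIdeal ↥A := by
      rw [← h1]
      exact (maximalIdeal ↥A).add_mem hmem ((maximalIdeal ↥A).mul_mem_left _ hℓ)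
    exact (Ideal.ne_top_iff_one _).mp (maximalIdeal.isMaximal ↥A).ne_top h3
  have h4 : IsUnit ((a : ↥A) * (n : ↥A)) := by
    rwa [mem_maximalIdeal, mem_nonunits_iff, not_not] at h2
  exact isUnit_of_mul_isUnit_right h4

theorem isUnit_256 (A : ValuationSubring L) {ℓ : ℕ} (hℓ : ℓ.Prime) (hA : A.LiesOverPrime ℓ)
    (hℓ2 : ℓ ≠ 2) : IsUnit (256 : ↥A) := by
  have hcop : Nat.Coprime 256 ℓ := by
    have h2 : Nat.Coprime 2 ℓ := (Nat.coprime_primes Nat.prime_two hℓ).mpr (Ne.symm hℓ2)
    exact Nat.Coprime.pow_left 8 h2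
  exact_mod_cast isUnit_natCast_of_coprime A hA hcop

theorem isUnit_27 (A : ValuationSubring L) {ℓ : ℕ} (hℓ : ℓ.Prime) (hA : A.LiesOverPrime ℓ)
    (hℓ3 : ℓ ≠ 3) : IsUnit (27 : ↥A) := by
  have hcop : Nat.Coprime 27 ℓ := by
    have h3 : Nat.Coprime 3 ℓ := (Nat.coprime_primes Nat.prime_three hℓ).mpr (Ne.symm hℓ3)
    exact Nat.Coprime.pow_left 3 h3
  exact_mod_cast isUnit_natCast_of_coprime A hA hcop

end Units

/-! ### The sealed cover `Ω = AdjoinRoot m` -/

section Sealed

open ModularCurve Fermat.Agent.S18 Fermat.Agent.S18.S24Export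

local notation "Qb" => AlgebraicClosure ℚ

variable (N : ℕ) [NeZero N] (m : (FL N)[X]) [Fact (Irreducible m)]

omit [NeZero N] in
/-- the relation of cover 3 on `Ω = AdjoinRoot m`, for `m ∣ g3(j)`. -/
theorem hrel_of_dvd3 (hdvd : m ∣ CoverData.g3 (jL N)) :
    algebraMap (FL N) (AdjoinRoot m) (jL N) * AdjoinRoot.root m ^ 2 =
      (AdjoinRoot.root m + 256) ^ 3 := by
  have h0 : AdjoinRoot.mk m (CoverData.g3 (jL N)) = 0 := AdjoinRoot.mk_eq_zero.mpr hdvd
  simp only [CoverData.g3, map_sub, map_pow, map_add, map_mul, AdjoinRoot.mk_X,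
    AdjoinRoot.mk_C, map_ofNat] at h0
  rw [AdjoinRoot.algebraMap_eq]
  linear_combination (-1 : AdjoinRoot m) * h0

omit [NeZero N] in
/-- the relation of cover 2 on `Ω = AdjoinRoot m`, for `m ∣ g2(j)`. -/
theorem hrel_of_dvd2 (hdvd : m ∣ CoverData.g2 (jL N)) :
    algebraMap (FL N) (AdjoinRoot m) (jL N) * AdjoinRoot.root m =
      (AdjoinRoot.root m + 27) * (AdjoinRoot.root m + 3) ^ 3 := by
  have h0 : AdjoinRoot.mk m (CoverData.g2 (jL N)) = 0 := AdjoinRoot.mk_eq_zero.mpr hdvd
  simp only [CoverData.g2, map_sub, map_pow, map_add, map_mul, AdjoinRoot.mk_X,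
    AdjoinRoot.mk_C, map_ofNat] at h0
  rw [AdjoinRoot.algebraMap_eq]
  linear_combination (-1 : AdjoinRoot m) * h0

omit [NeZero N] in
theorem tO_eq_or (b : Bool) :
    CoverDefs.tO N m b = AdjoinRoot.root m ∨ CoverDefs.tO N m b = (AdjoinRoot.root m)⁻¹ := by
  cases b
  · exact Or.inr rfl
  · exact Or.inl rfl

variable (A : ValuationSubring Qb)

/-- **`hp` on the sealed cover 3**: for each chart `b` of `Ω = AdjoinRoot m` (`m ∣ g3(j)`,
`256` a unit of `A`) and each place `w₀`, the class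
`{w | tO b (w) ∈ A, same character as w₀ on the chart of tO b}` is a union of `j`-classes. -/
theorem hp_tO3 (hdvd : m ∣ CoverData.g3 (jL N)) (h256 : IsUnit (256 : ↥A)) (b : Bool)
    (w₀ : Place Qb (AdjoinRoot m)) :
    ∀ w w' : Place Qb (AdjoinRoot m),
      CoverSum.JCls A (algebraMap (FL N) (AdjoinRoot m) (jL N)) w w' →
      ((CoverDefs.InA A w (CoverDefs.tO N m b) ∧
          CoverDefs.SameChar A (CoverDefs.tO N m b) w w₀) ↔
        (CoverDefs.InA A w' (CoverDefs.tO N m b) ∧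
          CoverDefs.SameChar A (CoverDefs.tO N m b) w' w₀)) :=
  hp_cover3 (hrel_of_dvd3 N m hdvd) h256 (fun w => FFTower.cover_deg_eq_one N m w)
    (CoverDefs.tO N m b) (tO_eq_or N m b) w₀

/-- **`hp` on the sealed cover 2** (`m ∣ g2(j)`, `27` a unit of `A`). -/
theorem hp_tO2 (hdvd : m ∣ CoverData.g2 (jL N)) (h27 : IsUnit (27 : ↥A)) (b : Bool)
    (w₀ : Place Qb (AdjoinRoot m)) :
    ∀ w w' : Place Qb (AdjoinRoot m),
      CoverSum.JCls A (algebraMap (FL N) (AdjoinRoot m) (jL N)) w w' →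
      ((CoverDefs.InA A w (CoverDefs.tO N m b) ∧
          CoverDefs.SameChar A (CoverDefs.tO N m b) w w₀) ↔
        (CoverDefs.InA A w' (CoverDefs.tO N m b) ∧
          CoverDefs.SameChar A (CoverDefs.tO N m b) w' w₀)) :=
  hp_cover2 (hrel_of_dvd2 N m hdvd) h27 (fun w => FFTower.cover_deg_eq_one N m w)
    (CoverDefs.tO N m b) (tO_eq_or N m b) w₀

/-- **(c1) + (c2) on the sealed cover 3: the class sums of the orders vanish.** If
`div g = q • E` on `F_L(N)` and `E` is zero-sum for `RedPlace.r A N`, then for each chart `b`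
of the cover `Ω = AdjoinRoot m` and each place `w₀` of `Ω`, the orders of (the image of) `g`
at the places of `Ω` on the chart of `tO b` with the same character as `w₀` sum to zero. -/
theorem ord_class_sum_eq_zero_tO3 (hdvd : m ∣ CoverData.g3 (jL N)) (h256 : IsUnit (256 : ↥A))
    (b : Bool) (w₀ : Place Qb (AdjoinRoot m))
    [DecidablePred fun w : Place Qb (AdjoinRoot m) =>
      CoverDefs.InA A w (CoverDefs.tO N m b) ∧ CoverDefs.SameChar A (CoverDefs.tO N m b) w w₀]
    (E : Divisor Qb (FL N)) (hE : Finsupp.mapDomain (RedPlace.r A N) E = 0)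
    (g : FL N) (q : ℤ) (hord : ∀ P : Place Qb (FL N), P.ord g = q * E P)
    (S : Finset (Place Qb (AdjoinRoot m)))
    (hS : ∀ w : Place Qb (AdjoinRoot m),
      (CoverDefs.InA A w (CoverDefs.tO N m b) ∧
        CoverDefs.SameChar A (CoverDefs.tO N m b) w w₀) →
      w.ord (algebraMap (FL N) (AdjoinRoot m) g) ≠ 0 → w ∈ S) :
    ∑ w ∈ S with (CoverDefs.InA A w (CoverDefs.tO N m b) ∧
        CoverDefs.SameChar A (CoverDefs.tO N m b) w w₀),
      w.ord (algebraMap (FL N) (AdjoinRoot m) g) = 0 := by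
  have := FFTower.cover_finiteDimensional N m
  have := FFTower.cover_hasPrincipalDivisors N m
  have key := CoverSum.ord_class_sum_eq_zero_redPlace A N
    (fun w => FFTower.cover_deg_eq_one N m w) _ (hp_tO3 N m A hdvd h256 b w₀) E hE g q hord S hS
  rw [← key]
  refine Finset.sum_congr ?_ fun _ _ => rfl
  ext w
  simp only [Finset.mem_filter]

/-- **(c1) + (c2) on the sealed cover 2: the class sums of the orders vanish.** -/
theorem ord_class_sum_eq_zero_tO2 (hdvd : m ∣ CoverData.g2 (jL N)) (h27 : IsUnit (27 : ↥A))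
    (b : Bool) (w₀ : Place Qb (AdjoinRoot m))
    [DecidablePred fun w : Place Qb (AdjoinRoot m) =>
      CoverDefs.InA A w (CoverDefs.tO N m b) ∧ CoverDefs.SameChar A (CoverDefs.tO N m b) w w₀]
    (E : Divisor Qb (FL N)) (hE : Finsupp.mapDomain (RedPlace.r A N) E = 0)
    (g : FL N) (q : ℤ) (hord : ∀ P : Place Qb (FL N), P.ord g = q * E P)
    (S : Finset (Place Qb (AdjoinRoot m)))
    (hS : ∀ w : Place Qb (AdjoinRoot m),
      (CoverDefs.InA A w (CoverDefs.tO N m b) ∧
        CoverDefs.SameChar A (CoverDefs.tO N m b) w w₀) →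
      w.ord (algebraMap (FL N) (AdjoinRoot m) g) ≠ 0 → w ∈ S) :
    ∑ w ∈ S with (CoverDefs.InA A w (CoverDefs.tO N m b) ∧
        CoverDefs.SameChar A (CoverDefs.tO N m b) w w₀),
      w.ord (algebraMap (FL N) (AdjoinRoot m) g) = 0 := by
  have := FFTower.cover_finiteDimensional N m
  have := FFTower.cover_hasPrincipalDivisors N m
  have key := CoverSum.ord_class_sum_eq_zero_redPlace A N
    (fun w => FFTower.cover_deg_eq_one N m w) _ (hp_tO2 N m A hdvd h27 b w₀) E hE g q hord S hS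
  rw [← key]
  refine Finset.sum_congr ?_ fun _ _ => rfl
  ext w
  simp only [Finset.mem_filter]

end Sealed

end Fermat.Agent.S37.ChartCmpUse
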