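import Mathlib

/-!
# S37, block (W2), leaf (c2): chart comparison on a cover of the `j`-line (abstract form)

`R` a commutative ring (in the application `↥A`, `A` a valuation ring of `ℚ̄`), `F` a field with
`[Algebra R F]` (the function field of the cover).  For `t : F` the chart ring `D_t` is the set of
`x` with `IsIntegral (Algebra.adjoin R {t}) x`.  A valuation subring `V` of `F` containing `R`
(in the application: the functions regular at a place `P` with value in `A`; its non-units are the
functions with value in `𝔪_A`) has a *class* on the `t`-chart, the set of non-units of `V` lying in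
`D_t`; `SameCls R t V V'` says that `V` and `V'` have the same class.

* `SameCls.of_isIntegral` : if `h` is integral over `R[t]` then `SameCls R t V V' → SameCls R h V V'`.
* `sameCls_of_inv_add` : if `(h + c)⁻¹` is integral over `R[u]` and `u ∈ V, V'`, then
  `SameCls R u V V'` gives `h ∈ V ↔ h ∈ V'` and `SameCls R h V V'` (if `h ∈ V`) resp.
  `SameCls R h⁻¹ V V'` (if `h ∉ V`).
* `cover3_fin`, `cover3_inf` (`j * h ^ 2 = (h + 256) ^ 3`, `256` a unit of `R` for `_inf`) and
  `cover2_fin`, `cover2_inf` (`j * h = (h + 27) * (h + 3) ^ 3`, `27` a unit of `R` for `_inf`):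
  the class on the `j`-chart (`j ∈ V`: chart `D_j`; `j ∉ V`: chart `D_{j⁻¹}`) determines the
  `h`-chart and the class on it.
* tools: `exists_pow_mul_isIntegral` (clearing denominators of an integral element),
  `isIntegral_adjoin_trans`, `mem_of_isIntegral_adjoin`.
-/

set_option autoImplicit false

namespace Fermat.Agent.S37.ChartCompare

open Polynomial

section Tools

variable {R F : Type*} [CommRing R] [Field F] [Algebra R F]

/-- A root of a monic polynomial over `F` with coefficients in the range of `S → F` is integral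
over `S`. -/
theorem isIntegral_of_coeff_mem_range {S : Type*} [CommRing S] [Algebra S F] (P : F[X])
    (hP : P.Monic) (hc : ∀ i, P.coeff i ∈ Set.range (algebraMap S F)) {y : F}
    (hy : P.eval y = 0) : IsIntegral S y := by
  have hl : P ∈ Polynomial.lifts (algebraMap S F) := by
    rw [Polynomial.lifts_iff_coeff_lifts]
    exact hc
  obtain ⟨q, hq, -, hqm⟩ := Polynomial.lifts_and_degree_eq_and_monic hl hP
  refine ⟨q, hqm, ?_⟩
  rw [← Polynomial.eval_map, hq]
  exact hy

/-- Integrality over a subalgebra all of whose elements come from `S` gives integrality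
over `S`. -/
theorem isIntegral_of_forall_mem_range {S : Type*} [CommRing S] [Algebra S F]
    (S₁ : Subalgebra R F) (h : ∀ x ∈ S₁, x ∈ Set.range (algebraMap S F)) {y : F}
    (hy : IsIntegral S₁ y) : IsIntegral S y := by
  obtain ⟨p, hp, hpy⟩ := hy
  apply isIntegral_of_coeff_mem_range (p.map (algebraMap S₁ F)) (hp.map _)
  · intro i
    rw [Polynomial.coeff_map]
    exact h _ (p.coeff i).2
  · rw [Polynomial.eval_map]
    exact hpy

/-- Transitivity of the chart rings: if `s` is integral over `R[t]`, everything integral over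
`R[s]` is integral over `R[t]`. -/
theorem isIntegral_adjoin_trans {t s x : F}
    (hs : IsIntegral (Algebra.adjoin R ({t} : Set F)) s)
    (hx : IsIntegral (Algebra.adjoin R ({s} : Set F)) x) :
    IsIntegral (Algebra.adjoin R ({t} : Set F)) x := by
  set S := Algebra.adjoin R ({t} : Set F) with hS
  have h1 : ∀ y ∈ Algebra.adjoin R ({s} : Set F), IsIntegral S y := by
    intro y hy
    induction hy using Algebra.adjoin_induction with
    | mem y hy =>
      rw [Set.mem_singleton_iff] at hy
      rw [hy]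
      exact hs
    | algebraMap r =>
      have : algebraMap R F r = algebraMap S F (algebraMap R S r) := rfl
      rw [this]
      exact isIntegral_algebraMap
    | add y z _ _ ihy ihz => exact ihy.add ihz
    | mul y z _ _ ihy ihz => exact ihy.mul ihz
  have h2 : IsIntegral (integralClosure S F) x := by
    apply isIntegral_of_forall_mem_range (Algebra.adjoin R ({s} : Set F)) _ hx
    intro y hy
    exact ⟨⟨y, h1 y hy⟩, rfl⟩
  exact isIntegral_trans x h2

/-- Clearing denominators in `R[s]`, `s = a / b` with `a, b` in a subalgebra `B`. -/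
theorem exists_pow_mul_mem (B : Subalgebra R F) {s a b : F} (ha : a ∈ B) (hb : b ∈ B)
    (hs : s * b = a) {x : F} (hx : x ∈ Algebra.adjoin R ({s} : Set F)) :
    ∃ d : ℕ, ∀ m, d ≤ m → b ^ m * x ∈ B := by
  induction hx using Algebra.adjoin_induction with
  | mem x hx =>
    rw [Set.mem_singleton_iff] at hx
    subst hx
    refine ⟨1, fun m hm => ?_⟩
    obtain ⟨k, rfl⟩ := Nat.exists_eq_add_of_le hm
    have h1 : b ^ (1 + k) * x = b ^ k * a := by
      rw [← hs, pow_add, pow_one]
      ring
    rw [h1]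
    exact B.mul_mem (B.pow_mem hb k) ha
  | algebraMap r => exact ⟨0, fun m _ => B.mul_mem (B.pow_mem hb m) (B.algebraMap_mem r)⟩
  | add x y _ _ ihx ihy =>
    obtain ⟨d1, h1⟩ := ihx
    obtain ⟨d2, h2⟩ := ihy
    refine ⟨max d1 d2, fun m hm => ?_⟩
    rw [mul_add]
    exact B.add_mem (h1 m (le_trans (le_max_left _ _) hm)) (h2 m (le_trans (le_max_right _ _) hm))
  | mul x y _ _ ihx ihy =>
    obtain ⟨d1, h1⟩ := ihx
    obtain ⟨d2, h2⟩ := ihy
    refine ⟨d1 + d2, fun m hm => ?_⟩
    obtain ⟨k, rfl⟩ := Nat.exists_eq_add_of_le hm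
    have h3 : b ^ (d1 + d2 + k) * (x * y) = (b ^ d1 * x) * (b ^ (d2 + k) * y) := by
      rw [pow_add, pow_add, pow_add]
      ring
    rw [h3]
    exact B.mul_mem (h1 d1 le_rfl) (h2 (d2 + k) (Nat.le_add_right _ _))

/-- **Clearing denominators for integral elements**: if `s = a / b` with `a, b ∈ B` and `x` is
integral over `R[s]`, then `b ^ d * x` is integral over `B` for some `d`. -/
theorem exists_pow_mul_isIntegral (B : Subalgebra R F) {s a b : F} (ha : a ∈ B) (hb : b ∈ B)
    (hs : s * b = a) {x : F} (hx : IsIntegral (Algebra.adjoin R ({s} : Set F)) x) :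
    ∃ d : ℕ, IsIntegral B (b ^ d * x) := by
  obtain ⟨p, hp, hpx⟩ := hx
  have h1 : ∀ i : ℕ, ∃ d : ℕ, ∀ m, d ≤ m →
      b ^ m * ((p.coeff i : Algebra.adjoin R ({s} : Set F)) : F) ∈ B :=
    fun i => exists_pow_mul_mem B ha hb hs (p.coeff i).2
  choose dfun hdfun using h1
  set d := (Finset.range (p.natDegree + 1)).sup dfun with hd
  have hle : ∀ i, i ≤ p.natDegree → dfun i ≤ d := fun i hi =>
    Finset.le_sup (f := dfun) (Finset.mem_range.mpr (Nat.lt_succ_of_le hi))
  refine ⟨d, ?_⟩
  set q : F[X] := p.map (algebraMap (Algebra.adjoin R ({s} : Set F)) F) with hq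
  have hqm : q.Monic := hp.map _
  have hqd : q.natDegree = p.natDegree := hp.natDegree_map _
  apply isIntegral_of_coeff_mem_range (q.scaleRoots (b ^ d))
    ((Polynomial.monic_scaleRoots_iff _).mpr hqm)
  · intro i
    rw [Polynomial.coeff_scaleRoots, hqd]
    rcases lt_trichotomy i p.natDegree with hi | hi | hi
    · obtain ⟨k, hk⟩ := Nat.exists_eq_add_of_lt hi
      have h2 : p.natDegree - i = k + 1 := by omega
      rw [h2, hq, Polynomial.coeff_map, ← pow_mul, mul_comm]
      refine ⟨⟨_, hdfun i (d * (k + 1)) ?_⟩, rfl⟩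
      calc dfun i ≤ d := hle i hi.le
        _ ≤ d * (k + 1) := Nat.le_mul_of_pos_right _ (Nat.succ_pos k)
    · rw [hi, Nat.sub_self, pow_zero, mul_one, ← hqd]
      rw [show q.coeff q.natDegree = 1 from hqm]
      exact ⟨1, rfl⟩
    · rw [Polynomial.coeff_eq_zero_of_natDegree_lt (by rw [hqd]; exact hi), zero_mul]
      exact ⟨0, rfl⟩
  · have h3 : Polynomial.eval₂ (RingHom.id F) x q = 0 := by
      rw [hq, Polynomial.eval₂_map]
      exact hpx
    have h4 := Polynomial.scaleRoots_eval₂_eq_zero (RingHom.id F) (s := b ^ d) h3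
    rw [Polynomial.eval₂_id] at h4
    exact h4

end Tools

section Val

variable {R F : Type*} [CommRing R] [Field F] [Algebra R F]

/-- The valuation subrings `V`, `V'` define the same class on the chart `D_t` (the elements
integral over `R[t]`): the same elements of `D_t` are non-units. -/
def SameCls (R : Type*) {F : Type*} [CommRing R] [Field F] [Algebra R F] (t : F)
    (V V' : ValuationSubring F) : Prop :=
  ∀ x : F, IsIntegral (Algebra.adjoin R ({t} : Set F)) x → (x ∈ V.nonunits ↔ x ∈ V'.nonunits)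

theorem SameCls.symm {t : F} {V V' : ValuationSubring F} (h : SameCls R t V V') :
    SameCls R t V' V := fun x hx => (h x hx).symm

theorem sameCls_refl (t : F) (V : ValuationSubring F) : SameCls R t V V := fun _ _ => Iff.rfl

theorem SameCls.trans {t : F} {V V' V'' : ValuationSubring F} (h : SameCls R t V V')
    (h' : SameCls R t V' V'') : SameCls R t V V'' := fun x hx => (h x hx).trans (h' x hx)

variable (V : ValuationSubring F)

/-- An element integral over `R[t]` lies in every valuation subring containing `R` and `t`. -/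
theorem mem_of_isIntegral_adjoin (hV : ∀ r : R, algebraMap R F r ∈ V) {t x : F} (ht : t ∈ V)
    (hx : IsIntegral (Algebra.adjoin R ({t} : Set F)) x) : x ∈ V := by
  have h1 : ∀ y ∈ Algebra.adjoin R ({t} : Set F), y ∈ Set.range (algebraMap V F) := by
    intro y hy
    have h2 : y ∈ V := by
      induction hy using Algebra.adjoin_induction with
      | mem y hy =>
        rw [Set.mem_singleton_iff] at hy
        rw [hy]
        exact ht
      | algebraMap r => exact hV r
      | add y z _ _ ihy ihz => exact V.add_mem _ _ ihy ihz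
      | mul y z _ _ ihy ihz => exact V.mul_mem _ _ ihy ihz
    exact ⟨⟨y, h2⟩, rfl⟩
  have h3 : IsIntegral V x := isIntegral_of_forall_mem_range _ h1 hx
  obtain ⟨y, hy⟩ := IsIntegrallyClosed.isIntegral_iff.mp h3
  rw [← hy]
  exact y.2

/-- multiplying by a unit of `V` does not change membership in the maximal ideal. -/
theorem mul_mem_nonunits_iff {y : F} (hy : y ∈ V) (hy' : y ∉ V.nonunits) (x : F) :
    y * x ∈ V.nonunits ↔ x ∈ V.nonunits := by
  have h1 : V.valuation y = 1 := by
    rw [ValuationSubring.mem_nonunits_iff, not_lt] at hy'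
    exact le_antisymm ((V.valuation_le_one_iff y).mpr hy) hy'
  rw [ValuationSubring.mem_nonunits_iff, ValuationSubring.mem_nonunits_iff, map_mul, h1, one_mul]

theorem pow_mul_mem_nonunits_iff {y : F} (hy : y ∈ V) (hy' : y ∉ V.nonunits) (d : ℕ) (x : F) :
    y ^ d * x ∈ V.nonunits ↔ x ∈ V.nonunits := by
  have h1 : V.valuation y = 1 := by
    rw [ValuationSubring.mem_nonunits_iff, not_lt] at hy'
    exact le_antisymm ((V.valuation_le_one_iff y).mpr hy) hy'
  rw [ValuationSubring.mem_nonunits_iff, ValuationSubring.mem_nonunits_iff, map_mul, map_pow, h1,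
    one_pow, one_mul]

/-- `1 ∉ 𝔪_V`. -/
theorem one_notMem_nonunits : (1 : F) ∉ V.nonunits := by
  rw [ValuationSubring.mem_nonunits_iff, map_one]
  exact lt_irrefl _

/-- a product in `𝔪_V` has a factor in `𝔪_V`. -/
theorem mem_nonunits_or_of_mul {x y : F} (h : x * y ∈ V.nonunits) :
    x ∈ V.nonunits ∨ y ∈ V.nonunits := by
  by_contra hcon
  rw [not_or] at hcon
  obtain ⟨h1, h2⟩ := hcon
  rw [ValuationSubring.mem_nonunits_iff, not_lt] at h1 h2
  rw [ValuationSubring.mem_nonunits_iff, map_mul] at h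
  have h3 : (1 : V.ValueGroup) ≤ V.valuation x * V.valuation y := by
    calc (1 : V.ValueGroup) = 1 * 1 := (one_mul 1).symm
      _ ≤ V.valuation x * V.valuation y := mul_le_mul' h1 h2
  exact absurd h (not_lt.mpr h3)

theorem mem_nonunits_of_pow {x : F} {n : ℕ} (h : x ^ n ∈ V.nonunits) : x ∈ V.nonunits := by
  induction n with
  | zero =>
    rw [pow_zero] at h
    exact absurd h (one_notMem_nonunits V)
  | succ n ih =>
    rw [pow_succ] at h
    rcases mem_nonunits_or_of_mul V h with h1 | h1
    · exact ih h1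
    · exact h1

/-- `x⁻¹ ∈ V` for `x ∈ V` outside the maximal ideal. -/
theorem inv_mem_of_notMem_nonunits {x : F} (hx : x ∉ V.nonunits) : x⁻¹ ∈ V := by
  rw [ValuationSubring.mem_nonunits_iff, not_lt] at hx
  rw [← V.valuation_le_one_iff, map_inv₀]
  exact inv_le_one_of_one_le₀ hx

/-- `x ∉ V` implies `x⁻¹ ∈ 𝔪_V`. -/
theorem inv_mem_nonunits_of_notMem {x : F} (hx : x ∉ V) : x⁻¹ ∈ V.nonunits := by
  rw [← V.valuation_le_one_iff, not_le] at hx
  rw [ValuationSubring.mem_nonunits_iff, map_inv₀]
  exact inv_lt_one_of_one_lt₀ hx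

end Val


section Core

variable {R F : Type*} [CommRing R] [Field F] [Algebra R F]

/-- **Finite chart, generic form**: if `h` is integral over `R[t]`, the class on the `t`-chart
determines the class on the `h`-chart. -/
theorem SameCls.of_isIntegral {t h : F} (hh : IsIntegral (Algebra.adjoin R ({t} : Set F)) h)
    {V V' : ValuationSubring F} (hcls : SameCls R t V V') : SameCls R h V V' :=
  fun x hx => hcls x (isIntegral_adjoin_trans hh hx)

/-- `h ∈ V ↔ (h + c)⁻¹` is a unit of `V`. -/
theorem mem_iff_notMem_nonunits (c : R) {h v : F} (hv : v * (h + algebraMap R F c) = 1)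
    (V : ValuationSubring F) (hV : ∀ r : R, algebraMap R F r ∈ V) :
    h ∈ V ↔ v ∉ V.nonunits := by
  have hv0 : v ≠ 0 := left_ne_zero_of_mul_eq_one hv
  have hinv : v⁻¹ = h + algebraMap R F c := (eq_inv_of_mul_eq_one_right hv).symm
  constructor
  · intro hh hvn
    rcases (ValuationSubring.mem_nonunits_iff_or V).mp hvn with h0 | h0
    · exact hv0 h0
    · apply h0
      rw [hinv]
      exact V.add_mem _ _ hh (hV c)
  · intro hvn
    have h1 := inv_mem_of_notMem_nonunits V hvn
    rw [hinv] at h1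
    have h2 := sub_mem h1 (hV c)
    rwa [add_sub_cancel_right] at h2

/-- **Chart at infinity, generic form**: let `v = (h + c)⁻¹` be integral over `R[u]` and let
`V`, `V'` be valuation subrings containing `R` and `u` with the same class on the `u`-chart.
Then `h ∈ V ↔ h ∈ V'`, and `V`, `V'` have the same class on the `h`-chart (if `h ∈ V`), resp. on
the `h⁻¹`-chart (if `h ∉ V`). -/
theorem sameCls_of_inv_add (c : R) {u h v : F} (hv : v * (h + algebraMap R F c) = 1)
    (hvint : IsIntegral (Algebra.adjoin R ({u} : Set F)) v)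
    {V V' : ValuationSubring F} (hV : ∀ r : R, algebraMap R F r ∈ V)
    (hV' : ∀ r : R, algebraMap R F r ∈ V') (hu : u ∈ V) (hu' : u ∈ V')
    (hcls : SameCls R u V V') :
    (h ∈ V ↔ h ∈ V') ∧ (h ∈ V → SameCls R h V V') ∧ (h ∉ V → SameCls R h⁻¹ V V') := by
  have hvV : v ∈ V := mem_of_isIntegral_adjoin V hV hu hvint
  have hvV' : v ∈ V' := mem_of_isIntegral_adjoin V' hV' hu' hvint
  have hiff : h ∈ V ↔ h ∈ V' := by
    rw [mem_iff_notMem_nonunits c hv V hV, mem_iff_notMem_nonunits c hv V' hV', hcls v hvint]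
  set e : F := 1 - algebraMap R F c * v with he
  have hhv : h * v = e := by
    rw [he]
    linear_combination hv
  set B : Subalgebra R F := Algebra.adjoin R ({v} : Set F) with hB
  have hvB : v ∈ B := Algebra.subset_adjoin (Set.mem_singleton v)
  have heB : e ∈ B := B.sub_mem B.one_mem (B.mul_mem (B.algebraMap_mem c) hvB)
  refine ⟨hiff, fun hh => ?_, fun hh => ?_⟩
  · have hn : v ∉ V.nonunits := (mem_iff_notMem_nonunits c hv V hV).mp hh
    have hn' : v ∉ V'.nonunits := (mem_iff_notMem_nonunits c hv V' hV').mp (hiff.mp hh)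
    intro x hx
    obtain ⟨d, hd⟩ := exists_pow_mul_isIntegral B heB hvB hhv hx
    have h1 : IsIntegral (Algebra.adjoin R ({u} : Set F)) (v ^ d * x) :=
      isIntegral_adjoin_trans hvint hd
    rw [← pow_mul_mem_nonunits_iff V hvV hn d x, ← pow_mul_mem_nonunits_iff V' hvV' hn' d x]
    exact hcls _ h1
  · have key : ∀ W : ValuationSubring F, (∀ r : R, algebraMap R F r ∈ W) → v ∈ W → h ∉ W →
        e ∈ W ∧ e ∉ W.nonunits := by
      intro W hW hvW hhW
      have hvn : v ∈ W.nonunits := by
        by_contra hcon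
        exact hhW ((mem_iff_notMem_nonunits c hv W hW).mpr hcon)
      have hcv : algebraMap R F c * v ∈ W.nonunits := by
        rw [ValuationSubring.mem_nonunits_iff] at hvn ⊢
        rw [map_mul]
        calc W.valuation (algebraMap R F c) * W.valuation v ≤ 1 * W.valuation v :=
              mul_le_mul' ((W.valuation_le_one_iff _).mpr (hW c)) le_rfl
          _ = W.valuation v := one_mul _
          _ < 1 := hvn
      refine ⟨sub_mem W.one_mem (W.mul_mem _ _ (hW c) hvW), fun hen => ?_⟩
      have h1 := W.nonunits.add_mem hen hcv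
      rw [he, sub_add_cancel] at h1
      exact one_notMem_nonunits W h1
    obtain ⟨heV, hen⟩ := key V hV hvV hh
    obtain ⟨heV', hen'⟩ := key V' hV' hvV' (fun h' => hh (hiff.mpr h'))
    have hh0 : h ≠ 0 := by
      rintro rfl
      exact hh V.zero_mem
    have hs : h⁻¹ * e = v := by
      rw [← hhv, ← mul_assoc, inv_mul_cancel₀ hh0, one_mul]
    intro x hx
    obtain ⟨d, hd⟩ := exists_pow_mul_isIntegral B hvB heB hs hx
    have h1 : IsIntegral (Algebra.adjoin R ({u} : Set F)) (e ^ d * x) :=
      isIntegral_adjoin_trans hvint hd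
    rw [← pow_mul_mem_nonunits_iff V heV hen d x, ← pow_mul_mem_nonunits_iff V' heV' hen' d x]
    exact hcls _ h1

end Core


section Covers

variable {R F : Type*} [CommRing R] [Field F] [Algebra R F]

/-- a root of a monic cubic is integral. -/
theorem isIntegral_of_cubic {S : Type*} [CommRing S] [Algebra S F] (a b c : S) {y : F}
    (hy : y ^ 3 + (algebraMap S F a * y ^ 2 + algebraMap S F b * y + algebraMap S F c) = 0) :
    IsIntegral S y := by
  have : Nontrivial S := (algebraMap S F).domain_nontrivial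
  refine ⟨X ^ 3 + (C a * X ^ 2 + C b * X + C c), ?_, ?_⟩
  · apply Polynomial.monic_X_pow_add
    refine lt_of_le_of_lt (Polynomial.degree_le_of_natDegree_le (n := 2) ?_)
      (by exact_mod_cast (show (2 : ℕ) < 3 by norm_num))
    compute_degree
  · simp only [eval₂_add, eval₂_mul, eval₂_pow, eval₂_X, eval₂_C]
    exact hy

/-- a root of a monic quartic is integral. -/
theorem isIntegral_of_quartic {S : Type*} [CommRing S] [Algebra S F] (a b c d : S) {y : F}
    (hy : y ^ 4 + (algebraMap S F a * y ^ 3 + algebraMap S F b * y ^ 2 + algebraMap S F c * y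
      + algebraMap S F d) = 0) :
    IsIntegral S y := by
  have : Nontrivial S := (algebraMap S F).domain_nontrivial
  refine ⟨X ^ 4 + (C a * X ^ 3 + C b * X ^ 2 + C c * X + C d), ?_, ?_⟩
  · apply Polynomial.monic_X_pow_add
    refine lt_of_le_of_lt (Polynomial.degree_le_of_natDegree_le (n := 3) ?_)
      (by exact_mod_cast (show (3 : ℕ) < 4 by norm_num))
    compute_degree
  · simp only [eval₂_add, eval₂_mul, eval₂_pow, eval₂_X, eval₂_C]
    exact hy

/-- the generator of `R[t]`. -/
def gen (R : Type*) {F : Type*} [CommRing R] [Field F] [Algebra R F] (t : F) :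
    Algebra.adjoin R ({t} : Set F) :=
  ⟨t, Algebra.subset_adjoin (Set.mem_singleton t)⟩

theorem algebraMap_gen (t : F) : algebraMap (Algebra.adjoin R ({t} : Set F)) F (gen R t) = t :=
  rfl

theorem algebraMap_adjoin (t : F) (r : R) :
    algebraMap (Algebra.adjoin R ({t} : Set F)) F (algebraMap R _ r) = algebraMap R F r :=
  rfl

/-! ### The cover `X₀(2) → X(1)`: `j * h ^ 2 = (h + 256) ^ 3` -/

/-- `h` is integral over `R[j]`. -/
theorem cover3_isIntegral {j h : F} (hrel : j * h ^ 2 = (h + 256) ^ 3) :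
    IsIntegral (Algebra.adjoin R ({j} : Set F)) h := by
  apply isIntegral_of_cubic (768 - gen R j) 196608 16777216
  rw [map_sub, algebraMap_gen, map_ofNat, map_ofNat, map_ofNat]
  linear_combination (-1 : F) * hrel

/-- `(h + 256)⁻¹` is integral over `R[j⁻¹]` when `256` is a unit. -/
theorem cover3_isIntegral_inv (h256 : IsUnit (256 : R)) {j h : F}
    (hrel : j * h ^ 2 = (h + 256) ^ 3) (hj0 : j ≠ 0) :
    h + 256 ≠ 0 ∧ IsIntegral (Algebra.adjoin R ({j⁻¹} : Set F)) (h + 256)⁻¹ := by
  obtain ⟨c, hc⟩ := h256.exists_left_inv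
  have hcF : algebraMap R F c * 256 = 1 := by
    have := congrArg (algebraMap R F) hc
    rwa [map_mul, map_one, map_ofNat] at this
  have h256F : (256 : F) ≠ 0 := right_ne_zero_of_mul_eq_one hcF
  have hne : h + 256 ≠ 0 := by
    intro h0
    rw [h0] at hrel
    have h1 : h = 0 := by
      have h2 : j * h ^ 2 = 0 := by rw [hrel]; ring
      rcases mul_eq_zero.mp h2 with h3 | h3
      · exact absurd h3 hj0
      · exact pow_eq_zero_iff (two_ne_zero) |>.mp h3
    rw [h1, zero_add] at h0
    exact h256F h0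
  refine ⟨hne, ?_⟩
  have hrelv : 256 ^ 2 * ((h + 256)⁻¹) ^ 3 - 512 * ((h + 256)⁻¹) ^ 2 + (h + 256)⁻¹ - j⁻¹ = 0 := by
    field_simp
    linear_combination hrel
  apply isIntegral_of_cubic (-(algebraMap R _ (512 * c ^ 2))) (algebraMap R _ (c ^ 2))
    (-(algebraMap R _ (c ^ 2) * gen R j⁻¹))
  simp only [map_neg, map_mul, map_pow, map_ofNat, algebraMap_gen, algebraMap_adjoin]
  linear_combination (algebraMap R F c) ^ 2 * hrelv
    - ((h + 256)⁻¹) ^ 3 * (1 + 256 * algebraMap R F c) * hcF

/-! ### The cover `X₀(3) → X(1)`: `j * h = (h + 27) * (h + 3) ^ 3` -/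

/-- `h` is integral over `R[j]`. -/
theorem cover2_isIntegral {j h : F} (hrel : j * h = (h + 27) * (h + 3) ^ 3) :
    IsIntegral (Algebra.adjoin R ({j} : Set F)) h := by
  apply isIntegral_of_quartic 36 270 (756 - gen R j) 729
  rw [map_sub, algebraMap_gen, map_ofNat, map_ofNat, map_ofNat, map_ofNat]
  linear_combination (-1 : F) * hrel

/-- `(h + 27)⁻¹` is integral over `R[j⁻¹]` when `27` is a unit. -/
theorem cover2_isIntegral_inv (h27 : IsUnit (27 : R)) {j h : F}
    (hrel : j * h = (h + 27) * (h + 3) ^ 3) (hj0 : j ≠ 0) :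
    h + 27 ≠ 0 ∧ IsIntegral (Algebra.adjoin R ({j⁻¹} : Set F)) (h + 27)⁻¹ := by
  obtain ⟨c, hc⟩ := h27.exists_left_inv
  have hcF : algebraMap R F c * 27 = 1 := by
    have := congrArg (algebraMap R F) hc
    rwa [map_mul, map_one, map_ofNat] at this
  have h27F : (27 : F) ≠ 0 := right_ne_zero_of_mul_eq_one hcF
  have hne : h + 27 ≠ 0 := by
    intro h0
    rw [h0, zero_mul] at hrel
    have h1 : h = 0 := by
      rcases mul_eq_zero.mp hrel with h3 | h3
      · exact absurd h3 hj0
      · exact h3
    rw [h1, zero_add] at h0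
    exact h27F h0
  refine ⟨hne, ?_⟩
  have hrelv : 27 * ((h + 27)⁻¹) ^ 4 - (1 + 13824 * j⁻¹) * ((h + 27)⁻¹) ^ 3
      + 1728 * j⁻¹ * ((h + 27)⁻¹) ^ 2 - 72 * j⁻¹ * (h + 27)⁻¹ + j⁻¹ = 0 := by
    field_simp
    linear_combination (-1 : F) * hrel
  apply isIntegral_of_quartic (-(algebraMap R _ c * (1 + 13824 * gen R j⁻¹)))
    (algebraMap R _ (1728 * c) * gen R j⁻¹) (-(algebraMap R _ (72 * c) * gen R j⁻¹))
    (algebraMap R _ c * gen R j⁻¹)
  simp only [map_neg, map_mul, map_add, map_one, algebraMap_gen, algebraMap_adjoin, map_ofNat]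
  linear_combination (algebraMap R F c) * hrelv - ((h + 27)⁻¹) ^ 4 * hcF

end Covers


section Final

variable {R F : Type*} [CommRing R] [Field F] [Algebra R F] {V V' : ValuationSubring F}

/-- **(c2), cover `j * h ^ 2 = (h + 256) ^ 3`, finite `j`-chart.** -/
theorem cover3_fin (hV : ∀ r : R, algebraMap R F r ∈ V) (hV' : ∀ r : R, algebraMap R F r ∈ V')
    {j h : F} (hrel : j * h ^ 2 = (h + 256) ^ 3) (hj : j ∈ V) (hj' : j ∈ V')
    (hcls : SameCls R j V V') : h ∈ V ∧ h ∈ V' ∧ SameCls R h V V' :=
  ⟨mem_of_isIntegral_adjoin V hV hj (cover3_isIntegral hrel),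
    mem_of_isIntegral_adjoin V' hV' hj' (cover3_isIntegral hrel),
    hcls.of_isIntegral (cover3_isIntegral hrel)⟩

/-- **(c2), cover `j * h ^ 2 = (h + 256) ^ 3`, `j`-chart at infinity** (`256` a unit). -/
theorem cover3_inf (h256 : IsUnit (256 : R)) (hV : ∀ r : R, algebraMap R F r ∈ V)
    (hV' : ∀ r : R, algebraMap R F r ∈ V') {j h : F} (hrel : j * h ^ 2 = (h + 256) ^ 3)
    (hj : j ∉ V) (hj' : j ∉ V') (hcls : SameCls R j⁻¹ V V') :
    (h ∈ V ↔ h ∈ V') ∧ (h ∈ V → SameCls R h V V') ∧ (h ∉ V → SameCls R h⁻¹ V V') := by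
  have hj0 : j ≠ 0 := by
    rintro rfl
    exact hj V.zero_mem
  obtain ⟨hne, hint⟩ := cover3_isIntegral_inv (R := R) h256 hrel hj0
  have hv : (h + 256)⁻¹ * (h + algebraMap R F 256) = 1 := by
    rw [map_ofNat]
    exact inv_mul_cancel₀ hne
  exact sameCls_of_inv_add 256 hv hint hV hV'
    (ValuationSubring.nonunits_subset (inv_mem_nonunits_of_notMem V hj))
    (ValuationSubring.nonunits_subset (inv_mem_nonunits_of_notMem V' hj')) hcls

/-- **(c2), cover `j * h = (h + 27) * (h + 3) ^ 3`, finite `j`-chart.** -/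
theorem cover2_fin (hV : ∀ r : R, algebraMap R F r ∈ V) (hV' : ∀ r : R, algebraMap R F r ∈ V')
    {j h : F} (hrel : j * h = (h + 27) * (h + 3) ^ 3) (hj : j ∈ V) (hj' : j ∈ V')
    (hcls : SameCls R j V V') : h ∈ V ∧ h ∈ V' ∧ SameCls R h V V' :=
  ⟨mem_of_isIntegral_adjoin V hV hj (cover2_isIntegral hrel),
    mem_of_isIntegral_adjoin V' hV' hj' (cover2_isIntegral hrel),
    hcls.of_isIntegral (cover2_isIntegral hrel)⟩

/-- **(c2), cover `j * h = (h + 27) * (h + 3) ^ 3`, `j`-chart at infinity** (`27` a unit). -/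
theorem cover2_inf (h27 : IsUnit (27 : R)) (hV : ∀ r : R, algebraMap R F r ∈ V)
    (hV' : ∀ r : R, algebraMap R F r ∈ V') {j h : F} (hrel : j * h = (h + 27) * (h + 3) ^ 3)
    (hj : j ∉ V) (hj' : j ∉ V') (hcls : SameCls R j⁻¹ V V') :
    (h ∈ V ↔ h ∈ V') ∧ (h ∈ V → SameCls R h V V') ∧ (h ∉ V → SameCls R h⁻¹ V V') := by
  have hj0 : j ≠ 0 := by
    rintro rfl
    exact hj V.zero_mem
  obtain ⟨hne, hint⟩ := cover2_isIntegral_inv (R := R) h27 hrel hj0
  have hv : (h + 27)⁻¹ * (h + algebraMap R F 27) = 1 := by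
    rw [map_ofNat]
    exact inv_mul_cancel₀ hne
  exact sameCls_of_inv_add 27 hv hint hV hV'
    (ValuationSubring.nonunits_subset (inv_mem_nonunits_of_notMem V hj))
    (ValuationSubring.nonunits_subset (inv_mem_nonunits_of_notMem V' hj')) hcls

end Final

end Fermat.Agent.S37.ChartCompare
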