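import Mathlib
import Fermat.Agent.S05.InertiaAPI
import Fermat.Agent.S37.RedC
import Fermat.Agent.S37.ChartLevel
import Fermat.Agent.S37.ChartAdapt
import Fermat.Agent.S37.LaurentCIC
import Fermat.Agent.S28.Defs

/-!
# S37 (W3 / W4 input): Gauss-small chart elements have value zero, and inertia acts trivially
on the values of chart elements

`A` a valuation subring of `ℚ̄` over `ℓ ∤ N`, `D_b = RedPlace.chart A N b` the chart ring of
`X₀(N)` over `ℚ̄` (functions integral over `A[j]`, resp. `A[1/j]`).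

* `exists_eq_const_mul` : an element of `D_b` all of whose `q`-coefficients lie in `𝔪_A` is
  `c · y` with `c ∈ 𝔪_A` and `y ∈ D_b` (finite level + `RedC.redC_eq_zero_iff`: the kernel of
  the reduction of `C_K` is `π C_K`).
* `val_eq_zero_of_coeff_mem` **(GS)** : such an element has value `0` modulo `𝔪_A` at every
  place of the chart.
* `exists_incl_eq` : the `q`-expansion of an element of `D_b` has coefficients in `A`
  (`LaurentCIC`: `A((q))` is integrally closed in its fraction field).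
* `smul_mem_chart` : the decomposition group of `A` preserves `D_b`.
* `coeff_smul_sub_mem` : for `τ` in the inertia group, `τ x - x` is Gauss-small for `x ∈ D_b`.
* `val_smul_sub_eq_zero` **(K)** : `(τ x - x)(P) ∈ 𝔪_A` for `τ` in the inertia group, `x ∈ D_b`
  and `P` on the chart.
-/

set_option autoImplicit false
set_option linter.unusedSectionVars false
set_option linter.unusedVariables false

open ModularCurve AlgebraicCurve

namespace Fermat.Agent.S37.ChartInertia

open Fermat.Agent.S18 Fermat.Agent.S18.CoreDefs Fermat.Agent.S18.Setup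
open Fermat.Agent.S18.S24Export

local notation "Qb" => AlgebraicClosure ℚ

variable (A : ValuationSubring Qb) (N : ℕ) [NeZero N]

/-- **Gauss-small elements of the chart ring are divisible by a constant of `𝔪_A`.** -/
theorem exists_eq_const_mul {ℓ : ℕ} (hℓ : ℓ.Prime) (hℓN : ¬ ℓ ∣ N) (hA : A.LiesOverPrime ℓ)
    (b : Bool) (x : FL N) (hx : x ∈ RedPlace.chart A N b)
    (hcoef : ∀ n : ℤ, ((x : FL N) : LaurentSeries Qb).coeff n ∈ A.nonunits) :
    ∃ c : ↥A, c ∈ IsLocalRing.maximalIdeal ↥A ∧ ∃ y : FL N, y ∈ RedPlace.chart A N b ∧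
      x = algebraMap Qb (FL N) (c : Qb) * y := by
  obtain ⟨K, hfin, hK⟩ := ChartLevel.exists_level_one A N b x hx
  obtain ⟨c, hc, hcx⟩ := hK K le_rfl
  obtain ⟨hdvr, π, hπ, hπ0, hmax, -⟩ := Setup.exists_unif (↥K) A hℓ hA
  have hu : RedC.IsCoord (↥K) N (ChartLevel.coordK (↥K) N b) := by
    cases b
    · exact Or.inr rfl
    · exact Or.inl rfl
  -- the `q`-coefficients of `c` lie in the maximal ideal of `A₀`
  have hcoefK : ∀ n : ℤ, (FK.val (↥K) N c).coeff n ∈ (A0.down (↥K) A).nonunits := by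
    intro n
    rw [A0.mem_nonunits_down_iff]
    have h1 := hcoef n
    rw [← hcx, coe_ιL] at h1
    exact h1
  obtain ⟨y0, hy0⟩ : ∃ y0 : LaurentSeries ↥(A0.down (↥K) A),
      GaussA0.incl (A0.down (↥K) A) y0 = FK.val (↥K) N c :=
    (GaussA0.mem_range_incl_iff (A0.down (↥K) A) _).mpr
      (fun n => ValuationSubring.nonunits_subset (hcoefK n))
  have hred : RedC.redC (↥K) N A hℓ hℓN hA π hπ hmax _ hu ⟨c, hc⟩ = 0 := by
    apply Subtype.ext
    rw [RedC.redC_of_coeffMap (↥K) N A hℓ hℓN hA π hπ hmax _ hu ⟨c, hc⟩ y0 hy0.symm]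
    ext n
    rw [coeffMap_coeff]
    have h2 : y0.coeff n ∈ IsLocalRing.maximalIdeal ↥(A0.down (↥K) A) := by
      rw [← ValuationSubring.coe_mem_nonunits_iff]
      have h3 := hcoefK n
      rw [← hy0] at h3
      exact h3
    exact (IsLocalRing.residue_eq_zero_iff _).mpr h2
  obtain ⟨c', hc'⟩ := (RedC.redC_eq_zero_iff (↥K) N A hℓ hℓN hA π hπ hmax _ hu ⟨c, hc⟩).mp hred
  refine ⟨A0.incl (↥K) A π, (A0.incl_mem_maximalIdeal_iff A π).mpr ?_, ιL (↥K) N c'.1,
    ChartLevel.ιL_mem_chart (↥K) A N b c'.1 c'.2, ?_⟩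
  · rw [hmax]
    exact Ideal.mem_span_singleton_self π
  · have h1 : c = algebraMap ↥(A0.down (↥K) A) (FK (↥K) N) π * (c' : FK (↥K) N) :=
      congrArg Subtype.val hc'
    rw [← hcx, h1, map_mul, ChartLevel.ιL_algebraMap_down]
    rfl

/-- **(GS)** a chart element all of whose `q`-coefficients lie in `𝔪_A` has value `0` modulo
`𝔪_A` at every place of its chart. -/
theorem val_eq_zero_of_coeff_mem {ℓ : ℕ} (hℓ : ℓ.Prime) (hℓN : ¬ ℓ ∣ N) (hA : A.LiesOverPrime ℓ)
    (b : Bool) (x : FL N) (hx : x ∈ RedPlace.chart A N b)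
    (hcoef : ∀ n : ℤ, ((x : FL N) : LaurentSeries Qb).coeff n ∈ A.nonunits)
    (P : Place Qb (FL N)) (hP : RedPlace.flag A N P = b) : RedPlace.val A N P x = 0 := by
  obtain ⟨c, hc, y, hy, rfl⟩ := exists_eq_const_mul A N hℓ hℓN hA b x hx hcoef
  subst hP
  rw [RedPlace.val_mul A N P (RedPlace.algebraMap_mem_Rint A N P c)
    (ChartAdapt.chart_le_Rint A N P hy), RedPlace.val_algebraMap,
    (IsLocalRing.residue_eq_zero_iff _).mpr hc, zero_mul]


/-! ### The `q`-expansions of chart elements have coefficients in `A` -/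

/-- The `q`-expansion of the chart coordinate, as a series over `A`. -/
noncomputable def coordSeries (b : Bool) : LaurentSeries ↥A :=
  if b then jqModC ↥A else Fermat.Agent.S28.Defs.jqInv ↥A

theorem incl_coordSeries (b : Bool) :
    GaussA0.incl A (coordSeries A b) = ((RedPlace.coord N b : FL N) : LaurentSeries Qb) := by
  cases b
  · show GaussA0.incl A (Fermat.Agent.S28.Defs.jqInv ↥A) =
      (((jL N)⁻¹ : FL N) : LaurentSeries Qb)
    rw [show GaussA0.incl A (Fermat.Agent.S28.Defs.jqInv ↥A) =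
      Fermat.Agent.S28.Defs.jqInv Qb from Fermat.Agent.S28.Defs.coeffMap_jqInv _,
      Fermat.Agent.S28.Defs.jqInv_eq_inv, IntermediateField.coe_inv, FieldDefQ.coe_jL_eq]
  · exact (GaussA0.incl_jqModC A).trans (FieldDefQ.coe_jL_eq N).symm

/-- the `q`-expansion of an element of the chart ring is integral over `A((q))`. -/
theorem isIntegralElem_incl (b : Bool) (x : FL N) (hx : x ∈ RedPlace.chart A N b) :
    (GaussA0.incl A).IsIntegralElem ((x : FL N) : LaurentSeries Qb) := by
  obtain ⟨p, hp, hpx⟩ := (ChartAdapt.mem_chart_iff_isIntegralElem A N b x).mp hx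
  have hcomp : (GaussA0.incl A).comp
      (Polynomial.eval₂RingHom (HahnSeries.C : ↥A →+* LaurentSeries ↥A) (coordSeries A b)) =
      ((FL N).val : ↥(FL N) →+* LaurentSeries Qb).comp
        (EvalInt.chartHom A (RedPlace.coord N b)) := by
    apply Polynomial.ringHom_ext
    · intro a
      simp only [RingHom.comp_apply, Polynomial.coe_eval₂RingHom, Polynomial.eval₂_C]
      rw [GaussA0.incl_C, ← GaussA0.algebraMap_eq_C]
      rfl
    · simp only [RingHom.comp_apply, Polynomial.coe_eval₂RingHom, Polynomial.eval₂_X]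
      exact incl_coordSeries A N b
  refine ⟨p.map (Polynomial.eval₂RingHom (HahnSeries.C : ↥A →+* LaurentSeries ↥A)
    (coordSeries A b)), hp.map _, ?_⟩
  rw [Polynomial.eval₂_map, hcomp]
  have h := Polynomial.hom_eval₂ p (EvalInt.chartHom A (RedPlace.coord N b))
    ((FL N).val : ↥(FL N) →+* LaurentSeries Qb) x
  rw [hpx, map_zero] at h
  exact h.symm

/-- **the `q`-expansion of an element of the chart ring has coefficients in `A`.** -/
theorem exists_incl_eq {ℓ : ℕ} (hℓ : ℓ.Prime) (hA : A.LiesOverPrime ℓ)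
    (b : Bool) (x : FL N) (hx : x ∈ RedPlace.chart A N b) :
    ∃ y : LaurentSeries ↥A, GaussA0.incl A y = ((x : FL N) : LaurentSeries Qb) := by
  have hxL : ((x : FL N) : LaurentSeries Qb) ∈ modularFunctionFieldFullC Qb N := by
    rw [← FieldDefQ.FL_eq]
    exact x.2
  obtain ⟨a0, b0, hb0, hab⟩ := (GaussA0.mem_fracSubfield_iff A _).mp
    (GaussA0.full_le_fracSubfield A N hxL)
  exact LaurentCIC.exists_incl_eq_of_isIntegral A (ChartLevel.harch A hℓ hA) _ a0 b0 hb0 hab
    (isIntegralElem_incl A N b x hx)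

theorem coeff_mem {ℓ : ℕ} (hℓ : ℓ.Prime) (hA : A.LiesOverPrime ℓ)
    (b : Bool) (x : FL N) (hx : x ∈ RedPlace.chart A N b) (n : ℤ) :
    ((x : FL N) : LaurentSeries Qb).coeff n ∈ A := by
  obtain ⟨y, hy⟩ := exists_incl_eq A N hℓ hA b x hx
  rw [← hy, GaussA0.incl_coeff]
  exact (y.coeff n).2

/-! ### The decomposition group preserves the chart rings -/

open scoped Pointwise in
theorem apply_mem_of_mem_decomposition {σ : Qb ≃ₐ[ℚ] Qb} (hσ : σ ∈ A.decompositionSubgroup ℚ)
    {a : Qb} (ha : a ∈ A) : σ a ∈ A := by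
  have h := ValuationSubring.smul_mem_pointwise_smul σ a A ha
  have h2 : σ • A = A := hσ
  rwa [h2] at h

/-- the coordinate of the chart is fixed by the Galois action. -/
theorem smul_coord (σ : Qb ≃ₐ[ℚ] Qb) (b : Bool) :
    RedPlace.gal N σ • RedPlace.coord N b = RedPlace.coord N b := by
  have hj : RedPlace.gal N σ • jL N = jL N := by
    apply Subtype.ext
    rw [coe_arithmeticGalois_smul, coe_jL, coeffMap_coeffEmb]
  cases b
  · show RedPlace.gal N σ • (jL N)⁻¹ = (jL N)⁻¹
    rw [smul_inv'', hj]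
  · exact hj

/-- **the decomposition group of `A` preserves the chart rings.** -/
theorem smul_mem_chart {σ : Qb ≃ₐ[ℚ] Qb} (hσ : σ ∈ A.decompositionSubgroup ℚ)
    (b : Bool) (x : FL N) (hx : x ∈ RedPlace.chart A N b) :
    RedPlace.gal N σ • x ∈ RedPlace.chart A N b := by
  rw [ChartAdapt.mem_chart_iff_isIntegralElem] at hx ⊢
  obtain ⟨p, hp, hpx⟩ := hx
  -- the restriction of `σ` to `A`
  let σA : ↥A →+* ↥A :=
    ((σ : Qb →+* Qb).comp A.subtype).codRestrict A.toSubring
      (fun a => apply_mem_of_mem_decomposition A hσ a.2)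
  have hcomp : (EvalInt.chartHom A (RedPlace.coord N b)).comp (Polynomial.mapRingHom σA) =
      ((SemilinearAut.toRingAut (RedPlace.gal N σ) : ↥(FL N) ≃+* ↥(FL N)) :
        ↥(FL N) →+* ↥(FL N)).comp (EvalInt.chartHom A (RedPlace.coord N b)) := by
    apply Polynomial.ringHom_ext
    · intro a
      simp only [RingHom.comp_apply, Polynomial.coe_mapRingHom, Polynomial.map_C,
        Polynomial.coe_eval₂RingHom, Polynomial.eval₂_C]
      exact (SemilinearAut.smul_algebraMap (RedPlace.gal N σ) (a : Qb)).symm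
    · simp only [RingHom.comp_apply, Polynomial.coe_mapRingHom, Polynomial.map_X,
        Polynomial.coe_eval₂RingHom, Polynomial.eval₂_X]
      exact (smul_coord N σ b).symm
  refine ⟨p.map (Polynomial.mapRingHom σA), hp.map _, ?_⟩
  rw [Polynomial.eval₂_map, hcomp]
  have h := Polynomial.hom_eval₂ p (EvalInt.chartHom A (RedPlace.coord N b))
    ((SemilinearAut.toRingAut (RedPlace.gal N σ) : ↥(FL N) ≃+* ↥(FL N)) :
      ↥(FL N) →+* ↥(FL N)) x
  rw [hpx, map_zero] at h
  exact h.symm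

/-! ### Inertia -/

/-- for `τ` in the inertia group of `A` and `x` in the chart ring, all `q`-coefficients of
`τ x - x` lie in `𝔪_A`. -/
theorem coeff_smul_sub_mem {ℓ : ℕ} (hℓ : ℓ.Prime) (hA : A.LiesOverPrime ℓ)
    {τ : Qb ≃ₐ[ℚ] Qb} (hτ : τ ∈ A.inertiaSubgroupIn ℚ)
    (b : Bool) (x : FL N) (hx : x ∈ RedPlace.chart A N b) (n : ℤ) :
    ((RedPlace.gal N τ • x - x : FL N) : LaurentSeries Qb).coeff n ∈ A.nonunits := by
  have h1 : ((RedPlace.gal N τ • x - x : FL N) : LaurentSeries Qb) =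
      coeffMap (τ : Qb →+* Qb) ((x : FL N) : LaurentSeries Qb) -
        ((x : FL N) : LaurentSeries Qb) := rfl
  rw [h1, HahnSeries.coeff_sub, coeffMap_coeff]
  exact Fermat.Agent.S05.InertiaAPI.apply_sub_mem_nonunits hτ (coeff_mem A N hℓ hA b x hx n)

/-- **(K)** inertia acts trivially on the values of chart elements modulo `𝔪_A`. -/
theorem val_smul_sub_eq_zero {ℓ : ℕ} (hℓ : ℓ.Prime) (hℓN : ¬ ℓ ∣ N) (hA : A.LiesOverPrime ℓ)
    {τ : Qb ≃ₐ[ℚ] Qb} (hτ : τ ∈ A.inertiaSubgroupIn ℚ)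
    (b : Bool) (x : FL N) (hx : x ∈ RedPlace.chart A N b)
    (P : Place Qb (FL N)) (hP : RedPlace.flag A N P = b) :
    RedPlace.val A N P (RedPlace.gal N τ • x - x) = 0 :=
  val_eq_zero_of_coeff_mem A N hℓ hℓN hA b _
    (sub_mem (smul_mem_chart A N
      (Fermat.Agent.S05.InertiaAPI.mem_decompositionSubgroup hτ) b x hx) hx)
    (coeff_smul_sub_mem A N hℓ hA hτ b x hx) P hP

/-- **(K)**, value form: `(τ x)(P) ≡ x(P)` modulo `𝔪_A`. -/
theorem val_smul_eq {ℓ : ℕ} (hℓ : ℓ.Prime) (hℓN : ¬ ℓ ∣ N) (hA : A.LiesOverPrime ℓ)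
    {τ : Qb ≃ₐ[ℚ] Qb} (hτ : τ ∈ A.inertiaSubgroupIn ℚ)
    (b : Bool) (x : FL N) (hx : x ∈ RedPlace.chart A N b)
    (P : Place Qb (FL N)) (hP : RedPlace.flag A N P = b) :
    RedPlace.val A N P (RedPlace.gal N τ • x) = RedPlace.val A N P x := by
  have h := val_smul_sub_eq_zero A N hℓ hℓN hA hτ b x hx P hP
  subst hP
  have hx' := ChartAdapt.chart_le_Rint A N P hx
  have hτx := ChartAdapt.chart_le_Rint A N P (smul_mem_chart A N
    (Fermat.Agent.S05.InertiaAPI.mem_decompositionSubgroup hτ) _ x hx)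
  rw [RedPlace.val_sub A N P hτx hx', sub_eq_zero] at h
  exact h

end Fermat.Agent.S37.ChartInertia
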