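import Mathlib
import Fermat.Agent.S37.RedPlace

/-!
# S37, block (W2), leaf I6 (first half): the chart switch

`R` a commutative ring, `F` a field over `R`, `j u : F` with `j * u = 1`.  An element `x`
integral over `R[j]` becomes integral over `R[u]` after multiplication by a large power of `u`
(`exists_pow_mul_isIntegral`), and symmetrically.  For the modular function field `FL N` and the
two `j`-charts `RedPlace.chart A N true` (integral over `A[j]`) and `RedPlace.chart A N false`
(integral over `A[1/j]`) this is the chart switch of the leaf (I6):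
`exists_pow_mul_mem_chart_false`, `exists_pow_mul_mem_chart_true`.
-/

set_option autoImplicit false

open Polynomial

namespace Fermat.Agent.S37.ChartSwitch

section Generic

variable {R F : Type*} [CommRing R] [Field F] [Algebra R F]

/-- the chart `R[X] → F`, `X ↦ t`. -/
noncomputable abbrev ev (R : Type*) {F : Type*} [CommRing R] [Field F] [Algebra R F] (t : F) :
    R[X] →+* F :=
  ((aeval t : R[X] →ₐ[R] F) : R[X] →+* F)

theorem ev_apply (t : F) (P : R[X]) : ev R t P = aeval t P := rfl

/-- from the ring-hom form to integrality over `R[t] ⊆ F`. -/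
theorem isIntegral_adjoin_of_isIntegralElem {t x : F} (h : (ev R t).IsIntegralElem x) :
    IsIntegral (Algebra.adjoin R ({t} : Set F)) x := by
  obtain ⟨P, hPm, hP⟩ := h
  let g' : R[X] →+* Algebra.adjoin R ({t} : Set F) :=
    ((aeval (⟨t, Algebra.subset_adjoin rfl⟩ : Algebra.adjoin R ({t} : Set F)) :
      R[X] →ₐ[R] Algebra.adjoin R ({t} : Set F)) : R[X] →+* Algebra.adjoin R ({t} : Set F))
  have hg' : (algebraMap (Algebra.adjoin R ({t} : Set F)) F).comp g' = ev R t := by
    apply Polynomial.ringHom_ext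
    · intro a
      simp [g', ev]
    · simp [g', ev]
  refine ⟨P.map g', hPm.map _, ?_⟩
  rw [Polynomial.eval₂_map, hg']
  exact hP

/-- from integrality over `R[t] ⊆ F` to the ring-hom form. -/
theorem isIntegralElem_of_isIntegral_adjoin {t x : F}
    (h : IsIntegral (Algebra.adjoin R ({t} : Set F)) x) : (ev R t).IsIntegralElem x := by
  obtain ⟨P, hPm, hP⟩ := h
  let g' : R[X] →+* Algebra.adjoin R ({t} : Set F) :=
    ((aeval (⟨t, Algebra.subset_adjoin rfl⟩ : Algebra.adjoin R ({t} : Set F)) :
      R[X] →ₐ[R] Algebra.adjoin R ({t} : Set F)) : R[X] →+* Algebra.adjoin R ({t} : Set F))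
  have hg' : (algebraMap (Algebra.adjoin R ({t} : Set F)) F).comp g' = ev R t := by
    apply Polynomial.ringHom_ext
    · intro a
      simp [g', ev]
    · simp [g', ev]
  have hsurj : Function.Surjective g' := by
    rintro ⟨y, hy⟩
    have hy' := hy
    rw [Algebra.adjoin_singleton_eq_range_aeval] at hy'
    obtain ⟨Q, hQ⟩ := hy'
    refine ⟨Q, Subtype.ext ?_⟩
    have h1 : ((g' Q : Algebra.adjoin R ({t} : Set F)) : F) = ev R t Q := by
      rw [← hg']
      rfl
    rw [h1]
    exact hQ
  have hlift : P ∈ Polynomial.lifts g' := by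
    obtain ⟨Q, hQ⟩ := Polynomial.map_surjective g' hsurj P
    exact (Polynomial.mem_lifts _).mpr ⟨Q, hQ⟩
  obtain ⟨Q, hQ, -, hQm⟩ := Polynomial.lifts_and_degree_eq_and_monic hlift hPm
  refine ⟨Q, hQm, ?_⟩
  rw [← hg', ← Polynomial.eval₂_map, hQ]
  exact hP

theorem isIntegral_adjoin_iff {t x : F} :
    IsIntegral (Algebra.adjoin R ({t} : Set F)) x ↔ (ev R t).IsIntegralElem x :=
  ⟨isIntegralElem_of_isIntegral_adjoin, isIntegral_adjoin_of_isIntegralElem⟩

/-- reflecting a polynomial of degree `≤ d` turns its value at `j` into `u ^ d` times its value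
at `u = 1/j`. -/
theorem ev_reflect {j u : F} (hju : j * u = 1) (d : ℕ) (c : R[X]) (hc : c.natDegree ≤ d) :
    ev R u (reflect d c) = u ^ d * ev R j c := by
  let _ : Invertible j := ⟨u, by rw [mul_comm]; exact hju, hju⟩
  have h := eval₂_reflect_mul_pow (algebraMap R F) j d c hc
  have h1 : ev R u (reflect d c) = eval₂ (algebraMap R F) (⅟j) (reflect d c) := by
    rw [ev_apply, aeval_def]
    rfl
  have h2 : ev R j c = eval₂ (algebraMap R F) j c := by
    rw [ev_apply, aeval_def]
  rw [h1, h2, ← h]
  have h3 : u ^ d * j ^ d = 1 := by rw [← mul_pow, mul_comm, hju, one_pow]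
  calc eval₂ (algebraMap R F) (⅟j) (reflect d c)
      = eval₂ (algebraMap R F) (⅟j) (reflect d c) * (u ^ d * j ^ d) := by rw [h3, mul_one]
    _ = u ^ d * (eval₂ (algebraMap R F) (⅟j) (reflect d c) * j ^ d) := by ring

/-- **The chart switch, ring-hom form.** -/
theorem exists_pow_mul_isIntegralElem {j u : F} (hju : j * u = 1) {x : F}
    (hx : (ev R j).IsIntegralElem x) : ∃ d : ℕ, (ev R u).IsIntegralElem (u ^ d * x) := by
  classical
  have : Nontrivial R := (algebraMap R F).domain_nontrivial
  obtain ⟨p, hpm, hp⟩ := hx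
  set n := p.natDegree with hn
  set d := (Finset.range (n + 1)).sup (fun i => (p.coeff i).natDegree) with hd
  have hdle : ∀ i ∈ Finset.range (n + 1), (p.coeff i).natDegree ≤ d := fun i hi =>
    Finset.le_sup (f := fun i => (p.coeff i).natDegree) hi
  set q : R[X][X] := ∑ i ∈ Finset.range (n + 1), monomial i (reflect d (p.coeff i)) with hq
  have hqeval : eval₂ (ev R u) x q = 0 := by
    rw [hq, eval₂_finsetSum]
    have h1 : ∀ i ∈ Finset.range (n + 1),
        eval₂ (ev R u) x (monomial i (reflect d (p.coeff i))) =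
          u ^ d * (ev R j (p.coeff i) * x ^ i) := by
      intro i hi
      rw [eval₂_monomial, ev_reflect hju d _ (hdle i hi), mul_assoc]
    rw [Finset.sum_congr rfl h1, ← Finset.mul_sum,
      ← eval₂_eq_sum_range' (ev R j) (Nat.lt_succ_self n) x, hp, mul_zero]
  have hqcoeff : q.coeff n = X ^ d := by
    rw [hq, finsetSum_coeff]
    have h1 : ∀ i ∈ Finset.range (n + 1),
        (monomial i (reflect d (p.coeff i))).coeff n = if i = n then X ^ d else 0 := by
      intro i _
      rw [coeff_monomial]
      split_ifs with h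
      · subst h
        have : p.coeff p.natDegree = 1 := hpm
        rw [this, reflect_one]
      · rfl
    rw [Finset.sum_congr rfl h1, Finset.sum_ite_eq' (Finset.range (n + 1)) n,
      if_pos (Finset.mem_range.mpr (Nat.lt_succ_self n))]
  have hXd : (X : R[X]) ^ d ≠ 0 := (monic_X_pow d).ne_zero
  have hqdeg : q.natDegree = n := by
    apply le_antisymm
    · rw [hq]
      apply natDegree_sum_le_of_forall_le
      intro i hi
      exact (natDegree_monomial_le _).trans (Nat.lt_succ_iff.mp (Finset.mem_range.mp hi))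
    · apply le_natDegree_of_ne_zero
      rw [hqcoeff]
      exact hXd
  have hlead : q.leadingCoeff = X ^ d := by
    rw [leadingCoeff, hqdeg, hqcoeff]
  have h := RingHom.isIntegralElem_leadingCoeff_mul (ev R u) q x hqeval
  rw [hlead] at h
  refine ⟨d, ?_⟩
  have h2 : ev R u (X ^ d) = u ^ d := by simp [ev]
  rwa [h2] at h

/-- **The chart switch, ring-hom form, for all large exponents.** -/
theorem exists_forall_pow_mul_isIntegralElem {j u : F} (hju : j * u = 1) {x : F}
    (hx : (ev R j).IsIntegralElem x) :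
    ∃ d : ℕ, ∀ m : ℕ, d ≤ m → (ev R u).IsIntegralElem (u ^ m * x) := by
  obtain ⟨d, hd⟩ := exists_pow_mul_isIntegralElem hju hx
  refine ⟨d, fun m hm => ?_⟩
  have h1 : u ^ m * x = ev R u (X ^ (m - d)) * (u ^ d * x) := by
    have h2 : ev R u (X ^ (m - d)) = u ^ (m - d) := by simp [ev]
    rw [h2, ← mul_assoc, ← pow_add, Nat.sub_add_cancel hm]
  rw [h1]
  exact RingHom.IsIntegralElem.mul _ (RingHom.isIntegralElem_map _) hd

/-- **The chart switch**: `x` integral over `R[j]`, `j u = 1` ⟹ `u ^ m * x` integral over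
`R[u]` for all large `m`. -/
theorem exists_pow_mul_isIntegral {j u : F} (hju : j * u = 1) {x : F}
    (hx : IsIntegral (Algebra.adjoin R ({j} : Set F)) x) :
    ∃ d : ℕ, ∀ m : ℕ, d ≤ m → IsIntegral (Algebra.adjoin R ({u} : Set F)) (u ^ m * x) := by
  obtain ⟨d, hd⟩ := exists_forall_pow_mul_isIntegralElem hju (isIntegralElem_of_isIntegral_adjoin hx)
  exact ⟨d, fun m hm => isIntegral_adjoin_of_isIntegralElem (hd m hm)⟩

end Generic

section Modular

open AlgebraicCurve ModularCurve
open Fermat.Agent.S18.S24Export Fermat.Agent.S37.RedPlace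

local notation "Qb" => AlgebraicClosure ℚ

variable (A : ValuationSubring Qb) (N : ℕ) [NeZero N]

theorem coord_mul_coord_not (b : Bool) : coord N b * coord N (!b) = 1 := by
  cases b
  · show (jL N)⁻¹ * jL N = 1
    exact inv_mul_cancel₀ (jL_ne_zero N)
  · show jL N * (jL N)⁻¹ = 1
    exact mul_inv_cancel₀ (jL_ne_zero N)

theorem coord_ne_zero (b : Bool) : coord N b ≠ 0 :=
  left_ne_zero_of_mul_eq_one (coord_mul_coord_not N b)

theorem coord_mem_chart (b : Bool) : coord N b ∈ chart A N b := by
  rw [mem_chart_iff]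
  have h : coord N b ∈ Algebra.adjoin ↥A ({coord N b} : Set (FL N)) := Algebra.subset_adjoin rfl
  exact (isIntegral_algebraMap (R := ↥(Algebra.adjoin ↥A ({coord N b} : Set (FL N))))
    (A := FL N) (x := ⟨coord N b, h⟩))

/-- **Chart switch (leaf I6, second half).**  An element of the chart `D_b` times a large power
of the coordinate of the other chart lies in the other chart. -/
theorem exists_pow_mul_mem_chart (b : Bool) {a : FL N} (ha : a ∈ chart A N b) :
    ∃ d : ℕ, ∀ m : ℕ, d ≤ m → coord N (!b) ^ m * a ∈ chart A N (!b) := by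
  rw [mem_chart_iff] at ha
  obtain ⟨d, hd⟩ := exists_pow_mul_isIntegral (coord_mul_coord_not N b) ha
  exact ⟨d, fun m hm => (mem_chart_iff A N (!b) _).mpr (hd m hm)⟩

/-- from the finite chart to the chart at infinity: `a * (1/j) ^ m ∈ D_∞` for `m` large. -/
theorem exists_pow_mul_mem_chart_false {a : FL N} (ha : a ∈ chart A N true) :
    ∃ d : ℕ, ∀ m : ℕ, d ≤ m → a * (jL N)⁻¹ ^ m ∈ chart A N false := by
  obtain ⟨d, hd⟩ := exists_pow_mul_mem_chart A N true ha
  refine ⟨d, fun m hm => ?_⟩
  rw [mul_comm]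
  exact hd m hm

/-- from the chart at infinity to the finite chart: `a * j ^ m ∈ D_fin` for `m` large. -/
theorem exists_pow_mul_mem_chart_true {a : FL N} (ha : a ∈ chart A N false) :
    ∃ d : ℕ, ∀ m : ℕ, d ≤ m → a * (jL N) ^ m ∈ chart A N true := by
  obtain ⟨d, hd⟩ := exists_pow_mul_mem_chart A N false ha
  refine ⟨d, fun m hm => ?_⟩
  rw [mul_comm]
  exact hd m hm

end Modular

end Fermat.Agent.S37.ChartSwitch
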