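import Mathlib
import Fermat.Agent.S18.CoverBaseS
import Fermat.Agent.S18.CoverData
import Fermat.Agent.S37.CoverHyps

set_option autoImplicit false

noncomputable section

open Polynomial AlgebraicCurve ModularCurve

namespace Fermat.Agent.S37.CoverDesc

open Fermat.Agent.S18 Fermat.Agent.S18.Setup Fermat.Agent.S18.S24Export
open Fermat.Agent.S37.CoverDefs Fermat.Agent.S37.CoverHyps

local notation "Qb" => AlgebraicClosure ℚ

variable (N : ℕ) [NeZero N]

/-- **(D), cover3** (used for `ℓ ≠ 2`). -/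
theorem exists_hDesc3 :
    ∃ (m : (FL N)[X]) (Kb : IntermediateField ℚ Qb), m.Monic ∧ Irreducible m ∧
      FiniteDimensional ℚ Kb ∧ HDesc N m (Good3 N) Kb := by
  obtain ⟨Kb, hKb, m, hm, hirr, -, -, hdesc⟩ := CoverBaseS.exists_cover3 N 2 Nat.prime_two (by decide)
  refine ⟨m, Kb, hm, hirr, hKb, ?_⟩
  intro K _ hle
  obtain ⟨m0, h1, h2, h3, -, -, h6⟩ := hdesc K hle
  refine ⟨m0, h1, h2, h3, ?_⟩
  exact (CoverData.aeval_g3_eq_zero_iff (jF K N) (AdjoinRoot.root m0)).mp h6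

/-- **(D), cover2** (used for `ℓ ≠ 3`). -/
theorem exists_hDesc2 :
    ∃ (m : (FL N)[X]) (Kb : IntermediateField ℚ Qb), m.Monic ∧ Irreducible m ∧
      FiniteDimensional ℚ Kb ∧ HDesc N m (Good2 N) Kb := by
  obtain ⟨Kb, hKb, m, hm, hirr, -, -, hdesc⟩ := CoverBaseS.exists_cover2 N 3 Nat.prime_three (by decide)
  refine ⟨m, Kb, hm, hirr, hKb, ?_⟩
  intro K _ hle
  obtain ⟨m0, h1, h2, h3, -, -, h6⟩ := hdesc K hle
  refine ⟨m0, h1, h2, h3, ?_⟩
  exact (CoverData.aeval_g2_eq_zero_iff (jF K N) (AdjoinRoot.root m0)).mp h6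

end Fermat.Agent.S37.CoverDesc
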