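/-
S37, cover chain: the descent datum `HDesc` for EVERY monic irreducible factor of the cover
polynomial (not only for the factor chosen in `CoverAsm.exists_cover3_desc`).

`CoverAsm.Leaves` quantifies over all monic irreducible `m ∣ g3 (jL N)` (resp. `g2`); a leaf
whose proof needs a level where `m` descends gets it from here.
-/
import Mathlib
import Fermat.Agent.S18.CoverBaseS
import Fermat.Agent.S18.CoverData
import Fermat.Agent.S37.CoverHyps

set_option autoImplicit false

noncomputable section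

open Polynomial AlgebraicCurve ModularCurve

namespace Fermat.Agent.S37.CoverDescAny

open Fermat.Agent.S18 Fermat.Agent.S18.Setup Fermat.Agent.S18.S24Export
open Fermat.Agent.S37.CoverDefs Fermat.Agent.S37.CoverHyps

local notation "Qb" => AlgebraicClosure ℚ

variable (N : ℕ) [NeZero N]

/-- **(D) for any factor, cover3**: every monic irreducible factor `m` of `g3 (jL N)` descends,
with the relation `j h² = (h + 256)³`, to every level above some number field `Kb`. -/
theorem exists_hDesc_of_dvd3 (m : (FL N)[X]) (hm : m.Monic) (hirr : Irreducible m)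
    (hdvd : m ∣ CoverData.g3 (jL N)) :
    ∃ Kb : IntermediateField ℚ Qb, FiniteDimensional ℚ Kb ∧ HDesc N m (Good3 N) Kb := by
  obtain ⟨Kb, hKb, hcoef⟩ := CoverBaseS.exists_base_field N m
  refine ⟨Kb, hKb, fun K _ hle => ?_⟩
  obtain ⟨m0, h1, h2, h3, -⟩ := CoverBaseS.exists_descent ↥K m hm hirr (hcoef K hle)
  have h5 : m0.map (ιL ↥K N) ∣ CoverData.g3 (jL N) := h3 ▸ hdvd
  exact ⟨m0, h1, h2, h3,
    (CoverData.aeval_g3_eq_zero_iff (jF K N) (AdjoinRoot.root m0)).mp
      (CoverBaseS.aeval_root_g3 ↥K m0 h5)⟩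

/-- **(D) for any factor, cover2**: every monic irreducible factor `m` of `g2 (jL N)` descends,
with the relation `j h = (h + 27)(h + 3)³`, to every level above some number field `Kb`. -/
theorem exists_hDesc_of_dvd2 (m : (FL N)[X]) (hm : m.Monic) (hirr : Irreducible m)
    (hdvd : m ∣ CoverData.g2 (jL N)) :
    ∃ Kb : IntermediateField ℚ Qb, FiniteDimensional ℚ Kb ∧ HDesc N m (Good2 N) Kb := by
  obtain ⟨Kb, hKb, hcoef⟩ := CoverBaseS.exists_base_field N m
  refine ⟨Kb, hKb, fun K _ hle => ?_⟩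
  obtain ⟨m0, h1, h2, h3, -⟩ := CoverBaseS.exists_descent ↥K m hm hirr (hcoef K hle)
  have h5 : m0.map (ιL ↥K N) ∣ CoverData.g2 (jL N) := h3 ▸ hdvd
  exact ⟨m0, h1, h2, h3,
    (CoverData.aeval_g2_eq_zero_iff (jF K N) (AdjoinRoot.root m0)).mp
      (CoverBaseS.aeval_root_g2 ↥K m0 h5)⟩

/-- `Fact`-instance form, cover3 (the binders available inside `CoverAsm.Leaves`). -/
theorem exists_hDesc3 (m : (FL N)[X]) [hirr : Fact (Irreducible m)] (hm : m.Monic)
    (hdvd : m ∣ CoverData.g3 (jL N)) :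
    ∃ Kb : IntermediateField ℚ Qb, FiniteDimensional ℚ Kb ∧ HDesc N m (Good3 N) Kb :=
  exists_hDesc_of_dvd3 N m hm hirr.out hdvd

/-- `Fact`-instance form, cover2. -/
theorem exists_hDesc2 (m : (FL N)[X]) [hirr : Fact (Irreducible m)] (hm : m.Monic)
    (hdvd : m ∣ CoverData.g2 (jL N)) :
    ∃ Kb : IntermediateField ℚ Qb, FiniteDimensional ℚ Kb ∧ HDesc N m (Good2 N) Kb :=
  exists_hDesc_of_dvd2 N m hm hirr.out hdvd

end Fermat.Agent.S37.CoverDescAny

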