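import Mathlib
import Fermat.Agent.S18.CoreDefs
import Fermat.Agent.S18.AdjoinChart
import Fermat.Agent.S18.ChartGlue
import Fermat.Agent.S18.IntConst
import Fermat.Agent.S37.NormalJ
import Fermat.Agent.S37.FibreH
import Fermat.Agent.S37.CoverIdem
import Fermat.Agent.S37.PrimePi
import Fermat.Agent.S37.CoverDefs

/-!
# S37, cover chain: the fibre package (G) + (H), both charts (`b : Bool`), both covers

Sealed carriers of `S18.Top23` with a GENERIC field `K` inside `ℚ̄` (`A₀ = A ∩ K`,
`F# = AdjoinRoot m0`, `Mh = Line K (root m0)`), chart coordinates `tK N m0 b` of `CoverDefs`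
(`b = true`: `h`, `b = false`: `h⁻¹`). For `C_b = integralClosure (chart A₀ Mh (tK N m0 b)) F#`:

* `C_b` is Noetherian;
* `π` is a prime element of `C_b` (irreducibility of the special fibre);
* every closed point `n ∋ π` of `C_b` is generated by `π` and one more element locally at `n`
  (the hypothesis `hmax` of `ZeroSum.exists_sub_mul_mem`);
* `F#` is the fraction field of `C_b` (elementwise).

`fibre3` (`ℓ ≠ 2`, the cover `j h² = (h + 256)³`) and `fibre2` (`ℓ ≠ 3`, the cover
`j h = (h + 27)(h + 3)³`); the hypothesis `hrelF` is `CoverHyps.Good3 N K m0` resp.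
`CoverHyps.Good2 N K m0` unfolded. The statements are for a generic `K : Type*` on purpose: for
`K : IntermediateField ℚ ℚ̄` the search for the instance `Algebra A₀ C_b` is slow, so consumers
should work with a generic `K` and specialise at the very end.
-/

set_option autoImplicit false
set_option linter.unusedSectionVars false
set_option linter.style.haveILetI false

open Polynomial AlgebraicCurve ModularCurve

namespace Fermat.Agent.S37.CoverFibre

open Fermat.Agent.S18 Fermat.Agent.S18.CoreDefs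

open Fermat.Agent.S18.Setup Fermat.Agent.S18.S24Export

open Fermat.Agent.S37.CoverDefs

local notation "Qb" => AlgebraicClosure ℚ

/-! ### The fraction field of the integral closure of a chart ring -/

section Frac

variable {A0 : Type*} [CommRing A0] (M : Type*) [Field M] [Algebra A0 M]
  (E : Type*) [Field E] [Algebra M E] [Algebra A0 E] [IsScalarTower A0 M E]
  [FiniteDimensional M E]

/-- Every element of `E` is a quotient of two elements of the integral closure of the chart
ring, with denominator in the chart ring. -/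
theorem exists_frac (t : M)
    (hgen : ∀ m : M, ∃ a b : chart A0 M t, b ≠ 0 ∧ m * (b : M) = (a : M)) (f : E) :
    ∃ x y : ↥(integralClosure (chart A0 M t) E), (y : E) ≠ 0 ∧ f * (y : E) = (x : E) := by
  have hfr := AdjoinChart.isFractionRing M t hgen
  have h1 : Algebra.IsAlgebraic (chart A0 M t) M :=
    IsLocalization.isAlgebraic M (nonZeroDivisors (chart A0 M t))
  have h2 : Algebra.IsAlgebraic M E := Algebra.IsAlgebraic.of_finite M E
  have h3 : Algebra.IsAlgebraic (chart A0 M t) E := Algebra.IsAlgebraic.trans (chart A0 M t) M E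
  obtain ⟨y, hy0, hy⟩ := (h3.isAlgebraic f).exists_integral_multiple
  have hyE : algebraMap (chart A0 M t) E y ≠ 0 := by
    rw [IsScalarTower.algebraMap_apply (chart A0 M t) M E]
    intro h0
    have h4 := (algebraMap M E).injective (h0.trans (map_zero _).symm)
    exact hy0 (Subtype.ext h4)
  refine ⟨⟨y • f, hy⟩, algebraMap (chart A0 M t) _ y, hyE, ?_⟩
  show f * algebraMap (chart A0 M t) E y = y • f
  rw [Algebra.smul_def, mul_comm]

end Frac

/-! ### The package -/

section Package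

variable (K : Type*) [Field K] [Algebra K Qb] [Algebra ℚ K] [FiniteDimensional ℚ K]
  (N : ℕ) [NeZero N] (A : ValuationSubring Qb)
  (m0 : (FK K N)[X]) [Fact (Irreducible m0)] [Fact (Irreducible (m0.map (ιL K N)))]

/-- **(G) + (H) for the `X₀(2)`-cover `j h² = (h + 256)³`** (`ℓ ≠ 2`, `ℓ ∤ N`), both charts: the integral closure
`C_b` of the chart ring in `F#` is Noetherian, `π` is prime in it, its closed points on the special
fibre are locally generated by `π` and one more element, and `F#` is its fraction field. -/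
theorem fibre3 {ℓ : ℕ} (hℓ : ℓ.Prime) (hℓN : ¬ ℓ ∣ N) (hℓ2 : ℓ ≠ 2)
    (hA : A.LiesOverPrime ℓ) (hm0 : m0.Monic)
    (hrelF : algebraMap (FK K N) (AdjoinRoot m0) (jF K N) * AdjoinRoot.root m0 ^ 2 =
      (AdjoinRoot.root m0 + 256) ^ 3)
    (π : ↥(A0.down K A)) (hπ : Irreducible π)
    (hmax : IsLocalRing.maximalIdeal ↥(A0.down K A) = Ideal.span {π}) (b : Bool) :
    IsNoetherianRing ↥(integralClosure
        (chart ↥(A0.down K A) (Line K (AdjoinRoot.root m0)) (tK N m0 b)) (AdjoinRoot m0)) ∧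
      Prime (algebraMap ↥(A0.down K A) ↥(integralClosure
        (chart ↥(A0.down K A) (Line K (AdjoinRoot.root m0)) (tK N m0 b)) (AdjoinRoot m0)) π) ∧
      (∀ n : Ideal ↥(integralClosure
        (chart ↥(A0.down K A) (Line K (AdjoinRoot.root m0)) (tK N m0 b)) (AdjoinRoot m0)),
        n.IsMaximal →
        algebraMap ↥(A0.down K A) ↥(integralClosure
        (chart ↥(A0.down K A) (Line K (AdjoinRoot.root m0)) (tK N m0 b)) (AdjoinRoot m0)) π ∈ n →
        ∃ s ∈ n, ∀ x ∈ n, ∃ w, w ∉ n ∧
          w * x ∈ Ideal.span {algebraMap ↥(A0.down K A) ↥(integralClosure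
        (chart ↥(A0.down K A) (Line K (AdjoinRoot.root m0)) (tK N m0 b)) (AdjoinRoot m0)) π,
            s}) ∧
      ∀ f : AdjoinRoot m0, ∃ x y : ↥(integralClosure
        (chart ↥(A0.down K A) (Line K (AdjoinRoot.root m0)) (tK N m0 b)) (AdjoinRoot m0)),
        (y : AdjoinRoot m0) ≠ 0 ∧ f * (y : AdjoinRoot m0) = (x : AdjoinRoot m0) := by
  have hdvr : IsDiscreteValuationRing ↥(A0.down K A) := NormalJ.dvr K A hℓ hA
  haveI : FiniteDimensional (Line K (AdjoinRoot.root m0)) (AdjoinRoot m0) :=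
    FibreH.finiteDimensional_line3 K N m0 hm0 hrelF
  have ht : Transcendental ↥(A0.down K A) (Line.gen K (AdjoinRoot.root m0)) :=
    FibreH.transcendental_gen3 K N A m0 hrelF
  have ht0 : Line.gen K (AdjoinRoot.root m0) ≠ 0 := fun h0 => ht (h0 ▸ isAlgebraic_zero)
  have hgen := CoverIdem.hgen_line K N A m0
  obtain ⟨h2f, h2i⟩ := CoverIdem.h2Hyp_sealed3 K N A m0 hℓ hℓN hℓ2 hA hm0 hrelF π hπ hmax
  cases b
  · have ht' := IntConst.transcendental_inv _ ht
    have hgen' := ChartGlue.hgen_inv _ ht0 hgen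
    have hprime := PrimePi.prime_of_idem (Line K (AdjoinRoot.root m0)) (AdjoinRoot m0) π hπ
      (Line.gen K (AdjoinRoot.root m0))⁻¹ ht' hgen' h2i (fun e he hid =>
        CoverIdem.exists_const_of_idem_inv3 K N A m0 hℓ hℓN hℓ2 hA hm0 hrelF π hπ hmax e he hid)
    exact ⟨FibreH.isNoetherianRing_inv3 K N A m0 hℓ hA hm0 hrelF, hprime,
      FibreH.hmax_inv3' K N A m0 hℓ hℓN hℓ2 hA hm0 hrelF π hπ hmax hprime,
      exists_frac (Line K (AdjoinRoot.root m0)) (AdjoinRoot m0) _ hgen'⟩
  · have hprime := PrimePi.prime_of_idem (Line K (AdjoinRoot.root m0)) (AdjoinRoot m0) π hπ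
      (Line.gen K (AdjoinRoot.root m0)) ht hgen h2f (fun e he hid =>
        CoverIdem.exists_const_of_idem3 K N A m0 hℓ hℓN hℓ2 hA hm0 hrelF π hπ hmax e he hid)
    exact ⟨FibreH.isNoetherianRing_fin3 K N A m0 hℓ hA hm0 hrelF, hprime,
      FibreH.hmax_fin3' K N A m0 hℓ hℓN hℓ2 hA hm0 hrelF π hπ hmax hprime,
      exists_frac (Line K (AdjoinRoot.root m0)) (AdjoinRoot m0) _ hgen⟩

/-- **(G) + (H) for the `X₀(3)`-cover `j h = (h + 27)(h + 3)³`** (`ℓ ≠ 3`, `ℓ ∤ N`), both charts: the integral closure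
`C_b` of the chart ring in `F#` is Noetherian, `π` is prime in it, its closed points on the special
fibre are locally generated by `π` and one more element, and `F#` is its fraction field. -/
theorem fibre2 {ℓ : ℕ} (hℓ : ℓ.Prime) (hℓN : ¬ ℓ ∣ N) (hℓ3 : ℓ ≠ 3)
    (hA : A.LiesOverPrime ℓ) (hm0 : m0.Monic)
    (hrelF : algebraMap (FK K N) (AdjoinRoot m0) (jF K N) * AdjoinRoot.root m0 =
      (AdjoinRoot.root m0 + 27) * (AdjoinRoot.root m0 + 3) ^ 3)
    (π : ↥(A0.down K A)) (hπ : Irreducible π)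
    (hmax : IsLocalRing.maximalIdeal ↥(A0.down K A) = Ideal.span {π}) (b : Bool) :
    IsNoetherianRing ↥(integralClosure
        (chart ↥(A0.down K A) (Line K (AdjoinRoot.root m0)) (tK N m0 b)) (AdjoinRoot m0)) ∧
      Prime (algebraMap ↥(A0.down K A) ↥(integralClosure
        (chart ↥(A0.down K A) (Line K (AdjoinRoot.root m0)) (tK N m0 b)) (AdjoinRoot m0)) π) ∧
      (∀ n : Ideal ↥(integralClosure
        (chart ↥(A0.down K A) (Line K (AdjoinRoot.root m0)) (tK N m0 b)) (AdjoinRoot m0)),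
        n.IsMaximal →
        algebraMap ↥(A0.down K A) ↥(integralClosure
        (chart ↥(A0.down K A) (Line K (AdjoinRoot.root m0)) (tK N m0 b)) (AdjoinRoot m0)) π ∈ n →
        ∃ s ∈ n, ∀ x ∈ n, ∃ w, w ∉ n ∧
          w * x ∈ Ideal.span {algebraMap ↥(A0.down K A) ↥(integralClosure
        (chart ↥(A0.down K A) (Line K (AdjoinRoot.root m0)) (tK N m0 b)) (AdjoinRoot m0)) π,
            s}) ∧
      ∀ f : AdjoinRoot m0, ∃ x y : ↥(integralClosure
        (chart ↥(A0.down K A) (Line K (AdjoinRoot.root m0)) (tK N m0 b)) (AdjoinRoot m0)),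
        (y : AdjoinRoot m0) ≠ 0 ∧ f * (y : AdjoinRoot m0) = (x : AdjoinRoot m0) := by
  have hdvr : IsDiscreteValuationRing ↥(A0.down K A) := NormalJ.dvr K A hℓ hA
  haveI : FiniteDimensional (Line K (AdjoinRoot.root m0)) (AdjoinRoot m0) :=
    FibreH.finiteDimensional_line2 K N m0 hm0 hrelF
  have ht : Transcendental ↥(A0.down K A) (Line.gen K (AdjoinRoot.root m0)) :=
    FibreH.transcendental_gen2 K N A m0 hrelF
  have ht0 : Line.gen K (AdjoinRoot.root m0) ≠ 0 := fun h0 => ht (h0 ▸ isAlgebraic_zero)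
  have hgen := CoverIdem.hgen_line K N A m0
  obtain ⟨h2f, h2i⟩ := CoverIdem.h2Hyp_sealed2 K N A m0 hℓ hℓN hℓ3 hA hm0 hrelF π hπ hmax
  cases b
  · have ht' := IntConst.transcendental_inv _ ht
    have hgen' := ChartGlue.hgen_inv _ ht0 hgen
    have hprime := PrimePi.prime_of_idem (Line K (AdjoinRoot.root m0)) (AdjoinRoot m0) π hπ
      (Line.gen K (AdjoinRoot.root m0))⁻¹ ht' hgen' h2i (fun e he hid =>
        CoverIdem.exists_const_of_idem_inv2 K N A m0 hℓ hℓN hℓ3 hA hm0 hrelF π hπ hmax e he hid)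
    exact ⟨FibreH.isNoetherianRing_inv2 K N A m0 hℓ hA hm0 hrelF, hprime,
      FibreH.hmax_inv2' K N A m0 hℓ hℓN hℓ3 hA hm0 hrelF π hπ hmax hprime,
      exists_frac (Line K (AdjoinRoot.root m0)) (AdjoinRoot m0) _ hgen'⟩
  · have hprime := PrimePi.prime_of_idem (Line K (AdjoinRoot.root m0)) (AdjoinRoot m0) π hπ
      (Line.gen K (AdjoinRoot.root m0)) ht hgen h2f (fun e he hid =>
        CoverIdem.exists_const_of_idem2 K N A m0 hℓ hℓN hℓ3 hA hm0 hrelF π hπ hmax e he hid)
    exact ⟨FibreH.isNoetherianRing_fin2 K N A m0 hℓ hA hm0 hrelF, hprime,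
      FibreH.hmax_fin2' K N A m0 hℓ hℓN hℓ3 hA hm0 hrelF π hπ hmax hprime,
      exists_frac (Line K (AdjoinRoot.root m0)) (AdjoinRoot m0) _ hgen⟩

end Package

end Fermat.Agent.S37.CoverFibre
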