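/-
S37 (W2, cover chain, leaf (E), abstract core): a maximal ideal of the Gauss ring.

Vocabulary of `S18.CoreDefs`: `A0` a discrete valuation ring with uniformizer `π`, `M` the
function field of a line with coordinate `t` (transcendental over `A0`, `M = Frac A0[t]`), `E` a
field extension of `M`.  The elements `x` with `InGauss A0 M E t π x` form a subring `B` of `E`
(the Gauss ring `O''`), in which `π` is not a unit; so `B` has a maximal ideal `𝔪 ∋ π`, and
`ρ : B → B ⧸ 𝔪` is a "reduction" into a field in the sense of `ChartConst`.  No irreducibility of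
the special fibre is needed.

* `gaussB`                : the Gauss ring as a subring;
* `exists_monic_not_unit` : if `x ≡ c` modulo `π O''` with `c` integral over `A0[t]` and
  `x ≡ c'` modulo `π O''` with `c'` integral over `A0[1/t]`, then there is a monic `P ∈ A0[X]`
  such that `P(x)` is not a unit of the Gauss ring ("the reduction of `x` is algebraic over the
  residue field of `A0` at some point of the special fibre").
-/
import Mathlib
import Fermat.Agent.S18.CoreDefs
import Fermat.Agent.S18.KummerLayer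
import Fermat.Agent.S18.AdjoinChart
import Fermat.Agent.S18.GaussSwap
import Fermat.Agent.S18.IntConst
import Fermat.Agent.S37.ChartConst

set_option autoImplicit false
set_option linter.unusedSectionVars false

namespace Fermat.Agent.S37.GaussMax

open Polynomial Fermat.Agent.S18 Fermat.Agent.S18.CoreDefs

section

variable {A0 : Type*} [CommRing A0] [IsDomain A0] (M : Type*) [Field M] [Algebra A0 M]
  (E : Type*) [Field E] [Algebra M E] [Algebra A0 E] [IsScalarTower A0 M E]

/-- The Gauss ring `O'' = {x | InGauss x}` as a subring of `E`. -/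
def gaussB (t : M) (π : A0) (hprime : Prime (unif A0 M t π)) : Subring E where
  carrier := {x | InGauss A0 M E t π x}
  mul_mem' := fun hx hy => KummerLayer.inGauss_mul hprime hx hy
  one_mem' := KummerLayer.inGauss_one hprime
  add_mem' := fun hx hy => KummerLayer.inGauss_add hprime hx hy
  zero_mem' := KummerLayer.inGauss_zero hprime
  neg_mem' := by
    rintro x ⟨s, hs, h⟩
    exact ⟨s, hs, by rw [smul_neg]; exact h.neg⟩

theorem mem_gaussB_iff (t : M) (π : A0) (hprime : Prime (unif A0 M t π)) (x : E) :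
    x ∈ gaussB M E t π hprime ↔ InGauss A0 M E t π x := Iff.rfl

variable {M E}

/-- The inverse of a chart element not divisible by `π` lies in the Gauss ring. -/
theorem inGauss_inv_chart {t : M} {π : A0} (s : chart A0 M t) (hs : ¬ unif A0 M t π ∣ s) :
    InGauss A0 M E t π (algebraMap M E (s : M))⁻¹ := by
  have hs0 : (s : M) ≠ 0 := by
    intro h0
    apply hs
    have : s = 0 := Subtype.ext h0
    rw [this]
    exact dvd_zero _
  refine ⟨s, hs, ?_⟩
  have h1 : s • (algebraMap M E (s : M))⁻¹ = 1 := by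
    rw [Algebra.smul_def]
    have h2 : algebraMap (chart A0 M t) E s = algebraMap M E (s : M) := rfl
    rw [h2]
    exact mul_inv_cancel₀ (by rwa [Ne, map_eq_zero])
  rw [h1]
  exact isIntegral_one

/-- An element of `π O''` is `π` times an element of the Gauss ring. -/
theorem exists_eq_smul_of_inPiGauss {t : M} {π : A0} {z : E} (hz : InPiGauss A0 M E t π z) :
    ∃ b : E, InGauss A0 M E t π b ∧ z = algebraMap A0 E π * b := by
  obtain ⟨s, hs, c₀, hc₀, h⟩ := hz
  have hs0 : (s : M) ≠ 0 := by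
    intro h0
    apply hs
    have : s = 0 := Subtype.ext h0
    rw [this]
    exact dvd_zero _
  have hsE : algebraMap M E (s : M) ≠ 0 := by rwa [Ne, map_eq_zero]
  have h2 : algebraMap (chart A0 M t) E s = algebraMap M E (s : M) := rfl
  refine ⟨(algebraMap M E (s : M))⁻¹ * c₀, ⟨s, hs, ?_⟩, ?_⟩
  · have h1 : s • ((algebraMap M E (s : M))⁻¹ * c₀) = c₀ := by
      rw [Algebra.smul_def, h2, ← mul_assoc, mul_inv_cancel₀ hsE, one_mul]
    rw [h1]
    exact hc₀
  · have h3 : algebraMap M E (s : M) * z = algebraMap A0 E π * c₀ := by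
      rw [← h2, ← Algebra.smul_def, h, Algebra.smul_def]
    calc z = (algebraMap M E (s : M))⁻¹ * (algebraMap M E (s : M) * z) := by
          rw [← mul_assoc, inv_mul_cancel₀ hsE, one_mul]
      _ = algebraMap A0 E π * ((algebraMap M E (s : M))⁻¹ * c₀) := by
          rw [h3]; ring

end

section Main

variable {A0 : Type*} [CommRing A0] [IsDomain A0] [IsDiscreteValuationRing A0]
  (M : Type*) [Field M] [Algebra A0 M]
  (E : Type*) [Field E] [Algebra M E] [Algebra A0 E] [IsScalarTower A0 M E]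

/-- **A point of the special fibre at which the reduction is algebraic.**  If `x ≡ c` modulo
`π O''` with `c` integral over the chart `A0[t]`, and `x ≡ c'` modulo `π O''` with `c'` integral
over the chart `A0[1/t]`, then some monic `P ∈ A0[X]` makes `P(x)` a non-unit of the Gauss ring
`O''`. -/
theorem exists_monic_not_unit (π : A0) (hπ : Irreducible π) (t : M) (ht : Transcendental A0 t)
    (hgen : ∀ m : M, ∃ a b : chart A0 M t, b ≠ 0 ∧ m * (b : M) = (a : M))
    (x c c' : E) (hc : IsIntegral (chart A0 M t) c) (hxc : InPiGauss A0 M E t π (x - c))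
    (hc' : IsIntegral (chart A0 M t⁻¹) c') (hxc' : InPiGauss A0 M E t⁻¹ π (x - c')) :
    ∃ P : A0[X], P.Monic ∧ ∀ u : E, InGauss A0 M E t π u → u * aeval x P ≠ 1 := by
  classical
  have hprime := AdjoinChart.prime_unif M t ht π hπ
  have hic := AdjoinChart.isIntegrallyClosed M t ht
  have hfr := AdjoinChart.isFractionRing M t hgen
  have ht' := IntConst.transcendental_inv t ht
  have hprime' := AdjoinChart.prime_unif M t⁻¹ ht' π hπ
  have ht0 : t ≠ 0 := GaussSwap.ne_zero_of_transcendental M ht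
  -- membership in the Gauss ring
  have hcB : InGauss A0 M E t π c := KummerLayer.inGauss_of_isIntegral hprime hc
  have hcB' : InGauss A0 M E t π c' :=
    (GaussSwap.inGauss_inv_iff M t π hπ ht c').mp (KummerLayer.inGauss_of_isIntegral hprime' hc')
  have hxc'' : InPiGauss A0 M E t π (x - c') :=
    (GaussSwap.inPiGauss_inv_iff M t π hπ ht (x - c')).mp hxc'
  have hxB : InGauss A0 M E t π x := by
    have h1 := KummerLayer.inGauss_add hprime (KummerLayer.inGauss_of_inPiGauss hxc) hcB
    rwa [sub_add_cancel] at h1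
  have htB : InGauss A0 M E t π (algebraMap M E t) := by
    refine KummerLayer.inGauss_of_isIntegral hprime ?_
    have h1 : algebraMap M E t = algebraMap (chart A0 M t) E (coord A0 M t) := rfl
    rw [h1]
    exact isIntegral_algebraMap
  have htB' : InGauss A0 M E t π (algebraMap M E t⁻¹) := by
    refine (GaussSwap.inGauss_inv_iff M t π hπ ht _).mp
      (KummerLayer.inGauss_of_isIntegral hprime' ?_)
    have h1 : algebraMap M E t⁻¹ = algebraMap (chart A0 M t⁻¹) E (coord A0 M t⁻¹) := rfl
    rw [h1]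
    exact isIntegral_algebraMap
  -- the Gauss ring, as an `A0`-algebra
  let B : Subring E := gaussB M E t π hprime
  let algB : Algebra A0 ↥B :=
    ((algebraMap A0 E).codRestrict B (fun a => KummerLayer.inGauss_algebraMap hprime a)).toAlgebra
  let ι : ↥B →ₐ[A0] E := { B.subtype with commutes' := fun a => rfl }
  have hι : Function.Injective ι := Subtype.val_injective
  let πB : ↥B := algebraMap A0 ↥B π
  have hπBE : (πB : E) = algebraMap A0 E π := rfl
  -- `π` is not a unit of the Gauss ring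
  have hne : Ideal.span {πB} ≠ ⊤ := by
    intro htop
    have h1 : (1 : ↥B) ∈ Ideal.span {πB} := by rw [htop]; exact Submodule.mem_top
    obtain ⟨b, hb⟩ := Ideal.mem_span_singleton'.mp h1
    obtain ⟨s, hs, hsb⟩ := b.2
    apply KummerLayer.not_inPiGauss_one (E := E) hprime hic hfr
    refine ⟨s, hs, s • (b : E), hsb, ?_⟩
    have h2 : (b : E) * algebraMap A0 E π = 1 := congrArg Subtype.val hb
    rw [smul_comm, Algebra.smul_def π, mul_comm, h2]
  obtain ⟨𝔪, h𝔪, hle⟩ := Ideal.exists_le_maximal _ hne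
  let fieldΩ : Field (↥B ⧸ 𝔪) := Ideal.Quotient.field 𝔪
  let ρ : ↥B →+* ↥B ⧸ 𝔪 := Ideal.Quotient.mk 𝔪
  have hρπ : ρ πB = 0 :=
    Ideal.Quotient.eq_zero_iff_mem.mpr (hle (Ideal.mem_span_singleton_self _))
  have hunit : ∀ z : ↥B, IsUnit z → ρ z ≠ 0 := by
    intro z hz h0
    exact h𝔪.ne_top (Ideal.eq_top_of_isUnit_mem _ (Ideal.Quotient.eq_zero_iff_mem.mp h0) hz)
  -- the residue field of `A0` acts on the quotient
  have hker : ∀ a ∈ IsLocalRing.maximalIdeal A0, (ρ.comp (algebraMap A0 ↥B)) a = 0 := by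
    intro a ha
    rw [hπ.maximalIdeal_eq, Ideal.mem_span_singleton] at ha
    obtain ⟨a', rfl⟩ := ha
    rw [RingHom.comp_apply, map_mul, map_mul]
    have : ρ (algebraMap A0 ↥B π) = 0 := hρπ
    rw [this, zero_mul]
  let ψ : IsLocalRing.ResidueField A0 →+* ↥B ⧸ 𝔪 :=
    Ideal.Quotient.lift (IsLocalRing.maximalIdeal A0) (ρ.comp (algebraMap A0 ↥B)) hker
  let algk : Algebra (IsLocalRing.ResidueField A0) (↥B ⧸ 𝔪) := ψ.toAlgebra
  have hφ : ∀ a : A0, ρ (algebraMap A0 ↥B a) =
      algebraMap (IsLocalRing.ResidueField A0) (↥B ⧸ 𝔪) (IsLocalRing.residue A0 a) :=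
    fun a => rfl
  have hφπ : IsLocalRing.residue A0 π = 0 := by
    rw [IsLocalRing.residue_eq_zero_iff, hπ.maximalIdeal_eq]
    exact Ideal.mem_span_singleton_self π
  -- evaluation in `B` and in `E`
  have hcoe : ∀ (b : ↥B) (P : A0[X]), ((aeval b P : ↥B) : E) = aeval (b : E) P :=
    fun b P => (aeval_algHom_apply ι b P).symm
  have hρev : ∀ (b : ↥B) (P : A0[X]),
      eval₂ (algebraMap (IsLocalRing.ResidueField A0) (↥B ⧸ 𝔪)) (ρ b)
        (P.map (IsLocalRing.residue A0)) = ρ (aeval b P) := by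
    intro b P
    have hcomp : (algebraMap (IsLocalRing.ResidueField A0) (↥B ⧸ 𝔪)).comp
        (IsLocalRing.residue A0) = ρ.comp (algebraMap A0 ↥B) := RingHom.ext fun a => (hφ a).symm
    rw [eval₂_map, hcomp, ← hom_eval₂]
    rfl
  -- the coordinate
  let tB : ↥B := ⟨algebraMap M E t, htB⟩
  let tinvB : ↥B := ⟨algebraMap M E t⁻¹, htB'⟩
  have htt : tB * tinvB = 1 := by
    apply Subtype.ext
    show algebraMap M E t * algebraMap M E t⁻¹ = 1
    rw [← map_mul, mul_inv_cancel₀ ht0, map_one]
  have htr : Transcendental (IsLocalRing.ResidueField A0) (ρ tB) := by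
    rw [transcendental_iff]
    intro p hp
    obtain ⟨P, rfl⟩ := Polynomial.map_surjective (IsLocalRing.residue A0)
      IsLocalRing.residue_surjective p
    by_contra hp0
    rw [aeval_def, hρev] at hp
    -- the chart element `P(t)` is not divisible by `π`, hence a unit of the Gauss ring
    have hns : ¬ unif A0 M t π ∣ AdjoinChart.chartEquiv M t ht P := by
      intro hdvd
      rw [← AdjoinChart.chartEquiv_C_unif M t ht π] at hdvd
      have hdvd' : C π ∣ P := (map_dvd_iff (AdjoinChart.chartEquiv M t ht)).mp hdvd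
      obtain ⟨Q, rfl⟩ := hdvd'
      apply hp0
      rw [Polynomial.map_mul, Polynomial.map_C, hφπ, C_0, zero_mul]
    have hu := inGauss_inv_chart (E := E) (AdjoinChart.chartEquiv M t ht P) hns
    have hval : ((aeval tB P : ↥B) : E) =
        algebraMap M E ((AdjoinChart.chartEquiv M t ht P : chart A0 M t) : M) := by
      rw [hcoe, AdjoinChart.coe_chartEquiv]
      exact aeval_algebraMap_apply E t P
    have hs0 : algebraMap M E ((AdjoinChart.chartEquiv M t ht P : chart A0 M t) : M) ≠ 0 := by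
      intro h0
      apply hns
      have h1 : ((AdjoinChart.chartEquiv M t ht P : chart A0 M t) : M) = 0 :=
        (map_eq_zero _).mp h0
      have h2 : AdjoinChart.chartEquiv M t ht P = 0 := Subtype.ext h1
      rw [h2]
      exact dvd_zero _
    have hunit' : IsUnit (aeval tB P : ↥B) := by
      refine IsUnit.of_mul_eq_one ⟨_, hu⟩ (Subtype.ext ?_)
      show ((aeval tB P : ↥B) : E) * _ = 1
      rw [hval]
      exact mul_inv_cancel₀ hs0
    exact hunit _ hunit' hp
  -- the two lifts
  have hcI : (aeval tB : A0[X] →ₐ[A0] ↥B).toRingHom.IsIntegralElem ⟨c, hcB⟩ :=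
    ChartConst.isIntegralElem_of_injective ι hι tB ⟨c, hcB⟩
      (ChartConst.isIntegralElem_of_isIntegral_chart t c hc)
  have hcI' : (aeval tinvB : A0[X] →ₐ[A0] ↥B).toRingHom.IsIntegralElem ⟨c', hcB'⟩ :=
    ChartConst.isIntegralElem_of_injective ι hι tinvB ⟨c', hcB'⟩
      (ChartConst.isIntegralElem_of_isIntegral_chart t⁻¹ c' hc')
  have hmem : ∀ (z : E) (hz : InGauss A0 M E t π z), InPiGauss A0 M E t π z →
      ρ (⟨z, hz⟩ : ↥B) = 0 := by
    intro z hz hzπ
    obtain ⟨b, hb, hzb⟩ := exists_eq_smul_of_inPiGauss hzπ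
    have h1 : (⟨z, hz⟩ : ↥B) = πB * ⟨b, hb⟩ := Subtype.ext hzb
    rw [h1, map_mul, hρπ, zero_mul]
  have hx1 : ρ (⟨x, hxB⟩ : ↥B) = ρ (⟨c, hcB⟩ : ↥B) := by
    have h1 : (⟨x, hxB⟩ : ↥B) = ⟨x - c, KummerLayer.inGauss_of_inPiGauss hxc⟩ + ⟨c, hcB⟩ :=
      Subtype.ext (sub_add_cancel x c).symm
    rw [h1, map_add, hmem _ _ hxc, zero_add]
  have hx2 : ρ (⟨x, hxB⟩ : ↥B) = ρ (⟨c', hcB'⟩ : ↥B) := by
    have h1 : (⟨x, hxB⟩ : ↥B) = ⟨x - c', KummerLayer.inGauss_of_inPiGauss hxc''⟩ + ⟨c', hcB'⟩ :=
      Subtype.ext (sub_add_cancel x c').symm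
    rw [h1, map_add, hmem _ _ hxc'', zero_add]
  have hint : IsIntegral (IsLocalRing.ResidueField A0) (ρ (⟨c, hcB⟩ : ↥B)) :=
    ChartConst.isIntegral_red_of_two_charts ρ (IsLocalRing.residue A0) hφ tB tinvB htt htr
      ⟨c, hcB⟩ ⟨c', hcB'⟩ hcI hcI' (hx1.symm.trans hx2)
  -- a monic polynomial over `A0`
  obtain ⟨p, hpm, hp⟩ := hint
  have hl : p ∈ lifts (IsLocalRing.residue A0) :=
    (mem_lifts p).mpr (Polynomial.map_surjective _ IsLocalRing.residue_surjective p)
  obtain ⟨P, hP, -, hPm⟩ := lifts_and_natDegree_eq_and_monic hl hpm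
  have hzero : ρ (aeval (⟨x, hxB⟩ : ↥B) P) = 0 := by
    rw [← hρev, hP, hx1]
    exact hp
  refine ⟨P, hPm, fun u hu h1 => ?_⟩
  have hunit' : IsUnit (aeval (⟨x, hxB⟩ : ↥B) P) := by
    refine IsUnit.of_mul_eq_one ⟨u, hu⟩ (Subtype.ext ?_)
    show ((aeval (⟨x, hxB⟩ : ↥B) P : ↥B) : E) * u = 1
    rw [hcoe, mul_comm]
    exact h1
  exact hunit _ hunit' hzero

end Main

end Fermat.Agent.S37.GaussMax
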