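/-
S37 (W2, cover chain, leaf (E), sealed): the last mile on the covers.

Sealed carriers of `NormalH` / `CoverTR`: `K` finite over `ℚ` inside `ℚ̄`, `A₀ = A ∩ K` with
uniformizer `π`, `F = FK K N`, `F# = AdjoinRoot m0`, `Mh = Line K (root m0)`,
`th = Line.gen K (root m0)`.

If `y` lies in the Gauss ring `OvK` of `F` and its image in `F#` is congruent modulo `π O''` to an
element integral over `A₀[h]` and to an element integral over `A₀[1/h]`, then the reduction of `y`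
is integral (algebraic) over the residue field `k₀` of `A₀`.

* `isIntegral_redOv_of_TR` : the statement with the transfer (TR) as a hypothesis;
* `isIntegral_redOv_cover3`, `isAlgebraic_redv_cover3` : cover `j h² = (h + 256)³`, `ℓ ≠ 2`;
* `isIntegral_redOv_cover2`, `isAlgebraic_redv_cover2` : cover `j h = (h + 27)(h + 3)³`, `ℓ ≠ 3`.

No primality of `π` on the cover and no irreducibility of the special fibre is used
(`GaussMax.exists_monic_not_unit`).
-/
import Mathlib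
import Fermat.Agent.S37.GaussMax
import Fermat.Agent.S37.CoverTR

set_option autoImplicit false
set_option linter.unusedSectionVars false
set_option linter.style.haveILetI false
set_option synthInstance.maxHeartbeats 400000

open Polynomial AlgebraicCurve ModularCurve

namespace Fermat.Agent.S37.CoverSeal

open Fermat.Agent.S18 Fermat.Agent.S18.CoreDefs Fermat.Agent.S18.Setup

local notation "Qb" => AlgebraicClosure ℚ

variable (K : Type*) [Field K] [Algebra K Qb] [Algebra ℚ K] [FiniteDimensional ℚ K]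
  (N : ℕ) [NeZero N] (A : ValuationSubring Qb)
  (m0 : (FK K N)[X]) [Fact (Irreducible m0)]

/-- The constants `A₀ → OvK` (`= GaussA0.constO`, typed into `ConstEnd.OvK`). -/
noncomputable def cO : ↥(A0.down K A) →+* ↥(ConstEnd.OvK K N A) :=
  GaussA0.constO (A0.down K A) (IsLocalRing.residue ↥(A0.down K A)) N

theorem redOv_cO (a : ↥(A0.down K A)) :
    ConstEnd.redOv K N A (cO K N A a) =
      algebraMap (IsLocalRing.ResidueField ↥(A0.down K A))
        (LaurentSeries (IsLocalRing.ResidueField ↥(A0.down K A)))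
        (IsLocalRing.residue ↥(A0.down K A) a) := by
  rw [GaussA0.algebraMap_eq_C]
  exact GaussA0.redv_constO (A0.down K A) (IsLocalRing.residue ↥(A0.down K A)) N a

/-- The reduction of `P(y)` is `P̄(ȳ)`. -/
theorem redOv_eval₂ (yO : ↥(ConstEnd.OvK K N A)) (P : (↥(A0.down K A))[X]) :
    ConstEnd.redOv K N A (Polynomial.eval₂ (cO K N A) yO P) =
    Polynomial.eval₂ (algebraMap (IsLocalRing.ResidueField ↥(A0.down K A))
        (LaurentSeries (IsLocalRing.ResidueField ↥(A0.down K A))))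
      (ConstEnd.redOv K N A yO) (P.map (IsLocalRing.residue ↥(A0.down K A))) := by
  have hcomp : (ConstEnd.redOv K N A).comp (cO K N A) =
      (algebraMap (IsLocalRing.ResidueField ↥(A0.down K A))
        (LaurentSeries (IsLocalRing.ResidueField ↥(A0.down K A)))).comp
        (IsLocalRing.residue ↥(A0.down K A)) :=
    RingHom.ext fun a => redOv_cO K N A a
  rw [Polynomial.hom_eval₂, Polynomial.eval₂_map, hcomp]

/-- The image in `F#` of `P(y)` is `P(y#)`. -/
theorem algebraMap_eval₂ (yO : ↥(ConstEnd.OvK K N A)) (P : (↥(A0.down K A))[X]) :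
    algebraMap (FK K N) (AdjoinRoot m0)
      ((Polynomial.eval₂ (cO K N A) yO P : ↥(ConstEnd.OvK K N A)) : FK K N) =
    Polynomial.aeval (algebraMap (FK K N) (AdjoinRoot m0) (yO : FK K N)) P := by
  have h1 : ((Polynomial.eval₂ (cO K N A) yO P : ↥(ConstEnd.OvK K N A)) : FK K N) =
      Polynomial.eval₂ ((ConstEnd.OvK K N A).subtype.comp (cO K N A)) (yO : FK K N) P :=
    Polynomial.hom_eval₂ P _ (ConstEnd.OvK K N A).subtype yO
  have hcomp : (algebraMap (FK K N) (AdjoinRoot m0)).comp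
      ((ConstEnd.OvK K N A).subtype.comp (cO K N A)) =
      algebraMap ↥(A0.down K A) (AdjoinRoot m0) := by
    refine RingHom.ext fun a => ?_
    rw [IsScalarTower.algebraMap_apply ↥(A0.down K A) (FK K N) (AdjoinRoot m0)]
    rfl
  rw [h1, Polynomial.hom_eval₂, Polynomial.aeval_def, hcomp]

/-- **Leaf (E), with the transfer (TR) as a hypothesis.** -/
theorem isIntegral_redOv_of_TR {ℓ : ℕ} (hℓ : ℓ.Prime) (hA : A.LiesOverPrime ℓ)
    (π : ↥(A0.down K A)) (hπ : Irreducible π)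
    (hth : Transcendental ↥(A0.down K A) (Line.gen K (AdjoinRoot.root m0)))
    (hTR : ∀ x : FK K N, x ∈ ConstEnd.OvK K N A →
      InGauss ↥(A0.down K A) (Line K (AdjoinRoot.root m0)) (AdjoinRoot m0)
        (Line.gen K (AdjoinRoot.root m0)) π (algebraMap (FK K N) (AdjoinRoot m0) x))
    (y : FK K N) (hy : y ∈ ConstEnd.OvK K N A) (c c' : AdjoinRoot m0)
    (hc : IsIntegral (chart ↥(A0.down K A) (Line K (AdjoinRoot.root m0))
      (Line.gen K (AdjoinRoot.root m0))) c)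
    (hyc : InPiGauss ↥(A0.down K A) (Line K (AdjoinRoot.root m0)) (AdjoinRoot m0)
      (Line.gen K (AdjoinRoot.root m0)) π (algebraMap (FK K N) (AdjoinRoot m0) y - c))
    (hc' : IsIntegral (chart ↥(A0.down K A) (Line K (AdjoinRoot.root m0))
      (Line.gen K (AdjoinRoot.root m0))⁻¹) c')
    (hyc' : InPiGauss ↥(A0.down K A) (Line K (AdjoinRoot.root m0)) (AdjoinRoot m0)
      (Line.gen K (AdjoinRoot.root m0))⁻¹ π (algebraMap (FK K N) (AdjoinRoot m0) y - c')) :
    IsIntegral (IsLocalRing.ResidueField ↥(A0.down K A)) (ConstEnd.redOv K N A ⟨y, hy⟩) := by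
  classical
  have hdvr : IsDiscreteValuationRing ↥(A0.down K A) := NormalJ.dvr K A hℓ hA
  obtain ⟨P, hPm, hP⟩ := GaussMax.exists_monic_not_unit (Line K (AdjoinRoot.root m0))
    (AdjoinRoot m0) π hπ (Line.gen K (AdjoinRoot.root m0))
    hth (CoverTR.hgen_cover K N A m0) (algebraMap (FK K N) (AdjoinRoot m0) y) c c' hc hyc hc' hyc'
  set z : ↥(ConstEnd.OvK K N A) := Polynomial.eval₂ (cO K N A) ⟨y, hy⟩ P with hz
  by_cases h0 : ConstEnd.redOv K N A z = 0
  · refine ⟨P.map (IsLocalRing.residue ↥(A0.down K A)), hPm.map _, ?_⟩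
    rw [← redOv_eval₂ K N A ⟨y, hy⟩ P]
    exact h0
  · exfalso
    have hu : IsUnit z := GaussA0.isUnit_of_redv_ne_zero z h0
    obtain ⟨w, hw⟩ := hu.exists_left_inv
    have hw' : (w : FK K N) * (z : FK K N) = 1 := by
      have := congrArg (fun u : ↥(ConstEnd.OvK K N A) => (u : FK K N)) hw
      simpa using this
    apply hP (algebraMap (FK K N) (AdjoinRoot m0) (w : FK K N)) (hTR _ w.2)
    rw [← algebraMap_eval₂ K N A m0 ⟨y, hy⟩ P, ← map_mul, hw', map_one]

/-- **Leaf (E), cover `j h² = (h + 256)³`** (`ℓ ≠ 2`, `ℓ ∤ N`): an element `y` of the Gauss ring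
of `F_K` whose image in `F#` lifts modulo `π` to both chart rings `A₀[h]`, `A₀[1/h]` has a
reduction integral over the residue field of `A₀`. -/
theorem isIntegral_redOv_cover3 {ℓ : ℕ} (hℓ : ℓ.Prime) (hℓN : ¬ ℓ ∣ N) (hℓ2 : ℓ ≠ 2)
    (hA : A.LiesOverPrime ℓ)
    (hrelF : algebraMap (FK K N) (AdjoinRoot m0) (jF K N) * AdjoinRoot.root m0 ^ 2 =
      (AdjoinRoot.root m0 + 256) ^ 3)
    (π : ↥(A0.down K A)) (hπ : Irreducible π)
    (hmax : IsLocalRing.maximalIdeal ↥(A0.down K A) = Ideal.span {π})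
    (y : FK K N) (hy : y ∈ ConstEnd.OvK K N A) (c c' : AdjoinRoot m0)
    (hc : IsIntegral (chart ↥(A0.down K A) (Line K (AdjoinRoot.root m0))
      (Line.gen K (AdjoinRoot.root m0))) c)
    (hyc : InPiGauss ↥(A0.down K A) (Line K (AdjoinRoot.root m0)) (AdjoinRoot m0)
      (Line.gen K (AdjoinRoot.root m0)) π (algebraMap (FK K N) (AdjoinRoot m0) y - c))
    (hc' : IsIntegral (chart ↥(A0.down K A) (Line K (AdjoinRoot.root m0))
      (Line.gen K (AdjoinRoot.root m0))⁻¹) c')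
    (hyc' : InPiGauss ↥(A0.down K A) (Line K (AdjoinRoot.root m0)) (AdjoinRoot m0)
      (Line.gen K (AdjoinRoot.root m0))⁻¹ π (algebraMap (FK K N) (AdjoinRoot m0) y - c')) :
    IsIntegral (IsLocalRing.ResidueField ↥(A0.down K A)) (ConstEnd.redOv K N A ⟨y, hy⟩) := by
  obtain ⟨hth, hTR⟩ := CoverTR.inGauss_both_cover3 K N A m0 hℓ hℓN hℓ2 hA hrelF π hπ hmax
  exact isIntegral_redOv_of_TR K N A m0 hℓ hA π hπ hth (fun x hx => (hTR x hx).1) y hy c c'
    hc hyc hc' hyc'

/-- **Leaf (E), cover `j h = (h + 27)(h + 3)³`** (`ℓ ≠ 3`, `ℓ ∤ N`). -/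
theorem isIntegral_redOv_cover2 {ℓ : ℕ} (hℓ : ℓ.Prime) (hℓN : ¬ ℓ ∣ N) (hℓ3 : ℓ ≠ 3)
    (hA : A.LiesOverPrime ℓ)
    (hrelF : algebraMap (FK K N) (AdjoinRoot m0) (jF K N) * AdjoinRoot.root m0 =
      (AdjoinRoot.root m0 + 27) * (AdjoinRoot.root m0 + 3) ^ 3)
    (π : ↥(A0.down K A)) (hπ : Irreducible π)
    (hmax : IsLocalRing.maximalIdeal ↥(A0.down K A) = Ideal.span {π})
    (y : FK K N) (hy : y ∈ ConstEnd.OvK K N A) (c c' : AdjoinRoot m0)
    (hc : IsIntegral (chart ↥(A0.down K A) (Line K (AdjoinRoot.root m0))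
      (Line.gen K (AdjoinRoot.root m0))) c)
    (hyc : InPiGauss ↥(A0.down K A) (Line K (AdjoinRoot.root m0)) (AdjoinRoot m0)
      (Line.gen K (AdjoinRoot.root m0)) π (algebraMap (FK K N) (AdjoinRoot m0) y - c))
    (hc' : IsIntegral (chart ↥(A0.down K A) (Line K (AdjoinRoot.root m0))
      (Line.gen K (AdjoinRoot.root m0))⁻¹) c')
    (hyc' : InPiGauss ↥(A0.down K A) (Line K (AdjoinRoot.root m0)) (AdjoinRoot m0)
      (Line.gen K (AdjoinRoot.root m0))⁻¹ π (algebraMap (FK K N) (AdjoinRoot m0) y - c')) :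
    IsIntegral (IsLocalRing.ResidueField ↥(A0.down K A)) (ConstEnd.redOv K N A ⟨y, hy⟩) := by
  obtain ⟨hth, hTR⟩ := CoverTR.inGauss_both_cover2 K N A m0 hℓ hℓN hℓ3 hA hrelF π hπ hmax
  exact isIntegral_redOv_of_TR K N A m0 hℓ hA π hπ hth (fun x hx => (hTR x hx).1) y hy c c'
    hc hyc hc' hyc'

/-- **Leaf (E), cover `j h² = (h + 256)³`, in the vocabulary of `TorsionInjK0.GaussAlg`**
(`GaussA0.OvSubring` / `GaussA0.redv`, chart coordinates `CoverDefs.tK`). -/
theorem isAlgebraic_redv_cover3 {ℓ : ℕ} (hℓ : ℓ.Prime) (hℓN : ¬ ℓ ∣ N) (hℓ2 : ℓ ≠ 2)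
    (hA : A.LiesOverPrime ℓ)
    (hrelF : algebraMap (FK K N) (AdjoinRoot m0) (jF K N) * AdjoinRoot.root m0 ^ 2 =
      (AdjoinRoot.root m0 + 256) ^ 3)
    (π : ↥(A0.down K A)) (hπ : Irreducible π)
    (hmax : IsLocalRing.maximalIdeal ↥(A0.down K A) = Ideal.span {π})
    (y : ↥(modularFunctionFieldFullC K N))
    (hy : y ∈ GaussA0.OvSubring (A0.down K A) (IsLocalRing.residue ↥(A0.down K A)) N)
    (hlift : ∀ b : Bool, ∃ c : AdjoinRoot m0,
      IsIntegral (chart ↥(A0.down K A) (Line K (AdjoinRoot.root m0)) (CoverDefs.tK N m0 b)) c ∧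
      InPiGauss ↥(A0.down K A) (Line K (AdjoinRoot.root m0)) (AdjoinRoot m0)
        (CoverDefs.tK N m0 b) π (AdjoinRoot.of m0 y - c)) :
    IsAlgebraic (IsLocalRing.ResidueField ↥(A0.down K A))
      (GaussA0.redv (A0.down K A) (IsLocalRing.residue ↥(A0.down K A)) N ⟨y, hy⟩) := by
  obtain ⟨c, hc, hyc⟩ := hlift true
  obtain ⟨c', hc', hyc'⟩ := hlift false
  exact (isIntegral_redOv_cover3 K N A m0 hℓ hℓN hℓ2 hA hrelF π hπ hmax y hy c c'
    hc hyc hc' hyc').isAlgebraic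

/-- **Leaf (E), cover `j h = (h + 27)(h + 3)³`, in the vocabulary of `TorsionInjK0.GaussAlg`.** -/
theorem isAlgebraic_redv_cover2 {ℓ : ℕ} (hℓ : ℓ.Prime) (hℓN : ¬ ℓ ∣ N) (hℓ3 : ℓ ≠ 3)
    (hA : A.LiesOverPrime ℓ)
    (hrelF : algebraMap (FK K N) (AdjoinRoot m0) (jF K N) * AdjoinRoot.root m0 =
      (AdjoinRoot.root m0 + 27) * (AdjoinRoot.root m0 + 3) ^ 3)
    (π : ↥(A0.down K A)) (hπ : Irreducible π)
    (hmax : IsLocalRing.maximalIdeal ↥(A0.down K A) = Ideal.span {π})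
    (y : ↥(modularFunctionFieldFullC K N))
    (hy : y ∈ GaussA0.OvSubring (A0.down K A) (IsLocalRing.residue ↥(A0.down K A)) N)
    (hlift : ∀ b : Bool, ∃ c : AdjoinRoot m0,
      IsIntegral (chart ↥(A0.down K A) (Line K (AdjoinRoot.root m0)) (CoverDefs.tK N m0 b)) c ∧
      InPiGauss ↥(A0.down K A) (Line K (AdjoinRoot.root m0)) (AdjoinRoot m0)
        (CoverDefs.tK N m0 b) π (AdjoinRoot.of m0 y - c)) :
    IsAlgebraic (IsLocalRing.ResidueField ↥(A0.down K A))
      (GaussA0.redv (A0.down K A) (IsLocalRing.residue ↥(A0.down K A)) N ⟨y, hy⟩) := by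
  obtain ⟨c, hc, hyc⟩ := hlift true
  obtain ⟨c', hc', hyc'⟩ := hlift false
  exact (isIntegral_redOv_cover2 K N A m0 hℓ hℓN hℓ3 hA hrelF π hπ hmax y hy c c'
    hc hyc hc' hyc').isAlgebraic

end Fermat.Agent.S37.CoverSeal
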