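/-
S37 (W2, cover chain, leaf (E)): the contract `CoverHyps.HLast` for the two covers.

* `unit_of_TR`  : sealed carriers; if the image `y#` of `y ∈ F_K` in `F#` and its inverse both lie
  in the Gauss ring of the `h`-chart, then `y` lies in the Gauss ring `OvK` of `F_K` and its
  reduction is nonzero (with the transfer (TR) as a hypothesis);
* `hLast3 : CoverHyps.HLast N A m (CoverHyps.Good3 N)` for `ℓ ≠ 2`, `ℓ ∤ N`;
* `hLast2 : CoverHyps.HLast N A m (CoverHyps.Good2 N)` for `ℓ ≠ 3`, `ℓ ∤ N`.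
-/
import Mathlib
import Fermat.Agent.S37.CoverSeal
import Fermat.Agent.S37.CoverHyps

set_option autoImplicit false
set_option linter.unusedSectionVars false
set_option linter.style.haveILetI false
set_option synthInstance.maxHeartbeats 400000

open Polynomial AlgebraicCurve ModularCurve

namespace Fermat.Agent.S37.CoverHLast

open Fermat.Agent.S18 Fermat.Agent.S18.CoreDefs Fermat.Agent.S18.Setup
open Fermat.Agent.S18.S24Export

local notation "Qb" => AlgebraicClosure ℚ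

section Sealed

variable (K : Type*) [Field K] [Algebra K Qb] [Algebra ℚ K] [FiniteDimensional ℚ K]
  (N : ℕ) [NeZero N] (A : ValuationSubring Qb)
  (m0 : (FK K N)[X]) [Fact (Irreducible m0)]

/-- The image in `F#` of `a • z`, `a ∈ A₀`, `z` in the Gauss ring. -/
theorem algebraMap_cO_mul (a : ↥(A0.down K A)) (z : ↥(ConstEnd.OvK K N A)) :
    algebraMap (FK K N) (AdjoinRoot m0)
      ((CoverSeal.cO K N A a * z : ↥(ConstEnd.OvK K N A)) : FK K N) =
    a • algebraMap (FK K N) (AdjoinRoot m0) (z : FK K N) := by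
  rw [Algebra.smul_def, IsScalarTower.algebraMap_apply ↥(A0.down K A) (FK K N) (AdjoinRoot m0),
    ← map_mul]
  rfl

/-- An element of the Gauss ring with zero reduction is `π` times an element of the Gauss
ring. -/
theorem exists_eq_cO_mul {ℓ : ℕ} (hℓ : ℓ.Prime) (hℓN : ¬ ℓ ∣ N) (hA : A.LiesOverPrime ℓ)
    (π : ↥(A0.down K A)) (hπ : Irreducible π)
    (hmax : IsLocalRing.maximalIdeal ↥(A0.down K A) = Ideal.span {π})
    (x : ↥(ConstEnd.OvK K N A)) (hx : ConstEnd.redOv K N A x = 0) :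
    ∃ z : ↥(ConstEnd.OvK K N A), x = CoverSeal.cO K N A π * z := by
  obtain ⟨hφ, hπ0, -, -, -⟩ := H2Top.gauss_hyps K N A hℓ hℓN hA π hπ hmax
  exact (GaussA0.redv_eq_zero_iff hφ hπ0 x).mp hx

/-- The valuation-ring property of the Gauss ring. -/
theorem mem_or_inv_mem {ℓ : ℕ} (hℓ : ℓ.Prime) (hℓN : ¬ ℓ ∣ N) (hA : A.LiesOverPrime ℓ)
    (π : ↥(A0.down K A)) (hπ : Irreducible π)
    (hmax : IsLocalRing.maximalIdeal ↥(A0.down K A) = Ideal.span {π}) (y : FK K N) :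
    y ∈ ConstEnd.OvK K N A ∨ y⁻¹ ∈ ConstEnd.OvK K N A := by
  obtain ⟨hφ, hπ0, hkrull, -, -⟩ := H2Top.gauss_hyps K N A hℓ hℓN hA π hπ hmax
  exact GaussA0.mem_or_inv_mem_OvSubring hφ hπ0 hkrull y

/-- **Units of the Gauss ring, read on the cover** (with (TR) as a hypothesis): if `y#` and
`(y#)⁻¹` lie in the Gauss ring of the `h`-chart of `F#`, then `y` lies in the Gauss ring of
`F_K` and has nonzero reduction. -/
theorem unit_of_TR {ℓ : ℕ} (hℓ : ℓ.Prime) (hℓN : ¬ ℓ ∣ N) (hA : A.LiesOverPrime ℓ)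
    (π : ↥(A0.down K A)) (hπ : Irreducible π)
    (hmax : IsLocalRing.maximalIdeal ↥(A0.down K A) = Ideal.span {π})
    (hth : Transcendental ↥(A0.down K A) (Line.gen K (AdjoinRoot.root m0)))
    (hTR : ∀ x : FK K N, x ∈ ConstEnd.OvK K N A →
      InGauss ↥(A0.down K A) (Line K (AdjoinRoot.root m0)) (AdjoinRoot m0)
        (Line.gen K (AdjoinRoot.root m0)) π (algebraMap (FK K N) (AdjoinRoot m0) x))
    (y : FK K N) (hy0 : y ≠ 0)
    (hG : InGauss ↥(A0.down K A) (Line K (AdjoinRoot.root m0)) (AdjoinRoot m0)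
      (Line.gen K (AdjoinRoot.root m0)) π (algebraMap (FK K N) (AdjoinRoot m0) y))
    (hGinv : InGauss ↥(A0.down K A) (Line K (AdjoinRoot.root m0)) (AdjoinRoot m0)
      (Line.gen K (AdjoinRoot.root m0)) π (algebraMap (FK K N) (AdjoinRoot m0) y)⁻¹) :
    ∃ hy : y ∈ ConstEnd.OvK K N A, ConstEnd.redOv K N A ⟨y, hy⟩ ≠ 0 := by
  classical
  have hdvr : IsDiscreteValuationRing ↥(A0.down K A) := NormalJ.dvr K A hℓ hA
  have hprime := AdjoinChart.prime_unif (Line K (AdjoinRoot.root m0))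
    (Line.gen K (AdjoinRoot.root m0)) hth π hπ
  have hic := AdjoinChart.isIntegrallyClosed (Line K (AdjoinRoot.root m0))
    (Line.gen K (AdjoinRoot.root m0)) hth
  have hfr := AdjoinChart.isFractionRing (Line K (AdjoinRoot.root m0))
    (Line.gen K (AdjoinRoot.root m0)) (CoverTR.hgen_cover K N A m0)
  -- `1 ∉ π O''`
  have hno : ∀ u v : AdjoinRoot m0,
      InGauss ↥(A0.down K A) (Line K (AdjoinRoot.root m0)) (AdjoinRoot m0)
        (Line.gen K (AdjoinRoot.root m0)) π u →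
      InGauss ↥(A0.down K A) (Line K (AdjoinRoot.root m0)) (AdjoinRoot m0)
        (Line.gen K (AdjoinRoot.root m0)) π v → π • (u * v) ≠ 1 := by
    intro u v hu hv h1
    obtain ⟨s, hs, hsi⟩ := KummerLayer.inGauss_mul hprime hu hv
    exact KummerLayer.not_inPiGauss_one (E := AdjoinRoot m0) hprime hic hfr
      ⟨s, hs, s • (u * v), hsi, by rw [← h1, smul_comm]⟩
  have hy0' : algebraMap (FK K N) (AdjoinRoot m0) y ≠ 0 := by
    rwa [Ne, map_eq_zero]
  -- membership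
  have hmem : y ∈ ConstEnd.OvK K N A := by
    rcases mem_or_inv_mem K N A hℓ hℓN hA π hπ hmax y with h | h
    · exact h
    · by_cases h0 : ConstEnd.redOv K N A ⟨y⁻¹, h⟩ = 0
      · exfalso
        obtain ⟨z, hz⟩ := exists_eq_cO_mul K N A hℓ hℓN hA π hπ hmax ⟨y⁻¹, h⟩ h0
        have h1 : (algebraMap (FK K N) (AdjoinRoot m0) y)⁻¹ =
            π • algebraMap (FK K N) (AdjoinRoot m0) (z : FK K N) := by
          rw [← algebraMap_cO_mul K N A m0 π z, ← hz, map_inv₀]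
        apply hno (algebraMap (FK K N) (AdjoinRoot m0) y)
          (algebraMap (FK K N) (AdjoinRoot m0) (z : FK K N)) hG (hTR _ z.2)
        rw [← mul_smul_comm, ← h1, mul_inv_cancel₀ hy0']
      · have hu : IsUnit (⟨y⁻¹, h⟩ : ↥(ConstEnd.OvK K N A)) :=
          GaussA0.isUnit_of_redv_ne_zero _ h0
        obtain ⟨w, hw⟩ := hu.exists_right_inv
        have hw' : y⁻¹ * (w : FK K N) = 1 := by
          have := congrArg (fun u : ↥(ConstEnd.OvK K N A) => (u : FK K N)) hw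
          simpa using this
        have hwy : (w : FK K N) = y := by
          have h2 := congrArg (fun u => y * u) hw'
          simp only [mul_one, ← mul_assoc, mul_inv_cancel₀ hy0, one_mul] at h2
          exact h2
        rw [← hwy]
        exact w.2
  refine ⟨hmem, ?_⟩
  intro h0
  obtain ⟨z, hz⟩ := exists_eq_cO_mul K N A hℓ hℓN hA π hπ hmax ⟨y, hmem⟩ h0
  have h1 : algebraMap (FK K N) (AdjoinRoot m0) y =
      π • algebraMap (FK K N) (AdjoinRoot m0) (z : FK K N) := by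
    rw [← algebraMap_cO_mul K N A m0 π z, ← hz]
  apply hno (algebraMap (FK K N) (AdjoinRoot m0) y)⁻¹
    (algebraMap (FK K N) (AdjoinRoot m0) (z : FK K N)) hGinv (hTR _ z.2)
  rw [← mul_smul_comm, ← h1, inv_mul_cancel₀ hy0']

end Sealed

section Contract

variable (N : ℕ) [NeZero N] (A : ValuationSubring Qb) (m : (FL N)[X]) [Fact (Irreducible m)]

/-- **(E) = `HLast` for the cover `j h² = (h + 256)³`** (`ℓ ≠ 2`, `ℓ ∤ N`). -/
theorem hLast3 {ℓ : ℕ} (hℓ : ℓ.Prime) (hℓN : ¬ ℓ ∣ N) (hℓ2 : ℓ ≠ 2)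
    (hA : A.LiesOverPrime ℓ) : CoverHyps.HLast N A m (CoverHyps.Good3 N) := by
  intro K hK m0 hirr _hmap hgood _hm0 π hπ hmax y hy0 hG hGinv hlift
  haveI := hK
  obtain ⟨hth, hTR⟩ := CoverTR.inGauss_both_cover3 (↥K) N A m0 hℓ hℓN hℓ2 hA hgood π hπ hmax
  obtain ⟨hmem, hne⟩ := unit_of_TR (↥K) N A m0 hℓ hℓN hA π hπ hmax hth
    (fun x hx => (hTR x hx).1) y hy0 (hG true) (hGinv true)
  exact ⟨hmem, hne,
    CoverSeal.isAlgebraic_redv_cover3 (↥K) N A m0 hℓ hℓN hℓ2 hA hgood π hπ hmax y hmem hlift⟩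

/-- **(E) = `HLast` for the cover `j h = (h + 27)(h + 3)³`** (`ℓ ≠ 3`, `ℓ ∤ N`). -/
theorem hLast2 {ℓ : ℕ} (hℓ : ℓ.Prime) (hℓN : ¬ ℓ ∣ N) (hℓ3 : ℓ ≠ 3)
    (hA : A.LiesOverPrime ℓ) : CoverHyps.HLast N A m (CoverHyps.Good2 N) := by
  intro K hK m0 hirr _hmap hgood _hm0 π hπ hmax y hy0 hG hGinv hlift
  haveI := hK
  obtain ⟨hth, hTR⟩ := CoverTR.inGauss_both_cover2 (↥K) N A m0 hℓ hℓN hℓ3 hA hgood π hπ hmax
  obtain ⟨hmem, hne⟩ := unit_of_TR (↥K) N A m0 hℓ hℓN hA π hπ hmax hth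
    (fun x hx => (hTR x hx).1) y hy0 (hG true) (hGinv true)
  exact ⟨hmem, hne,
    CoverSeal.isAlgebraic_redv_cover2 (↥K) N A m0 hℓ hℓN hℓ3 hA hgood π hπ hmax y hmem hlift⟩

end Contract

end Fermat.Agent.S37.CoverHLast
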