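/-
S37, cover chain, leaf (L), sealed dictionary, place side.

On the sealed carriers of `CoverDefs` / `CoverHyps` (`Ω = AdjoinRoot m` over `FL N`, a level
`(K, m0, hmap)`, `A0 = A ∩ K`, the chart ring `C_b` = integral closure of the chart `A0[tK b]`
in `F# = AdjoinRoot m0`, `φ = phi N m m0 hmap`), the place-side hypotheses of
`LocalCoverCls.exists_sub_mul_mem_of_classes` / `LocalPlace.exists_sub_mul_mem_of_places` for
`In w := InA A w (tO N m b)` and `Rel := SameChar A (tO N m b)`:

* `hreg`  : the functions of `C_b` are regular at the places of the chart;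
* `hInt`  : a value in `K` of a function of `C_b` at a place of the chart lies in `A0`;
* `hIn`   : a place at which all functions of `C_b` have values in `A0` lies on the chart;
* `hRel`  : `SameChar` transports "the value is divisible by `π`";
* `hrefl`, `hsymm`, `htrans` : `SameChar` is an equivalence relation on the places of the chart.
-/
import Mathlib
import Fermat.Agent.S18.A0
import Fermat.Agent.S37.EvalInt
import Fermat.Agent.S37.CoverDefs
import Fermat.Agent.S37.CoverLevel
import Fermat.Agent.S37.FFTower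

set_option autoImplicit false
set_option linter.unusedSectionVars false

noncomputable section

open Polynomial AlgebraicCurve ModularCurve

namespace Fermat.Agent.S37.CoverPts

open Fermat.Agent.S18 Fermat.Agent.S18.Setup Fermat.Agent.S18.S24Export
open Fermat.Agent.S18.CoreDefs Fermat.Agent.S37.CoverDefs

local notation "Qb" => AlgebraicClosure ℚ

variable (N : ℕ) [NeZero N] (m : (FL N)[X]) [Fact (Irreducible m)]
  {K : Type*} [Field K] [Algebra K Qb] (m0 : (FK K N)[X]) [Fact (Irreducible m0)]
  (A : ValuationSubring Qb) (hmap : m0.map (ιL K N) = m) (b : Bool)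

/-- the constants `A ∩ K → Ω` factor through `A`. -/
theorem constO_eq :
    constO N m K A =
      ((algebraMap Qb (AdjoinRoot m)).comp A.subtype).comp (A0.incl K A) := rfl

/-- an integral element of the chart `(A ∩ K)[X] → Ω` of a level is an integral element of
the chart `A[X] → Ω`. -/
theorem isIntegralElem_chartHom {y : AdjoinRoot m}
    (h : (chartHomO N m K A b).IsIntegralElem y) :
    (EvalInt.chartHom A (tO N m b)).IsIntegralElem y := by
  unfold chartHomO at h
  rw [constO_eq] at h
  exact CoverLevel.isIntegralElem_of_comp _ _ _ h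

/-- the image in `Ω` of an element of `F#` integral over the chart ring of the level is
integral over the chart `A[tO b]`. -/
theorem isIntegralElem_phi {x : AdjoinRoot m0}
    (hx : IsIntegral (chart ↥(A0.down K A) (Line K (AdjoinRoot.root m0)) (tK N m0 b)) x) :
    (EvalInt.chartHom A (tO N m b)).IsIntegralElem (phi N m m0 hmap x) :=
  isIntegralElem_chartHom N m A b
    ((CoverLevel.isIntegral_chart_iff_phi N m m0 A hmap b x).mp hx)

/-- **(hreg)**, element form. -/
theorem phi_mem_of_inA {w : Place Qb (AdjoinRoot m)} (hw : InA A w (tO N m b))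
    {x : AdjoinRoot m0}
    (hx : IsIntegral (chart ↥(A0.down K A) (Line K (AdjoinRoot.root m0)) (tK N m0 b)) x) :
    phi N m m0 hmap x ∈ w.toValuationSubring := by
  obtain ⟨a, ha⟩ := hw
  exact EvalInt.mem_of_isIntegralElem A w (tO N m b) (EvalInt.mem_of_sub_mem_nonunits w ha)
    (isIntegralElem_phi N m m0 A hmap b hx)

/-- the value at a place of the chart of the image of an element integral over the chart ring
of the level lies in `A`. -/
theorem exists_value_of_inA {w : Place Qb (AdjoinRoot m)} (hw : InA A w (tO N m b))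
    {x : AdjoinRoot m0}
    (hx : IsIntegral (chart ↥(A0.down K A) (Line K (AdjoinRoot.root m0)) (tK N m0 b)) x) :
    ∃ a : ↥A, phi N m m0 hmap x - algebraMap Qb (AdjoinRoot m) (a : Qb) ∈
      w.toValuationSubring.nonunits := by
  obtain ⟨a, ha⟩ := hw
  exact EvalInt.exists_sub_mem_nonunits A w (tO N m b) (FFTower.cover_deg_eq_one N m w) a ha
    (isIntegralElem_phi N m m0 A hmap b hx)

/-- **(hInt)**, element form: a value in `K` lies in `A ∩ K`. -/
theorem value_mem_down {w : Place Qb (AdjoinRoot m)} (hw : InA A w (tO N m b))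
    {x : AdjoinRoot m0}
    (hx : IsIntegral (chart ↥(A0.down K A) (Line K (AdjoinRoot.root m0)) (tK N m0 b)) x)
    (a : K) (ha : phi N m m0 hmap x - algebraMap Qb (AdjoinRoot m) (algebraMap K Qb a) ∈
      w.toValuationSubring.nonunits) : a ∈ A0.down K A := by
  obtain ⟨a', ha'⟩ := exists_value_of_inA N m m0 A hmap b hw hx
  have h := EvalInt.sub_mem_nonunits_unique w ha ha'
  rw [A0.mem_down, h]
  exact a'.2

/-- **(hRel)**, element form. -/
theorem dvd_of_sameChar (π : ↥(A0.down K A))
    (hmax : IsLocalRing.maximalIdeal ↥(A0.down K A) = Ideal.span {π})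
    {w w' : Place Qb (AdjoinRoot m)} (hr : SameChar A (tO N m b) w w') {x : AdjoinRoot m0}
    (hx : IsIntegral (chart ↥(A0.down K A) (Line K (AdjoinRoot.root m0)) (tK N m0 b)) x)
    (a0 a0' : ↥(A0.down K A))
    (h : phi N m m0 hmap x - algebraMap Qb (AdjoinRoot m) (algebraMap K Qb (a0 : K)) ∈
      w.toValuationSubring.nonunits)
    (h' : phi N m m0 hmap x - algebraMap Qb (AdjoinRoot m) (algebraMap K Qb (a0' : K)) ∈
      w'.toValuationSubring.nonunits) (hπ : π ∣ a0) : π ∣ a0' := by
  have hres := hr (phi N m m0 hmap x) (isIntegralElem_phi N m m0 A hmap b hx)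
    (A0.incl K A a0) (A0.incl K A a0') h h'
  have h0 : a0 ∈ IsLocalRing.maximalIdeal ↥(A0.down K A) := by
    rw [hmax]
    exact Ideal.mem_span_singleton.mpr hπ
  have h1 : IsLocalRing.residue ↥A (A0.incl K A a0) = 0 :=
    (IsLocalRing.residue_eq_zero_iff _).mpr ((A0.incl_mem_maximalIdeal_iff A a0).mpr h0)
  rw [h1] at hres
  have h2 : A0.incl K A a0' ∈ IsLocalRing.maximalIdeal ↥A :=
    (IsLocalRing.residue_eq_zero_iff _).mp hres.symm
  have h3 := (A0.incl_mem_maximalIdeal_iff A a0').mp h2
  rw [hmax] at h3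
  exact Ideal.mem_span_singleton.mp h3

/-! ### The hypotheses of `LocalCoverCls.exists_sub_mul_mem_of_classes`, verbatim -/

/-- **(hreg)**. -/
theorem hreg :
    ∀ w : Place Qb (AdjoinRoot m), InA A w (tO N m b) →
      ∀ c : ↥(integralClosure (chart ↥(A0.down K A) (Line K (AdjoinRoot.root m0)) (tK N m0 b))
          (AdjoinRoot m0)),
        phi N m m0 hmap (algebraMap ↥(integralClosure
          (chart ↥(A0.down K A) (Line K (AdjoinRoot.root m0)) (tK N m0 b)) (AdjoinRoot m0))
          (AdjoinRoot m0) c) ∈ w.toValuationSubring :=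
  fun _ hw c => phi_mem_of_inA N m m0 A hmap b hw c.2

/-- **(hInt)**. -/
theorem hInt :
    ∀ w : Place Qb (AdjoinRoot m), InA A w (tO N m b) →
      ∀ (c : ↥(integralClosure (chart ↥(A0.down K A) (Line K (AdjoinRoot.root m0)) (tK N m0 b))
          (AdjoinRoot m0))) (a : K),
        phi N m m0 hmap (algebraMap ↥(integralClosure
          (chart ↥(A0.down K A) (Line K (AdjoinRoot.root m0)) (tK N m0 b)) (AdjoinRoot m0))
          (AdjoinRoot m0) c) - algebraMap Qb (AdjoinRoot m) (algebraMap K Qb a) ∈
            w.toValuationSubring.nonunits →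
        ∃ a0 : ↥(A0.down K A), algebraMap ↥(A0.down K A) K a0 = a :=
  fun _ hw c a ha => ⟨⟨a, value_mem_down N m m0 A hmap b hw c.2 a ha⟩, rfl⟩

/-- the chart coordinate as an element of the chart ring `C_b`. -/
def tC : ↥(integralClosure (chart ↥(A0.down K A) (Line K (AdjoinRoot.root m0)) (tK N m0 b))
    (AdjoinRoot m0)) :=
  algebraMap (chart ↥(A0.down K A) (Line K (AdjoinRoot.root m0)) (tK N m0 b)) _
    (coord ↥(A0.down K A) (Line K (AdjoinRoot.root m0)) (tK N m0 b))

theorem phi_tC :
    phi N m m0 hmap (algebraMap ↥(integralClosure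
      (chart ↥(A0.down K A) (Line K (AdjoinRoot.root m0)) (tK N m0 b)) (AdjoinRoot m0))
      (AdjoinRoot m0) (tC N m0 A b)) = tO N m b := by
  rw [← CoverLevel.phi_tK N m m0 hmap b]
  rfl

/-- **(hIn)**. -/
theorem hIn :
    ∀ w : Place Qb (AdjoinRoot m),
      (∀ c : ↥(integralClosure (chart ↥(A0.down K A) (Line K (AdjoinRoot.root m0)) (tK N m0 b))
          (AdjoinRoot m0)), ∃ a0 : ↥(A0.down K A),
        phi N m m0 hmap (algebraMap ↥(integralClosure
          (chart ↥(A0.down K A) (Line K (AdjoinRoot.root m0)) (tK N m0 b)) (AdjoinRoot m0))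
          (AdjoinRoot m0) c) - algebraMap Qb (AdjoinRoot m)
            (algebraMap K Qb (algebraMap ↥(A0.down K A) K a0)) ∈
              w.toValuationSubring.nonunits) →
      InA A w (tO N m b) := by
  intro w h
  obtain ⟨a0, ha0⟩ := h (tC N m0 A b)
  rw [phi_tC] at ha0
  exact ⟨A0.incl K A a0, ha0⟩

/-- **(hRel)**. -/
theorem hRel (π : ↥(A0.down K A))
    (hmax : IsLocalRing.maximalIdeal ↥(A0.down K A) = Ideal.span {π}) :
    ∀ w w' : Place Qb (AdjoinRoot m), InA A w (tO N m b) → InA A w' (tO N m b) →
      SameChar A (tO N m b) w w' →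
      ∀ (c : ↥(integralClosure (chart ↥(A0.down K A) (Line K (AdjoinRoot.root m0)) (tK N m0 b))
          (AdjoinRoot m0))) (a0 a0' : ↥(A0.down K A)),
        phi N m m0 hmap (algebraMap ↥(integralClosure
          (chart ↥(A0.down K A) (Line K (AdjoinRoot.root m0)) (tK N m0 b)) (AdjoinRoot m0))
          (AdjoinRoot m0) c) - algebraMap Qb (AdjoinRoot m)
            (algebraMap K Qb (algebraMap ↥(A0.down K A) K a0)) ∈
              w.toValuationSubring.nonunits →
        phi N m m0 hmap (algebraMap ↥(integralClosure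
          (chart ↥(A0.down K A) (Line K (AdjoinRoot.root m0)) (tK N m0 b)) (AdjoinRoot m0))
          (AdjoinRoot m0) c) - algebraMap Qb (AdjoinRoot m)
            (algebraMap K Qb (algebraMap ↥(A0.down K A) K a0')) ∈
              w'.toValuationSubring.nonunits →
        π ∣ a0 → π ∣ a0' :=
  fun _ _ _ _ hr c a0 a0' h h' hπ =>
    dvd_of_sameChar N m m0 A hmap b π hmax hr c.2 a0 a0' h h' hπ

/-- **(hrefl)**. -/
theorem hrefl :
    ∀ w : Place Qb (AdjoinRoot m), InA A w (tO N m b) → SameChar A (tO N m b) w w :=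
  fun w _ => SameChar.refl A (tO N m b) w

/-- **(hsymm)**. -/
theorem hsymm :
    ∀ w w' : Place Qb (AdjoinRoot m), InA A w (tO N m b) → InA A w' (tO N m b) →
      SameChar A (tO N m b) w w' → SameChar A (tO N m b) w' w :=
  fun _ _ _ _ h => h.symm

/-- **(htrans)**. -/
theorem htrans :
    ∀ w w' w'' : Place Qb (AdjoinRoot m), InA A w (tO N m b) → InA A w' (tO N m b) →
      InA A w'' (tO N m b) → SameChar A (tO N m b) w w' → SameChar A (tO N m b) w' w'' →
      SameChar A (tO N m b) w w'' := by
  intro w w' w'' _ hw' _ h h' f hf a a'' ha ha''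
  obtain ⟨a₀, ht⟩ := hw'
  obtain ⟨a', ha'⟩ := EvalInt.exists_sub_mem_nonunits A w' (tO N m b)
    (FFTower.cover_deg_eq_one N m w') a₀ ht hf
  exact (h f hf a a' ha ha').trans (h' f hf a' a'' ha' ha'')

end Fermat.Agent.S37.CoverPts
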