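import Mathlib

/-!
# Kernel of a section through a point of a two-generator local ring

`R` a Noetherian local ring whose maximal ideal is generated by `ϖ` and `x`, `ev : R →+* A` a ring
homomorphism to a domain with `ev x = 0` and `ev ϖ ≠ 0`.  Then `ker ev = (x)`.
(Krull intersection in `R ⧸ (x)`, a local Noetherian ring with principal maximal ideal.)
-/

set_option autoImplicit false
set_option linter.style.haveILetI false
set_option linter.unnecessarySimpa false

namespace Fermat.Agent.S37.SectionKer

open IsLocalRing

/-- In a Noetherian local ring with principal maximal ideal `(ϖ)`, every nonzero element is a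
unit times a power of `ϖ`. -/
theorem exists_eq_unit_mul_pow {S : Type*} [CommRing S] [IsNoetherianRing S] [IsLocalRing S]
    (ϖ : S) (hmax : maximalIdeal S = Ideal.span {ϖ}) (z : S) (hz : z ≠ 0) :
    ∃ (m : ℕ) (u : S), IsUnit u ∧ z = u * ϖ ^ m := by
  -- Krull intersection: `z ∉ 𝔪 ^ m` for some `m`
  have hinf : (⨅ i : ℕ, maximalIdeal S ^ i) = ⊥ :=
    Ideal.iInf_pow_eq_bot_of_isLocalRing _ (maximalIdeal.isMaximal S).ne_top
  have hex : ∃ m : ℕ, z ∉ maximalIdeal S ^ m := by
    by_contra hcon
    push Not at hcon
    have : z ∈ ⨅ i : ℕ, maximalIdeal S ^ i := by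
      rw [Ideal.mem_iInf]; exact hcon
    rw [hinf, Ideal.mem_bot] at this
    exact hz this
  classical
  have hfind := Nat.find_spec hex
  have hmin := fun k hk => Nat.find_min hex (m := k) hk
  set m := Nat.find hex with hm
  have hm0 : m ≠ 0 := by
    intro h0
    rw [h0, pow_zero, Ideal.one_eq_top] at hfind
    exact hfind Submodule.mem_top
  obtain ⟨k, hk⟩ := Nat.exists_eq_succ_of_ne_zero hm0
  have hzk : z ∈ maximalIdeal S ^ k := by
    have := hmin k (by omega)
    push Not at this
    exact this
  rw [hmax, Ideal.span_singleton_pow, Ideal.mem_span_singleton] at hzk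
  obtain ⟨u, hu⟩ := hzk
  refine ⟨k, u, ?_, by rw [hu, mul_comm]⟩
  by_contra hnu
  have hmem : u ∈ maximalIdeal S := (mem_maximalIdeal u).mpr hnu
  rw [hmax, Ideal.mem_span_singleton] at hmem
  obtain ⟨w, hw⟩ := hmem
  apply hfind
  rw [hk, hmax, Ideal.span_singleton_pow, Ideal.mem_span_singleton]
  exact ⟨w, by rw [hu, hw, pow_succ]; ring⟩

/-- **Kernel of a section.** -/
theorem ker_eq_span {R A : Type*} [CommRing R] [IsNoetherianRing R] [IsLocalRing R]
    [CommRing A] [IsDomain A] (ev : R →+* A) (ϖ x : R)
    (hmax : maximalIdeal R = Ideal.span {ϖ, x}) (hx : ev x = 0) (hϖ : ev ϖ ≠ 0) :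
    RingHom.ker ev = Ideal.span {x} := by
  apply le_antisymm
  · intro z hz
    rw [RingHom.mem_ker] at hz
    by_contra hzx
    -- work in `S = R ⧸ (x)`
    let I : Ideal R := Ideal.span {x}
    have hIne : I ≠ ⊤ := by
      intro h
      have h1 : (1 : R) ∈ I := by rw [h]; exact Submodule.mem_top
      rw [Ideal.mem_span_singleton] at h1
      obtain ⟨c, hc⟩ := h1
      have := congrArg ev hc
      rw [map_one, map_mul, hx, zero_mul] at this
      exact one_ne_zero this
    haveI : Nontrivial (R ⧸ I) := Ideal.Quotient.nontrivial_iff.mpr hIne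
    haveI : IsLocalRing (R ⧸ I) :=
      IsLocalRing.of_surjective' (Ideal.Quotient.mk I) Ideal.Quotient.mk_surjective
    have hmaxS : maximalIdeal (R ⧸ I) = Ideal.span {Ideal.Quotient.mk I ϖ} := by
      have h1 : maximalIdeal (R ⧸ I) = (maximalIdeal R).map (Ideal.Quotient.mk I) := by
        have hsurj : Function.Surjective (Ideal.Quotient.mk I) := Ideal.Quotient.mk_surjective
        apply le_antisymm
        · intro y hy
          obtain ⟨r, rfl⟩ := hsurj y
          have hr : r ∈ maximalIdeal R := by
            rw [mem_maximalIdeal, mem_nonunits_iff] at hy ⊢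
            exact fun h => hy (h.map _)
          exact Ideal.mem_map_of_mem _ hr
        · rw [Ideal.map_le_iff_le_comap]
          intro r hr
          rw [Ideal.mem_comap, mem_maximalIdeal, mem_nonunits_iff]
          rw [mem_maximalIdeal, mem_nonunits_iff] at hr
          intro h
          -- a preimage of a unit in a local ring is a unit
          apply hr
          by_contra hnr
          have hrm : r ∈ maximalIdeal R := (mem_maximalIdeal r).mpr hnr
          obtain ⟨v, hv⟩ := h.exists_right_inv
          obtain ⟨s, rfl⟩ := hsurj v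
          have h1 : r * s - 1 ∈ I := by
            rw [← Ideal.Quotient.eq_zero_iff_mem, map_sub, map_mul, hv, map_one, sub_self]
          have hI : I ≤ maximalIdeal R := by
            rw [hmax]
            exact Ideal.span_mono (by intro a ha; rw [Set.mem_singleton_iff] at ha; rw [ha]; simp)
          have h2 : (1 : R) ∈ maximalIdeal R := by
            have h3 := (maximalIdeal R).sub_mem ((maximalIdeal R).mul_mem_right s hrm) (hI h1)
            simpa using h3
          exact (maximalIdeal.isMaximal R).ne_top ((Ideal.eq_top_iff_one _).mpr h2)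
      rw [h1, hmax, Ideal.map_span, Set.image_pair]
      have hx0 : Ideal.Quotient.mk I x = 0 :=
        Ideal.Quotient.eq_zero_iff_mem.mpr (Ideal.mem_span_singleton_self x)
      rw [hx0]
      apply le_antisymm
      · rw [Ideal.span_le]
        rintro y (rfl | rfl)
        · exact Ideal.subset_span rfl
        · exact Ideal.zero_mem _
      · exact Ideal.span_mono (by intro a ha; rw [Set.mem_singleton_iff] at ha; rw [ha]; simp)
    have hz0 : Ideal.Quotient.mk I z ≠ 0 := fun h => hzx (Ideal.Quotient.eq_zero_iff_mem.mp h)
    obtain ⟨m, u, hu, hzu⟩ := exists_eq_unit_mul_pow (Ideal.Quotient.mk I ϖ) hmaxS _ hz0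
    obtain ⟨u', rfl⟩ := Ideal.Quotient.mk_surjective u
    -- `u'` is a unit of `R`
    have hu' : IsUnit u' := by
      by_contra hnu
      have hum : u' ∈ maximalIdeal R := (mem_maximalIdeal u').mpr hnu
      have : Ideal.Quotient.mk I u' ∈ maximalIdeal (R ⧸ I) := by
        rw [mem_maximalIdeal, mem_nonunits_iff]
        intro h
        obtain ⟨v, hv⟩ := h.exists_right_inv
        obtain ⟨s, rfl⟩ := Ideal.Quotient.mk_surjective v
        have h1 : u' * s - 1 ∈ I := by
          rw [← Ideal.Quotient.eq_zero_iff_mem, map_sub, map_mul, hv, map_one, sub_self]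
        have hI : I ≤ maximalIdeal R := by
          rw [hmax]
          exact Ideal.span_mono (by intro a ha; rw [Set.mem_singleton_iff] at ha; rw [ha]; simp)
        have h2 : (1 : R) ∈ maximalIdeal R := by
          have h3 := (maximalIdeal R).sub_mem ((maximalIdeal R).mul_mem_right s hum) (hI h1)
          simpa using h3
        exact (maximalIdeal.isMaximal R).ne_top ((Ideal.eq_top_iff_one _).mpr h2)
      exact ((mem_maximalIdeal _).mp this) hu
    have hdiff : z - u' * ϖ ^ m ∈ I := by
      rw [← Ideal.Quotient.eq_zero_iff_mem, map_sub, map_mul, map_pow, hzu, sub_self]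
    rw [Ideal.mem_span_singleton] at hdiff
    obtain ⟨c, hc⟩ := hdiff
    have hev := congrArg ev hc
    rw [map_sub, hz, map_mul, map_pow, map_mul, hx, zero_mul, zero_sub, neg_eq_zero] at hev
    rcases mul_eq_zero.mp hev with h | h
    · exact (hu'.map ev).ne_zero h
    · exact pow_ne_zero m hϖ h
  · rw [Ideal.span_le]
    rintro y hy
    rw [Set.mem_singleton_iff] at hy
    rw [hy]
    exact hx

end Fermat.Agent.S37.SectionKer
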