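import Mathlib
import Fermat.Agent.S18.CoreDefs
import Fermat.Agent.S18.AdjoinChart
import Fermat.Agent.S18.IntTrick
import Fermat.Agent.S37.SectionKer

/-!
# S37 (long shot), block (W2): closed points of the special fibre without global primality

The same conclusion as `FibreGen.exists_local_gen_chart` (the maximal ideal of `C_n` is `(π, s)`)
**without** assuming that `π` is a prime element of `C = integralClosure A0[t] E` (on the covers
the special fibre is not known to be irreducible).  Inputs: machine N and the minimal-polynomial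
trick only.  We also prove that `π` is prime in the local ring `C_n` (elementwise form).
-/

set_option autoImplicit false
set_option linter.style.haveILetI false

namespace Fermat.Agent.S37.FibreLoc

open Polynomial Fermat.Agent.S18 Fermat.Agent.S18.CoreDefs

/-! ### Two matrix lemmas (Cayley–Hamilton by hand) -/

section Matrix

theorem det_mul_eq {C : Type*} [CommRing C] {m : ℕ} (Mat : Matrix (Fin m) (Fin m) C)
    (zs d : Fin m → C) (ϖ : C) (h : Mat.mulVec zs = ϖ • d) (j : Fin m) :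
    Mat.det * zs j = ϖ * (Mat.adjugate.mulVec d) j := by
  have h1 : Mat.adjugate.mulVec (Mat.mulVec zs) = Mat.det • zs := by
    rw [Matrix.mulVec_mulVec, Matrix.adjugate_mul, Matrix.smul_mulVec, Matrix.one_mulVec]
  rw [h, Matrix.mulVec_smul] at h1
  have h2 := congrFun h1 j
  simpa using h2.symm

theorem det_smul_one_sub {R₀ E : Type*} [CommRing R₀] [Field E] [Algebra R₀ E] {m : ℕ}
    (A : Matrix (Fin m) (Fin m) R₀) (x τE : E) :
    ((τE * x) • (1 : Matrix (Fin m) (Fin m) E) - τE • A.map (algebraMap R₀ E)).det =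
      τE ^ m * aeval x A.charpoly := by
  have h1 : (τE * x) • (1 : Matrix (Fin m) (Fin m) E) - τE • A.map (algebraMap R₀ E) =
      τE • (Matrix.scalar (Fin m) x - A.map (algebraMap R₀ E)) := by
    ext i j
    simp only [Matrix.sub_apply, Matrix.smul_apply, Matrix.one_apply, Matrix.scalar_apply,
      Matrix.diagonal_apply, smul_eq_mul]
    split_ifs <;> ring
  rw [h1, Matrix.det_smul, Fintype.card_fin, ← Matrix.eval_charpoly, Matrix.charpoly_map,
    aeval_def, eval₂_eq_eval_map]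

end Matrix

/-! ### The integral closure -/

section Closure

variable {R₀ : Type*} [CommRing R₀] [IsDomain R₀] [IsIntegrallyClosed R₀]

/-- The minimal-polynomial trick: an element of `R₀` outside `(π)` is a non-zero-divisor
modulo `π C`. -/
theorem dvd_of_dvd_algebraMap_mul (M : Type*) [Field M] [Algebra R₀ M] [IsFractionRing R₀ M]
    (E : Type*) [Field E] [Algebra M E] [Algebra R₀ E] [IsScalarTower R₀ M E]
    (ϖ₀ r : R₀) (hϖ₀ : Prime ϖ₀) (hr : ¬ ϖ₀ ∣ r) (y : integralClosure R₀ E)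
    (h : algebraMap R₀ (integralClosure R₀ E) ϖ₀ ∣ algebraMap R₀ (integralClosure R₀ E) r * y) :
    algebraMap R₀ (integralClosure R₀ E) ϖ₀ ∣ y := by
  obtain ⟨c, hc⟩ := h
  have hinjM : Function.Injective (algebraMap R₀ M) := IsFractionRing.injective R₀ M
  have hϖE : algebraMap R₀ E ϖ₀ ≠ 0 := by
    rw [IsScalarTower.algebraMap_apply R₀ M E]
    exact (map_ne_zero_iff _ (algebraMap M E).injective).mpr
      ((map_ne_zero_iff _ hinjM).mpr hϖ₀.ne_zero)
  have hcE : algebraMap R₀ E r * (y : E) = algebraMap R₀ E ϖ₀ * (c : E) := by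
    have := congrArg (fun z : integralClosure R₀ E => (z : E)) hc
    simpa using this
  set w : E := (y : E) / algebraMap R₀ E ϖ₀ with hw
  have h1 : IsIntegral R₀ (ϖ₀ • w) := by
    rw [Algebra.smul_def, hw, mul_div_cancel₀ _ hϖE]
    exact y.2
  have h2 : IsIntegral R₀ (r • w) := by
    have h3 : r • w = (c : E) := by
      rw [Algebra.smul_def, hw, ← mul_div_assoc, hcE, mul_div_assoc, mul_div_cancel₀ _ hϖE]
    rw [h3]
    exact c.2
  have hwint := IntTrick.isIntegral_of_smul_of_smul (M := M) ϖ₀ r hϖ₀ hr w h1 h2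
  refine ⟨⟨w, hwint⟩, Subtype.ext ?_⟩
  show (y : E) = algebraMap R₀ E ϖ₀ * w
  rw [hw, mul_div_cancel₀ _ hϖE]

/-- **The maximal ideal at a closed point of the special fibre, without primality of `π`.** -/
theorem exists_local_gen [IsNoetherianRing R₀] (M : Type*) [Field M] [Algebra R₀ M]
    [IsFractionRing R₀ M] (E : Type*) [Field E] [Algebra M E] [Algebra R₀ E]
    [IsScalarTower R₀ M E] [FiniteDimensional M E] [Algebra.IsSeparable M E]
    (ϖ₀ τ : R₀) (hϖ₀ : Prime ϖ₀) (hτ : ¬ ϖ₀ ∣ τ)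
    (hN : ∀ (e : E) (s₀ : R₀), ¬ ϖ₀ ∣ s₀ → IsIntegral R₀ (s₀ • e) →
      (∃ p : R₀[X], p.Monic ∧ ∃ s₁ : R₀, ¬ ϖ₀ ∣ s₁ ∧ ∃ c₁ : E, IsIntegral R₀ c₁ ∧
        s₁ • Polynomial.aeval e p = ϖ₀ • c₁) →
      ∃ c : E, IsIntegral R₀ c ∧ ∃ s₂ : R₀, ¬ ϖ₀ ∣ s₂ ∧ ∃ c₂ : E, IsIntegral R₀ c₂ ∧
        s₂ • (e - c) = ϖ₀ • c₂)
    (n : Ideal (integralClosure R₀ E)) (hn : n.IsMaximal)
    (hcomap : Ideal.comap (algebraMap R₀ (integralClosure R₀ E)) n = Ideal.span {ϖ₀, τ}) :
    ∃ s ∈ n, ∀ x ∈ n, ∃ w, w ∉ n ∧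
      w * x ∈ Ideal.span {algebraMap R₀ (integralClosure R₀ E) ϖ₀, s} := by
  classical
  let C := integralClosure R₀ E
  let ϖ : C := algebraMap R₀ C ϖ₀
  let τC : C := algebraMap R₀ C τ
  haveI : IsNoetherian R₀ C := IsIntegralClosure.isNoetherian R₀ M E C
  haveI : IsNoetherianRing C := IsIntegralClosure.isNoetherianRing R₀ M E C
  have hnp : n.IsPrime := hn.isPrime
  have hϖn : ϖ ∈ n := by
    have h1 : ϖ₀ ∈ Ideal.comap (algebraMap R₀ C) n := by
      rw [hcomap]
      exact Ideal.subset_span (by simp)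
    exact h1
  have hτn : τC ∈ n := by
    have h1 : τ ∈ Ideal.comap (algebraMap R₀ C) n := by
      rw [hcomap]
      exact Ideal.subset_span (by simp)
    exact h1
  let I₀ : Ideal C := Ideal.span {ϖ, τC}
  have hI₀n : I₀ ≤ n := by
    refine Ideal.span_le.mpr ?_
    intro x hx
    rcases hx with hx | hx
    · rw [hx]
      exact hϖn
    · rw [Set.mem_singleton_iff.mp hx]
      exact hτn
  -- `n` is an associated prime of `C / (π, τ)`
  have hmin : n ∈ I₀.minimalPrimes := by
    refine ⟨⟨hnp, hI₀n⟩, fun 𝔮 h𝔮 h𝔮n => ?_⟩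
    obtain ⟨h𝔮p, h𝔮I⟩ := h𝔮
    by_contra hnle
    obtain ⟨x, hxn, hx𝔮⟩ := SetLike.not_le_iff_exists.mp hnle
    have hlt := Ideal.comap_lt_comap_of_integral_mem_sdiff (R := R₀) (hI := h𝔮p) h𝔮n
      (show x ∈ (n : Set C) \ 𝔮 from ⟨hxn, hx𝔮⟩) (Algebra.IsIntegral.isIntegral x)
    have hge : Ideal.comap (algebraMap R₀ C) n ≤ Ideal.comap (algebraMap R₀ C) 𝔮 := by
      rw [hcomap, Ideal.span_le]
      intro x hx
      rcases hx with hx | hx
      · rw [hx]
        exact h𝔮I (Ideal.subset_span (Or.inl rfl))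
      · rw [Set.mem_singleton_iff.mp hx]
        exact h𝔮I (Ideal.subset_span (Or.inr rfl))
    exact absurd hlt (not_lt_of_ge hge)
  have hass : n ∈ associatedPrimes C (C ⧸ I₀) := by
    apply Module.associatedPrimes.minimalPrimes_annihilator_subset_associatedPrimes
    rw [Ideal.annihilator_quotient]
    exact hmin
  obtain ⟨-, xb, hxb⟩ := (Submodule.isAssociatedPrime_iff).mp hass
  obtain ⟨b, rfl⟩ := Ideal.Quotient.mk_surjective xb
  have hb : ∀ z : C, z ∈ n ↔ z * b ∈ I₀ := by
    intro z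
    rw [hxb, Submodule.mem_colon_singleton, Submodule.mem_bot, ← Ideal.Quotient.eq_zero_iff_mem,
      map_mul]
    rfl
  have hbI : b ∉ I₀ := fun h =>
    hn.ne_top ((Ideal.eq_top_iff_one n).mpr ((hb 1).mpr (by rwa [one_mul])))
  have hγ : ∀ r : R₀, ¬ ϖ₀ ∣ r → ∀ y : C, ϖ ∣ algebraMap R₀ C r * y → ϖ ∣ y :=
    fun r hr y h => dvd_of_dvd_algebraMap_mul M E ϖ₀ r hϖ₀ hr y h
  by_cases hcase : ∃ z ∈ n, ∃ c d : C, b * z = ϖ * d + τC * c ∧ c ∉ n
  · obtain ⟨z₀, hz₀, c₀, d₀, h₀, hc₀⟩ := hcase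
    refine ⟨z₀, hz₀, fun z hz => ⟨c₀, hc₀, ?_⟩⟩
    have hz' : z * b ∈ I₀ := (hb z).mp hz
    obtain ⟨d, c, hdc⟩ := Ideal.mem_span_pair.mp hz'
    have hdiv : ϖ ∣ τC * (c₀ * z - c * z₀) :=
      ⟨d * z₀ - d₀ * z, by linear_combination -z * h₀ - z₀ * hdc⟩
    obtain ⟨e, he⟩ := hγ τ hτ _ hdiv
    rw [Ideal.mem_span_pair]
    exact ⟨e, c, by linear_combination -he⟩
  · exfalso
    have hall : ∀ z ∈ n, ∀ c d : C, b * z = ϖ * d + τC * c → c ∈ n := by
      intro z hz c d h
      by_contra hc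
      exact hcase ⟨z, hz, c, d, h, hc⟩
    have hfg : (n.restrictScalars R₀).FG := IsNoetherian.noetherian _
    obtain ⟨m, zs, hzs⟩ := Submodule.fg_iff_exists_fin_generating_family.mp hfg
    have hmem_span : ∀ z : C, z ∈ n → z ∈ Submodule.span R₀ (Set.range zs) := by
      intro z hz
      rw [hzs]
      exact hz
    have hzs_mem : ∀ i, zs i ∈ n := fun i => by
      have h1 : zs i ∈ n.restrictScalars R₀ := hzs ▸ Submodule.subset_span (Set.mem_range_self i)
      exact h1
    have hrep : ∀ i, ∃ (d : C) (a : Fin m → R₀),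
        b * zs i = ϖ * d + τC * ∑ j, a j • zs j := by
      intro i
      obtain ⟨d, c, hdc⟩ := Ideal.mem_span_pair.mp ((hb (zs i)).mp (hzs_mem i))
      have hc : c ∈ n := hall (zs i) (hzs_mem i) c d (by linear_combination -hdc)
      obtain ⟨a, ha⟩ := (Submodule.mem_span_range_iff_exists_fun R₀).mp (hmem_span c hc)
      exact ⟨d, a, by rw [ha]; linear_combination -hdc⟩
    choose d a hda using hrep
    let A : Matrix (Fin m) (Fin m) R₀ := Matrix.of a
    let Mat : Matrix (Fin m) (Fin m) C :=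
      b • (1 : Matrix (Fin m) (Fin m) C) - τC • A.map (algebraMap R₀ C)
    have hMat : Mat.mulVec zs = ϖ • d := by
      funext i
      have h1 : ((A.map (algebraMap R₀ C)).mulVec zs) i = ∑ j, a i j • zs j := by
        simp only [Matrix.mulVec, dotProduct, Matrix.map_apply, A, Matrix.of_apply]
        exact Finset.sum_congr rfl fun j _ => (Algebra.smul_def _ _).symm
      show ((b • (1 : Matrix (Fin m) (Fin m) C) - τC • A.map (algebraMap R₀ C)).mulVec zs) i =
        (ϖ • d) i
      rw [Matrix.sub_mulVec, Matrix.smul_mulVec, Matrix.smul_mulVec, Matrix.one_mulVec,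
        Pi.sub_apply, Pi.smul_apply, Pi.smul_apply, Pi.smul_apply, h1, smul_eq_mul, smul_eq_mul,
        smul_eq_mul]
      linear_combination hda i
    have hdetz : ∀ j, Mat.det * zs j = ϖ * (Mat.adjugate.mulVec d) j :=
      det_mul_eq Mat zs d ϖ hMat
    obtain ⟨rτ, hrτ⟩ := (Submodule.mem_span_range_iff_exists_fun R₀).mp (hmem_span τC hτn)
    have hdetτ : ϖ ∣ τC * Mat.det := by
      have key : (∑ j, rτ j • zs j) * Mat.det =
          ϖ * ∑ j, rτ j • (Mat.adjugate.mulVec d) j := by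
        rw [Finset.sum_mul, Finset.mul_sum]
        refine Finset.sum_congr rfl fun j _ => ?_
        rw [smul_mul_assoc, mul_comm (zs j), hdetz j, mul_smul_comm]
      exact ⟨∑ j, rτ j • (Mat.adjugate.mulVec d) j,
        (congrArg (· * Mat.det) hrτ.symm).trans key⟩
    obtain ⟨c₁, hc₁⟩ := hγ τ hτ _ hdetτ
    -- pass to `E`
    have hinjM : Function.Injective (algebraMap R₀ M) := IsFractionRing.injective R₀ M
    have hτE : algebraMap R₀ E τ ≠ 0 := by
      have hτ0 : τ ≠ 0 := fun h => hτ (h ▸ dvd_zero _)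
      rw [IsScalarTower.algebraMap_apply R₀ M E]
      exact (map_ne_zero_iff _ (algebraMap M E).injective).mpr ((map_ne_zero_iff _ hinjM).mpr hτ0)
    let x : E := (b : E) / algebraMap R₀ E τ
    have hτx : algebraMap R₀ E τ * x = (b : E) := mul_div_cancel₀ _ hτE
    have hdetE : ((Mat.det : C) : E) = algebraMap R₀ E τ ^ m * aeval x A.charpoly := by
      rw [← det_smul_one_sub A x (algebraMap R₀ E τ)]
      have h1 : ((Mat.det : C) : E) = ((algebraMap C E).mapMatrix Mat).det :=
        RingHom.map_det (algebraMap C E) Mat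
      rw [h1]
      congr 1
      ext i j
      simp only [RingHom.mapMatrix_apply, Matrix.map_apply, Mat, Matrix.sub_apply,
        Matrix.smul_apply, Matrix.one_apply, smul_eq_mul, map_sub, map_mul, hτx, A,
        Matrix.of_apply]
      have h2 : (algebraMap C E) τC = algebraMap R₀ E τ := rfl
      have h3 : (algebraMap C E) (algebraMap R₀ C (a i j)) = algebraMap R₀ E (a i j) := rfl
      have h4 : (algebraMap C E) b = (b : E) := rfl
      rw [h2, h3, h4]
      split_ifs <;> simp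
    have hint0 : IsIntegral R₀ (τ • x) := by
      rw [Algebra.smul_def, hτx]
      exact b.2
    have hτpow : ¬ ϖ₀ ∣ τ ^ m := fun h => hτ (hϖ₀.dvd_of_dvd_pow h)
    obtain ⟨c, hc, s₂, hs₂, c₂, hc₂, hcc⟩ := hN x τ hτ hint0
      ⟨A.charpoly, Matrix.charpoly_monic A, τ ^ m, hτpow, (c₁ : E), c₁.2, by
        rw [Algebra.smul_def, map_pow, ← hdetE, hc₁, Algebra.smul_def]
        rfl⟩
    have hdvd : ϖ ∣ algebraMap R₀ C s₂ * (b - τC * ⟨c, hc⟩) := by
      refine ⟨τC * ⟨c₂, hc₂⟩, Subtype.ext ?_⟩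
      have h6 : algebraMap R₀ E s₂ * ((b : E) - algebraMap R₀ E τ * c) =
          algebraMap R₀ E ϖ₀ * (algebraMap R₀ E τ * c₂) := by
        rw [Algebra.smul_def, Algebra.smul_def] at hcc
        have h7 : (b : E) - algebraMap R₀ E τ * c = algebraMap R₀ E τ * (x - c) := by
          rw [mul_sub, hτx]
        rw [h7]
        linear_combination algebraMap R₀ E τ * hcc
      exact h6
    obtain ⟨e, he⟩ := hγ s₂ hs₂ _ hdvd
    apply hbI
    rw [Ideal.mem_span_pair]
    exact ⟨e, ⟨c, hc⟩, by linear_combination -he⟩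

end Closure

/-! ### Local primality of `π` -/

section LocalPrime

variable {C : Type*} [CommRing C] [IsDomain C] [IsNoetherianRing C]

/-- **`π` is prime in the local ring `C_n`** (elementwise form), as soon as the maximal ideal of
`C_n` is `(π, s)` and some `τ ∈ n` is a non-zero-divisor modulo `π`. -/
theorem exists_dvd_mul_of_dvd_mul (ϖ s τ : C) (n : Ideal C) (hn : n.IsMaximal) (hϖn : ϖ ∈ n)
    (hs : s ∈ n) (hτn : τ ∈ n)
    (hmax : ∀ x ∈ n, ∃ w, w ∉ n ∧ w * x ∈ Ideal.span {ϖ, s})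
    (hγ : ∀ y : C, ϖ ∣ τ * y → ϖ ∣ y)
    (x y : C) (hxy : ϖ ∣ x * y) : ∃ w, w ∉ n ∧ (ϖ ∣ w * x ∨ ϖ ∣ w * y) := by
  classical
  have hnp : n.IsPrime := hn.isPrime
  let R := Localization.AtPrime n
  let φ : C →+* R := algebraMap C R
  have hφ : Function.Injective φ :=
    IsLocalization.injective R (Ideal.primeCompl_le_nonZeroDivisors n)
  have hRnoeth : IsNoetherianRing R :=
    IsLocalization.isNoetherianRing n.primeCompl R inferInstance
  have hunitφ : ∀ w : C, w ∉ n → IsUnit (φ w) := fun w hw =>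
    (IsLocalization.AtPrime.isUnit_to_map_iff R n w).mpr hw
  -- the maximal ideal of the local ring
  have hmaxR : IsLocalRing.maximalIdeal R = Ideal.span {φ ϖ, φ s} := by
    rw [← Localization.AtPrime.map_eq_maximalIdeal]
    apply le_antisymm
    · rw [Ideal.map_le_iff_le_comap]
      intro z hz
      obtain ⟨w, hw, hwz⟩ := hmax z hz
      rw [Ideal.mem_comap]
      have h3 : φ w * φ z ∈ Ideal.span {φ ϖ, φ s} := by
        rw [← map_mul]
        have h4 := Ideal.mem_map_of_mem φ hwz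
        rwa [Ideal.map_span, Set.image_pair] at h4
      exact (Ideal.unit_mul_mem_iff_mem _ (hunitφ w hw)).mp h3
    · rw [Ideal.span_le]
      intro z hz
      rcases hz with hz | hz
      · rw [hz]
        exact Ideal.mem_map_of_mem _ hϖn
      · rw [Set.mem_singleton_iff.mp hz]
        exact Ideal.mem_map_of_mem _ hs
  -- descent of divisibility
  have hloc : ∀ z : C, φ ϖ ∣ φ z → ∃ w, w ∉ n ∧ ϖ ∣ w * z := by
    rintro z ⟨X, hX⟩
    obtain ⟨⟨c, v⟩, hcv⟩ := IsLocalization.surj n.primeCompl X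
    have hcv' : X * φ (v : C) = φ c := hcv
    refine ⟨(v : C), v.2, c, hφ ?_⟩
    rw [map_mul, map_mul, hX, ← hcv']
    ring
  have hγR : ∀ Y : R, φ ϖ ∣ φ τ * Y → φ ϖ ∣ Y := by
    intro Y hY
    obtain ⟨⟨y', v⟩, hyv⟩ := IsLocalization.surj n.primeCompl Y
    have hyv' : Y * φ (v : C) = φ y' := hyv
    have h1 : φ ϖ ∣ φ (τ * y') := by
      rw [map_mul, ← hyv', ← mul_assoc]
      exact Dvd.dvd.mul_right hY _
    obtain ⟨w, hw, hwd⟩ := hloc _ h1
    have h2 : ϖ ∣ τ * (w * y') := by
      have : τ * (w * y') = w * (τ * y') := by ring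
      rw [this]
      exact hwd
    have h3 := hγ _ h2
    have h4 : φ ϖ ∣ φ w * (Y * φ (v : C)) := by
      rw [hyv', ← map_mul]
      exact map_dvd φ h3
    have h5 : φ w * (Y * φ (v : C)) = Y * (φ w * φ (v : C)) := by ring
    rw [h5] at h4
    exact ((hunitφ w hw).mul (hunitφ (v : C) v.2)).dvd_mul_right.mp h4
  have hϖnu : ¬ IsUnit (φ ϖ) := by
    intro hu
    have h1 : φ ϖ ∈ IsLocalRing.maximalIdeal R := by
      rw [hmaxR]
      exact Ideal.subset_span (Or.inl rfl)
    exact (IsLocalRing.mem_maximalIdeal _).mp h1 hu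
  have hτpow : ∀ k : ℕ, ¬ φ ϖ ∣ φ τ ^ k := by
    intro k
    induction k with
    | zero =>
      rw [pow_zero]
      exact fun h => hϖnu (isUnit_of_dvd_one h)
    | succ k ih =>
      intro h
      rw [pow_succ'] at h
      exact ih (hγR _ h)
  -- the quotient `S = R / π`
  let J : Ideal R := Ideal.span {φ ϖ}
  have hJle : J ≤ IsLocalRing.maximalIdeal R := by
    rw [hmaxR]
    exact Ideal.span_mono (by
      intro z hz
      exact Or.inl hz)
  have hJtop : J ≠ ⊤ := fun h => (IsLocalRing.maximalIdeal.isMaximal R).ne_top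
    (top_le_iff.mp (h ▸ hJle))
  haveI : Nontrivial (R ⧸ J) := Ideal.Quotient.nontrivial_iff.mpr hJtop
  haveI : IsLocalRing (R ⧸ J) :=
    IsLocalRing.of_surjective' (Ideal.Quotient.mk J) Ideal.Quotient.mk_surjective
  have hmk0 : ∀ X : R, Ideal.Quotient.mk J X = 0 ↔ φ ϖ ∣ X := by
    intro X
    rw [Ideal.Quotient.eq_zero_iff_mem, Ideal.mem_span_singleton]
  have hmaxS : IsLocalRing.maximalIdeal (R ⧸ J) = Ideal.span {Ideal.Quotient.mk J (φ s)} := by
    have h1 : (Ideal.map (Ideal.Quotient.mk J) (IsLocalRing.maximalIdeal R)).IsMaximal := by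
      refine Ideal.IsMaximal.map_of_surjective_of_ker_le Ideal.Quotient.mk_surjective ?_
      rw [Ideal.mk_ker]
      exact hJle
    rw [← IsLocalRing.eq_maximalIdeal h1, hmaxR, Ideal.map_span, Set.image_pair,
      (hmk0 (φ ϖ)).mpr dvd_rfl]
    apply le_antisymm
    · rw [Ideal.span_le]
      intro z hz
      rcases hz with hz | hz
      · rw [hz]
        exact Ideal.zero_mem _
      · rw [Set.mem_singleton_iff.mp hz]
        exact Ideal.mem_span_singleton_self _
    · exact Ideal.span_mono (by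
        intro z hz
        exact Or.inr hz)
  -- `s` is not nilpotent modulo `π`
  have hspow : ∀ k : ℕ, Ideal.Quotient.mk J (φ s) ^ k ≠ 0 := by
    intro k hk
    have hτmem : Ideal.Quotient.mk J (φ τ) ∈ IsLocalRing.maximalIdeal (R ⧸ J) := by
      have h1 : (Ideal.map (Ideal.Quotient.mk J) (IsLocalRing.maximalIdeal R)).IsMaximal := by
        refine Ideal.IsMaximal.map_of_surjective_of_ker_le Ideal.Quotient.mk_surjective ?_
        rw [Ideal.mk_ker]
        exact hJle
      rw [← IsLocalRing.eq_maximalIdeal h1]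
      refine Ideal.mem_map_of_mem _ ?_
      rw [← Localization.AtPrime.map_eq_maximalIdeal]
      exact Ideal.mem_map_of_mem _ hτn
    rw [hmaxS, Ideal.mem_span_singleton] at hτmem
    obtain ⟨T, hT⟩ := hτmem
    have h2 : Ideal.Quotient.mk J (φ τ ^ k) = 0 := by
      rw [map_pow, hT, mul_pow, hk, zero_mul]
    exact hτpow k ((hmk0 _).mp h2)
  -- conclusion
  have hprod : Ideal.Quotient.mk J (φ x) * Ideal.Quotient.mk J (φ y) = 0 := by
    rw [← map_mul, ← map_mul, hmk0]
    exact map_dvd φ hxy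
  by_cases hx0 : Ideal.Quotient.mk J (φ x) = 0
  · obtain ⟨w, hw, hwd⟩ := hloc x ((hmk0 _).mp hx0)
    exact ⟨w, hw, Or.inl hwd⟩
  by_cases hy0 : Ideal.Quotient.mk J (φ y) = 0
  · obtain ⟨w, hw, hwd⟩ := hloc y ((hmk0 _).mp hy0)
    exact ⟨w, hw, Or.inr hwd⟩
  exfalso
  haveI : IsNoetherianRing (R ⧸ J) := inferInstance
  obtain ⟨i, u, hu, hxu⟩ := SectionKer.exists_eq_unit_mul_pow _ hmaxS _ hx0
  obtain ⟨j, v, hv, hyv⟩ := SectionKer.exists_eq_unit_mul_pow _ hmaxS _ hy0
  rw [hxu, hyv] at hprod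
  have h3 : (u * v) * Ideal.Quotient.mk J (φ s) ^ (i + j) = 0 := by
    rw [pow_add]
    linear_combination hprod
  exact hspow (i + j) ((hu.mul hv).mul_right_eq_zero.mp h3)

end LocalPrime

/-! ### The chart ring -/

section Chart

variable {A0 : Type*} [CommRing A0] [IsDomain A0] [IsDiscreteValuationRing A0]

/-- The data at a closed point of the special fibre of a chart: `n ∩ A0[t] = (π, τ)`. -/
theorem exists_comap_eq (M : Type*) [Field M] [Algebra A0 M] (E : Type*) [Field E]
    [Algebra M E] [Algebra A0 E] [IsScalarTower A0 M E]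
    (π : A0) (hπ : Irreducible π) (t : M) (ht : Transcendental A0 t)
    (n : Ideal (integralClosure (chart A0 M t) E)) (hn : n.IsMaximal)
    (hπn : algebraMap (chart A0 M t) (integralClosure (chart A0 M t) E) (unif A0 M t π) ∈ n) :
    ∃ τ : chart A0 M t,
      Ideal.comap (algebraMap (chart A0 M t) (integralClosure (chart A0 M t) E)) n =
        Ideal.span {unif A0 M t π, τ} ∧ ¬ unif A0 M t π ∣ τ := by
  haveI := hn
  have hmax₀ : (Ideal.comap (algebraMap (chart A0 M t) (integralClosure (chart A0 M t) E))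
      n).IsMaximal := Ideal.isMaximal_comap_of_isIntegral_of_isMaximal n
  obtain ⟨τ, hτ, -, -, hτ2⟩ := AdjoinChart.exists_prime_of_isMaximal M t ht π hπ _ hmax₀ hπn
  exact ⟨τ, hτ, hτ2⟩

/-- **The maximal ideal at a closed point of the special fibre of a chart, without primality of
`π`.**  `C` the integral closure of the chart ring `A0[t]` in `E`; if machine N holds, then every
maximal ideal `n ∋ π` of `C` is generated, locally at `n`, by `π` and one more element. -/
theorem exists_local_gen_chart (M : Type*) [Field M] [Algebra A0 M] (E : Type*) [Field E]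
    [Algebra M E] [Algebra A0 E] [IsScalarTower A0 M E] [FiniteDimensional M E]
    [Algebra.IsSeparable M E] (π : A0) (hπ : Irreducible π) (t : M) (ht : Transcendental A0 t)
    (hgen : ∀ m : M, ∃ a b : chart A0 M t, b ≠ 0 ∧ m * (b : M) = (a : M))
    (ϖ : integralClosure (chart A0 M t) E) (hϖE : (ϖ : E) = algebraMap A0 E π)
    (hN : ∀ x : E, InGauss A0 M E t π x →
      (∃ p : (chart A0 M t)[X], p.Monic ∧ InPiGauss A0 M E t π (Polynomial.aeval x p)) →
      ∃ c : E, IsIntegral (chart A0 M t) c ∧ InPiGauss A0 M E t π (x - c))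
    (n : Ideal (integralClosure (chart A0 M t) E)) (hn : n.IsMaximal) (hϖn : ϖ ∈ n) :
    ∃ s ∈ n, ∀ x ∈ n, ∃ w, w ∉ n ∧ w * x ∈ Ideal.span {ϖ, s} := by
  have := AdjoinChart.isIntegrallyClosed M t ht
  have := AdjoinChart.isNoetherianRing M t ht
  have := AdjoinChart.isFractionRing M t hgen
  have hp := AdjoinChart.prime_unif M t ht π hπ
  have hunif : ∀ y : E, (unif A0 M t π) • y = π • y := fun y => by
    rw [unif, algebraMap_smul]
  have hϖ : ϖ = algebraMap (chart A0 M t) (integralClosure (chart A0 M t) E) (unif A0 M t π) := by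
    apply Subtype.ext
    rw [hϖE]
    show algebraMap A0 E π = algebraMap (chart A0 M t) E (unif A0 M t π)
    rw [unif, ← IsScalarTower.algebraMap_apply]
  subst hϖ
  obtain ⟨τ, hτ, hτ2⟩ := exists_comap_eq M E π hπ t ht n hn hϖn
  exact exists_local_gen M E (unif A0 M t π) τ hp hτ2
    (fun e s₀ hs₀ he hint => by
      obtain ⟨p, hpm, s₁, hs₁, c₁, hc₁, h1⟩ := hint
      obtain ⟨c, hc, s₂, hs₂, c₂, hc₂, h⟩ := hN e ⟨s₀, hs₀, he⟩
        ⟨p, hpm, s₁, hs₁, c₁, hc₁, by rw [← hunif]; exact h1⟩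
      exact ⟨c, hc, s₂, hs₂, c₂, hc₂, by rw [hunif]; exact h⟩) n hn hτ

/-- **`π` is prime in the local ring of `C` at a closed point of the special fibre of a chart**
(elementwise form), without any global primality. -/
theorem exists_dvd_mul_of_dvd_mul_chart (M : Type*) [Field M] [Algebra A0 M] (E : Type*)
    [Field E] [Algebra M E] [Algebra A0 E] [IsScalarTower A0 M E] [FiniteDimensional M E]
    [Algebra.IsSeparable M E] (π : A0) (hπ : Irreducible π) (t : M) (ht : Transcendental A0 t)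
    (hgen : ∀ m : M, ∃ a b : chart A0 M t, b ≠ 0 ∧ m * (b : M) = (a : M))
    (ϖ : integralClosure (chart A0 M t) E) (hϖE : (ϖ : E) = algebraMap A0 E π)
    (hN : ∀ x : E, InGauss A0 M E t π x →
      (∃ p : (chart A0 M t)[X], p.Monic ∧ InPiGauss A0 M E t π (Polynomial.aeval x p)) →
      ∃ c : E, IsIntegral (chart A0 M t) c ∧ InPiGauss A0 M E t π (x - c))
    (n : Ideal (integralClosure (chart A0 M t) E)) (hn : n.IsMaximal) (hϖn : ϖ ∈ n)
    (x y : integralClosure (chart A0 M t) E) (hxy : ϖ ∣ x * y) :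
    ∃ w, w ∉ n ∧ (ϖ ∣ w * x ∨ ϖ ∣ w * y) := by
  obtain ⟨s, hs, hmax⟩ := exists_local_gen_chart M E π hπ t ht hgen ϖ hϖE hN n hn hϖn
  have := AdjoinChart.isIntegrallyClosed M t ht
  have := AdjoinChart.isNoetherianRing M t ht
  have := AdjoinChart.isFractionRing M t hgen
  have hp := AdjoinChart.prime_unif M t ht π hπ
  have hϖ : ϖ = algebraMap (chart A0 M t) (integralClosure (chart A0 M t) E) (unif A0 M t π) := by
    apply Subtype.ext
    rw [hϖE]
    show algebraMap A0 E π = algebraMap (chart A0 M t) E (unif A0 M t π)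
    rw [unif, ← IsScalarTower.algebraMap_apply]
  subst hϖ
  obtain ⟨τ, hτ, hτ2⟩ := exists_comap_eq M E π hπ t ht n hn hϖn
  haveI : IsNoetherianRing (integralClosure (chart A0 M t) E) :=
    IsIntegralClosure.isNoetherianRing (chart A0 M t) M E _
  have hτn : algebraMap (chart A0 M t) (integralClosure (chart A0 M t) E) τ ∈ n := by
    have h1 : τ ∈ Ideal.comap (algebraMap (chart A0 M t) (integralClosure (chart A0 M t) E)) n := by
      rw [hτ]
      exact Ideal.subset_span (Or.inr rfl)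
    exact h1
  exact exists_dvd_mul_of_dvd_mul _ s _ n hn hϖn hs hτn hmax
    (fun y' h => dvd_of_dvd_algebraMap_mul M E (unif A0 M t π) τ hp hτ2 y' h) x y hxy

end Chart

end Fermat.Agent.S37.FibreLoc
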