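/-
S37 (SpecializationExists for J₀(N)), formal part.

`specializationExists_of_red` : for ANY Hecke/Galois module `J` over `L/K`, if for every prime
`ℓ ∤ N * p` and every valuation subring `A` over `ℓ` there are
  * a Frobenius element `σ₀` at `A`, and
  * an additive map `red : J →+ X` into some additive group with
      (a) `red (τ • y) = red y` for `τ` in the inertia group of `A`,
      (b) `red (σ₀ • σ₀ • y - T_ℓ • (σ₀ • y) + ℓ • y) = 0`,
      (c) `red` injective on `p`-power torsion,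
then `SpecializationExists N p J` holds, with `J' := J ⧸ M`,
`M := span {τ • y - y} ∪ {σ₀ • σ₀ • y - T_ℓ • (σ₀ • y) + ℓ • y}`.
-/
import Fermat.Prelude.Def_HeckeGalois_EichlerShimura

set_option autoImplicit false

namespace Fermat.Agent.S37.Formal

open ModularCurve

section Group

variable {K L : Type*} [Field K] [Field L] [Algebra K L]

theorem mem_inertiaSubgroupIn_iff (A : ValuationSubring L) (τ : L ≃ₐ[K] L) :
    τ ∈ A.inertiaSubgroupIn K ↔
      ∃ h : τ ∈ A.decompositionSubgroup K,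
        ∀ x : IsLocalRing.ResidueField A, (⟨τ, h⟩ : A.decompositionSubgroup K) • x = x := by
  constructor
  · rintro ⟨g, hg, rfl⟩
    refine ⟨g.2, fun x => ?_⟩
    have h1 : MulSemiringAction.toRingAut (A.decompositionSubgroup K)
        (IsLocalRing.ResidueField A) g = 1 := MonoidHom.mem_ker.mp hg
    have h2 := congrArg (fun e : RingAut (IsLocalRing.ResidueField A) => e x) h1
    exact h2
  · rintro ⟨h, hx⟩
    refine ⟨⟨τ, h⟩, ?_, rfl⟩
    refine MonoidHom.mem_ker.mpr ?_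
    ext x
    exact hx x

theorem mem_decomposition_of_mem_inertiaSubgroupIn {A : ValuationSubring L} {τ : L ≃ₐ[K] L}
    (h : τ ∈ A.inertiaSubgroupIn K) : τ ∈ A.decompositionSubgroup K :=
  ((mem_inertiaSubgroupIn_iff A τ).mp h).choose

/-- Two Frobenius elements at `A` differ by an element of the inertia group. -/
theorem mul_inv_mem_inertia {A : ValuationSubring L} {σ σ₀ : L ≃ₐ[K] L} {q : ℕ}
    (hσ : A.IsFrobeniusAt σ q) (hσ₀ : A.IsFrobeniusAt σ₀ q) :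
    σ * σ₀⁻¹ ∈ A.inertiaSubgroupIn K := by
  obtain ⟨h, hx⟩ := hσ
  obtain ⟨h₀, hx₀⟩ := hσ₀
  rw [mem_inertiaSubgroupIn_iff]
  refine ⟨mul_mem h (inv_mem h₀), fun x => ?_⟩
  have e : (⟨σ * σ₀⁻¹, mul_mem h (inv_mem h₀)⟩ : A.decompositionSubgroup K) =
      ⟨σ, h⟩ * (⟨σ₀, h₀⟩ : A.decompositionSubgroup K)⁻¹ := rfl
  rw [e, mul_smul]
  have h1 : (⟨σ₀, h₀⟩ : A.decompositionSubgroup K)⁻¹ • x ^ q = x := by
    rw [← hx₀ x, inv_smul_smul]
  have h2 : ((⟨σ₀, h₀⟩ : A.decompositionSubgroup K)⁻¹ • x) ^ q = x := by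
    rw [← smul_pow', h1]
  calc (⟨σ, h⟩ : A.decompositionSubgroup K) • (⟨σ₀, h₀⟩ : A.decompositionSubgroup K)⁻¹ • x
      = ((⟨σ₀, h₀⟩ : A.decompositionSubgroup K)⁻¹ • x) ^ q := hx _
    _ = x := h2

/-- The inertia group is stable under conjugation by elements of the decomposition group. -/
theorem conj_mem_inertia {A : ValuationSubring L} {σ τ : L ≃ₐ[K] L}
    (hσ : σ ∈ A.decompositionSubgroup K) (hτ : τ ∈ A.inertiaSubgroupIn K) :
    σ * τ * σ⁻¹ ∈ A.inertiaSubgroupIn K := by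
  rw [mem_inertiaSubgroupIn_iff] at hτ ⊢
  obtain ⟨h, hx⟩ := hτ
  refine ⟨mul_mem (mul_mem hσ h) (inv_mem hσ), fun x => ?_⟩
  have e : (⟨σ * τ * σ⁻¹, mul_mem (mul_mem hσ h) (inv_mem hσ)⟩ : A.decompositionSubgroup K) =
      ⟨σ, hσ⟩ * ⟨τ, h⟩ * (⟨σ, hσ⟩ : A.decompositionSubgroup K)⁻¹ := rfl
  rw [e, mul_smul, mul_smul, hx, smul_inv_smul]

end Group

section Main

variable {K L : Type*} [Field K] [Field L] [Algebra K L]
variable (p : ℕ) (J : Type) [AddCommGroup J] [Module HeckeAlg J]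
  [DistribMulAction (L ≃ₐ[K] L) J] [SMulCommClass (L ≃ₐ[K] L) HeckeAlg J]

/-- The generators of the submodule we divide out by. -/
def gens (A : ValuationSubring L) (ℓ : ℕ) (hℓ : ℓ.Prime) (σ₀ : L ≃ₐ[K] L) : Set J :=
  {x | ∃ τ ∈ A.inertiaSubgroupIn K, ∃ y : J, x = τ • y - y} ∪
    {x | ∃ y : J, x = σ₀ • σ₀ • y - heckeGen ⟨ℓ, hℓ⟩ • (σ₀ • y) + ℓ • y}

/-- The submodule we divide out by. -/
noncomputable def relSub (A : ValuationSubring L) (ℓ : ℕ) (hℓ : ℓ.Prime) (σ₀ : L ≃ₐ[K] L) :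
    Submodule HeckeAlg J :=
  Submodule.span HeckeAlg (gens J A ℓ hℓ σ₀)

variable {J}

theorem smul_mem_relSub {A : ValuationSubring L} {ℓ : ℕ} {hℓ : ℓ.Prime} {σ₀ : L ≃ₐ[K] L}
    (hσ₀ : σ₀ ∈ A.decompositionSubgroup K) {x : J} (hx : x ∈ relSub J A ℓ hℓ σ₀) :
    σ₀ • x ∈ relSub J A ℓ hℓ σ₀ := by
  induction hx using Submodule.span_induction with
  | mem x hx =>
    rcases hx with ⟨τ, hτ, y, rfl⟩ | ⟨y, rfl⟩
    · refine Submodule.subset_span (Or.inl ⟨σ₀ * τ * σ₀⁻¹, conj_mem_inertia hσ₀ hτ, σ₀ • y, ?_⟩)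
      rw [smul_sub, mul_smul, mul_smul, inv_smul_smul]
    · refine Submodule.subset_span (Or.inr ⟨σ₀ • y, ?_⟩)
      rw [smul_add, smul_sub, smul_comm σ₀ (heckeGen ⟨ℓ, hℓ⟩) (σ₀ • y),
        ← Nat.cast_smul_eq_nsmul ℤ ℓ y, ← Nat.cast_smul_eq_nsmul ℤ ℓ (σ₀ • y),
        smul_comm σ₀ (ℓ : ℤ) y]
  | zero => rw [smul_zero]; exact Submodule.zero_mem _
  | add x y _ _ hx hy => rw [smul_add]; exact Submodule.add_mem _ hx hy
  | smul a x _ hx => rw [smul_comm σ₀ a x]; exact Submodule.smul_mem _ a hx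

theorem smul_mem_gens {A : ValuationSubring L} {ℓ : ℕ} {hℓ : ℓ.Prime} {σ₀ : L ≃ₐ[K] L}
    (T : HeckeAlg) {x : J} (hx : x ∈ gens J A ℓ hℓ σ₀) : T • x ∈ gens J A ℓ hℓ σ₀ := by
  rcases hx with ⟨τ, hτ, y, rfl⟩ | ⟨y, rfl⟩
  · refine Or.inl ⟨τ, hτ, T • y, ?_⟩
    rw [smul_sub, smul_comm τ T y]
  · refine Or.inr ⟨T • y, ?_⟩
    have e1 : T • σ₀ • σ₀ • y = σ₀ • σ₀ • T • y := by
      rw [smul_comm σ₀ T y, smul_comm σ₀ T (σ₀ • y)]
    have e2 : T • (heckeGen (⟨ℓ, hℓ⟩ : Nat.Primes) • (σ₀ • y)) =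
        heckeGen (⟨ℓ, hℓ⟩ : Nat.Primes) • (σ₀ • T • y) := by
      rw [smul_comm σ₀ T y, smul_comm T (heckeGen (⟨ℓ, hℓ⟩ : Nat.Primes)) (σ₀ • y)]
    have e3 : T • (ℓ • y) = ℓ • (T • y) := smul_comm T ℓ y
    rw [smul_add, smul_sub, e1, e2, e3]

/-- The formal part of `SpecializationExists` at one prime and one place: a Frobenius element
and the vanishing of `relSub ∩ J[p^∞]` suffice. -/
theorem exists_specialization_of_relSub (A : ValuationSubring L) (ℓ : ℕ) (hℓ : ℓ.Prime)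
    (σ₀ : L ≃ₐ[K] L) (hσ₀ : A.IsFrobeniusAt σ₀ ℓ)
    (htors : ∀ x ∈ relSub J A ℓ hℓ σ₀, (∃ n : ℕ, p ^ n • x = 0) → x = 0) :
    ∃ (J' : Type) (_ : AddCommGroup J') (_ : Module HeckeAlg J') (sp : J →+ J')
      (F : J' →+ J'),
      IsSpecialization (K := K) p J J' A ℓ sp F ∧ SpecialFibreRelation J' ℓ hℓ F := by
  have hdec : σ₀ ∈ A.decompositionSubgroup K := hσ₀.mem_decompositionSubgroup
  set M : Submodule HeckeAlg J := relSub J A ℓ hℓ σ₀ with hM
  -- the Frobenius endomorphism of the quotient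
  let act : J →+ J := DistribSMul.toAddMonoidHom J σ₀
  have hact : ∀ x, act x = σ₀ • x := fun _ => rfl
  let F : J ⧸ M →+ J ⧸ M :=
    QuotientAddGroup.map M.toAddSubgroup M.toAddSubgroup act (by
      intro x hx
      exact smul_mem_relSub hdec hx)
  have hF : ∀ x : J, F (M.mkQ x) = M.mkQ (σ₀ • x) := fun _ => rfl
  refine ⟨J ⧸ M, inferInstance, inferInstance, M.mkQ.toAddMonoidHom, F, ⟨?_, ?_, ?_, ?_⟩, ?_⟩
  · intro T x
    exact map_smul M.mkQ T x
  · intro τ hτ x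
    show M.mkQ (τ • x) = M.mkQ x
    rw [← sub_eq_zero, ← map_sub, Submodule.mkQ_apply, Submodule.Quotient.mk_eq_zero]
    exact Submodule.subset_span (Or.inl ⟨τ, hτ, x, rfl⟩)
  · intro σ hσ x
    show M.mkQ (σ • x) = F (M.mkQ x)
    rw [hF, ← sub_eq_zero, ← map_sub, Submodule.mkQ_apply, Submodule.Quotient.mk_eq_zero]
    refine Submodule.subset_span (Or.inl ⟨σ * σ₀⁻¹, mul_inv_mem_inertia hσ hσ₀, σ₀ • x, ?_⟩)
    rw [mul_smul, inv_smul_smul]
  · intro x hx h0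
    have hxM : x ∈ M := by
      have : M.mkQ x = 0 := h0
      rwa [Submodule.mkQ_apply, Submodule.Quotient.mk_eq_zero] at this
    exact htors x hxM hx
  · intro y
    obtain ⟨x, rfl⟩ := M.mkQ_surjective y
    rw [hF, hF, ← map_smul, ← map_sub, ← map_nsmul, ← map_add, Submodule.mkQ_apply,
      Submodule.Quotient.mk_eq_zero]
    exact Submodule.subset_span (Or.inr ⟨x, rfl⟩)

/-- The formal part, in terms of a reduction map: any additive `red` killing the generators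
and injective on `p`-power torsion does the job. -/
theorem exists_specialization_of_red (A : ValuationSubring L) (ℓ : ℕ) (hℓ : ℓ.Prime)
    (σ₀ : L ≃ₐ[K] L) (hσ₀ : A.IsFrobeniusAt σ₀ ℓ)
    {X : Type*} [AddCommGroup X] (red : J →+ X)
    (hinertia : ∀ τ ∈ A.inertiaSubgroupIn K, ∀ y : J, red (τ • y) = red y)
    (hES : ∀ y : J, red (σ₀ • σ₀ • y - heckeGen ⟨ℓ, hℓ⟩ • (σ₀ • y) + ℓ • y) = 0)
    (hinj : ∀ x : J, (∃ n : ℕ, p ^ n • x = 0) → red x = 0 → x = 0) :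
    ∃ (J' : Type) (_ : AddCommGroup J') (_ : Module HeckeAlg J') (sp : J →+ J')
      (F : J' →+ J'),
      IsSpecialization (K := K) p J J' A ℓ sp F ∧ SpecialFibreRelation J' ℓ hℓ F := by
  have hgen : ∀ x ∈ gens J A ℓ hℓ σ₀, red x = 0 := by
    rintro x (⟨τ, hτ, y, rfl⟩ | ⟨y, rfl⟩)
    · rw [map_sub, hinertia τ hτ y, sub_self]
    · exact hES y
  have hkill : ∀ x ∈ relSub J A ℓ hℓ σ₀, red x = 0 := by
    intro x hx
    refine Submodule.closure_induction (p := fun x _ => red x = 0) (map_zero red) ?_ ?_ hx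
    · intro x y _ _ hx hy
      rw [map_add, hx, hy, add_zero]
    · intro r x hx
      exact hgen _ (smul_mem_gens r hx)
  exact exists_specialization_of_relSub p A ℓ hℓ σ₀ hσ₀ fun x hx hxt => hinj x hxt (hkill x hx)

end Main

end Fermat.Agent.S37.Formal
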