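import Mathlib
import Fermat.Agent.S18.Setup
import Fermat.Agent.S18.SetupTower
import Fermat.Agent.S18.LineMap
import Fermat.Agent.S18.LineGen
import Fermat.Agent.S18.ChartGlue
import Fermat.Agent.S18.BaseLineRel
import Fermat.Agent.S18.H2Top
import Fermat.Agent.S37.H3SelfH

/-!
# S37 (W5, leaf L5.4): the `h`-charts of a level carrying a Hauptmodul

For `h ∈ F_K = K(X₀(N))` with `j h² = (h + 256)³` (the `X₀(2)`-relation, residue characteristic
`ℓ ≠ 2`) resp. `j h = (h + 27)(h + 3)³` (the `X₀(3)`-relation, `ℓ ≠ 3`), the hypotheses (H2) and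
(H3) of the machine hold for `F_K` itself over the line `K(h)`, on both charts `A₀[h]` and
`A₀[h⁻¹]` (sealed carriers of `S18.Setup`: `A₀ = A ∩ K`, `M = Line K h`, `E = FK K N`).

* `h2Hyp_level3_both`, `h2Hyp_level2_both` : (H2) on both charts, from (H2) on the `j`-chart
  (`H2Top.h2_jline`) and the relation (`BaseLineRel`), the inclusion of lines being
  `LineMap.algebraLine`;
* `inPiGauss_level3`, `inPiGauss_level2` : transport of `InPiGauss` from the `j`-chart;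
* `chart_level3`, `chart_level2` : (H2) and (H3) on both charts in one statement
  ((H3) is `H3SelfH.h3Hyp_level3_both` / `_level2_both`).
-/

set_option autoImplicit false
set_option linter.style.haveILetI false

open Polynomial AlgebraicCurve ModularCurve IntermediateField

namespace Fermat.Agent.S37.HChart

open Fermat.Agent.S18 Fermat.Agent.S18.CoreDefs Fermat.Agent.S18.Setup

local notation "Qb" => AlgebraicClosure ℚ

variable (K : Type*) [Field K] [Algebra K Qb] [Algebra ℚ K] [FiniteDimensional ℚ K]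
  (N : ℕ) [NeZero N] (A : ValuationSubring Qb)

/-- **(H2) and the transport of `InPiGauss`, general relation** `j * h ^ a = num(h)`: for
`h ∈ F_K`, on both charts of the line `K(h)`. -/
theorem h2Hyp_both_of_rel {ℓ : ℕ} (hℓ : ℓ.Prime) (hℓN : ¬ ℓ ∣ N) (hA : A.LiesOverPrime ℓ)
    (h : FK K N) (hmem : algebraMap (FK K N) (FK K N) (jF K N) ∈ K⟮h⟯)
    (π : ↥(A0.down K A)) (hπ : Irreducible π)
    (hmax : IsLocalRing.maximalIdeal ↥(A0.down K A) = Ideal.span {π})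
    (num : (↥(A0.down K A))[X]) (hnum : num.Monic) (a : ℕ) (ha0 : 0 < a) (ha : a < num.natDegree)
    (h0 : IsUnit (num.coeff 0))
    (hrel : jF K N * h ^ a = aeval h num) :
    (H2Hyp ↥(A0.down K A) (Line K h) (FK K N) (Line.gen K h) π ∧
      H2Hyp ↥(A0.down K A) (Line K h) (FK K N) (Line.gen K h)⁻¹ π) ∧
    ∀ x : FK K N,
      InPiGauss ↥(A0.down K A) (Line K (jF K N)) (FK K N) (Line.gen K (jF K N)) π x →
        InPiGauss ↥(A0.down K A) (Line K h) (FK K N) (Line.gen K h) π x ∧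
        InPiGauss ↥(A0.down K A) (Line K h) (FK K N) (Line.gen K h)⁻¹ π x := by
  classical
  obtain ⟨hDVR, -, -, -, -, -, -, -⟩ := Setup.exists_unif K A hℓ hA
  letI := LineMap.algebraLine K (jF K N) h hmem
  haveI : IsScalarTower K (Line K (jF K N)) (Line K h) :=
    LineMap.isScalarTower_base K (jF K N) h hmem
  haveI : IsScalarTower (Line K (jF K N)) (Line K h) (FK K N) :=
    LineMap.isScalarTower_top K (jF K N) h hmem
  have hj : Transcendental ↥(A0.down K A) (Line.gen K (jF K N)) :=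
    Line.transcendental_gen_val (jF K N) (A0.down K A) (transcendental_jF K N)
  have hgenj := LineGen.hgen_of_adjoin_eq_top (A0 := ↥(A0.down K A)) (K0 := K)
    (Line.gen K (jF K N)) (Line.adjoin_gen K (jF K N))
  have hgenh := LineGen.hgen_of_adjoin_eq_top (A0 := ↥(A0.down K A)) (K0 := K)
    (Line.gen K h) (Line.adjoin_gen K h)
  have hrel' : algebraMap (Line K (jF K N)) (Line K h) (Line.gen K (jF K N)) *
      Line.gen K h ^ a = aeval (Line.gen K h) num := by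
    apply (algebraMap (Line K h) (FK K N)).injective
    rw [map_mul, map_pow, algebraMap_gen, LineMap.algebraMap_gen_line K (jF K N) h hmem,
      ← Polynomial.aeval_algebraMap_apply, algebraMap_gen]
    exact hrel
  have hh0 : Line.gen K h ≠ 0 :=
    BaseLineRel.root_ne_zero (Line K (jF K N)) (Line K h) (Line.gen K (jF K N)) (Line.gen K h)
      num a ha0 h0 hrel'
  have hgenh' := ChartGlue.hgen_inv (Line.gen K h) hh0 hgenh
  have h2 := H2Top.h2_jline K N A hℓ hℓN hA π hπ hmax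
  refine ⟨⟨?_, ?_⟩, fun x hx => ⟨?_, ?_⟩⟩
  · exact BaseLineRel.h2Hyp_of_rel (Line K (jF K N)) (Line K h) (FK K N) (Line.gen K (jF K N)) hj
      (Line.gen K h) π hπ num hnum a ha0 ha h0 hrel' hgenj hgenh h2
  · exact BaseLineRel.h2Hyp_inv_of_rel (Line K (jF K N)) (Line K h) (FK K N)
      (Line.gen K (jF K N)) hj (Line.gen K h) π hπ num hnum a ha0 ha h0 hrel' hgenj hgenh' h2
  · exact BaseLineRel.inPiGauss_of_rel (Line K (jF K N)) (Line K h) (FK K N)
      (Line.gen K (jF K N)) hj (Line.gen K h) π hπ num hnum a ha0 ha h0 hrel' hgenj x hx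
  · exact BaseLineRel.inPiGauss_inv_of_rel (Line K (jF K N)) (Line K h) (FK K N)
      (Line.gen K (jF K N)) hj (Line.gen K h) π hπ num hnum a ha0 ha h0 hrel' hgenj x hx

/-! ### The `X₀(2)`-relation `j h² = (h + 256)³` (`ℓ ≠ 2`) -/

/-- (H2) on both charts of the `h`-line and the transport of `InPiGauss`, `X₀(2)`-relation. -/
theorem level3 {ℓ : ℕ} (hℓ : ℓ.Prime) (hℓN : ¬ ℓ ∣ N) (hA : A.LiesOverPrime ℓ) (hℓ2 : ℓ ≠ 2)
    (h : FK K N) (hrel : jF K N * h ^ 2 = (h + 256) ^ 3)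
    (π : ↥(A0.down K A)) (hπ : Irreducible π)
    (hmax : IsLocalRing.maximalIdeal ↥(A0.down K A) = Ideal.span {π}) :
    (H2Hyp ↥(A0.down K A) (Line K h) (FK K N) (Line.gen K h) π ∧
      H2Hyp ↥(A0.down K A) (Line K h) (FK K N) (Line.gen K h)⁻¹ π) ∧
    ∀ x : FK K N,
      InPiGauss ↥(A0.down K A) (Line K (jF K N)) (FK K N) (Line.gen K (jF K N)) π x →
        InPiGauss ↥(A0.down K A) (Line K h) (FK K N) (Line.gen K h) π x ∧
        InPiGauss ↥(A0.down K A) (Line K h) (FK K N) (Line.gen K h)⁻¹ π x := by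
  obtain ⟨hDVR, -, -, -, -, -, -, hunits⟩ := Setup.exists_unif K A hℓ hA
  have h2u : IsUnit (2 : ↥(A0.down K A)) := by
    have := hunits 2 (fun h => hℓ2 ((Nat.prime_dvd_prime_iff_eq hℓ Nat.prime_two).mp h))
    simpa using this
  have hc : CharZero K := charZero_of_injective_algebraMap (algebraMap ℚ K).injective
  have hmem : algebraMap (FK K N) (FK K N) (jF K N) ∈ K⟮h⟯ :=
    H3SelfH.mem_adjoin_of_rel3 (K0 := K) (F := FK K N) (F' := FK K N) (jF K N) h hrel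
  exact h2Hyp_both_of_rel K N A hℓ hℓN hA h hmem π hπ hmax (BaseLineRel.num3 _)
    (BaseLineRel.monic_num3 _) 2 (by norm_num) (by rw [BaseLineRel.natDegree_num3]; norm_num)
    (BaseLineRel.isUnit_coeff_zero_num3 _ h2u) (by rw [BaseLineRel.aeval_num3]; exact hrel)

/-- **(H2) for `F_K` itself on both charts of the `h`-line**, `j h² = (h + 256)³`, `ℓ ≠ 2`. -/
theorem h2Hyp_level3_both {ℓ : ℕ} (hℓ : ℓ.Prime) (hℓN : ¬ ℓ ∣ N) (hA : A.LiesOverPrime ℓ)
    (hℓ2 : ℓ ≠ 2) (h : FK K N) (hrel : jF K N * h ^ 2 = (h + 256) ^ 3)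
    (π : ↥(A0.down K A)) (hπ : Irreducible π)
    (hmax : IsLocalRing.maximalIdeal ↥(A0.down K A) = Ideal.span {π}) :
    H2Hyp ↥(A0.down K A) (Line K h) (FK K N) (Line.gen K h) π ∧
      H2Hyp ↥(A0.down K A) (Line K h) (FK K N) (Line.gen K h)⁻¹ π :=
  (level3 K N A hℓ hℓN hA hℓ2 h hrel π hπ hmax).1

/-- **Transport of `InPiGauss` from the `j`-chart to both `h`-charts**, `j h² = (h + 256)³`. -/
theorem inPiGauss_level3 {ℓ : ℕ} (hℓ : ℓ.Prime) (hℓN : ¬ ℓ ∣ N) (hA : A.LiesOverPrime ℓ)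
    (hℓ2 : ℓ ≠ 2) (h : FK K N) (hrel : jF K N * h ^ 2 = (h + 256) ^ 3)
    (π : ↥(A0.down K A)) (hπ : Irreducible π)
    (hmax : IsLocalRing.maximalIdeal ↥(A0.down K A) = Ideal.span {π}) (x : FK K N)
    (hx : InPiGauss ↥(A0.down K A) (Line K (jF K N)) (FK K N) (Line.gen K (jF K N)) π x) :
    InPiGauss ↥(A0.down K A) (Line K h) (FK K N) (Line.gen K h) π x ∧
      InPiGauss ↥(A0.down K A) (Line K h) (FK K N) (Line.gen K h)⁻¹ π x :=
  (level3 K N A hℓ hℓN hA hℓ2 h hrel π hπ hmax).2 x hx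

/-- **The `h`-charts of a level with an `X₀(2)`-Hauptmodul**: (H2) and (H3) for `F_K` itself on
`A₀[h]` and `A₀[h⁻¹]`, `ℓ ≠ 2`. -/
theorem chart_level3 {ℓ : ℕ} (hℓ : ℓ.Prime) (hℓN : ¬ ℓ ∣ N) (hA : A.LiesOverPrime ℓ)
    (hℓ2 : ℓ ≠ 2) (h : FK K N) (hrel : jF K N * h ^ 2 = (h + 256) ^ 3)
    (π : ↥(A0.down K A)) (hπ : Irreducible π)
    (hmax : IsLocalRing.maximalIdeal ↥(A0.down K A) = Ideal.span {π})
    (harch : ∀ a : ↥(A0.down K A), a ≠ 0 → ∃ n : ℕ, a ∣ π ^ n) :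
    ∃ Critf Criti : Finset ↥(A0.down K A),
      H2Hyp ↥(A0.down K A) (Line K h) (FK K N) (Line.gen K h) π ∧
      H2Hyp ↥(A0.down K A) (Line K h) (FK K N) (Line.gen K h)⁻¹ π ∧
      H3Hyp ↥(A0.down K A) (Line K h) (FK K N) (Line.gen K h) π Critf ∧
      H3Hyp ↥(A0.down K A) (Line K h) (FK K N) (Line.gen K h)⁻¹ π Criti := by
  obtain ⟨Critf, Criti, h3f, h3i⟩ := H3SelfH.h3Hyp_level3_both N K A hℓ hA hℓ2 h hrel π harch
  obtain ⟨h2f, h2i⟩ := h2Hyp_level3_both K N A hℓ hℓN hA hℓ2 h hrel π hπ hmax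
  exact ⟨Critf, Criti, h2f, h2i, h3f, h3i⟩

/-! ### The `X₀(3)`-relation `j h = (h + 27)(h + 3)³` (`ℓ ≠ 3`) -/

/-- (H2) on both charts of the `h`-line and the transport of `InPiGauss`, `X₀(3)`-relation. -/
theorem level2 {ℓ : ℕ} (hℓ : ℓ.Prime) (hℓN : ¬ ℓ ∣ N) (hA : A.LiesOverPrime ℓ) (hℓ3 : ℓ ≠ 3)
    (h : FK K N) (hrel : jF K N * h = (h + 27) * (h + 3) ^ 3)
    (π : ↥(A0.down K A)) (hπ : Irreducible π)
    (hmax : IsLocalRing.maximalIdeal ↥(A0.down K A) = Ideal.span {π}) :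
    (H2Hyp ↥(A0.down K A) (Line K h) (FK K N) (Line.gen K h) π ∧
      H2Hyp ↥(A0.down K A) (Line K h) (FK K N) (Line.gen K h)⁻¹ π) ∧
    ∀ x : FK K N,
      InPiGauss ↥(A0.down K A) (Line K (jF K N)) (FK K N) (Line.gen K (jF K N)) π x →
        InPiGauss ↥(A0.down K A) (Line K h) (FK K N) (Line.gen K h) π x ∧
        InPiGauss ↥(A0.down K A) (Line K h) (FK K N) (Line.gen K h)⁻¹ π x := by
  obtain ⟨hDVR, -, -, -, -, -, -, hunits⟩ := Setup.exists_unif K A hℓ hA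
  have h3u : IsUnit (3 : ↥(A0.down K A)) := by
    have := hunits 3 (fun h => hℓ3 ((Nat.prime_dvd_prime_iff_eq hℓ Nat.prime_three).mp h))
    simpa using this
  have hc : CharZero K := charZero_of_injective_algebraMap (algebraMap ℚ K).injective
  have hmem : algebraMap (FK K N) (FK K N) (jF K N) ∈ K⟮h⟯ :=
    H3SelfH.mem_adjoin_of_rel2 (K0 := K) (F := FK K N) (F' := FK K N) (jF K N) h hrel
  exact h2Hyp_both_of_rel K N A hℓ hℓN hA h hmem π hπ hmax (BaseLineRel.num2 _)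
    (BaseLineRel.monic_num2 _) 1 (by norm_num) (by rw [BaseLineRel.natDegree_num2]; norm_num)
    (BaseLineRel.isUnit_coeff_zero_num2 _ h3u)
    (by rw [BaseLineRel.aeval_num2, pow_one]; exact hrel)

/-- **(H2) for `F_K` itself on both charts of the `h`-line**, `j h = (h + 27)(h + 3)³`,
`ℓ ≠ 3`. -/
theorem h2Hyp_level2_both {ℓ : ℕ} (hℓ : ℓ.Prime) (hℓN : ¬ ℓ ∣ N) (hA : A.LiesOverPrime ℓ)
    (hℓ3 : ℓ ≠ 3) (h : FK K N) (hrel : jF K N * h = (h + 27) * (h + 3) ^ 3)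
    (π : ↥(A0.down K A)) (hπ : Irreducible π)
    (hmax : IsLocalRing.maximalIdeal ↥(A0.down K A) = Ideal.span {π}) :
    H2Hyp ↥(A0.down K A) (Line K h) (FK K N) (Line.gen K h) π ∧
      H2Hyp ↥(A0.down K A) (Line K h) (FK K N) (Line.gen K h)⁻¹ π :=
  (level2 K N A hℓ hℓN hA hℓ3 h hrel π hπ hmax).1

/-- **Transport of `InPiGauss` from the `j`-chart to both `h`-charts**,
`j h = (h + 27)(h + 3)³`. -/
theorem inPiGauss_level2 {ℓ : ℕ} (hℓ : ℓ.Prime) (hℓN : ¬ ℓ ∣ N) (hA : A.LiesOverPrime ℓ)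
    (hℓ3 : ℓ ≠ 3) (h : FK K N) (hrel : jF K N * h = (h + 27) * (h + 3) ^ 3)
    (π : ↥(A0.down K A)) (hπ : Irreducible π)
    (hmax : IsLocalRing.maximalIdeal ↥(A0.down K A) = Ideal.span {π}) (x : FK K N)
    (hx : InPiGauss ↥(A0.down K A) (Line K (jF K N)) (FK K N) (Line.gen K (jF K N)) π x) :
    InPiGauss ↥(A0.down K A) (Line K h) (FK K N) (Line.gen K h) π x ∧
      InPiGauss ↥(A0.down K A) (Line K h) (FK K N) (Line.gen K h)⁻¹ π x :=
  (level2 K N A hℓ hℓN hA hℓ3 h hrel π hπ hmax).2 x hx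

/-- **The `h`-charts of a level with an `X₀(3)`-Hauptmodul**: (H2) and (H3) for `F_K` itself on
`A₀[h]` and `A₀[h⁻¹]`, `ℓ ≠ 3`. -/
theorem chart_level2 {ℓ : ℕ} (hℓ : ℓ.Prime) (hℓN : ¬ ℓ ∣ N) (hA : A.LiesOverPrime ℓ)
    (hℓ3 : ℓ ≠ 3) (h : FK K N) (hrel : jF K N * h = (h + 27) * (h + 3) ^ 3)
    (π : ↥(A0.down K A)) (hπ : Irreducible π)
    (hmax : IsLocalRing.maximalIdeal ↥(A0.down K A) = Ideal.span {π})
    (harch : ∀ a : ↥(A0.down K A), a ≠ 0 → ∃ n : ℕ, a ∣ π ^ n) :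
    ∃ Critf Criti : Finset ↥(A0.down K A),
      H2Hyp ↥(A0.down K A) (Line K h) (FK K N) (Line.gen K h) π ∧
      H2Hyp ↥(A0.down K A) (Line K h) (FK K N) (Line.gen K h)⁻¹ π ∧
      H3Hyp ↥(A0.down K A) (Line K h) (FK K N) (Line.gen K h) π Critf ∧
      H3Hyp ↥(A0.down K A) (Line K h) (FK K N) (Line.gen K h)⁻¹ π Criti := by
  obtain ⟨Critf, Criti, h3f, h3i⟩ := H3SelfH.h3Hyp_level2_both N K A hℓ hA hℓ3 h hrel π harch
  obtain ⟨h2f, h2i⟩ := h2Hyp_level2_both K N A hℓ hℓN hA hℓ3 h hrel π hπ hmax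
  exact ⟨Critf, Criti, h2f, h2i, h3f, h3i⟩

end Fermat.Agent.S37.HChart
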