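import Mathlib
import Fermat.Agent.S28.ModPkgK

/-!
# S37: the Hauptmodul of `X₀(2)` as a `q`-series

`h = Δ(q)/Δ(q²) = q⁻¹ - 24 + 276 q + ⋯` is `phiZero R 2` of S28.  From the modular package of
S28 at `p = 2` (a monic cubic `Ψ` over `k[Y]` with `Ψ(φ_∞, j) = 0`, `Ψ(φ₀, j(q²)) = 0`) we
determine `Ψ = X³ + 48 X² + (768 - Y) X + 4096` by the symmetric functions of its three roots
`φ₀(q), φ₀(-q), φ_∞(q²)` over `j(q²)`, and get

* `rel R` : `j h² = (h + 256)³` and `j(q²) h = (h + 16)³` over every commutative ring `R`;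
* `phiZero_mem K N hN` : `h ∈ K(j(q^d) : d ∣ N)` for a field `K` of characteristic zero and
  `2 ∣ N` (the second root of the quadratic `gcd`-candidate has order `2`, so it is not a root
  of `(X + 256)³ - j X²`).
-/

set_option autoImplicit false

namespace Fermat.Agent.S37.Haupt2

open Polynomial ModularCurve Fermat.Agent.S28.ModPkg Fermat.Agent.S28

section FirstOrder

variable {R : Type*} [CommRing R]

theorem coeff_one_mul' (f g : PowerSeries R) :
    PowerSeries.coeff 1 (f * g) =
      PowerSeries.constantCoeff f * PowerSeries.coeff 1 g +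
        PowerSeries.coeff 1 f * PowerSeries.constantCoeff g := by
  rw [PowerSeries.coeff_mul]
  have h : Finset.HasAntidiagonal.antidiagonal 1 = ({(0, 1), (1, 0)} : Finset (ℕ × ℕ)) := by
    decide
  rw [h, Finset.sum_pair (by decide)]
  simp

theorem coeff_one_pow' (f : PowerSeries R) (hf : PowerSeries.constantCoeff f = 1) (n : ℕ) :
    PowerSeries.coeff 1 (f ^ n) = n * PowerSeries.coeff 1 f := by
  induction n with
  | zero => simp
  | succ n ih =>
    rw [pow_succ, coeff_one_mul', ih, map_pow, hf, one_pow]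
    push_cast
    ring

theorem coeff_one_of_mul_eq_one (f g : PowerSeries R) (hf : PowerSeries.constantCoeff f = 1)
    (hg : PowerSeries.constantCoeff g = 1) (h : f * g = 1) :
    PowerSeries.coeff 1 g = - PowerSeries.coeff 1 f := by
  have h1 := congrArg (PowerSeries.coeff 1) h
  rw [coeff_one_mul', hf, hg] at h1
  simp at h1
  linear_combination h1

end FirstOrder

section Eta

theorem coeff_prod_one_sub_X_pow (s : Finset ℕ) :
    PowerSeries.constantCoeff (∏ n ∈ s, (1 - PowerSeries.X ^ (n + 1)) : PowerSeries ℤ) = 1 ∧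
    PowerSeries.coeff 1 (∏ n ∈ s, (1 - PowerSeries.X ^ (n + 1)) : PowerSeries ℤ) =
      if 0 ∈ s then -1 else 0 := by
  classical
  induction s using Finset.induction_on with
  | empty => simp
  | insert a s ha ih =>
    obtain ⟨ih0, ih1⟩ := ih
    rw [Finset.prod_insert ha]
    have hc : PowerSeries.constantCoeff ((1 : PowerSeries ℤ) - PowerSeries.X ^ (a + 1)) = 1 := by
      simp
    refine ⟨by rw [map_mul, hc, ih0, one_mul], ?_⟩
    rw [coeff_one_mul', hc, ih0, ih1, one_mul, mul_one]
    have h1 : PowerSeries.coeff 1 ((1 : PowerSeries ℤ) - PowerSeries.X ^ (a + 1)) =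
        if a = 0 then -1 else 0 := by
      rw [map_sub, PowerSeries.coeff_one, PowerSeries.coeff_X_pow]
      by_cases h : a = 0
      · subst h; simp
      · have : (1 : ℕ) ≠ a + 1 := by omega
        simp [h, this]
    rw [h1]
    by_cases h : a = 0
    · subst h
      simp [ha]
    · have h0 : (0 : ℕ) ∈ insert a s ↔ 0 ∈ s := by
        rw [Finset.mem_insert]
        constructor
        · rintro (h' | h')
          · exact absurd h'.symm h
          · exact h'
        · exact Or.inr
      simp [h, h0]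

theorem coeff_one_etaProd : PowerSeries.coeff 1 etaProd = -1 := by
  have h := (Fermat.Agent.S24.Bridge.eventually_coeff_eq 1).and
    (Filter.eventually_ge_atTop ({0} : Finset ℕ))
  obtain ⟨s, hs, hs0⟩ := h.exists
  rw [← hs, (coeff_prod_one_sub_X_pow s).2, if_pos (hs0 (Finset.mem_singleton_self 0))]

theorem coeff_one_dedekindEtaUnit : PowerSeries.coeff 1 dedekindEtaUnit = -24 := by
  rw [dedekindEtaUnit, coeff_one_pow' _ constantCoeff_etaProd, coeff_one_etaProd]
  norm_num

theorem coeff_one_dedekindEtaUnitInv : PowerSeries.coeff 1 dedekindEtaUnitInv = 24 := by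
  rw [coeff_one_of_mul_eq_one _ _ constantCoeff_dedekindEtaUnit constantCoeff_dedekindEtaUnitInv
    dedekindEtaUnit_mul_inv, coeff_one_dedekindEtaUnit]
  norm_num

theorem coeff_one_eisenstein4 : PowerSeries.coeff 1 eisenstein4 = 240 := by
  rw [eisenstein4, PowerSeries.coeff_mk]
  simp

theorem coeff_one_jNum : PowerSeries.coeff 1 jNum = 744 := by
  rw [jNum, coeff_one_mul', map_pow, constantCoeff_eisenstein4, one_pow, one_mul,
    coeff_one_pow' _ constantCoeff_eisenstein4, coeff_one_eisenstein4,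
    constantCoeff_dedekindEtaUnitInv, coeff_one_dedekindEtaUnitInv]
  norm_num

end Eta

/-! ### Orders and leading coefficients in `k((q))` -/

section Order

variable {k : Type*} [Field k]

/-- order and leading coefficient from the coefficients. -/
theorem order_lc {x : LaurentSeries k} {n : ℤ} {c : k} (hc : c ≠ 0) (h1 : x.coeff n = c)
    (h2 : ∀ m : ℤ, m < n → x.coeff m = 0) : x.order = n ∧ x.leadingCoeff = c := by
  have ho : x.order = n := order_eq_of_coeff (by rw [h1]; exact hc) h2
  exact ⟨ho, by rw [HahnSeries.leadingCoeff_eq, ho, h1]⟩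

theorem order_lc_mul {x y : LaurentSeries k} {a b : ℤ} {c d : k} (hc : c ≠ 0) (hd : d ≠ 0)
    (hx : x.order = a ∧ x.leadingCoeff = c) (hy : y.order = b ∧ y.leadingCoeff = d) :
    (x * y).order = a + b ∧ (x * y).leadingCoeff = c * d := by
  have h : x.leadingCoeff * y.leadingCoeff ≠ 0 := by
    rw [hx.2, hy.2]; exact mul_ne_zero hc hd
  exact ⟨by rw [HahnSeries.order_mul_of_ne_zero h, hx.1, hy.1],
    by rw [HahnSeries.leadingCoeff_mul_of_ne_zero h, hx.2, hy.2]⟩

theorem coeff_of_order_lc {x : LaurentSeries k} {a : ℤ} {c : k}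
    (hx : x.order = a ∧ x.leadingCoeff = c) : x.coeff a = c := by
  rw [← hx.1, ← HahnSeries.leadingCoeff_eq, hx.2]

theorem coeff_of_lt_order {x : LaurentSeries k} {a : ℤ} {c : k}
    (hx : x.order = a ∧ x.leadingCoeff = c) {m : ℤ} (hm : m < a) : x.coeff m = 0 :=
  HahnSeries.coeff_eq_zero_of_lt_order (by rw [hx.1]; exact hm)

theorem order_lc_pow {y : LaurentSeries k} {a : ℤ} (hy : y.order = a ∧ y.leadingCoeff = 1)
    (i : ℕ) : (y ^ i).order = a * i ∧ (y ^ i).leadingCoeff = 1 := by
  induction i with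
  | zero =>
    refine order_lc one_ne_zero ?_ ?_
    · simp
    · intro m hm
      have : m ≠ 0 := by
        intro h; rw [h] at hm; simp at hm
      simp [HahnSeries.coeff_one, this]
  | succ i ih =>
    have h := order_lc_mul one_ne_zero one_ne_zero ih hy
    rw [pow_succ]
    refine ⟨by rw [h.1]; push_cast; ring, by rw [h.2, mul_one]⟩

/-- the coefficients of `P(y)` below the expected order vanish. -/
theorem coeff_aeval_of_lt {y : LaurentSeries k} {m : ℕ} (hy : y.order = -(m : ℤ) ∧
    y.leadingCoeff = 1) (P : k[X]) {n : ℤ} (hn : n < -(m : ℤ) * P.natDegree) :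
    (Polynomial.aeval y P).coeff n = 0 := by
  rw [Polynomial.aeval_eq_sum_range, HahnSeries.coeff_sum]
  refine Finset.sum_eq_zero fun i hi => ?_
  rw [Algebra.smul_def, PolyInt.coeff_algebraMap_mul]
  have hi' : i ≤ P.natDegree := Nat.lt_succ_iff.mp (Finset.mem_range.mp hi)
  have h := order_lc_pow hy i
  rw [coeff_of_lt_order h, mul_zero]
  have : (-(m : ℤ)) * (P.natDegree : ℤ) ≤ -(m : ℤ) * i := by
    have h1 : (i : ℤ) ≤ P.natDegree := by exact_mod_cast hi'
    nlinarith [Int.natCast_nonneg m]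
  omega

/-- the top coefficient of `P(y)`. -/
theorem coeff_aeval_top {y : LaurentSeries k} {m : ℕ} (hm : 0 < m) (hy : y.order = -(m : ℤ) ∧
    y.leadingCoeff = 1) (P : k[X]) :
    (Polynomial.aeval y P).coeff (-(m : ℤ) * P.natDegree) = P.leadingCoeff := by
  rw [Polynomial.aeval_eq_sum_range, HahnSeries.coeff_sum]
  rw [Finset.sum_eq_single P.natDegree]
  · rw [Algebra.smul_def, PolyInt.coeff_algebraMap_mul,
      coeff_of_order_lc (order_lc_pow hy P.natDegree), mul_one, Polynomial.leadingCoeff]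
  · intro i hi hne
    rw [Algebra.smul_def, PolyInt.coeff_algebraMap_mul]
    have hi' : i < P.natDegree :=
      lt_of_le_of_ne (Nat.lt_succ_iff.mp (Finset.mem_range.mp hi)) hne
    have h := order_lc_pow hy i
    rw [coeff_of_lt_order h, mul_zero]
    have h1 : (i : ℤ) < P.natDegree := by exact_mod_cast hi'
    have h2 : (0 : ℤ) < m := by exact_mod_cast hm
    nlinarith
  · intro h
    exact absurd (Finset.mem_range.mpr (Nat.lt_succ_self _)) h

/-- a polynomial in `y` (of negative order `-m`) without coefficients in degrees `≤ -m` is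
constant. -/
theorem eq_C_of_coeff_aeval {y : LaurentSeries k} {m : ℕ} (hm : 0 < m)
    (hy : y.order = -(m : ℤ) ∧ y.leadingCoeff = 1) (P : k[X])
    (h : ∀ n : ℤ, n ≤ -(m : ℤ) → (Polynomial.aeval y P).coeff n = 0) :
    P = Polynomial.C ((Polynomial.aeval y P).coeff 0) := by
  have hd : P.natDegree = 0 := by
    by_contra hd
    have hP : P ≠ 0 := by
      rintro rfl
      exact hd rfl
    have h1 := coeff_aeval_top hm hy P
    rw [h _ (by
      have h2 : (1 : ℤ) ≤ P.natDegree := by exact_mod_cast Nat.pos_of_ne_zero hd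
      have h3 : (0 : ℤ) < m := by exact_mod_cast hm
      nlinarith)] at h1
    exact Polynomial.leadingCoeff_ne_zero.mpr hP h1.symm
  have hP := Polynomial.eq_C_of_natDegree_eq_zero hd
  conv_lhs => rw [hP]
  congr 1
  rw [hP, Polynomial.aeval_C, PolyInt.algebraMap_eq_single, HahnSeries.coeff_single_same,
    Polynomial.coeff_C_zero]

theorem order_lc_qExpand {x : LaurentSeries k} {a : ℤ} {c : k} (hc : c ≠ 0)
    (hx : x.order = a ∧ x.leadingCoeff = c) (N : ℕ) [NeZero N] :
    (qExpand k N x).order = (N : ℤ) * a ∧ (qExpand k N x).leadingCoeff = c := by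
  refine order_lc hc ?_ ?_
  · rw [qExpand_coeff_mul, coeff_of_order_lc hx]
  · intro m hm
    by_cases hd : (N : ℤ) ∣ m
    · obtain ⟨m', rfl⟩ := hd
      rw [qExpand_coeff_mul]
      refine coeff_of_lt_order hx ?_
      have hN : (0 : ℤ) < N := by exact_mod_cast Nat.pos_of_ne_zero (NeZero.ne N)
      exact lt_of_mul_lt_mul_left hm hN.le
    · exact qExpand_coeff_of_not_dvd N x hd

theorem order_lc_twist {x : LaurentSeries k} {a : ℤ} {c : k} (hc : c ≠ 0)
    (hx : x.order = a ∧ x.leadingCoeff = c) (ζ : kˣ) :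
    (ModPkgRed.twist ζ x).order = a ∧
      (ModPkgRed.twist ζ x).leadingCoeff = ((ζ ^ a : kˣ) : k) * c := by
  refine order_lc (mul_ne_zero (Units.ne_zero _) hc) ?_ ?_
  · rw [ModPkgRed.twist_coeff, coeff_of_order_lc hx]
  · intro m hm
    rw [ModPkgRed.twist_coeff, coeff_of_lt_order hx hm, mul_zero]

end Order

/-! ### The four series -/

section Series

variable (k : Type*) [Field k]

theorem constantCoeff_map_jNum :
    PowerSeries.constantCoeff (jNum.map (Int.castRingHom k)) = 1 := by
  rw [← PowerSeries.coeff_zero_eq_constantCoeff_apply, PowerSeries.coeff_map,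
    PowerSeries.coeff_zero_eq_constantCoeff_apply, constantCoeff_jNum, map_one]

theorem order_lc_jq : (jqModC k).order = -1 ∧ (jqModC k).leadingCoeff = 1 := by
  refine order_lc one_ne_zero ?_ ?_
  · rw [jqModC]
    exact coeff_single_mul_ofPowerSeries_self _ _ _ (constantCoeff_map_jNum k)
  · intro m hm
    rw [jqModC]
    exact coeff_single_mul_ofPowerSeries_of_lt _ _ _ hm

theorem order_lc_jq2 :
    (qExpand k 2 (jqModC k)).order = -((2 : ℕ) : ℤ) ∧
      (qExpand k 2 (jqModC k)).leadingCoeff = 1 := by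
  have h := order_lc_qExpand one_ne_zero (order_lc_jq k) 2
  refine ⟨by rw [h.1]; norm_num, h.2⟩

theorem order_lc_phiZero : (phiZero k 2).order = -1 ∧ (phiZero k 2).leadingCoeff = 1 := by
  refine order_lc one_ne_zero ?_ ?_
  · have h := coeff_phiZero k 2
    norm_num at h
    exact h
  · intro m hm
    exact coeff_phiZero_of_lt k 2 (by norm_num; omega)

theorem order_lc_phiInf [CharZero k] :
    (phiInf k 2).order = 1 ∧ (phiInf k 2).leadingCoeff = (4096 : k) := by
  refine order_lc (by norm_num) ?_ ?_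
  · have h := coeff_phiInf k 2
    norm_num at h
    exact h
  · intro m hm
    exact coeff_phiInf_of_lt k 2 (by norm_num; omega)

/-- the constant coefficient of `φ₀ = Δ(q)/Δ(q²) = q⁻¹ - 24 + ⋯`. -/
theorem coeff_zero_phiZero : (phiZero k 2).coeff 0 = -24 := by
  rw [phiZero_eq, coeff_single_mul_ofPowerSeries, one_mul]
  have h1 : ((0 : ℤ) - (1 - ((2 : ℕ) : ℤ))) = ((1 : ℕ) : ℤ) := by norm_num
  rw [h1, HahnSeries.ofPowerSeries_apply_coeff, coeff_one_mul', constantCoeff_map_eta]
  have h2 : PowerSeries.coeff 1 (PowerSeries.expand 2 (NeZero.ne 2)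
      (dedekindEtaUnitInv.map (Int.castRingHom k))) = 0 :=
    PowerSeries.coeff_expand_of_not_dvd 2 (NeZero.ne 2) _ (by norm_num)
  rw [h2, PowerSeries.constantCoeff_expand,
    constantCoeff_map_etaInv, PowerSeries.coeff_map, coeff_one_dedekindEtaUnit]
  simp


theorem coeff_zero_jq : (jqModC k).coeff 0 = 744 := by
  rw [jqModC, coeff_single_mul_ofPowerSeries, one_mul]
  have h1 : ((0 : ℤ) - (-1)) = ((1 : ℕ) : ℤ) := by norm_num
  rw [h1, HahnSeries.ofPowerSeries_apply_coeff, PowerSeries.coeff_map, coeff_one_jNum]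
  simp

/-- `j · φ_∞ = 2¹² (1 + 768 q + ⋯)`. -/
theorem coeff_one_jq_mul_phiInf : (jqModC k * phiInf k 2).coeff 1 = 4096 * 768 := by
  have h : jqModC k * phiInf k 2 = HahnSeries.single (0 : ℤ) ((2 : k) ^ 12) *
      HahnSeries.ofPowerSeries ℤ k (jNum.map (Int.castRingHom k) *
        (PowerSeries.expand 2 (NeZero.ne 2) (dedekindEtaUnit.map (Int.castRingHom k)) *
          dedekindEtaUnitInv.map (Int.castRingHom k))) := by
    have h1 : HahnSeries.single (-1 : ℤ) (1 : k) *
        HahnSeries.single (((2 : ℕ) : ℤ) - 1) (((2 : ℕ) : k) ^ 12) =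
        HahnSeries.single (0 : ℤ) ((2 : k) ^ 12) := by
      rw [HahnSeries.single_mul_single, one_mul]
      norm_num
    rw [jqModC, phiInf_eq, ← h1, map_mul, map_mul, map_mul]
    ring
  rw [h, coeff_single_mul_ofPowerSeries]
  have h1 : ((1 : ℤ) - 0) = ((1 : ℕ) : ℤ) := by norm_num
  rw [h1, HahnSeries.ofPowerSeries_apply_coeff, coeff_one_mul', coeff_one_mul',
    constantCoeff_map_jNum, map_mul, PowerSeries.constantCoeff_expand, constantCoeff_map_eta,
    constantCoeff_map_etaInv]
  have h2 : PowerSeries.coeff 1 (PowerSeries.expand 2 (NeZero.ne 2)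
      (dedekindEtaUnit.map (Int.castRingHom k))) = 0 :=
    PowerSeries.coeff_expand_of_not_dvd 2 (NeZero.ne 2) _ (by norm_num)
  rw [h2, PowerSeries.coeff_map, PowerSeries.coeff_map, coeff_one_dedekindEtaUnitInv,
    coeff_one_jNum]
  norm_num

end Series

/-! ### The modular equation of level `2` -/

section Main

variable (k : Type*) [Field k] [IsAlgClosed k] [CharZero k]

/-- **The equations of `X₀(2)`**: `(φ_∞ + 16)³ = j φ_∞` for `φ_∞ = 2¹² Δ(q²)/Δ(q)` and
`(φ₀ + 16)³ = j(q²) φ₀` for `φ₀ = Δ(q)/Δ(q²)`. -/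
theorem rel_closed : (phiInf k 2 + 16) ^ 3 = jqModC k * phiInf k 2 ∧
    (phiZero k 2 + 16) ^ 3 = qExpand k 2 (jqModC k) * phiZero k 2 := by
  classical
  haveI : Fact (Nat.Prime 2) := ⟨Nat.prime_two⟩
  obtain ⟨Φ, T, Ψ, hΦ, hΦd, hΨ, hΨd, hT, h2, h3, h4, h5, h6, h6'⟩ := ModPkgK.exists_modPkg 2 k
  set j := jqModC k with hj
  set j₂ := qExpand k 2 j with hj₂
  set r₁ := phiZero k 2 with hr₁
  set U := phiInf k 2 with hU
  obtain ⟨ζ, hζ⟩ : ∃ ζ : kˣ, ζ = -1 := ⟨-1, rfl⟩
  have hζ2 : ζ ^ 2 = 1 := by rw [hζ]; norm_num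
  set r₂ := ModPkgRed.twist ζ r₁ with hr₂
  set r₃ := qExpand k 2 U with hr₃
  set F : Polynomial (LaurentSeries k) :=
    Ψ.map (aeval j₂ : k[X] →ₐ[k] LaurentSeries k).toRingHom with hF
  have hFm : F.Monic := hΨ.map _
  have hFd : F.natDegree = 3 := by rw [hF, hΨ.natDegree_map, hΨd]
  have e1 : F.eval r₁ = 0 := h6'
  have e2 : F.eval r₂ = 0 := by
    have h := ev_ringHom (ModPkgRed.twist ζ) (ModPkgRed.twist_algebraMap ζ) r₁ j₂ Ψ
    rw [ModPkgRed.twist_qExpand ζ 2 hζ2] at h
    rw [hF, hr₂, ← h]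
    exact (congrArg (ModPkgRed.twist ζ) h6').trans (map_zero _)
  have e3 : F.eval r₃ = 0 := by
    have h := ev_ringHom (qExpand k 2) (ModPkgRed.qExpand_algebraMap 2) U j Ψ
    rw [hF, hr₃, hj₂, ← h]
    exact (congrArg (qExpand k 2) h6).trans (map_zero _)
  -- orders
  have O1 : r₁.order = -1 ∧ r₁.leadingCoeff = 1 := order_lc_phiZero k
  have O2 : r₂.order = -1 ∧ r₂.leadingCoeff = -1 := by
    have h := order_lc_twist one_ne_zero O1 ζ
    have hz : ((ζ ^ (-1 : ℤ) : kˣ) : k) = -1 := by
      rw [hζ]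
      simp
    exact ⟨h.1, by rw [h.2, hz, mul_one]⟩
  have OU : U.order = 1 ∧ U.leadingCoeff = (4096 : k) := order_lc_phiInf k
  have h4096 : (4096 : k) ≠ 0 := by norm_num
  have O3 : r₃.order = 2 ∧ r₃.leadingCoeff = (4096 : k) := by
    have h := order_lc_qExpand h4096 OU 2
    simpa using h
  have Oj : j₂.order = -((2 : ℕ) : ℤ) ∧ j₂.leadingCoeff = 1 := order_lc_jq2 k
  have O12 := order_lc_mul one_ne_zero (neg_ne_zero.mpr one_ne_zero) O1 O2
  have O13 := order_lc_mul one_ne_zero h4096 O1 O3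
  have O23 := order_lc_mul (neg_ne_zero.mpr one_ne_zero) h4096 O2 O3
  have O123 := order_lc_mul (mul_ne_zero one_ne_zero (neg_ne_zero.mpr one_ne_zero)) h4096 O12 O3
  -- the factorisation
  have h12 : r₁ ≠ r₂ := by
    intro h
    have h' : r₁.coeff (-1) = r₂.coeff (-1) := by rw [h]
    rw [coeff_of_order_lc O1, coeff_of_order_lc O2] at h'
    norm_num at h'
  have h13 : r₁ ≠ r₃ := by
    intro h
    have h' : r₁.coeff (-1) = r₃.coeff (-1) := by rw [h]
    rw [coeff_of_order_lc O1, coeff_of_lt_order O3 (by norm_num)] at h'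
    norm_num at h'
  have h23 : r₂ ≠ r₃ := by
    intro h
    have h' : r₂.coeff (-1) = r₃.coeff (-1) := by rw [h]
    rw [coeff_of_order_lc O2, coeff_of_lt_order O3 (by norm_num)] at h'
    norm_num at h'
  have hlt : ∀ a b : Fin 3, a < b → ![r₁, r₂, r₃] a ≠ ![r₁, r₂, r₃] b := by
    intro a b hab
    fin_cases a <;> fin_cases b <;>
      first
        | exact absurd hab (by decide)
        | exact h12
        | exact h13
        | exact h23
  have hinj : Function.Injective ![r₁, r₂, r₃] := by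
    intro a b hab
    rcases lt_trichotomy a b with h | h | h
    · exact absurd hab (hlt a b h)
    · exact h
    · exact absurd hab.symm (hlt b a h)
  have hprod := ModPkgRed.eq_prod_of_roots F hFm ![r₁, r₂, r₃] hinj (by rw [hFd]; rfl)
    (by
      intro i
      fin_cases i
      · exact e1
      · exact e2
      · exact e3)
  rw [Fin.prod_univ_three] at hprod
  have hexp : F = X ^ 3 - C (r₁ + r₂ + r₃) * X ^ 2 + C (r₁ * r₂ + r₁ * r₃ + r₂ * r₃) * X -
      C (r₁ * r₂ * r₃) := by
    have hprod' : F = (X - C r₁) * (X - C r₂) * (X - C r₃) := hprod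
    rw [hprod']
    simp only [map_add, map_mul]
    ring
  have hc2 : aeval j₂ (Ψ.coeff 2) = -(r₁ + r₂ + r₃) := by
    rw [← coeff_map_aeval j₂ Ψ 2, ← hF, hexp]
    simp only [coeff_sub, coeff_add, coeff_X_pow, coeff_C_mul_X_pow, coeff_C_mul_X, coeff_C]
    norm_num
  have hc1 : aeval j₂ (Ψ.coeff 1) = r₁ * r₂ + r₁ * r₃ + r₂ * r₃ := by
    rw [← coeff_map_aeval j₂ Ψ 1, ← hF, hexp]
    simp only [coeff_sub, coeff_add, coeff_X_pow, coeff_C_mul_X_pow, coeff_C_mul_X, coeff_C]
    norm_num
  have hc0 : aeval j₂ (Ψ.coeff 0) = -(r₁ * r₂ * r₃) := by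
    rw [← coeff_map_aeval j₂ Ψ 0, ← hF, hexp]
    simp only [coeff_sub, coeff_add, coeff_X_pow, coeff_C_mul_X_pow, coeff_C_mul_X, coeff_C]
    norm_num
  -- the coefficients of `Ψ`
  have hr₃0 : r₃.coeff 0 = 0 := coeff_of_lt_order O3 (by norm_num)
  have hr₂0 : r₂.coeff 0 = -24 := by
    rw [hr₂, ModPkgRed.twist_coeff, zpow_zero, Units.val_one, one_mul, hr₁, coeff_zero_phiZero]
  have hΨ2 : Ψ.coeff 2 = C 48 := by
    have h := eq_C_of_coeff_aeval (m := 2) (by norm_num) Oj (Ψ.coeff 2) (by
      intro n hn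
      have hn' : n ≤ -2 := by simpa using hn
      rw [hc2, HahnSeries.coeff_neg, HahnSeries.coeff_add, HahnSeries.coeff_add,
        coeff_of_lt_order O1 (by omega), coeff_of_lt_order O2 (by omega),
        coeff_of_lt_order O3 (by omega)]
      simp)
    rw [h, hc2, HahnSeries.coeff_neg, HahnSeries.coeff_add, HahnSeries.coeff_add, hr₃0, hr₂0,
      hr₁, coeff_zero_phiZero]
    norm_num
  have hΨ0 : Ψ.coeff 0 = C 4096 := by
    have h := eq_C_of_coeff_aeval (m := 2) (by norm_num) Oj (Ψ.coeff 0) (by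
      intro n hn
      have hn' : n ≤ -2 := by simpa using hn
      rw [hc0, HahnSeries.coeff_neg, coeff_of_lt_order O123 (by omega)]
      simp)
    rw [h, hc0, HahnSeries.coeff_neg]
    have h0 : (r₁ * r₂ * r₃).coeff 0 = 1 * -1 * 4096 := by
      have h' := coeff_of_order_lc O123
      norm_num at h'
      rw [h']
      norm_num
    rw [h0]
    norm_num
  obtain ⟨b₀, hΨ1⟩ : ∃ b₀ : k, Ψ.coeff 1 = C b₀ - X := by
    have h := eq_C_of_coeff_aeval (m := 2) (by norm_num) Oj (Ψ.coeff 1 + X) (by
      intro n hn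
      have hn' : n ≤ -2 := by simpa using hn
      rw [map_add, aeval_X, hc1, HahnSeries.coeff_add, HahnSeries.coeff_add,
        HahnSeries.coeff_add, coeff_of_lt_order O13 (by omega),
        coeff_of_lt_order O23 (by omega)]
      rcases lt_or_eq_of_le hn' with h | h
      · rw [coeff_of_lt_order O12 (by omega), coeff_of_lt_order Oj (by norm_num; omega)]
        simp
      · have h1 : (r₁ * r₂).coeff n = 1 * -1 := by
          rw [h]
          exact coeff_of_order_lc O12
        have h2 : j₂.coeff n = 1 := by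
          rw [h]
          have h' := coeff_of_order_lc Oj
          norm_num at h'
          exact h'
        rw [h1, h2]
        norm_num)
    exact ⟨_, eq_sub_of_add_eq h⟩
  -- the first relation
  have hG : (Ψ.map (aeval j : k[X] →ₐ[k] LaurentSeries k).toRingHom).natDegree = 3 := by
    rw [hΨ.natDegree_map, hΨd]
  have hΨ3 : Ψ.coeff 3 = 1 := by
    have h := hΨ.coeff_natDegree
    rwa [hΨd] at h
  have hrel : (4096 : LaurentSeries k) + (algebraMap k (LaurentSeries k) b₀ - j) * U +
      48 * U ^ 2 + U ^ 3 = 0 := by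
    have h : (Ψ.map (aeval j : k[X] →ₐ[k] LaurentSeries k).toRingHom).eval U = 0 := h6
    rw [eval_eq_sum_range, hG, Finset.sum_range_succ, Finset.sum_range_succ,
      Finset.sum_range_succ, Finset.sum_range_one, coeff_map_aeval, coeff_map_aeval,
      coeff_map_aeval, coeff_map_aeval, hΨ0, hΨ1, hΨ2, hΨ3] at h
    simp only [map_sub, aeval_C, aeval_X, map_one, map_ofNat, pow_zero, mul_one, pow_one,
      one_mul] at h
    exact h
  have hb₀ : b₀ = 768 := by
    have h := congrArg (fun x : LaurentSeries k => x.coeff 1) hrel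
    simp only [HahnSeries.coeff_add, HahnSeries.coeff_zero] at h
    have OUU := order_lc_mul h4096 h4096 OU OU
    have OUUU := order_lc_mul (mul_ne_zero h4096 h4096) h4096 OUU OU
    have t0 : (4096 : LaurentSeries k).coeff 1 = 0 := by
      have : (4096 : LaurentSeries k) = algebraMap k (LaurentSeries k) 4096 := by
        rw [map_ofNat]
      rw [this, PolyInt.algebraMap_eq_single, HahnSeries.coeff_single_of_ne (by norm_num)]
    have t1 : ((algebraMap k (LaurentSeries k) b₀ - j) * U).coeff 1 = b₀ * 4096 - 4096 * 768 := by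
      rw [sub_mul, HahnSeries.coeff_sub, PolyInt.coeff_algebraMap_mul, coeff_of_order_lc OU,
        hj, hU, coeff_one_jq_mul_phiInf]
    have t2 : (48 * U ^ 2).coeff 1 = 0 := by
      have : (48 : LaurentSeries k) = algebraMap k (LaurentSeries k) 48 := by
        rw [map_ofNat]
      rw [this, PolyInt.coeff_algebraMap_mul, pow_two, coeff_of_lt_order OUU (by norm_num),
        mul_zero]
    have t3 : (U ^ 3).coeff 1 = 0 := by
      have : U ^ 3 = U * U * U := by ring
      rw [this, coeff_of_lt_order OUUU (by norm_num)]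
    rw [t0, t1, t2, t3] at h
    have h' : (b₀ - 768) * 4096 = 0 := by linear_combination h
    rcases mul_eq_zero.mp h' with h'' | h''
    · exact sub_eq_zero.mp h''
    · exact absurd h'' h4096
  rw [hb₀, map_ofNat] at hrel
  have hrel2 : (4096 : LaurentSeries k) + (768 - j₂) * r₁ + 48 * r₁ ^ 2 + r₁ ^ 3 = 0 := by
    have h : F.eval r₁ = 0 := e1
    rw [eval_eq_sum_range, hFd, Finset.sum_range_succ, Finset.sum_range_succ,
      Finset.sum_range_succ, Finset.sum_range_one, hF, coeff_map_aeval, coeff_map_aeval,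
      coeff_map_aeval, coeff_map_aeval, hΨ0, hΨ1, hΨ2, hΨ3, hb₀] at h
    simp only [map_sub, aeval_C, aeval_X, map_one, map_ofNat, pow_zero, mul_one, pow_one,
      one_mul] at h
    exact h
  exact ⟨by linear_combination hrel, by linear_combination hrel2⟩

end Main

/-! ### The relations over any commutative ring -/

section Universal

local notation "Qb" => AlgebraicClosure ℚ

/-- the relations over `ℤ`. -/
theorem rel_int : jqModC ℤ * phiZero ℤ 2 ^ 2 = (phiZero ℤ 2 + 256) ^ 3 ∧
    qExpand ℤ 2 (jqModC ℤ) * phiZero ℤ 2 = (phiZero ℤ 2 + 16) ^ 3 := by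
  have hinj : Function.Injective (coeffMap (Int.castRingHom Qb)) :=
    ModPkgRed.coeffMap_injective _ (RingHom.injective_int _)
  obtain ⟨h1, h2⟩ := rel_closed Qb
  have hU : phiInf Qb 2 * phiZero Qb 2 = 4096 := by
    rw [phiInf_mul_phiZero]
    have : (((2 : ℕ) : Qb) ^ 12) = 4096 := by norm_num
    rw [this, map_ofNat]
  have h4096 : (4096 : LaurentSeries Qb) ≠ 0 := by
    rw [← map_ofNat (HahnSeries.C : Qb →+* LaurentSeries Qb) 4096]
    exact (_root_.map_ne_zero _).mpr (by norm_num)
  constructor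
  · apply hinj
    rw [map_mul, map_pow, map_pow, map_add, coeffMap_jqModC, coeffMap_phiZero, map_ofNat]
    apply mul_left_cancel₀ h4096
    linear_combination (-(phiZero Qb 2 ^ 3)) * h1 +
      (-(jqModC Qb * phiZero Qb 2 ^ 2) + (phiInf Qb 2 * phiZero Qb 2 + 16 * phiZero Qb 2) ^ 2 +
        (phiInf Qb 2 * phiZero Qb 2 + 16 * phiZero Qb 2) * (4096 + 16 * phiZero Qb 2) +
        (4096 + 16 * phiZero Qb 2) ^ 2) * hU
  · apply hinj
    rw [map_mul, map_pow, map_add, coeffMap_qExpand, coeffMap_jqModC, coeffMap_phiZero,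
      map_ofNat]
    exact h2.symm

/-- **The Hauptmodul of `X₀(2)`**: `h = Δ(q)/Δ(q²)` satisfies `j h² = (h + 256)³` and
`j(q²) h = (h + 16)³`, over any commutative ring. -/
theorem rel (R : Type*) [CommRing R] :
    jqModC R * phiZero R 2 ^ 2 = (phiZero R 2 + 256) ^ 3 ∧
    qExpand R 2 (jqModC R) * phiZero R 2 = (phiZero R 2 + 16) ^ 3 := by
  obtain ⟨h1, h2⟩ := rel_int
  have e1 := congrArg (coeffMap (Int.castRingHom R)) h1
  have e2 := congrArg (coeffMap (Int.castRingHom R)) h2
  rw [map_mul, map_pow, map_pow, map_add, coeffMap_jqModC, coeffMap_phiZero, map_ofNat] at e1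
  rw [map_mul, map_pow, map_add, coeffMap_qExpand, coeffMap_jqModC, coeffMap_phiZero,
    map_ofNat] at e2
  exact ⟨e1, e2⟩

end Universal

/-! ### Membership in the function field of level `N`, `2 ∣ N` -/

section Membership

variable {K : Type*} [Field K]

/-- coefficients of a product below the sum of two lower bounds vanish. -/
theorem coeff_mul_of_lt {x y : LaurentSeries K} {a b : ℤ} (hx : ∀ n < a, x.coeff n = 0)
    (hy : ∀ n < b, y.coeff n = 0) : ∀ n < a + b, (x * y).coeff n = 0 := by
  intro n hn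
  rw [HahnSeries.coeff_mul]
  refine Finset.sum_eq_zero fun ij hij => ?_
  rw [Finset.mem_addAntidiagonal] at hij
  obtain ⟨h1, h2, h3⟩ := hij
  by_cases ha : ij.1 < a
  · rw [hx _ ha, zero_mul]
  · have hb : ij.2 < b := by omega
    rw [hy _ hb, mul_zero]

theorem coeff_add_of_lt {x y : LaurentSeries K} {a : ℤ} (hx : ∀ n < a, x.coeff n = 0)
    (hy : ∀ n < a, y.coeff n = 0) : ∀ n < a, (x + y).coeff n = 0 := by
  intro n hn
  rw [HahnSeries.coeff_add, hx n hn, hy n hn, add_zero]

theorem coeff_algebraMap_of_ne (c : K) {n : ℤ} (hn : n ≠ 0) :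
    (algebraMap K (LaurentSeries K) c).coeff n = 0 := by
  rw [PolyInt.algebraMap_eq_single, HahnSeries.coeff_single_of_ne hn]

theorem coeff_algebraMap_zero (c : K) : (algebraMap K (LaurentSeries K) c).coeff 0 = c := by
  rw [PolyInt.algebraMap_eq_single, HahnSeries.coeff_single_same]

variable (K) [CharZero K]

/-- **`h = Δ(q)/Δ(q²)` is a modular function of level `N`** as soon as `2 ∣ N`. -/
theorem phiZero_mem (N : ℕ) (hN : 2 ∣ N) : phiZero K 2 ∈ modularFunctionFieldFullC K N := by
  classical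
  by_contra hmem
  obtain ⟨R1, R2⟩ := rel K
  set h : LaurentSeries K := phiZero K 2 with hh
  set j : LaurentSeries K := jqModC K with hj
  set j₂ : LaurentSeries K := qExpand K 2 (jqModC K) with hj₂
  have hjm : j ∈ modularFunctionFieldFullC K N := jqModC_mem_full K N
  have hj₂m : j₂ ∈ modularFunctionFieldFullC K N := jqModCd_mem_full K N hN
  let jE : modularFunctionFieldFullC K N := ⟨j, hjm⟩
  let j₂E : modularFunctionFieldFullC K N := ⟨j₂, hj₂m⟩
  let P₁ : (modularFunctionFieldFullC K N)[X] := (X + 256) ^ 3 - C jE * X ^ 2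
  let A : (modularFunctionFieldFullC K N)[X] :=
    C (720 - jE) * X ^ 2 + C (195840 + j₂E) * X + C 16773120
  have hP₁ : ∀ x : LaurentSeries K, aeval x P₁ = (x + 256) ^ 3 - j * x ^ 2 := by
    intro x
    simp only [P₁, map_sub, map_pow, map_add, map_mul, aeval_X, aeval_C, map_ofNat]
    rfl
  have hA : ∀ x : LaurentSeries K,
      aeval x A = (720 - j) * x ^ 2 + (195840 + j₂) * x + 16773120 := by
    intro x
    simp only [A, map_sub, map_pow, map_add, map_mul, aeval_X, aeval_C, map_ofNat]
    rfl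
  have hP₁h : aeval h P₁ = 0 := by
    rw [hP₁]
    linear_combination -R1
  have hAh : aeval h A = 0 := by
    rw [hA]
    linear_combination -R1 + R2
  -- orders
  have Oh : h.order = -1 ∧ h.leadingCoeff = 1 := order_lc_phiZero K
  have Oj : j.order = -1 ∧ j.leadingCoeff = 1 := order_lc_jq K
  have h720 : (720 : LaurentSeries K) = algebraMap K (LaurentSeries K) 720 := by
    rw [map_ofNat]
  have Oa₂ : (720 - j).order = -1 ∧ (720 - j).leadingCoeff = -1 := by
    refine order_lc (neg_ne_zero.mpr one_ne_zero) ?_ ?_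
    · rw [HahnSeries.coeff_sub, h720, coeff_algebraMap_of_ne _ (by norm_num),
        coeff_of_order_lc Oj, zero_sub]
    · intro m hm
      rw [HahnSeries.coeff_sub, h720, coeff_algebraMap_of_ne _ (by omega),
        coeff_of_lt_order Oj hm, sub_zero]
  have Oa₂h := order_lc_mul (neg_ne_zero.mpr one_ne_zero) one_ne_zero Oa₂ Oh
  have ha₂h : (720 - j) * h ≠ 0 := by
    intro h0
    have h1 := coeff_of_order_lc Oa₂h
    rw [h0, HahnSeries.coeff_zero] at h1
    norm_num at h1
  have ha₂ : (720 - j) ≠ 0 := left_ne_zero_of_mul ha₂h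
  have hh0 : h ≠ 0 := right_ne_zero_of_mul ha₂h
  have hc0 : (16773120 : LaurentSeries K) ≠ 0 := by
    rw [← map_ofNat (HahnSeries.C : K →+* LaurentSeries K) 16773120]
    exact (_root_.map_ne_zero _).mpr (by norm_num)
  -- the second root of `A`
  set h' : LaurentSeries K := 16773120 / ((720 - j) * h) with hh'
  have hh'0 : h' ≠ 0 := div_ne_zero hc0 ha₂h
  have hh'mul : h' * ((720 - j) * h) = 16773120 := div_mul_cancel₀ _ ha₂h
  have Oh' : ∀ n < 2, h'.coeff n = 0 := by
    have h1 := HahnSeries.order_mul hh'0 ha₂h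
    rw [hh'mul, Oa₂h.1] at h1
    have h2 : (16773120 : LaurentSeries K).order = 0 := by
      rw [← map_ofNat (HahnSeries.C : K →+* LaurentSeries K) 16773120]
      exact HahnSeries.order_C
    rw [h2] at h1
    intro n hn
    exact HahnSeries.coeff_eq_zero_of_lt_order (by omega)
  have hAh' : aeval h' A = 0 := by
    rw [hA]
    have hAh2 : (720 - j) * h ^ 2 + (195840 + j₂) * h + 16773120 = 0 := by
      rw [← hA]; exact hAh
    have key : (720 - j) * h' ^ 2 + (195840 + j₂) * h' + 16773120 =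
        16773120 * ((720 - j) * h ^ 2 + (195840 + j₂) * h + 16773120) / ((720 - j) * h ^ 2) := by
      rw [hh']
      field_simp
      ring
    rw [key, hAh2, mul_zero, zero_div]
  -- the minimal polynomial
  have hA0 : A ≠ 0 := by
    intro h0
    have h1 : A.coeff 0 = 16773120 := by
      simp [A]
    rw [h0, coeff_zero] at h1
    norm_num at h1
  have halg : IsAlgebraic (modularFunctionFieldFullC K N) h := ⟨A, hA0, hAh⟩
  have hint : IsIntegral (modularFunctionFieldFullC K N) h := halg.isIntegral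
  have hdeg : 2 ≤ (minpoly (modularFunctionFieldFullC K N) h).natDegree := by
    rw [minpoly.two_le_natDegree_iff hint]
    rintro ⟨y, hy⟩
    exact hmem (hy ▸ y.2)
  obtain ⟨c, hc⟩ := minpoly.dvd (modularFunctionFieldFullC K N) h hAh
  obtain ⟨Q, hQ⟩ := minpoly.dvd (modularFunctionFieldFullC K N) h hP₁h
  have hc0' : c ≠ 0 := by
    rintro rfl
    exact hA0 (by rw [hc, mul_zero])
  have hcdeg : c.natDegree = 0 := by
    have h1 : A.natDegree ≤ 2 := natDegree_quadratic_le
    rw [hc, natDegree_mul (minpoly.ne_zero hint) hc0'] at h1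
    omega
  obtain ⟨c₀, rfl⟩ : ∃ c₀, c = C c₀ := ⟨_, eq_C_of_natDegree_eq_zero hcdeg⟩
  have hc₀ : c₀ ≠ 0 := fun h0 => hc0' (by rw [h0, map_zero])
  have hP₁h' : aeval h' P₁ = 0 := by
    have h1 : C c₀ * P₁ = A * Q := by
      rw [hQ, hc]
      ring
    have h2 := congrArg (aeval h') h1
    rw [map_mul, map_mul, hAh', zero_mul, aeval_C] at h2
    rcases mul_eq_zero.mp h2 with h3 | h3
    · exact absurd ((_root_.map_eq_zero _).mp h3) hc₀
    · exact h3
  -- the contradiction: the constant coefficient of `P₁(h')` is `256³`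
  rw [hP₁] at hP₁h'
  have hW : ∀ n < (0 : ℤ), (h' ^ 2 + 768 * h' + 196608 - j * h').coeff n = 0 := by
    intro n hn
    have e1 : (h' ^ 2).coeff n = 0 := by
      rw [pow_two]
      exact coeff_mul_of_lt Oh' Oh' n (by omega)
    have e2 : (768 * h').coeff n = 0 := by
      have : (768 : LaurentSeries K) = algebraMap K (LaurentSeries K) 768 := by rw [map_ofNat]
      rw [this, PolyInt.coeff_algebraMap_mul, Oh' n (by omega), mul_zero]
    have e3 : (196608 : LaurentSeries K).coeff n = 0 := by
      have : (196608 : LaurentSeries K) = algebraMap K (LaurentSeries K) 196608 := by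
        rw [map_ofNat]
      rw [this, coeff_algebraMap_of_ne _ (by omega)]
    have e4 : (j * h').coeff n = 0 :=
      coeff_mul_of_lt (a := -1) (b := 2) (fun m hm => coeff_of_lt_order Oj hm) Oh' n (by omega)
    rw [HahnSeries.coeff_sub, HahnSeries.coeff_add, HahnSeries.coeff_add, e1, e2, e3, e4]
    simp
  have hfin : ((h' + 256) ^ 3 - j * h' ^ 2).coeff 0 = 16777216 := by
    have e : (h' + 256) ^ 3 - j * h' ^ 2 =
        h' * (h' ^ 2 + 768 * h' + 196608 - j * h') + 16777216 := by ring
    rw [e, HahnSeries.coeff_add, coeff_mul_of_lt Oh' hW 0 (by norm_num), zero_add]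
    have : (16777216 : LaurentSeries K) = algebraMap K (LaurentSeries K) 16777216 := by
      rw [map_ofNat]
    rw [this, coeff_algebraMap_zero]
  rw [hP₁h', HahnSeries.coeff_zero] at hfin
  norm_num at hfin

end Membership

end Fermat.Agent.S37.Haupt2
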