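import Mathlib
import Fermat.Agent.S18.Setup
import Fermat.Agent.S37.Haupt2

/-!
# S37: the Hauptmodul of `X₀(2)` in the sealed function field of level `N`, `2 ∣ N`

`hF K N hN : FK K N` is the `q`-series `Δ(q)/Δ(q²) = q⁻¹ - 24 + 276 q + ⋯` (`phiZero K 2` of
S28), an element of the function field `FK K N` of `X₀(N)` over any field `K` of characteristic
zero as soon as `2 ∣ N`, with `j h² = (h + 256)³` (the cover `X₀(2) → X(1)` of S18).
-/

set_option autoImplicit false

namespace Fermat.Agent.S37.Haupt2K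

open ModularCurve Fermat.Agent.S28.ModPkg Fermat.Agent.S18.Setup

variable (K : Type*) [Field K] [CharZero K] (N : ℕ)

/-- the Hauptmodul `h = Δ(q)/Δ(q²)` of `X₀(2)` in the function field of level `N`, `2 ∣ N`. -/
noncomputable def hF (hN : 2 ∣ N) : FK K N :=
  FK.mk (phiZero K 2) (Haupt2.phiZero_mem K N hN)

theorem val_hF (hN : 2 ∣ N) : FK.val K N (hF K N hN) = phiZero K 2 := rfl

/-- `j h² = (h + 256)³`. -/
theorem hF_rel (hN : 2 ∣ N) : jF K N * hF K N hN ^ 2 = (hF K N hN + 256) ^ 3 := by
  apply FK.val_injective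
  rw [map_mul, map_pow, map_pow, map_add, val_jF, val_hF, map_ofNat]
  exact (Haupt2.rel K).1

/-- the `q`-coefficients of `h` are integers: `h` is the image of `phiZero R 2` for every
subring (or ring mapping to `K`). -/
theorem val_hF_eq_coeffMap {R : Type*} [CommRing R] (f : R →+* K) (hN : 2 ∣ N) :
    FK.val K N (hF K N hN) = coeffMap f (phiZero R 2) := by
  rw [val_hF, coeffMap_phiZero]

end Fermat.Agent.S37.Haupt2K
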