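import Fermat.Agent.S37.HeckeCore
import Fermat.Agent.S37.HeckeChart

/-!
# S37 (W4): the Hecke norm on the finite chart, in the shape consumed by `HeckeCore`

For `x` in the finite chart ring, `s := 1` has nonzero value at every place and
`s * heckeNorm N ℓ x` lies in the finite chart ring (`HeckeChart.norm_alpha_mem_chart_true`).
-/

set_option autoImplicit false

noncomputable section

open ModularCurve AlgebraicCurve
open Fermat.Agent.S18.S24Export Fermat.Agent.S37.RedPlace

namespace Fermat.Agent.S37.HeckeFin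

local notation "Qb" => AlgebraicClosure ℚ

/-- the Hecke norm of a function of the finite chart ring lies in the finite chart ring -/
theorem heckeNorm_mem_chart_true (N : ℕ) [NeZero N] {ℓ : ℕ} [Fact ℓ.Prime]
    (A : ValuationSubring Qb) (x : FL N) (hx : x ∈ chart A N true) :
    HeckeCore.heckeNorm N ℓ x ∈ chart A N true :=
  HeckeChart.norm_alpha_mem_chart_true N ℓ A hx

/-- **(E2), finite chart.**  The hypothesis `hNI` of `HeckeCore.val_heckeNorm` on the finite
chart, with `s = 1`. -/
theorem exists_mul_heckeNorm_mem_fin (N : ℕ) [NeZero N] {ℓ : ℕ} [Fact ℓ.Prime]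
    (A : ValuationSubring Qb) (P : Place Qb (FL N)) (x : FL N) (hx : x ∈ chart A N true) :
    ∃ s ∈ chart A N true, val A N P s ≠ 0 ∧ s * HeckeCore.heckeNorm N ℓ x ∈ chart A N true := by
  refine ⟨1, (chart A N true).one_mem, ?_, ?_⟩
  · rw [val_one]
    exact one_ne_zero
  · rw [one_mul]
    exact heckeNorm_mem_chart_true N A x hx

/-- the same with an explicit `NeZero ℓ` instance argument (any instance), for call sites
that carry `[NeZero ℓ]` and `hℓ : ℓ.Prime` separately. -/
theorem exists_mul_heckeNorm_mem_fin' (N : ℕ) [NeZero N] {ℓ : ℕ} [NeZero ℓ] (hℓ : ℓ.Prime)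
    (A : ValuationSubring Qb) (P : Place Qb (FL N)) (x : FL N) (hx : x ∈ chart A N true) :
    ∃ s ∈ chart A N true, val A N P s ≠ 0 ∧ s * HeckeCore.heckeNorm N ℓ x ∈ chart A N true := by
  have : Fact ℓ.Prime := ⟨hℓ⟩
  exact exists_mul_heckeNorm_mem_fin N A P x hx

end Fermat.Agent.S37.HeckeFin
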