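import Mathlib

/-!
# The last embedding

`F / K` finite separable of degree `n + 1`, `Ω` a field over `K`, and `n` pairwise distinct
`K`-embeddings `S i : F → Ω`.  Then there is exactly one further `K`-embedding of `F` into an
algebraic closure of `Ω`; it takes values in `Ω` and is given by `θ g = Tr g - ∑ i, S i g`.
-/

set_option autoImplicit false
set_option linter.style.haveILetI false

namespace Fermat.Agent.S37.LastEmb

open Module

variable {K F Ω : Type*} [Field K] [Field F] [Field Ω] [Algebra K F] [Algebra K Ω]
  [FiniteDimensional K F] [Algebra.IsSeparable K F]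

theorem exists_last_embedding {n : ℕ} (hn : finrank K F = n + 1) (S : Fin n → F →ₐ[K] Ω)
    (hS : Function.Injective S) :
    ∃ θ : F →ₐ[K] Ω, (∀ i, θ ≠ S i) ∧
      ∀ g : F, θ g = algebraMap K Ω (Algebra.trace K F g) - ∑ i, S i g := by
  classical
  let E := AlgebraicClosure Ω
  let ι : Ω →ₐ[K] E := IsScalarTower.toAlgHom K Ω E
  have hι : Function.Injective ι := (algebraMap Ω E).injective
  let T : Fin n → F →ₐ[K] E := fun i => ι.comp (S i)
  have hT : Function.Injective T := by
    intro i j hij
    apply hS
    ext g
    have := congrArg (fun f : F →ₐ[K] E => f g) hij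
    exact hι this
  have hcard : Fintype.card (F →ₐ[K] E) = n + 1 := by
    rw [AlgHom.card K F E, hn]
  -- the complement of the image of `T` has exactly one element
  have himg : (Finset.univ.image T).card = n := by
    rw [Finset.card_image_of_injective _ hT, Finset.card_univ, Fintype.card_fin]
  have hcompl : ((Finset.univ.image T)ᶜ).card = 1 := by
    rw [Finset.card_compl, himg, hcard]; omega
  obtain ⟨θE, hθE⟩ := Finset.card_eq_one.mp hcompl
  have hθmem : θE ∈ (Finset.univ.image T)ᶜ := by rw [hθE]; exact Finset.mem_singleton_self _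
  have hθne : ∀ i, θE ≠ T i := by
    intro i h
    rw [Finset.mem_compl] at hθmem
    exact hθmem (Finset.mem_image.mpr ⟨i, Finset.mem_univ _, h.symm⟩)
  -- the trace formula
  have hsum : ∀ g : F, algebraMap K E (Algebra.trace K F g) = ∑ i, T i g + θE g := by
    intro g
    rw [trace_eq_sum_embeddings E (K := K) (L := F)]
    rw [← Finset.sum_add_sum_compl (Finset.univ.image T), hθE, Finset.sum_singleton,
      Finset.sum_image (fun i _ j _ h => hT h)]
  have hval : ∀ g : F, θE g = ι (algebraMap K Ω (Algebra.trace K F g) - ∑ i, S i g) := by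
    intro g
    have h1 := hsum g
    rw [map_sub, map_sum]
    have h2 : ι (algebraMap K Ω (Algebra.trace K F g)) = algebraMap K E (Algebra.trace K F g) :=
      ι.commutes _
    rw [h2, h1]
    simp only [T, AlgHom.comp_apply]
    ring
  -- `θE` factors through `Ω`
  let θfun : F → Ω := fun g => algebraMap K Ω (Algebra.trace K F g) - ∑ i, S i g
  have hθfun : ∀ g, ι (θfun g) = θE g := fun g => (hval g).symm
  let θ : F →ₐ[K] Ω :=
    { toFun := θfun
      map_one' := hι (by rw [hθfun, map_one, map_one])
      map_mul' := fun a b => hι (by rw [hθfun, map_mul, map_mul, hθfun, hθfun])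
      map_zero' := hι (by rw [hθfun, map_zero, map_zero])
      map_add' := fun a b => hι (by rw [hθfun, map_add, map_add, hθfun, hθfun])
      commutes' := fun c => hι (by rw [hθfun, AlgHom.commutes, AlgHom.commutes]) }
  refine ⟨θ, fun i h => hθne i ?_, fun g => rfl⟩
  ext g
  have h1 : ι (θ g) = ι (S i g) := congrArg (fun f : F →ₐ[K] Ω => ι (f g)) h
  rw [← hθfun g]
  exact h1

end Fermat.Agent.S37.LastEmb
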