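import Mathlib

/-!
# S37, block (W2), leaf I4 (abstract part): change of local generator at a closed point

At a closed point `n` of the special fibre of a chart ring `C` (a prime ideal containing the
uniformizer `ϖ`), normality of the special fibre gives SOME `s'` with `n C_n = (ϖ, s')`.
`exists_mul_eq_of_gen` replaces `s'` by ANY `s ∈ n` which is not in `(ϖ) + n²` locally.
`mul_notMem_sup_sq` is the source of that hypothesis: a ring homomorphism `ρ` into a local ring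
with `n = ρ⁻¹(𝔪)`, killing an ideal `I`, such that `ρ s ∉ 𝔪²`.
-/

set_option autoImplicit false

namespace Fermat.Agent.S37.LevGen

section Abstract

variable {C : Type*} [CommRing C]

/-- **Change of local generator.**  If `n C_n = (ϖ, s')` and `s ∈ n` is not in `(ϖ) + n²`
locally at `n`, then `n C_n = (ϖ, s)`, in the explicit form consumed by the local theorem. -/
theorem exists_mul_eq_of_gen (n : Ideal C) [n.IsPrime] (ϖ s' s : C) (hs' : s' ∈ n) (hs : s ∈ n)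
    (hgen : ∀ x ∈ n, ∃ w, w ∉ n ∧ w * x ∈ Ideal.span {ϖ, s'})
    (hs2 : ∀ u, u ∉ n → u * s ∉ Ideal.span {ϖ} ⊔ n ^ 2) :
    ∀ x ∈ n, ∃ u, u ∉ n ∧ ∃ b d : C, u * x = ϖ * b + s * d := by
  obtain ⟨w₀, hw₀, h₀⟩ := hgen s hs
  obtain ⟨b₀, d₀, h₀⟩ := Ideal.mem_span_pair.mp h₀
  -- `d₀ ∉ n`, otherwise `w₀ s ∈ (ϖ) + n²`
  have hd₀ : d₀ ∉ n := by
    intro hd
    apply hs2 w₀ hw₀
    rw [← h₀]
    refine Ideal.add_mem _ (Ideal.mem_sup_left ?_) (Ideal.mem_sup_right ?_)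
    · exact Ideal.mul_mem_left _ _ (Ideal.subset_span rfl)
    · rw [pow_two]
      exact Ideal.mul_mem_mul hd hs'
  intro x hx
  obtain ⟨w, hw, h⟩ := hgen x hx
  obtain ⟨b, d, h⟩ := Ideal.mem_span_pair.mp h
  refine ⟨d₀ * w, fun hmem => ?_, b * d₀ - b₀ * d, w₀ * d, ?_⟩
  · rcases (Ideal.IsPrime.mem_or_mem inferInstance hmem) with h1 | h1
    · exact hd₀ h1
    · exact hw h1
  · have e1 : d₀ * s' = w₀ * s - b₀ * ϖ := by rw [← h₀]; ring
    calc d₀ * w * x = d₀ * (w * x) := by ring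
      _ = d₀ * (b * ϖ + d * s') := by rw [h]
      _ = b * d₀ * ϖ + d * (d₀ * s') := by ring
      _ = b * d₀ * ϖ + d * (w₀ * s - b₀ * ϖ) := by rw [e1]
      _ = ϖ * (b * d₀ - b₀ * d) + s * (w₀ * d) := by ring

/-- The same conclusion at all points, in the span form of the hypothesis. -/
theorem exists_mul_mem_span_of_gen (n : Ideal C) [n.IsPrime] (ϖ s' s : C) (hs' : s' ∈ n)
    (hs : s ∈ n) (hgen : ∀ x ∈ n, ∃ w, w ∉ n ∧ w * x ∈ Ideal.span {ϖ, s'})
    (hs2 : ∀ u, u ∉ n → u * s ∉ Ideal.span {ϖ} ⊔ n ^ 2) :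
    ∀ x ∈ n, ∃ w, w ∉ n ∧ w * x ∈ Ideal.span {ϖ, s} := by
  intro x hx
  obtain ⟨u, hu, b, d, h⟩ := exists_mul_eq_of_gen n ϖ s' s hs' hs hgen hs2 x hx
  exact ⟨u, hu, Ideal.mem_span_pair.mpr ⟨b, d, by rw [h]; ring⟩⟩

/-- **Source of the hypothesis `hs2`.**  Let `ρ : D → V` be a ring homomorphism into a local ring
killing the ideal `I`, and `M = ρ⁻¹(𝔪_V)`.  If `ρ s ∉ 𝔪_V²`, then `u s ∉ I + M²` for `u ∉ M`. -/
theorem mul_notMem_sup_sq {D V : Type*} [CommRing D] [CommRing V] [IsLocalRing V] (ρ : D →+* V)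
    (I M : Ideal D) (hI : ∀ x ∈ I, ρ x = 0)
    (hM : ∀ x, x ∈ M ↔ ρ x ∈ IsLocalRing.maximalIdeal V) (s : D)
    (hs : ρ s ∉ IsLocalRing.maximalIdeal V ^ 2) (u : D) (hu : u ∉ M) : u * s ∉ I ⊔ M ^ 2 := by
  intro hmem
  have hle : Ideal.map ρ (I ⊔ M ^ 2) ≤ IsLocalRing.maximalIdeal V ^ 2 := by
    rw [Ideal.map_sup, Ideal.map_pow]
    refine sup_le ?_ (Ideal.pow_right_mono ?_ 2)
    · rw [Ideal.map_le_iff_le_comap]
      intro x hx
      rw [Ideal.mem_comap, hI x hx]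
      exact Ideal.zero_mem _
    · rw [Ideal.map_le_iff_le_comap]
      intro x hx
      exact (hM x).mp hx
  have h1 : ρ (u * s) ∈ IsLocalRing.maximalIdeal V ^ 2 := hle (Ideal.mem_map_of_mem ρ hmem)
  rw [map_mul] at h1
  have hunit : IsUnit (ρ u) := by
    by_contra h
    exact hu ((hM u).mpr ((IsLocalRing.mem_maximalIdeal _).mpr h))
  exact hs ((Ideal.unit_mul_mem_iff_mem _ hunit).mp h1)

end Abstract

end Fermat.Agent.S37.LevGen
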