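import Mathlib
import Fermat.Agent.S37.LocalStep

/-!
# S37, block (W2): local conservation of number at a closed point of the special fibre (abstract)

Mathlib only.  `A` is a valuation subring of an algebraically closed field `L`, `D` a domain with
a ring homomorphism `ι : A → D` ("constants"), `M` a maximal ideal of `D` containing `ι(𝔪_A)`
(a closed point of the special fibre of `Spec D`) and `s ∈ M` a local parameter of the special
fibre at `M`.

* `Prim ι x`        : `x` is not divisible by any `ι c`, `c ∈ 𝔪_A` (nonzero reduction).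
* `IsPoint ι M ψ`   : `ψ : D → A` is a section of `ι` with `ψ(M) ⊆ 𝔪_A` (a point of the residue
                      disc of `M`).
* `LevelHyp ι M s`  : finite data live in a Noetherian subring `C ⊆ D` in which the maximal ideal
                      of `C` localised at `M ∩ C` is generated by a uniformizer `ϖ` and `s`.
* `exists_div`      : `ψ y = 0 ⟹ u * y = (s - ι (ψ s)) * y₁` with `u ∉ M`.
* `point_ext`       : a point is determined by its value at `s`.
* `exists_point`    : a primitive `a ∈ M` has a zero in the residue disc.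
* `exists_factor`   : Weierstrass-type factorisation `u * y = y₀ * ∏ (s - ι a)`.
* `sum_ord_eq`      : local conservation of number.
-/

set_option autoImplicit false

open IsLocalRing

namespace Fermat.Agent.S37.LocalFactor

variable {L : Type*} [Field L] (A : ValuationSubring L) {D : Type*} [CommRing D] [IsDomain D]
  (ι : ↥A →+* D)

/-- `x` is primitive: not divisible by a constant of the maximal ideal of `A`. -/
def Prim (x : D) : Prop := ∀ c ∈ maximalIdeal ↥A, ¬ ι c ∣ x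

/-- A point of the residue disc of `M`: a section `ψ` of `ι` with `ψ(M) ⊆ 𝔪_A`. -/
structure IsPoint (M : Ideal D) (ψ : D →+* ↥A) : Prop where
  const : ∀ a : ↥A, ψ (ι a) = a
  mem : ∀ x ∈ M, ψ x ∈ maximalIdeal ↥A

/-- The level hypothesis at `M` with parameter `s`. -/
def LevelHyp (M : Ideal D) (s : D) : Prop :=
  ∀ (S : Finset D) (c : ↥A), c ∈ maximalIdeal ↥A →
    ∃ (C : Subring D) (ϖ : ↥A), IsNoetherianRing ↥C ∧ (∀ x ∈ S, x ∈ C) ∧ s ∈ C ∧ ι ϖ ∈ C ∧
      ϖ ≠ 0 ∧ ϖ ∈ maximalIdeal ↥A ∧ (∃ c' ∈ C, ι c = ι ϖ * c') ∧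
      ∀ x ∈ C, x ∈ M → ∃ u ∈ C, u ∉ M ∧ ∃ b ∈ C, ∃ d ∈ C, u * x = ι ϖ * b + s * d

variable {A ι}

theorem IsPoint.mem_iff {M : Ideal D} [hM : M.IsMaximal] {ψ : D →+* ↥A} (hψ : IsPoint A ι M ψ)
    (x : D) : ψ x ∈ maximalIdeal ↥A ↔ x ∈ M := by
  constructor
  · intro hx
    have hle : M ≤ (maximalIdeal ↥A).comap ψ := fun y hy => hψ.mem y hy
    have hne : (maximalIdeal ↥A).comap ψ ≠ ⊤ := by
      intro h
      have h1 : (1 : D) ∈ (maximalIdeal ↥A).comap ψ := h ▸ Submodule.mem_top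
      rw [Ideal.mem_comap, map_one] at h1
      exact (Ideal.ne_top_iff_one _).mp (IsLocalRing.maximalIdeal.isMaximal ↥A).ne_top h1
    rw [hM.eq_of_le hne hle]
    exact hx
  · exact hψ.mem x

theorem IsPoint.ne_zero_of_notMem {M : Ideal D} [M.IsMaximal] {ψ : D →+* ↥A}
    (hψ : IsPoint A ι M ψ) {x : D} (hx : x ∉ M) : ψ x ≠ 0 := by
  intro h
  apply hx
  rw [← hψ.mem_iff, h]
  exact zero_mem _

theorem IsPoint.const_mem {M : Ideal D} [M.IsMaximal] {ψ : D →+* ↥A}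
    (hψ : IsPoint A ι M ψ) {c : ↥A} (hc : c ∈ maximalIdeal ↥A) : ι c ∈ M := by
  rw [← hψ.mem_iff, hψ.const]
  exact hc

/-- **Division.**  If the point `ψ` vanishes at `y`, then `y` is divisible by `s - ι (ψ s)` up to
a unit at `M`. -/
theorem exists_div {M : Ideal D} [M.IsMaximal] {s : D} (hs : s ∈ M) (hlev : LevelHyp A ι M s)
    {ψ : D →+* ↥A} (hψ : IsPoint A ι M ψ) (y : D) (hy : ψ y = 0) :
    ∃ u y₁ : D, u ∉ M ∧ u * y = (s - ι (ψ s)) * y₁ := by
  classical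
  obtain ⟨C, ϖ, hnoeth, hS, hsC, hϖC, hϖ0, hϖm, ⟨c', hc'C, hc'⟩, hgen⟩ :=
    hlev {y} (ψ s) (hψ.mem s hs)
  have hyC : y ∈ C := hS y (Finset.mem_singleton_self y)
  have hcC : ι (ψ s) ∈ C := by rw [hc']; exact C.mul_mem hϖC hc'C
  let 𝔫 : Ideal ↥C := M.comap C.subtype
  haveI h𝔫 : 𝔫.IsPrime := Ideal.comap_isPrime _ _
  have hmem𝔫 : ∀ x : ↥C, x ∈ 𝔫 ↔ (x : D) ∈ M := fun x => Iff.rfl
  have hunits : ∀ x : 𝔫.primeCompl, IsUnit ((ψ.comp C.subtype) x) := by
    intro x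
    have hx : ((x : ↥C) : D) ∉ M := x.2
    have h1 : ψ ((x : ↥C) : D) ∉ maximalIdeal ↥A := fun h => hx ((hψ.mem_iff _).mp h)
    exact IsLocalRing.notMem_maximalIdeal.mp h1
  let R := Localization.AtPrime 𝔫
  let ev : R →+* ↥A := IsLocalization.lift (M := 𝔫.primeCompl) hunits
  have hev : ∀ x : ↥C, ev (algebraMap ↥C R x) = ψ (x : D) := fun x =>
    IsLocalization.lift_eq hunits x
  let ϖC : ↥C := ⟨ι ϖ, hϖC⟩
  let sC : ↥C := ⟨s, hsC⟩
  let cC : ↥C := ⟨ι (ψ s), hcC⟩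
  let c'C : ↥C := ⟨c', hc'C⟩
  have hcC' : cC = ϖC * c'C := Subtype.ext hc'
  have hϖ𝔫 : ϖC ∈ 𝔫 := (hmem𝔫 _).mpr (hψ.const_mem hϖm)
  have hsc𝔫 : sC - cC ∈ 𝔫 :=
    (hmem𝔫 _).mpr (M.sub_mem hs (hψ.const_mem (hψ.mem s hs)))
  have hmax : maximalIdeal R =
      Ideal.span {algebraMap ↥C R ϖC, algebraMap ↥C R (sC - cC)} := by
    rw [← Localization.AtPrime.map_eq_maximalIdeal]
    apply le_antisymm
    · rw [Ideal.map_le_iff_le_comap]
      intro x hx
      rw [Ideal.mem_comap]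
      obtain ⟨u, huC, huM, b, hbC, d, hdC, hud⟩ := hgen x x.2 ((hmem𝔫 x).mp hx)
      let uC : ↥C := ⟨u, huC⟩
      have hu𝔫 : uC ∈ 𝔫.primeCompl := fun h => huM ((hmem𝔫 uC).mp h)
      have huu : IsUnit (algebraMap ↥C R uC) := IsLocalization.map_units R ⟨uC, hu𝔫⟩
      have heq : uC * x = ϖC * ⟨b, hbC⟩ + sC * ⟨d, hdC⟩ := Subtype.ext hud
      have hs' : sC = (sC - cC) + ϖC * c'C := by rw [← hcC']; ring
      have heq2 : algebraMap ↥C R uC * algebraMap ↥C R x =
          algebraMap ↥C R ϖC * (algebraMap ↥C R ⟨b, hbC⟩ + algebraMap ↥C R c'C * algebraMap ↥C R ⟨d, hdC⟩)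
            + algebraMap ↥C R (sC - cC) * algebraMap ↥C R ⟨d, hdC⟩ := by
        rw [← map_mul, heq]
        conv_lhs => rw [hs']
        simp only [map_add, map_mul]
        ring
      have hmem : algebraMap ↥C R uC * algebraMap ↥C R x ∈
          Ideal.span {algebraMap ↥C R ϖC, algebraMap ↥C R (sC - cC)} := by
        rw [heq2]
        exact Ideal.add_mem _
          (Ideal.mul_mem_right _ _ (Ideal.subset_span (Set.mem_insert _ _)))
          (Ideal.mul_mem_right _ _ (Ideal.subset_span (Set.mem_insert_of_mem _ rfl)))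
      obtain ⟨v, hv⟩ := huu.exists_left_inv
      have : algebraMap ↥C R x = v * (algebraMap ↥C R uC * algebraMap ↥C R x) := by
        rw [← mul_assoc, hv, one_mul]
      rw [this]
      exact Ideal.mul_mem_left _ _ hmem
    · rw [Ideal.span_le]
      rintro z (rfl | rfl)
      · exact Ideal.mem_map_of_mem _ hϖ𝔫
      · exact Ideal.mem_map_of_mem _ hsc𝔫
  have hevs : ev (algebraMap ↥C R (sC - cC)) = 0 := by
    rw [hev]
    show ψ (s - ι (ψ s)) = 0
    rw [map_sub, hψ.const, sub_self]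
  have hevϖ : ev (algebraMap ↥C R ϖC) ≠ 0 := by
    rw [hev]
    show ψ (ι ϖ) ≠ 0
    rw [hψ.const]
    exact hϖ0
  have hker := LocalStep.ker_eq_span ev _ _ hmax hevs hevϖ
  have hyker : algebraMap ↥C R ⟨y, hyC⟩ ∈ RingHom.ker ev := by
    rw [RingHom.mem_ker, hev]
    exact hy
  rw [hker, Ideal.mem_span_singleton] at hyker
  obtain ⟨z, hz⟩ := hyker
  obtain ⟨z₀, u, rfl⟩ := IsLocalization.exists_mk'_eq 𝔫.primeCompl z
  have h2 : algebraMap ↥C R (⟨y, hyC⟩ * (u : ↥C)) = algebraMap ↥C R ((sC - cC) * z₀) := by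
    rw [map_mul, map_mul, hz, mul_assoc, IsLocalization.mk'_spec]
  have hinj : Function.Injective (algebraMap ↥C R) :=
    IsLocalization.injective R (Ideal.primeCompl_le_nonZeroDivisors 𝔫)
  have h3 := hinj h2
  refine ⟨(u : ↥C), (z₀ : D), u.2, ?_⟩
  have h4 : y * (((u : ↥C)) : D) = (s - ι (ψ s)) * (z₀ : D) := congrArg Subtype.val h3
  rw [mul_comm]
  exact h4

/-- A point is determined by its value at the parameter `s`. -/
theorem point_ext {M : Ideal D} [M.IsMaximal] {s : D} (hs : s ∈ M) (hlev : LevelHyp A ι M s)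
    {ψ ψ' : D →+* ↥A} (hψ : IsPoint A ι M ψ) (hψ' : IsPoint A ι M ψ') (h : ψ s = ψ' s) :
    ψ = ψ' := by
  ext1 x
  have hx : ψ (x - ι (ψ x)) = 0 := by rw [map_sub, hψ.const, sub_self]
  obtain ⟨u, y₁, hu, huy⟩ := exists_div hs hlev hψ _ hx
  have h1 := congrArg ψ' huy
  rw [map_mul, map_mul, map_sub, map_sub, hψ'.const, hψ'.const, h, sub_self, zero_mul] at h1
  rcases mul_eq_zero.mp h1 with h2 | h2
  · exact absurd h2 (hψ'.ne_zero_of_notMem hu)
  · exact (sub_eq_zero.mp h2).symm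

section Point

variable [IsAlgClosed L]

/-- **Existence of a zero in the residue disc.**  A primitive element of `M` vanishes at some
point of the residue disc of `M`. -/
theorem exists_point (hι : Function.Injective ι)
    (harch : ∀ c c' : ↥A, c ≠ 0 → c' ∈ maximalIdeal ↥A → ∃ n : ℕ, c ∣ c' ^ n)
    (π : ↥A) (hπ0 : π ≠ 0) (hπ : π ∈ maximalIdeal ↥A)
    (t : D) (hint : ∀ x : D, (Polynomial.eval₂RingHom ι t).IsIntegralElem x)
    (M : Ideal D) [hMmax : M.IsMaximal] (hM : ∀ c ∈ maximalIdeal ↥A, ι c ∈ M)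
    (hG : ∀ c : ↥A, c ≠ 0 → ∀ a w : D, Prim A ι a → ι c ∣ a * w → ι c ∣ w)
    (a : D) (haM : a ∈ M) (hprim : Prim A ι a) :
    ∃ ψ : D →+* ↥A, IsPoint A ι M ψ ∧ ψ a = 0 := by
  classical
  have ha0 : a ≠ 0 := by
    rintro rfl
    exact hprim π hπ (dvd_zero _)
  -- the multiplicative set `{π ^ n * u | u ∉ M}`
  let T : Submonoid D :=
    { carrier := {x | ∃ (n : ℕ) (u : D), u ∉ M ∧ x = ι π ^ n * u}
      mul_mem' := by
        rintro x y ⟨n, u, hu, rfl⟩ ⟨m, v, hv, rfl⟩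
        refine ⟨n + m, u * v, fun h => ?_, by rw [pow_add]; ring⟩
        rcases hMmax.isPrime.mem_or_mem h with h | h
        · exact hu h
        · exact hv h
      one_mem' := ⟨0, 1, fun h => hMmax.ne_top ((Ideal.eq_top_iff_one M).mpr h), by simp⟩ }
  have hdisj : Disjoint ((Ideal.span {a} : Ideal D) : Set D) (T : Set D) := by
    rw [Set.disjoint_left]
    rintro x hx ⟨n, u, hu, rfl⟩
    rw [SetLike.mem_coe, Ideal.mem_span_singleton] at hx
    obtain ⟨w, hw⟩ := hx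
    have hπn : π ^ n ≠ 0 := pow_ne_zero n hπ0
    have h1 : ι (π ^ n) ∣ a * w := ⟨u, by rw [← hw, map_pow]⟩
    obtain ⟨w', hw'⟩ := hG (π ^ n) hπn a w hprim h1
    have hιπn : ι (π ^ n) ≠ 0 := fun h => hπn (hι (by rw [h, map_zero]))
    have h2 : ι (π ^ n) * u = ι (π ^ n) * (a * w') := by
      rw [map_pow, hw, hw', map_pow]; ring
    have h3 : u = a * w' := mul_left_cancel₀ hιπn h2
    exact hu (h3 ▸ M.mul_mem_right _ haM)
  obtain ⟨𝔓, h𝔓, ha𝔓, h𝔓T⟩ := Ideal.exists_le_prime_disjoint (Ideal.span {a}) T hdisj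
  have ha𝔓' : a ∈ 𝔓 := ha𝔓 (Ideal.mem_span_singleton_self a)
  have hπ𝔓 : ι π ∉ 𝔓 := fun h =>
    Set.disjoint_left.mp h𝔓T h ⟨1, 1, fun h1 => hMmax.ne_top ((Ideal.eq_top_iff_one M).mpr h1),
      by simp⟩
  have h𝔓M : 𝔓 ≤ M := by
    intro x hx
    by_contra hxM
    exact Set.disjoint_left.mp h𝔓T hx ⟨0, x, hxM, by simp⟩
  have h𝔓A : ∀ c : ↥A, ι c ∈ 𝔓 → c = 0 := by
    intro c hc
    by_contra hc0
    obtain ⟨n, c'', hc''⟩ := harch c π hc0 hπ
    have : ι π ^ n ∈ 𝔓 := by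
      rw [← map_pow, hc'', map_mul]
      exact 𝔓.mul_mem_right _ hc
    exact hπ𝔓 (h𝔓.mem_of_pow_mem n this)
  -- the quotient
  let B := D ⧸ 𝔓
  let q : D →+* B := Ideal.Quotient.mk 𝔓
  let ιB : ↥A →+* B := q.comp ι
  have hιB : Function.Injective ιB := by
    rw [injective_iff_map_eq_zero]
    intro c hc
    exact h𝔓A c (Ideal.Quotient.eq_zero_iff_mem.mp hc)
  letI : Algebra ↥A B := ιB.toAlgebra
  haveI : FaithfulSMul ↥A B := (faithfulSMul_iff_algebraMap_injective ↥A B).mpr hιB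
  let φ₀ : Polynomial ↥A →+* D := Polynomial.eval₂RingHom ι t
  -- `t` is algebraic modulo `𝔓`
  have htalg : IsAlgebraic ↥A (q t) := by
    letI : Algebra (Polynomial ↥A) D := φ₀.toAlgebra
    have hne : 𝔓.comap (algebraMap (Polynomial ↥A) D) ≠ ⊥ :=
      Ideal.comap_ne_bot_of_integral_mem ha0 ha𝔓' (hint a)
    obtain ⟨g, hg, hg0⟩ := Submodule.exists_mem_ne_zero_of_ne_bot hne
    refine ⟨g, hg0, ?_⟩
    have h1 : φ₀ g ∈ 𝔓 := hg
    have h2 : q (φ₀ g) = 0 := Ideal.Quotient.eq_zero_iff_mem.mpr h1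
    rw [← h2]
    show Polynomial.eval₂ ιB (q t) g = q (Polynomial.eval₂ ι t g)
    rw [Polynomial.hom_eval₂]
  -- every element of `B` is algebraic over `A`
  let S₀ : Subalgebra ↥A B := Algebra.adjoin ↥A {q t}
  have hS₀ : S₀.IsAlgebraic := Algebra.isAlgebraic_adjoin_singleton_iff.mpr htalg
  haveI : Algebra.IsAlgebraic ↥A ↥S₀ := (Subalgebra.isAlgebraic_iff S₀).mp hS₀
  let f₀ : Polynomial ↥A →+* ↥S₀ :=
    (Polynomial.aeval (⟨q t, Algebra.subset_adjoin rfl⟩ : ↥S₀)).toRingHom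
  have hf₀ : (algebraMap ↥S₀ B).comp f₀ = q.comp φ₀ := by
    apply Polynomial.ringHom_ext
    · intro c
      simp [f₀, φ₀, q, ιB, RingHom.algebraMap_toAlgebra]
    · simp [f₀, φ₀]
  have hbint : ∀ b : B, IsIntegral ↥S₀ b := by
    intro b
    obtain ⟨x, rfl⟩ := Ideal.Quotient.mk_surjective b
    have h1 : (q.comp φ₀).IsIntegralElem (q x) := (hint x).map q
    rw [← hf₀] at h1
    exact RingHom.IsIntegralElem.of_comp h1
  haveI : Algebra.IsAlgebraic ↥A B := ⟨fun b => (hbint b).trans_isAlgebraic ↥A⟩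
  let ψ₀ : B →ₐ[↥A] L := IsAlgClosed.lift
  have hψ₀inj : Function.Injective ψ₀ := by
    rw [injective_iff_map_eq_zero]
    intro b hb
    by_contra hb0
    obtain ⟨p, hp0, hp⟩ := (Algebra.IsAlgebraic.isAlgebraic (R := ↥A) b).exists_nonzero_coeff_and_aeval_eq_zero
      (mem_nonZeroDivisors_of_ne_zero hb0)
    have h1 := congrArg ψ₀ hp
    rw [← Polynomial.aeval_algHom_apply, hb, map_zero, ← Polynomial.coeff_zero_eq_aeval_zero'] at h1
    exact hp0 ((FaithfulSMul.algebraMap_injective ↥A L) (by rw [h1, map_zero]))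
  let ψ : D →+* L := ψ₀.toRingHom.comp q
  have hψι : ∀ c : ↥A, ψ (ι c) = (c : L) := fun c => ψ₀.commutes c
  have hψker : ∀ x : D, ψ x = 0 → x ∈ 𝔓 := by
    intro x hx
    have : q x = 0 := hψ₀inj (by rw [map_zero]; exact hx)
    exact Ideal.Quotient.eq_zero_iff_mem.mp this
  have hone : (1 : D) ∉ M := fun h => hMmax.ne_top ((Ideal.eq_top_iff_one M).mpr h)
  -- `ψ t ∈ A`
  have hψt : ψ t ∈ A := by
    by_contra ht
    have hinv : (ψ t)⁻¹ ∈ A := (A.mem_or_inv_mem (ψ t)).resolve_left ht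
    have ht0 : ψ t ≠ 0 := fun h => ht (h ▸ A.zero_mem)
    have hnu : (⟨(ψ t)⁻¹, hinv⟩ : ↥A) ∈ maximalIdeal ↥A := by
      rw [mem_maximalIdeal, mem_nonunits_iff]
      intro hu
      obtain ⟨v, hv⟩ := hu.exists_right_inv
      have hv' : (ψ t)⁻¹ * (v : L) = 1 := congrArg Subtype.val hv
      have : (v : L) = ψ t := by
        field_simp at hv'
        exact hv'
      exact ht (this ▸ v.2)
    have h1 : ψ (t * ι ⟨(ψ t)⁻¹, hinv⟩ - 1) = 0 := by
      rw [map_sub, map_mul, hψι, map_one]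
      show ψ t * (ψ t)⁻¹ - 1 = 0
      rw [mul_inv_cancel₀ ht0, sub_self]
    have h2 : t * ι ⟨(ψ t)⁻¹, hinv⟩ - 1 ∈ M := h𝔓M (hψker _ h1)
    have h3 : t * ι ⟨(ψ t)⁻¹, hinv⟩ ∈ M := M.mul_mem_left _ (hM _ hnu)
    exact hone (by simpa using M.sub_mem h3 h2)
  -- `ψ` has values in `A`
  have hcomp : ψ.comp φ₀ = A.subtype.comp (Polynomial.evalRingHom ⟨ψ t, hψt⟩) := by
    apply Polynomial.ringHom_ext
    · intro c
      simp [φ₀, hψι]
    · simp [φ₀]
  have hψA : ∀ x : D, ψ x ∈ A := by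
    intro x
    have h1 : (ψ.comp φ₀).IsIntegralElem (ψ x) := (hint x).map ψ
    rw [hcomp] at h1
    have h2 : (A.subtype).IsIntegralElem (ψ x) := RingHom.IsIntegralElem.of_comp h1
    have h3 : IsIntegral ↥A (ψ x) := h2
    obtain ⟨y, hy⟩ := IsIntegrallyClosed.isIntegral_iff.mp h3
    rw [← hy]
    exact y.2
  let ψA : D →+* ↥A := ψ.codRestrict A hψA
  have hψA_coe : ∀ x : D, ((ψA x : ↥A) : L) = ψ x := fun x => rfl
  refine ⟨ψA, ⟨fun c => Subtype.ext (hψι c), fun x hx => ?_⟩, ?_⟩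
  · rw [mem_maximalIdeal, mem_nonunits_iff]
    intro hu
    obtain ⟨v, hv⟩ := hu.exists_right_inv
    have h1 : ψ (x * ι v - 1) = 0 := by
      rw [map_sub, map_mul, hψι, map_one, ← hψA_coe, ← Subring.coe_mul]
      have : ((ψA x * v : ↥A) : L) = 1 := by rw [hv]; rfl
      rw [sub_eq_zero]
      exact this
    have h2 : x * ι v - 1 ∈ M := h𝔓M (hψker _ h1)
    have h3 := M.sub_mem (M.mul_mem_right (ι v) hx) h2
    rw [sub_sub_cancel] at h3
    exact hone h3
  · apply Subtype.ext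
    show ψ a = 0
    show ψ₀ (q a) = 0
    rw [Ideal.Quotient.eq_zero_iff_mem.mpr ha𝔓', map_zero]

end Point

section Prim

theorem Prim.ne_zero {x : D} (hx : Prim A ι x) : x ≠ 0 := by
  rintro rfl
  exact hx 0 (zero_mem _) (dvd_zero _)

theorem Prim.mul (hG : ∀ c : ↥A, c ≠ 0 → ∀ a w : D, Prim A ι a → ι c ∣ a * w → ι c ∣ w)
    {x y : D} (hx : Prim A ι x) (hy : Prim A ι y) : Prim A ι (x * y) := by
  intro c hc hdvd
  by_cases hc0 : c = 0
  · subst hc0
    rw [map_zero, zero_dvd_iff] at hdvd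
    rcases mul_eq_zero.mp hdvd with h | h
    · exact hx.ne_zero h
    · exact hy.ne_zero h
  · exact hy c hc (hG c hc0 x y hx hdvd)

theorem Prim.of_mul_left {x y : D} (h : Prim A ι (x * y)) : Prim A ι x :=
  fun c hc hdvd => h c hc (Dvd.dvd.mul_right hdvd y)

theorem Prim.of_mul_right {x y : D} (h : Prim A ι (x * y)) : Prim A ι y :=
  fun c hc hdvd => h c hc (Dvd.dvd.mul_left hdvd x)

theorem Prim.of_notMem {M : Ideal D} (hM : ∀ c ∈ maximalIdeal ↥A, ι c ∈ M) {x : D}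
    (hx : x ∉ M) : Prim A ι x := by
  rintro c hc ⟨w, rfl⟩
  exact hx (M.mul_mem_right _ (hM c hc))

theorem Prim.sub_const {s : D} (hs : Prim A ι s) {a : ↥A} (ha : a ∈ maximalIdeal ↥A) :
    Prim A ι (s - ι a) := by
  rintro c hc ⟨w, hw⟩
  rcases ValuationRing.dvd_total c a with ⟨a', rfl⟩ | ⟨c', rfl⟩
  · refine hs c hc ⟨w + ι a', ?_⟩
    rw [mul_add, ← hw, map_mul]
    ring
  · refine hs a ha ⟨1 + ι c' * w, ?_⟩
    rw [map_mul] at hw
    rw [mul_add, mul_one, ← mul_assoc, ← hw]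
    ring

end Prim

section Factor

variable [IsAlgClosed L]

/-- **Weierstrass-type factorisation** at the closed point `M`. -/
theorem exists_factor (hι : Function.Injective ι)
    (harch : ∀ c c' : ↥A, c ≠ 0 → c' ∈ maximalIdeal ↥A → ∃ n : ℕ, c ∣ c' ^ n)
    (π : ↥A) (hπ0 : π ≠ 0) (hπ : π ∈ maximalIdeal ↥A)
    (t : D) (hint : ∀ x : D, (Polynomial.eval₂RingHom ι t).IsIntegralElem x)
    (M : Ideal D) [hMmax : M.IsMaximal] (hM : ∀ c ∈ maximalIdeal ↥A, ι c ∈ M)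
    (hG : ∀ c : ↥A, c ≠ 0 → ∀ a w : D, Prim A ι a → ι c ∣ a * w → ι c ∣ w)
    (s : D) (hsM : s ∈ M) (hlev : LevelHyp A ι M s)
    (ν : D → ℕ) (hν_mul : ∀ x y, Prim A ι x → Prim A ι y → ν (x * y) = ν x + ν y)
    (hν_s : ν s = 1) (hs_prim : Prim A ι s)
    (hν_M : ∀ y, Prim A ι y → (y ∈ M ↔ 0 < ν y))
    (hν_congr : ∀ (x : D) (c : ↥A) (z : D), c ∈ maximalIdeal ↥A → ν (x + ι c * z) = ν x)
    (y : D) (hy : Prim A ι y) :
    ∃ (u y₀ : D) (l : Multiset ↥A), u ∉ M ∧ y₀ ∉ M ∧ (∀ a ∈ l, a ∈ maximalIdeal ↥A) ∧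
      Multiset.card l = ν y ∧ u * y = y₀ * (l.map fun a => s - ι a).prod := by
  induction' hn : ν y using Nat.strong_induction_on with n ih generalizing y
  by_cases hyM : y ∈ M
  · obtain ⟨ψ, hψ, hψy⟩ := exists_point hι harch π hπ0 hπ t hint M hM hG y hyM hy
    obtain ⟨u, y₁, hu, huy⟩ := exists_div hsM hlev hψ y hψy
    have ha : ψ s ∈ maximalIdeal ↥A := hψ.mem s hsM
    have hu_prim : Prim A ι u := Prim.of_notMem hM hu
    have hprod : Prim A ι ((s - ι (ψ s)) * y₁) := huy ▸ Prim.mul hG hu_prim hy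
    have hy₁ : Prim A ι y₁ := hprod.of_mul_right
    have hsa : Prim A ι (s - ι (ψ s)) := hs_prim.sub_const ha
    have hνu : ν u = 0 := by
      have := (hν_M u hu_prim).not.mp hu
      omega
    have hνsa : ν (s - ι (ψ s)) = 1 := by
      have := hν_congr s (-(ψ s)) 1 (neg_mem ha)
      rw [map_neg, mul_one, ← sub_eq_add_neg] at this
      rw [this, hν_s]
    have hν1 : ν y = 1 + ν y₁ := by
      have h1 := hν_mul u y hu_prim hy
      rw [huy, hν_mul _ _ hsa hy₁, hνsa, hνu, zero_add] at h1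
      exact h1.symm
    obtain ⟨u₁, y₀, l₁, hu₁, hy₀, hl₁, hcard, hfac⟩ := ih (ν y₁) (by omega) y₁ hy₁ rfl
    refine ⟨u₁ * u, y₀, ψ s ::ₘ l₁, fun h => ?_, hy₀, ?_, ?_, ?_⟩
    · rcases hMmax.isPrime.mem_or_mem h with h | h
      · exact hu₁ h
      · exact hu h
    · intro a ha'
      rcases Multiset.mem_cons.mp ha' with rfl | h
      · exact ha
      · exact hl₁ a h
    · rw [Multiset.card_cons, hcard]
      omega
    · rw [Multiset.map_cons, Multiset.prod_cons, mul_assoc, huy, mul_left_comm, hfac]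
      ring
  · refine ⟨1, y, 0, fun h => hMmax.ne_top ((Ideal.eq_top_iff_one M).mpr h), hyM, ?_, ?_, ?_⟩
    · intro a ha
      exact absurd ha (Multiset.notMem_zero a)
    · have := (hν_M y hy).not.mp hyM
      rw [Multiset.card_zero]
      omega
    · simp

/-- **Local conservation of number** at the closed point `M`: the number of zeros of a primitive
`y` in the residue disc of `M`, counted with multiplicity, is `ν y`. -/
theorem sum_ord_eq (hι : Function.Injective ι)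
    (harch : ∀ c c' : ↥A, c ≠ 0 → c' ∈ maximalIdeal ↥A → ∃ n : ℕ, c ∣ c' ^ n)
    (π : ↥A) (hπ0 : π ≠ 0) (hπ : π ∈ maximalIdeal ↥A)
    (t : D) (hint : ∀ x : D, (Polynomial.eval₂RingHom ι t).IsIntegralElem x)
    (M : Ideal D) [hMmax : M.IsMaximal] (hM : ∀ c ∈ maximalIdeal ↥A, ι c ∈ M)
    (hG : ∀ c : ↥A, c ≠ 0 → ∀ a w : D, Prim A ι a → ι c ∣ a * w → ι c ∣ w)
    (s : D) (hsM : s ∈ M) (hlev : LevelHyp A ι M s)
    (ν : D → ℕ) (hν_mul : ∀ x y, Prim A ι x → Prim A ι y → ν (x * y) = ν x + ν y)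
    (hν_s : ν s = 1) (hs_prim : Prim A ι s)
    (hν_M : ∀ y, Prim A ι y → (y ∈ M ↔ 0 < ν y))
    (hν_congr : ∀ (x : D) (c : ↥A) (z : D), c ∈ maximalIdeal ↥A → ν (x + ι c * z) = ν x)
    {Pt : Type*} (ψ : Pt → D →+* ↥A) (hpt : ∀ P, IsPoint A ι M (ψ P))
    (hψinj : Function.Injective ψ)
    (hsurj : ∀ ψ' : D →+* ↥A, IsPoint A ι M ψ' → ∃ P, ψ P = ψ')
    (ord : Pt → D → ℕ)
    (hord_mul : ∀ P x y, x ≠ 0 → y ≠ 0 → ord P (x * y) = ord P x + ord P y)
    (hord_pos : ∀ P x, x ≠ 0 → (0 < ord P x ↔ ψ P x = 0))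
    (hunif : ∀ P, ∃ x y : D, x ≠ 0 ∧ y ≠ 0 ∧ ord P x = ord P y + 1)
    (y : D) (hy : Prim A ι y) :
    ∃ T : Finset Pt, (∀ P, P ∉ T → ord P y = 0) ∧ ∑ P ∈ T, ord P y = ν y := by
  classical
  have hzeroM : (0 : D) ∈ M := M.zero_mem
  have hord_unit : ∀ P (u : D), u ∉ M → ord P u = 0 := by
    intro P u hu
    have hu0 : u ≠ 0 := fun h => hu (h ▸ hzeroM)
    have := (hord_pos P u hu0).not.mpr ((hpt P).ne_zero_of_notMem hu)
    omega
  -- the parameter `s - ι (ψ P s)` is a uniformizer at `P`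
  have hsa_ne : ∀ a : ↥A, a ∈ maximalIdeal ↥A → s - ι a ≠ 0 := fun a ha =>
    (hs_prim.sub_const ha).ne_zero
  have hdvd : ∀ P (n : ℕ) (z : D), z ≠ 0 → ord P z = n →
      ord P (s - ι (ψ P s)) ∣ ord P z := by
    intro P n
    induction' n using Nat.strong_induction_on with n ih
    intro z hz hn
    by_cases hψz : ψ P z = 0
    · obtain ⟨u, z₁, hu, huz⟩ := exists_div hsM hlev (hpt P) z hψz
      have hu0 : u ≠ 0 := fun h => hu (h ▸ hzeroM)
      have ha : ψ P s ∈ maximalIdeal ↥A := (hpt P).mem s hsM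
      have hz₁ : z₁ ≠ 0 := by
        rintro rfl
        rw [mul_zero] at huz
        exact mul_ne_zero hu0 hz huz
      have h1 : ord P (u * z) = ord P z := by rw [hord_mul P u z hu0 hz, hord_unit P u hu, zero_add]
      have h2 : ord P ((s - ι (ψ P s)) * z₁) = ord P (s - ι (ψ P s)) + ord P z₁ :=
        hord_mul P _ _ (hsa_ne _ ha) hz₁
      have hpos : 0 < ord P (s - ι (ψ P s)) := by
        rw [hord_pos P _ (hsa_ne _ ha), map_sub, (hpt P).const, sub_self]
      rw [huz, h2] at h1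
      have h3 := ih (ord P z₁) (by omega) z₁ hz₁ rfl
      rw [← h1]
      exact (Nat.dvd_add_right (dvd_refl _)).mpr h3
    · have := (hord_pos P z hz).not.mpr hψz
      have h0 : ord P z = 0 := by omega
      rw [h0]
      exact dvd_zero _
  have he : ∀ P, ord P (s - ι (ψ P s)) = 1 := by
    intro P
    obtain ⟨x, y', hx, hy', hxy⟩ := hunif P
    have h1 := hdvd P _ x hx rfl
    have h2 := hdvd P _ y' hy' rfl
    rw [hxy] at h1
    exact Nat.dvd_one.mp ((Nat.dvd_add_right h2).mp h1)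
  have hord_sa : ∀ P (a : ↥A), a ∈ maximalIdeal ↥A →
      ord P (s - ι a) = if ψ P s = a then 1 else 0 := by
    intro P a ha
    split_ifs with h
    · rw [← h]
      exact he P
    · have h1 : ψ P (s - ι a) ≠ 0 := by
        rw [map_sub, (hpt P).const]
        exact sub_ne_zero.mpr h
      have := (hord_pos P _ (hsa_ne a ha)).not.mpr h1
      omega
  -- the factorisation
  obtain ⟨u, y₀, l, hu, hy₀, hl, hcard, hfac⟩ :=
    exists_factor hι harch π hπ0 hπ t hint M hM hG s hsM hlev ν hν_mul hν_s hs_prim hν_M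
      hν_congr y hy
  have hu0 : u ≠ 0 := fun h => hu (h ▸ hzeroM)
  have hy₀0 : y₀ ≠ 0 := fun h => hy₀ (h ▸ hzeroM)
  have hprod : ∀ (P : Pt) (l' : Multiset ↥A), (∀ a ∈ l', a ∈ maximalIdeal ↥A) →
      (l'.map fun a => s - ι a).prod ≠ 0 ∧
        ord P (l'.map fun a => s - ι a).prod = l'.count (ψ P s) := by
    intro P l'
    induction l' using Multiset.induction_on with
    | empty =>
      intro _
      refine ⟨by simp, ?_⟩
      simp only [Multiset.map_zero, Multiset.prod_zero, Multiset.count_zero]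
      exact hord_unit P 1 (fun h => hMmax.ne_top ((Ideal.eq_top_iff_one M).mpr h))
    | cons a l' ih =>
      intro hl'
      have ha : a ∈ maximalIdeal ↥A := hl' a (Multiset.mem_cons_self a l')
      obtain ⟨h1, h2⟩ := ih (fun b hb => hl' b (Multiset.mem_cons_of_mem hb))
      refine ⟨?_, ?_⟩
      · rw [Multiset.map_cons, Multiset.prod_cons]
        exact mul_ne_zero (hsa_ne a ha) h1
      · rw [Multiset.map_cons, Multiset.prod_cons, hord_mul P _ _ (hsa_ne a ha) h1, h2,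
          hord_sa P a ha, Multiset.count_cons]
        split_ifs <;> omega
  have hordy : ∀ P, ord P y = l.count (ψ P s) := by
    intro P
    obtain ⟨h1, h2⟩ := hprod P l hl
    have h3 : ord P (u * y) = ord P y := by
      rw [hord_mul P u y hu0 hy.ne_zero, hord_unit P u hu, zero_add]
    rw [← h3, hfac, hord_mul P y₀ _ hy₀0 h1, hord_unit P y₀ hy₀, zero_add, h2]
  -- the points with prescribed value of `s`
  have hex : ∀ a : ↥A, a ∈ l → ∃ P, ψ P s = a := by
    intro a hal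
    have ha := hl a hal
    have hsaM : s - ι a ∈ M := M.sub_mem hsM (hM a ha)
    obtain ⟨ψ', hψ', hψ'0⟩ := exists_point hι harch π hπ0 hπ t hint M hM hG (s - ι a) hsaM
      (hs_prim.sub_const ha)
    obtain ⟨P, hP⟩ := hsurj ψ' hψ'
    refine ⟨P, ?_⟩
    rw [hP]
    rw [map_sub, hψ'.const, sub_eq_zero] at hψ'0
    exact hψ'0
  let g : {a // a ∈ l.toFinset} → Pt := fun a => (hex a.1 (Multiset.mem_toFinset.mp a.2)).choose
  have hg : ∀ a : {a // a ∈ l.toFinset}, ψ (g a) s = a.1 := fun a =>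
    (hex a.1 (Multiset.mem_toFinset.mp a.2)).choose_spec
  have hginj : Function.Injective g := by
    intro a b hab
    apply Subtype.ext
    rw [← hg a, ← hg b, hab]
  refine ⟨l.toFinset.attach.image g, ?_, ?_⟩
  · intro P hP
    rw [hordy P]
    by_contra hne
    have hmem : ψ P s ∈ l := Multiset.count_ne_zero.mp hne
    apply hP
    rw [Finset.mem_image]
    refine ⟨⟨ψ P s, Multiset.mem_toFinset.mpr hmem⟩, Finset.mem_attach _ _, ?_⟩
    apply hψinj
    exact point_ext hsM hlev (hpt _) (hpt P) (hg _)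
  · rw [Finset.sum_image (fun a _ b _ hab => hginj hab)]
    have h1 : ∀ a ∈ l.toFinset.attach, ord (g a) y = l.count a.1 := by
      intro a _
      rw [hordy, hg]
    rw [Finset.sum_congr rfl h1, Finset.sum_attach l.toFinset (fun a => l.count a),
      Multiset.toFinset_sum_count_eq, hcard]

/-- **Zero-sum fibres have the same order at the closed point.**  If the zeros of the primitive
elements `a`, `b` in the residue disc of `M` cancel, then `ν a = ν b`. -/
theorem nu_eq_of_sum_eq (hι : Function.Injective ι)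
    (harch : ∀ c c' : ↥A, c ≠ 0 → c' ∈ maximalIdeal ↥A → ∃ n : ℕ, c ∣ c' ^ n)
    (π : ↥A) (hπ0 : π ≠ 0) (hπ : π ∈ maximalIdeal ↥A)
    (t : D) (hint : ∀ x : D, (Polynomial.eval₂RingHom ι t).IsIntegralElem x)
    (M : Ideal D) [hMmax : M.IsMaximal] (hM : ∀ c ∈ maximalIdeal ↥A, ι c ∈ M)
    (hG : ∀ c : ↥A, c ≠ 0 → ∀ a w : D, Prim A ι a → ι c ∣ a * w → ι c ∣ w)
    (s : D) (hsM : s ∈ M) (hlev : LevelHyp A ι M s)
    (ν : D → ℕ) (hν_mul : ∀ x y, Prim A ι x → Prim A ι y → ν (x * y) = ν x + ν y)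
    (hν_s : ν s = 1) (hs_prim : Prim A ι s)
    (hν_M : ∀ y, Prim A ι y → (y ∈ M ↔ 0 < ν y))
    (hν_congr : ∀ (x : D) (c : ↥A) (z : D), c ∈ maximalIdeal ↥A → ν (x + ι c * z) = ν x)
    {Pt : Type*} (ψ : Pt → D →+* ↥A) (hpt : ∀ P, IsPoint A ι M (ψ P))
    (hψinj : Function.Injective ψ)
    (hsurj : ∀ ψ' : D →+* ↥A, IsPoint A ι M ψ' → ∃ P, ψ P = ψ')
    (ord : Pt → D → ℕ)
    (hord_mul : ∀ P x y, x ≠ 0 → y ≠ 0 → ord P (x * y) = ord P x + ord P y)
    (hord_pos : ∀ P x, x ≠ 0 → (0 < ord P x ↔ ψ P x = 0))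
    (hunif : ∀ P, ∃ x y : D, x ≠ 0 ∧ y ≠ 0 ∧ ord P x = ord P y + 1)
    (a b : D) (ha : Prim A ι a) (hb : Prim A ι b) (T : Finset Pt)
    (hT : ∀ P, P ∉ T → ord P a = ord P b)
    (hsum : ∑ P ∈ T, (ord P a : ℤ) = ∑ P ∈ T, (ord P b : ℤ)) : ν a = ν b := by
  classical
  obtain ⟨Ta, hTa, hsa⟩ := sum_ord_eq hι harch π hπ0 hπ t hint M hM hG s hsM hlev ν hν_mul hν_s
    hs_prim hν_M hν_congr ψ hpt hψinj hsurj ord hord_mul hord_pos hunif a ha
  obtain ⟨Tb, hTb, hsb⟩ := sum_ord_eq hι harch π hπ0 hπ t hint M hM hG s hsM hlev ν hν_mul hν_s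
    hs_prim hν_M hν_congr ψ hpt hψinj hsurj ord hord_mul hord_pos hunif b hb
  let U := T ∪ Ta ∪ Tb
  have hUa : ∑ P ∈ U, ord P a = ν a := by
    rw [← hsa]
    symm
    apply Finset.sum_subset
    · intro P hP
      exact Finset.mem_union_left _ (Finset.mem_union_right _ hP)
    · intro P _ hP
      exact hTa P hP
  have hUb : ∑ P ∈ U, ord P b = ν b := by
    rw [← hsb]
    symm
    apply Finset.sum_subset
    · intro P hP
      exact Finset.mem_union_right _ hP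
    · intro P _ hP
      exact hTb P hP
  have hUT : ∑ P ∈ U, ((ord P a : ℤ) - (ord P b : ℤ)) = ∑ P ∈ T, ((ord P a : ℤ) - (ord P b : ℤ)) := by
    symm
    apply Finset.sum_subset
    · intro P hP
      exact Finset.mem_union_left _ (Finset.mem_union_left _ hP)
    · intro P _ hP
      rw [hT P hP, sub_self]
  rw [Finset.sum_sub_distrib, Finset.sum_sub_distrib, hsum, sub_self] at hUT
  have h1 : (ν a : ℤ) = (ν b : ℤ) := by
    rw [← hUa, ← hUb]
    push_cast
    linarith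
  exact_mod_cast h1

end Factor

end Fermat.Agent.S37.LocalFactor
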