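import Mathlib

set_option autoImplicit false

namespace Fermat.Agent.S37.NormCount

open IsDedekindDomain

variable {A B : Type*} [CommRing A] [IsDedekindDomain A]
  [CommRing B] [IsDedekindDomain B] [Algebra A B] [Module.Finite A B]
  [Module.IsTorsionFree A B] [PerfectField (FractionRing A)]

theorem count_top (P : Ideal B) :
    (Associates.mk P).count (Associates.mk (⊤ : Ideal B)).factors = 0 := by
  by_cases hP : Irreducible (Associates.mk P)
  · rw [← Ideal.one_eq_top, Associates.mk_one, Associates.factors_one, Associates.count_zero hP]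
  · rw [Associates.count_reducible hP]; rfl

/-- the `p`-adic exponent of the relative norm of an ideal is the sum of its exponents at the
primes over `p`, if all residue degrees are one. -/
theorem count_relNorm (hf : ∀ P : Ideal B, P.IsMaximal → P.inertiaDeg A = 1)
    (p : Ideal A) [hpm : p.IsMaximal] (hp0 : p ≠ ⊥) (T : Finset (Ideal B))
    (hT : ∀ P : Ideal B, P ∈ T ↔ P.IsPrime ∧ P ≠ ⊥ ∧ P.under A = p)
    (I : Ideal B) (hI : I ≠ ⊥) :
    (Associates.mk p).count (Associates.mk (Ideal.relNorm A I)).factors
      = ∑ P ∈ T, (Associates.mk P).count (Associates.mk I).factors := by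
  classical
  have hpirr : Irreducible (Associates.mk p) :=
    Associates.irreducible_mk.mpr
      (UniqueFactorizationMonoid.irreducible_iff_prime.mpr (Ideal.prime_of_isPrime hp0 hpm.isPrime))
  induction I using UniqueFactorizationMonoid.induction_on_prime with
  | h₁ => exact absurd rfl hI
  | h₂ I hunit =>
    have : I = ⊤ := Ideal.isUnit_iff.mp hunit
    subst this
    rw [Ideal.relNorm_top]
    rw [count_top]
    exact (Finset.sum_eq_zero fun P _ => count_top P).symm
  | h₃ J Q hJ hQ ih =>
    have hQp : Q.IsPrime := Ideal.isPrime_of_prime hQ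
    have hQ0 : Q ≠ ⊥ := hQ.ne_zero
    have hQm : Q.IsMaximal := hQp.isMaximal hQ0
    have hqm : (Q.under A).IsMaximal := Ideal.IsMaximal.under A Q
    have hq0 : Q.under A ≠ ⊥ := fun h => hQ0 (Ideal.eq_bot_of_comap_eq_bot h)
    have hrel : Ideal.relNorm A Q = Q.under A := by
      rw [Ideal.relNorm_eq_pow_of_isMaximal Q (Q.under A), hf Q hQm, pow_one]
    have hQirr : Irreducible (Associates.mk Q) :=
      Associates.irreducible_mk.mpr (UniqueFactorizationMonoid.irreducible_iff_prime.mpr hQ)
    have hqirr : Irreducible (Associates.mk (Q.under A)) :=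
      Associates.irreducible_mk.mpr (UniqueFactorizationMonoid.irreducible_iff_prime.mpr
        (Ideal.prime_of_isPrime hq0 hqm.isPrime))
    have hJ' : Ideal.relNorm A J ≠ ⊥ := by
      rw [Ne, Ideal.relNorm_eq_bot_iff]; exact hJ
    rw [map_mul, hrel, ← Associates.mk_mul_mk,
      Associates.count_mul (Associates.mk_ne_zero.mpr hq0) (Associates.mk_ne_zero.mpr hJ') hpirr,
      ih hJ]
    have hterm : ∀ P ∈ T, (Associates.mk P).count (Associates.mk (Q * J)).factors
        = (Associates.mk P).count (Associates.mk Q).factors
          + (Associates.mk P).count (Associates.mk J).factors := by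
      intro P hP
      obtain ⟨hPp, hP0, -⟩ := (hT P).mp hP
      have hPirr : Irreducible (Associates.mk P) :=
        Associates.irreducible_mk.mpr (UniqueFactorizationMonoid.irreducible_iff_prime.mpr
          (Ideal.prime_of_isPrime hP0 hPp))
      rw [← Associates.mk_mul_mk,
        Associates.count_mul (Associates.mk_ne_zero.mpr hQ0) (Associates.mk_ne_zero.mpr hJ) hPirr]
    rw [Finset.sum_congr rfl hterm, Finset.sum_add_distrib]
    congr 1
    by_cases hQT : Q ∈ T
    · have hqp : Q.under A = p := ((hT Q).mp hQT).2.2
      rw [hqp, Associates.count_self hpirr, Finset.sum_eq_single_of_mem Q hQT,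
        Associates.count_self hQirr]
      intro P hP hPQ
      obtain ⟨hPp, hP0, -⟩ := (hT P).mp hP
      have hPirr : Irreducible (Associates.mk P) :=
        Associates.irreducible_mk.mpr (UniqueFactorizationMonoid.irreducible_iff_prime.mpr
          (Ideal.prime_of_isPrime hP0 hPp))
      exact Associates.count_eq_zero_of_ne hPirr hQirr
        (fun h => hPQ (associated_iff_eq.mp (Associates.mk_eq_mk_iff_associated.mp h)))
    · have hqp : Q.under A ≠ p := fun h => hQT ((hT Q).mpr ⟨hQp, hQ0, h⟩)
      rw [Associates.count_eq_zero_of_ne hpirr hqirr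
        (fun h => hqp (associated_iff_eq.mp (Associates.mk_eq_mk_iff_associated.mp h)).symm)]
      refine (Finset.sum_eq_zero fun P hP => ?_).symm
      obtain ⟨hPp, hP0, -⟩ := (hT P).mp hP
      have hPirr : Irreducible (Associates.mk P) :=
        Associates.irreducible_mk.mpr (UniqueFactorizationMonoid.irreducible_iff_prime.mpr
          (Ideal.prime_of_isPrime hP0 hPp))
      exact Associates.count_eq_zero_of_ne hPirr hQirr
        (fun h => hQT ((associated_iff_eq.mp (Associates.mk_eq_mk_iff_associated.mp h)) ▸ hP))

end Fermat.Agent.S37.NormCount
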