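import Fermat.Prelude.Def_AlgebraicCurve_Correspondence
import Fermat.Agent.S24.FFBasic
import Fermat.Agent.S37.NormCount

/-!
# S37 (W0): the local norm formula `ord_v (N f) = ∑_{w ∣ v} ord_w f`

`K` algebraically closed of characteristic zero, `F'/F` a finite separable extension of fields
over `K`, `v` a place of `F` of degree one.  With `A := O_v` and `B` the integral closure of `A`
in `F'` (a semilocal Dedekind domain, finite over `A`), the places of `F'` over `v` are the
nonzero primes of `B`, and the formula is `Ideal.relNorm` of a principal ideal.
-/

set_option autoImplicit false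

open AlgebraicCurve IsDedekindDomain WithZero

namespace Fermat.Agent.S37.LocalNorm

open Fermat.Agent.S24

variable {K F F' : Type*} [Field K] [Field F] [Field F']
  [Algebra K F] [Algebra K F'] [Algebra F F'] [IsScalarTower K F F']

/-- `K → O_v → F'` is a tower. -/
theorem isScalarTower_valuationSubring (v : Place K F) :
    IsScalarTower K v.toValuationSubring F' :=
  IsScalarTower.of_algebraMap_eq fun k => by
    rw [IsScalarTower.algebraMap_apply K F F']
    rfl

section Master

variable [IsAlgClosed K] [CharZero K] [FiniteDimensional F F'] [Algebra.IsSeparable F F']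

/-- the master statement: the places over `v` are finite in number and the norm formula holds
for the elements of the integral closure of `O_v`. -/
theorem master (v : Place K F) :
    ∃ S : Finset (Place K F'), (∀ w : Place K F', w ∈ S ↔ w.restrict F = v) ∧
      (v.deg = 1 → ∀ b : integralClosure v.toValuationSubring F', b ≠ 0 →
        ∑ w ∈ S, w.ord (b : F') = v.ord (Algebra.norm F (b : F'))) := by
  classical
  have hST2 : IsScalarTower K v.toValuationSubring F' := isScalarTower_valuationSubring v
  have hDed : IsDedekindDomain (integralClosure v.toValuationSubring F') :=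
    integralClosure.isDedekindDomain v.toValuationSubring F F'
  have hfrac : IsFractionRing (integralClosure v.toValuationSubring F') F' :=
    integralClosure.isFractionRing_of_finite_extension F F'
  have hfin : Module.Finite v.toValuationSubring (integralClosure v.toValuationSubring F') :=
    IsIntegralClosure.finite v.toValuationSubring F F' _
  have hST3 : IsScalarTower K v.toValuationSubring (integralClosure v.toValuationSubring F') :=
    IsScalarTower.of_algebraMap_eq fun k =>
      Subtype.ext (IsScalarTower.algebraMap_apply K v.toValuationSubring F' k)
  have hchar : CharZero v.toValuationSubring :=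
    charZero_of_injective_algebraMap (algebraMap K v.toValuationSubring).injective
  have hperf : PerfectField (FractionRing v.toValuationSubring) := inferInstance
  have hinj : Function.Injective (algebraMap v.toValuationSubring
      (integralClosure v.toValuationSubring F')) := by
    intro a b hab
    have h1 := congrArg (algebraMap (integralClosure v.toValuationSubring F') F') hab
    rw [← IsScalarTower.algebraMap_apply, ← IsScalarTower.algebraMap_apply,
      IsScalarTower.algebraMap_apply v.toValuationSubring F F',
      IsScalarTower.algebraMap_apply v.toValuationSubring F F'] at h1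
    exact Subtype.ext ((algebraMap F F').injective h1)
  have htf : Module.IsTorsionFree v.toValuationSubring
      (integralClosure v.toValuationSubring F') := by
    have : FaithfulSMul v.toValuationSubring (integralClosure v.toValuationSubring F') :=
      (faithfulSMul_iff_algebraMap_injective _ _).mpr hinj
    infer_instance
  -- the prime of `A = O_v`
  set p : Ideal v.toValuationSubring := IsLocalRing.maximalIdeal v.toValuationSubring with hp
  have hp0 : p ≠ ⊥ := v.heightOneSpectrum.ne_bot
  -- the finset of primes of `B` over `p`
  have hmaxP : ∀ P : Ideal (integralClosure v.toValuationSubring F'), P.IsPrime → P ≠ ⊥ →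
      P.under v.toValuationSubring = p := by
    intro P hP hP0
    have : P.IsMaximal := hP.isMaximal hP0
    exact IsLocalRing.eq_maximalIdeal (Ideal.IsMaximal.under v.toValuationSubring P)
  set T : Finset (Ideal (integralClosure v.toValuationSubring F')) :=
    IsDedekindDomain.primesOverFinset p (integralClosure v.toValuationSubring F') with hTdef
  have hT : ∀ P : Ideal (integralClosure v.toValuationSubring F'),
      P ∈ T ↔ P.IsPrime ∧ P ≠ ⊥ ∧ P.under v.toValuationSubring = p := by
    intro P
    rw [hTdef, IsDedekindDomain.mem_primesOverFinset_iff hp0]
    constructor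
    · rintro ⟨h1, h2⟩
      refine ⟨h1, ?_, h2.over.symm⟩
      rintro rfl
      apply hp0
      rw [h2.over]
      exact Ideal.comap_bot_of_injective _ hinj
    · rintro ⟨h1, -, h3⟩
      exact ⟨h1, ⟨h3.symm⟩⟩
  let g : {P // P ∈ T} → HeightOneSpectrum (integralClosure v.toValuationSubring F') := fun P =>
    ⟨P.1, ((hT P.1).mp P.2).1, ((hT P.1).mp P.2).2.1⟩
  have hg : Function.Injective g := by
    intro P Q hPQ
    exact Subtype.ext (congrArg HeightOneSpectrum.asIdeal hPQ)
  have hg' : Function.Injective
      (fun P : {P // P ∈ T} => Place.ofHeightOneSpectrum (K := K) (F := F') (g P)) :=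
    fun P Q hPQ => hg (FFBasic.ofHeightOneSpectrum_injective hPQ)
  -- the places over `v` come from the primes of `B`
  have hover : ∀ Q : HeightOneSpectrum (integralClosure v.toValuationSubring F'),
      (Place.ofHeightOneSpectrum (K := K) (F := F') Q).restrict F = v := by
    intro Q
    refine (FFBasic.place_eq_of_le ?_).symm
    intro x hx
    rw [Place.restrict_toValuationSubring, ValuationSubring.mem_comap,
      Place.ofHeightOneSpectrum_toValuationSubring, Valuation.mem_valuationSubring_iff]
    have hx' : algebraMap F F' x = algebraMap (integralClosure v.toValuationSubring F') F'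
        (algebraMap v.toValuationSubring (integralClosure v.toValuationSubring F') ⟨x, hx⟩) := rfl
    rw [hx']
    exact Q.valuation_le_one _
  have hfrom : ∀ w : Place K F', w.restrict F = v →
      ∃ Q : HeightOneSpectrum (integralClosure v.toValuationSubring F'),
        Place.ofHeightOneSpectrum (K := K) (F := F') Q = w := by
    intro w hw
    refine FFBasic.exists_heightOneSpectrum_eq w fun b => ?_
    refine FFBasic.mem_of_isIntegral w (R := v.toValuationSubring) (fun r => ?_) b.2
    have hr : (r : F) ∈ (w.restrict F).toValuationSubring := hw ▸ r.2
    exact hr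
  refine ⟨T.attach.image
    (fun P => Place.ofHeightOneSpectrum (K := K) (F := F') (g P)), ?_, ?_⟩
  · intro w
    rw [Finset.mem_image]
    constructor
    · rintro ⟨P, -, rfl⟩
      exact hover (g P)
    · intro hw
      obtain ⟨Q, rfl⟩ := hfrom w hw
      exact ⟨⟨Q.asIdeal, (hT _).mpr ⟨Q.isPrime, Q.ne_bot, hmaxP _ Q.isPrime Q.ne_bot⟩⟩,
        Finset.mem_attach _ _, rfl⟩
  · intro hv b hb
    -- the residue field of `v` is `K`
    have hK : Function.Surjective (algebraMap K (v.toValuationSubring ⧸ p)) := by
      intro y
      have h1 : Module.finrank K v.ResidueField = 1 := hv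
      obtain ⟨c, hc⟩ := (finrank_eq_one_iff_of_nonzero' (1 : v.ResidueField) one_ne_zero).mp h1 y
      refine ⟨c, ?_⟩
      rw [← hc, Algebra.smul_def, mul_one]
      rfl
    -- residue degrees are one
    have hf : ∀ P : Ideal (integralClosure v.toValuationSubring F'), P.IsMaximal →
        P.inertiaDeg v.toValuationSubring = 1 := by
      intro P hP
      have : P.LiesOver p :=
        ⟨(IsLocalRing.eq_maximalIdeal (Ideal.IsMaximal.under v.toValuationSubring P)).symm⟩
      rw [Ideal.inertiaDeg_eq_of_isMaximal p P]
      exact FFBasic.finrank_quotient_eq_one p P hK
    rw [Finset.sum_image (fun P _ Q _ h => hg' h)]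
    have hterm : ∀ P : {P // P ∈ T},
        (Place.ofHeightOneSpectrum (K := K) (F := F') (g P)).ord (b : F')
          = (((Associates.mk P.1).count (Associates.mk (Ideal.span {b})).factors : ℕ) : ℤ) := by
      intro P
      have h1 := FFBasic.ord_algebraMap_eq (K := K) (F := F') (g P) b
      have h2 : (b : F') = algebraMap (integralClosure v.toValuationSubring F') F' b := rfl
      rw [h2, h1, HeightOneSpectrum.intValuation_if_neg (g P) hb, log_exp, neg_neg]
    rw [Finset.sum_congr rfl (fun P _ => hterm P)]
    -- the norm
    have hN : algebraMap v.toValuationSubring F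
        (Algebra.intNorm v.toValuationSubring (integralClosure v.toValuationSubring F') b)
          = Algebra.norm F (b : F') :=
      Algebra.algebraMap_intNorm (A := v.toValuationSubring) (K := F) (L := F')
        (B := integralClosure v.toValuationSubring F') b
    have hspan : (Ideal.span {b} : Ideal (integralClosure v.toValuationSubring F')) ≠ ⊥ := by
      rw [Ne, Ideal.span_singleton_eq_bot]; exact hb
    have hrel : Ideal.relNorm v.toValuationSubring (Ideal.span {b})
        = Ideal.span {Algebra.intNorm v.toValuationSubring
            (integralClosure v.toValuationSubring F') b} := Ideal.relNorm_singleton _ b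
    have hn0 : Algebra.intNorm v.toValuationSubring
        (integralClosure v.toValuationSubring F') b ≠ 0 := by
      intro h0
      have : Ideal.relNorm v.toValuationSubring (Ideal.span {b}) = ⊥ := by
        rw [hrel, h0, Ideal.span_singleton_eq_bot]
      exact hspan (Ideal.relNorm_eq_bot_iff.mp this)
    have hcount := NormCount.count_relNorm hf p hp0 T hT (Ideal.span {b}) hspan
    rw [hrel] at hcount
    rw [← hN]
    have hord : v.ord ((Algebra.intNorm v.toValuationSubring
        (integralClosure v.toValuationSubring F') b : v.toValuationSubring) : F)
        = -(WithZero.log (v.adicValuation ((Algebra.intNorm v.toValuationSubring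
        (integralClosure v.toValuationSubring F') b : v.toValuationSubring) : F))) := rfl
    have hcoe : algebraMap v.toValuationSubring F
        (Algebra.intNorm v.toValuationSubring (integralClosure v.toValuationSubring F') b)
        = ((Algebra.intNorm v.toValuationSubring
        (integralClosure v.toValuationSubring F') b : v.toValuationSubring) : F) := rfl
    rw [hcoe, hord, v.adicValuation_coe, HeightOneSpectrum.intValuation_if_neg _ hn0, log_exp,
      neg_neg, Place.heightOneSpectrum_asIdeal, hcount]
    rw [← Finset.sum_attach T]
    push_cast
    rfl

/-- the places of `F'` over a place of `F` are finite in number. -/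
theorem finite_fiber (v : Place K F) : {w : Place K F' | w.restrict F = v}.Finite := by
  obtain ⟨S, hS, -⟩ := master (F' := F') v
  refine S.finite_toSet.subset fun w hw => ?_
  exact Finset.mem_coe.mpr ((hS w).mpr hw)

/-- **the local norm formula**: `∑_{w ∣ v} ord_w f = ord_v (N_{F'/F} f)`. -/
theorem sum_ord_eq_ord_norm (v : Place K F) (hv : v.deg = 1) (S : Finset (Place K F'))
    (hS : ∀ w : Place K F', w ∈ S ↔ w.restrict F = v) (f : F') (hf : f ≠ 0) :
    ∑ w ∈ S, w.ord f = v.ord (Algebra.norm F f) := by
  classical
  obtain ⟨S', hS', hsum⟩ := master (F' := F') v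
  have hSS : S = S' := Finset.ext fun w => by rw [hS, hS']
  subst hSS
  have hfrac : IsFractionRing (integralClosure v.toValuationSubring F') F' :=
    integralClosure.isFractionRing_of_finite_extension F F'
  obtain ⟨a, s, hs, rfl⟩ :=
    IsFractionRing.div_surjective (A := integralClosure v.toValuationSubring F') f
  have hs0 : s ≠ 0 := nonZeroDivisors.ne_zero hs
  have ha0 : a ≠ 0 := by
    rintro rfl
    simp at hf
  have hsF : algebraMap (integralClosure v.toValuationSubring F') F' s ≠ 0 := by
    simpa using hs0
  have haF : algebraMap (integralClosure v.toValuationSubring F') F' a ≠ 0 := by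
    simpa using ha0
  have hNs : Algebra.norm F (algebraMap (integralClosure v.toValuationSubring F') F' s) ≠ 0 :=
    Algebra.norm_ne_zero_iff.mpr hsF
  have hNa : Algebra.norm F (algebraMap (integralClosure v.toValuationSubring F') F' a) ≠ 0 :=
    Algebra.norm_ne_zero_iff.mpr haF
  have h1 := hsum hv a ha0
  have h2 := hsum hv s hs0
  have hNdiv : Algebra.norm F (algebraMap (integralClosure v.toValuationSubring F') F' a
      / algebraMap (integralClosure v.toValuationSubring F') F' s)
      = Algebra.norm F (algebraMap (integralClosure v.toValuationSubring F') F' a)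
        * (Algebra.norm F (algebraMap (integralClosure v.toValuationSubring F') F' s))⁻¹ := by
    rw [eq_mul_inv_iff_mul_eq₀ hNs, ← map_mul, div_mul_cancel₀ _ hsF]
  rw [hNdiv, v.ord_mul hNa (inv_ne_zero hNs), v.ord_inv]
  have h3 : ∀ w ∈ S, w.ord (algebraMap (integralClosure v.toValuationSubring F') F' a
      / algebraMap (integralClosure v.toValuationSubring F') F' s)
      = w.ord ((a : integralClosure v.toValuationSubring F') : F')
        - w.ord ((s : integralClosure v.toValuationSubring F') : F') := by
    intro w _
    rw [div_eq_mul_inv, w.ord_mul haF (inv_ne_zero hsF), w.ord_inv]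
    rfl
  rw [Finset.sum_congr rfl h3, Finset.sum_sub_distrib, h1, h2]
  rfl

end Master

end Fermat.Agent.S37.LocalNorm
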