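import Mathlib
import Fermat.Agent.S37.ZeroSum
import Fermat.Agent.S37.SectionTools

/-!
# S37 (W2 / cover chain, leaf (L)): the zero-sum theorem with `K0`-valued evaluations

The abstract core of the local theorem on a chart.  `A0` is a discrete valuation ring with
fraction field `K0` and uniformizer `π`, `C` a Noetherian domain over `A0` (the integral closure
of a chart `A0[t]` in a function field) in which `π` is prime and such that the maximal ideal of
`C` at every closed point of the special fibre is generated by `π` and one more element.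

The horizontal rational points on the chart are given as a finite family `e i : C → K0` of ring
homomorphisms over `A0` (the values at `K0`-rational places `P i` meeting the special fibre of the
chart), with order functions `ν i : C → ℤ` (the orders at `P i`).  If the horizontal zeros of `a`
and `b` through the special fibre are among these points, and the orders of `a / b` sum to zero
over each class of an equivalence relation finer than "same closed point", then `a ∈ b C + π C`.

The `A0`-sections needed by `ZeroSum.exists_sub_mul_mem` are constructed here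
(`SectionTools.exists_section`).
-/

set_option autoImplicit false

namespace Fermat.Agent.S37.SectionGlue

variable {A0 K0 C : Type*} [CommRing A0] [IsDomain A0] [IsDiscreteValuationRing A0]
  [Field K0] [Algebra A0 K0] [IsFractionRing A0 K0]
  [CommRing C] [IsDomain C] [IsNoetherianRing C] [Algebra A0 C]

/-- a sum over a filter of the subtype of a finset. -/
theorem sum_univ_filter_coe {ι : Type*} (S : Finset ι) (q : ι → Prop) [DecidablePred q]
    (g : ι → ℤ) :
    ∑ i ∈ (Finset.univ : Finset ↥S).filter (fun i => q i.1), g i.1 = ∑ i ∈ S.filter q, g i := by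
  rw [Finset.sum_filter, Finset.sum_filter]
  exact Finset.sum_coe_sort S (fun i => if q i then g i else 0)

open Classical in
/-- **The zero-sum theorem with `K0`-valued evaluations.** -/
theorem exists_sub_mul_mem_of_evals (π : A0) (hπi : Irreducible π)
    (hπ : Prime (algebraMap A0 C π))
    (hmax : ∀ n : Ideal C, n.IsMaximal → algebraMap A0 C π ∈ n →
      ∃ s ∈ n, ∀ x ∈ n, ∃ w, w ∉ n ∧ w * x ∈ Ideal.span {algebraMap A0 C π, s})
    {ι : Type*} (S : Finset ι) (e : ι → C →+* K0)
    (he : ∀ i ∈ S, ∀ a : A0, e i (algebraMap A0 C a) = algebraMap A0 K0 a)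
    (hthru : ∀ i ∈ S, ∃ n : Ideal C, n ≠ ⊤ ∧ RingHom.ker (e i) ≤ n ∧ algebraMap A0 C π ∈ n)
    (hinj : ∀ i ∈ S, ∀ j ∈ S, e i = e j → i = j)
    (ν : ι → C → ℤ)
    (hν_mul : ∀ i ∈ S, ∀ x y : C, x ≠ 0 → y ≠ 0 → ν i (x * y) = ν i x + ν i y)
    (hν_nn : ∀ i ∈ S, ∀ x : C, 0 ≤ ν i x)
    (hν_pos : ∀ i ∈ S, ∀ x : C, x ≠ 0 → (0 < ν i x ↔ e i x = 0))
    (hν_u : ∀ i ∈ S, ∃ x y : C, x ≠ 0 ∧ y ≠ 0 ∧ ν i x = ν i y + 1)
    (a b : C) (ha : ¬ algebraMap A0 C π ∣ a) (hb : ¬ algebraMap A0 C π ∣ b)
    (hhor : ∀ 𝔭 : Ideal C,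
      (𝔭 ∈ (Ideal.span {a}).minimalPrimes ∨ 𝔭 ∈ (Ideal.span {b}).minimalPrimes) →
      algebraMap A0 C π ∉ 𝔭 → ∀ n : Ideal C, n.IsMaximal → algebraMap A0 C π ∈ n → 𝔭 ≤ n →
      ∃ i ∈ S, 𝔭 = RingHom.ker (e i))
    (R : ι → ι → Prop) (hrefl : ∀ i ∈ S, R i i) (hsymm : ∀ i ∈ S, ∀ j ∈ S, R i j → R j i)
    (htrans : ∀ i ∈ S, ∀ j ∈ S, ∀ k ∈ S, R i j → R j k → R i k)
    (hRn : ∀ i ∈ S, ∀ j ∈ S, R i j → ∀ x : C,
      (∃ c : A0, e i x = algebraMap A0 K0 (π * c)) → ∃ c : A0, e j x = algebraMap A0 K0 (π * c))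
    (hzero : ∀ i₀ ∈ S, ∑ i ∈ S.filter (fun i => R i i₀), (ν i a - ν i b) = 0) :
    ∃ c : C, a - b * c ∈ Ideal.span {algebraMap A0 C π} := by
  have hinjA : Function.Injective (algebraMap A0 K0) := IsFractionRing.injective A0 K0
  have hπA : IsLocalRing.maximalIdeal A0 = Ideal.span {π} := hπi.maximalIdeal_eq
  -- the sections
  have hsec : ∀ i : ↥S, ∃ ev : C →ₐ[A0] A0, ∀ x, algebraMap A0 K0 (ev x) = e i x := by
    intro i
    obtain ⟨n, hn, hk, hπn⟩ := hthru i i.2
    exact SectionTools.exists_section π hπi (e i) (he i i.2) n hn hk hπn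
  choose ev hev using hsec
  have hev0 : ∀ (i : ↥S) (x : C), ev i x = 0 ↔ e i x = 0 := by
    intro i x
    rw [← hev i x]
    constructor
    · intro h
      rw [h, map_zero]
    · intro h
      exact hinjA (h.trans (map_zero _).symm)
  have hkerev : ∀ i : ↥S, RingHom.ker (ev i) = RingHom.ker (e i) := by
    intro i
    ext x
    rw [RingHom.mem_ker, RingHom.mem_ker]
    exact hev0 i x
  have hdvd : ∀ (i : ↥S) (x : C), π ∣ ev i x ↔ ∃ c : A0, e i x = algebraMap A0 K0 (π * c) := by
    intro i x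
    constructor
    · rintro ⟨c, hc⟩
      exact ⟨c, by rw [← hev i x, hc]⟩
    · rintro ⟨c, hc⟩
      refine ⟨c, hinjA ?_⟩
      rw [hev i x, hc]
  have hkerex : ∀ i : ↥S, ∃ x : C, x ≠ 0 ∧ ev i x = 0 := by
    intro i
    obtain ⟨x, y, hx, -, hxy⟩ := hν_u i i.2
    refine ⟨x, hx, (hev0 i x).mpr ((hν_pos i i.2 x hx).mp ?_)⟩
    have := hν_nn i i.2 y
    omega
  -- a closed point through a section is determined by the section
  have hn_iff : ∀ (i : ↥S) (n : Ideal C), n.IsMaximal → algebraMap A0 C π ∈ n →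
      RingHom.ker (ev i) ≤ n → ∀ x : C, x ∈ n ↔ π ∣ ev i x := by
    intro i n hn hπn hle x
    constructor
    · intro hx
      by_contra hnd
      have hu : IsUnit (ev i x) := by
        by_contra hu
        have h1 : ev i x ∈ IsLocalRing.maximalIdeal A0 := hu
        rw [hπA, Ideal.mem_span_singleton] at h1
        exact hnd h1
      obtain ⟨u, hu⟩ := hu
      have h0 : x * algebraMap A0 C ((u⁻¹ : A0ˣ) : A0) - 1 ∈ RingHom.ker (ev i) := by
        rw [RingHom.mem_ker, map_sub, map_mul, AlgHom.commutes, map_one, ← hu]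
        simp
      have h2 := n.sub_mem (n.mul_mem_right (algebraMap A0 C ((u⁻¹ : A0ˣ) : A0)) hx) (hle h0)
      rw [sub_sub_cancel] at h2
      exact hn.ne_top ((Ideal.eq_top_iff_one _).mpr h2)
    · rintro ⟨c, hc⟩
      have h0 : x - algebraMap A0 C π * algebraMap A0 C c ∈ RingHom.ker (ev i) := by
        rw [RingHom.mem_ker, map_sub, map_mul, AlgHom.commutes, AlgHom.commutes, hc]
        simp
      have h2 := n.add_mem (hle h0) (n.mul_mem_right (algebraMap A0 C c) hπn)
      rwa [sub_add_cancel] at h2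
  refine ZeroSum.exists_sub_mul_mem π hπA hπ hmax (Finset.univ : Finset ↥S) ev ?_ ?_
    (fun i => ν i.1) ?_ ?_ ?_ a b ha hb ?_ ?_
  · -- injectivity
    intro i _ j _ hij
    apply Subtype.ext
    refine hinj i i.2 j j.2 (RingHom.ext fun x => ?_)
    rw [← hev i x, ← hev j x, hij]
  · exact fun i _ => hkerex i
  · exact fun i _ => hν_mul i i.2
  · -- units
    intro i _ x hx
    have hx0 : x ≠ 0 := by
      rintro rfl
      exact hx (map_zero _)
    have h1 : ¬ 0 < ν i.1 x := fun h => hx ((hev0 i x).mpr ((hν_pos i i.2 x hx0).mp h))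
    have h2 := hν_nn i i.2 x
    omega
  · -- uniformizers
    intro i _ σ hσ hgen
    have hσ0 : σ ≠ 0 := by
      rintro rfl
      obtain ⟨x, hx0, hx⟩ := hkerex i
      obtain ⟨w, y, hw, hwx⟩ := hgen x hx
      rw [zero_mul] at hwx
      rcases mul_eq_zero.mp hwx with h | h
      · exact hw (by rw [h, map_zero])
      · exact hx0 h
    exact SectionTools.nu_eq_one (ev i : C →+* A0) (ν i.1) (hν_mul i i.2) (hν_nn i i.2)
      (fun x hx => (hν_pos i i.2 x hx).trans (hev0 i x).symm) (hν_u i i.2) σ hσ0 hσ hgen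
  · -- horizontal primes
    intro 𝔭 h𝔭 hπ𝔭 n hn hπn hle
    obtain ⟨i, hi, rfl⟩ := hhor 𝔭 h𝔭 hπ𝔭 n hn hπn hle
    exact ⟨⟨i, hi⟩, Finset.mem_univ _, (hkerev ⟨i, hi⟩).symm⟩
  · -- the zero sums
    intro n hn hπn
    refine SectionTools.sum_filter_eq_zero_of_classes (Finset.univ : Finset ↥S)
      (fun i => ν i.1 a - ν i.1 b) (fun i j => R i.1 j.1) (fun i _ => hrefl i i.2)
      (fun i _ j _ => hsymm i i.2 j j.2) (fun i _ j _ k _ => htrans i i.2 j j.2 k k.2)
      (fun i => RingHom.ker (ev i) ≤ n) ?_ ?_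
    · intro i _ j _ hij hi x hx
      have hxj : π ∣ ev j x := by
        rw [(RingHom.mem_ker).mp hx]
        exact dvd_zero π
      have hxi : π ∣ ev i x :=
        (hdvd i x).mpr (hRn j j.2 i i.2 (hsymm i i.2 j j.2 hij) x ((hdvd j x).mp hxj))
      exact (hn_iff i n hn hπn hi x).mpr hxi
    · intro i₀ _
      have h := sum_univ_filter_coe S (fun i => R i i₀.1) (fun i => ν i a - ν i b)
      rw [hzero i₀.1 i₀.2] at h
      exact h

end Fermat.Agent.S37.SectionGlue
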