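import Mathlib
import Fermat.Agent.S37.SectionTools
import Fermat.Agent.S37.SectionGen
import Fermat.Agent.S37.SectionGlue

/-!
# S37 (cover chain, leaf (L)): the zero-sum theorem with `K0`-valued evaluations, weak injectivity

`SectionGlue.exists_sub_mul_mem_of_evals` with its injectivity hypothesis weakened to
"two points of `S` with the same order functions on `C` are equal": two points with the same
evaluation `e i = e j` have the same order functions (`nu_eq_of_evals`), because the kernel of the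
common section is locally generated by one element `σ` (`SectionGen.exists_local_gen_of_section`)
on which both orders are one (`SectionTools.nu_eq_one`).
-/

set_option autoImplicit false

namespace Fermat.Agent.S37.SectionGlue2

variable {A0 K0 C : Type*} [CommRing A0] [IsDomain A0] [IsDiscreteValuationRing A0]
  [Field K0] [Algebra A0 K0] [IsFractionRing A0 K0]
  [CommRing C] [IsDomain C] [IsNoetherianRing C] [Algebra A0 C]

/-- **Two order functions attached to the same rational point through the special fibre agree.** -/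
theorem nu_eq_of_evals (π : A0) (hπi : Irreducible π) (hπ : Prime (algebraMap A0 C π))
    (hmax : ∀ n : Ideal C, n.IsMaximal → algebraMap A0 C π ∈ n →
      ∃ s ∈ n, ∀ x ∈ n, ∃ w, w ∉ n ∧ w * x ∈ Ideal.span {algebraMap A0 C π, s})
    (e : C →+* K0) (he : ∀ a : A0, e (algebraMap A0 C a) = algebraMap A0 K0 a)
    (hthru : ∃ n : Ideal C, n ≠ ⊤ ∧ RingHom.ker e ≤ n ∧ algebraMap A0 C π ∈ n)
    (ν ν' : C → ℤ)
    (hmul : ∀ x y : C, x ≠ 0 → y ≠ 0 → ν (x * y) = ν x + ν y)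
    (hmul' : ∀ x y : C, x ≠ 0 → y ≠ 0 → ν' (x * y) = ν' x + ν' y)
    (hnn : ∀ x : C, 0 ≤ ν x) (hnn' : ∀ x : C, 0 ≤ ν' x)
    (hpos : ∀ x : C, x ≠ 0 → (0 < ν x ↔ e x = 0))
    (hpos' : ∀ x : C, x ≠ 0 → (0 < ν' x ↔ e x = 0))
    (hu : ∃ x y : C, x ≠ 0 ∧ y ≠ 0 ∧ ν x = ν y + 1)
    (hu' : ∃ x y : C, x ≠ 0 ∧ y ≠ 0 ∧ ν' x = ν' y + 1)
    (c : C) (hc : c ≠ 0) : ν c = ν' c := by
  have hinjA : Function.Injective (algebraMap A0 K0) := IsFractionRing.injective A0 K0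
  have hπA : IsLocalRing.maximalIdeal A0 = Ideal.span {π} := hπi.maximalIdeal_eq
  obtain ⟨n0, hn0, hk0, hπn0⟩ := hthru
  obtain ⟨ev, hev⟩ := SectionTools.exists_section π hπi e he n0 hn0 hk0 hπn0
  obtain ⟨n, hn, hn0n⟩ := Ideal.exists_le_maximal n0 hn0
  have hπn : algebraMap A0 C π ∈ n := hn0n hπn0
  have hev0 : ∀ x : C, ev x = 0 ↔ e x = 0 := by
    intro x
    rw [← hev x]
    constructor
    · intro h
      rw [h, map_zero]
    · intro h
      exact hinjA (h.trans (map_zero _).symm)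
  have hkn : RingHom.ker ev ≤ n := by
    intro x hx
    exact hn0n (hk0 ((RingHom.mem_ker).mpr ((hev0 x).mp ((RingHom.mem_ker).mp hx))))
  obtain ⟨s, hs, hm⟩ := hmax n hn hπn
  have hgen := SectionGen.exists_local_gen_of_section π hπA hπ ev n hn hπn hkn s hs hm
  set σ : C := s - algebraMap A0 C (ev s) with hσdef
  have hσ : ev σ = 0 := by
    simp [hσdef]
  have hgen' : ∀ x : C, (ev : C →+* A0) x = 0 →
      ∃ w y : C, (ev : C →+* A0) w ≠ 0 ∧ w * x = σ * y := hgen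
  have hσ0 : σ ≠ 0 := by
    intro h0
    obtain ⟨x, y, hx, -, hxy⟩ := hu
    have hxpos : 0 < ν x := by
      have := hnn y
      omega
    obtain ⟨w, y', hw, hwx⟩ := hgen x ((hev0 x).mpr ((hpos x hx).mp hxpos))
    rw [h0, zero_mul] at hwx
    rcases mul_eq_zero.mp hwx with h | h
    · exact hw (by rw [h, map_zero])
    · exact hx h
  have h1 : ν σ = 1 := SectionTools.nu_eq_one (ev : C →+* A0) ν hmul hnn
    (fun x hx => (hpos x hx).trans (hev0 x).symm) hu σ hσ0 hσ hgen'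
  have h1' : ν' σ = 1 := SectionTools.nu_eq_one (ev : C →+* A0) ν' hmul' hnn'
    (fun x hx => (hpos' x hx).trans (hev0 x).symm) hu' σ hσ0 hσ hgen'
  have hunit : ∀ (μ : C → ℤ), (∀ x : C, 0 ≤ μ x) → (∀ x : C, x ≠ 0 → (0 < μ x ↔ e x = 0)) →
      ∀ x : C, (ev : C →+* A0) x ≠ 0 → μ x = 0 := by
    intro μ hμnn hμpos x hx
    have hx0 : x ≠ 0 := by
      rintro rfl
      exact hx (map_zero _)
    have h2 : ¬ 0 < μ x := fun h => hx ((hev0 x).mpr ((hμpos x hx0).mp h))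
    have h3 := hμnn x
    omega
  exact SectionGen.nu_eq_of_section (ev : C →+* A0) σ hσ hgen' ν ν' hmul hmul'
    (hunit ν hnn hpos) (hunit ν' hnn' hpos') (h1.trans h1'.symm) c hc

open Classical in
/-- **The zero-sum theorem with `K0`-valued evaluations**, with the injectivity hypothesis in
terms of the order functions. -/
theorem exists_sub_mul_mem_of_evals' (π : A0) (hπi : Irreducible π)
    (hπ : Prime (algebraMap A0 C π))
    (hmax : ∀ n : Ideal C, n.IsMaximal → algebraMap A0 C π ∈ n →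
      ∃ s ∈ n, ∀ x ∈ n, ∃ w, w ∉ n ∧ w * x ∈ Ideal.span {algebraMap A0 C π, s})
    {ι : Type*} (S : Finset ι) (e : ι → C →+* K0)
    (he : ∀ i ∈ S, ∀ a : A0, e i (algebraMap A0 C a) = algebraMap A0 K0 a)
    (hthru : ∀ i ∈ S, ∃ n : Ideal C, n ≠ ⊤ ∧ RingHom.ker (e i) ≤ n ∧ algebraMap A0 C π ∈ n)
    (ν : ι → C → ℤ)
    (hinj : ∀ i ∈ S, ∀ j ∈ S, (∀ c : C, c ≠ 0 → ν i c = ν j c) → i = j)
    (hν_mul : ∀ i ∈ S, ∀ x y : C, x ≠ 0 → y ≠ 0 → ν i (x * y) = ν i x + ν i y)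
    (hν_nn : ∀ i ∈ S, ∀ x : C, 0 ≤ ν i x)
    (hν_pos : ∀ i ∈ S, ∀ x : C, x ≠ 0 → (0 < ν i x ↔ e i x = 0))
    (hν_u : ∀ i ∈ S, ∃ x y : C, x ≠ 0 ∧ y ≠ 0 ∧ ν i x = ν i y + 1)
    (a b : C) (ha : ¬ algebraMap A0 C π ∣ a) (hb : ¬ algebraMap A0 C π ∣ b)
    (hhor : ∀ 𝔭 : Ideal C,
      (𝔭 ∈ (Ideal.span {a}).minimalPrimes ∨ 𝔭 ∈ (Ideal.span {b}).minimalPrimes) →
      algebraMap A0 C π ∉ 𝔭 → ∀ n : Ideal C, n.IsMaximal → algebraMap A0 C π ∈ n → 𝔭 ≤ n →
      ∃ i ∈ S, 𝔭 = RingHom.ker (e i))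
    (R : ι → ι → Prop) (hrefl : ∀ i ∈ S, R i i) (hsymm : ∀ i ∈ S, ∀ j ∈ S, R i j → R j i)
    (htrans : ∀ i ∈ S, ∀ j ∈ S, ∀ k ∈ S, R i j → R j k → R i k)
    (hRn : ∀ i ∈ S, ∀ j ∈ S, R i j → ∀ x : C,
      (∃ c : A0, e i x = algebraMap A0 K0 (π * c)) → ∃ c : A0, e j x = algebraMap A0 K0 (π * c))
    (hzero : ∀ i₀ ∈ S, ∑ i ∈ S.filter (fun i => R i i₀), (ν i a - ν i b) = 0) :
    ∃ c : C, a - b * c ∈ Ideal.span {algebraMap A0 C π} := by
  refine SectionGlue.exists_sub_mul_mem_of_evals π hπi hπ hmax S e he hthru ?_ ν hν_mul hν_nn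
    hν_pos hν_u a b ha hb hhor R hrefl hsymm htrans hRn hzero
  intro i hi j hj hij
  refine hinj i hi j hj (fun c hc => ?_)
  exact nu_eq_of_evals π hπi hπ hmax (e i) (he i hi) (hthru i hi) (ν i) (ν j) (hν_mul i hi)
    (hν_mul j hj) (hν_nn i hi) (hν_nn j hj) (hν_pos i hi)
    (fun x hx => by rw [hij]; exact hν_pos j hj x hx) (hν_u i hi) (hν_u j hj) c hc

end Fermat.Agent.S37.SectionGlue2
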