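import Mathlib
import Fermat.Prelude.Def_AlgebraicCurve_DivisorClassGroup
import Fermat.Agent.S24.FFDeg
import Fermat.Agent.S37.NuOrd
import Fermat.Agent.S37.RatUnram

/-!
# S37 (cover chain, leaf (L)): equal orders on a generating subring give the same trace

`φ : F0 → Ω` as in `RatUnram` (`F0` the function field at a finite level `K0`, `Ω` the function
field over `L`), `γ : C → F0` a family of elements of `F0` whose quotients exhaust `F0` (the
integral closure of a chart).  If `P` is `K0`-rational along `φ` and the orders at `P` and `P'` of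
the elements `φ (γ c)` agree, then `P` and `P'` have the same trace on `φ(F0)`
(`sameTrace_of_ord_eq`), hence are equal if `φ(F0)` generates `Ω` (`eq_of_ord_eq`).

This is the injectivity `hinj` of the zero-sum theorem: two rational places with the same
`A0`-section have the same orders on `C` (`SectionGen.nu_eq_of_section`).
-/

set_option autoImplicit false

open AlgebraicCurve

namespace Fermat.Agent.S37.TraceEq

open Fermat.Agent.S37.NuOrd Fermat.Agent.S37.RatUnram

variable {K0 L F0 Ω : Type*} [Field K0] [Field L] [Algebra K0 L] [Field F0] [Algebra K0 F0]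
  [Field Ω] [Algebra L Ω] {φ : F0 →+* Ω}

/-- equal orders on numerators and denominators give equal orders on `φ(F0)`. -/
theorem ord_eq_of_frac {C : Type*} (γ : C → F0)
    (hfrac : ∀ f : F0, ∃ x y : C, γ y ≠ 0 ∧ f * γ y = γ x) {P P' : Place L Ω}
    (hord : ∀ c : C, γ c ≠ 0 → P.ord (φ (γ c)) = P'.ord (φ (γ c))) (f : F0) (hf : f ≠ 0) :
    P.ord (φ f) = P'.ord (φ f) := by
  obtain ⟨x, y, hy, hxy⟩ := hfrac f
  have hx : γ x ≠ 0 := by
    rw [← hxy]
    exact mul_ne_zero hf hy
  have hφf : φ f ≠ 0 := (map_ne_zero φ).mpr hf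
  have hφy : φ (γ y) ≠ 0 := (map_ne_zero φ).mpr hy
  have e1 : P.ord (φ (γ x)) = P.ord (φ f) + P.ord (φ (γ y)) := by
    rw [← hxy, map_mul, P.ord_mul hφf hφy]
  have e2 : P'.ord (φ (γ x)) = P'.ord (φ f) + P'.ord (φ (γ y)) := by
    rw [← hxy, map_mul, P'.ord_mul hφf hφy]
  have e3 := hord x hx
  have e4 := hord y hy
  omega

/-- **Equal orders give the same trace.** -/
theorem sameTrace_of_ord_eq
    (hφ : ∀ c : K0, φ (algebraMap K0 F0 c) = algebraMap L Ω (algebraMap K0 L c))
    {P P' : Place L Ω} (hrat : SameTrace (K0 := K0) φ P P)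
    (hord : ∀ f : F0, f ≠ 0 → P.ord (φ f) = P'.ord (φ f)) :
    SameTrace (K0 := K0) φ P P' := by
  refine ⟨fun f => ?_, fun f hf => ?_⟩
  · rcases eq_or_ne f 0 with rfl | hf0
    · simp
    · have hφf : φ f ≠ 0 := (map_ne_zero φ).mpr hf0
      rw [← Fermat.Agent.S24.FFDeg.ord_nonneg_iff P hφf,
        ← Fermat.Agent.S24.FFDeg.ord_nonneg_iff P' hφf, hord f hf0]
  · obtain ⟨a, ha, -⟩ := hrat.2 f hf
    refine ⟨a, ha, ?_⟩
    have e : φ f - algebraMap L Ω (algebraMap K0 L a) = φ (f - algebraMap K0 F0 a) := by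
      rw [map_sub, hφ]
    rw [e] at ha ⊢
    rcases eq_or_ne (f - algebraMap K0 F0 a) 0 with h0 | h0
    · rw [h0, map_zero]
      exact zero_mem _
    · have hφg : φ (f - algebraMap K0 F0 a) ≠ 0 := (map_ne_zero φ).mpr h0
      rw [mem_nonunits_iff_ord_pos P hφg] at ha
      rw [mem_nonunits_iff_ord_pos P' hφg, ← hord _ h0]
      exact ha

/-- **Two places with the same orders on a generating subring are equal** (the first one being
`K0`-rational). -/
theorem eq_of_ord_eq
    (hφ : ∀ c : K0, φ (algebraMap K0 F0 c) = algebraMap L Ω (algebraMap K0 L c))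
    {C : Type*} (γ : C → F0) (hfrac : ∀ f : F0, ∃ x y : C, γ y ≠ 0 ∧ f * γ y = γ x)
    {P P' : Place L Ω} (hrat : SameTrace (K0 := K0) φ P P)
    (hord : ∀ c : C, γ c ≠ 0 → P.ord (φ (γ c)) = P'.ord (φ (γ c))) (hgen : Gen L φ) : P = P' :=
  eq_of_sameTrace hφ (sameTrace_of_ord_eq hφ hrat (ord_eq_of_frac γ hfrac hord)) hgen

end Fermat.Agent.S37.TraceEq
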