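import Mathlib
import Fermat.Prelude.Def_AlgebraicCurve_DivisorClassGroup
import Fermat.Agent.S24.FFDeg
import Fermat.Agent.S37.EvalInt
import Fermat.Agent.S37.NuOrd
import Fermat.Agent.S37.RatUnram
import Fermat.Agent.S37.PrimePlace
import Fermat.Agent.S37.TraceEq
import Fermat.Agent.S37.SectionTools
import Fermat.Agent.S37.SectionGlue
import Fermat.Agent.S37.SectionGlue2

/-!
# S37 (cover chain, leaf (L)): the local theorem, generic place-level form

`A0` a discrete valuation ring with fraction field `K0 ⊆ L`; `F0 / K0` the function field at a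
finite level, `Ω / L` the function field over `L`, `φ : F0 → Ω`; `C` a Noetherian domain over
`A0` with an injective `γ : C → F0` whose quotients exhaust `F0` (the integral closure of a chart
`A0[t]` in `F0`), in which `π` is prime and whose closed points on the special fibre have maximal
ideals `(π, s)`.

`In w` says that the place `w` of `Ω` lies on the chart, `Rel` is the relation "same closed
point" on such places.  If `a, b ∈ C` are not divisible by `π`, all their zeros are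
`K0`-rational, and the orders of `a / b` sum to zero over each class, then `a ∈ b C + π C`.
-/

set_option autoImplicit false
set_option linter.unusedSectionVars false

open AlgebraicCurve
open scoped IntermediateField

namespace Fermat.Agent.S37.LocalPlace

open Fermat.Agent.S37.NuOrd Fermat.Agent.S37.RatUnram

section Eval

variable {K0 L F0 Ω C : Type*} [Field K0] [Field L] [Algebra K0 L] [Field F0] [Algebra K0 F0]
  [Field Ω] [Algebra L Ω] [CommRing C]

theorem add_mem_nonunits (W : ValuationSubring Ω) {a b : Ω} (ha : a ∈ W.nonunits)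
    (hb : b ∈ W.nonunits) : a + b ∈ W.nonunits := by
  rw [ValuationSubring.mem_nonunits_iff] at ha hb ⊢
  exact Valuation.map_add_lt _ ha hb

theorem zero_mem_nonunits (W : ValuationSubring Ω) : (0 : Ω) ∈ W.nonunits := by
  rw [ValuationSubring.mem_nonunits_iff, map_zero]
  exact zero_lt_one

/-- uniqueness of the `K0`-value at a place. -/
theorem value_unique (w : Place L Ω) {f : Ω} {a a' : K0}
    (h : f - algebraMap L Ω (algebraMap K0 L a) ∈ w.toValuationSubring.nonunits)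
    (h' : f - algebraMap L Ω (algebraMap K0 L a') ∈ w.toValuationSubring.nonunits) : a = a' :=
  (algebraMap K0 L).injective (Fermat.Agent.S37.EvalInt.sub_mem_nonunits_unique w h h')

/-- **The `K0`-valued evaluation at a rational place** on a ring of functions regular at it. -/
theorem exists_evalK (φ : F0 →+* Ω) (γ : C →+* F0) (w : Place L Ω)
    (hreg : ∀ c : C, φ (γ c) ∈ w.toValuationSubring)
    (hrat : SameTrace (K0 := K0) φ w w) :
    ∃ e : C →+* K0, ∀ c : C,
      φ (γ c) - algebraMap L Ω (algebraMap K0 L (e c)) ∈ w.toValuationSubring.nonunits := by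
  have hex : ∀ c : C, ∃ a : K0,
      φ (γ c) - algebraMap L Ω (algebraMap K0 L a) ∈ w.toValuationSubring.nonunits := by
    intro c
    obtain ⟨a, ha, -⟩ := hrat.2 (γ c) (hreg c)
    exact ⟨a, ha⟩
  choose val hval using hex
  have hconst : ∀ a : K0, algebraMap L Ω (algebraMap K0 L a) ∈ w.toValuationSubring :=
    fun a => w.algebraMap_mem' _
  refine ⟨{ toFun := val
            map_one' := ?_
            map_mul' := ?_
            map_zero' := ?_
            map_add' := ?_ }, hval⟩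
  · refine value_unique w (hval 1) ?_
    rw [map_one, map_one, map_one, map_one, sub_self]
    exact zero_mem_nonunits _
  · intro x y
    refine value_unique w (hval (x * y)) ?_
    have e : φ (γ (x * y)) - algebraMap L Ω (algebraMap K0 L (val x * val y)) =
        φ (γ y) * (φ (γ x) - algebraMap L Ω (algebraMap K0 L (val x))) +
          algebraMap L Ω (algebraMap K0 L (val x)) *
            (φ (γ y) - algebraMap L Ω (algebraMap K0 L (val y))) := by
      rw [map_mul, map_mul, map_mul, map_mul]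
      ring
    rw [e]
    exact add_mem_nonunits _ (mul_mem_nonunits _ (hreg y) (hval x))
      (mul_mem_nonunits _ (hconst _) (hval y))
  · refine value_unique w (hval 0) ?_
    rw [map_zero, map_zero, map_zero, map_zero, sub_self]
    exact zero_mem_nonunits _
  · intro x y
    refine value_unique w (hval (x + y)) ?_
    have e : φ (γ (x + y)) - algebraMap L Ω (algebraMap K0 L (val x + val y)) =
        (φ (γ x) - algebraMap L Ω (algebraMap K0 L (val x))) +
          (φ (γ y) - algebraMap L Ω (algebraMap K0 L (val y))) := by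
      rw [map_add, map_add, map_add, map_add]
      ring
    rw [e]
    exact add_mem_nonunits _ (hval x) (hval y)

/-- the kernel of the evaluation. -/
theorem evalK_eq_zero_iff (φ : F0 →+* Ω) (γ : C →+* F0) (w : Place L Ω) (e : C →+* K0)
    (he : ∀ c : C,
      φ (γ c) - algebraMap L Ω (algebraMap K0 L (e c)) ∈ w.toValuationSubring.nonunits) (c : C) :
    e c = 0 ↔ φ (γ c) ∈ w.toValuationSubring.nonunits := by
  constructor
  · intro h
    have := he c
    rwa [h, map_zero, map_zero, sub_zero] at this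
  · intro h
    refine value_unique w (he c) ?_
    rwa [map_zero, map_zero, sub_zero]

end Eval

section Prime

variable {A0 K0 L F0 Ω C : Type*} [CommRing A0] [IsDomain A0] [Field K0] [Algebra A0 K0]
  [IsFractionRing A0 K0] [Field L] [CharZero L] [Algebra K0 L] [Algebra.IsAlgebraic K0 L]
  [Field F0] [Algebra K0 F0] [Field Ω] [Algebra L Ω] [CommRing C] [Algebra A0 C]

/-- **From a horizontal prime to a place**, for a ring `C` mapping injectively to `F0`
(`PrimePlace.exists_place_of_prime_of_base` transported along `γ`). -/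
theorem exists_place_of_prime_map (φ : F0 →+* Ω)
    (hφ : ∀ c : K0, φ (algebraMap K0 F0 c) = algebraMap L Ω (algebraMap K0 L c))
    (x : Ω) (hx : Transcendental L x) [FiniteDimensional L⟮x⟯ Ω]
    (γ : C →+* F0) (hγ : Function.Injective γ)
    (hγA : ∀ a : A0, γ (algebraMap A0 C a) = algebraMap K0 F0 (algebraMap A0 K0 a))
    (𝔭 : Ideal C) [𝔭.IsPrime] (h𝔭 : 𝔭 ≠ ⊥)
    (h𝔭A : ∀ b : A0, b ≠ 0 → algebraMap A0 C b ∉ 𝔭) :
    ∃ P : Place L Ω, (∀ c : C, φ (γ c) ∈ P.toValuationSubring) ∧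
      (∀ c : C, (c ∈ 𝔭 ↔ φ (γ c) ∈ P.toValuationSubring.nonunits)) ∧
      ∀ c : C, c ∈ 𝔭 → c ≠ 0 → 0 < P.ord (φ (γ c)) := by
  let e : C ≃+* γ.range := RingEquiv.ofBijective γ.rangeRestrict
    ⟨fun a b h => hγ (congrArg Subtype.val h), γ.rangeRestrict_surjective⟩
  have he : ∀ c : C, ((e c : γ.range) : F0) = γ c := fun c => rfl
  let 𝔭' : Ideal γ.range := Ideal.comap (e.symm : γ.range →+* C) 𝔭
  have h𝔭'p : 𝔭'.IsPrime := Ideal.comap_isPrime _ _
  have hmem : ∀ c : C, e c ∈ 𝔭' ↔ c ∈ 𝔭 := by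
    intro c
    change e.symm (e c) ∈ 𝔭 ↔ c ∈ 𝔭
    rw [RingEquiv.symm_apply_apply]
  have h𝔭' : 𝔭' ≠ ⊥ := by
    intro h0
    apply h𝔭
    rw [eq_bot_iff]
    intro c hc
    have h1 : e c ∈ 𝔭' := (hmem c).mpr hc
    rw [h0, Ideal.mem_bot] at h1
    rw [Ideal.mem_bot]
    exact e.injective (h1.trans (map_zero e).symm)
  have hA0 : ∀ b : A0, algebraMap K0 F0 (algebraMap A0 K0 b) ∈ γ.range :=
    fun b => ⟨algebraMap A0 C b, hγA b⟩
  have h𝔭A' : ∀ b : A0, b ≠ 0 →
      (⟨algebraMap K0 F0 (algebraMap A0 K0 b), hA0 b⟩ : γ.range) ∉ 𝔭' := by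
    intro b hb hmem'
    apply h𝔭A b hb
    have e1 : (⟨algebraMap K0 F0 (algebraMap A0 K0 b), hA0 b⟩ : γ.range) =
        e (algebraMap A0 C b) := Subtype.ext (hγA b).symm
    rw [e1] at hmem'
    exact (hmem _).mp hmem'
  obtain ⟨P, hP1, hP2, hP3, -⟩ :=
    Fermat.Agent.S37.PrimePlace.exists_place_of_prime_of_base (A0 := A0) φ hφ x hx γ.range hA0
      𝔭' h𝔭' h𝔭A'
  refine ⟨P, fun c => hP1 (e c), fun c => ?_, fun c hc hc0 => ?_⟩
  · rw [← hmem c]
    exact hP2 (e c)
  · exact hP3 (e c) ((hmem c).mpr hc) (fun h0 => hc0 (e.injective (h0.trans (map_zero e).symm)))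

end Prime

section Main

variable {A0 K0 L F0 Ω C : Type*} [CommRing A0] [IsDomain A0] [IsDiscreteValuationRing A0]
  [Field K0] [Algebra A0 K0] [IsFractionRing A0 K0]
  [Field L] [CharZero L] [Algebra K0 L] [Algebra.IsAlgebraic K0 L]
  [Field F0] [Algebra K0 F0] [Field Ω] [Algebra L Ω]
  [CommRing C] [IsDomain C] [IsNoetherianRing C] [Algebra A0 C]

open Classical in
/-- **The local theorem, place-level form.** -/
theorem exists_sub_mul_mem_of_places (φ : F0 →+* Ω)
    (hφ : ∀ c : K0, φ (algebraMap K0 F0 c) = algebraMap L Ω (algebraMap K0 L c))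
    (x : Ω) (hx : Transcendental L x) [FiniteDimensional L⟮x⟯ Ω] (hgen : Gen L φ)
    (γ : C →+* F0) (hγ : Function.Injective γ)
    (hγA : ∀ a : A0, γ (algebraMap A0 C a) = algebraMap K0 F0 (algebraMap A0 K0 a))
    (hfrac : ∀ f : F0, ∃ x y : C, y ≠ 0 ∧ f * γ y = γ x)
    (π : A0) (hπi : Irreducible π) (hπ : Prime (algebraMap A0 C π))
    (hmax : ∀ n : Ideal C, n.IsMaximal → algebraMap A0 C π ∈ n →
      ∃ s ∈ n, ∀ x ∈ n, ∃ w, w ∉ n ∧ w * x ∈ Ideal.span {algebraMap A0 C π, s})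
    (In : Place L Ω → Prop) (Rel : Place L Ω → Place L Ω → Prop)
    (hreg : ∀ w, In w → ∀ c : C, φ (γ c) ∈ w.toValuationSubring)
    (hInt : ∀ w, In w → ∀ (c : C) (a : K0),
      φ (γ c) - algebraMap L Ω (algebraMap K0 L a) ∈ w.toValuationSubring.nonunits →
      ∃ a0 : A0, algebraMap A0 K0 a0 = a)
    (hIn : ∀ w : Place L Ω, (∀ c : C, ∃ a0 : A0,
      φ (γ c) - algebraMap L Ω (algebraMap K0 L (algebraMap A0 K0 a0)) ∈
        w.toValuationSubring.nonunits) → In w)
    (hrefl : ∀ w, In w → Rel w w)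
    (hsymm : ∀ w w', In w → In w' → Rel w w' → Rel w' w)
    (htrans : ∀ w w' w'', In w → In w' → In w'' → Rel w w' → Rel w' w'' → Rel w w'')
    (hRel : ∀ w w', In w → In w' → Rel w w' → ∀ (c : C) (a0 a0' : A0),
      φ (γ c) - algebraMap L Ω (algebraMap K0 L (algebraMap A0 K0 a0)) ∈
        w.toValuationSubring.nonunits →
      φ (γ c) - algebraMap L Ω (algebraMap K0 L (algebraMap A0 K0 a0')) ∈
        w'.toValuationSubring.nonunits → π ∣ a0 → π ∣ a0')
    (a b : C) (ha : ¬ algebraMap A0 C π ∣ a) (hb : ¬ algebraMap A0 C π ∣ b)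
    (T : Finset (Place L Ω))
    (hT : ∀ w : Place L Ω, 0 < w.ord (φ (γ a)) ∨ 0 < w.ord (φ (γ b)) → w ∈ T)
    (hrat : ∀ w ∈ T, SameTrace (K0 := K0) φ w w)
    (hzero : ∀ w₀ ∈ T, In w₀ →
      ∑ w ∈ T.filter (fun w => In w ∧ Rel w w₀), (w.ord (φ (γ a)) - w.ord (φ (γ b))) = 0) :
    ∃ c : C, a - b * c ∈ Ideal.span {algebraMap A0 C π} := by
  have hinjA : Function.Injective (algebraMap A0 K0) := IsFractionRing.injective A0 K0
  set S : Finset (Place L Ω) := T.filter In with hS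
  have hSmem : ∀ w, w ∈ S ↔ w ∈ T ∧ In w := fun w => Finset.mem_filter
  have hST : ∀ i : ↥S, i.1 ∈ T := fun i => ((hSmem i.1).mp i.2).1
  have hSIn : ∀ i : ↥S, In i.1 := fun i => ((hSmem i.1).mp i.2).2
  -- the evaluations
  have hex : ∀ i : ↥S, ∃ e : C →+* K0, ∀ c : C,
      φ (γ c) - algebraMap L Ω (algebraMap K0 L (e c)) ∈ i.1.toValuationSubring.nonunits :=
    fun i => exists_evalK φ γ i.1 (hreg i.1 (hSIn i)) (hrat i.1 (hST i))
  choose e hespec using hex
  have hconstval : ∀ (w : Place L Ω) (a0 : A0),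
      φ (γ (algebraMap A0 C a0)) - algebraMap L Ω (algebraMap K0 L (algebraMap A0 K0 a0)) ∈
        w.toValuationSubring.nonunits := by
    intro w a0
    rw [hγA, hφ, sub_self]
    exact zero_mem_nonunits _
  have he : ∀ (i : ↥S) (a0 : A0), e i (algebraMap A0 C a0) = algebraMap A0 K0 a0 :=
    fun i a0 => value_unique i.1 (hespec i _) (hconstval i.1 a0)
  have hvalA : ∀ (i : ↥S) (c : C), ∃ a0 : A0, algebraMap A0 K0 a0 = e i c :=
    fun i c => hInt i.1 (hSIn i) c (e i c) (hespec i c)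
  have hφγ : ∀ c : C, c ≠ 0 → φ (γ c) ≠ 0 := fun c hc =>
    (map_ne_zero φ).mpr (fun h => hc (hγ (h.trans (map_zero γ).symm)))
  have hfrac' : ∀ f : F0, ∃ x y : C, γ y ≠ 0 ∧ f * γ y = γ x := by
    intro f
    obtain ⟨x, y, hy, hxy⟩ := hfrac f
    exact ⟨x, y, fun h => hy (hγ (h.trans (map_zero γ).symm)), hxy⟩
  have ha0 : a ≠ 0 := by
    rintro rfl
    exact ha (dvd_zero _)
  have hb0 : b ≠ 0 := by
    rintro rfl
    exact hb (dvd_zero _)
  refine SectionGlue2.exists_sub_mul_mem_of_evals' π hπi hπ hmax (Finset.univ : Finset ↥S) e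
    (fun i _ => he i) ?_ (fun i c => i.1.ord (φ (γ c))) ?_ ?_ ?_ ?_ ?_ a b ha hb ?_
    (fun i j => Rel i.1 j.1) (fun i _ => hrefl i.1 (hSIn i))
    (fun i _ j _ h => hsymm i.1 j.1 (hSIn i) (hSIn j) h)
    (fun i _ j _ k _ h h' => htrans i.1 j.1 k.1 (hSIn i) (hSIn j) (hSIn k) h h') ?_ ?_
  · -- the points meet the special fibre
    intro i _
    refine ⟨RingHom.ker (e i) ⊔ Ideal.span {algebraMap A0 C π}, ?_, le_sup_left,
      Ideal.mem_sup_right (Ideal.subset_span rfl)⟩
    intro htop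
    have h1 : (1 : C) ∈ RingHom.ker (e i) ⊔ Ideal.span {algebraMap A0 C π} := by
      rw [htop]
      trivial
    obtain ⟨k, hk, z, hz, hkz⟩ := Submodule.mem_sup.mp h1
    obtain ⟨c, rfl⟩ := Ideal.mem_span_singleton'.mp hz
    obtain ⟨a0, ha0'⟩ := hvalA i c
    have h2 : e i (k + c * algebraMap A0 C π) = 1 := by rw [hkz, map_one]
    rw [map_add, (RingHom.mem_ker).mp hk, zero_add, map_mul, he, ← ha0', ← map_mul] at h2
    have h3 : a0 * π = 1 := hinjA (h2.trans (map_one _).symm)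
    exact hπi.not_isUnit (IsUnit.of_mul_eq_one a0 (by rw [mul_comm]; exact h3))
  · -- injectivity
    intro i _ j _ h
    apply Subtype.ext
    exact TraceEq.eq_of_ord_eq hφ γ hfrac' (hrat i.1 (hST i))
      (fun c hc => h c (fun h0 => hc (by rw [h0, map_zero]))) hgen
  · intro i _ x y hx hy
    rw [map_mul, map_mul]
    exact i.1.ord_mul (hφγ x hx) (hφγ y hy)
  · intro i _ c
    rcases eq_or_ne c 0 with rfl | hc
    · simp
    · exact (Fermat.Agent.S24.FFDeg.ord_nonneg_iff i.1 (hφγ c hc)).mpr (hreg i.1 (hSIn i) c)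
  · intro i _ c hc
    rw [evalK_eq_zero_iff φ γ i.1 (e i) (hespec i) c, mem_nonunits_iff_ord_pos i.1 (hφγ c hc)]
  · intro i _
    obtain ⟨u, hu⟩ := exists_ord_eq_one hφ (hrat i.1 (hST i)) hgen
    have hu0 : u ≠ 0 := by
      rintro rfl
      simp at hu
    obtain ⟨x', y', hy', hxy⟩ := hfrac u
    have hγy : γ y' ≠ 0 := fun h => hy' (hγ (h.trans (map_zero γ).symm))
    have hx' : x' ≠ 0 := by
      rintro rfl
      rw [map_zero] at hxy
      exact mul_ne_zero hu0 hγy hxy
    refine ⟨x', y', hx', hy', ?_⟩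
    rw [← hxy, map_mul, i.1.ord_mul ((map_ne_zero φ).mpr hu0) (hφγ y' hy'), hu]
    ring
  · -- horizontal primes
    intro 𝔭 h𝔭 hπ𝔭 n hn hπn hle
    have h𝔭prime : 𝔭.IsPrime := h𝔭.elim (fun h => h.1.1) (fun h => h.1.1)
    have h𝔭A : ∀ b0 : A0, b0 ≠ 0 → algebraMap A0 C b0 ∉ 𝔭 := by
      intro b0 hb0' hmem
      obtain ⟨k, hk⟩ := IsDiscreteValuationRing.associated_pow_irreducible hb0' hπi
      obtain ⟨u, hu⟩ := hk
      have h1 : algebraMap A0 C π ^ k ∈ 𝔭 := by
        rw [← map_pow, ← hu, map_mul]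
        exact 𝔭.mul_mem_right _ hmem
      exact hπ𝔭 (h𝔭prime.mem_of_pow_mem k h1)
    have hzP : ∃ P : Place L Ω, (∀ c : C, φ (γ c) ∈ P.toValuationSubring) ∧
        (∀ c : C, (c ∈ 𝔭 ↔ φ (γ c) ∈ P.toValuationSubring.nonunits)) ∧ P ∈ T := by
      rcases h𝔭 with h | h
      · have ha𝔭 : a ∈ 𝔭 := h.1.2 (Ideal.subset_span rfl)
        have h𝔭bot : 𝔭 ≠ ⊥ := fun h0 => ha0 ((Ideal.mem_bot).mp (h0 ▸ ha𝔭))
        obtain ⟨P, hP1, hP2, hP3⟩ := exists_place_of_prime_map φ hφ x hx γ hγ hγA 𝔭 h𝔭bot h𝔭A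
        exact ⟨P, hP1, hP2, hT P (Or.inl (hP3 a ha𝔭 ha0))⟩
      · have hb𝔭 : b ∈ 𝔭 := h.1.2 (Ideal.subset_span rfl)
        have h𝔭bot : 𝔭 ≠ ⊥ := fun h0 => hb0 ((Ideal.mem_bot).mp (h0 ▸ hb𝔭))
        obtain ⟨P, hP1, hP2, hP3⟩ := exists_place_of_prime_map φ hφ x hx γ hγ hγA 𝔭 h𝔭bot h𝔭A
        exact ⟨P, hP1, hP2, hT P (Or.inr (hP3 b hb𝔭 hb0))⟩
    obtain ⟨P, hP1, hP2, hPT⟩ := hzP
    obtain ⟨eP, hePspec⟩ := exists_evalK φ γ P hP1 (hrat P hPT)
    have hePA : ∀ a0 : A0, eP (algebraMap A0 C a0) = algebraMap A0 K0 a0 :=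
      fun a0 => value_unique P (hePspec _) (hconstval P a0)
    have hker : RingHom.ker eP = 𝔭 := by
      ext c
      rw [RingHom.mem_ker, evalK_eq_zero_iff φ γ P eP hePspec c, hP2 c]
    have hvals : ∀ c : C, ∃ a0 : A0, algebraMap A0 K0 a0 = eP c :=
      SectionTools.exists_algebraMap_eq π hπi eP hePA n hn.ne_top (hker ▸ hle) hπn
    have hInP : In P := by
      refine hIn P (fun c => ?_)
      obtain ⟨a0, ha0'⟩ := hvals c
      exact ⟨a0, by rw [ha0']; exact hePspec c⟩
    have hPS : P ∈ S := (hSmem P).mpr ⟨hPT, hInP⟩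
    refine ⟨⟨P, hPS⟩, Finset.mem_univ _, ?_⟩
    ext c
    rw [RingHom.mem_ker, evalK_eq_zero_iff φ γ P (e ⟨P, hPS⟩) (hespec ⟨P, hPS⟩) c, hP2 c]
  · -- same class, same closed point
    intro i _ j _ hij c hc
    obtain ⟨c0, hc0⟩ := hc
    obtain ⟨a0', ha0'⟩ := hvalA j c
    have h1 : π ∣ a0' := hRel i.1 j.1 (hSIn i) (hSIn j) hij c (π * c0) a0'
      (by rw [← hc0]; exact hespec i c) (by rw [ha0']; exact hespec j c) (dvd_mul_right π c0)
    obtain ⟨d, rfl⟩ := h1
    exact ⟨d, ha0'.symm⟩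
  · -- the zero sums
    intro i₀ _
    have h := SectionGlue.sum_univ_filter_coe S (fun w => Rel w i₀.1)
      (fun w => w.ord (φ (γ a)) - w.ord (φ (γ b)))
    have h2 : S.filter (fun w => Rel w i₀.1) = T.filter (fun w => In w ∧ Rel w i₀.1) :=
      Finset.filter_filter _ _ _
    rw [h2, hzero i₀.1 (hST i₀) (hSIn i₀)] at h
    exact h

end Main

end Fermat.Agent.S37.LocalPlace
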