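import Mathlib
import Fermat.Prelude.Def_AlgebraicCurve_DivisorClassGroup
import Fermat.Agent.S24.FFBasic
import Fermat.Agent.S24.FFDeg
import Fermat.Agent.S37.EvalGal
import Fermat.Agent.S37.EvalInt

/-!
# S37 (W2, leaf I2 "PL-ord"): orders of chart-integral functions at a place

`K` a field with a valuation subring `A`, `F` a field over `K`, `t : F` a coordinate,
`chartInt A t` the ring of all elements of `F` integral over `A[t]` (helper14's `EvalInt`).
For a place `P` of `F / K` at which `t` is regular: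

* `exists_mul_mem_chartInt` : an element integral over `K[t]` becomes integral over `A[t]` after
  multiplication by a nonzero element of `A`;
* `ord_nonneg` (O1), `ord_pos_iff` (O2) : `0 ≤ ord_P` on `chartInt A t`, and `0 < ord_P x` iff
  the value `evInt P x` is zero (places of degree one with `t(P) ∈ A`);
* `exists_mul_eq` : `F` is the fraction field of `chartInt A t` (for `F` finite over `K(t)`);
* `exists_ord_succ` (O4) : a uniformizer at `P` is a quotient of two elements of `chartInt A t`;
* `place_eq_of_ord_pos`, `place_eq_of_evInt_eq_zero`, `place_eq_of_evInt_eq` (O3) : `P ↦ evInt P`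
  is injective on the places with `t(P) ∈ A` (`t` transcendental, characteristic zero);
* `ordN` : the `ℕ`-valued order on `chartInt A t`, with `ordN_mul`, `ordN_pos_iff`,
  `exists_ordN_succ`.
-/

set_option autoImplicit false
set_option linter.style.haveILetI false

open AlgebraicCurve IsLocalRing Polynomial IntermediateField
open scoped IntermediateField.algebraAdjoinAdjoin

namespace Fermat.Agent.S37.PlaceOrd

open Fermat.Agent.S37.EvalGal Fermat.Agent.S37.EvalInt

variable {K F : Type*} [Field K] [Field F] [Algebra K F]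

section Scale

variable (A : ValuationSubring K) (t : F)

/-- the chart `A[X] → F` factors through `K[X]`. -/
theorem chartHom_eq_aeval_map (p : Polynomial ↥A) :
    chartHom A t p = aeval t (p.map (algebraMap ↥A K)) := by
  rw [aeval_def, eval₂_map]
  rfl

/-- integrality over `K[t]`, in terms of the polynomial ring `K[X]`. -/
theorem isIntegralElem_aeval_of_isIntegral {b : F} (hb : IsIntegral (Algebra.adjoin K {t}) b) :
    ((aeval t : K[X] →ₐ[K] F) : K[X] →+* F).IsIntegralElem b := by
  obtain ⟨P, hP, hPb⟩ := hb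
  -- lift the coefficients along `K[X] → K[t]`
  let φ : K[X] →+* ↥(Algebra.adjoin K {t}) :=
    ((aeval t : K[X] →ₐ[K] F) : K[X] →+* F).codRestrict (Algebra.adjoin K {t}).toSubring
      (fun p => by
        change aeval t p ∈ Algebra.adjoin K {t}
        rw [Algebra.adjoin_singleton_eq_range_aeval]
        exact ⟨p, rfl⟩)
  have hφ : Function.Surjective φ := by
    rintro ⟨a, ha⟩
    rw [Algebra.adjoin_singleton_eq_range_aeval] at ha
    obtain ⟨p, hp⟩ := ha
    exact ⟨p, Subtype.ext hp⟩
  have hlift : P ∈ Polynomial.lifts φ := by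
    rw [Polynomial.lifts_iff_coeff_lifts]
    intro n
    exact hφ _
  obtain ⟨Q, hQP, -, hQ⟩ := Polynomial.lifts_and_degree_eq_and_monic hlift hP
  refine ⟨Q, hQ, ?_⟩
  have hcomp : ((aeval t : K[X] →ₐ[K] F) : K[X] →+* F) =
      (algebraMap ↥(Algebra.adjoin K {t}) F).comp φ := by
    ext <;> rfl
  rw [hcomp, ← Polynomial.eval₂_map, hQP]
  exact hPb

/-- **Scaling**: an element integral over `K[t]` becomes integral over `A[t]` after
multiplication by a nonzero element of `A`. -/
theorem exists_mul_mem_chartInt {b : F} (hb : IsIntegral (Algebra.adjoin K {t}) b) :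
    ∃ c : ↥A, c ≠ 0 ∧ algebraMap K F (c : K) * b ∈ chartInt A t := by
  have hb' := isIntegralElem_aeval_of_isIntegral t hb
  letI : Algebra (Polynomial ↥A) K[X] := Polynomial.algebra ↥A K
  haveI : IsLocalization (Submonoid.map (C : ↥A →+* Polynomial ↥A) (nonZeroDivisors ↥A)) K[X] :=
    Polynomial.isLocalization (nonZeroDivisors ↥A) K
  letI : Algebra K[X] F := ((aeval t : K[X] →ₐ[K] F) : K[X] →+* F).toAlgebra
  letI : Algebra (Polynomial ↥A) F := (chartHom A t).toAlgebra
  haveI : IsScalarTower (Polynomial ↥A) K[X] F := IsScalarTower.of_algebraMap_eq (fun p => by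
    change chartHom A t p = aeval t (p.map (algebraMap ↥A K))
    exact chartHom_eq_aeval_map A t p)
  have hb'' : IsIntegral K[X] b := hb'
  obtain ⟨⟨m, c, hc, rfl⟩, hm⟩ := IsIntegral.exists_multiple_integral_of_isLocalization
    (Submonoid.map (C : ↥A →+* Polynomial ↥A) (nonZeroDivisors ↥A)) (Rₘ := K[X]) b hb''
  refine ⟨c, nonZeroDivisors.ne_zero hc, ?_⟩
  have h1 : (chartHom A t).IsIntegralElem ((C c : Polynomial ↥A) • b) := hm
  have h2 : (C c : Polynomial ↥A) • b = algebraMap K F (c : K) * b := by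
    rw [Algebra.smul_def]
    change chartHom A t (C c) * b = _
    simp [chartHom]
  rw [h2] at h1
  exact h1

end Scale

section Ord

variable (A : ValuationSubring K) (t : F) (P : Place K F)

/-- **(O1)** elements integral over `A[t]` have nonnegative order at every place where `t` is
regular. -/
theorem ord_nonneg (ht : t ∈ P.toValuationSubring) {x : F} (hx : x ∈ chartInt A t) :
    0 ≤ P.ord x := by
  rcases eq_or_ne x 0 with rfl | hx0
  · simp
  · exact (Fermat.Agent.S24.Place.ord_nonneg_iff_mem P hx0).mpr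
      (mem_of_isIntegralElem A P t ht hx)

/-- **(O2)** for a place of degree one with `t(P) ∈ A`: a nonzero element of `chartInt A t` has
positive order at `P` iff its value at `P` is zero. -/
theorem ord_pos_iff (hP : P.deg = 1) (a₀ : ↥A)
    (ht : t - algebraMap K F (a₀ : K) ∈ P.toValuationSubring.nonunits)
    {x : ↥(chartInt A t)} (hx : x ≠ 0) :
    0 < P.ord (x : F) ↔ evInt A t P hP a₀ ht x = 0 := by
  have hmem := mem_of_isIntegralElem A P t (mem_of_sub_mem_nonunits P ht) x.2
  have h1 : evInt A t P hP a₀ ht x = 0 ↔ ev P hP ⟨(x : F), hmem⟩ = 0 := by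
    constructor
    · intro h
      rw [← coe_evInt A t P hP a₀ ht x, h]
      rfl
    · intro h
      apply Subtype.ext
      rw [coe_evInt A t P hP a₀ ht x, h]
      rfl
  rw [h1, ev_eq_zero_iff, mem_maximalIdeal_iff]
  constructor
  · exact Or.inr
  · rintro (h | h)
    · have h0 : (x : F) = 0 := congrArg Subtype.val h
      exact absurd (Subtype.ext h0) hx
    · exact h

/-- the value at `P` of an element of positive order is zero (no `≠ 0` hypothesis). -/
theorem evInt_eq_zero_of_ord_pos (hP : P.deg = 1) (a₀ : ↥A)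
    (ht : t - algebraMap K F (a₀ : K) ∈ P.toValuationSubring.nonunits)
    {x : ↥(chartInt A t)} (hx : 0 < P.ord (x : F)) : evInt A t P hP a₀ ht x = 0 := by
  have hx0 : x ≠ 0 := by
    rintro rfl
    simp at hx
  exact (ord_pos_iff A t P hP a₀ ht hx0).mp hx

variable [FiniteDimensional K⟮t⟯ F]

/-- **`F` is the fraction field of `chartInt A t`.** -/
theorem exists_mul_eq (f : F) :
    ∃ x y : ↥(chartInt A t), y ≠ 0 ∧ f * (y : F) = (x : F) := by
  have hfrac : IsFractionRing (integralClosure (Algebra.adjoin K {t}) F) F :=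
    integralClosure.isFractionRing_of_finite_extension K⟮t⟯ F
  obtain ⟨b₁, b₂, hb₂, rfl⟩ :=
    IsFractionRing.div_surjective (A := integralClosure (Algebra.adjoin K {t}) F) f
  have hb₂0 : (b₂ : F) ≠ 0 := fun h => nonZeroDivisors.ne_zero hb₂ (Subtype.ext h)
  obtain ⟨c₁, hc₁, h₁⟩ := exists_mul_mem_chartInt A t b₁.2
  obtain ⟨c₂, hc₂, h₂⟩ := exists_mul_mem_chartInt A t b₂.2
  have hc₁' : algebraMap K F (c₁ : K) ≠ 0 := by
    rw [Ne, map_eq_zero]
    exact fun h => hc₁ (Subtype.ext h)
  have hc₂' : algebraMap K F (c₂ : K) ≠ 0 := by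
    rw [Ne, map_eq_zero]
    exact fun h => hc₂ (Subtype.ext h)
  refine ⟨⟨algebraMap K F (c₂ : K) * (algebraMap K F (c₁ : K) * (b₁ : F)),
      Subring.mul_mem _ (algebraMap_mem_chartInt A t c₂) h₁⟩,
    ⟨algebraMap K F (c₁ : K) * (algebraMap K F (c₂ : K) * (b₂ : F)),
      Subring.mul_mem _ (algebraMap_mem_chartInt A t c₁) h₂⟩, ?_, ?_⟩
  · intro h
    have := congrArg Subtype.val h
    exact mul_ne_zero hc₁' (mul_ne_zero hc₂' hb₂0) this
  · change algebraMap _ F b₁ / algebraMap _ F b₂ * _ = _
    have e₁ : algebraMap (integralClosure (Algebra.adjoin K {t}) F) F b₁ = (b₁ : F) := rfl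
    have e₂ : algebraMap (integralClosure (Algebra.adjoin K {t}) F) F b₂ = (b₂ : F) := rfl
    rw [e₁, e₂]
    field_simp

/-- **(O4)** a uniformizer at `P` as a quotient of two elements of `chartInt A t`. -/
theorem exists_ord_succ :
    ∃ x y : ↥(chartInt A t), x ≠ 0 ∧ y ≠ 0 ∧ P.ord (x : F) = P.ord (y : F) + 1 := by
  obtain ⟨π, hπ⟩ := IsDiscreteValuationRing.exists_irreducible P.toValuationSubring
  have hord : P.ord (π : F) = 1 := P.ord_coe_irreducible hπ
  have hπ0 : (π : F) ≠ 0 := fun h => hπ.ne_zero (Subtype.ext h)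
  obtain ⟨x, y, hy, hxy⟩ := exists_mul_eq A t (π : F)
  have hy0 : (y : F) ≠ 0 := fun h => hy (Subtype.ext h)
  refine ⟨x, y, ?_, hy, ?_⟩
  · intro h
    rw [h] at hxy
    exact mul_ne_zero hπ0 hy0 hxy
  · rw [← hxy, P.ord_mul hπ0 hy0, hord, add_comm]

variable [CharZero K]

/-- **(O3), core**: a place at which `t` is regular is determined by the elements of
`chartInt A t` vanishing at it. -/
theorem place_eq_of_ord_pos (htr : Transcendental K t) (P P' : Place K F)
    (htP : t ∈ P.toValuationSubring) (htP' : t ∈ P'.toValuationSubring)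
    (h : ∀ x ∈ chartInt A t, 0 < P.ord x → 0 < P'.ord x) : P = P' := by
  classical
  have hPID : IsPrincipalIdealRing (Algebra.adjoin K {t}) :=
    IsPrincipalIdealRing.of_surjective (Polynomial.algEquivOfTranscendental K t htr)
      (AlgEquiv.surjective _)
  have hchar : CharZero K⟮t⟯ := charZero_of_injective_algebraMap (algebraMap K K⟮t⟯).injective
  have hsep : Algebra.IsSeparable K⟮t⟯ F := inferInstance
  have hDed : IsDedekindDomain (integralClosure (Algebra.adjoin K {t}) F) :=
    integralClosure.isDedekindDomain (Algebra.adjoin K {t}) K⟮t⟯ F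
  have hfrac : IsFractionRing (integralClosure (Algebra.adjoin K {t}) F) F :=
    integralClosure.isFractionRing_of_finite_extension K⟮t⟯ F
  have ht0 : t ≠ 0 := by
    rintro rfl
    exact htr isAlgebraic_zero
  have hB : ∀ Q : Place K F, t ∈ Q.toValuationSubring →
      ∀ b : integralClosure (Algebra.adjoin K {t}) F,
        algebraMap (integralClosure (Algebra.adjoin K {t}) F) F b ∈ Q.toValuationSubring := by
    intro Q hQ b
    exact Fermat.Agent.S24.FFBasic.mem_of_isIntegral Q (R := Algebra.adjoin K {t})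
      (Fermat.Agent.S24.FFBasic.adjoin_le_of_ord_nonneg Q
        ((Fermat.Agent.S24.Place.ord_nonneg_iff_mem Q ht0).mpr hQ)) b.2
  obtain ⟨w, rfl⟩ := Fermat.Agent.S24.FFBasic.exists_heightOneSpectrum_eq P (hB P htP)
  obtain ⟨w', rfl⟩ := Fermat.Agent.S24.FFBasic.exists_heightOneSpectrum_eq P' (hB P' htP')
  have hle : w.asIdeal ≤ w'.asIdeal := by
    intro b hb
    rcases eq_or_ne b 0 with rfl | hb0
    · exact zero_mem _
    have hpos := (Fermat.Agent.S24.FFBasic.ord_algebraMap_pos_iff (K := K) (F := F) w hb0).mpr hb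
    obtain ⟨c, hc, hcb⟩ := exists_mul_mem_chartInt A t b.2
    have hc' : algebraMap K F (c : K) ≠ 0 := by
      rw [Ne, map_eq_zero]
      exact fun h => hc (Subtype.ext h)
    have hbF : algebraMap (integralClosure (Algebra.adjoin K {t}) F) F b ≠ 0 := by
      intro h0
      rw [h0] at hpos
      simp at hpos
    have e : algebraMap (integralClosure (Algebra.adjoin K {t}) F) F b = (b : F) := rfl
    rw [e] at hpos hbF
    have h1 := h _ hcb (by
      rw [Place.ord_mul _ hc' hbF, Fermat.Agent.S24.Place.ord_algebraMap, zero_add]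
      exact hpos)
    rw [Place.ord_mul _ hc' hbF, Fermat.Agent.S24.Place.ord_algebraMap, zero_add] at h1
    exact (Fermat.Agent.S24.FFBasic.ord_algebraMap_pos_iff (K := K) (F := F) w' hb0).mp h1
  have heq : w.asIdeal = w'.asIdeal := w.isMaximal.eq_of_le w'.isPrime.ne_top hle
  rw [IsDedekindDomain.HeightOneSpectrum.ext heq]

/-- **(O3)** a place of degree one with `t(P) ∈ A` is determined by the kernel of its evaluation
on `chartInt A t`. -/
theorem place_eq_of_evInt_eq_zero (htr : Transcendental K t) (P P' : Place K F)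
    (hP : P.deg = 1) (hP' : P'.deg = 1) (a₀ a₀' : ↥A)
    (ht : t - algebraMap K F (a₀ : K) ∈ P.toValuationSubring.nonunits)
    (ht' : t - algebraMap K F (a₀' : K) ∈ P'.toValuationSubring.nonunits)
    (h : ∀ x : ↥(chartInt A t), evInt A t P hP a₀ ht x = 0 → evInt A t P' hP' a₀' ht' x = 0) :
    P = P' := by
  refine place_eq_of_ord_pos A t htr P P' (mem_of_sub_mem_nonunits P ht)
    (mem_of_sub_mem_nonunits P' ht') (fun x hx hpos => ?_)
  have hx0 : (⟨x, hx⟩ : ↥(chartInt A t)) ≠ 0 := by
    intro h0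
    have : x = 0 := congrArg Subtype.val h0
    rw [this] at hpos
    simp at hpos
  have h1 := h ⟨x, hx⟩ ((ord_pos_iff A t P hP a₀ ht hx0).mp hpos)
  exact (ord_pos_iff A t P' hP' a₀' ht' hx0).mpr h1

/-- **(O3)**, equality form: `P ↦ evInt P` is injective on the places with `t(P) ∈ A`. -/
theorem place_eq_of_evInt_eq (htr : Transcendental K t) (P P' : Place K F)
    (hP : P.deg = 1) (hP' : P'.deg = 1) (a₀ a₀' : ↥A)
    (ht : t - algebraMap K F (a₀ : K) ∈ P.toValuationSubring.nonunits)
    (ht' : t - algebraMap K F (a₀' : K) ∈ P'.toValuationSubring.nonunits)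
    (h : evInt A t P hP a₀ ht = evInt A t P' hP' a₀' ht') : P = P' :=
  place_eq_of_evInt_eq_zero A t htr P P' hP hP' a₀ a₀' ht ht' (fun x hx => by rw [← h]; exact hx)

end Ord

section OrdN

variable (A : ValuationSubring K) (t : F) (P : Place K F)

/-- the `ℕ`-valued order at `P` on `chartInt A t`. -/
noncomputable def ordN (x : ↥(chartInt A t)) : ℕ := (P.ord (x : F)).toNat

theorem coe_ordN (ht : t ∈ P.toValuationSubring) (x : ↥(chartInt A t)) :
    ((ordN A t P x : ℕ) : ℤ) = P.ord (x : F) :=
  Int.toNat_of_nonneg (ord_nonneg A t P ht x.2)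

theorem ordN_mul (ht : t ∈ P.toValuationSubring) {x y : ↥(chartInt A t)} (hx : x ≠ 0)
    (hy : y ≠ 0) : ordN A t P (x * y) = ordN A t P x + ordN A t P y := by
  have hx0 : (x : F) ≠ 0 := fun h => hx (Subtype.ext h)
  have hy0 : (y : F) ≠ 0 := fun h => hy (Subtype.ext h)
  have h := P.ord_mul hx0 hy0
  have h1 := coe_ordN A t P ht x
  have h2 := coe_ordN A t P ht y
  have h3 := coe_ordN A t P ht (x * y)
  rw [Subring.coe_mul] at h3
  omega

theorem ordN_one : ordN A t P 1 = 0 := by
  simp [ordN]

theorem ordN_pos_iff (hP : P.deg = 1) (a₀ : ↥A)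
    (ht : t - algebraMap K F (a₀ : K) ∈ P.toValuationSubring.nonunits)
    {x : ↥(chartInt A t)} (hx : x ≠ 0) :
    0 < ordN A t P x ↔ evInt A t P hP a₀ ht x = 0 := by
  rw [← ord_pos_iff A t P hP a₀ ht hx]
  have h1 := coe_ordN A t P (mem_of_sub_mem_nonunits P ht) x
  omega

theorem ordN_eq_zero_iff (hP : P.deg = 1) (a₀ : ↥A)
    (ht : t - algebraMap K F (a₀ : K) ∈ P.toValuationSubring.nonunits)
    {x : ↥(chartInt A t)} (hx : x ≠ 0) :
    ordN A t P x = 0 ↔ evInt A t P hP a₀ ht x ≠ 0 := by
  rw [← not_iff_not, not_not, ← ordN_pos_iff A t P hP a₀ ht hx]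
  omega

theorem exists_ordN_succ [FiniteDimensional K⟮t⟯ F] (ht : t ∈ P.toValuationSubring) :
    ∃ x y : ↥(chartInt A t), x ≠ 0 ∧ y ≠ 0 ∧ ordN A t P x = ordN A t P y + 1 := by
  obtain ⟨x, y, hx, hy, h⟩ := exists_ord_succ A t P
  refine ⟨x, y, hx, hy, ?_⟩
  have h1 := coe_ordN A t P ht x
  have h2 := coe_ordN A t P ht y
  omega

end OrdN

end Fermat.Agent.S37.PlaceOrd
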