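import Mathlib
import Fermat.Agent.S24.PlacesAbs
import Fermat.Agent.S24.FFDeg
import Fermat.Agent.S37.EvalInt
import Fermat.Agent.S37.PrimePlace

/-!
# S37, block (W2), leaf I1 (PL-surj): POINT ⟹ PLACE

`K` a field, `A` a valuation subring of `K`, `F/K` a function field in one variable with a
transcendental `t` (`F` finite over `K(t)`), `D = EvalInt.chartInt A t` the ring of elements of
`F` integral over `A[t]`.

* `exists_mul_mem_chartInt` : clearing denominators, every element integral over `K[t]` has a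
  nonzero `A`-multiple in `D` (so `D[1/(A∖0)]` is the integral closure of `K[t]`).
* `exists_place_of_point'` / `exists_place_of_point` : every ring homomorphism `ψ : D → A` which
  is the identity on the constants of `A` is the evaluation at a place `P` of `F/K`:
  `x - ψ x` vanishes at `P` for all `x ∈ D`, i.e. `EvalInt.evInt A t P = ψ`.
* `place_eq_of_nonunits` / `place_unique` / `place_eq_of_values` : such a place is unique, i.e.
  `P ↦ evInt P` is injective on the places of the chart (`t(P) ∈ A`).
-/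

set_option autoImplicit false

noncomputable section

open AlgebraicCurve IsLocalRing Polynomial
open scoped IntermediateField
open Fermat.Agent.S37 Fermat.Agent.S37.EvalGal

namespace Fermat.Agent.S37.PointPlace

section Denominators

variable {K F : Type*} [Field K] [Field F] [Algebra K F] (A : ValuationSubring K) (t : F)

/-- `K[X] → F`, `X ↦ t`. -/
abbrev fieldHom (K : Type*) {F : Type*} [Field K] [Field F] [Algebra K F] (t : F) :
    Polynomial K →+* F :=
  Polynomial.eval₂RingHom (algebraMap K F) t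

theorem chartHom_eq_comp :
    EvalInt.chartHom A t = (fieldHom K t).comp (Polynomial.mapRingHom A.subtype) := by
  apply Polynomial.ringHom_ext
  · intro a
    simp [EvalInt.chartHom, fieldHom]
  · simp [EvalInt.chartHom, fieldHom]

/-- **Clearing denominators**: an element integral over `K[t]` becomes integral over `A[t]`
after multiplication by a nonzero constant of `A`. -/
theorem exists_mul_isIntegralElem {f : F} (hf : (fieldHom K t).IsIntegralElem f) :
    ∃ c : ↥A, c ≠ 0 ∧ (EvalInt.chartHom A t).IsIntegralElem (algebraMap K F (c : K) * f) := by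
  let _ : Algebra (Polynomial ↥A) (Polynomial K) := Polynomial.algebra ↥A K
  let _ : Algebra (Polynomial K) F := (fieldHom K t).toAlgebra
  let _ : Algebra (Polynomial ↥A) F := (EvalInt.chartHom A t).toAlgebra
  have : IsScalarTower (Polynomial ↥A) (Polynomial K) F :=
    IsScalarTower.of_algebraMap_eq' (chartHom_eq_comp A t)
  have : IsLocalization ((nonZeroDivisors ↥A).map Polynomial.C) (Polynomial K) :=
    Polynomial.isLocalization (nonZeroDivisors ↥A) K
  have hf' : IsIntegral (Polynomial K) f := hf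
  obtain ⟨m, hm⟩ := IsIntegral.exists_multiple_integral_of_isLocalization
    ((nonZeroDivisors ↥A).map Polynomial.C) f hf'
  obtain ⟨c, hc, hcm⟩ := m.2
  refine ⟨c, nonZeroDivisors.ne_zero hc, ?_⟩
  have h1 : (EvalInt.chartHom A t).IsIntegralElem (m • f) := hm
  have h2 : m • f = algebraMap K F (c : K) * f := by
    rw [Submonoid.smul_def, Algebra.smul_def]
    congr 1
    show EvalInt.chartHom A t (m : Polynomial ↥A) = _
    have hcm' : (m : Polynomial ↥A) = Polynomial.C c := hcm.symm
    rw [hcm']
    simp [EvalInt.chartHom]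
  rwa [h2] at h1

/-- integrality over `R[t] = Algebra.adjoin R {t}` gives integrality for `R[X] → F`. -/
theorem isIntegralElem_of_isIntegral_adjoin {f : F}
    (h : IsIntegral (Algebra.adjoin K ({t} : Set F)) f) : (fieldHom K t).IsIntegralElem f := by
  obtain ⟨p, hp, hpf⟩ := h
  let g : ↥(Algebra.adjoin K ({t} : Set F)) := ⟨t, Algebra.subset_adjoin rfl⟩
  let φ : Polynomial K →+* ↥(Algebra.adjoin K ({t} : Set F)) := (Polynomial.aeval g).toRingHom
  have hφ : (algebraMap ↥(Algebra.adjoin K ({t} : Set F)) F).comp φ = fieldHom K t :=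
    RingHom.ext fun q => (Subalgebra.aeval_coe (Algebra.adjoin K ({t} : Set F)) g q).symm
  have hsurj : Function.Surjective φ := by
    rintro ⟨s, hs⟩
    rw [Algebra.adjoin_singleton_eq_range_aeval] at hs
    obtain ⟨q, hq⟩ := hs
    exact ⟨q, Subtype.ext
      ((Subalgebra.aeval_coe (Algebra.adjoin K ({t} : Set F)) g q).symm.trans hq)⟩
  obtain ⟨q, hq, -, hqm⟩ := Polynomial.lifts_and_degree_eq_and_monic
    ((Polynomial.mem_lifts p).mpr (Polynomial.map_surjective _ hsurj p)) hp
  refine ⟨q, hqm, ?_⟩
  rw [← hφ, ← Polynomial.eval₂_map, hq]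
  exact hpf

/-- **Clearing denominators, subring form**: every element of the integral closure of `K[t]`
has a nonzero `A`-multiple in `chartInt A t`. -/
theorem exists_mul_mem_chartInt {f : F} (h : IsIntegral (Algebra.adjoin K ({t} : Set F)) f) :
    ∃ c : ↥A, c ≠ 0 ∧ algebraMap K F (c : K) * f ∈ EvalInt.chartInt A t :=
  exists_mul_isIntegralElem A t (isIntegralElem_of_isIntegral_adjoin t h)

end Denominators

section Nonunits

variable {K F : Type*} [Field K] [Field F] [Algebra K F]

/-- the nonunits of a place absorb multiplication by regular elements. -/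
theorem mul_mem_nonunits' (V : ValuationSubring F) {x y : F} (hx : x ∈ V.nonunits) (hy : y ∈ V) :
    x * y ∈ V.nonunits := by
  have hx' : x ∈ V := ValuationSubring.nonunits_subset hx
  have h1 : (⟨x, hx'⟩ : ↥V) ∈ IsLocalRing.maximalIdeal ↥V :=
    ValuationSubring.coe_mem_nonunits_iff.mp hx
  have h2 : (⟨x, hx'⟩ : ↥V) * (⟨y, hy⟩ : ↥V) ∈ IsLocalRing.maximalIdeal ↥V :=
    Ideal.mul_mem_right _ _ h1
  exact ValuationSubring.coe_mem_nonunits_iff.mpr h2

/-- multiplication by a nonzero constant does not change vanishing at a place. -/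
theorem const_mul_mem_nonunits_iff (P : Place K F) {c : K} (hc : c ≠ 0) (f : F) :
    algebraMap K F c * f ∈ P.toValuationSubring.nonunits ↔ f ∈ P.toValuationSubring.nonunits := by
  constructor
  · intro h
    have h1 := mul_mem_nonunits' _ h (P.algebraMap_mem' c⁻¹)
    have hc' : algebraMap K F c ≠ 0 := (_root_.map_ne_zero _).mpr hc
    have h2 : algebraMap K F c * f * algebraMap K F c⁻¹ = f := by
      rw [map_inv₀]
      field_simp
    rwa [h2] at h1
  · intro h
    have h1 := mul_mem_nonunits' _ h (P.algebraMap_mem' c)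
    rwa [mul_comm] at h1

/-- the adic valuation of a place is `< 1` exactly on the nonunits. -/
theorem adicValuation_lt_one_iff (P : Place K F) (f : F) :
    P.adicValuation f < 1 ↔ f ∈ P.toValuationSubring.nonunits := by
  rcases eq_or_ne f 0 with rfl | hf
  · rw [map_zero]
    exact ⟨fun _ => zero_mem _, fun _ => zero_lt_one⟩
  · rw [← Fermat.Agent.S24.PlacesAbsAux.vord_pos_iff _ hf,
      ← Fermat.Agent.S24.PlacesAbsAux.ord_eq_vord, Fermat.Agent.S24.FFDeg.ord_pos_iff P hf,
      ValuationSubring.mem_nonunits_iff_or]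
    simp [hf]

end Nonunits

section Main

variable {K F : Type*} [Field K] [Field F] [Algebra K F] (A : ValuationSubring K) (t : F)

/-! ### Existence -/

/-- **POINT ⟹ PLACE** (`nonunits` form): a ring homomorphism `ψ : chartInt A t → A` which is the
identity on the constants of `A` is the evaluation at a place: `ψ x` is the value of `x`. -/
theorem exists_place_of_point' [CharZero K] (ht : Transcendental K t) [FiniteDimensional K⟮t⟯ F]
    (ψ : ↥(EvalInt.chartInt A t) →+* ↥A)
    (hψ : ∀ a : ↥A, ψ ⟨algebraMap K F (a : K), EvalInt.algebraMap_mem_chartInt A t a⟩ = a) :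
    ∃ P : Place K F, ∀ x : ↥(EvalInt.chartInt A t),
      (x : F) - algebraMap K F ((ψ x : ↥A) : K) ∈ P.toValuationSubring.nonunits := by
  have hprime : (RingHom.ker ψ).IsPrime := RingHom.ker_isPrime ψ
  -- `t - ψ t` is a nonzero element of the kernel
  have hsub : ∀ x : ↥(EvalInt.chartInt A t),
      x - ⟨algebraMap K F ((ψ x : ↥A) : K), EvalInt.algebraMap_mem_chartInt A t (ψ x)⟩ ∈
        RingHom.ker ψ := by
    intro x
    rw [RingHom.mem_ker, map_sub, hψ, sub_self]
  have hne : RingHom.ker ψ ≠ ⊥ := by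
    intro hbot
    have h1 := hsub ⟨t, EvalInt.self_mem_chartInt A t⟩
    rw [hbot, Ideal.mem_bot] at h1
    have h2 : t - algebraMap K F ((ψ ⟨t, EvalInt.self_mem_chartInt A t⟩ : ↥A) : K) = 0 :=
      congrArg Subtype.val h1
    exact ht ((sub_eq_zero.mp h2) ▸ isAlgebraic_algebraMap _)
  obtain ⟨P, -, hP, -, -⟩ := PrimePlace.exists_place_of_prime_of_base (K0 := K) (L := K)
    (A0 := ↥A) (RingHom.id F) (fun _ => rfl) t ht (EvalInt.chartInt A t)
    (fun b => EvalInt.algebraMap_mem_chartInt A t b) (RingHom.ker ψ) hne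
    (fun b hb hmem => hb ((hψ b).symm.trans (RingHom.mem_ker.mp hmem)))
  exact ⟨P, fun x => (hP _).mp (hsub x)⟩

/-- **POINT ⟹ PLACE** (`evInt` form). -/
theorem exists_place_of_point [IsAlgClosed K] [CharZero K] (ht : Transcendental K t)
    [FiniteDimensional K⟮t⟯ F] (ψ : ↥(EvalInt.chartInt A t) →+* ↥A)
    (hψ : ∀ a : ↥A, ψ ⟨algebraMap K F (a : K), EvalInt.algebraMap_mem_chartInt A t a⟩ = a) :
    ∃ (P : Place K F) (hP : P.deg = 1)
      (ht' : t - algebraMap K F ((ψ ⟨t, EvalInt.self_mem_chartInt A t⟩ : ↥A) : K) ∈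
        P.toValuationSubring.nonunits),
      EvalInt.evInt A t P hP _ ht' = ψ := by
  obtain ⟨P, hP⟩ := exists_place_of_point' A t ht ψ hψ
  have hdeg : P.deg = 1 := Fermat.Agent.S24.FFDeg.deg_eq_one K⟮t⟯ t rfl P
  refine ⟨P, hdeg, hP ⟨t, EvalInt.self_mem_chartInt A t⟩, ?_⟩
  ext x
  exact congrArg Subtype.val ((EvalInt.evInt_eq_iff A t P hdeg _ _ x (ψ x)).mpr (hP x))

/-! ### Uniqueness -/

open Fermat.Agent.S24.PlacesAbsAux in
/-- **A place on the chart is determined by the chart elements vanishing at it.** -/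
theorem place_eq_of_nonunits [CharZero K] (ht : Transcendental K t) [FiniteDimensional K⟮t⟯ F]
    (P P' : Place K F) (a₀ a₀' : ↥A)
    (ht₁ : t - algebraMap K F (a₀ : K) ∈ P.toValuationSubring.nonunits)
    (ht₂ : t - algebraMap K F (a₀' : K) ∈ P'.toValuationSubring.nonunits)
    (h : ∀ f ∈ EvalInt.chartInt A t,
      f ∈ P.toValuationSubring.nonunits ↔ f ∈ P'.toValuationSubring.nonunits) : P = P' := by
  have := isDedekindDomain_integralClosure t ht
  have := isFractionRing_integralClosure (K := K) t
  have hKA : ∀ c : K, algebraMap K F c ∈ integralClosure (Algebra.adjoin K ({t} : Set F)) F :=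
    fun c => Subalgebra.algebraMap_mem (integralClosure (Algebra.adjoin K ({t} : Set F)) F)
      (algebraMap K (Algebra.adjoin K ({t} : Set F)) c)
  have htB : t ∈ integralClosure (Algebra.adjoin K ({t} : Set F)) F :=
    Subalgebra.algebraMap_mem (integralClosure (Algebra.adjoin K ({t} : Set F)) F)
      (⟨t, Algebra.subset_adjoin rfl⟩ : ↥(Algebra.adjoin K ({t} : Set F)))
  -- the integral closure of `K[t]` lies in `O_v` as soon as `t` does
  have hBv : ∀ v : Place K F, t ∈ v.toValuationSubring →
      ∀ a ∈ integralClosure (Algebra.adjoin K ({t} : Set F)) F, v.adicValuation a ≤ 1 :=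
    fun v hv a ha => val_le_one_of_isIntegral v.adicValuation (Algebra.adjoin K {t})
      (val_le_one_of_mem_adjoin v.adicValuation (adicValuation_algebraMap v) t
        ((adicValuation_le_one_iff v t).mpr hv)) ha
  have htP := EvalInt.mem_of_sub_mem_nonunits P ht₁
  have htP' := EvalInt.mem_of_sub_mem_nonunits P' ht₂
  have hideal : ltIdeal (integralClosure (Algebra.adjoin K ({t} : Set F)) F) P.adicValuation
      (hBv P htP) = ltIdeal (integralClosure (Algebra.adjoin K ({t} : Set F)) F) P'.adicValuation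
      (hBv P' htP') := by
    ext b
    rw [mem_ltIdeal, mem_ltIdeal, adicValuation_lt_one_iff, adicValuation_lt_one_iff]
    obtain ⟨c, hc, hcb⟩ := exists_mul_mem_chartInt A t b.2
    have hc' : (c : K) ≠ 0 := fun h0 => hc (Subtype.ext h0)
    rw [← const_mul_mem_nonunits_iff P hc', ← const_mul_mem_nonunits_iff P' hc']
    exact h _ hcb
  have hprime := ltIdeal_isPrime (integralClosure (Algebra.adjoin K ({t} : Set F)) F)
    P.adicValuation (hBv P htP)
  have hbot : ltIdeal (integralClosure (Algebra.adjoin K ({t} : Set F)) F) P.adicValuation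
      (hBv P htP) ≠ ⊥ := by
    intro hbot
    have hmemB : t - algebraMap K F (a₀ : K) ∈
        integralClosure (Algebra.adjoin K ({t} : Set F)) F := sub_mem htB (hKA _)
    have h1 : (⟨_, hmemB⟩ : ↥(integralClosure (Algebra.adjoin K ({t} : Set F)) F)) ∈
        ltIdeal (integralClosure (Algebra.adjoin K ({t} : Set F)) F) P.adicValuation
          (hBv P htP) := (adicValuation_lt_one_iff P _).mpr ht₁
    rw [hbot, Ideal.mem_bot] at h1
    have h2 : t - algebraMap K F (a₀ : K) = 0 := congrArg Subtype.val h1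
    exact ht ((sub_eq_zero.mp h2) ▸ isAlgebraic_algebraMap _)
  have e1 : P = placeOfPrime _ hKA ⟨_, hprime, hbot⟩ :=
    eq_placeOfPrime _ hKA P (hBv P htP) ⟨_, hprime, hbot⟩ rfl
  have e2 : P' = placeOfPrime _ hKA ⟨_, hprime, hbot⟩ :=
    eq_placeOfPrime _ hKA P' (hBv P' htP') ⟨_, hprime, hbot⟩ hideal
  rw [e1, ← e2]

/-- vanishing of a chart element at a place on the chart, in terms of `evInt`. -/
theorem evInt_eq_zero_iff (P : Place K F) (hP : P.deg = 1) (a₀ : ↥A)
    (ht₁ : t - algebraMap K F (a₀ : K) ∈ P.toValuationSubring.nonunits)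
    (f : ↥(EvalInt.chartInt A t)) :
    EvalInt.evInt A t P hP a₀ ht₁ f = 0 ↔ (f : F) ∈ P.toValuationSubring.nonunits := by
  rw [EvalInt.evInt_eq_iff]
  have h0 : ((0 : ↥A) : K) = 0 := rfl
  rw [h0, map_zero, sub_zero]

/-- **Uniqueness in POINT ⟹ PLACE**: the map `P ↦ evInt P` is injective on the places of the
chart (`t(P) ∈ A`). -/
theorem place_unique [CharZero K] (ht : Transcendental K t) [FiniteDimensional K⟮t⟯ F]
    (P P' : Place K F) (hP : P.deg = 1) (hP' : P'.deg = 1) (a₀ a₀' : ↥A)
    (ht₁ : t - algebraMap K F (a₀ : K) ∈ P.toValuationSubring.nonunits)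
    (ht₂ : t - algebraMap K F (a₀' : K) ∈ P'.toValuationSubring.nonunits)
    (h : EvalInt.evInt A t P hP a₀ ht₁ = EvalInt.evInt A t P' hP' a₀' ht₂) : P = P' := by
  refine place_eq_of_nonunits A t ht P P' a₀ a₀' ht₁ ht₂ (fun f hf => ?_)
  rw [← evInt_eq_zero_iff A t P hP a₀ ht₁ ⟨f, hf⟩, ← evInt_eq_zero_iff A t P' hP' a₀' ht₂ ⟨f, hf⟩,
    h]

/-- uniqueness, value form: two places such that every chart element has at `P'` the value it
has at `P` (a place on the chart) are equal. -/
theorem place_eq_of_values [CharZero K] (ht : Transcendental K t) [FiniteDimensional K⟮t⟯ F]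
    (P P' : Place K F) (hP : P.deg = 1) (a₀ : ↥A)
    (ht₁ : t - algebraMap K F (a₀ : K) ∈ P.toValuationSubring.nonunits)
    (h : ∀ f ∈ EvalInt.chartInt A t, ∀ a : ↥A,
      f - algebraMap K F (a : K) ∈ P.toValuationSubring.nonunits →
        f - algebraMap K F (a : K) ∈ P'.toValuationSubring.nonunits) : P = P' := by
  have ht₂ := h t (EvalInt.self_mem_chartInt A t) a₀ ht₁
  have h0 : ((0 : ↥A) : K) = 0 := rfl
  refine place_eq_of_nonunits A t ht P P' a₀ a₀ ht₁ ht₂
    (fun f hf => ⟨fun hfP => ?_, fun hfP' => ?_⟩)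
  · have := h f hf 0 (by rwa [h0, map_zero, sub_zero])
    rwa [h0, map_zero, sub_zero] at this
  · obtain ⟨a, ha⟩ := EvalInt.exists_sub_mem_nonunits A P t hP a₀ ht₁ hf
    have ha' := h f hf a ha
    have hf0 : f - algebraMap K F (0 : K) ∈ P'.toValuationSubring.nonunits := by
      rwa [map_zero, sub_zero]
    have ha0 : (a : K) = 0 := EvalInt.sub_mem_nonunits_unique P' ha' hf0
    rwa [ha0, map_zero, sub_zero] at ha

end Main

end Fermat.Agent.S37.PointPlace
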