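import Mathlib
import Fermat.Agent.S37.ChartAdapt
import Fermat.Agent.S37.PointPlace

/-!
# S37, block (W2): POINT ⟹ PLACE on the charts of `RedPlace`

The statements of `PointPlace` (leaf I1) in the carrier of `RedPlace`: `D = ↥(RedPlace.chart A N b)`,
no subtype transport left to the consumer.

* `evChart A N b P h : ↥(RedPlace.chart A N b) →+* ↥A` : the value at a place `P` on the chart
  (`h : RedPlace.coord N b ∈ RedPlace.Rint A N P`, i.e. the chart coordinate has its value in `A`).
* `evChart_spec`, `evChart_eq_iff`, `coe_evChart`, `evChart_algebraMap`, `residue_evChart`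
  (`= RedPlace.val`), `evChart_eq_zero_iff`, `evChart_eq_zero_iff_ord`.
* `exists_place_of_point_chart` : every ring homomorphism `ψ : D → A` which is the identity on
  the constants of `A` is `evChart` of a place on the chart.
* `evChart_injective` : that place is unique.
* the flag: `flag_eq_true_of_mem_Rint`, `flag_eq_false_iff_of_mem_Rint`.
-/

set_option autoImplicit false

noncomputable section

open AlgebraicCurve ModularCurve
open scoped IntermediateField
open Fermat.Agent.S18.S24Export Fermat.Agent.S37.EvalGal

namespace Fermat.Agent.S37.PointChart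

local notation "Qb" => AlgebraicClosure ℚ

variable (A : ValuationSubring Qb) (N : ℕ)

/-! ### The chart coordinates -/

theorem transcendental_coord (b : Bool) : Transcendental Qb (RedPlace.coord N b) := by
  cases b
  · exact transcendental_jL_inv N
  · exact transcendental_jL N

theorem finiteDimensional_coord [NeZero N] (b : Bool) :
    FiniteDimensional Qb⟮RedPlace.coord N b⟯ (FL N) := by
  cases b
  · exact Eq.subst (motive := fun L : IntermediateField Qb (FL N) => FiniteDimensional L (FL N))
      (adjoin_inv N).symm (finiteDimensional_adjoin N)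
  · exact finiteDimensional_adjoin N

/-- the inclusion of the `RedPlace` chart ring into the `EvalInt` chart ring (an equality of
subrings). -/
def toChartInt (b : Bool) :
    ↥(RedPlace.chart A N b) →+* ↥(EvalInt.chartInt A (RedPlace.coord N b)) :=
  Subring.inclusion (ChartAdapt.chart_eq A N b).le

/-- the inclusion of the `EvalInt` chart ring into the `RedPlace` chart ring. -/
def ofChartInt (b : Bool) :
    ↥(EvalInt.chartInt A (RedPlace.coord N b)) →+* ↥(RedPlace.chart A N b) :=
  Subring.inclusion (ChartAdapt.chart_eq A N b).ge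

theorem coe_toChartInt (b : Bool) (x : ↥(RedPlace.chart A N b)) :
    ((toChartInt A N b x : ↥(EvalInt.chartInt A (RedPlace.coord N b))) : FL N) = (x : FL N) := rfl

theorem coe_ofChartInt (b : Bool) (x : ↥(EvalInt.chartInt A (RedPlace.coord N b))) :
    ((ofChartInt A N b x : ↥(RedPlace.chart A N b)) : FL N) = (x : FL N) := rfl

theorem ofChartInt_toChartInt (b : Bool) (x : ↥(RedPlace.chart A N b)) :
    ofChartInt A N b (toChartInt A N b x) = x := Subtype.ext rfl

theorem toChartInt_ofChartInt (b : Bool) (x : ↥(EvalInt.chartInt A (RedPlace.coord N b))) :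
    toChartInt A N b (ofChartInt A N b x) = x := Subtype.ext rfl

variable [NeZero N]

/-! ### Evaluation at a place of the chart -/

/-- the value of the chart coordinate at a place on the chart. -/
def coordVal (b : Bool) (P : Place Qb (FL N)) (h : RedPlace.coord N b ∈ RedPlace.Rint A N P) : ↥A :=
  ⟨evL P ⟨RedPlace.coord N b, h.1⟩, h.2⟩

theorem coord_sub_mem_nonunits (b : Bool) (P : Place Qb (FL N))
    (h : RedPlace.coord N b ∈ RedPlace.Rint A N P) :
    RedPlace.coord N b - algebraMap Qb (FL N) ((coordVal A N b P h : ↥A) : Qb) ∈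
      P.toValuationSubring.nonunits :=
  (EvalInt.sub_mem_nonunits_iff_ev P (deg_eq_one N P) _ h.1 _).mpr rfl

/-- **Evaluation at a place `P` of the chart `b`** (`coord b` has its value at `P` in `A`), as a
ring homomorphism `↥(RedPlace.chart A N b) →+* ↥A`. -/
def evChart (b : Bool) (P : Place Qb (FL N)) (h : RedPlace.coord N b ∈ RedPlace.Rint A N P) :
    ↥(RedPlace.chart A N b) →+* ↥A :=
  (EvalInt.evInt A (RedPlace.coord N b) P (deg_eq_one N P) (coordVal A N b P h)
    (coord_sub_mem_nonunits A N b P h)).comp (toChartInt A N b)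

variable {A N}

theorem evChart_eq_evInt {b : Bool} {P : Place Qb (FL N)}
    (h : RedPlace.coord N b ∈ RedPlace.Rint A N P) (a₀ : ↥A)
    (ht : RedPlace.coord N b - algebraMap Qb (FL N) (a₀ : Qb) ∈ P.toValuationSubring.nonunits)
    (x : ↥(RedPlace.chart A N b)) :
    evChart A N b P h x =
      EvalInt.evInt A (RedPlace.coord N b) P (deg_eq_one N P) a₀ ht (toChartInt A N b x) := by
  unfold evChart
  rw [RingHom.comp_apply, EvalInt.evInt_congr A _ P (deg_eq_one N P) (deg_eq_one N P) _ a₀ _ ht]

/-- the defining property: `x - x(P)` vanishes at `P`. -/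
theorem evChart_spec {b : Bool} {P : Place Qb (FL N)}
    (h : RedPlace.coord N b ∈ RedPlace.Rint A N P) (x : ↥(RedPlace.chart A N b)) :
    (x : FL N) - algebraMap Qb (FL N) ((evChart A N b P h x : ↥A) : Qb) ∈
      P.toValuationSubring.nonunits :=
  EvalInt.sub_evInt_mem_nonunits A _ P (deg_eq_one N P) (coordVal A N b P h)
    (coord_sub_mem_nonunits A N b P h) (toChartInt A N b x)

theorem evChart_eq_iff {b : Bool} {P : Place Qb (FL N)}
    (h : RedPlace.coord N b ∈ RedPlace.Rint A N P) (x : ↥(RedPlace.chart A N b)) (a : ↥A) :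
    evChart A N b P h x = a ↔
      (x : FL N) - algebraMap Qb (FL N) (a : Qb) ∈ P.toValuationSubring.nonunits :=
  EvalInt.evInt_eq_iff A _ P (deg_eq_one N P) (coordVal A N b P h)
    (coord_sub_mem_nonunits A N b P h) (toChartInt A N b x) a

/-- chart elements are regular at the places of the chart. -/
theorem mem_of_mem_chart {b : Bool} {P : Place Qb (FL N)}
    (h : RedPlace.coord N b ∈ RedPlace.Rint A N P) (x : ↥(RedPlace.chart A N b)) :
    (x : FL N) ∈ P.toValuationSubring :=
  EvalInt.mem_of_sub_mem_nonunits P (evChart_spec h x)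

theorem mem_Rint_of_mem_chart {b : Bool} {P : Place Qb (FL N)}
    (h : RedPlace.coord N b ∈ RedPlace.Rint A N P) (x : ↥(RedPlace.chart A N b)) :
    (x : FL N) ∈ RedPlace.Rint A N P :=
  ChartAdapt.mem_Rint_of_sub_mem_nonunits A N P _ (evChart_spec h x)

theorem coe_evChart {b : Bool} {P : Place Qb (FL N)}
    (h : RedPlace.coord N b ∈ RedPlace.Rint A N P) (x : ↥(RedPlace.chart A N b))
    (hx : (x : FL N) ∈ P.toValuationSubring) :
    ((evChart A N b P h x : ↥A) : Qb) = evL P ⟨(x : FL N), hx⟩ :=
  (EvalInt.ev_eq_of_sub_mem_nonunits P (deg_eq_one N P) (evChart_spec h x)).symm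

theorem evChart_algebraMap {b : Bool} {P : Place Qb (FL N)}
    (h : RedPlace.coord N b ∈ RedPlace.Rint A N P) (a : ↥A) :
    evChart A N b P h ⟨algebraMap Qb (FL N) (a : Qb), ChartAdapt.algebraMap_mem_chart A N b a⟩ =
      a := by
  rw [evChart_eq_iff]
  simp only [sub_self]
  exact zero_mem _

theorem evChart_coord {b : Bool} {P : Place Qb (FL N)}
    (h : RedPlace.coord N b ∈ RedPlace.Rint A N P) :
    evChart A N b P h ⟨RedPlace.coord N b, ChartAdapt.coord_mem_chart A N b⟩ =
      coordVal A N b P h := by
  rw [evChart_eq_iff]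
  exact coord_sub_mem_nonunits A N b P h

/-- **the reduction of `evChart` is `RedPlace.val`.** -/
theorem residue_evChart {b : Bool} {P : Place Qb (FL N)}
    (h : RedPlace.coord N b ∈ RedPlace.Rint A N P) (x : ↥(RedPlace.chart A N b)) :
    IsLocalRing.residue ↥A (evChart A N b P h x) = RedPlace.val A N P (x : FL N) :=
  (ChartAdapt.val_eq_of_sub_mem_nonunits A N P _ (evChart_spec h x)).symm

theorem evChart_eq_zero_iff {b : Bool} {P : Place Qb (FL N)}
    (h : RedPlace.coord N b ∈ RedPlace.Rint A N P) (x : ↥(RedPlace.chart A N b)) :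
    evChart A N b P h x = 0 ↔ (x : FL N) ∈ P.toValuationSubring.nonunits := by
  rw [evChart_eq_iff]
  have h0 : ((0 : ↥A) : Qb) = 0 := rfl
  rw [h0, map_zero, sub_zero]

/-- `x(P) = 0` iff `x` has a zero at `P`. -/
theorem evChart_eq_zero_iff_ord {b : Bool} {P : Place Qb (FL N)}
    (h : RedPlace.coord N b ∈ RedPlace.Rint A N P) (x : ↥(RedPlace.chart A N b))
    (hx : x ≠ 0) : evChart A N b P h x = 0 ↔ 0 < P.ord (x : FL N) := by
  have hx' : (x : FL N) ≠ 0 := fun h0 => hx (Subtype.ext h0)
  rw [evChart_eq_zero_iff, Fermat.Agent.S24.FFDeg.ord_pos_iff P hx',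
    ValuationSubring.mem_nonunits_iff_or]
  simp [hx']

/-- chart elements have non-negative order at the places of the chart. -/
theorem ord_nonneg {b : Bool} {P : Place Qb (FL N)}
    (h : RedPlace.coord N b ∈ RedPlace.Rint A N P) (x : ↥(RedPlace.chart A N b))
    (hx : x ≠ 0) : 0 ≤ P.ord (x : FL N) := by
  have hx' : (x : FL N) ≠ 0 := fun h0 => hx (Subtype.ext h0)
  exact (Fermat.Agent.S24.FFDeg.ord_nonneg_iff P hx').mpr (mem_of_mem_chart h x)

/-! ### POINT ⟹ PLACE -/

/-- **POINT ⟹ PLACE on the chart `b`**: every ring homomorphism `ψ : D_b → A` which is the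
identity on the constants of `A` is the evaluation at a place of the chart. -/
theorem exists_place_of_point_chart (b : Bool) (ψ : ↥(RedPlace.chart A N b) →+* ↥A)
    (hψ : ∀ a : ↥A,
      ψ ⟨algebraMap Qb (FL N) (a : Qb), ChartAdapt.algebraMap_mem_chart A N b a⟩ = a) :
    ∃ (P : Place Qb (FL N)) (h : RedPlace.coord N b ∈ RedPlace.Rint A N P),
      evChart A N b P h = ψ := by
  have := finiteDimensional_coord N b
  obtain ⟨P, hP⟩ := PointPlace.exists_place_of_point' A (RedPlace.coord N b)
    (transcendental_coord N b) (ψ.comp (ofChartInt A N b)) (fun a => hψ a)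
  have hP' : ∀ x : ↥(RedPlace.chart A N b),
      (x : FL N) - algebraMap Qb (FL N) ((ψ x : ↥A) : Qb) ∈ P.toValuationSubring.nonunits := by
    intro x
    have := hP (toChartInt A N b x)
    rwa [RingHom.comp_apply, ofChartInt_toChartInt] at this
  have h : RedPlace.coord N b ∈ RedPlace.Rint A N P :=
    ChartAdapt.mem_Rint_of_sub_mem_nonunits A N P _
      (hP' ⟨RedPlace.coord N b, ChartAdapt.coord_mem_chart A N b⟩)
  refine ⟨P, h, ?_⟩
  ext x
  exact congrArg Subtype.val ((evChart_eq_iff h x (ψ x)).mpr (hP' x))

/-- **Uniqueness**: a place of the chart is determined by its evaluation homomorphism. -/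
theorem evChart_injective {b : Bool} {P P' : Place Qb (FL N)}
    (h : RedPlace.coord N b ∈ RedPlace.Rint A N P)
    (h' : RedPlace.coord N b ∈ RedPlace.Rint A N P')
    (heq : evChart A N b P h = evChart A N b P' h') : P = P' := by
  have := finiteDimensional_coord N b
  refine PointPlace.place_eq_of_nonunits A (RedPlace.coord N b) (transcendental_coord N b) P P'
    _ _ (coord_sub_mem_nonunits A N b P h) (coord_sub_mem_nonunits A N b P' h') (fun f hf => ?_)
  have e1 := evChart_eq_zero_iff h (ofChartInt A N b ⟨f, hf⟩)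
  have e2 := evChart_eq_zero_iff h' (ofChartInt A N b ⟨f, hf⟩)
  rw [coe_ofChartInt] at e1 e2
  rw [← e1, ← e2, heq]

/-- uniqueness, value form: `P` on the chart `b`, and every chart element has at `P'` the value
it has at `P`. -/
theorem place_eq_of_values_chart {b : Bool} {P P' : Place Qb (FL N)}
    (h : RedPlace.coord N b ∈ RedPlace.Rint A N P)
    (hval : ∀ x : ↥(RedPlace.chart A N b), ∀ a : ↥A,
      (x : FL N) - algebraMap Qb (FL N) (a : Qb) ∈ P.toValuationSubring.nonunits →
        (x : FL N) - algebraMap Qb (FL N) (a : Qb) ∈ P'.toValuationSubring.nonunits) :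
    P = P' := by
  have := finiteDimensional_coord N b
  exact PointPlace.place_eq_of_values A (RedPlace.coord N b) (transcendental_coord N b) P P'
    (deg_eq_one N P) _ (coord_sub_mem_nonunits A N b P h)
    (fun f hf a ha => hval (ofChartInt A N b ⟨f, hf⟩) a ha)

/-! ### The flag of a place on a chart -/

/-- a place on the finite chart has flag `true`. -/
theorem flag_eq_true_iff_mem_Rint (P : Place Qb (FL N)) :
    RedPlace.flag A N P = true ↔ RedPlace.coord N true ∈ RedPlace.Rint A N P :=
  RedPlace.flag_eq_true_iff A N P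

/-- a place on the chart at infinity has flag `false` iff `j⁻¹(P) ∈ 𝔪_A`. -/
theorem flag_eq_false_iff_of_mem_Rint {P : Place Qb (FL N)}
    (h : RedPlace.coord N false ∈ RedPlace.Rint A N P) :
    RedPlace.flag A N P = false ↔ coordVal A N false P h ∈ IsLocalRing.maximalIdeal ↥A := by
  rw [RedPlace.flag_eq_false_iff, ChartAdapt.not_isFin_iff_exists]
  constructor
  · rintro ⟨a₀, ha₀, ha⟩
    have e : ((coordVal A N false P h : ↥A) : Qb) = (a₀ : Qb) :=
      EvalInt.sub_mem_nonunits_unique P (coord_sub_mem_nonunits A N false P h) ha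
    have e' : coordVal A N false P h = a₀ := Subtype.ext e
    rw [e']
    exact ha₀
  · intro hm
    exact ⟨_, hm, coord_sub_mem_nonunits A N false P h⟩

/-- every place lies on its own chart. -/
theorem coord_flag_mem_Rint (P : Place Qb (FL N)) :
    RedPlace.coord N (RedPlace.flag A N P) ∈ RedPlace.Rint A N P :=
  ChartAdapt.coord_mem_Rint A N P

/-- `RedPlace.chi` of a place on its own chart is the reduction of `evChart`. -/
theorem chi_eq_residue_evChart (P : Place Qb (FL N))
    (x : ↥(RedPlace.chart A N (RedPlace.flag A N P))) :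
    RedPlace.chi A N P (x : FL N) =
      IsLocalRing.residue ↥A (evChart A N _ P (coord_flag_mem_Rint P) x) := by
  rw [RedPlace.chi_of_mem A N P _ x.2, residue_evChart]

/-- two places on the chart `b` have the same values modulo `𝔪_A` on the chart ring iff the
reductions of their evaluation homomorphisms agree. -/
theorem val_eq_iff_residue_evChart {b : Bool} {P P' : Place Qb (FL N)}
    (h : RedPlace.coord N b ∈ RedPlace.Rint A N P)
    (h' : RedPlace.coord N b ∈ RedPlace.Rint A N P') :
    (∀ x ∈ RedPlace.chart A N b, RedPlace.val A N P x = RedPlace.val A N P' x) ↔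
      (IsLocalRing.residue ↥A).comp (evChart A N b P h) =
        (IsLocalRing.residue ↥A).comp (evChart A N b P' h') := by
  constructor
  · intro hv
    ext x
    rw [RingHom.comp_apply, RingHom.comp_apply, residue_evChart, residue_evChart]
    exact hv _ x.2
  · intro he x hx
    have := congrArg (fun f => f ⟨x, hx⟩) he
    simp only [RingHom.comp_apply] at this
    rwa [residue_evChart, residue_evChart] at this

end Fermat.Agent.S37.PointChart
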