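/-
S37, formal top: `SpecializationExists N p (JZero N)` from a reduction contract.

`Contract N ℓ A p` asks, at one prime `ℓ` and one place `A` over `ℓ`, for an additive map
`red : JZero N →+ X` with
  (a) `red (τ • y) = red y` for `τ` in the inertia group of `A`,
  (b) `red (σ • σ • y - T_ℓ (σ • y) + ℓ • y) = 0` for every Frobenius element `σ` at `A`
      (`T_ℓ = heckeOperatorAlong (AlgebraicClosure ℚ) N ℓ`, the Prelude's operator),
  (c) `red` injective on `p`-power torsion.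
`result_of_contract` turns `Contract` at all `ℓ ∤ N * p` into the frozen statement S37.
-/
import Fermat.Statements.S37
import Fermat.Agent.S37.Formal
import Fermat.Agent.S54.Frobenius

set_option autoImplicit false

namespace Fermat.Agent.S37.TopFormal

open ModularCurve

/-- The reduction contract at one prime `ℓ` and one place `A` above it. -/
def Contract (N : ℕ) [NeZero N] (ℓ : ℕ) [NeZero ℓ] (A : ValuationSubring (AlgebraicClosure ℚ))
    (p : ℕ) : Prop :=
  ∃ (X : Type) (_ : AddCommGroup X) (red : JZero N →+ X),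
    (∀ τ ∈ A.inertiaSubgroupIn ℚ, ∀ y : JZero N, red (τ • y) = red y) ∧
    (∀ σ : AlgebraicClosure ℚ ≃ₐ[ℚ] AlgebraicClosure ℚ, A.IsFrobeniusAt σ ℓ → ∀ y : JZero N,
      red (σ • σ • y - heckeOperatorAlong (AlgebraicClosure ℚ) N ℓ (σ • y) + ℓ • y) = 0) ∧
    (∀ x : JZero N, (∃ n : ℕ, p ^ n • x = 0) → red x = 0 → x = 0)

theorem result_of_contract (N p : ℕ) [NeZero N] (hcomm : ModularCurve.HeckeOperatorsCommuteBar N)
    (H : ∀ (ℓ : ℕ) (hℓ : ℓ.Prime), ¬ ℓ ∣ N * p →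
      ∀ A : ValuationSubring (AlgebraicClosure ℚ), A.LiesOverPrime ℓ →
        haveI : NeZero ℓ := ⟨hℓ.ne_zero⟩
        Contract N ℓ A p) :
    letI := ModularCurve.heckeModuleBar N
    ∀ (_ : SMulCommClass (AlgebraicClosure ℚ ≃ₐ[ℚ] AlgebraicClosure ℚ) ModularCurve.HeckeAlg
      (ModularCurve.JZero N)),
      ModularCurve.SpecializationExists (K := ℚ) (L := AlgebraicClosure ℚ) N p
        (ModularCurve.JZero N) := by
  letI := ModularCurve.heckeModuleBar N
  intro _ ℓ hℓ hℓNp A hA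
  haveI : NeZero ℓ := ⟨hℓ.ne_zero⟩
  haveI := Fermat.Agent.S54.isAlgClosure_rat_algebraicClosure
  obtain ⟨σ₀, hσ₀⟩ :=
    Fermat.Agent.S54.exists_isFrobeniusAt_of_liesOverPrime (AlgebraicClosure ℚ) ℓ hℓ A hA
  obtain ⟨X, _, red, hI, hES, hinj⟩ := H ℓ hℓ hℓNp A hA
  refine Formal.exists_specialization_of_red (K := ℚ) p A ℓ hℓ σ₀ hσ₀ red hI (fun y => ?_) hinj
  have h := hES σ₀ hσ₀ y
  have e : (heckeGen (⟨ℓ, hℓ⟩ : Nat.Primes) • (σ₀ • y) : JZero N) =
      heckeOperatorAlong (AlgebraicClosure ℚ) N ℓ (σ₀ • y) :=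
    heckeModuleBar_heckeGen_smul hcomm ⟨ℓ, hℓ⟩ (σ₀ • y)
  rw [e]
  exact h

end Fermat.Agent.S37.TopFormal
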