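/-
S37, skeleton: the reduction contract `TopFormal.Contract N ℓ A p` from the five block
deliverables, for the coarse reduction map `r A N` of `RedPlace`.

The target of the reduction map is `X := JZero N ⧸ TorsionInj.redKer N (r A N)`, the quotient of
`J₀(N)` by the classes of the degree-zero divisors killed by `r_*`.

* (a) inertia invariance: from `r (τ P) = r P` for `τ` in the inertia group  (block W3);
* (b) the Eichler--Shimura relation: from `r (σ P) = σ (r P)` for `σ` in the decomposition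
  group (block W3) and the congruence `r_* (T_ℓ P) = σ (r P) + ℓ σ⁻¹ (r P)` (block W4), the
  operator on classes being the correspondence on divisors (block W0);
* (c) injectivity on `p`-power torsion: `TorsionInj.mk'_injective_torsion` (block (c)) from
  the zero-sum contract (block W2).

The five block deliverables are hypotheses here; `result_of_package` is the frozen statement
S37 modulo them.
-/
import Fermat.Agent.S37.TopFormal
import Fermat.Agent.S37.TorsionInj
import Fermat.Agent.S37.RedPlace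

set_option autoImplicit false
set_option synthInstance.maxHeartbeats 400000
set_option linter.style.haveILetI false

noncomputable section

open AlgebraicCurve ModularCurve
open Fermat.Agent.S18.S24Export

namespace Fermat.Agent.S37.Skeleton

open Fermat.Agent.S37.RedPlace

local notation "Qb" => AlgebraicClosure ℚ

section Package

variable (N : ℕ) [NeZero N] (ℓ : ℕ) [NeZero ℓ] (A : ValuationSubring Qb)

/-- Block (W3), inertia part: the reduction of a place does not change under the inertia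
group. -/
def RInertia : Prop :=
  ∀ τ ∈ A.inertiaSubgroupIn ℚ, ∀ P : Place Qb (FL N), r A N (gal N τ • P) = r A N P

/-- Block (W3), decomposition part: the reduction is equivariant under the decomposition
group. -/
def RDecomp : Prop :=
  ∀ σ ∈ A.decompositionSubgroup ℚ, ∀ P : Place Qb (FL N),
    r A N (gal N σ • P) = galSet N σ (r A N P)

/-- Block (W4), the Eichler--Shimura congruence on points: `r_* (T_ℓ P) = σ (r P) + ℓ σ⁻¹ (r P)`
for every Frobenius element `σ` at `A`. -/
def RHecke : Prop :=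
  ∀ σ₀ : Qb ≃ₐ[ℚ] Qb, A.IsFrobeniusAt σ₀ ℓ →
    ∀ (hα : HeckeAlphaBarIntegral Qb N ℓ) (hβ : HeckeBetaBarIntegral Qb N ℓ)
      [HasPrincipalDivisors Qb (FL (N * ℓ))] (P : Place Qb (FL N)),
      Finsupp.mapDomain (r A N) (heckeDivBar hα hβ (Finsupp.single P 1)) =
        Finsupp.single (galSet N σ₀ (r A N P)) 1 +
          Finsupp.single (galSet N σ₀⁻¹ (r A N P)) (ℓ : ℤ)

/-- Block (W2): the zero-sum contract at all primes `q ≠ ℓ`. -/
def RZero : Prop :=
  ∀ q : ℕ, q.Prime → q ≠ ℓ → TorsionInj.ZeroSumConst A N (r A N) q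

end Package

section Divisors

variable {N : ℕ} {ℓ : ℕ} {A : ValuationSubring Qb}

/-- `r_*` of a translate, inertia case. -/
theorem mapDomain_r_smul_of_inertia (hI : RInertia N A) {τ : Qb ≃ₐ[ℚ] Qb}
    (hτ : τ ∈ A.inertiaSubgroupIn ℚ) (E : Divisor Qb (FL N)) :
    Finsupp.mapDomain (r A N) (gal N τ • E) = Finsupp.mapDomain (r A N) E := by
  rw [SemilinearAut.divisor_smul_def, ← Finsupp.mapDomain_comp]
  congr 1
  funext P
  exact hI τ hτ P

/-- `r_*` of a translate, decomposition case. -/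
theorem mapDomain_r_smul_of_decomp (hD : RDecomp N A) {σ : Qb ≃ₐ[ℚ] Qb}
    (hσ : σ ∈ A.decompositionSubgroup ℚ) (E : Divisor Qb (FL N)) :
    Finsupp.mapDomain (r A N) (gal N σ • E) =
      Finsupp.mapDomain (galSet N σ) (Finsupp.mapDomain (r A N) E) := by
  rw [SemilinearAut.divisor_smul_def, ← Finsupp.mapDomain_comp, ← Finsupp.mapDomain_comp]
  congr 1
  funext P
  exact hD σ hσ P

/-- The Eichler--Shimura relation on divisors, killed by `r_*`. -/
theorem mapDomain_r_es [NeZero N] [NeZero ℓ] (hD : RDecomp N A) (hT : RHecke N ℓ A)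
    {σ : Qb ≃ₐ[ℚ] Qb}
    (hσ : A.IsFrobeniusAt σ ℓ)
    (hα : HeckeAlphaBarIntegral Qb N ℓ) (hβ : HeckeBetaBarIntegral Qb N ℓ)
    [HasPrincipalDivisors Qb (FL (N * ℓ))] (E : Divisor Qb (FL N)) :
    Finsupp.mapDomain (r A N)
      (gal N σ • gal N σ • E - heckeDivBar hα hβ (gal N σ • E) + ℓ • E) = 0 := by
  have hσD : σ ∈ A.decompositionSubgroup ℚ := hσ.mem_decompositionSubgroup
  -- the additive map `E ↦ r_* (σ σ E - T (σ E) + ℓ E)`
  let g : Divisor Qb (FL N) →+ Divisor Qb (FL N) :=
    DistribSMul.toAddMonoidHom (Divisor Qb (FL N)) (gal N σ)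
  let Φ : Divisor Qb (FL N) →+ (Set (FL N) →₀ ℤ) :=
    (Finsupp.mapDomain.addMonoidHom (r A N)).comp
      (g.comp g - (heckeDivBar hα hβ).comp g + ℓ • AddMonoidHom.id _)
  have hΦ : ∀ E : Divisor Qb (FL N), Φ E =
      Finsupp.mapDomain (r A N)
        (gal N σ • gal N σ • E - heckeDivBar hα hβ (gal N σ • E) + ℓ • E) := fun E => rfl
  rw [← hΦ]
  have h1 : ∀ P : Place Qb (FL N), Φ (Finsupp.single P 1) = 0 := by
    intro P
    rw [hΦ, Finsupp.mapDomain_add, Finsupp.mapDomain_sub]
    rw [SemilinearAut.smul_single, SemilinearAut.smul_single, Finsupp.mapDomain_single,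
      hT σ hσ hα hβ (gal N σ • P), hD σ hσD (gal N σ • P), hD σ hσD P, galSet_inv_galSet,
      Finsupp.smul_single, Finsupp.mapDomain_single, nsmul_one]
    abel
  have hz : Φ = 0 := by
    refine Finsupp.addHom_ext fun P n => ?_
    have e : (Finsupp.single P n : Divisor Qb (FL N)) = n • Finsupp.single P 1 := by
      rw [Finsupp.smul_single, smul_eq_mul, mul_one]
    rw [e, map_zsmul, h1, smul_zero, AddMonoidHom.zero_apply]
  rw [hz, AddMonoidHom.zero_apply]

end Divisors

section Contract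

variable (N : ℕ) [NeZero N] (ℓ : ℕ) [NeZero ℓ] (A : ValuationSubring Qb)

/-- **The reduction contract from the five block deliverables.** -/
theorem contract_of_package (hℓ : ℓ.Prime) (p : ℕ) (hℓNp : ¬ ℓ ∣ N * p)
    (hA : A.LiesOverPrime ℓ)
    (hH : HeckeInputsAlong Qb N ℓ)
    (hI : RInertia N A) (hD : RDecomp N A) (hT : RHecke N ℓ A) (hZ : RZero N ℓ A) :
    TopFormal.Contract N ℓ A p := by
  obtain ⟨hα, hβ, hP, hfin, hFI, hN⟩ := hH
  haveI := hP
  refine ⟨JZero N ⧸ TorsionInj.redKer N (r A N), inferInstance,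
    QuotientAddGroup.mk' (TorsionInj.redKer N (r A N)), ?_, ?_, ?_⟩
  · -- (a)
    intro τ hτ y
    have h0 : QuotientAddGroup.mk' (TorsionInj.redKer N (r A N)) (τ • y - y) = 0 := by
      refine (QuotientAddGroup.eq_zero_iff _).mpr ?_
      obtain ⟨E, rfl⟩ := Pic0.mk_surjective y
      rw [galois_smul_pic0_def, SemilinearAut.pic0_smul_mk]
      refine ⟨SemilinearAut.degZeroSMulHom (gal N τ) E - E, ?_, rfl⟩
      rw [AddSubgroup.coe_sub, SemilinearAut.coe_degZeroSMulHom, Finsupp.mapDomain_sub,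
        mapDomain_r_smul_of_inertia hI hτ, sub_self]
    rw [map_sub, sub_eq_zero] at h0
    exact h0
  · -- (b)
    intro σ hσ y
    refine (QuotientAddGroup.eq_zero_iff _).mpr ?_
    obtain ⟨E, rfl⟩ := Pic0.mk_surjective y
    rw [heckeOperatorAlong_eq hα hβ hFI hfin hN]
    rw [galois_smul_pic0_def, galois_smul_pic0_def, SemilinearAut.pic0_smul_mk,
      SemilinearAut.pic0_smul_mk]
    refine ⟨SemilinearAut.degZeroSMulHom (gal N σ) (SemilinearAut.degZeroSMulHom (gal N σ) E) -
      Pic0.degZeroCorrespondence (heckeBetaBar Qb N ℓ) (heckeAlphaBar Qb N ℓ) hβ hα hFI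
        (SemilinearAut.degZeroSMulHom (gal N σ) E) + ℓ • E, ?_, rfl⟩
    exact mapDomain_r_es hD hT hσ hα hβ (E : Divisor Qb (FL N))
  · -- (c)
    intro x hpx hx
    exact TorsionInj.mk'_injective_torsion hℓ hℓNp A hA hZ x hpx hx

end Contract

/-- **S37 from the five block deliverables** at every prime `ℓ ∤ N * p` and every place `A`
above `ℓ`. -/
theorem result_of_package (N p : ℕ) [NeZero N] (hcomm : HeckeOperatorsCommuteBar N)
    (H : ∀ (ℓ : ℕ) (hℓ : ℓ.Prime), ¬ ℓ ∣ N * p →
      ∀ A : ValuationSubring Qb, A.LiesOverPrime ℓ →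
        haveI : NeZero ℓ := ⟨hℓ.ne_zero⟩
        HeckeInputsAlong Qb N ℓ ∧ RInertia N A ∧ RDecomp N A ∧ RHecke N ℓ A ∧ RZero N ℓ A) :
    letI := heckeModuleBar N
    ∀ (_ : SMulCommClass (Qb ≃ₐ[ℚ] Qb) HeckeAlg (JZero N)),
      SpecializationExists (K := ℚ) (L := Qb) N p (JZero N) := by
  refine TopFormal.result_of_contract N p hcomm fun ℓ hℓ hℓNp A hA => ?_
  haveI : NeZero ℓ := ⟨hℓ.ne_zero⟩
  obtain ⟨hH, hI, hD, hT, hZ⟩ := H ℓ hℓ hℓNp A hA
  exact contract_of_package N ℓ A hℓ p hℓNp hA hH hI hD hT hZ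

end Fermat.Agent.S37.Skeleton
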